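import Mathlib

/-!
# PROGRAM MR (S44), strand L, brick (L.PLACE): places of a function field are DVRs (helper87)

Level-free core, Mathlib only.  `k` a field over `κ`, `X : k` transcendental over `κ`, and
`k` of BOUNDED DEGREE over `κ(X)` (`BddDeg κ X n`: every `x : k` is a root of a nonzero
polynomial of degree `≤ n` with coefficients in `κ[X]`; implied by `[k : κ(X)] ≤ n`, no
separability).  Then every valuation subring `w ≠ ⊤` of `k` containing `κ` is a discrete
valuation ring.

* `isDiscreteValuationRing_of_pow_eq` : abstract criterion (`v(x)^N ∈ v(π)^ℤ` for all `x ≠ 0`).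
* `isDiscreteValuationRing_of_bddDeg` : the theorem.
* `exists_uniformizer`                : field-level form `x = u * t ^ m`, `u` a `w`-unit.
* `placeDVR_core`                     : `IsPrincipalIdealRing w ∧ (X ∈ w ∨ X⁻¹ ∈ w)`.

No integral closures, no Dedekind domains: the value group is computed directly.
-/

set_option autoImplicit false

namespace Fermat.Agent.S44.L.PlaceDVR

open Polynomial

section Abstract

variable {k : Type*} [Field k]

/-- Ultrametric principle: in a vanishing finite sum with a nonzero term, two distinct nonzero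
terms have the same valuation. -/
theorem exists_ne_valuation_eq {Γ₀ : Type*} [LinearOrderedCommGroupWithZero Γ₀]
    (v : Valuation k Γ₀) {ι : Type*} (s : Finset ι) (T : ι → k)
    (hsum : ∑ i ∈ s, T i = 0) (hne : ∃ i ∈ s, T i ≠ 0) :
    ∃ i ∈ s, ∃ j ∈ s, i ≠ j ∧ T i ≠ 0 ∧ T j ≠ 0 ∧ v (T i) = v (T j) := by
  classical
  obtain ⟨i0, hi0, hT0⟩ := hne
  obtain ⟨i, hi, hmax⟩ := Finset.exists_max_image s (fun i => v (T i)) ⟨i0, hi0⟩
  have hTi : T i ≠ 0 := by
    intro h
    have h1 := hmax i0 hi0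
    rw [h, map_zero] at h1
    exact hT0 ((Valuation.zero_iff v).mp (le_antisymm h1 zero_le))
  have hvi : v (T i) ≠ 0 := (Valuation.ne_zero_iff v).mpr hTi
  by_contra hcon
  have hlt : ∀ j ∈ s.erase i, v (T j) < v (T i) := by
    intro j hj
    obtain ⟨hji, hjs⟩ := Finset.mem_erase.mp hj
    rcases eq_or_ne (T j) 0 with h0 | h0
    · rw [h0, map_zero]; exact zero_lt_iff.mpr hvi
    · exact lt_of_le_of_ne (hmax j hjs) (fun h => hcon ⟨i, hi, j, hjs, Ne.symm hji, hTi, h0, h.symm⟩)
  have h2 : v (∑ j ∈ s.erase i, T j) < v (T i) := Valuation.map_sum_lt v hvi hlt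
  have h3 : T i = - ∑ j ∈ s.erase i, T j := by
    rw [← Finset.add_sum_erase s T hi] at hsum
    exact eq_neg_of_add_eq_zero_left hsum
  have h4 : v (T i) = v (∑ j ∈ s.erase i, T j) := by
    conv_lhs => rw [h3]
    exact Valuation.map_neg v _
  exact lt_irrefl _ (h4 ▸ h2)

/-- From `v(x)^N ∈ v(π)^ℤ` for all `x ≠ 0` to a uniformiser: `v(x) ∈ v(t)^ℤ`. -/
theorem exists_uniformizer_of_pow_eq (w : ValuationSubring k) (π : k) (hπ0 : π ≠ 0)
    (hπ : w.valuation π < 1) (N : ℕ) (hN : 0 < N)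
    (h : ∀ x : k, x ≠ 0 → ∃ m : ℤ, w.valuation x ^ N = w.valuation π ^ m) :
    ∃ t : k, t ≠ 0 ∧ w.valuation t < 1 ∧
      ∀ x : k, x ≠ 0 → ∃ q : ℤ, w.valuation x = w.valuation t ^ q := by
  classical
  have hvπ0 : w.valuation π ≠ 0 := (Valuation.ne_zero_iff _).mpr hπ0
  have hvπpos : 0 < w.valuation π := zero_lt_iff.mpr hvπ0
  choose! μ hμ using h
  have hex : ∃ d : ℕ, 0 < d ∧ ∃ x : k, x ≠ 0 ∧ μ x = (d : ℤ) := by
    refine ⟨N, hN, π, hπ0, ?_⟩
    have h1 := hμ π hπ0
    have h2 : w.valuation π ^ ((N : ℕ) : ℤ) = w.valuation π ^ μ π := by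
      rw [zpow_natCast]; exact h1
    exact (zpow_right_injective₀ hvπpos hπ.ne h2).symm
  obtain ⟨hd, t, ht0, hμt⟩ := Nat.find_spec hex
  have hdmin : ∀ m : ℕ, m < Nat.find hex → ¬ (0 < m ∧ ∃ x : k, x ≠ 0 ∧ μ x = (m : ℤ)) :=
    fun m hm => Nat.find_min hex hm
  set d := Nat.find hex with hd_def
  have hvt0 : w.valuation t ≠ 0 := (Valuation.ne_zero_iff _).mpr ht0
  have hvtN : w.valuation t ^ N = w.valuation π ^ (d : ℤ) := by
    rw [← hμt]; exact hμ t ht0
  have hvt1 : w.valuation t < 1 := by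
    by_contra hge
    have h1 : 1 ≤ w.valuation t ^ N := one_le_pow₀ (not_lt.mp hge)
    rw [hvtN] at h1
    have h2 := (one_le_zpow_iff_right_of_lt_one₀ hvπpos hπ).mp h1
    omega
  refine ⟨t, ht0, hvt1, fun x hx => ?_⟩
  have hdpos : (0 : ℤ) < d := by exact_mod_cast hd
  set q := μ x / (d : ℤ) with hq
  set r := μ x % (d : ℤ) with hr
  have hr0 : 0 ≤ r := Int.emod_nonneg _ hdpos.ne'
  have hrd : r < d := Int.emod_lt_of_pos _ hdpos
  have hdecomp : μ x = r + d * q := (Int.emod_add_mul_ediv (μ x) d).symm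
  have hy0 : x * t ^ (-q) ≠ 0 := mul_ne_zero hx (zpow_ne_zero _ ht0)
  have hyN : w.valuation (x * t ^ (-q)) ^ N = w.valuation π ^ r := by
    have e1 : (w.valuation t ^ (-q)) ^ N = w.valuation π ^ (-(d * q)) := by
      rw [← zpow_natCast (w.valuation t ^ (-q)) N, ← zpow_mul, mul_comm (-q) (N : ℤ), zpow_mul,
        zpow_natCast, hvtN, ← zpow_mul]
      congr 1; ring
    rw [map_mul, map_zpow₀, mul_pow, hμ x hx, e1, ← zpow_add₀ hvπ0]
    congr 1
    rw [hdecomp]; ring
  have hμy : μ (x * t ^ (-q)) = r :=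
    zpow_right_injective₀ hvπpos hπ.ne ((hμ _ hy0).symm.trans hyN)
  have hr_eq : r = 0 := by
    by_contra hne
    have hrpos : 0 < r := lt_of_le_of_ne hr0 (Ne.symm hne)
    apply hdmin r.toNat (by omega)
    refine ⟨by omega, x * t ^ (-q), hy0, ?_⟩
    rw [hμy]; omega
  have hy1 : w.valuation (x * t ^ (-q)) = 1 := by
    rw [hr_eq, zpow_zero] at hyN
    exact (pow_eq_one_iff_of_nonneg zero_le hN.ne').mp hyN
  refine ⟨q, ?_⟩
  have e2 : w.valuation x = w.valuation (x * t ^ (-q)) * w.valuation t ^ q := by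
    rw [map_mul, map_zpow₀, mul_assoc, ← zpow_add₀ hvt0, neg_add_cancel, zpow_zero, mul_one]
  rw [e2, hy1, one_mul]

/-- A valuation subring all of whose values are integer powers of the value of one
non-unit `t` is a discrete valuation ring. -/
theorem isDiscreteValuationRing_of_uniformizer (w : ValuationSubring k) (t : k) (ht0 : t ≠ 0)
    (ht : w.valuation t < 1)
    (h : ∀ x : k, x ≠ 0 → ∃ q : ℤ, w.valuation x = w.valuation t ^ q) :
    IsDiscreteValuationRing w := by
  have hvt0 : w.valuation t ≠ 0 := (Valuation.ne_zero_iff _).mpr ht0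
  have hvtpos : 0 < w.valuation t := zero_lt_iff.mpr hvt0
  have htmem : t ∈ w := (w.valuation_le_one_iff t).mp ht.le
  have hexp : ∀ (a : w) (i : ℤ), w.valuation (a : k) = w.valuation t ^ i → 0 ≤ i := by
    intro a i hi
    have h1 := w.valuation_le_one a
    rw [hi] at h1
    exact (zpow_le_one_iff_right_of_lt_one₀ hvtpos ht).mp h1
  apply IsDiscreteValuationRing.ofHasUnitMulPowIrreducibleFactorization
  refine ⟨⟨t, htmem⟩, ⟨?_, ?_⟩, ?_⟩
  · rw [w.valuation_eq_one_iff]
    exact ht.ne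
  · intro a b hab
    have habk : t = (a : k) * (b : k) := congrArg Subtype.val hab
    have ha0 : (a : k) ≠ 0 := by
      intro h0; rw [h0, zero_mul] at habk; exact ht0 habk
    have hb0 : (b : k) ≠ 0 := by
      intro h0; rw [h0, mul_zero] at habk; exact ht0 habk
    obtain ⟨i, hi⟩ := h a ha0
    obtain ⟨j, hj⟩ := h b hb0
    have hi0 := hexp a i hi
    have hj0 := hexp b j hj
    have hij : i + j = 1 := by
      have e : w.valuation t ^ (i + j) = w.valuation t ^ (1 : ℤ) := by
        rw [zpow_add₀ hvt0, ← hi, ← hj, zpow_one, ← map_mul, ← habk]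
      exact zpow_right_injective₀ hvtpos ht.ne e
    rcases (by omega : i = 0 ∨ j = 0) with h0 | h0
    · left
      rw [w.valuation_eq_one_iff, hi, h0, zpow_zero]
    · right
      rw [w.valuation_eq_one_iff, hj, h0, zpow_zero]
  · intro x hx
    have hx0 : (x : k) ≠ 0 := fun h0 => hx (Subtype.ext h0)
    obtain ⟨q, hq⟩ := h x hx0
    have hq0 := hexp x q hq
    refine ⟨q.toNat, ?_⟩
    have hu : w.valuation ((x : k) * (t ^ q.toNat)⁻¹) = 1 := by
      rw [map_mul, map_inv₀, map_pow, hq, ← zpow_natCast, Int.toNat_of_nonneg hq0,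
        mul_inv_cancel₀ (zpow_ne_zero _ hvt0)]
    have hum : (x : k) * (t ^ q.toNat)⁻¹ ∈ w := (w.valuation_le_one_iff _).mp hu.le
    have huu : IsUnit (⟨_, hum⟩ : w) := (w.valuation_eq_one_iff _).mpr hu
    obtain ⟨u, hu'⟩ := huu
    refine ⟨u, ?_⟩
    rw [hu']
    apply Subtype.ext
    show t ^ q.toNat * ((x : k) * (t ^ q.toNat)⁻¹) = x
    field_simp

/-- **Abstract criterion.**  If `π` is a nonzero non-unit of `w` and `v(x)^N ∈ v(π)^ℤ` for
every `x ≠ 0`, then `w` is a discrete valuation ring. -/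
theorem isDiscreteValuationRing_of_pow_eq (w : ValuationSubring k) (π : k) (hπ0 : π ≠ 0)
    (hπ : w.valuation π < 1) (N : ℕ) (hN : 0 < N)
    (h : ∀ x : k, x ≠ 0 → ∃ m : ℤ, w.valuation x ^ N = w.valuation π ^ m) :
    IsDiscreteValuationRing w := by
  obtain ⟨t, ht0, ht, h'⟩ := exists_uniformizer_of_pow_eq w π hπ0 hπ N hN h
  exact isDiscreteValuationRing_of_uniformizer w t ht0 ht h'

end Abstract

section FunctionField

variable {κ k : Type*} [Field κ] [Field k] [Algebra κ k]

/-- `k` has degree at most `n` over `κ(X)`, in polynomial form: every `x : k` is a root of a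
nonzero polynomial of degree `≤ n` whose coefficients are polynomials in `X` over `κ`. -/
def BddDeg (κ : Type*) {k : Type*} [Field κ] [Field k] [Algebra κ k] (X : k) (n : ℕ) : Prop :=
  ∀ x : k, ∃ c : ℕ → κ[X], (∃ i, i ≤ n ∧ c i ≠ 0) ∧
    ∑ i ∈ Finset.range (n + 1), aeval X (c i) * x ^ i = 0

/-- Nonzero constants are units of `w`. -/
theorem valuation_algebraMap_eq_one (w : ValuationSubring k)
    (hκ : ∀ c : κ, algebraMap κ k c ∈ w) {c : κ} (hc : c ≠ 0) :
    w.valuation (algebraMap κ k c) = 1 := by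
  have h1 := (w.valuation_le_one_iff _).mpr (hκ c)
  have h2 := (w.valuation_le_one_iff _).mpr (hκ c⁻¹)
  rw [map_inv₀, map_inv₀] at h2
  have h0 : w.valuation (algebraMap κ k c) ≠ 0 :=
    (Valuation.ne_zero_iff _).mpr (by simpa using hc)
  exact le_antisymm h1 ((inv_le_one₀ (zero_lt_iff.mpr h0)).mp h2)

/-- Polynomials in an element of `w` over `κ ⊆ w` are in `w`. -/
theorem aeval_mem (w : ValuationSubring k) (hκ : ∀ c : κ, algebraMap κ k c ∈ w) {X : k}
    (hX : X ∈ w) (f : κ[X]) : aeval X f ∈ w := by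
  rw [aeval_eq_sum_range]
  refine sum_mem fun i _ => ?_
  rw [Algebra.smul_def]
  exact mul_mem (hκ _) (pow_mem hX i)

/-- If `X ∉ w`, the value of a nonzero polynomial in `X` is `v(X) ^ deg`. -/
theorem valuation_aeval_of_not_mem (w : ValuationSubring k)
    (hκ : ∀ c : κ, algebraMap κ k c ∈ w) {X : k} (hX : X ∉ w) (f : κ[X]) (hf : f ≠ 0) :
    w.valuation (aeval X f) = w.valuation X ^ f.natDegree := by
  have hvX : 1 < w.valuation X := by
    by_contra h
    exact hX ((w.valuation_le_one_iff X).mp (not_lt.mp h))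
  have hvX0 : w.valuation X ≠ 0 := ne_of_gt (lt_trans zero_lt_one hvX)
  rw [aeval_eq_sum_range, Finset.sum_range_succ]
  have hc : f.coeff f.natDegree ≠ 0 := by
    rw [coeff_natDegree]; exact leadingCoeff_ne_zero.mpr hf
  have hlead : w.valuation (f.coeff f.natDegree • X ^ f.natDegree)
      = w.valuation X ^ f.natDegree := by
    rw [Algebra.smul_def, map_mul, valuation_algebraMap_eq_one w hκ hc, one_mul, map_pow]
  have hlow : w.valuation (∑ i ∈ Finset.range f.natDegree, f.coeff i • X ^ i)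
      < w.valuation (f.coeff f.natDegree • X ^ f.natDegree) := by
    rw [hlead]
    refine Valuation.map_sum_lt _ (pow_ne_zero _ hvX0) fun i hi => ?_
    rw [Algebra.smul_def, map_mul, map_pow]
    calc w.valuation (algebraMap κ k (f.coeff i)) * w.valuation X ^ i
        ≤ 1 * w.valuation X ^ i :=
          mul_le_mul_left ((w.valuation_le_one_iff _).mpr (hκ _)) _
      _ = w.valuation X ^ i := one_mul _
      _ < w.valuation X ^ f.natDegree := pow_lt_pow_right₀ hvX (Finset.mem_range.mp hi)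
  rw [Valuation.map_add_eq_of_lt_right _ hlow, hlead]

/-- If `X ∈ w` and some nonzero polynomial in `X` is a non-unit of `w`, then the values of
polynomials in `X` are the powers of the value of one of them. -/
theorem exists_prime_elt_of_mem (w : ValuationSubring k)
    (hκ : ∀ c : κ, algebraMap κ k c ∈ w) {X : k} (hXt : Transcendental κ X) (hX : X ∈ w)
    (hnt : ∃ f : κ[X], f ≠ 0 ∧ w.valuation (aeval X f) < 1) :
    ∃ π : k, π ≠ 0 ∧ w.valuation π < 1 ∧
      ∀ f : κ[X], f ≠ 0 → ∃ m : ℤ, w.valuation (aeval X f) = w.valuation π ^ m := by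
  classical
  have hex : ∃ d : ℕ, ∃ f : κ[X], f ≠ 0 ∧ w.valuation (aeval X f) < 1 ∧ f.natDegree = d := by
    obtain ⟨f, hf0, hf⟩ := hnt
    exact ⟨f.natDegree, f, hf0, hf, rfl⟩
  obtain ⟨f0, hf00, hf0v, hf0d⟩ := Nat.find_spec hex
  have hmin : ∀ g : κ[X], g ≠ 0 → g.natDegree < f0.natDegree →
      w.valuation (aeval X g) = 1 := by
    intro g hg0 hgd
    have h1 : ¬ w.valuation (aeval X g) < 1 := fun hlt =>
      Nat.find_min hex (hf0d ▸ hgd) ⟨g, hg0, hlt, rfl⟩
    exact le_antisymm ((w.valuation_le_one_iff _).mpr (aeval_mem w hκ hX g)) (not_lt.mp h1)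
  have hinj : ∀ g : κ[X], g ≠ 0 → aeval X g ≠ 0 := fun g hg0 h0 =>
    hg0 ((transcendental_iff.mp hXt) g h0)
  have hd0 : f0.natDegree ≠ 0 := by
    intro h0
    have hC : f0 = C (f0.coeff 0) := eq_C_of_natDegree_eq_zero h0
    have hc0 : f0.coeff 0 ≠ 0 := fun h => hf00 (by rw [hC, h, C_0])
    rw [hC, aeval_C, valuation_algebraMap_eq_one w hκ hc0] at hf0v
    exact lt_irrefl _ hf0v
  refine ⟨aeval X f0, hinj f0 hf00, hf0v, ?_⟩
  have key : ∀ n : ℕ, ∀ f : κ[X], f ≠ 0 → f.natDegree ≤ n →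
      ∃ m : ℕ, w.valuation (aeval X f) = w.valuation (aeval X f0) ^ m := by
    intro n
    induction n with
    | zero =>
      intro f hf hfd
      refine ⟨0, ?_⟩
      rw [pow_zero]
      exact hmin f hf (lt_of_le_of_lt hfd (Nat.pos_of_ne_zero hd0))
    | succ n ih =>
      intro f hf hfd
      have hdm : f0 * (f / f0) + f % f0 = f := EuclideanDomain.div_add_mod f f0
      by_cases hr : f % f0 = 0
      · rw [hr, add_zero] at hdm
        have hq0 : f / f0 ≠ 0 := by
          intro h0; rw [h0, mul_zero] at hdm; exact hf hdm.symm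
        have hdeg : f.natDegree = f0.natDegree + (f / f0).natDegree := by
          conv_lhs => rw [← hdm]
          exact natDegree_mul hf00 hq0
        obtain ⟨m, hm⟩ := ih (f / f0) hq0 (by omega)
        refine ⟨m + 1, ?_⟩
        rw [← hdm, map_mul, map_mul, hm, pow_succ, mul_comm]
      · have hrd : (f % f0).natDegree < f0.natDegree :=
          natDegree_lt_natDegree hr (degree_mod_lt f hf00)
        have hr1 := hmin (f % f0) hr hrd
        refine ⟨0, ?_⟩
        rw [pow_zero, ← hdm, map_add, map_mul]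
        have hlt : w.valuation (aeval X f0 * aeval X (f / f0))
            < w.valuation (aeval X (f % f0)) := by
          rw [hr1, map_mul]
          calc w.valuation (aeval X f0) * w.valuation (aeval X (f / f0))
              ≤ w.valuation (aeval X f0) * 1 :=
                mul_le_mul_right ((w.valuation_le_one_iff _).mpr (aeval_mem w hκ hX _)) _
            _ = w.valuation (aeval X f0) := mul_one _
            _ < 1 := hf0v
        rw [Valuation.map_add_eq_of_lt_right _ hlt, hr1]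
  intro f hf
  obtain ⟨m, hm⟩ := key f.natDegree f hf le_rfl
  exact ⟨m, by rw [zpow_natCast]; exact hm⟩

/-- Bounded degree: if the values of nonzero polynomials in `X` are integer powers of `g`,
then for every `x ≠ 0` some power `v(x)^e`, `1 ≤ e ≤ n`, is an integer power of `g`. -/
theorem exists_pow_eq_of_bddDeg (w : ValuationSubring k) {X : k} (hXt : Transcendental κ X)
    {n : ℕ} (hdeg : BddDeg κ X n) (g : w.ValueGroup) (hg0 : g ≠ 0)
    (hval : ∀ f : κ[X], f ≠ 0 → ∃ m : ℤ, w.valuation (aeval X f) = g ^ m)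
    (x : k) (hx : x ≠ 0) :
    ∃ e : ℕ, 1 ≤ e ∧ e ≤ n ∧ ∃ m : ℤ, w.valuation x ^ e = g ^ m := by
  obtain ⟨c, ⟨i0, hi0, hci0⟩, hsum⟩ := hdeg x
  have hinj : ∀ f : κ[X], f ≠ 0 → aeval X f ≠ 0 := fun f hf0 h0 =>
    hf0 ((transcendental_iff.mp hXt) f h0)
  have hvx0 : w.valuation x ≠ 0 := (Valuation.ne_zero_iff _).mpr hx
  -- two terms of equal valuation
  obtain ⟨i, hi, j, hj, hij, hTi, hTj, hv⟩ :=
    exists_ne_valuation_eq w.valuation (Finset.range (n + 1))
      (fun i => aeval X (c i) * x ^ i) hsum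
      ⟨i0, Finset.mem_range.mpr (by omega), mul_ne_zero (hinj _ hci0) (pow_ne_zero _ hx)⟩
  -- the ordered case
  have main : ∀ a b : ℕ, a < b → b ≤ n → aeval X (c a) * x ^ a ≠ 0 →
      aeval X (c b) * x ^ b ≠ 0 →
      w.valuation (aeval X (c a) * x ^ a) = w.valuation (aeval X (c b) * x ^ b) →
      ∃ e : ℕ, 1 ≤ e ∧ e ≤ n ∧ ∃ m : ℤ, w.valuation x ^ e = g ^ m := by
    intro a b hab hbn hTa hTb hvab
    have hca : c a ≠ 0 := fun h => hTa (by rw [h, map_zero, zero_mul])
    have hcb : c b ≠ 0 := fun h => hTb (by rw [h, map_zero, zero_mul])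
    obtain ⟨ma, hma⟩ := hval (c a) hca
    obtain ⟨mb, hmb⟩ := hval (c b) hcb
    refine ⟨b - a, by omega, by omega, ma - mb, ?_⟩
    rw [map_mul, map_mul, map_pow, map_pow, hma, hmb] at hvab
    have hb : b = a + (b - a) := by omega
    rw [hb, pow_add, ← mul_assoc] at hvab
    -- g^ma * v^a = g^mb * v^a * v^(b-a)
    have h2 : g ^ ma * w.valuation x ^ a
        = g ^ mb * w.valuation x ^ (b - a) * w.valuation x ^ a := by
      rw [hvab, mul_right_comm]
    have h1 : g ^ ma = g ^ mb * w.valuation x ^ (b - a) :=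
      mul_right_cancel₀ (pow_ne_zero a hvx0) h2
    rw [zpow_sub₀ hg0, h1, mul_div_cancel_left₀ _ (zpow_ne_zero _ hg0)]
  rcases lt_or_gt_of_ne hij with h | h
  · exact main i j h (Nat.lt_succ_iff.mp (Finset.mem_range.mp hj)) hTi hTj hv
  · exact main j i h (Nat.lt_succ_iff.mp (Finset.mem_range.mp hi)) hTj hTi hv.symm

/-- The uniformiser in valuation form. -/
theorem exists_uniformizer_valuation (X : k) (hX : Transcendental κ X) {n : ℕ}
    (hdeg : BddDeg κ X n) (w : ValuationSubring k) (hκ : ∀ c : κ, algebraMap κ k c ∈ w)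
    (hw : w ≠ ⊤) :
    ∃ t : k, t ≠ 0 ∧ w.valuation t < 1 ∧
      ∀ x : k, x ≠ 0 → ∃ q : ℤ, w.valuation x = w.valuation t ^ q := by
  -- step 1: a prime element of `κ(X)`
  have step1 : ∃ π : k, π ≠ 0 ∧ w.valuation π < 1 ∧
      ∀ f : κ[X], f ≠ 0 → ∃ m : ℤ, w.valuation (aeval X f) = w.valuation π ^ m := by
    by_cases hXw : X ∈ w
    · by_cases hnt : ∃ f : κ[X], f ≠ 0 ∧ w.valuation (aeval X f) < 1
      · exact exists_prime_elt_of_mem w hκ hX hXw hnt
      · exfalso
        apply hw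
        have hval : ∀ f : κ[X], f ≠ 0 →
            ∃ m : ℤ, w.valuation (aeval X f) = (1 : w.ValueGroup) ^ m := by
          intro f hf
          refine ⟨0, ?_⟩
          rw [zpow_zero]
          have h1 : ¬ w.valuation (aeval X f) < 1 := fun hlt => hnt ⟨f, hf, hlt⟩
          exact le_antisymm ((w.valuation_le_one_iff _).mpr (aeval_mem w hκ hXw f))
            (not_lt.mp h1)
        rw [eq_top_iff]
        intro x _
        rcases eq_or_ne x 0 with rfl | hx
        · exact zero_mem _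
        · obtain ⟨e, he1, -, m, hm⟩ :=
            exists_pow_eq_of_bddDeg w hX hdeg 1 one_ne_zero hval x hx
          rw [one_zpow] at hm
          have h1 : w.valuation x = 1 :=
            (pow_eq_one_iff_of_nonneg zero_le (by omega)).mp hm
          exact (w.valuation_le_one_iff x).mp h1.le
    · have hX0 : X ≠ 0 := fun h0 => hXw (h0 ▸ zero_mem _)
      have hvX : 1 < w.valuation X := by
        by_contra h
        exact hXw ((w.valuation_le_one_iff X).mp (not_lt.mp h))
      refine ⟨X⁻¹, inv_ne_zero hX0, ?_, fun f hf => ⟨-(f.natDegree : ℤ), ?_⟩⟩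
      · rw [map_inv₀]
        exact inv_lt_one_of_one_lt₀ hvX
      · rw [valuation_aeval_of_not_mem w hκ hXw f hf, map_inv₀, inv_zpow, zpow_neg, inv_inv,
          zpow_natCast]
  obtain ⟨π, hπ0, hπ, hval⟩ := step1
  have hvπ0 : w.valuation π ≠ 0 := (Valuation.ne_zero_iff _).mpr hπ0
  refine exists_uniformizer_of_pow_eq w π hπ0 hπ n.factorial n.factorial_pos fun x hx => ?_
  obtain ⟨e, he1, hen, m, hm⟩ := exists_pow_eq_of_bddDeg w hX hdeg _ hvπ0 hval x hx
  obtain ⟨f, hf⟩ := Nat.dvd_factorial (by omega) hen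
  refine ⟨m * f, ?_⟩
  rw [hf, pow_mul, hm, ← zpow_natCast (w.valuation π ^ m) f, ← zpow_mul]

/-- **(L.PLACE), core.**  A valuation subring `w ≠ ⊤` containing the constants of a field of
bounded degree over `κ(X)` is a discrete valuation ring. -/
theorem isDiscreteValuationRing_of_bddDeg (X : k) (hX : Transcendental κ X) {n : ℕ}
    (hdeg : BddDeg κ X n) (w : ValuationSubring k) (hκ : ∀ c : κ, algebraMap κ k c ∈ w)
    (hw : w ≠ ⊤) : IsDiscreteValuationRing w := by
  obtain ⟨t, ht0, ht, h⟩ := exists_uniformizer_valuation X hX hdeg w hκ hw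
  exact isDiscreteValuationRing_of_uniformizer w t ht0 ht h

/-- Field-level form: a uniformiser `t` of `w`, and `x = u * t ^ m` with `u` a `w`-unit for
every `x ≠ 0`. -/
theorem exists_uniformizer (X : k) (hX : Transcendental κ X) {n : ℕ}
    (hdeg : BddDeg κ X n) (w : ValuationSubring k) (hκ : ∀ c : κ, algebraMap κ k c ∈ w)
    (hw : w ≠ ⊤) :
    ∃ t : k, t ∈ w ∧ t⁻¹ ∉ w ∧
      ∀ x : k, x ≠ 0 → ∃ (m : ℤ) (u : k), u ∈ w ∧ u⁻¹ ∈ w ∧ x = u * t ^ m := by
  obtain ⟨t, ht0, ht, h⟩ := exists_uniformizer_valuation X hX hdeg w hκ hw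
  have hvt0 : w.valuation t ≠ 0 := (Valuation.ne_zero_iff _).mpr ht0
  refine ⟨t, (w.valuation_le_one_iff t).mp ht.le, ?_, fun x hx => ?_⟩
  · intro hmem
    have h1 := (w.valuation_le_one_iff _).mpr hmem
    rw [map_inv₀] at h1
    exact absurd ((inv_le_one₀ (zero_lt_iff.mpr hvt0)).mp h1) (not_le.mpr ht)
  · obtain ⟨q, hq⟩ := h x hx
    have hu : w.valuation (x * t ^ (-q)) = 1 := by
      rw [map_mul, map_zpow₀, hq, ← zpow_add₀ hvt0, add_neg_cancel, zpow_zero]
    refine ⟨q, x * t ^ (-q), (w.valuation_le_one_iff _).mp hu.le, ?_, ?_⟩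
    · apply (w.valuation_le_one_iff _).mp
      rw [map_inv₀, hu, inv_one]
    · rw [mul_assoc, ← zpow_add₀ ht0, neg_add_cancel, zpow_zero, mul_one]

/-- **(L.PLACE), core, in the dealt shape.** -/
theorem placeDVR_core (X : k) (hX : Transcendental κ X) {n : ℕ}
    (hdeg : BddDeg κ X n) (w : ValuationSubring k) (hκ : ∀ c : κ, algebraMap κ k c ∈ w)
    (hw : w ≠ ⊤) : IsPrincipalIdealRing w ∧ (X ∈ w ∨ X⁻¹ ∈ w) := by
  have := isDiscreteValuationRing_of_bddDeg X hX hdeg w hκ hw
  exact ⟨inferInstance, w.mem_or_inv_mem X⟩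

end FunctionField

end Fermat.Agent.S44.L.PlaceDVR
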