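import Mathlib
import Fermat.Agent.S44.L.PlaceDVR

/-!
# PROGRAM MR (S44), strand L, brick (L.PLACE): the finite-dimensional form (helper87)

Mathlib only.  A field `k` which is finite over `κ(X)` has bounded degree over `κ(X)` in the
sense of `PlaceDVR.BddDeg`; hence every valuation subring `w ≠ ⊤` of `k` containing `κ` is a
discrete valuation ring (no separability hypothesis).
-/

set_option autoImplicit false

namespace Fermat.Agent.S44.L.PlaceDVR

open Polynomial IntermediateField

variable {κ k : Type*} [Field κ] [Field k] [Algebra κ k]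

/-- Every element of `κ(X)` is a quotient `r(X) / s(X)` with `s(X) ≠ 0`. -/
theorem exists_mul_aeval_eq_of_mem_adjoin_simple (X : k) (a : k) (ha : a ∈ κ⟮X⟯) :
    ∃ r s : κ[X], aeval X s ≠ 0 ∧ a * aeval X s = aeval X r := by
  obtain ⟨r, s, h⟩ := (IntermediateField.mem_adjoin_simple_iff κ a).mp ha
  by_cases hs : aeval X s = 0
  · refine ⟨0, 1, by simp, ?_⟩
    rw [h, hs, div_zero]
    simp
  · exact ⟨r, s, hs, by rw [h, div_mul_cancel₀ _ hs]⟩

/-- **Finite implies bounded degree.** -/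
theorem bddDeg_of_finite (X : k) [Module.Finite κ⟮X⟯ k] :
    BddDeg κ X (Module.finrank κ⟮X⟯ k) := by
  classical
  intro x
  set n := Module.finrank κ⟮X⟯ k with hn
  have hdep : ¬ LinearIndependent κ⟮X⟯ (fun i : Fin (n + 1) => x ^ (i : ℕ)) := by
    intro hli
    have h1 := hli.fintype_card_le_finrank
    rw [Fintype.card_fin] at h1
    omega
  obtain ⟨g, hg, i0, hi0⟩ := Fintype.not_linearIndependent_iff.mp hdep
  have hrs : ∀ i : Fin (n + 1), ∃ r s : κ[X], aeval X s ≠ 0 ∧
      (g i : k) * aeval X s = aeval X r :=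
    fun i => exists_mul_aeval_eq_of_mem_adjoin_simple X _ (g i).2
  choose r s hs hrs' using hrs
  let D : κ[X] := ∏ i, s i
  have hD : aeval X D ≠ 0 := by
    simp only [D, map_prod]
    exact Finset.prod_ne_zero_iff.mpr fun i _ => hs i
  let c : ℕ → κ[X] := fun i =>
    if h : i < n + 1 then r ⟨i, h⟩ * ∏ j ∈ Finset.univ.erase (⟨i, h⟩ : Fin (n + 1)), s j else 0
  have hc : ∀ i : Fin (n + 1), aeval X (c i) = (g i : k) * aeval X D := by
    intro i
    have e : c i = r i * ∏ j ∈ Finset.univ.erase i, s j := by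
      simp only [c, dif_pos i.2, Fin.eta]
    rw [e, map_mul, ← hrs' i, mul_assoc, ← map_mul,
      Finset.mul_prod_erase _ _ (Finset.mem_univ i)]
  refine ⟨c, ⟨i0, Nat.lt_succ_iff.mp i0.2, ?_⟩, ?_⟩
  · intro h0
    have h1 := hc i0
    rw [h0, map_zero] at h1
    rcases mul_eq_zero.mp h1.symm with h2 | h2
    · exact hi0 (Subtype.ext h2)
    · exact hD h2
  · rw [← Fin.sum_univ_eq_sum_range (fun i => aeval X (c i) * x ^ i) (n + 1)]
    have e : ∑ i : Fin (n + 1), aeval X (c i) * x ^ (i : ℕ)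
        = aeval X D * ∑ i : Fin (n + 1), g i • x ^ (i : ℕ) := by
      rw [Finset.mul_sum]
      refine Finset.sum_congr rfl fun i _ => ?_
      rw [hc i, IntermediateField.smul_def, smul_eq_mul]
      ring
    rw [e, hg, mul_zero]

/-- **(L.PLACE), finite form.**  If `k` is finite over `κ(X)`, `X` transcendental over `κ`,
every valuation subring `w ≠ ⊤` of `k` containing `κ` is a discrete valuation ring. -/
theorem isDiscreteValuationRing_of_finite (X : k) (hX : Transcendental κ X)
    [Module.Finite κ⟮X⟯ k] (w : ValuationSubring k) (hκ : ∀ c : κ, algebraMap κ k c ∈ w)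
    (hw : w ≠ ⊤) : IsDiscreteValuationRing w :=
  isDiscreteValuationRing_of_bddDeg X hX (bddDeg_of_finite X) w hκ hw

/-- Uniformiser form of `isDiscreteValuationRing_of_finite`. -/
theorem exists_uniformizer_of_finite (X : k) (hX : Transcendental κ X)
    [Module.Finite κ⟮X⟯ k] (w : ValuationSubring k) (hκ : ∀ c : κ, algebraMap κ k c ∈ w)
    (hw : w ≠ ⊤) :
    ∃ t : k, t ∈ w ∧ t⁻¹ ∉ w ∧
      ∀ x : k, x ≠ 0 → ∃ (m : ℤ) (u : k), u ∈ w ∧ u⁻¹ ∈ w ∧ x = u * t ^ m :=
  exists_uniformizer X hX (bddDeg_of_finite X) w hκ hw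

end Fermat.Agent.S44.L.PlaceDVR
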