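import Mathlib
import Fermat.Agent.S36.QFormal

/-!
# Program MR (S44), strand L: `p`-th roots of constants in `E((q))` are constants

Companion of `S44/L/CocycleCore.lean`: the hypothesis `hroot` of
`CocycleCore.pow_mul_map_ratio` / `exists_fixed_pow` for a cover field realised inside
Laurent series over a field of characteristic zero.

* `eq_C_of_pow_eq_C` : `e ^ n = C w`, `w ≠ 0`, `n ≠ 0` ⟹ `e = C (e.coeff 0)`.
* `map_eq_of_pow_eq_C` : a ring endomorphism of a subring `Ω ⊆ E((q))` that fixes the constants
  of `Ω` fixes every `e ∈ Ω` whose `n`-th power is a nonzero constant.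
-/

set_option autoImplicit false

open Fermat.Agent.S36.QFormal

namespace Fermat.Agent.S44.L.CocycleRoot

variable {E : Type*} [Field E] [CharZero E]

/-- A Laurent series over a field of characteristic zero whose `n`-th power (`n ≠ 0`) is a
nonzero constant is itself a constant. -/
theorem eq_C_of_pow_eq_C {n : ℕ} (hn : n ≠ 0) {e : LaurentSeries E} {w : E} (hw : w ≠ 0)
    (h : e ^ n = HahnSeries.C w) : e = HahnSeries.C (e.coeff 0) := by
  have hC0 : ∀ c : E, (HahnSeries.C c : LaurentSeries E).coeff 0 = c := fun c => by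
    rw [HahnSeries.C_apply, HahnSeries.coeff_single_same]
  have he0 : e ≠ 0 := by
    rintro rfl
    rw [zero_pow hn] at h
    have h0 := congrArg (fun x : LaurentSeries E => x.coeff 0) h
    simp only [HahnSeries.coeff_zero, hC0] at h0
    exact hw h0.symm
  obtain ⟨k, rfl⟩ := Nat.exists_eq_succ_of_ne_zero hn
  have hθ : theta (e ^ (k + 1)) = 0 := by rw [h, theta_C]
  rw [theta_pow] at hθ
  have hn' : ((k + 1 : ℕ) : LaurentSeries E) ≠ 0 := by
    have hc : ((k + 1 : ℕ) : LaurentSeries E) = HahnSeries.C ((k + 1 : ℕ) : E) :=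
      (map_natCast (HahnSeries.C : E →+* LaurentSeries E) (k + 1)).symm
    rw [hc]
    intro h0
    have h1 := congrArg (fun x : LaurentSeries E => x.coeff 0) h0
    simp only [HahnSeries.coeff_zero, hC0] at h1
    exact Nat.succ_ne_zero k (by exact_mod_cast h1)
  have hθe : theta e = 0 := by
    rcases mul_eq_zero.mp hθ with h1 | h1
    · rcases mul_eq_zero.mp h1 with h2 | h2
      · exact absurd h2 hn'
      · exact absurd h2 (pow_ne_zero _ he0)
    · exact h1
  ext j
  rw [HahnSeries.C_apply, HahnSeries.coeff_single]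
  split_ifs with hk
  · rw [hk]
  · have h1 := congrArg (fun x : LaurentSeries E => x.coeff j) hθe
    simp only [coeff_theta, HahnSeries.coeff_zero] at h1
    rcases mul_eq_zero.mp h1 with h2 | h2
    · exact absurd (by exact_mod_cast h2) hk
    · exact h2

/-- The `hroot` hypothesis of `CocycleCore` for a cover field inside `E((q))`: an endomorphism
`g` of a subring `Ω` of `E((q))` fixing the constants of `Ω` fixes every element of `Ω` whose
`n`-th power is a nonzero constant. -/
theorem map_eq_of_pow_eq_C {n : ℕ} (hn : n ≠ 0) (Ω : Subring (LaurentSeries E)) (g : Ω →+* Ω)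
    (hg : ∀ y : Ω, (∃ c : E, (y : LaurentSeries E) = HahnSeries.C c) → g y = y)
    (e : Ω) {w : E} (hw : w ≠ 0) (h : ((e : LaurentSeries E)) ^ n = HahnSeries.C w) : g e = e :=
  hg e ⟨_, eq_C_of_pow_eq_C hn hw h⟩

end Fermat.Agent.S44.L.CocycleRoot
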