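import Mathlib

/-!
# Program MR (S44), strand L, brick (L.P): the cusp-point principal lemma

Level-free commutative algebra, Mathlib only (helper27).

Setting: `R` a ring, `π ∈ Jac(R)` (automatic when `R` is local and `π` is a non-unit), and a
surjection `φ : R → D` with kernel `(π)`, where `D` is a principal ideal ring (for instance
`R / (π)` a discrete valuation ring).

* `exists_eq_span_of_notMem_of_fg`, `isPrincipal_of_notMem` : every (finitely generated) prime
  ideal of `R` not containing `π` is principal (Nakayama, no factoriality input).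
* `ufm_of_ker_eq_span` : if `R` is a noetherian domain, `D` a domain and `π ≠ 0`, then `R` is
  a unique factorisation domain.
* `exists_eq_unit_mul_pow_mul_pow` : for `f ≠ 0` in `K = Frac R` such that `p` divides the order
  of `f` at every prime element `g ∤ π` (stated without orders: `b f = a h ^ p` with
  `g ∤ a`, `g ∤ b`), one has `f = u * π ^ k * h ^ p` with `u` a unit of `R`.
  Variants of the hypothesis: prime ideals (`_of_ideal`), discrete valuation subrings of `K`
  containing `R[1/π]` (`_of_valuationSubring`); and `exists_eq_unit_mul_pow*` when the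
  hypothesis also holds at `π`.
* quotient forms for a local ring `R` with `R / (π)` a principal ideal domain: `quot_*`.
-/

set_option autoImplicit false

namespace Fermat.Agent.S44.L.LocalPrincipal

/-! ### Principal primes -/

section Principal

variable {R : Type*} [CommRing R] {D : Type*} [CommRing D]

/-- In a local ring, an element killed by a ring map to a nontrivial ring lies in the
Jacobson radical. -/
theorem mem_jacobson_bot_of_isLocalRing [IsLocalRing R] [Nontrivial D] (φ : R →+* D) {π : R}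
    (hπ : φ π = 0) : π ∈ Ideal.jacobson (⊥ : Ideal R) := by
  rw [IsLocalRing.jacobson_eq_maximalIdeal ⊥ bot_ne_top, IsLocalRing.mem_maximalIdeal,
    mem_nonunits_iff]
  intro hu
  have h0 := hu.map φ
  rw [hπ] at h0
  exact not_isUnit_zero h0

/-- **(L.P), principal primes.**  `π ∈ Jac(R)`, `φ : R → D` onto with kernel `(π)`, `D` a
Bézout ring (e.g. a principal ideal ring): every finitely generated prime ideal of `R` not
containing `π` is generated by one of its elements. -/
theorem exists_eq_span_of_notMem_of_fg [IsBezout D] (φ : R →+* D)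
    (hφ : Function.Surjective φ) {π : R} (hker : RingHom.ker φ = Ideal.span {π})
    (hjac : π ∈ Ideal.jacobson (⊥ : Ideal R)) (𝔮 : Ideal R) [h𝔮 : 𝔮.IsPrime] (hfg : 𝔮.FG)
    (hπ : π ∉ 𝔮) : ∃ g ∈ 𝔮, 𝔮 = Ideal.span {g} := by
  have : (Ideal.map φ 𝔮).IsPrincipal := IsBezout.isPrincipal_of_FG _ (hfg.map φ)
  obtain ⟨d, hd⟩ : ∃ d, Ideal.map φ 𝔮 = Ideal.span {d} :=
    ⟨_, (Ideal.span_singleton_generator _).symm⟩
  have hdmem : d ∈ Ideal.map φ 𝔮 := by rw [hd]; exact Ideal.mem_span_singleton_self d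
  obtain ⟨g, hg𝔮, rfl⟩ := (Ideal.mem_map_iff_of_surjective φ hφ).mp hdmem
  refine ⟨g, hg𝔮, le_antisymm ?_ ((Ideal.span_singleton_le_iff_mem _).mpr hg𝔮)⟩
  refine Submodule.le_of_le_smul_of_le_jacobson_bot (I := Ideal.span {π}) hfg
    ((Ideal.span_singleton_le_iff_mem _).mpr hjac) ?_
  intro x hx
  have hxmap : φ x ∈ Ideal.map φ 𝔮 := Ideal.mem_map_of_mem φ hx
  rw [hd] at hxmap
  obtain ⟨c, hc⟩ := Ideal.mem_span_singleton'.mp hxmap
  obtain ⟨r, rfl⟩ := hφ c
  have hk : x - r * g ∈ RingHom.ker φ := by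
    rw [RingHom.mem_ker, map_sub, map_mul, hc, sub_self]
  rw [hker, Ideal.mem_span_singleton'] at hk
  obtain ⟨s, hs⟩ := hk
  have hs𝔮 : s ∈ 𝔮 := by
    have hsπ : s * π ∈ 𝔮 := by rw [hs]; exact 𝔮.sub_mem hx (𝔮.mul_mem_left r hg𝔮)
    exact (h𝔮.mem_or_mem hsπ).resolve_right hπ
  have hx' : x = r * g + π * s := by rw [mul_comm π s, hs]; ring
  rw [hx']
  exact Submodule.add_mem_sup (Ideal.mem_span_singleton'.mpr ⟨r, rfl⟩)
    (Submodule.smul_mem_smul (Ideal.mem_span_singleton_self π) hs𝔮)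

/-- **(L.P), principal primes**, noetherian form. -/
theorem isPrincipal_of_notMem [IsNoetherianRing R] [IsBezout D] (φ : R →+* D)
    (hφ : Function.Surjective φ) {π : R} (hker : RingHom.ker φ = Ideal.span {π})
    (hjac : π ∈ Ideal.jacobson (⊥ : Ideal R)) (𝔮 : Ideal R) [𝔮.IsPrime] (hπ : π ∉ 𝔮) :
    Submodule.IsPrincipal 𝔮 := by
  obtain ⟨g, -, hg⟩ :=
    exists_eq_span_of_notMem_of_fg φ hφ hker hjac 𝔮 (IsNoetherian.noetherian 𝔮) hπ
  exact ⟨⟨g, hg⟩⟩

end Principal

/-! ### Factoriality -/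

section Domain

variable {R : Type*} [CommRing R] [IsDomain R] {D : Type*} [CommRing D] [IsDomain D]

omit [IsDomain R] in
/-- The generator of the kernel of a map to a domain is a prime element. -/
theorem prime_of_ker_eq_span (φ : R →+* D) {π : R} (hker : RingHom.ker φ = Ideal.span {π})
    (hπ0 : π ≠ 0) : Prime π :=
  (Ideal.span_singleton_prime hπ0).mp (hker ▸ RingHom.ker_isPrime φ)

variable [IsNoetherianRing R] [IsPrincipalIdealRing D]

omit [IsDomain R] [IsDomain D] in
/-- Every nonzero prime ideal not containing `π` is generated by a prime element. -/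
theorem exists_prime_eq_span_of_notMem (φ : R →+* D) (hφ : Function.Surjective φ) {π : R}
    (hker : RingHom.ker φ = Ideal.span {π}) (hjac : π ∈ Ideal.jacobson (⊥ : Ideal R))
    (𝔮 : Ideal R) [h𝔮 : 𝔮.IsPrime] (h𝔮0 : 𝔮 ≠ ⊥) (hπ : π ∉ 𝔮) :
    ∃ g : R, Prime g ∧ 𝔮 = Ideal.span {g} := by
  obtain ⟨g, -, hg⟩ :=
    exists_eq_span_of_notMem_of_fg φ hφ hker hjac 𝔮 (IsNoetherian.noetherian 𝔮) hπ
  have hg0 : g ≠ 0 := by
    rintro rfl
    exact h𝔮0 (by rw [hg]; exact Ideal.span_singleton_eq_bot.mpr rfl)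
  exact ⟨g, (Ideal.span_singleton_prime hg0).mp (hg ▸ h𝔮), hg⟩

/-- **(L.P), factoriality.**  A noetherian domain `R` with `π ∈ Jac(R)`, `π ≠ 0` and
`R / (π) ≅ D` a principal ideal domain is a unique factorisation domain. -/
theorem ufm_of_ker_eq_span (φ : R →+* D) (hφ : Function.Surjective φ) {π : R}
    (hker : RingHom.ker φ = Ideal.span {π}) (hjac : π ∈ Ideal.jacobson (⊥ : Ideal R))
    (hπ0 : π ≠ 0) : UniqueFactorizationMonoid R := by
  refine UniqueFactorizationMonoid.iff_exists_prime_mem_of_isPrime.mpr fun I hI0 hI => ?_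
  by_cases hπI : π ∈ I
  · exact ⟨π, hπI, prime_of_ker_eq_span φ hker hπ0⟩
  · obtain ⟨g, hg, hIg⟩ := exists_prime_eq_span_of_notMem φ hφ hker hjac I hI0 hπI
    exact ⟨g, hIg ▸ Ideal.mem_span_singleton_self g, hg⟩

end Domain

/-! ### Orders in a factorial domain, without orders -/

section UFD

variable {R : Type*} [CommRing R] [IsDomain R] [UniqueFactorizationMonoid R]
  {K : Type*} [Field K] [Algebra R K] [IsFractionRing R K]

/-- `b c = a h ^ p` with `g ∤ a`, `g ∤ b` forces `p ∣ ord_g c`. -/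
theorem dvd_multiplicity_of_mul_eq {g : R} (hg : Prime g) {p : ℕ} {a b c : R} {h : K}
    (ha : ¬ g ∣ a) (hb : ¬ g ∣ b) (hc : c ≠ 0)
    (heq : algebraMap R K b * algebraMap R K c = algebraMap R K a * h ^ p) :
    p ∣ multiplicity g c := by
  have hinj := IsFractionRing.injective R K
  have fin : ∀ x : R, x ≠ 0 → FiniteMultiplicity g x := fun x hx =>
    FiniteMultiplicity.of_not_isUnit hg.not_isUnit hx
  have hb0 : b ≠ 0 := fun h0 => hb (h0 ▸ dvd_zero g)
  rcases Nat.eq_zero_or_pos p with rfl | hp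
  · have hR : b * c = a := by
      apply hinj
      rw [map_mul, heq, pow_zero, mul_one]
    have hgc : ¬ g ∣ c := fun hgc => ha (hR ▸ hgc.mul_left b)
    rw [multiplicity_eq_zero.mpr hgc]
  obtain ⟨s, t, ht, rfl⟩ := IsFractionRing.div_surjective R h
  have ht0 : t ≠ 0 := nonZeroDivisors.ne_zero ht
  have htK : algebraMap R K t ≠ 0 := (map_ne_zero_iff _ hinj).mpr ht0
  have hR : b * c * t ^ p = a * s ^ p := by
    apply hinj
    simp only [map_mul, map_pow]
    rw [heq, div_pow]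
    field_simp
  have hne : b * c * t ^ p ≠ 0 := mul_ne_zero (mul_ne_zero hb0 hc) (pow_ne_zero _ ht0)
  have hs0 : s ≠ 0 := by
    rintro rfl
    rw [zero_pow hp.ne', mul_zero] at hR
    exact hne hR
  have hne' : a * s ^ p ≠ 0 := hR ▸ hne
  have h1 : multiplicity g (b * c * t ^ p) = multiplicity g c + p * multiplicity g t := by
    rw [multiplicity_mul hg (fin _ hne), multiplicity_mul hg (fin _ (mul_ne_zero hb0 hc)),
      multiplicity_eq_zero.mpr hb, zero_add, (fin t ht0).multiplicity_pow hg]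
  have h2 : multiplicity g (a * s ^ p) = p * multiplicity g s := by
    rw [multiplicity_mul hg (fin _ hne'), multiplicity_eq_zero.mpr ha, zero_add,
      (fin s hs0).multiplicity_pow hg]
  rw [hR, h2] at h1
  exact (Nat.dvd_add_left (dvd_mul_right p _)).mp (h1 ▸ dvd_mul_right p _)

/-- Integral form: an element `c ≠ 0` of a factorial domain all of whose orders away from `π`
are divisible by `p` is `u * π ^ k * h ^ p`.  (`π` is prime or a unit.) -/
theorem exists_eq_unit_mul_pow_mul_pow_of_multiplicity {π : R}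
    (hπ : ∀ g : R, Prime g → g ∣ π → Associated g π) (p : ℕ) (c : R) (hc : c ≠ 0)
    (hord : ∀ g : R, Prime g → ¬ g ∣ π → p ∣ multiplicity g c) :
    ∃ (u : Rˣ) (k : ℕ) (h : R), c = u * π ^ k * h ^ p := by
  refine UniqueFactorizationMonoid.induction_on_coprime
    (P := fun c => c ≠ 0 → (∀ g : R, Prime g → ¬ g ∣ π → p ∣ multiplicity g c) →
      ∃ (u : Rˣ) (k : ℕ) (h : R), c = u * π ^ k * h ^ p) c ?_ ?_ ?_ ?_ hc hord
  · intro h0 _
    exact absurd rfl h0
  · intro x hx _ _
    obtain ⟨u, rfl⟩ := hx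
    exact ⟨u, 0, 1, by simp⟩
  · intro g i hg _ hord
    by_cases hgπ : g ∣ π
    · obtain ⟨v, hv⟩ := (hπ g hg hgπ).symm
      refine ⟨v ^ i, i, 1, ?_⟩
      rw [← hv]
      push_cast
      ring
    · obtain ⟨j, hj⟩ := hord g hg hgπ
      rw [multiplicity_pow_self_of_prime hg] at hj
      exact ⟨1, 0, g ^ j, by rw [hj, pow_mul']; simp⟩
  · intro x y hxy hx hy hxy0 hord
    have hx0 : x ≠ 0 := left_ne_zero_of_mul hxy0
    have hy0 : y ≠ 0 := right_ne_zero_of_mul hxy0
    have key : ∀ g : R, Prime g → ¬ g ∣ π →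
        p ∣ multiplicity g x ∧ p ∣ multiplicity g y := by
      intro g hg hgπ
      have h := hord g hg hgπ
      rw [multiplicity_mul hg (FiniteMultiplicity.of_not_isUnit hg.not_isUnit hxy0)] at h
      by_cases hgx : g ∣ x
      · have hgy : ¬ g ∣ y := fun hgy => hg.not_isUnit (hxy hgx hgy)
        rw [multiplicity_eq_zero.mpr hgy, add_zero] at h
        exact ⟨h, by rw [multiplicity_eq_zero.mpr hgy]; exact dvd_zero p⟩
      · rw [multiplicity_eq_zero.mpr hgx, zero_add] at h
        exact ⟨by rw [multiplicity_eq_zero.mpr hgx]; exact dvd_zero p, h⟩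
    obtain ⟨u1, k1, h1, e1⟩ := hx hx0 fun g hg hgπ => (key g hg hgπ).1
    obtain ⟨u2, k2, h2, e2⟩ := hy hy0 fun g hg hgπ => (key g hg hgπ).2
    refine ⟨u1 * u2, k1 + k2, h1 * h2, ?_⟩
    rw [e1, e2]
    push_cast
    ring

/-- **Factorial form of (L.P).**  `f ≠ 0` in the fraction field of a factorial domain with
`p ∣ ord_g f` at every prime element `g ∤ π` is `u * π ^ k * h ^ p`, `u` a unit of `R`.
(`π` is prime or a unit.) -/
theorem exists_eq_unit_mul_pow_mul_pow_of_ufm' {π : R}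
    (hπ : ∀ g : R, Prime g → g ∣ π → Associated g π) {p : ℕ} (hp : p ≠ 0) {f : K} (hf : f ≠ 0)
    (hord : ∀ g : R, Prime g → ¬ g ∣ π → ∃ (a b : R) (h : K), ¬ g ∣ a ∧ ¬ g ∣ b ∧
      algebraMap R K b * f = algebraMap R K a * h ^ p) :
    ∃ (u : Rˣ) (k : ℕ) (h : K), f = algebraMap R K u * algebraMap R K π ^ k * h ^ p := by
  have hinj := IsFractionRing.injective R K
  obtain ⟨x, y, hy, rfl⟩ := IsFractionRing.div_surjective R f
  have hy0 : y ≠ 0 := nonZeroDivisors.ne_zero hy
  have hyK : algebraMap R K y ≠ 0 := (map_ne_zero_iff _ hinj).mpr hy0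
  have hx0 : x ≠ 0 := by
    rintro rfl
    exact hf (by simp)
  obtain ⟨q, rfl⟩ : ∃ q, p = q + 1 := Nat.exists_eq_succ_of_ne_zero hp
  have hc0 : x * y ^ q ≠ 0 := mul_ne_zero hx0 (pow_ne_zero _ hy0)
  have hfc : algebraMap R K x / algebraMap R K y
      = algebraMap R K (x * y ^ q) / algebraMap R K y ^ (q + 1) := by
    rw [map_mul, map_pow, pow_succ]
    field_simp
  obtain ⟨u, k, h, e⟩ := exists_eq_unit_mul_pow_mul_pow_of_multiplicity hπ (q + 1) (x * y ^ q)
    hc0 (by
      intro g hg hgπ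
      obtain ⟨a, b, h, ha, hb, heq⟩ := hord g hg hgπ
      refine dvd_multiplicity_of_mul_eq (K := K) (h := h * algebraMap R K y) hg ha hb hc0 ?_
      rw [mul_pow, ← mul_assoc, ← heq, hfc]
      field_simp)
  refine ⟨u, k, algebraMap R K h / algebraMap R K y, ?_⟩
  rw [hfc, e, div_pow]
  push_cast
  ring

/-- **Factorial form of (L.P)**, `π` a prime element. -/
theorem exists_eq_unit_mul_pow_mul_pow_of_ufm {π : R} (hπ : Prime π) {p : ℕ} (hp : p ≠ 0)
    {f : K} (hf : f ≠ 0)
    (hord : ∀ g : R, Prime g → ¬ g ∣ π → ∃ (a b : R) (h : K), ¬ g ∣ a ∧ ¬ g ∣ b ∧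
      algebraMap R K b * f = algebraMap R K a * h ^ p) :
    ∃ (u : Rˣ) (k : ℕ) (h : K), f = algebraMap R K u * algebraMap R K π ^ k * h ^ p :=
  exists_eq_unit_mul_pow_mul_pow_of_ufm' (fun _ hg hgπ => hg.associated_of_dvd hπ hgπ) hp hf hord

/-- **Factorial form, all primes.**  `f ≠ 0` with `p ∣ ord_g f` at every prime element `g` is
`u * h ^ p`, `u` a unit of `R`. -/
theorem exists_eq_unit_mul_pow_of_ufm {p : ℕ} (hp : p ≠ 0) {f : K} (hf : f ≠ 0)
    (hord : ∀ g : R, Prime g → ∃ (a b : R) (h : K), ¬ g ∣ a ∧ ¬ g ∣ b ∧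
      algebraMap R K b * f = algebraMap R K a * h ^ p) :
    ∃ (u : Rˣ) (h : K), f = algebraMap R K u * h ^ p := by
  obtain ⟨u, k, h, e⟩ := exists_eq_unit_mul_pow_mul_pow_of_ufm' (R := R) (π := 1)
    (fun g hg h1 => absurd h1 hg.not_dvd_one) hp hf (fun g hg _ => hord g hg)
  exact ⟨u, h, by rw [e, map_one, one_pow, mul_one]⟩

end UFD

/-! ### The valuation subring of a prime element -/

section PrimeVal

variable {R : Type*} [CommRing R] [IsDomain R] [UniqueFactorizationMonoid R]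
  (K : Type*) [Field K] [Algebra R K] [IsFractionRing R K]

/-- The localisation of a factorial domain `R` at a prime element `g`, as a valuation subring
of the fraction field: the `x` with `x b = a`, `g ∤ b`. -/
def primeValuationSubring (g : R) (hg : Prime g) : ValuationSubring K where
  carrier := {x | ∃ a b : R, ¬ g ∣ b ∧ x * algebraMap R K b = algebraMap R K a}
  mul_mem' := by
    rintro x y ⟨a, b, hb, e⟩ ⟨a', b', hb', e'⟩
    refine ⟨a * a', b * b', fun h => (hg.dvd_or_dvd h).elim hb hb', ?_⟩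
    rw [map_mul, map_mul, ← e, ← e']
    ring
  one_mem' := ⟨1, 1, hg.not_dvd_one, by simp⟩
  add_mem' := by
    rintro x y ⟨a, b, hb, e⟩ ⟨a', b', hb', e'⟩
    refine ⟨a * b' + a' * b, b * b', fun h => (hg.dvd_or_dvd h).elim hb hb', ?_⟩
    simp only [map_add, map_mul]
    rw [← e, ← e']
    ring
  zero_mem' := ⟨0, 1, hg.not_dvd_one, by simp⟩
  neg_mem' := by
    rintro x ⟨a, b, hb, e⟩
    exact ⟨-a, b, hb, by rw [map_neg, ← e]; ring⟩
  mem_or_inv_mem' := by
    intro x
    have hinj := IsFractionRing.injective R K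
    by_cases hx : x = 0
    · exact Or.inl ⟨0, 1, hg.not_dvd_one, by simp [hx]⟩
    obtain ⟨a, b, hb, rfl⟩ := IsFractionRing.div_surjective R x
    have hb0 : b ≠ 0 := nonZeroDivisors.ne_zero hb
    have ha0 : a ≠ 0 := by
      rintro rfl
      exact hx (by simp)
    obtain ⟨a', ea, ha'⟩ :=
      (FiniteMultiplicity.of_not_isUnit hg.not_isUnit ha0).exists_eq_pow_mul_and_not_dvd
    obtain ⟨b', eb, hb'⟩ :=
      (FiniteMultiplicity.of_not_isUnit hg.not_isUnit hb0).exists_eq_pow_mul_and_not_dvd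
    generalize multiplicity g a = m at ea
    generalize multiplicity g b = n at eb
    have haK : algebraMap R K a ≠ 0 := (map_ne_zero_iff _ hinj).mpr ha0
    have hbK : algebraMap R K b ≠ 0 := (map_ne_zero_iff _ hinj).mpr hb0
    rcases le_total n m with hnm | hmn
    · left
      refine ⟨g ^ (m - n) * a', b', hb', ?_⟩
      rw [div_mul_eq_mul_div, div_eq_iff hbK, ← map_mul, ← map_mul]
      congr 1
      rw [ea, eb, ← pow_sub_mul_pow g hnm]
      ring
    · right
      refine ⟨g ^ (n - m) * b', a', ha', ?_⟩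
      rw [inv_div, div_mul_eq_mul_div, div_eq_iff haK, ← map_mul, ← map_mul]
      congr 1
      rw [ea, eb, ← pow_sub_mul_pow g hmn]
      ring

variable {K}

theorem mem_primeValuationSubring {g : R} {hg : Prime g} {x : K} :
    x ∈ primeValuationSubring K g hg ↔
      ∃ a b : R, ¬ g ∣ b ∧ x * algebraMap R K b = algebraMap R K a :=
  Iff.rfl

theorem algebraMap_mem_primeValuationSubring (g : R) (hg : Prime g) (r : R) :
    algebraMap R K r ∈ primeValuationSubring K g hg :=
  ⟨r, 1, hg.not_dvd_one, by simp⟩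

theorem inv_algebraMap_mem_primeValuationSubring (g : R) (hg : Prime g) {r : R}
    (hr : ¬ g ∣ r) : (algebraMap R K r)⁻¹ ∈ primeValuationSubring K g hg := by
  have hr0 : algebraMap R K r ≠ 0 :=
    (map_ne_zero_iff _ (IsFractionRing.injective R K)).mpr fun h0 => hr (h0 ▸ dvd_zero g)
  exact ⟨1, r, hr, by rw [inv_mul_cancel₀ hr0, map_one]⟩

theorem inv_algebraMap_notMem_primeValuationSubring (g : R) (hg : Prime g) :
    (algebraMap R K g)⁻¹ ∉ primeValuationSubring K g hg := by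
  rintro ⟨a, b, hb, e⟩
  have hg0 : algebraMap R K g ≠ 0 :=
    (map_ne_zero_iff _ (IsFractionRing.injective R K)).mpr hg.ne_zero
  apply hb
  refine ⟨a, IsFractionRing.injective R K ?_⟩
  rw [map_mul, ← e]
  field_simp

theorem primeValuationSubring_ne_top (g : R) (hg : Prime g) :
    primeValuationSubring K g hg ≠ ⊤ := fun h =>
  inv_algebraMap_notMem_primeValuationSubring (K := K) g hg (h ▸ ValuationSubring.mem_top _)

/-- Every nonzero element of `K` is a power of `g` times a `g`-unit. -/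
theorem exists_eq_zpow_mul_div (g : R) (hg : Prime g) {x : K} (hx : x ≠ 0) :
    ∃ (n : ℤ) (a b : R), ¬ g ∣ a ∧ ¬ g ∣ b ∧
      x = algebraMap R K g ^ n * (algebraMap R K a / algebraMap R K b) := by
  have hinj := IsFractionRing.injective R K
  obtain ⟨a, b, hb, rfl⟩ := IsFractionRing.div_surjective R x
  have hb0 : b ≠ 0 := nonZeroDivisors.ne_zero hb
  have ha0 : a ≠ 0 := by
    rintro rfl
    exact hx (by simp)
  obtain ⟨a', ea, ha'⟩ :=
    (FiniteMultiplicity.of_not_isUnit hg.not_isUnit ha0).exists_eq_pow_mul_and_not_dvd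
  obtain ⟨b', eb, hb'⟩ :=
    (FiniteMultiplicity.of_not_isUnit hg.not_isUnit hb0).exists_eq_pow_mul_and_not_dvd
  generalize multiplicity g a = m at ea
  generalize multiplicity g b = n at eb
  have hgK : algebraMap R K g ≠ 0 := (map_ne_zero_iff _ hinj).mpr hg.ne_zero
  have hb'K : algebraMap R K b' ≠ 0 :=
    (map_ne_zero_iff _ hinj).mpr fun h0 => hb' (h0 ▸ dvd_zero g)
  refine ⟨(m : ℤ) - n, a', b', ha', hb', ?_⟩
  rw [ea, eb, zpow_sub₀ hgK, zpow_natCast, zpow_natCast]
  simp only [map_mul, map_pow]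
  field_simp

/-- Membership in the valuation subring of `g` in terms of the `g`-adic exponent. -/
theorem zpow_mul_div_mem_primeValuationSubring_iff (g : R) (hg : Prime g) {n : ℤ} {a b : R}
    (ha : ¬ g ∣ a) (hb : ¬ g ∣ b) :
    algebraMap R K g ^ n * (algebraMap R K a / algebraMap R K b) ∈ primeValuationSubring K g hg
      ↔ 0 ≤ n := by
  have hinj := IsFractionRing.injective R K
  have hgK : algebraMap R K g ≠ 0 := (map_ne_zero_iff _ hinj).mpr hg.ne_zero
  have hbK : algebraMap R K b ≠ 0 := (map_ne_zero_iff _ hinj).mpr fun h0 => hb (h0 ▸ dvd_zero g)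
  constructor
  · rintro ⟨a', b', hb', e⟩
    by_contra hn
    obtain ⟨d, hd⟩ : ∃ d : ℕ, n = -((d : ℤ) + 1) :=
      ⟨(-n - 1).toNat, by rw [Int.toNat_of_nonneg (by omega)]; ring⟩
    have hR : a * b' = g ^ (d + 1) * (a' * b) := by
      apply hinj
      simp only [map_mul, map_pow]
      rw [← e, hd, zpow_neg, ← Nat.cast_succ, zpow_natCast]
      field_simp
    have hdvd : g ∣ a * b' := ⟨g ^ d * (a' * b), by rw [hR]; ring⟩
    exact (hg.dvd_or_dvd hdvd).elim ha hb'
  · intro hn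
    obtain ⟨d, rfl⟩ := Int.eq_ofNat_of_zero_le hn
    refine ⟨g ^ d * a, b, hb, ?_⟩
    rw [zpow_natCast, map_mul, map_pow]
    field_simp

/-- The valuation subring of a prime element is a principal ideal ring (hence a discrete
valuation ring). -/
theorem isPrincipalIdealRing_primeValuationSubring (g : R) (hg : Prime g) :
    IsPrincipalIdealRing (primeValuationSubring K g hg) := by
  have hinj := IsFractionRing.injective R K
  have hgK : algebraMap R K g ≠ 0 := (map_ne_zero_iff _ hinj).mpr hg.ne_zero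
  set w := primeValuationSubring K g hg with hw
  let γ : w := ⟨algebraMap R K g, algebraMap_mem_primeValuationSubring g hg g⟩
  -- every nonzero element of `w` is `γ ^ d` times a unit of `w`
  have key : ∀ x : w, x ≠ 0 → ∃ (d : ℕ) (v v' : w), v * v' = 1 ∧ x = γ ^ d * v := by
    intro x hx
    have hx0 : (x : K) ≠ 0 := fun h0 => hx (Subtype.ext h0)
    obtain ⟨n, a, b, ha, hb, e⟩ := exists_eq_zpow_mul_div (K := K) g hg hx0
    have haK : algebraMap R K a ≠ 0 :=
      (map_ne_zero_iff _ hinj).mpr fun h0 => ha (h0 ▸ dvd_zero g)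
    have hbK : algebraMap R K b ≠ 0 :=
      (map_ne_zero_iff _ hinj).mpr fun h0 => hb (h0 ▸ dvd_zero g)
    have hn : 0 ≤ n := (zpow_mul_div_mem_primeValuationSubring_iff g hg ha hb).mp (e ▸ x.2)
    obtain ⟨d, rfl⟩ := Int.eq_ofNat_of_zero_le hn
    have hv : algebraMap R K a / algebraMap R K b ∈ w := ⟨a, b, hb, by field_simp⟩
    have hv' : algebraMap R K b / algebraMap R K a ∈ w := ⟨b, a, ha, by field_simp⟩
    refine ⟨d, ⟨_, hv⟩, ⟨_, hv'⟩, Subtype.ext ?_, Subtype.ext ?_⟩
    · show algebraMap R K a / algebraMap R K b * (algebraMap R K b / algebraMap R K a) = 1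
      field_simp
    · show (x : K) = algebraMap R K g ^ d * (algebraMap R K a / algebraMap R K b)
      rw [e, zpow_natCast]
  refine ⟨fun I => ?_⟩
  by_cases hI : I = ⊥
  · rw [hI]
    exact bot_isPrincipal
  obtain ⟨x, hxI, hx0⟩ := Submodule.exists_mem_ne_zero_of_ne_bot hI
  have hex : ∃ d : ℕ, γ ^ d ∈ I := by
    obtain ⟨d, v, v', hvv', e⟩ := key x hx0
    refine ⟨d, ?_⟩
    have : γ ^ d = x * v' := by rw [e, mul_assoc, hvv', mul_one]
    rw [this]
    exact I.mul_mem_right _ hxI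
  classical
  refine ⟨⟨γ ^ Nat.find hex, le_antisymm ?_ ?_⟩⟩
  · intro y hy
    by_cases hy0 : y = 0
    · rw [hy0]
      exact Submodule.zero_mem _
    obtain ⟨d, v, v', hvv', e⟩ := key y hy0
    have hdI : γ ^ d ∈ I := by
      have : γ ^ d = y * v' := by rw [e, mul_assoc, hvv', mul_one]
      rw [this]
      exact I.mul_mem_right _ hy
    have hle : Nat.find hex ≤ d := Nat.find_min' hex hdI
    rw [Submodule.mem_span_singleton]
    refine ⟨γ ^ (d - Nat.find hex) * v, ?_⟩
    rw [e, smul_eq_mul, mul_right_comm, pow_sub_mul_pow γ hle]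
  · rw [Submodule.span_singleton_le_iff_mem]
    exact Nat.find_spec hex

end PrimeVal

/-! ### The main statements -/

section Main

variable {R : Type*} [CommRing R] [IsDomain R] [IsNoetherianRing R]
  {D : Type*} [CommRing D] [IsDomain D] [IsPrincipalIdealRing D]
  {K : Type*} [Field K] [Algebra R K] [IsFractionRing R K]

/-- **(L.P).**  `R` a noetherian domain, `π ≠ 0` in `Jac(R)`, `φ : R → D` onto a principal
ideal domain with kernel `(π)`, `K = Frac R`.  If `f ≠ 0` in `K` has order divisible by `p`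
at every prime element `g ∤ π` of `R` (i.e. `b f = a h ^ p` with `g ∤ a`, `g ∤ b`), then
`f = u * π ^ k * h ^ p` with `u` a unit of `R`. -/
theorem exists_eq_unit_mul_pow_mul_pow (φ : R →+* D) (hφ : Function.Surjective φ) {π : R}
    (hker : RingHom.ker φ = Ideal.span {π}) (hjac : π ∈ Ideal.jacobson (⊥ : Ideal R))
    (hπ0 : π ≠ 0) {p : ℕ} (hp : p ≠ 0) {f : K} (hf : f ≠ 0)
    (hord : ∀ g : R, Prime g → ¬ g ∣ π → ∃ (a b : R) (h : K), ¬ g ∣ a ∧ ¬ g ∣ b ∧
      algebraMap R K b * f = algebraMap R K a * h ^ p) :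
    ∃ (u : Rˣ) (k : ℕ) (h : K), f = algebraMap R K u * algebraMap R K π ^ k * h ^ p := by
  have := ufm_of_ker_eq_span φ hφ hker hjac hπ0
  exact exists_eq_unit_mul_pow_mul_pow_of_ufm (prime_of_ker_eq_span φ hker hπ0) hp hf hord

/-- **(L.P)**, prime-ideal form of the hypothesis: at every prime ideal `𝔮 ∌ π`,
`f = (a / b) h ^ p` with `a, b ∉ 𝔮`. -/
theorem exists_eq_unit_mul_pow_mul_pow_of_ideal (φ : R →+* D) (hφ : Function.Surjective φ)
    {π : R} (hker : RingHom.ker φ = Ideal.span {π}) (hjac : π ∈ Ideal.jacobson (⊥ : Ideal R))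
    (hπ0 : π ≠ 0) {p : ℕ} (hp : p ≠ 0) {f : K} (hf : f ≠ 0)
    (hord : ∀ 𝔮 : Ideal R, 𝔮.IsPrime → 𝔮 ≠ ⊥ → π ∉ 𝔮 → ∃ (a b : R) (h : K), a ∉ 𝔮 ∧ b ∉ 𝔮 ∧
      algebraMap R K b * f = algebraMap R K a * h ^ p) :
    ∃ (u : Rˣ) (k : ℕ) (h : K), f = algebraMap R K u * algebraMap R K π ^ k * h ^ p := by
  refine exists_eq_unit_mul_pow_mul_pow φ hφ hker hjac hπ0 hp hf fun g hg hgπ => ?_
  obtain ⟨a, b, h, ha, hb, e⟩ := hord (Ideal.span {g}) ((Ideal.span_singleton_prime hg.ne_zero).mpr hg)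
    (fun h0 => hg.ne_zero (Ideal.span_singleton_eq_bot.mp h0))
    (fun hmem => hgπ (Ideal.mem_span_singleton.mp hmem))
  exact ⟨a, b, h, fun hd => ha (Ideal.mem_span_singleton.mpr hd),
    fun hd => hb (Ideal.mem_span_singleton.mpr hd), e⟩

/-- **(L.P)**, valuation-subring form of the hypothesis: at every discrete valuation subring
`w ≠ ⊤` of `K` containing `R` and `π⁻¹`, `f = u h ^ p` with `u` a unit of `w`. -/
theorem exists_eq_unit_mul_pow_mul_pow_of_valuationSubring (φ : R →+* D)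
    (hφ : Function.Surjective φ) {π : R} (hker : RingHom.ker φ = Ideal.span {π})
    (hjac : π ∈ Ideal.jacobson (⊥ : Ideal R)) (hπ0 : π ≠ 0) {p : ℕ} (hp : p ≠ 0) {f : K}
    (hf : f ≠ 0)
    (hord : ∀ w : ValuationSubring K, (∀ r : R, algebraMap R K r ∈ w) →
      (algebraMap R K π)⁻¹ ∈ w → w ≠ ⊤ → IsPrincipalIdealRing w →
      ∃ u h : K, f = u * h ^ p ∧ u ∈ w ∧ u⁻¹ ∈ w) :
    ∃ (u : Rˣ) (k : ℕ) (h : K), f = algebraMap R K u * algebraMap R K π ^ k * h ^ p := by
  have := ufm_of_ker_eq_span φ hφ hker hjac hπ0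
  refine exists_eq_unit_mul_pow_mul_pow φ hφ hker hjac hπ0 hp hf fun g hg hgπ => ?_
  obtain ⟨u, h, e, ⟨a1, b1, hb1, e1⟩, ⟨a2, b2, hb2, e2⟩⟩ :=
    hord (primeValuationSubring K g hg) (algebraMap_mem_primeValuationSubring g hg)
      (inv_algebraMap_mem_primeValuationSubring g hg hgπ) (primeValuationSubring_ne_top g hg)
      (isPrincipalIdealRing_primeValuationSubring g hg)
  have hu0 : u ≠ 0 := by
    rintro rfl
    exact hf (by rw [e, zero_mul])
  have ha1 : ¬ g ∣ a1 := by
    intro hd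
    have hR : b1 * b2 = a1 * a2 := by
      apply IsFractionRing.injective R K
      rw [map_mul, map_mul, ← e1, ← e2]
      field_simp
    exact (hg.dvd_or_dvd (hR ▸ hd.mul_right a2)).elim hb1 hb2
  exact ⟨a1, b1, h, ha1, hb1, by rw [e, ← e1]; ring⟩

/-- **(L.P), all primes**: if the hypothesis also holds at `π`, then `f = u * h ^ p`. -/
theorem exists_eq_unit_mul_pow (φ : R →+* D) (hφ : Function.Surjective φ) {π : R}
    (hker : RingHom.ker φ = Ideal.span {π}) (hjac : π ∈ Ideal.jacobson (⊥ : Ideal R))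
    (hπ0 : π ≠ 0) {p : ℕ} (hp : p ≠ 0) {f : K} (hf : f ≠ 0)
    (hord : ∀ g : R, Prime g → ∃ (a b : R) (h : K), ¬ g ∣ a ∧ ¬ g ∣ b ∧
      algebraMap R K b * f = algebraMap R K a * h ^ p) :
    ∃ (u : Rˣ) (h : K), f = algebraMap R K u * h ^ p := by
  have := ufm_of_ker_eq_span φ hφ hker hjac hπ0
  exact exists_eq_unit_mul_pow_of_ufm hp hf hord

/-- **(L.P), all primes**, valuation-subring form: at every discrete valuation subring
`w ≠ ⊤` of `K` containing `R`, `f = u h ^ p` with `u` a unit of `w`. -/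
theorem exists_eq_unit_mul_pow_of_valuationSubring (φ : R →+* D)
    (hφ : Function.Surjective φ) {π : R} (hker : RingHom.ker φ = Ideal.span {π})
    (hjac : π ∈ Ideal.jacobson (⊥ : Ideal R)) (hπ0 : π ≠ 0) {p : ℕ} (hp : p ≠ 0) {f : K}
    (hf : f ≠ 0)
    (hord : ∀ w : ValuationSubring K, (∀ r : R, algebraMap R K r ∈ w) → w ≠ ⊤ →
      IsPrincipalIdealRing w → ∃ u h : K, f = u * h ^ p ∧ u ∈ w ∧ u⁻¹ ∈ w) :
    ∃ (u : Rˣ) (h : K), f = algebraMap R K u * h ^ p := by
  have := ufm_of_ker_eq_span φ hφ hker hjac hπ0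
  refine exists_eq_unit_mul_pow φ hφ hker hjac hπ0 hp hf fun g hg => ?_
  obtain ⟨u, h, e, ⟨a1, b1, hb1, e1⟩, ⟨a2, b2, hb2, e2⟩⟩ :=
    hord (primeValuationSubring K g hg) (algebraMap_mem_primeValuationSubring g hg)
      (primeValuationSubring_ne_top g hg) (isPrincipalIdealRing_primeValuationSubring g hg)
  have hu0 : u ≠ 0 := by
    rintro rfl
    exact hf (by rw [e, zero_mul])
  have ha1 : ¬ g ∣ a1 := by
    intro hd
    have hR : b1 * b2 = a1 * a2 := by
      apply IsFractionRing.injective R K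
      rw [map_mul, map_mul, ← e1, ← e2]
      field_simp
    exact (hg.dvd_or_dvd (hR ▸ hd.mul_right a2)).elim hb1 hb2
  exact ⟨a1, b1, h, ha1, hb1, by rw [e, ← e1]; ring⟩

end Main

/-! ### Quotient forms for a local ring -/

section Quot

variable {R : Type*} [CommRing R] [IsDomain R] [IsLocalRing R] [IsNoetherianRing R]
  {K : Type*} [Field K] [Algebra R K] [IsFractionRing R K]

omit [IsDomain R] in
/-- **(L.P)** for a noetherian local ring `R` and `π` with `R / (π)` a principal ideal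
domain (e.g. a discrete valuation ring): every prime ideal not containing `π` is principal. -/
theorem quot_isPrincipal_of_notMem {π : R} [IsDomain (R ⧸ Ideal.span {π})]
    [IsPrincipalIdealRing (R ⧸ Ideal.span {π})] (𝔮 : Ideal R) [𝔮.IsPrime] (hπ : π ∉ 𝔮) :
    Submodule.IsPrincipal 𝔮 :=
  isPrincipal_of_notMem (Ideal.Quotient.mk (Ideal.span {π})) Ideal.Quotient.mk_surjective
    Ideal.mk_ker (mem_jacobson_bot_of_isLocalRing (Ideal.Quotient.mk (Ideal.span {π}))
      (Ideal.Quotient.eq_zero_iff_mem.mpr (Ideal.mem_span_singleton_self π))) 𝔮 hπ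

/-- **(L.P)**, factoriality, quotient form. -/
theorem quot_ufm {π : R} (hπ0 : π ≠ 0) [IsDomain (R ⧸ Ideal.span {π})]
    [IsPrincipalIdealRing (R ⧸ Ideal.span {π})] : UniqueFactorizationMonoid R :=
  ufm_of_ker_eq_span (Ideal.Quotient.mk (Ideal.span {π})) Ideal.Quotient.mk_surjective
    Ideal.mk_ker (mem_jacobson_bot_of_isLocalRing (Ideal.Quotient.mk (Ideal.span {π}))
      (Ideal.Quotient.eq_zero_iff_mem.mpr (Ideal.mem_span_singleton_self π))) hπ0

/-- **(L.P)**, quotient form: `R` a noetherian local domain, `π ≠ 0`, `R / (π)` a principal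
ideal domain; `f ≠ 0` in `Frac R` with `p ∣ ord_g f` at every prime element `g ∤ π` is
`u * π ^ k * h ^ p` with `u` a unit of `R`. -/
theorem quot_exists_eq_unit_mul_pow_mul_pow {π : R} (hπ0 : π ≠ 0)
    [IsDomain (R ⧸ Ideal.span {π})] [IsPrincipalIdealRing (R ⧸ Ideal.span {π})]
    {p : ℕ} (hp : p ≠ 0) {f : K} (hf : f ≠ 0)
    (hord : ∀ g : R, Prime g → ¬ g ∣ π → ∃ (a b : R) (h : K), ¬ g ∣ a ∧ ¬ g ∣ b ∧
      algebraMap R K b * f = algebraMap R K a * h ^ p) :
    ∃ (u : Rˣ) (k : ℕ) (h : K), f = algebraMap R K u * algebraMap R K π ^ k * h ^ p :=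
  exists_eq_unit_mul_pow_mul_pow (Ideal.Quotient.mk (Ideal.span {π}))
    Ideal.Quotient.mk_surjective Ideal.mk_ker
    (mem_jacobson_bot_of_isLocalRing (Ideal.Quotient.mk (Ideal.span {π}))
      (Ideal.Quotient.eq_zero_iff_mem.mpr (Ideal.mem_span_singleton_self π))) hπ0 hp hf hord

/-- **(L.P)**, quotient form, valuation-subring hypothesis. -/
theorem quot_exists_eq_unit_mul_pow_mul_pow_of_valuationSubring {π : R} (hπ0 : π ≠ 0)
    [IsDomain (R ⧸ Ideal.span {π})] [IsPrincipalIdealRing (R ⧸ Ideal.span {π})]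
    {p : ℕ} (hp : p ≠ 0) {f : K} (hf : f ≠ 0)
    (hord : ∀ w : ValuationSubring K, (∀ r : R, algebraMap R K r ∈ w) →
      (algebraMap R K π)⁻¹ ∈ w → w ≠ ⊤ → IsPrincipalIdealRing w →
      ∃ u h : K, f = u * h ^ p ∧ u ∈ w ∧ u⁻¹ ∈ w) :
    ∃ (u : Rˣ) (k : ℕ) (h : K), f = algebraMap R K u * algebraMap R K π ^ k * h ^ p :=
  exists_eq_unit_mul_pow_mul_pow_of_valuationSubring (Ideal.Quotient.mk (Ideal.span {π}))
    Ideal.Quotient.mk_surjective Ideal.mk_ker
    (mem_jacobson_bot_of_isLocalRing (Ideal.Quotient.mk (Ideal.span {π}))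
      (Ideal.Quotient.eq_zero_iff_mem.mpr (Ideal.mem_span_singleton_self π))) hπ0 hp hf hord

end Quot

end Fermat.Agent.S44.L.LocalPrincipal
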