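import Mathlib
import Fermat.Agent.S44.L.LocalPrincipal

/-!
# Program MR (S44), strand L, brick (L.N): the node lemma

Level-free commutative algebra (helper153).  Imports Mathlib and the landed
`S44/L/LocalPrincipal` (helper27) only.

Setting: `O` a discrete valuation ring with uniformiser `ϖ`, `ϖ ^ (p - 1) ∣ p`, perfect residue
field (`hperf`); `R` a noetherian local domain over `O` with maximal ideal `(s, t)`, `s`, `t`
non-associated prime elements and `s * t = ϖ * unit` (a REGULAR node: the special fibre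
`R / ϖ` has the two branches `R / s`, `R / t`, which are discrete valuation rings).  `F = Frac R`.

`node_lemma`: let `f ∈ Fˣ` have all horizontal orders divisible by `p` (`hhor`) and be
`c₁ * g₁ ^ p * (1 + ϖ ^ p * w₁)` on the branch `R_(s)` and `c₂ * g₂ ^ p * (1 + ϖ ^ p * w₂)` on the
branch `R_(t)`, with constants `c₁, c₂ ∈ O`.  Then `c₁ / c₂ ∈ (Frac O)ˣᵖ * (1 + ϖ ^ p O)`.

The application: `O = O_K[ζ_p]`, `ϖ = ζ_p - 1`, and `R` the regular cover `s t = ϖ`,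
`t ^ (p - 1) = y`, `s ^ (p - 1) = x * unit` of a thickness-one node `x y = p` of a model over the
unramified base (`S44/L/NodeCover`).
-/

set_option autoImplicit false
set_option linter.unusedSectionVars false
set_option linter.style.haveILetI false

namespace Fermat.Agent.S44.L.Node

open IsLocalRing
open Fermat.Agent.S44.L.LocalPrincipal

/-! ### Prime powers in a domain -/

section PrimePow

variable {D : Type*} [CommRing D] [IsDomain D]

/-- Comparing the powers of a prime element. -/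
theorem eq_of_mul_pow_eq {g : D} (hg : Prime g) {a b : D} (ha : ¬ g ∣ a) (hb : ¬ g ∣ b)
    {k l : ℕ} (h : a * g ^ k = b * g ^ l) : k = l ∧ a = b := by
  have key : ∀ {a b : D} {k l : ℕ}, ¬ g ∣ a → a * g ^ k = b * g ^ l → ¬ k < l := by
    intro a b k l ha h hkl
    obtain ⟨d, rfl⟩ := Nat.exists_eq_add_of_lt hkl
    apply ha
    have h1 : a * g ^ k = (b * g ^ d * g) * g ^ k := by rw [h]; ring
    rw [mul_right_cancel₀ (pow_ne_zero k hg.ne_zero) h1]
    exact Dvd.intro_left _ rfl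
  have hkl : k = l := le_antisymm (not_lt.mp (key hb h.symm)) (not_lt.mp (key ha h))
  subst hkl
  exact ⟨rfl, mul_right_cancel₀ (pow_ne_zero k hg.ne_zero) h⟩

variable [WfDvdMonoid D]

/-- Removing the `g`-part of a relation `A g ^ i X ^ p = B g ^ m Y ^ p`. -/
theorem exists_reduced {g : D} (hg : Prime g) {p : ℕ} {A B X Y : D} {i m : ℕ}
    (hA : ¬ g ∣ A) (hB : ¬ g ∣ B) (hX : X ≠ 0) (hY : Y ≠ 0)
    (h : A * g ^ i * X ^ p = B * g ^ m * Y ^ p) :
    ∃ (X' Y' : D) (α β : ℕ), ¬ g ∣ X' ∧ ¬ g ∣ Y' ∧ i + p * α = m + p * β ∧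
      A * X' ^ p = B * Y' ^ p := by
  obtain ⟨X', eX, hX'⟩ :=
    (FiniteMultiplicity.of_not_isUnit hg.not_isUnit hX).exists_eq_pow_mul_and_not_dvd
  obtain ⟨Y', eY, hY'⟩ :=
    (FiniteMultiplicity.of_not_isUnit hg.not_isUnit hY).exists_eq_pow_mul_and_not_dvd
  generalize multiplicity g X = α at eX
  generalize multiplicity g Y = β at eY
  have h1 : (A * X' ^ p) * g ^ (i + p * α) = (B * Y' ^ p) * g ^ (m + p * β) := by
    rw [eX, eY] at h
    calc (A * X' ^ p) * g ^ (i + p * α) = A * g ^ i * (g ^ α * X') ^ p := by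
          rw [pow_add, pow_mul', mul_pow]; ring
      _ = B * g ^ m * (g ^ β * Y') ^ p := h
      _ = (B * Y' ^ p) * g ^ (m + p * β) := by rw [pow_add, pow_mul', mul_pow]; ring
  have hAX : ¬ g ∣ A * X' ^ p := fun hd =>
    (hg.dvd_or_dvd hd).elim hA fun hd' => hX' (hg.dvd_of_dvd_pow hd')
  have hBY : ¬ g ∣ B * Y' ^ p := fun hd =>
    (hg.dvd_or_dvd hd).elim hB fun hd' => hY' (hg.dvd_of_dvd_pow hd')
  obtain ⟨e1, e2⟩ := eq_of_mul_pow_eq hg hAX hBY h1
  exact ⟨X', Y', α, β, hX', hY', e1, e2⟩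

end PrimePow

/-! ### The branch `R / (s)` of a regular node -/

section Quot

variable {R : Type*} [CommRing R] [IsDomain R] [IsLocalRing R] [IsNoetherianRing R]

theorem not_dvd_of_not_associated {s t : R} (hs : Prime s) (ht : Prime t)
    (hne : ¬ Associated s t) : ¬ s ∣ t := fun h =>
  hne (hs.associated_of_dvd ht h)

theorem mk_self_eq_zero (s : R) : Ideal.Quotient.mk (Ideal.span {s}) s = 0 :=
  Ideal.Quotient.eq_zero_iff_mem.mpr (Ideal.mem_span_singleton_self s)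

theorem mk_eq_zero_iff {s x : R} : Ideal.Quotient.mk (Ideal.span {s}) x = 0 ↔ s ∣ x := by
  rw [Ideal.Quotient.eq_zero_iff_mem, Ideal.mem_span_singleton]

/-- Modulo `s`, every element of the maximal ideal `(s, t)` is a multiple of `t`. -/
theorem mk_dvd_of_mem {s t : R} (hm : maximalIdeal R = Ideal.span {s, t}) {x : R}
    (hx : x ∈ maximalIdeal R) :
    Ideal.Quotient.mk (Ideal.span {s}) t ∣ Ideal.Quotient.mk (Ideal.span {s}) x := by
  rw [hm, Ideal.mem_span_pair] at hx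
  obtain ⟨a, b, rfl⟩ := hx
  refine ⟨Ideal.Quotient.mk _ b, ?_⟩
  rw [map_add, map_mul, map_mul, mk_self_eq_zero, mul_zero, zero_add, mul_comm]

theorem mem_maximalIdeal_left {s t : R} (hm : maximalIdeal R = Ideal.span {s, t}) :
    s ∈ maximalIdeal R := by
  rw [hm]; exact Ideal.subset_span (by simp)

theorem mem_maximalIdeal_right {s t : R} (hm : maximalIdeal R = Ideal.span {s, t}) :
    t ∈ maximalIdeal R := by
  rw [hm]; exact Ideal.subset_span (by simp)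

theorem not_isUnit_mk {s t : R} (hm : maximalIdeal R = Ideal.span {s, t}) :
    ¬ IsUnit (Ideal.Quotient.mk (Ideal.span {s}) t) := by
  intro hu
  obtain ⟨c, hc⟩ := hu.exists_right_inv
  obtain ⟨c, rfl⟩ := Ideal.Quotient.mk_surjective c
  rw [← map_mul, ← map_one (Ideal.Quotient.mk (Ideal.span {s})), Ideal.Quotient.eq,
    Ideal.mem_span_singleton] at hc
  obtain ⟨e, he⟩ := hc
  have h1 : (1 : R) ∈ maximalIdeal R := by
    have : (1 : R) = t * c - s * e := by rw [← he]; ring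
    rw [this]
    exact Ideal.sub_mem _ (Ideal.mul_mem_right _ _ (mem_maximalIdeal_right hm))
      (Ideal.mul_mem_right _ _ (mem_maximalIdeal_left hm))
  exact (Ideal.ne_top_iff_one _).mp (maximalIdeal.isMaximal R).ne_top h1

/-- The image of `t` in `R / (s)` is a prime element. -/
theorem prime_mk {s t : R} (hs : Prime s) (ht : Prime t) (hne : ¬ Associated s t)
    (hm : maximalIdeal R = Ideal.span {s, t}) :
    Prime (Ideal.Quotient.mk (Ideal.span {s}) t) := by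
  have hst : ¬ s ∣ t := not_dvd_of_not_associated hs ht hne
  refine ⟨fun h0 => hst (mk_eq_zero_iff.mp h0), not_isUnit_mk hm, ?_⟩
  intro a b hab
  obtain ⟨a, rfl⟩ := Ideal.Quotient.mk_surjective a
  obtain ⟨b, rfl⟩ := Ideal.Quotient.mk_surjective b
  obtain ⟨c, hc⟩ := hab
  obtain ⟨c, rfl⟩ := Ideal.Quotient.mk_surjective c
  rw [← map_mul, ← map_mul, Ideal.Quotient.eq, Ideal.mem_span_singleton] at hc
  obtain ⟨e, he⟩ := hc
  have hab : a * b ∈ maximalIdeal R := by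
    have : a * b = s * e + t * c := by linear_combination he
    rw [this]
    exact Ideal.add_mem _ (Ideal.mul_mem_right _ _ (mem_maximalIdeal_left hm))
      (Ideal.mul_mem_right _ _ (mem_maximalIdeal_right hm))
  rcases (maximalIdeal.isMaximal R).isPrime.mem_or_mem hab with h | h
  · exact Or.inl (mk_dvd_of_mem hm h)
  · exact Or.inr (mk_dvd_of_mem hm h)

theorem isDomain_quot {s : R} (hs : Prime s) : IsDomain (R ⧸ Ideal.span {s}) := by
  haveI : (Ideal.span {s}).IsPrime := (Ideal.span_singleton_prime hs.ne_zero).mpr hs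
  infer_instance

/-- `R / (s)` is a principal ideal ring (a discrete valuation ring with uniformiser `t`). -/
theorem isPrincipalIdealRing_quot {s t : R} (hs : Prime s)
    (hm : maximalIdeal R = Ideal.span {s, t}) :
    IsPrincipalIdealRing (R ⧸ Ideal.span {s}) := by
  haveI : IsDomain (R ⧸ Ideal.span {s}) := isDomain_quot hs
  haveI : IsLocalRing (R ⧸ Ideal.span {s}) :=
    IsLocalRing.of_surjective' (Ideal.Quotient.mk (Ideal.span {s})) Ideal.Quotient.mk_surjective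
  have h4 : (maximalIdeal (R ⧸ Ideal.span {s})).IsPrincipal := by
    refine ⟨⟨Ideal.Quotient.mk (Ideal.span {s}) t, ?_⟩⟩
    ext x
    obtain ⟨x, rfl⟩ := Ideal.Quotient.mk_surjective x
    rw [Submodule.mem_span_singleton, IsLocalRing.mem_maximalIdeal, mem_nonunits_iff]
    constructor
    · intro hx
      have hxm : x ∈ maximalIdeal R := by
        rw [IsLocalRing.mem_maximalIdeal, mem_nonunits_iff]
        exact fun hu => hx (hu.map _)
      obtain ⟨c, hc⟩ := mk_dvd_of_mem hm hxm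
      exact ⟨c, by rw [hc, smul_eq_mul, mul_comm]⟩
    · rintro ⟨c, hc⟩ hu
      rw [← hc, smul_eq_mul] at hu
      exact not_isUnit_mk hm (isUnit_of_mul_isUnit_right hu)
  exact ((tfae_of_isNoetherianRing_of_isLocalRing_of_isDomain (R ⧸ Ideal.span {s})).out 0 4).mpr h4

end Quot

/-! ### Branch relations -/

section Branch

variable {R : Type*} [CommRing R] [IsDomain R] [IsLocalRing R] [IsNoetherianRing R]
  {F : Type*} [Field F] [Algebra R F] [IsFractionRing R F]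

/-- The branch relation `b u = w g ^ p c` in `F` (with `s ∤ b`, `s ∤ c`, `u`, `w` units) gives
`b u X ^ p = w c Y ^ p` in `R` with `s ∤ X`, `s ∤ Y`. -/
theorem exists_branch_eq {p : ℕ} (hp : p ≠ 0) {s : R} (hs : Prime s) {u w : R} (hu : IsUnit u)
    (hw : IsUnit w) {g : F} {b c : R} (hb : ¬ s ∣ b) (hc : ¬ s ∣ c)
    (h : algebraMap R F b * algebraMap R F u = algebraMap R F w * g ^ p * algebraMap R F c) :
    ∃ X Y : R, ¬ s ∣ X ∧ ¬ s ∣ Y ∧ b * u * X ^ p = w * c * Y ^ p := by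
  have hinj := IsFractionRing.injective R F
  have hb0 : b ≠ 0 := fun h0 => hb (h0 ▸ dvd_zero s)
  have hu0 : u ≠ 0 := hu.ne_zero
  obtain ⟨gn, gd, hgd, rfl⟩ := IsFractionRing.div_surjective R g
  have hgd0 : gd ≠ 0 := nonZeroDivisors.ne_zero hgd
  have hgdF : algebraMap R F gd ≠ 0 := (map_ne_zero_iff _ hinj).mpr hgd0
  have hR : b * u * gd ^ p = w * c * gn ^ p := by
    apply hinj
    simp only [map_mul, map_pow]
    rw [h, div_pow]
    field_simp
  have hgn0 : gn ≠ 0 := by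
    rintro rfl
    rw [zero_pow hp, mul_zero] at hR
    exact mul_ne_zero (mul_ne_zero hb0 hu0) (pow_ne_zero _ hgd0) hR
  have hA : ¬ s ∣ b * u := fun hd =>
    (hs.dvd_or_dvd hd).elim hb fun hd' => hs.not_isUnit (isUnit_of_dvd_unit hd' hu)
  have hB : ¬ s ∣ w * c := fun hd =>
    (hs.dvd_or_dvd hd).elim (fun hd' => hs.not_isUnit (isUnit_of_dvd_unit hd' hw)) hc
  obtain ⟨X, Y, α, β, hX, hY, -, e⟩ := exists_reduced hs (p := p) (i := 0) (m := 0) hA hB hgd0 hgn0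
    (by rw [pow_zero, mul_one, mul_one]; exact hR)
  exact ⟨X, Y, hX, hY, e⟩

/-- On the branch `R / (s)` (integrally closed), `u` is a `p`-th power: from
`b u X ^ p = c Y ^ p` with `c ≡ b` modulo `s`. -/
theorem exists_root_mod {p : ℕ} (hp : p ≠ 0) {s t : R} (hs : Prime s)
    (hm : maximalIdeal R = Ideal.span {s, t}) {u b c X Y : R} (hb : ¬ s ∣ b) (hX : ¬ s ∣ X)
    (hc : s ∣ c - b) (e : b * u * X ^ p = c * Y ^ p) :
    ∃ γ : R, s ∣ Y - X * γ ∧ s ∣ u - γ ^ p := by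
  haveI : IsDomain (R ⧸ Ideal.span {s}) := isDomain_quot hs
  haveI : IsPrincipalIdealRing (R ⧸ Ideal.span {s}) := isPrincipalIdealRing_quot hs hm
  set mk := Ideal.Quotient.mk (Ideal.span {s}) with hmk
  have hb' : mk b ≠ 0 := fun h0 => hb (mk_eq_zero_iff.mp h0)
  have hX' : mk X ≠ 0 := fun h0 => hX (mk_eq_zero_iff.mp h0)
  have hcb : mk c = mk b := by
    rw [← sub_eq_zero, ← map_sub]
    exact mk_eq_zero_iff.mpr hc
  have e' : mk u * mk X ^ p = mk Y ^ p := by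
    have := congrArg mk e
    simp only [map_mul, map_pow] at this
    rw [hcb, mul_assoc] at this
    exact mul_left_cancel₀ hb' this
  have hdvd : mk X ∣ mk Y :=
    (IsIntegrallyClosed.pow_dvd_pow_iff hp).mp ⟨mk u, by rw [← e', mul_comm]⟩
  obtain ⟨γ, hγ⟩ := hdvd
  obtain ⟨γ, rfl⟩ := Ideal.Quotient.mk_surjective γ
  refine ⟨γ, ?_, ?_⟩
  · rw [← mk_eq_zero_iff, map_sub, map_mul, hγ, sub_self]
  · rw [← mk_eq_zero_iff, map_sub, map_pow, sub_eq_zero]
    rw [hγ, mul_pow, mul_comm] at e'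
    exact mul_left_cancel₀ (pow_ne_zero p hX') e'

/-- Depth on a branch: from the branch relation, `Y ≡ X γ` modulo `s` and `u = γ ^ p + ϖ z`,
the `ϖ`-coefficient `z` is `a₁ γ ^ p` modulo `s ^ (p - 1)`. -/
theorem pow_dvd_sub {p : ℕ} (hp : p.Prime) {s t v : R} (hs : Prime s) (hst : ¬ s ∣ t)
    (hv : IsUnit v) (hκ : s ^ (p - 1) ∣ (p : R)) {u b a a₁ X Y γ z : R}
    (hb : ¬ s ∣ b) (hX : ¬ s ∣ X)
    (e : b * u * X ^ p = (1 + s * t * v * a₁) * (b + (s * t * v) ^ p * a) * Y ^ p)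
    (hY : s ∣ Y - X * γ) (hu : u = γ ^ p + s * t * v * z) :
    s ^ (p - 1) ∣ z - a₁ * γ ^ p := by
  obtain ⟨r, hr⟩ := hY
  obtain ⟨κ, hκ⟩ := hκ
  obtain ⟨ρ, hρ⟩ := exists_add_pow_prime_eq hp (X * γ) (s * r)
  have hsp : s ^ (p - 1) * s = s ^ p := pow_sub_one_mul hp.ne_zero s
  have hYeq : Y = X * γ + s * r := by linear_combination hr
  have hYp : Y ^ p = X ^ p * γ ^ p + s ^ p * (r ^ p + κ * (X * γ) * r * ρ) := by
    rw [hYeq, hρ, hκ, mul_pow, mul_pow, ← hsp]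
    ring
  have key : s ^ (p - 1) * ((1 + s * t * v * a₁) * (b * (r ^ p + κ * (X * γ) * r * ρ)
      + (t * v) ^ p * a * Y ^ p)) = b * (X ^ p * (t * (v * (z - a₁ * γ ^ p)))) := by
    apply mul_left_cancel₀ hs.ne_zero
    have e2 : (s * t * v) ^ p = s ^ p * (t * v) ^ p := by rw [mul_assoc, mul_pow]
    rw [e2, hu] at e
    linear_combination (exp := 1) (-1 : R) * e - (1 + s * t * v * a₁) * b * hYp
      + ((1 + s * t * v * a₁) * (b * (r ^ p + κ * (X * γ) * r * ρ)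
      + (t * v) ^ p * a * Y ^ p)) * hsp
  have h1 : s ^ (p - 1) ∣ b * (X ^ p * (t * (v * (z - a₁ * γ ^ p)))) := ⟨_, key.symm⟩
  have h2 := hs.pow_dvd_of_dvd_mul_left (p - 1) hb h1
  have h3 := hs.pow_dvd_of_dvd_mul_left (p - 1) (fun hd => hX (hs.dvd_of_dvd_pow hd)) h2
  have h4 := hs.pow_dvd_of_dvd_mul_left (p - 1) hst h3
  exact hs.pow_dvd_of_dvd_mul_left (p - 1)
    (fun hd => hs.not_isUnit (isUnit_of_dvd_unit hd hv)) h4

/-- `(s t) ^ n ∉ (s ^ N, t ^ N)` for `n < N`. -/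
theorem pow_notMem_span_pair {s t : R} (hs : Prime s) (hst : ¬ s ∣ t)
    (htm : t ∈ maximalIdeal R) {n N : ℕ} (hn : n < N) :
    (s * t) ^ n ∉ Ideal.span {s ^ N, t ^ N} := by
  intro hmem
  rw [Ideal.mem_span_pair] at hmem
  obtain ⟨A, B, hAB⟩ := hmem
  obtain ⟨d, rfl⟩ := Nat.exists_eq_add_of_lt hn
  rw [mul_pow] at hAB
  have h1 : s ^ n ∣ B * t ^ (n + d + 1) :=
    ⟨t ^ n - A * s ^ (d + 1), by linear_combination hAB⟩
  obtain ⟨B', rfl⟩ := hs.pow_dvd_of_dvd_mul_right n (fun hd => hst (hs.dvd_of_dvd_pow hd)) h1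
  have h2 : t ^ n * (1 - B' * t ^ (d + 1)) = A * s ^ d * s := by
    apply mul_left_cancel₀ (pow_ne_zero n hs.ne_zero)
    linear_combination -hAB
  have h3 : s ∣ 1 - B' * t ^ (d + 1) :=
    (hs.dvd_or_dvd ⟨A * s ^ d, by rw [h2]; ring⟩).resolve_left
      (fun hd => hst (hs.dvd_of_dvd_pow hd))
  have h4 : IsUnit (1 - B' * t ^ (d + 1)) := by
    apply IsLocalRing.isUnit_one_sub_self_of_mem_nonunits
    have : B' * t ^ (d + 1) ∈ maximalIdeal R :=
      Ideal.mul_mem_left _ _ (Ideal.pow_mem_of_mem _ htm _ (Nat.succ_pos d))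
    exact this
  exact hs.not_isUnit (isUnit_of_dvd_unit h3 h4)

end Branch

/-! ### The node lemma for units -/

section Core

variable {O : Type*} [CommRing O] [IsDomain O] [IsDiscreteValuationRing O]
  {R : Type*} [CommRing R] [IsDomain R] [IsLocalRing R] [IsNoetherianRing R] [Algebra O R]
  {F : Type*} [Field F] [Algebra R F] [IsFractionRing R F]

/-- Perfect residue field: every unit of `O` is `β ^ p * (1 + ϖ a)`. -/
theorem exists_eq_pow_mul_one_add {p : ℕ} (hp : p ≠ 0) {ϖ : O} (hϖ : Irreducible ϖ)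
    (hperf : ∀ a : O, ∃ b : O, ϖ ∣ a - b ^ p) {u : O} (hu : IsUnit u) :
    ∃ β a : O, IsUnit β ∧ u = β ^ p * (1 + ϖ * a) := by
  obtain ⟨β, e, he⟩ := hperf u
  have hβ : IsUnit β := by
    by_contra hβ
    have h1 : ϖ ∣ β ^ p := by
      have hβm : β ∈ maximalIdeal O := hβ
      rw [hϖ.maximalIdeal_eq, Ideal.mem_span_singleton] at hβm
      exact dvd_pow hβm hp
    have h2 : ϖ ∣ u := by
      have : u = (u - β ^ p) + β ^ p := by ring
      rw [this]
      exact dvd_add ⟨e, he⟩ h1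
    exact hϖ.not_isUnit (isUnit_of_dvd_unit h2 hu)
  obtain ⟨β', rfl⟩ := hβ
  refine ⟨β', e * ((β'⁻¹ : Oˣ) : O) ^ p, β'.isUnit, ?_⟩
  have h3 : (β' : O) ^ p * ((β'⁻¹ : Oˣ) : O) ^ p = 1 := by
    rw [← mul_pow, Units.mul_inv, one_pow]
  linear_combination he - ϖ * e * h3

/-- **The node lemma for a unit.**  If the unit `u` of the regular node ring `R` is
`u₁ * g₁ ^ p * (1 + ϖ ^ p * w₁)` on the branch `R_(s)` and `u₂ * g₂ ^ p * (1 + ϖ ^ p * w₂)` on the
branch `R_(t)`, with `u₁`, `u₂` units of `O`, then `u₁ / u₂ ∈ Oˣᵖ * (1 + ϖ ^ p O)`. -/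
theorem core_units (p : ℕ) (hp : p.Prime)
    (ϖ : O) (hϖ : Irreducible ϖ) (hpϖ : ϖ ^ (p - 1) ∣ (p : O))
    (hperf : ∀ a : O, ∃ b : O, ϖ ∣ a - b ^ p)
    (s t : R) (hs : Prime s) (ht : Prime t) (hne : ¬ Associated s t)
    (hm : maximalIdeal R = Ideal.span {s, t})
    (hst : Associated (s * t) (algebraMap O R ϖ))
    (u : R) (hu : IsUnit u) (u₁ u₂ : O) (hu₁ : IsUnit u₁) (hu₂ : IsUnit u₂)
    (hbr₁ : ∃ (g : F) (a b : R), ¬ s ∣ b ∧ algebraMap R F b * algebraMap R F u =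
      algebraMap R F (algebraMap O R u₁) * g ^ p *
        algebraMap R F (b + algebraMap O R ϖ ^ p * a))
    (hbr₂ : ∃ (g : F) (a b : R), ¬ t ∣ b ∧ algebraMap R F b * algebraMap R F u =
      algebraMap R F (algebraMap O R u₂) * g ^ p *
        algebraMap R F (b + algebraMap O R ϖ ^ p * a)) :
    ∃ d e a : O, d ≠ 0 ∧ e ≠ 0 ∧ u₁ * d ^ p = u₂ * e ^ p * (1 + ϖ ^ p * a) := by
  obtain ⟨v, hv⟩ := hst
  have hsnt : ¬ s ∣ t := not_dvd_of_not_associated hs ht hne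
  have htns : ¬ t ∣ s := not_dvd_of_not_associated ht hs (fun h => hne h.symm)
  have hm' : maximalIdeal R = Ideal.span {t, s} := by rw [hm, Set.pair_comm]
  have hsm : s ∈ maximalIdeal R := mem_maximalIdeal_left hm
  have htm : t ∈ maximalIdeal R := mem_maximalIdeal_right hm
  have hpp : (s * t * v) ^ (p - 1) * (s * t * v) = (s * t * v) ^ p :=
    pow_sub_one_mul hp.ne_zero _
  -- `p` in `R`
  obtain ⟨cp, hcp⟩ := hpϖ
  have hpR : (p : R) = (s * t * v) ^ (p - 1) * algebraMap O R cp := by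
    rw [hv, ← map_pow, ← map_mul, ← hcp, map_natCast]
  have hκs : s ^ (p - 1) ∣ (p : R) :=
    ⟨(t * v) ^ (p - 1) * algebraMap O R cp, by rw [hpR, mul_assoc s, mul_pow]; ring⟩
  have hκt : t ^ (p - 1) ∣ (p : R) :=
    ⟨(s * v) ^ (p - 1) * algebraMap O R cp, by
      rw [hpR, mul_comm s t, mul_assoc t, mul_pow]; ring⟩
  -- normalise the constants
  obtain ⟨β₁, a₁, hβ₁, e₁⟩ := exists_eq_pow_mul_one_add hp.ne_zero hϖ hperf hu₁
  obtain ⟨β₂, a₂, hβ₂, e₂⟩ := exists_eq_pow_mul_one_add hp.ne_zero hϖ hperf hu₂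
  have e₁R : algebraMap O R u₁ =
      algebraMap O R β₁ ^ p * (1 + s * t * v * algebraMap O R a₁) := by
    rw [e₁, map_mul, map_pow, map_add, map_one, map_mul, hv]
  have e₂R : algebraMap O R u₂ =
      algebraMap O R β₂ ^ p * (1 + t * s * v * algebraMap O R a₂) := by
    rw [e₂, map_mul, map_pow, map_add, map_one, map_mul, mul_comm t s, hv]
  -- the two branch relations in `R`
  obtain ⟨g₁, A₁, b₁, hb₁, h₁⟩ := hbr₁
  obtain ⟨g₂, A₂, b₂, hb₂, h₂⟩ := hbr₂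
  rw [← hv] at h₁ h₂
  have hc₁ : ¬ s ∣ b₁ + (s * t * v) ^ p * A₁ := by
    intro hd
    apply hb₁
    have h3 : s ∣ (s * t * v) ^ p * A₁ :=
      Dvd.dvd.mul_right (dvd_pow (Dvd.intro _ (mul_assoc s t v).symm) hp.ne_zero) _
    exact (dvd_add_left h3).mp hd
  have hc₂ : ¬ t ∣ b₂ + (s * t * v) ^ p * A₂ := by
    intro hd
    apply hb₂
    have h3 : t ∣ (s * t * v) ^ p * A₂ :=
      Dvd.dvd.mul_right (dvd_pow ⟨s * v, by ring⟩ hp.ne_zero) _
    exact (dvd_add_left h3).mp hd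
  obtain ⟨X₁, Y₁, hX₁, hY₁, E₁⟩ :=
    exists_branch_eq hp.ne_zero hs hu (hu₁.map (algebraMap O R)) hb₁ hc₁ h₁
  obtain ⟨X₂, Y₂, hX₂, hY₂, E₂⟩ :=
    exists_branch_eq hp.ne_zero ht hu (hu₂.map (algebraMap O R)) hb₂ hc₂ h₂
  have E₁' : b₁ * u * X₁ ^ p = (1 + s * t * v * algebraMap O R a₁) *
      (b₁ + (s * t * v) ^ p * A₁) * (algebraMap O R β₁ * Y₁) ^ p := by
    rw [E₁, e₁R]; ring
  have E₂' : b₂ * u * X₂ ^ p = (1 + t * s * v * algebraMap O R a₂) *
      (b₂ + (t * s * v) ^ p * A₂) * (algebraMap O R β₂ * Y₂) ^ p := by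
    rw [E₂, e₂R]; ring
  -- roots on the two branches
  obtain ⟨γ₁, hγ₁Y, hγ₁u⟩ := exists_root_mod hp.ne_zero hs hm hb₁ hX₁
    (c := (1 + s * t * v * algebraMap O R a₁) * (b₁ + (s * t * v) ^ p * A₁))
    ⟨t * v * algebraMap O R a₁ * (b₁ + (s * t * v) ^ p * A₁)
      + t * v * (s * t * v) ^ (p - 1) * A₁, by linear_combination (-A₁) * hpp⟩ E₁'
  obtain ⟨γ₂, hγ₂Y, hγ₂u⟩ := exists_root_mod hp.ne_zero ht hm' hb₂ hX₂
    (c := (1 + t * s * v * algebraMap O R a₂) * (b₂ + (t * s * v) ^ p * A₂))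
    ⟨s * v * algebraMap O R a₂ * (b₂ + (t * s * v) ^ p * A₂)
      + s * v * (s * t * v) ^ (p - 1) * A₂, by
        rw [mul_comm t s]; linear_combination (-A₂) * hpp⟩ E₂'
  -- glue the two roots at the node
  have hpm : (p : R) ∈ maximalIdeal R := by
    obtain ⟨κ, hκ⟩ := hκs
    rw [hκ]
    exact Ideal.mul_mem_right _ _
      (Ideal.pow_mem_of_mem _ hsm _ (Nat.sub_pos_of_lt hp.one_lt))
  have hγm : γ₁ - γ₂ ∈ maximalIdeal R := by
    obtain ⟨r, hr⟩ := exists_add_pow_prime_eq hp (γ₁ - γ₂) γ₂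
    rw [sub_add_cancel] at hr
    obtain ⟨x₁, hx₁⟩ := hγ₁u
    obtain ⟨x₂, hx₂⟩ := hγ₂u
    have h3 : (γ₁ - γ₂) ^ p = t * x₂ - s * x₁ - (p : R) * ((γ₁ - γ₂) * γ₂ * r) := by
      linear_combination -hr + hx₂ - hx₁
    have h4 : (γ₁ - γ₂) ^ p ∈ maximalIdeal R := by
      rw [h3]
      exact Ideal.sub_mem _ (Ideal.sub_mem _ (Ideal.mul_mem_right _ _ htm)
        (Ideal.mul_mem_right _ _ hsm)) (Ideal.mul_mem_right _ _ hpm)
    exact (maximalIdeal.isMaximal R).isPrime.mem_of_pow_mem p h4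
  rw [hm, Ideal.mem_span_pair] at hγm
  obtain ⟨α, β, hαβ⟩ := hγm
  set γ : R := γ₁ - α * s with hγ
  have hsγ : s ∣ γ₁ - γ := ⟨α, by rw [hγ]; ring⟩
  have htγ : t ∣ γ₂ - γ := ⟨-β, by rw [hγ]; linear_combination hαβ⟩
  have hsu : s ∣ u - γ ^ p := by
    have : u - γ ^ p = (u - γ₁ ^ p) + (γ₁ ^ p - γ ^ p) := by ring
    rw [this]
    exact dvd_add hγ₁u (hsγ.trans (sub_dvd_pow_sub_pow γ₁ γ p))
  have htu : t ∣ u - γ ^ p := by
    have : u - γ ^ p = (u - γ₂ ^ p) + (γ₂ ^ p - γ ^ p) := by ring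
    rw [this]
    exact dvd_add hγ₂u (htγ.trans (sub_dvd_pow_sub_pow γ₂ γ p))
  obtain ⟨x₁, hx₁⟩ := hsu
  have htx₁ : t ∣ x₁ := (ht.dvd_or_dvd (hx₁ ▸ htu)).resolve_left htns
  obtain ⟨x₂, rfl⟩ := htx₁
  set z : R := ((v⁻¹ : Rˣ) : R) * x₂ with hz
  have hvv : (v : R) * ((v⁻¹ : Rˣ) : R) = 1 := Units.mul_inv v
  have hu_eq : u = γ ^ p + s * t * v * z := by
    rw [hz]; linear_combination hx₁ - s * t * x₂ * hvv
  have hu_eq' : u = γ ^ p + t * s * v * z := by rw [hu_eq]; ring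
  have hY₁γ : s ∣ algebraMap O R β₁ * Y₁ - X₁ * γ := by
    have : algebraMap O R β₁ * Y₁ - X₁ * γ
        = (algebraMap O R β₁ * Y₁ - X₁ * γ₁) + X₁ * (γ₁ - γ) := by ring
    rw [this]
    exact dvd_add hγ₁Y (Dvd.dvd.mul_left hsγ _)
  have hY₂γ : t ∣ algebraMap O R β₂ * Y₂ - X₂ * γ := by
    have : algebraMap O R β₂ * Y₂ - X₂ * γ
        = (algebraMap O R β₂ * Y₂ - X₂ * γ₂) + X₂ * (γ₂ - γ) := by ring
    rw [this]
    exact dvd_add hγ₂Y (Dvd.dvd.mul_left htγ _)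
  -- depth on the two branches
  have D₁ : s ^ (p - 1) ∣ z - algebraMap O R a₁ * γ ^ p :=
    pow_dvd_sub hp hs hsnt v.isUnit hκs hb₁ hX₁ E₁' hY₁γ hu_eq
  have D₂ : t ^ (p - 1) ∣ z - algebraMap O R a₂ * γ ^ p :=
    pow_dvd_sub hp ht htns v.isUnit hκt hb₂ hX₂ E₂' hY₂γ hu_eq'
  -- `γ` is a unit
  have hγu : IsUnit (γ ^ p) := by
    have h5 : IsUnit (γ ^ p + s * t * v * z) := hu_eq ▸ hu
    rcases IsLocalRing.isUnit_or_isUnit_of_isUnit_add h5 with h6 | h6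
    · exact h6
    · exfalso
      have h7 : s * t * v * z ∈ maximalIdeal R := by
        rw [mul_assoc, mul_assoc]
        exact Ideal.mul_mem_right _ _ hsm
      exact h7 h6
  -- the difference of the constants lies in `(s ^ (p - 1), t ^ (p - 1))`
  have hmem : algebraMap O R (a₁ - a₂) ∈ Ideal.span {s ^ (p - 1), t ^ (p - 1)} := by
    obtain ⟨w, hw⟩ := hγu
    obtain ⟨y₁, hy₁⟩ := D₁
    obtain ⟨y₂, hy₂⟩ := D₂
    have hww : (w : R) * ((w⁻¹ : Rˣ) : R) = 1 := Units.mul_inv w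
    have h8 : algebraMap O R (a₁ - a₂)
        = (-((w⁻¹ : Rˣ) : R) * y₁) * s ^ (p - 1) + (((w⁻¹ : Rˣ) : R) * y₂) * t ^ (p - 1) := by
      rw [map_sub]
      linear_combination (algebraMap O R a₂ - algebraMap O R a₁) * hww
        + ((w⁻¹ : Rˣ) : R) * (algebraMap O R a₁ - algebraMap O R a₂) * hw
        + ((w⁻¹ : Rˣ) : R) * hy₂ - ((w⁻¹ : Rˣ) : R) * hy₁
    rw [h8, Ideal.mem_span_pair]
    exact ⟨_, _, rfl⟩
  -- hence `ϖ ^ (p - 1) ∣ a₁ - a₂` in `O`
  have hdvd : ϖ ^ (p - 1) ∣ a₁ - a₂ := by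
    by_cases h0 : a₁ - a₂ = 0
    · rw [h0]; exact dvd_zero _
    obtain ⟨n, ε, hn⟩ := IsDiscreteValuationRing.eq_unit_mul_pow_irreducible h0 hϖ
    by_cases hlt : n < p - 1
    · exfalso
      refine pow_notMem_span_pair hs hsnt htm hlt ?_
      have hεu : IsUnit (algebraMap O R ε * (v : R) ^ n) :=
        (ε.isUnit.map (algebraMap O R)).mul (v.isUnit.pow n)
      obtain ⟨w, hw⟩ := hεu
      have hww : ((w⁻¹ : Rˣ) : R) * (w : R) = 1 := Units.inv_mul w
      have h9a : algebraMap O R (a₁ - a₂) = (w : R) * (s * t) ^ n := by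
        rw [hn, map_mul, map_pow, ← hv, hw]; ring
      have h9 : (s * t) ^ n = ((w⁻¹ : Rˣ) : R) * algebraMap O R (a₁ - a₂) := by
        rw [h9a, ← mul_assoc, hww, one_mul]
      rw [h9]
      exact Ideal.mul_mem_left _ _ hmem
    · rw [hn]
      exact Dvd.dvd.mul_left (pow_dvd_pow ϖ (not_lt.mp hlt)) _
  obtain ⟨a₃, ha₃⟩ := hdvd
  -- conclusion
  have hω : IsUnit (1 + ϖ * a₂) := by
    rw [e₂] at hu₂
    exact isUnit_of_mul_isUnit_right hu₂
  obtain ⟨ω, hω⟩ := hω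
  have hωω : (ω : O) * ((ω⁻¹ : Oˣ) : O) = 1 := Units.mul_inv ω
  have hϖp : ϖ ^ (p - 1) * ϖ = ϖ ^ p := pow_sub_one_mul hp.ne_zero ϖ
  refine ⟨β₂, β₁, a₃ * ((ω⁻¹ : Oˣ) : O), hβ₂.ne_zero, hβ₁.ne_zero, ?_⟩
  rw [e₁, e₂]
  rw [hω] at hωω
  have h10 : a₁ = a₂ + ϖ ^ (p - 1) * a₃ := by linear_combination ha₃
  rw [h10]
  linear_combination β₁ ^ p * β₂ ^ p * a₃ * hϖp - β₁ ^ p * β₂ ^ p * ϖ ^ p * a₃ * hωω

end Core

/-! ### Factorisation with two exceptional primes -/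

section Factor

variable {R : Type*} [CommRing R] [IsDomain R] [UniqueFactorizationMonoid R]
  {K : Type*} [Field K] [Algebra R K] [IsFractionRing R K]

/-- Integral form: `c ≠ 0` in a factorial domain all of whose orders away from `s`, `t` are
divisible by `p` is `u * s ^ i * t ^ j * h ^ p`. -/
theorem exists_eq_unit_mul_pow_mul_pow_mul_pow_of_multiplicity (s t : R) (p : ℕ) (c : R)
    (hc : c ≠ 0)
    (hord : ∀ g : R, Prime g → ¬ Associated g s → ¬ Associated g t → p ∣ multiplicity g c) :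
    ∃ (u : Rˣ) (i j : ℕ) (h : R), c = u * s ^ i * t ^ j * h ^ p := by
  refine UniqueFactorizationMonoid.induction_on_coprime
    (P := fun c => c ≠ 0 →
      (∀ g : R, Prime g → ¬ Associated g s → ¬ Associated g t → p ∣ multiplicity g c) →
      ∃ (u : Rˣ) (i j : ℕ) (h : R), c = u * s ^ i * t ^ j * h ^ p) c ?_ ?_ ?_ ?_ hc hord
  · intro h0 _
    exact absurd rfl h0
  · intro x hx _ _
    obtain ⟨u, rfl⟩ := hx
    exact ⟨u, 0, 0, 1, by simp⟩
  · intro g i hg _ hord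
    by_cases hgs : Associated g s
    · obtain ⟨v, hv⟩ := hgs.symm
      refine ⟨v ^ i, i, 0, 1, ?_⟩
      rw [← hv]
      push_cast
      ring
    by_cases hgt : Associated g t
    · obtain ⟨v, hv⟩ := hgt.symm
      refine ⟨v ^ i, 0, i, 1, ?_⟩
      rw [← hv]
      push_cast
      ring
    · obtain ⟨j, hj⟩ := hord g hg hgs hgt
      rw [multiplicity_pow_self_of_prime hg] at hj
      exact ⟨1, 0, 0, g ^ j, by rw [hj, pow_mul']; simp⟩
  · intro x y hxy hx hy hxy0 hord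
    have hx0 : x ≠ 0 := left_ne_zero_of_mul hxy0
    have hy0 : y ≠ 0 := right_ne_zero_of_mul hxy0
    have key : ∀ g : R, Prime g → ¬ Associated g s → ¬ Associated g t →
        p ∣ multiplicity g x ∧ p ∣ multiplicity g y := by
      intro g hg hgs hgt
      have h := hord g hg hgs hgt
      rw [multiplicity_mul hg (FiniteMultiplicity.of_not_isUnit hg.not_isUnit hxy0)] at h
      by_cases hgx : g ∣ x
      · have hgy : ¬ g ∣ y := fun hgy => hg.not_isUnit (hxy hgx hgy)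
        rw [multiplicity_eq_zero.mpr hgy, add_zero] at h
        exact ⟨h, by rw [multiplicity_eq_zero.mpr hgy]; exact dvd_zero p⟩
      · rw [multiplicity_eq_zero.mpr hgx, zero_add] at h
        exact ⟨by rw [multiplicity_eq_zero.mpr hgx]; exact dvd_zero p, h⟩
    obtain ⟨u1, i1, j1, h1, e1⟩ := hx hx0 fun g hg hgs hgt => (key g hg hgs hgt).1
    obtain ⟨u2, i2, j2, h2, e2⟩ := hy hy0 fun g hg hgs hgt => (key g hg hgs hgt).2
    refine ⟨u1 * u2, i1 + i2, j1 + j2, h1 * h2, ?_⟩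
    rw [e1, e2]
    push_cast
    ring

/-- `f ≠ 0` in the fraction field of a factorial domain with `p ∣ ord_g f` at every prime
element `g` not associated to `s` or `t` is `u * s ^ i * t ^ j * h ^ p`, `u` a unit of `R`. -/
theorem exists_eq_unit_mul_pow_mul_pow_mul_pow (s t : R) {p : ℕ} (hp : p ≠ 0) {f : K}
    (hf : f ≠ 0)
    (hord : ∀ g : R, Prime g → ¬ Associated g s → ¬ Associated g t →
      ∃ (a b : R) (h : K), ¬ g ∣ a ∧ ¬ g ∣ b ∧
        algebraMap R K b * f = algebraMap R K a * h ^ p) :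
    ∃ (u : Rˣ) (i j : ℕ) (h : K),
      f = algebraMap R K u * algebraMap R K s ^ i * algebraMap R K t ^ j * h ^ p := by
  have hinj := IsFractionRing.injective R K
  obtain ⟨x, y, hy, rfl⟩ := IsFractionRing.div_surjective R f
  have hy0 : y ≠ 0 := nonZeroDivisors.ne_zero hy
  have hyK : algebraMap R K y ≠ 0 := (map_ne_zero_iff _ hinj).mpr hy0
  have hx0 : x ≠ 0 := by
    rintro rfl
    exact hf (by simp)
  obtain ⟨q, rfl⟩ : ∃ q, p = q + 1 := Nat.exists_eq_succ_of_ne_zero hp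
  have hc0 : x * y ^ q ≠ 0 := mul_ne_zero hx0 (pow_ne_zero _ hy0)
  have hfc : algebraMap R K x / algebraMap R K y
      = algebraMap R K (x * y ^ q) / algebraMap R K y ^ (q + 1) := by
    rw [map_mul, map_pow, pow_succ]
    field_simp
  obtain ⟨u, i, j, h, e⟩ := exists_eq_unit_mul_pow_mul_pow_mul_pow_of_multiplicity s t (q + 1)
    (x * y ^ q) hc0 (by
      intro g hg hgs hgt
      obtain ⟨a, b, h, ha, hb, heq⟩ := hord g hg hgs hgt
      refine dvd_multiplicity_of_mul_eq (K := K) (h := h * algebraMap R K y) hg ha hb hc0 ?_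
      rw [mul_pow, ← mul_assoc, ← heq, hfc]
      field_simp)
  refine ⟨u, i, j, algebraMap R K h / algebraMap R K y, ?_⟩
  rw [hfc, e, div_pow]
  push_cast
  ring

end Factor

/-! ### Orders on a branch and at the node -/

section Orders

variable {R : Type*} [CommRing R] [IsDomain R] [IsLocalRing R] [IsNoetherianRing R]
  {F : Type*} [Field F] [Algebra R F] [IsFractionRing R F]

/-- **Orders on a branch and at the node.**  If `f = u s ^ i t ^ j h ^ p` is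
`w ϖ ^ m g ^ p (1 + ϖ ^ p a / b)` on the branch `R_(s)` (`ϖ = s t v`), then `i ≡ m` (order along
the branch) and `j ≡ m` (order at the node of the reduction to `R / (s)`) modulo `p`. -/
theorem exists_orders {p : ℕ} (hp : p ≠ 0) {s t : R} (hs : Prime s) (ht : Prime t)
    (hne : ¬ Associated s t) (hm : maximalIdeal R = Ideal.span {s, t}) (v u : Rˣ)
    {i j m : ℕ} {w : R} (hw : IsUnit w) {h g : F} (hh : h ≠ 0) {a b : R} (hb : ¬ s ∣ b)
    (e : algebraMap R F b *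
        (algebraMap R F u * algebraMap R F s ^ i * algebraMap R F t ^ j * h ^ p) =
      algebraMap R F (w * (s * t * v) ^ m) * g ^ p *
        algebraMap R F (b + (s * t * v) ^ p * a)) :
    ∃ α β α' β' : ℕ, i + p * α = m + p * β ∧ j + p * α' = m + p * β' := by
  have hinj := IsFractionRing.injective R F
  have hsnt : ¬ s ∣ t := not_dvd_of_not_associated hs ht hne
  have hb0 : b ≠ 0 := fun h0 => hb (h0 ▸ dvd_zero s)
  have hc : ¬ s ∣ b + (s * t * v) ^ p * a := by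
    intro hd
    apply hb
    have h3 : s ∣ (s * t * v) ^ p * a :=
      Dvd.dvd.mul_right (dvd_pow (Dvd.intro _ (mul_assoc s t v).symm) hp) _
    exact (dvd_add_left h3).mp hd
  have hsu : ∀ x : R, IsUnit x → ¬ s ∣ x := fun x hx hd =>
    hs.not_isUnit (isUnit_of_dvd_unit hd hx)
  -- fractions
  obtain ⟨hn, hd, hhd, rfl⟩ := IsFractionRing.div_surjective R h
  obtain ⟨gn, gd, hgd, rfl⟩ := IsFractionRing.div_surjective R g
  have hhd0 : hd ≠ 0 := nonZeroDivisors.ne_zero hhd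
  have hgd0 : gd ≠ 0 := nonZeroDivisors.ne_zero hgd
  have hhdF : algebraMap R F hd ≠ 0 := (map_ne_zero_iff _ hinj).mpr hhd0
  have hgdF : algebraMap R F gd ≠ 0 := (map_ne_zero_iff _ hinj).mpr hgd0
  have hhn0 : hn ≠ 0 := by
    rintro rfl
    exact hh (by simp)
  have eR : (b * u * t ^ j) * s ^ i * (hn * gd) ^ p
      = (w * t ^ m * (v : R) ^ m * (b + (s * t * v) ^ p * a)) * s ^ m * (gn * hd) ^ p := by
    apply hinj
    simp only [map_mul, map_pow] at e ⊢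
    rw [div_pow, div_pow] at e
    field_simp at e
    linear_combination e
  have hgn0 : gn ≠ 0 := by
    rintro rfl
    rw [zero_mul, zero_pow hp, mul_zero] at eR
    refine mul_ne_zero (mul_ne_zero (mul_ne_zero (mul_ne_zero hb0 u.ne_zero)
      (pow_ne_zero _ ht.ne_zero)) (pow_ne_zero _ hs.ne_zero))
      (pow_ne_zero _ (mul_ne_zero hhn0 hgd0)) eR
  have hA : ¬ s ∣ b * u * t ^ j := fun hd' =>
    (hs.dvd_or_dvd hd').elim (fun hd'' => (hs.dvd_or_dvd hd'').elim hb (hsu _ u.isUnit))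
      (fun hd'' => hsnt (hs.dvd_of_dvd_pow hd''))
  have hB : ¬ s ∣ w * t ^ m * (v : R) ^ m * (b + (s * t * v) ^ p * a) := fun hd' =>
    (hs.dvd_or_dvd hd').elim (fun hd'' => (hs.dvd_or_dvd hd'').elim
      (fun hd3 => (hs.dvd_or_dvd hd3).elim (hsu _ hw)
        (fun hd4 => hsnt (hs.dvd_of_dvd_pow hd4)))
      (hsu _ (v.isUnit.pow m))) hc
  obtain ⟨X, Y, α, β, hX, hY, e1, e2⟩ :=
    exists_reduced hs hA hB (mul_ne_zero hhn0 hgd0) (mul_ne_zero hgn0 hhd0) eR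
  refine ⟨α, β, ?_⟩
  -- the node: reduce modulo `s`
  haveI : IsDomain (R ⧸ Ideal.span {s}) := isDomain_quot hs
  set mk := Ideal.Quotient.mk (Ideal.span {s}) with hmk
  have hb' : mk b ≠ 0 := fun h0 => hb (mk_eq_zero_iff.mp h0)
  have hX' : mk X ≠ 0 := fun h0 => hX (mk_eq_zero_iff.mp h0)
  have hY' : mk Y ≠ 0 := fun h0 => hY (mk_eq_zero_iff.mp h0)
  have hpt : Prime (mk t) := prime_mk hs ht hne hm
  have hcb : mk (b + (s * t * v) ^ p * a) = mk b := by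
    rw [← sub_eq_zero, ← map_sub, mk_eq_zero_iff]
    exact ⟨t * v * (s * t * v) ^ (p - 1) * a, by
      have := pow_sub_one_mul hp (s * t * (v : R))
      linear_combination (-a) * this⟩
  have e3 : mk u * mk t ^ j * mk X ^ p = (mk w * mk (v : R) ^ m) * mk t ^ m * mk Y ^ p := by
    have h5 := congrArg mk e2
    simp only [map_mul, map_pow] at h5
    rw [hcb] at h5
    apply mul_left_cancel₀ hb'
    linear_combination h5
  have hA' : ¬ mk t ∣ mk u := fun hd' =>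
    hpt.not_isUnit (isUnit_of_dvd_unit hd' (u.isUnit.map mk))
  have hB' : ¬ mk t ∣ mk w * mk (v : R) ^ m := fun hd' =>
    hpt.not_isUnit (isUnit_of_dvd_unit hd' ((hw.map mk).mul ((v.isUnit.map mk).pow m)))
  obtain ⟨X₂, Y₂, α', β', -, -, e4, -⟩ := exists_reduced hpt hA' hB' hX' hY' e3
  exact ⟨α', β', e1, e4⟩

end Orders

/-! ### Reduction to a unit -/

section Normalise

/-- Field bookkeeping: remove `s ^ i t ^ j h ^ p` against `ϖ ^ m` when `i ≡ j ≡ M ≡ m` mod `p`. -/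
theorem exists_unit_branch_aux {F : Type*} [Field F] {p i j m M α β α' β' A B : ℕ}
    (h1 : i + p * α = M + p * β) (h2 : j + p * α' = M + p * β') (h3 : m + p * A = M + p * B)
    {S T V Vi xb xu xw xc h g : F} (hS : S ≠ 0) (hT : T ≠ 0) (hV : V * Vi = 1) (hh : h ≠ 0)
    (e : xb * (xu * S ^ i * T ^ j * h ^ p) = xw * (S * T * V) ^ m * g ^ p * xc) :
    ∃ g' : F, xb * (xu * Vi ^ M) = xw * g' ^ p * xc := by
  have hV0 : V ≠ 0 := left_ne_zero_of_mul_eq_one hV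
  obtain ⟨Q, hQ⟩ : ∃ Q : F, Q = S * T * V := ⟨_, rfl⟩
  rw [← hQ] at e
  have hQ0 : Q ≠ 0 := by rw [hQ]; exact mul_ne_zero (mul_ne_zero hS hT) hV0
  have eS : S ^ i * (S ^ α) ^ p = S ^ M * (S ^ β) ^ p := by
    rw [← pow_mul, ← pow_add, ← pow_mul, ← pow_add, mul_comm α p, mul_comm β p, h1]
  have eT : T ^ j * (T ^ α') ^ p = T ^ M * (T ^ β') ^ p := by
    rw [← pow_mul, ← pow_add, ← pow_mul, ← pow_add, mul_comm α' p, mul_comm β' p, h2]
  have eQ : Q ^ m * (Q ^ A) ^ p = Q ^ M * (Q ^ B) ^ p := by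
    rw [← pow_mul, ← pow_add, ← pow_mul, ← pow_add, mul_comm A p, mul_comm B p, h3]
  have eV : Vi ^ M * Q ^ M = S ^ M * T ^ M := by
    rw [← mul_pow, ← mul_pow, hQ]
    congr 1
    linear_combination S * T * hV
  have hden : S ^ β * T ^ β' * h * Q ^ A ≠ 0 :=
    mul_ne_zero (mul_ne_zero (mul_ne_zero (pow_ne_zero _ hS) (pow_ne_zero _ hT)) hh)
      (pow_ne_zero _ hQ0)
  have H : xb * (xu * Vi ^ M) * (S ^ β * T ^ β' * h * Q ^ A) ^ p
      = xw * (Q ^ B * g * S ^ α * T ^ α') ^ p * xc := by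
    apply mul_right_cancel₀ (pow_ne_zero m hQ0)
    linear_combination (exp := 1)
      (xb * xu * h ^ p * Vi ^ M * (S ^ β) ^ p * (T ^ β') ^ p) * eQ
      + (xb * xu * h ^ p * (S ^ β) ^ p * (T ^ β') ^ p * (Q ^ B) ^ p) * eV
      + ((Q ^ B) ^ p * (S ^ α) ^ p * (T ^ α') ^ p) * e
      - (xb * xu * h ^ p * (Q ^ B) ^ p * T ^ j * (T ^ α') ^ p) * eS
      - (xb * xu * h ^ p * (Q ^ B) ^ p * S ^ M * (S ^ β) ^ p) * eT
  refine ⟨(Q ^ B * g * S ^ α * T ^ α') / (S ^ β * T ^ β' * h * Q ^ A), ?_⟩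
  have h4 : xw * ((Q ^ B * g * S ^ α * T ^ α') / (S ^ β * T ^ β' * h * Q ^ A)) ^ p * xc
      = (xw * (Q ^ B * g * S ^ α * T ^ α') ^ p * xc) / (S ^ β * T ^ β' * h * Q ^ A) ^ p := by
    rw [div_pow]; ring
  rw [h4, eq_div_iff (pow_ne_zero p hden)]
  exact H

end Normalise

/-! ### The node lemma -/

section Main

variable {O : Type*} [CommRing O] [IsDomain O] [IsDiscreteValuationRing O]
  {R : Type*} [CommRing R] [IsDomain R] [IsLocalRing R] [IsNoetherianRing R] [Algebra O R]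
  {F : Type*} [Field F] [Algebra R F] [IsFractionRing R F]

/-- **(L.N) The node lemma.**  `O` a discrete valuation ring with uniformiser `ϖ`,
`ϖ ^ (p - 1) ∣ p`, perfect residue field; `R` a noetherian local domain over `O` with maximal
ideal `(s, t)`, `s`, `t` non-associated primes, `s t = ϖ * unit` (a regular node), `F = Frac R`.
If `f ∈ Fˣ` has all horizontal orders divisible by `p` (`hhor`), is
`c₁ * g₁ ^ p * (1 + ϖ ^ p * w₁)` with `w₁ ∈ R_(s)` and `c₂ * g₂ ^ p * (1 + ϖ ^ p * w₂)` with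
`w₂ ∈ R_(t)` (`c₁, c₂ ∈ O` nonzero), then `c₁ / c₂ ∈ (Frac O)ˣᵖ * (1 + ϖ ^ p O)`. -/
theorem node_lemma (p : ℕ) (hp : p.Prime)
    (ϖ : O) (hϖ : Irreducible ϖ) (hpϖ : ϖ ^ (p - 1) ∣ (p : O))
    (hperf : ∀ a : O, ∃ b : O, ϖ ∣ a - b ^ p)
    (s t : R) (hs : Prime s) (ht : Prime t) (hne : ¬ Associated s t)
    (hm : maximalIdeal R = Ideal.span {s, t})
    (hst : Associated (s * t) (algebraMap O R ϖ))
    (f : F) (hf : f ≠ 0)
    (hhor : ∀ q : R, Prime q → ¬ q ∣ algebraMap O R ϖ →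
      ∃ (a b : R) (h : F), ¬ q ∣ a ∧ ¬ q ∣ b ∧ algebraMap R F b * f = algebraMap R F a * h ^ p)
    (c₁ c₂ : O) (hc₁ : c₁ ≠ 0) (hc₂ : c₂ ≠ 0)
    (hbr₁ : ∃ (g : F) (a b : R), ¬ s ∣ b ∧ algebraMap R F b * f =
      algebraMap R F (algebraMap O R c₁) * g ^ p *
        algebraMap R F (b + algebraMap O R ϖ ^ p * a))
    (hbr₂ : ∃ (g : F) (a b : R), ¬ t ∣ b ∧ algebraMap R F b * f =
      algebraMap R F (algebraMap O R c₂) * g ^ p *
        algebraMap R F (b + algebraMap O R ϖ ^ p * a)) :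
    ∃ d e a : O, d ≠ 0 ∧ e ≠ 0 ∧ c₁ * d ^ p = c₂ * e ^ p * (1 + ϖ ^ p * a) := by
  have hst' := hst
  obtain ⟨v, hv⟩ := hst
  have hinj := IsFractionRing.injective R F
  haveI : IsDomain (R ⧸ Ideal.span {s}) := isDomain_quot hs
  haveI : IsPrincipalIdealRing (R ⧸ Ideal.span {s}) := isPrincipalIdealRing_quot hs hm
  haveI : UniqueFactorizationMonoid R := quot_ufm hs.ne_zero
  -- factorisation of `f`
  obtain ⟨u, i, j, h, hfe⟩ := exists_eq_unit_mul_pow_mul_pow_mul_pow s t hp.ne_zero hf (by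
    intro g hg hgs hgt
    refine hhor g hg ?_
    rw [← hv]
    intro hd
    rcases hg.dvd_or_dvd hd with hd | hd
    · rcases hg.dvd_or_dvd hd with hd | hd
      · exact hgs (hg.associated_of_dvd hs hd)
      · exact hgt (hg.associated_of_dvd ht hd)
    · exact hg.not_isUnit (isUnit_of_dvd_unit hd v.isUnit))
  have hh : h ≠ 0 := by
    rintro rfl
    rw [zero_pow hp.ne_zero, mul_zero] at hfe
    exact hf hfe
  -- the constants
  obtain ⟨m₁, ε₁, hε₁⟩ := IsDiscreteValuationRing.eq_unit_mul_pow_irreducible hc₁ hϖ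
  obtain ⟨m₂, ε₂, hε₂⟩ := IsDiscreteValuationRing.eq_unit_mul_pow_irreducible hc₂ hϖ
  have hc₁R : algebraMap O R c₁ = algebraMap O R ε₁ * (s * t * v) ^ m₁ := by
    rw [hε₁, map_mul, map_pow, hv]
  have hc₂R : algebraMap O R c₂ = algebraMap O R ε₂ * (s * t * v) ^ m₂ := by
    rw [hε₂, map_mul, map_pow, hv]
  obtain ⟨g₁, a₁, b₁, hb₁, e₁⟩ := hbr₁
  obtain ⟨g₂, a₂, b₂, hb₂, e₂⟩ := hbr₂
  rw [hfe, hc₁R, ← hv] at e₁
  rw [hfe, hc₂R, ← hv] at e₂
  -- orders along the branches and at the node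
  obtain ⟨α₁, β₁, α₁', β₁', o₁, o₁'⟩ := exists_orders hp.ne_zero hs ht hne hm v u
    ((ε₁.isUnit).map (algebraMap O R)) hh hb₁ e₁
  have hm' : maximalIdeal R = Ideal.span {t, s} := by rw [hm, Set.pair_comm]
  have e₂' : algebraMap R F b₂ *
        (algebraMap R F u * algebraMap R F t ^ j * algebraMap R F s ^ i * h ^ p) =
      algebraMap R F (algebraMap O R ε₂ * (t * s * v) ^ m₂) * g₂ ^ p *
        algebraMap R F (b₂ + (t * s * v) ^ p * a₂) := by
    rw [mul_comm t s, ← e₂]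
    ring
  obtain ⟨α₂, β₂, α₂', β₂', o₂, o₂'⟩ := exists_orders hp.ne_zero ht hs (fun h => hne h.symm)
    hm' v u ((ε₂.isUnit).map (algebraMap O R)) hh hb₂ e₂'
  have o₃ : m₂ + p * (β₂' + α₁) = m₁ + p * (β₁ + α₂') := by
    rw [mul_add, mul_add]
    linarith
  -- reduction to a unit
  have hS0 : algebraMap R F s ≠ 0 := (map_ne_zero_iff _ hinj).mpr hs.ne_zero
  have hT0 : algebraMap R F t ≠ 0 := (map_ne_zero_iff _ hinj).mpr ht.ne_zero
  have hVV : algebraMap R F (v : R) * algebraMap R F ((v⁻¹ : Rˣ) : R) = 1 := by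
    rw [← map_mul, Units.mul_inv, map_one]
  simp only [map_mul, map_pow] at e₁ e₂
  obtain ⟨g₁', E₁⟩ := exists_unit_branch_aux (M := m₁) (A := 0) (B := 0) o₁ o₁' rfl hS0 hT0 hVV
    hh e₁
  obtain ⟨g₂', E₂⟩ := exists_unit_branch_aux (M := m₁) o₁ o₁' o₃ hS0 hT0 hVV hh e₂
  have hu' : IsUnit ((u : R) * ((v⁻¹ : Rˣ) : R) ^ m₁) := u.isUnit.mul ((v⁻¹).isUnit.pow m₁)
  obtain ⟨d₀, e₀, a, hd₀, he₀, hfin⟩ := core_units (F := F) p hp ϖ hϖ hpϖ hperf s t hs ht hne hm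
    hst' ((u : R) * ((v⁻¹ : Rˣ) : R) ^ m₁) hu' ε₁ ε₂ ε₁.isUnit ε₂.isUnit
    ⟨g₁', a₁, b₁, hb₁, by
      rw [← hv]
      simp only [map_mul, map_pow]
      exact E₁⟩
    ⟨g₂', a₂, b₂, hb₂, by
      rw [← hv]
      simp only [map_mul, map_pow]
      exact E₂⟩
  -- conclusion
  have hϖ0 : ϖ ≠ 0 := hϖ.ne_zero
  have hpow : ϖ ^ m₁ * (ϖ ^ (β₁ + α₂')) ^ p = ϖ ^ m₂ * (ϖ ^ (β₂' + α₁)) ^ p := by
    rw [← pow_mul, ← pow_add, ← pow_mul, ← pow_add, mul_comm (β₁ + α₂') p,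
      mul_comm (β₂' + α₁) p, o₃]
  refine ⟨d₀ * ϖ ^ (β₁ + α₂'), e₀ * ϖ ^ (β₂' + α₁), a, mul_ne_zero hd₀ (pow_ne_zero _ hϖ0),
    mul_ne_zero he₀ (pow_ne_zero _ hϖ0), ?_⟩
  rw [hε₁, hε₂]
  linear_combination (exp := 1) (ϖ ^ m₁ * (ϖ ^ (β₁ + α₂')) ^ p) * hfin
    + ((ε₂ : O) * e₀ ^ p * (1 + ϖ ^ p * a)) * hpow

/-- **(L.N), henselian form.**  If moreover every `1 + ϖ ^ p a` is a `p`-th power in `O`
(`O` henselian with algebraically closed residue field, e.g. the integers of the inertia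
field adjoined `ζ_p`), then `c₁ / c₂` is a `p`-th power. -/
theorem node_lemma_pow (p : ℕ) (hp : p.Prime)
    (ϖ : O) (hϖ : Irreducible ϖ) (hpϖ : ϖ ^ (p - 1) ∣ (p : O))
    (hperf : ∀ a : O, ∃ b : O, ϖ ∣ a - b ^ p)
    (hAS : ∀ a : O, ∃ b : O, b ^ p = 1 + ϖ ^ p * a)
    (s t : R) (hs : Prime s) (ht : Prime t) (hne : ¬ Associated s t)
    (hm : maximalIdeal R = Ideal.span {s, t})
    (hst : Associated (s * t) (algebraMap O R ϖ))
    (f : F) (hf : f ≠ 0)
    (hhor : ∀ q : R, Prime q → ¬ q ∣ algebraMap O R ϖ →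
      ∃ (a b : R) (h : F), ¬ q ∣ a ∧ ¬ q ∣ b ∧ algebraMap R F b * f = algebraMap R F a * h ^ p)
    (c₁ c₂ : O) (hc₁ : c₁ ≠ 0) (hc₂ : c₂ ≠ 0)
    (hbr₁ : ∃ (g : F) (a b : R), ¬ s ∣ b ∧ algebraMap R F b * f =
      algebraMap R F (algebraMap O R c₁) * g ^ p *
        algebraMap R F (b + algebraMap O R ϖ ^ p * a))
    (hbr₂ : ∃ (g : F) (a b : R), ¬ t ∣ b ∧ algebraMap R F b * f =
      algebraMap R F (algebraMap O R c₂) * g ^ p *
        algebraMap R F (b + algebraMap O R ϖ ^ p * a)) :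
    ∃ d e : O, d ≠ 0 ∧ e ≠ 0 ∧ c₁ * d ^ p = c₂ * e ^ p := by
  obtain ⟨d, e, a, hd, he, h⟩ := node_lemma p hp ϖ hϖ hpϖ hperf s t hs ht hne hm hst f hf hhor
    c₁ c₂ hc₁ hc₂ hbr₁ hbr₂
  obtain ⟨b, hb⟩ := hAS a
  have hb0 : b ≠ 0 := by
    rintro rfl
    rw [zero_pow hp.ne_zero] at hb
    have h0 : c₁ * d ^ p = 0 := by rw [h, ← hb, mul_zero]
    exact mul_ne_zero hc₁ (pow_ne_zero _ hd) h0
  exact ⟨d, e * b, hd, mul_ne_zero he hb0, by rw [h, mul_pow, hb]; ring⟩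

end Main

end Fermat.Agent.S44.L.Node
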