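import Mathlib

/-!
# Program MR (S44), strand L: the trace end of the `p`-th root argument (NZ last step)

Level-free, Mathlib only (helper41; consumer: `S44/L/PthRoot.lean`, helper253).

Setting: `L / F` fields, `y ∈ L` with `y ^ p = c ∈ F` and `X ^ p - c` irreducible over `F`
(so `[F(y) : F] = p`; `L` may be bigger).  `R` a ring mapping to `F`.

* `trace_gen_pow_eq_zero` (T1): in a power basis with `gen ^ dim = c`, the powers `gen ^ k`,
  `0 < k < dim`, have trace zero.
* `isIntegral_coeff_zero` (T3): if `∑_{i<p} q_i y^i` is integral over `R`, then `p * q_0` is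
  integral over `R` (it is the trace from `F(y)` to `F`).
* `sq_expand` (T5): for `y ^ p = 1 + p^2 w` and `x = (1 + y + ... + y^(p-1)) / p`:
  `x ^ 2 = ∑_{j<p} (1/p + w (p - 1 - j)) y^j`.
* `isIntegral_of_sq_div`, `isIntegral_of_sq_sub_one_div` (T6): if `s * x^2 / p` (resp.
  `s * (x^2 - 1) / p`) is integral over `R`, then `s * (1/p + w (p-1))` (resp.
  `s * (1/p + w (p-1) - 1)`) is integral over `R`.
-/

set_option autoImplicit false

namespace Fermat.Agent.S44.L.PthTrace

open Polynomial IntermediateField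

section PowerBasisTrace

variable {F K : Type*} [Field F] [Field K] [Algebra F K]

/-- (T1) In a power basis with `gen ^ dim = c ∈ F`, the powers `gen ^ k`, `0 < k < dim`, have
trace zero. -/
theorem trace_gen_pow_eq_zero (pb : PowerBasis F K) {k : ℕ} {c : F}
    (hgen : pb.gen ^ pb.dim = algebraMap F K c) (hk0 : 0 < k) (hk : k < pb.dim) :
    Algebra.trace F K (pb.gen ^ k) = 0 := by
  classical
  rw [Algebra.trace_eq_matrix_trace pb.basis, Matrix.trace]
  refine Finset.sum_eq_zero fun i _ => ?_
  rw [Matrix.diag_apply, Algebra.leftMulMatrix_eq_repr_mul, pb.basis_eq_pow, ← pow_add]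
  by_cases h : k + (i : ℕ) < pb.dim
  · have e : pb.gen ^ (k + (i : ℕ)) = pb.basis ⟨k + i, h⟩ := by rw [pb.basis_eq_pow]
    rw [e, Module.Basis.repr_self_apply, if_neg]
    intro hEq
    have h1 := congrArg Fin.val hEq
    simp only at h1
    omega
  · have hlt : k + (i : ℕ) - pb.dim < pb.dim := by have := i.isLt; omega
    have e : pb.gen ^ (k + (i : ℕ)) = c • pb.basis ⟨k + i - pb.dim, hlt⟩ := by
      rw [pb.basis_eq_pow, Algebra.smul_def, ← hgen, ← pow_add]
      congr 1
      simp only
      omega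
    rw [e, map_smul, Finsupp.smul_apply, Module.Basis.repr_self_apply, if_neg, smul_zero]
    intro hEq
    have h1 := congrArg Fin.val hEq
    simp only at h1
    omega

end PowerBasisTrace

section Coeff

variable {R F L : Type*} [CommRing R] [Field F] [Field L] [Algebra R F] [Algebra F L]
  [Algebra R L] [IsScalarTower R F L]

/-- (T3) If `y ^ p = c` with `X ^ p - c` irreducible over `F` and `∑_{i<p} q_i y^i` is integral
over `R`, then `p * q_0` (the trace from `F(y)` to `F`) is integral over `R`. -/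
theorem isIntegral_coeff_zero (p : ℕ) (hp : 0 < p) (y : L) (c : F)
    (hy : y ^ p = algebraMap F L c) (hirr : Irreducible (X ^ p - C c : F[X])) (q : ℕ → F)
    (hint : IsIntegral R (∑ i ∈ Finset.range p, algebraMap F L (q i) * y ^ i)) :
    IsIntegral R ((p : F) * q 0) := by
  have hmonic : (X ^ p - C c : F[X]).Monic := monic_X_pow_sub_C c hp.ne'
  have hroot : aeval y (X ^ p - C c : F[X]) = 0 := by
    rw [map_sub, map_pow, aeval_X, aeval_C, hy, sub_self]
  have hyint : IsIntegral F y := ⟨_, hmonic, hroot⟩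
  have hmin : minpoly F y = X ^ p - C c :=
    (minpoly.eq_of_irreducible_of_monic hirr hroot hmonic).symm
  have hdeg : (minpoly F y).natDegree = p := by rw [hmin, natDegree_X_pow_sub_C]
  set pb := IntermediateField.adjoin.powerBasis hyint with hpb
  have hdim : pb.dim = p := hdeg
  have hgenL : algebraMap F⟮y⟯ L pb.gen = y := rfl
  have hgen : pb.gen ^ pb.dim = algebraMap F F⟮y⟯ c := by
    apply (algebraMap F⟮y⟯ L).injective
    rw [map_pow, hgenL, hdim, hy, ← IsScalarTower.algebraMap_apply]
  have : FiniteDimensional F F⟮y⟯ := IntermediateField.adjoin.finiteDimensional hyint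
  have : IsScalarTower R F⟮y⟯ L := IsScalarTower.of_algebraMap_eq (fun _ => rfl)
  set bK : F⟮y⟯ := ∑ i ∈ Finset.range p, algebraMap F F⟮y⟯ (q i) * pb.gen ^ i with hbK
  have hbK' : algebraMap F⟮y⟯ L bK = ∑ i ∈ Finset.range p, algebraMap F L (q i) * y ^ i := by
    rw [hbK, map_sum]
    refine Finset.sum_congr rfl fun i _ => ?_
    rw [map_mul, map_pow, hgenL, ← IsScalarTower.algebraMap_apply]
  have hintK : IsIntegral R bK := by
    rw [← hbK'] at hint
    exact (isIntegral_algebraMap_iff (algebraMap F⟮y⟯ L).injective).mp hint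
  have htr : IsIntegral R (Algebra.trace F F⟮y⟯ bK) := Algebra.isIntegral_trace hintK
  have hval : Algebra.trace F F⟮y⟯ bK = (p : F) * q 0 := by
    rw [hbK, map_sum]
    obtain ⟨n, rfl⟩ : ∃ n, p = n + 1 := ⟨p - 1, by omega⟩
    rw [Finset.sum_range_succ', Finset.sum_eq_zero, zero_add]
    · rw [pow_zero, mul_one, Algebra.trace_algebraMap, IntermediateField.adjoin.finrank hyint,
        hdeg, nsmul_eq_mul]
    · intro i hi
      have hi' := Finset.mem_range.mp hi
      rw [← Algebra.smul_def, map_smul,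
        trace_gen_pow_eq_zero pb hgen (Nat.succ_pos i) (by rw [hdim]; omega), smul_zero]
  rw [hval] at htr
  exact htr

end Coeff

section Expand

variable {F L : Type*} [Field F] [Field L] [Algebra F L]

/-- Double geometric sum: `∑_{k<n} ∑_{j<k} a_j = ∑_{j<n} (n - 1 - j) a_j`. -/
theorem sum_sum_range (n : ℕ) (a : ℕ → L) :
    ∑ k ∈ Finset.range n, ∑ j ∈ Finset.range k, a j
      = ∑ j ∈ Finset.range n, ((n : L) - 1 - (j : L)) * a j := by
  induction n with
  | zero => simp
  | succ n ih =>
    rw [Finset.sum_range_succ, ih, Finset.sum_range_succ (fun j => (((n + 1 : ℕ) : L) - 1 - (j : L)) * a j)]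
    have e : (((n + 1 : ℕ) : L) - 1 - (n : L)) * a n = 0 := by push_cast; ring
    rw [e, add_zero, ← Finset.sum_add_distrib]
    refine Finset.sum_congr rfl fun j _ => ?_
    push_cast; ring

/-- (T5) For `y ^ p = 1 + p ^ 2 w` and `x = (1 + y + ... + y ^ (p - 1)) / p`:
`x ^ 2 = ∑_{j<p} (1 / p + w (p - 1 - j)) y ^ j`. -/
theorem sq_expand (p : ℕ) (y : L) (w : F) (hp0 : (p : L) ≠ 0)
    (hy : y ^ p = 1 + (p : L) ^ 2 * algebraMap F L w) :
    ((∑ i ∈ Finset.range p, y ^ i) / (p : L)) ^ 2
      = ∑ j ∈ Finset.range p,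
          algebraMap F L ((p : F)⁻¹ + w * ((p : F) - 1 - (j : F))) * y ^ j := by
  set s : L := ∑ i ∈ Finset.range p, y ^ i with hs
  set D : L := ∑ k ∈ Finset.range p, ∑ j ∈ Finset.range k, y ^ j with hD
  have h1 : (y - 1) * s = (p : L) ^ 2 * algebraMap F L w := by
    rw [hs, mul_geom_sum, hy]; ring
  have h2 : s - (p : L) = (y - 1) * D := by
    rw [hs, hD, Finset.mul_sum]
    have e : (p : L) = ∑ _k ∈ Finset.range p, (1 : L) := by simp
    rw [e, ← Finset.sum_sub_distrib]
    refine Finset.sum_congr rfl fun k _ => ?_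
    rw [mul_geom_sum]
  have h3 : (s / (p : L)) ^ 2 = s / (p : L) + algebraMap F L w * D := by
    have e : (s / (p : L)) ^ 2 - s / (p : L) = s * (s - (p : L)) / (p : L) ^ 2 := by
      field_simp
    have e2 : s * (s - (p : L)) = (p : L) ^ 2 * (algebraMap F L w * D) := by
      rw [h2, ← mul_assoc, mul_comm s (y - 1), h1]; ring
    have e3 : (s / (p : L)) ^ 2 - s / (p : L) = algebraMap F L w * D := by
      rw [e, e2]; field_simp
    linear_combination e3
  rw [h3, hD, sum_sum_range, hs, Finset.sum_div, Finset.mul_sum, ← Finset.sum_add_distrib]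
  refine Finset.sum_congr rfl fun j _ => ?_
  rw [map_add, map_mul, map_inv₀, map_sub, map_sub, map_one, map_natCast, map_natCast]
  ring

end Expand

section Closing

variable {R F L : Type*} [CommRing R] [Field F] [Field L] [Algebra R F] [Algebra F L]
  [Algebra R L] [IsScalarTower R F L]

/-- (T6), case `e ≡ 0`: if `s * x ^ 2 / p` is integral over `R`
(`x = (1 + y + ... + y ^ (p-1)) / p`, `y ^ p = 1 + p ^ 2 w`, `[F(y) : F] = p`), then
`s * (1 / p + w (p - 1))` is integral over `R`. -/
theorem isIntegral_of_sq_div (p : ℕ) (hp : 0 < p) (hp0 : (p : L) ≠ 0) (y : L) (w : F)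
    (hy : y ^ p = 1 + (p : L) ^ 2 * algebraMap F L w)
    (hirr : Irreducible (X ^ p - C (1 + (p : F) ^ 2 * w) : F[X])) (s : F)
    (hint : IsIntegral R
      (algebraMap F L s * ((∑ i ∈ Finset.range p, y ^ i) / (p : L)) ^ 2 / (p : L))) :
    IsIntegral R (s * ((p : F)⁻¹ + w * ((p : F) - 1))) := by
  have hpF : (p : F) ≠ 0 := by
    intro h
    apply hp0
    have := congrArg (algebraMap F L) h
    rwa [map_natCast, map_zero] at this
  have hy' : y ^ p = algebraMap F L (1 + (p : F) ^ 2 * w) := by
    rw [hy, map_add, map_one, map_mul, map_pow, map_natCast]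
  have key := isIntegral_coeff_zero (R := R) p hp y _ hy' hirr
    (fun j => s * ((p : F)⁻¹ + w * ((p : F) - 1 - (j : F))) / (p : F)) (by
      have e : ∑ i ∈ Finset.range p,
          algebraMap F L (s * ((p : F)⁻¹ + w * ((p : F) - 1 - (i : F))) / (p : F)) * y ^ i
          = algebraMap F L s * ((∑ i ∈ Finset.range p, y ^ i) / (p : L)) ^ 2 / (p : L) := by
        rw [sq_expand p y w hp0 hy, Finset.mul_sum, Finset.sum_div]
        refine Finset.sum_congr rfl fun i _ => ?_
        rw [map_div₀, map_mul, map_natCast]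
        ring
      rw [e]; exact hint)
  have e2 : (p : F) * (s * ((p : F)⁻¹ + w * ((p : F) - 1 - ((0 : ℕ) : F))) / (p : F))
      = s * ((p : F)⁻¹ + w * ((p : F) - 1)) := by
    rw [Nat.cast_zero, sub_zero]
    field_simp
  rw [e2] at key
  exact key

/-- (T6), case `e ≡ 1`: if `s * (x ^ 2 - 1) / p` is integral over `R`, then
`s * (1 / p + w (p - 1) - 1)` is integral over `R`. -/
theorem isIntegral_of_sq_sub_one_div (p : ℕ) (hp : 0 < p) (hp0 : (p : L) ≠ 0) (y : L) (w : F)
    (hy : y ^ p = 1 + (p : L) ^ 2 * algebraMap F L w)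
    (hirr : Irreducible (X ^ p - C (1 + (p : F) ^ 2 * w) : F[X])) (s : F)
    (hint : IsIntegral R
      (algebraMap F L s * (((∑ i ∈ Finset.range p, y ^ i) / (p : L)) ^ 2 - 1) / (p : L))) :
    IsIntegral R (s * ((p : F)⁻¹ + w * ((p : F) - 1) - 1)) := by
  have hpF : (p : F) ≠ 0 := by
    intro h
    apply hp0
    have := congrArg (algebraMap F L) h
    rwa [map_natCast, map_zero] at this
  have hy' : y ^ p = algebraMap F L (1 + (p : F) ^ 2 * w) := by
    rw [hy, map_add, map_one, map_mul, map_pow, map_natCast]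
  have hone : ∑ i ∈ Finset.range p, algebraMap F L (if i = 0 then (1 : F) else 0) * y ^ i
      = 1 := by
    obtain ⟨n, rfl⟩ : ∃ n, p = n + 1 := ⟨p - 1, by omega⟩
    rw [Finset.sum_range_succ', Finset.sum_eq_zero]
    · simp
    · intro i _
      simp
  have key := isIntegral_coeff_zero (R := R) p hp y _ hy' hirr
    (fun j => s * ((p : F)⁻¹ + w * ((p : F) - 1 - (j : F)) - (if j = 0 then (1 : F) else 0))
      / (p : F)) (by
      have e : ∑ i ∈ Finset.range p,
          algebraMap F L (s * ((p : F)⁻¹ + w * ((p : F) - 1 - (i : F))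
            - (if i = 0 then (1 : F) else 0)) / (p : F)) * y ^ i
          = algebraMap F L s * (((∑ i ∈ Finset.range p, y ^ i) / (p : L)) ^ 2 - 1) / (p : L) := by
        rw [sq_expand p y w hp0 hy, ← hone, ← Finset.sum_sub_distrib, Finset.mul_sum,
          Finset.sum_div]
        refine Finset.sum_congr rfl fun i _ => ?_
        rw [map_div₀, map_mul, map_sub, map_natCast]
        ring
      rw [e]; exact hint)
  have e2 : (p : F) * (s * ((p : F)⁻¹ + w * ((p : F) - 1 - ((0 : ℕ) : F))
      - (if (0 : ℕ) = 0 then (1 : F) else 0)) / (p : F))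
      = s * ((p : F)⁻¹ + w * ((p : F) - 1) - 1) := by
    rw [Nat.cast_zero, sub_zero, if_pos rfl]
    field_simp
  rw [e2] at key
  exact key

end Closing

end Fermat.Agent.S44.L.PthTrace
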