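import Mathlib
import Fermat.Agent.S30.Model.CechP1
import Fermat.Agent.S44.L.PthTrace

/-!
# PROGRAM MR (S44), strand L: local `p`-th powers are global (the NZ last step)

Level-free (Mathlib + `S30/Model/CechP1` + `S44/L/PthTrace`), helper253.

`O` a noetherian ring in which the prime number `p ≥ 3` is a prime element (unramified base),
`F` a field over `O`, `u : F` nonzero; the two charts of the normal model of `F` over `P¹_O` are
the integral closures of `O[u]`, `O[u⁻¹]` in `F`, with REDUCED fibre at `p`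
(`x ^ p ∈ p B ⟹ x ∈ p B`).  Let `H : F` be nonzero and locally, near every point of the fibre
`p = 0` of both charts, of the form `H = G ^ p * (1 + p ^ 2 * w)` with `w` regular (`LocalPow`).
If `L ⊇ F` is a field containing a `p`-th root of `H`, without new constants (`O` integrally
closed in `L`) and with finite chart, then `H` is a `p`-th power in `F`
(`exists_pow_eq_of_localPow`).

No valuation of the cover is used.  With `y = z / G`, `y ^ p = 1 + p ^ 2 w`, the element
`x = (1 + y + ⋯ + y ^ (p - 1)) / p` is integral (`x ^ 2 - x = w ∑_{k<p} ∑_{j<k} y ^ j`) and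
`E = x ^ 2` is idempotent modulo `p` (`local_idem_sq`); changing the local root `G` changes `y`
by a multiple of `p` (reducedness of the base fibre) and `E` by a multiple of `p`
(`local_compat`).  So the `E` glue (`glue_idem`) to elements `e0`, `e1` of the two charts of `L`,
idempotent modulo `p` and congruent modulo `p` on the overlap; `CechP1.connected` makes them
`≡ 0` or `≡ 1`; the trace (`PthTrace.isIntegral_of_sq_div`, `isIntegral_of_sq_sub_one_div`)
then shows that `1 / p` is regular on both charts of `F`, hence a constant: absurd.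
-/

set_option autoImplicit false

namespace Fermat.Agent.S44.L.PthRoot

open Polynomial Fermat.Agent.S30.Model

/-! ### The integer polynomial identity -/

/-- `∑_{k<p} (X+1)^k = X^(p-1) + p (1 + X r₁)` in `ℤ[X]`. -/
theorem exists_geom_expansion (p : ℕ) (hp : p.Prime) :
    ∃ r₁ : ℤ[X], ∑ k ∈ Finset.range p, (X + 1 : ℤ[X]) ^ k
      = X ^ (p - 1) + (p : ℤ[X]) * (1 + X * r₁) := by
  obtain ⟨r, hr⟩ := exists_add_pow_prime_eq hp (X : ℤ[X]) 1
  have h1 : (∑ k ∈ Finset.range p, (X + 1 : ℤ[X]) ^ k) * X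
      = (X ^ (p - 1) + (p : ℤ[X]) * r) * X := by
    have h := geom_sum_mul (X + 1 : ℤ[X]) p
    rw [add_sub_cancel_right] at h
    rw [h, hr]
    have e : (X : ℤ[X]) ^ p = X ^ (p - 1) * X := by
      rw [← pow_succ, Nat.sub_add_cancel hp.pos]
    rw [e]; ring
  have h2 : ∑ k ∈ Finset.range p, (X + 1 : ℤ[X]) ^ k = X ^ (p - 1) + (p : ℤ[X]) * r :=
    mul_right_cancel₀ X_ne_zero h1
  have h3 : r.coeff 0 = 1 := by
    have h := congrArg (eval 0) h2
    rw [eval_finsetSum] at h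
    simp only [eval_pow, eval_add, eval_X, eval_one, zero_add, one_pow, Finset.sum_const,
      Finset.card_range, eval_mul, eval_natCast, nsmul_eq_mul, mul_one] at h
    have hp1 : (0 : ℤ) ^ (p - 1) = 0 := zero_pow (by have := hp.two_le; omega)
    rw [hp1, zero_add] at h
    have hp0 : (p : ℤ) ≠ 0 := by exact_mod_cast hp.ne_zero
    have h' : eval 0 r = 1 := by
      apply mul_left_cancel₀ hp0; rw [← h, mul_one]
    rwa [← coeff_zero_eq_eval_zero] at h'
  refine ⟨r.divX, ?_⟩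
  rw [h2]
  have h4 := divX_mul_X_add r
  rw [h3] at h4
  have h5 : (1 : ℤ[X]) + X * r.divX = r := by
    conv_rhs => rw [← h4]
    rw [map_one]; ring
  rw [h5]

section Ring

variable {R : Type*} [CommRing R]

/-- Evaluation of the expansion at `y - 1`. -/
theorem geom_expansion_eval (p : ℕ) (r₁ : ℤ[X])
    (hr : ∑ k ∈ Finset.range p, (X + 1 : ℤ[X]) ^ k
      = X ^ (p - 1) + (p : ℤ[X]) * (1 + X * r₁)) (y : R) :
    ∑ k ∈ Finset.range p, y ^ k
      = (y - 1) ^ (p - 1) + (p : R) * (1 + (y - 1) * aeval (y - 1) r₁) := by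
  have h := congrArg (aeval (y - 1)) hr
  simpa [map_sum] using h

/-- **The local algebra.**  `y ^ p = 1 + p² w`, `p x = 1 + y + ⋯ + y^(p-1)`, `p` regular. -/
theorem local_idem (p : ℕ) (hp3 : 3 ≤ p)
    (hreg : ∀ a b : R, (p : R) * a = (p : R) * b → a = b)
    (w y x A₁ : R) (hy : y ^ p = 1 + (p : R) ^ 2 * w)
    (hx : (p : R) * x = ∑ k ∈ Finset.range p, y ^ k)
    (hA : ∑ k ∈ Finset.range p, y ^ k
      = (y - 1) ^ (p - 1) + (p : R) * (1 + (y - 1) * A₁)) :
    x * (y - 1) = (p : R) * w ∧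
    (y - 1) ^ (p - 1) = (p : R) * (x - 1 - (y - 1) * A₁) ∧
    x ^ 2 - x = w * ((y - 1) ^ (p - 2) + (p : R) * A₁) ∧
    x ^ 3 - x ^ 2 = (p : R) * (w * (w * (y - 1) ^ (p - 3) + A₁ * x)) := by
  have h1 : x * (y - 1) = (p : R) * w := by
    apply hreg
    have h := geom_sum_mul y p
    calc (p : R) * (x * (y - 1)) = ((p : R) * x) * (y - 1) := by ring
      _ = y ^ p - 1 := by rw [hx, h]
      _ = (p : R) * ((p : R) * w) := by rw [hy]; ring
  have h2 : (y - 1) ^ (p - 1) = (p : R) * (x - 1 - (y - 1) * A₁) := by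
    have h : (y - 1) ^ (p - 1) = (p : R) * x - (p : R) * (1 + (y - 1) * A₁) := by
      rw [hx, hA]; ring
    rw [h]; ring
  have e1 : (y - 1) ^ (p - 1) = (y - 1) ^ (p - 2) * (y - 1) := by
    rw [← pow_succ]; congr 1; omega
  have e2 : (y - 1) ^ (p - 2) = (y - 1) ^ (p - 3) * (y - 1) := by
    rw [← pow_succ]; congr 1; omega
  have h3 : x ^ 2 - x = w * ((y - 1) ^ (p - 2) + (p : R) * A₁) := by
    apply hreg
    calc (p : R) * (x ^ 2 - x) = x * ((p : R) * x - (p : R)) := by ring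
      _ = x * ((y - 1) ^ (p - 1) + (p : R) * ((y - 1) * A₁)) := by rw [hx, hA]; ring
      _ = (x * (y - 1)) * ((y - 1) ^ (p - 2) + (p : R) * A₁) := by rw [e1]; ring
      _ = (p : R) * (w * ((y - 1) ^ (p - 2) + (p : R) * A₁)) := by rw [h1]; ring
  refine ⟨h1, h2, h3, ?_⟩
  calc x ^ 3 - x ^ 2 = x * (x ^ 2 - x) := by ring
    _ = w * ((x * (y - 1)) * (y - 1) ^ (p - 3) + (p : R) * A₁ * x) := by rw [h3, e2]; ring
    _ = (p : R) * (w * (w * (y - 1) ^ (p - 3) + A₁ * x)) := by rw [h1]; ring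

/-- `E = x²` is idempotent modulo `p`. -/
theorem local_idem_sq (p : ℕ) (hp : p.Prime) (hp3 : 3 ≤ p)
    (hreg : ∀ a b : R, (p : R) * a = (p : R) * b → a = b)
    (w y x : R) (hy : y ^ p = 1 + (p : R) ^ 2 * w)
    (hx : (p : R) * x = ∑ k ∈ Finset.range p, y ^ k) :
    ∃ d : R, (x ^ 2) ^ 2 - x ^ 2 = (p : R) * d := by
  obtain ⟨r₁, hr⟩ := exists_geom_expansion p hp
  obtain ⟨-, -, -, h4⟩ := local_idem p hp3 hreg w y x _ hy hx (geom_expansion_eval p r₁ hr y)
  refine ⟨(x + 1) * (w * (w * (y - 1) ^ (p - 3) + aeval (y - 1) r₁ * x)), ?_⟩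
  calc (x ^ 2) ^ 2 - x ^ 2 = (x + 1) * (x ^ 3 - x ^ 2) := by ring
    _ = _ := by rw [h4]; ring

/-- Changing the local root `y` by a multiple of `p` does not change `E = x²` modulo `p`. -/
theorem local_compat (p : ℕ) (hp : p.Prime) (hp3 : 3 ≤ p)
    (hreg : ∀ a b : R, (p : R) * a = (p : R) * b → a = b)
    (w y x y' x' a : R) (hy : y ^ p = 1 + (p : R) ^ 2 * w)
    (hx : (p : R) * x = ∑ k ∈ Finset.range p, y ^ k)
    (hx' : (p : R) * x' = ∑ k ∈ Finset.range p, y' ^ k)
    (hyy : y' = y + (p : R) * a) :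
    ∃ d : R, x' ^ 2 - x ^ 2 = (p : R) * d := by
  obtain ⟨r₁, hr⟩ := exists_geom_expansion p hp
  have hA := geom_expansion_eval p r₁ hr y
  have hA' := geom_expansion_eval p r₁ hr y'
  obtain ⟨h1, h2, -, -⟩ := local_idem p hp3 hreg w y x _ hy hx hA
  have hvv : y' - 1 = (y - 1) + (p : R) * a := by rw [hyy]; ring
  obtain ⟨zz, hzz⟩ := Polynomial.evalSubFactor (r₁.map (Int.castRingHom R)) (y' - 1) (y - 1)
  have hAA : aeval (y' - 1) r₁ = aeval (y - 1) r₁ + zz * ((p : R) * a) := by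
    have e : y' - 1 - (y - 1) = (p : R) * a := by rw [hvv]; ring
    rw [← e, ← hzz, aeval_def, aeval_def, eval₂_eq_eval_map, eval₂_eq_eval_map]
    have e' : algebraMap ℤ R = Int.castRingHom R := rfl
    rw [e']; ring
  obtain ⟨k, hk⟩ := Polynomial.powAddExpansion (y - 1) ((p : R) * a) (p - 1)
  have hcast : ((p - 1 : ℕ) : R) = (p : R) - 1 := by
    rw [Nat.cast_sub hp.one_le, Nat.cast_one]
  have e1 : (y - 1) ^ (p - 1) = (y - 1) ^ (p - 3) * (y - 1) * (y - 1) := by
    rw [← pow_succ, ← pow_succ]; congr 1; omega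
  have e2 : (y - 1) ^ (p - 1 - 1) = (y - 1) ^ (p - 3) * (y - 1) := by
    rw [← pow_succ]; congr 1; omega
  rw [hcast, e2] at hk
  rw [hAA, hvv, hk] at hA'
  rw [e1] at h2 hA
  generalize (y - 1) ^ (p - 3) = V3 at *
  generalize aeval (y - 1) r₁ = A₁ at *
  generalize y - 1 = v at *
  obtain ⟨c, hc⟩ : ∃ c : R, c = V3 * v * a + k * a ^ 2 + v * zz * a + a * A₁
      + (p : R) * a ^ 2 * zz := ⟨_, rfl⟩
  have hδ : x' = x + (-(a * (V3 * v)) + (p : R) * c) := by
    apply hreg
    rw [hc]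
    linear_combination hx' + hA' - hx - hA + e1
  refine ⟨-2 * a * V3 * w + 2 * c * x + a ^ 2 * V3 * (x - 1 - v * A₁) - 2 * a * V3 * v * c
    + (p : R) * c ^ 2, ?_⟩
  rw [hδ]
  linear_combination (-2 * a * V3) * h1 + (a ^ 2 * V3) * h2

end Ring

/-! ### Localisations of a subring of a field, inside the field -/

section Loc

variable {K : Type*} [Field K]

/-- The localisation `C[1/s]` of a subring `C` of a field, as a subring of the field. -/
def locRing (C : Subring K) (s : K) (hs : s ∈ C) : Subring K where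
  carrier := {x | ∃ n : ℕ, s ^ n * x ∈ C}
  mul_mem' := by
    rintro x y ⟨n, hn⟩ ⟨m, hm⟩
    refine ⟨n + m, ?_⟩
    have e : s ^ (n + m) * (x * y) = (s ^ n * x) * (s ^ m * y) := by rw [pow_add]; ring
    rw [e]; exact C.mul_mem hn hm
  one_mem' := ⟨0, by simp⟩
  add_mem' := by
    rintro x y ⟨n, hn⟩ ⟨m, hm⟩
    refine ⟨n + m, ?_⟩
    have e : s ^ (n + m) * (x + y) = s ^ m * (s ^ n * x) + s ^ n * (s ^ m * y) := by
      rw [pow_add]; ring
    rw [e]
    exact C.add_mem (C.mul_mem (C.pow_mem hs m) hn) (C.mul_mem (C.pow_mem hs n) hm)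
  zero_mem' := ⟨0, by simp⟩
  neg_mem' := by
    rintro x ⟨n, hn⟩
    exact ⟨n, by rw [mul_neg]; exact C.neg_mem hn⟩

theorem mem_locRing {C : Subring K} {s : K} {hs : s ∈ C} {x : K} :
    x ∈ locRing C s hs ↔ ∃ n : ℕ, s ^ n * x ∈ C := Iff.rfl

theorem le_locRing (C : Subring K) (s : K) (hs : s ∈ C) : C ≤ locRing C s hs :=
  fun x hx => ⟨0, by simpa using hx⟩

theorem pow_mul_mem_of_le {C : Subring K} {s : K} (hs : s ∈ C) {x : K} {n m : ℕ}
    (h : s ^ n * x ∈ C) (hnm : n ≤ m) : s ^ m * x ∈ C := by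
  have e : s ^ m * x = s ^ (m - n) * (s ^ n * x) := by
    rw [← mul_assoc, ← pow_add]; congr 2; omega
  rw [e]; exact C.mul_mem (C.pow_mem hs _) h

theorem locRing_le_mul_left (C : Subring K) (s t : K) (hs : s ∈ C) (ht : t ∈ C) :
    locRing C s hs ≤ locRing C (s * t) (C.mul_mem hs ht) := by
  rintro x ⟨n, hn⟩
  refine ⟨n, ?_⟩
  have e : (s * t) ^ n * x = t ^ n * (s ^ n * x) := by rw [mul_pow]; ring
  rw [e]; exact C.mul_mem (C.pow_mem ht n) hn

theorem locRing_le_mul_right (C : Subring K) (s t : K) (hs : s ∈ C) (ht : t ∈ C) :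
    locRing C t ht ≤ locRing C (s * t) (C.mul_mem hs ht) := by
  rintro x ⟨n, hn⟩
  refine ⟨n, ?_⟩
  have e : (s * t) ^ n * x = s ^ n * (t ^ n * x) := by rw [mul_pow]; ring
  rw [e]; exact C.mul_mem (C.pow_mem hs n) hn

theorem locRing_mono {C C' : Subring K} (h : C ≤ C') (s : K) (hs : s ∈ C) :
    locRing C s hs ≤ locRing C' s (h hs) := by
  rintro x ⟨n, hn⟩
  exact ⟨n, h hn⟩

/-- `C` is closed under `p`-th roots. -/
def PowClosed (p : ℕ) (C : Subring K) : Prop := ∀ x : K, x ^ p ∈ C → x ∈ C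

/-- `C` is closed under roots of monic quadratic polynomials. -/
def QuadClosed (C : Subring K) : Prop :=
  ∀ x b c : K, b ∈ C → c ∈ C → x ^ 2 + b * x + c = 0 → x ∈ C

/-- `C / p C` is reduced (in the form used here). -/
def RedP (p : ℕ) (C : Subring K) : Prop :=
  ∀ t : K, t ∈ C → (∃ d ∈ C, t ^ p = (p : K) * d) → ∃ d ∈ C, t = (p : K) * d

theorem powClosed_locRing {p : ℕ} (hp : 0 < p) {C : Subring K} (hC : PowClosed p C) (s : K)
    (hs : s ∈ C) : PowClosed p (locRing C s hs) := by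
  rintro x ⟨n, hn⟩
  refine ⟨n, hC _ ?_⟩
  have e : (s ^ n * x) ^ p = (s ^ n) ^ (p - 1) * (s ^ n * x ^ p) := by
    have h1 : (s ^ n) ^ p = (s ^ n) ^ (p - 1) * s ^ n := by
      rw [← pow_succ, Nat.sub_add_cancel hp]
    rw [mul_pow, h1]; ring
  rw [e]; exact C.mul_mem (C.pow_mem (C.pow_mem hs n) _) hn

theorem quadClosed_locRing {C : Subring K} (hC : QuadClosed C) (s : K) (hs : s ∈ C) :
    QuadClosed (locRing C s hs) := by
  rintro x b c ⟨n, hn⟩ ⟨m, hm⟩ h
  refine ⟨n + m, hC _ (s ^ (n + m) * b) (s ^ (n + m) * (s ^ (n + m) * c)) ?_ ?_ ?_⟩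
  · exact pow_mul_mem_of_le hs hn (Nat.le_add_right n m)
  · exact C.mul_mem (C.pow_mem hs _) (pow_mul_mem_of_le hs hm (Nat.le_add_left m n))
  · linear_combination (s ^ (n + m)) ^ 2 * h

theorem redP_locRing {p : ℕ} (hp : 0 < p) (hp0 : (p : K) ≠ 0) {C : Subring K} (hC : RedP p C)
    (s : K) (hs : s ∈ C) : RedP p (locRing C s hs) := by
  rintro t ⟨n, hn⟩ ⟨d, ⟨m, hm⟩, hd⟩
  have h1 : s ^ (n + m) * t ∈ C := pow_mul_mem_of_le hs hn (Nat.le_add_right n m)
  have h2 : ∃ d' ∈ C, (s ^ (n + m) * t) ^ p = (p : K) * d' := by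
    refine ⟨(s ^ (n + m)) ^ (p - 1) * (s ^ (n + m) * d), ?_, ?_⟩
    · exact C.mul_mem (C.pow_mem (C.pow_mem hs _) _)
        (pow_mul_mem_of_le hs hm (Nat.le_add_left m n))
    · have h3 : (s ^ (n + m)) ^ p = (s ^ (n + m)) ^ (p - 1) * s ^ (n + m) := by
        rw [← pow_succ, Nat.sub_add_cancel hp]
      rw [mul_pow, h3, hd]; ring
  obtain ⟨d', hd', he⟩ := hC _ h1 h2
  refine ⟨t / (p : K), ⟨n + m, ?_⟩, by field_simp⟩
  have e : s ^ (n + m) * (t / (p : K)) = d' := by
    rw [← mul_div_assoc, he, mul_div_cancel_left₀ _ hp0]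
  rw [e]; exact hd'

end Loc

/-! ### Covers of the fibre `π = 0` -/

section Cover

/-- If the `D(s i)` cover the fibre `π = 0`, so do the `D(s i ^ (N + 1))`. -/
theorem exists_pow_cover {A : Type*} [CommRing A] {ι : Type*} [Fintype ι] (s a : ι → A)
    (π b : A) (h : ∑ i, a i * s i + π * b = 1) (N : ℕ) :
    ∃ (a' : ι → A) (b' : A), ∑ i, a' i * s i ^ (N + 1) + π * b' = 1 := by
  classical
  let v : Option ι → A := fun o => o.elim π s
  have h1 : Ideal.span (Set.range v) = ⊤ := by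
    rw [Ideal.eq_top_iff_one, Ideal.mem_span_range_iff_exists_fun]
    refine ⟨fun o => o.elim b a, ?_⟩
    rw [Fintype.sum_option]
    simp only [Option.elim, v]
    rw [← h]; ring
  have h2 := Ideal.span_pow_eq_top (Set.range v) h1 (N + 1)
  rw [← Set.range_comp] at h2
  have h3 : (1 : A) ∈ Ideal.span (Set.range ((fun x => x ^ (N + 1)) ∘ v)) := by
    rw [h2]; trivial
  rw [Ideal.mem_span_range_iff_exists_fun] at h3
  obtain ⟨c, hc⟩ := h3
  rw [Fintype.sum_option] at hc
  refine ⟨fun i => c (some i), c none * π ^ N, ?_⟩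
  rw [← hc]
  simp only [Function.comp, Option.elim, v]
  ring

variable {K : Type*} [Field K]

/-- If `d` is regular on every `D(s i)`, the `D(s i)` cover the fibre `π = 0` and `π d` is
regular, then `d` is regular. -/
theorem mem_of_cover (C : Subring K) (π : K) (hπ : π ∈ C) {ι : Type*} [Fintype ι]
    (s a : ι → K) (b : K) (hs : ∀ i, s i ∈ C) (ha : ∀ i, a i ∈ C) (hb : b ∈ C)
    (hcov : ∑ i, a i * s i + π * b = 1)
    (d : K) (hd : ∀ i, d ∈ locRing C (s i) (hs i)) (hπd : π * d ∈ C) : d ∈ C := by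
  classical
  choose m hm using hd
  obtain ⟨a', b', h'⟩ := exists_pow_cover (A := C) (fun i => ⟨s i, hs i⟩)
    (fun i => ⟨a i, ha i⟩) ⟨π, hπ⟩ ⟨b, hb⟩ (Subtype.ext (by push_cast; exact hcov)) (∑ i, m i)
  have h'' : ∑ i, (a' i : K) * s i ^ (∑ i, m i + 1) + π * (b' : K) = 1 := by
    have h := congrArg Subtype.val h'
    push_cast at h
    exact h
  have e : d = ∑ i, (a' i : K) * (s i ^ (∑ i, m i + 1) * d) + (b' : K) * (π * d) := by
    calc d = (∑ i, (a' i : K) * s i ^ (∑ i, m i + 1) + π * (b' : K)) * d := by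
          rw [h'', one_mul]
      _ = _ := by
          rw [add_mul, Finset.sum_mul]
          congr 1
          · exact Finset.sum_congr rfl fun i _ => by ring
          · ring
  rw [e]
  refine C.add_mem (C.sum_mem fun i _ => C.mul_mem (a' i).2 ?_) (C.mul_mem b'.2 hπd)
  exact pow_mul_mem_of_le (hs i) (hm i)
    (le_trans (Finset.single_le_sum (fun _ _ => Nat.zero_le _) (Finset.mem_univ i))
      (Nat.le_succ _))

/-- **Gluing idempotents modulo `π`.**  Local elements `E i` on the `D(s i)`, idempotent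
modulo `π` and pairwise congruent modulo `π` on the overlaps, glue to a global element which is
idempotent modulo `π` and congruent to each `E i` modulo `π` on `D(s i)`. -/
theorem glue_idem (C : Subring K) (π : K) (hπ : π ∈ C) (hπ0 : π ≠ 0) {ι : Type*} [Fintype ι]
    (s a : ι → K) (b : K) (hs : ∀ i, s i ∈ C) (ha : ∀ i, a i ∈ C) (hb : b ∈ C)
    (hcov : ∑ i, a i * s i + π * b = 1)
    (E : ι → K) (hE : ∀ i, E i ∈ locRing C (s i) (hs i))
    (hidem : ∀ i, ∃ d ∈ locRing C (s i) (hs i), E i ^ 2 - E i = π * d)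
    (hcompat : ∀ i j, ∃ d ∈ locRing C (s i * s j) (C.mul_mem (hs i) (hs j)),
      E j - E i = π * d) :
    ∃ e ∈ C, (∃ d ∈ C, e ^ 2 - e = π * d) ∧
      ∀ j, ∃ d ∈ locRing C (s j) (hs j), e - E j = π * d := by
  classical
  choose m hm using hE
  choose D hD hDeq using hcompat
  choose M hM using hD
  obtain ⟨N, hN⟩ : ∃ N : ℕ, N = ∑ i, m i + ∑ i, ∑ j, M i j := ⟨_, rfl⟩
  have hmN : ∀ i, m i ≤ N + 1 := fun i => by
    have h1 : m i ≤ ∑ i, m i :=
      Finset.single_le_sum (fun _ _ => Nat.zero_le _) (Finset.mem_univ i)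
    omega
  have hMN : ∀ i j, M i j ≤ N + 1 := fun i j => by
    have h1 : M i j ≤ ∑ j, M i j :=
      Finset.single_le_sum (fun _ _ => Nat.zero_le _) (Finset.mem_univ j)
    have h2 : ∑ j, M i j ≤ ∑ i, ∑ j, M i j :=
      Finset.single_le_sum (f := fun i => ∑ j, M i j) (fun _ _ => Nat.zero_le _)
        (Finset.mem_univ i)
    omega
  obtain ⟨a', b', h'⟩ := exists_pow_cover (A := C) (fun i => ⟨s i, hs i⟩)
    (fun i => ⟨a i, ha i⟩) ⟨π, hπ⟩ ⟨b, hb⟩ (Subtype.ext (by push_cast; exact hcov)) N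
  have h'' : ∑ i, (a' i : K) * s i ^ (N + 1) + π * (b' : K) = 1 := by
    have h := congrArg Subtype.val h'
    push_cast at h
    exact h
  -- the glued element
  obtain ⟨e, he⟩ : ∃ e : K, e = ∑ i, (a' i : K) * (s i ^ (N + 1) * E i) := ⟨_, rfl⟩
  have heC : e ∈ C := by
    rw [he]
    exact C.sum_mem fun i _ => C.mul_mem (a' i).2 (pow_mul_mem_of_le (hs i) (hm i) (hmN i))
  -- congruence with `E j` on `D(s j)`
  have hloc : ∀ j, ∃ d ∈ locRing C (s j) (hs j), e - E j = π * d := by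
    intro j
    refine ⟨∑ i, (a' i : K) * (s i ^ (N + 1) * D j i) - (b' : K) * E j, ?_, ?_⟩
    · refine Subring.sub_mem _ (Subring.sum_mem _ fun i _ => ?_) ?_
      · refine Subring.mul_mem _ (le_locRing C _ _ (a' i).2) ⟨M j i, ?_⟩
        have e1 : s j ^ M j i * (s i ^ (N + 1) * D j i)
            = s i ^ (N + 1 - M j i) * ((s j * s i) ^ M j i * D j i) := by
          have h1 : s i ^ (N + 1) = s i ^ (N + 1 - M j i) * s i ^ M j i := by
            rw [← pow_add, Nat.sub_add_cancel (hMN j i)]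
          rw [h1, mul_pow]; ring
        rw [e1]
        exact C.mul_mem (C.pow_mem (hs i) _) (hM j i)
      · exact Subring.mul_mem _ (le_locRing C _ _ b'.2) ⟨m j, hm j⟩
    · have h1 : E j = (∑ i, (a' i : K) * s i ^ (N + 1) + π * (b' : K)) * E j := by
        rw [h'', one_mul]
      have h2 : e - E j = ∑ i, (a' i : K) * (s i ^ (N + 1) * (E i - E j)) - π * (b' : K) * E j := by
        conv_lhs => rw [h1, he]
        rw [add_mul, Finset.sum_mul, ← sub_sub, ← Finset.sum_sub_distrib]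
        congr 1
        exact Finset.sum_congr rfl fun i _ => by ring
      rw [h2, mul_sub, Finset.mul_sum]
      congr 1
      · exact Finset.sum_congr rfl fun i _ => by rw [hDeq j i]; ring
      · ring
  refine ⟨e, heC, ?_, hloc⟩
  -- idempotent modulo `π`
  refine ⟨(e ^ 2 - e) / π, ?_, by field_simp⟩
  refine mem_of_cover C π hπ s a b hs ha hb hcov _ (fun j => ?_) ?_
  · obtain ⟨d, hd, hde⟩ := hloc j
    obtain ⟨d', hd', hde'⟩ := hidem j
    have e1 : (e ^ 2 - e) / π = d' + d * (E j + E j - 1) + π * d ^ 2 := by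
      rw [div_eq_iff hπ0]
      have h3 : e = E j + π * d := by rw [← hde]; ring
      rw [h3]
      linear_combination hde'
    rw [e1]
    have hEj : E j ∈ locRing C (s j) (hs j) := ⟨m j, hm j⟩
    have hπl : π ∈ locRing C (s j) (hs j) := le_locRing C _ _ hπ
    refine Subring.add_mem _ (Subring.add_mem _ hd' (Subring.mul_mem _ hd ?_))
      (Subring.mul_mem _ hπl (Subring.pow_mem _ hd 2))
    exact Subring.sub_mem _ (Subring.add_mem _ hEj hEj) (Subring.one_mem _)
  · rw [mul_div_cancel₀ _ hπ0]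
    exact C.sub_mem (C.pow_mem heC 2) heC

end Cover

/-! ### Chart rings -/

section Chart

variable {O K : Type*} [CommRing O] [Field K] [Algebra O K]

/-- The chart ring: the integral closure of a subalgebra `S` in the field, as a subring. -/
def chartRing (S : Subalgebra O K) : Subring K := (integralClosure S K).toSubring

theorem mem_chartRing {S : Subalgebra O K} {x : K} : x ∈ chartRing S ↔ IsIntegral S x :=
  Iff.rfl

theorem powClosed_chartRing (S : Subalgebra O K) {p : ℕ} (hp : 0 < p) :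
    PowClosed p (chartRing S) :=
  fun _ hx => IsIntegral.of_pow hp hx

theorem quadClosed_chartRing (S : Subalgebra O K) : QuadClosed (chartRing S) := by
  intro x b c hb hc h
  have hx : IsIntegral (integralClosure S K) x := by
    refine ⟨X ^ 2 + (C (⟨b, hb⟩ : integralClosure S K) * X + C ⟨c, hc⟩), ?_, ?_⟩
    · exact monic_X_pow_add (lt_of_le_of_lt degree_linear_le (by norm_num))
    · rw [eval₂_add, eval₂_add, eval₂_mul, eval₂_pow, eval₂_X, eval₂_C, eval₂_C]
      rw [← h]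
      have e1 : algebraMap (integralClosure S K) K ⟨b, hb⟩ = b := rfl
      have e2 : algebraMap (integralClosure S K) K ⟨c, hc⟩ = c := rfl
      rw [e1, e2]; ring
  exact isIntegral_trans x hx

theorem chartRing_mono {S T : Subalgebra O K} (h : S ≤ T) : chartRing S ≤ chartRing T :=
  fun _ hx => CechP1.isIntegral_mono h hx

theorem algebraMap_mem_chartRing (S : Subalgebra O K) (a : O) : algebraMap O K a ∈ chartRing S :=
  mem_chartRing.mpr (isIntegral_algebraMap (R := S) (A := K) (x := ⟨algebraMap O K a, S.algebraMap_mem a⟩))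

end Chart

/-! ### Comparing the charts of `F` and of `L` -/

section Bridge

variable {O F L : Type*} [CommRing O] [Field F] [Field L] [Algebra O F] [Algebra F L]
  [Algebra O L] [IsScalarTower O F L]

/-- The ring homomorphism `O[t] → O[φ(t)]`. -/
noncomputable def adjoinMap (t : Set F) :
    Algebra.adjoin O t →+* Algebra.adjoin O (algebraMap F L '' t) :=
  RingHom.restrict (algebraMap F L) (Algebra.adjoin O t) (Algebra.adjoin O (algebraMap F L '' t))
    (fun x hx => by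
      have h := AlgHom.map_adjoin (IsScalarTower.toAlgHom O F L) t
      have h2 : (IsScalarTower.toAlgHom O F L) x ∈
          Subalgebra.map (IsScalarTower.toAlgHom O F L) (Algebra.adjoin O t) :=
        Subalgebra.mem_map.mpr ⟨x, hx, rfl⟩
      rw [h] at h2
      exact h2)

theorem adjoinMap_surjective (t : Set F) :
    Function.Surjective (adjoinMap (O := O) (L := L) t) := by
  rintro ⟨y, hy⟩
  have h := AlgHom.map_adjoin (IsScalarTower.toAlgHom O F L) t
  have hy' : y ∈ Subalgebra.map (IsScalarTower.toAlgHom O F L) (Algebra.adjoin O t) := by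
    rw [h]; exact hy
  obtain ⟨x, hx, rfl⟩ := Subalgebra.mem_map.mp hy'
  exact ⟨⟨x, hx⟩, rfl⟩

/-- Integral over `O[t]` in `F` ⟹ integral over `O[φ(t)]` in `L`. -/
theorem bridge_up (t : Set F) {x : F} (hx : IsIntegral (Algebra.adjoin O t) x) :
    IsIntegral (Algebra.adjoin O (algebraMap F L '' t)) (algebraMap F L x) :=
  IsIntegral.map_of_comp_eq (adjoinMap (O := O) (L := L) t) (algebraMap F L) rfl hx

/-- Integral over `O[φ(t)]` ⟹ integral over `O[t]` (acting on `L` through `F`). -/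
theorem bridge_down (t : Set F) {c : L}
    (hc : IsIntegral (Algebra.adjoin O (algebraMap F L '' t)) c) :
    IsIntegral (Algebra.adjoin O t) c := by
  obtain ⟨P, hP, hPc⟩ := hc
  obtain ⟨Q₀, hQ₀⟩ := Polynomial.map_surjective _ (adjoinMap_surjective (O := O) (L := L) t) P
  obtain ⟨Q, hQ, -, hQm⟩ :=
    Polynomial.lifts_and_natDegree_eq_and_monic ((Polynomial.mem_lifts P).mpr ⟨Q₀, hQ₀⟩) hP
  refine ⟨Q, hQm, ?_⟩
  have e : algebraMap (Algebra.adjoin O t) L
      = (algebraMap (Algebra.adjoin O (algebraMap F L '' t)) L).comp (adjoinMap t) := rfl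
  rw [e, ← eval₂_map, hQ]
  exact hPc

/-- Integral over `O[φ(t)]` ⟹ integral over `O[t]`, for elements of `F`. -/
theorem bridge_down' (t : Set F) {x : F}
    (hx : IsIntegral (Algebra.adjoin O (algebraMap F L '' t)) (algebraMap F L x)) :
    IsIntegral (Algebra.adjoin O t) x :=
  (isIntegral_algebraMap_iff (algebraMap F L).injective).mp (bridge_down t hx)

end Bridge

/-! ### The local elements in `L` -/

section Local

variable {K : Type*} [Field K]

/-- `x² - x = w · ∑_{k<p} ∑_{j<k} y^j` for `p x = ∑_{k<p} y^k`, `y^p = 1 + p² w`. -/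
theorem sq_sub_self (p : ℕ) (hp0 : (p : K) ≠ 0) (y w x : K)
    (hy : y ^ p = 1 + (p : K) ^ 2 * w) (hx : (p : K) * x = ∑ k ∈ Finset.range p, y ^ k) :
    x ^ 2 - x = w * ∑ k ∈ Finset.range p, ∑ j ∈ Finset.range k, y ^ j := by
  have h1 : (∑ k ∈ Finset.range p, y ^ k) * (y - 1) = (p : K) ^ 2 * w := by
    rw [geom_sum_mul, hy]; ring
  have h2 : (∑ k ∈ Finset.range p, y ^ k) - (p : K)
      = (∑ k ∈ Finset.range p, ∑ j ∈ Finset.range k, y ^ j) * (y - 1) := by
    rw [Finset.sum_mul]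
    have e : (p : K) = ∑ _k ∈ Finset.range p, (1 : K) := by simp
    rw [e, ← Finset.sum_sub_distrib]
    exact Finset.sum_congr rfl fun k _ => (geom_sum_mul y k).symm
  apply mul_left_cancel₀ (pow_ne_zero 2 hp0)
  calc (p : K) ^ 2 * (x ^ 2 - x) = ((p : K) * x) * ((p : K) * x - (p : K)) := by ring
    _ = (∑ k ∈ Finset.range p, y ^ k)
          * ((∑ k ∈ Finset.range p, ∑ j ∈ Finset.range k, y ^ j) * (y - 1)) := by rw [hx, h2]
    _ = ((∑ k ∈ Finset.range p, y ^ k) * (y - 1))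
          * (∑ k ∈ Finset.range p, ∑ j ∈ Finset.range k, y ^ j) := by ring
    _ = (p : K) ^ 2 * (w * ∑ k ∈ Finset.range p, ∑ j ∈ Finset.range k, y ^ j) := by
        rw [h1]; ring

/-- `p` is a non-zero-divisor of a subring of a field of characteristic prime to `p`. -/
theorem subring_reg (p : ℕ) (hp0 : (p : K) ≠ 0) (C : Subring K) (a b : C)
    (h : (p : C) * a = (p : C) * b) : a = b := by
  apply Subtype.ext
  apply mul_left_cancel₀ hp0
  have h' := congrArg Subtype.val h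
  push_cast at h'
  exact h'

/-- **Local membership and idempotency.**  In a subring `C` closed under `p`-th roots and roots
of monic quadratics, with `w ∈ C` and `y ^ p = 1 + p² w`: `y ∈ C`, `x = (∑_{k<p} y^k) / p ∈ C`,
and `E = x²` is idempotent modulo `p C`. -/
theorem local_mem (p : ℕ) (hp : p.Prime) (hp3 : 3 ≤ p) (hp0 : (p : K) ≠ 0)
    (C : Subring K) (hpow : PowClosed p C) (hquad : QuadClosed C)
    (w y : K) (hw : w ∈ C) (hy : y ^ p = 1 + (p : K) ^ 2 * w) :
    y ∈ C ∧ (∑ k ∈ Finset.range p, y ^ k) / (p : K) ∈ C ∧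
      ∃ d ∈ C, (((∑ k ∈ Finset.range p, y ^ k) / (p : K)) ^ 2) ^ 2
        - ((∑ k ∈ Finset.range p, y ^ k) / (p : K)) ^ 2 = (p : K) * d := by
  have hpC : (p : K) ∈ C := natCast_mem C p
  have hyC : y ∈ C := hpow y (by
    rw [hy]; exact C.add_mem C.one_mem (C.mul_mem (C.pow_mem hpC 2) hw))
  obtain ⟨x, hxdef⟩ : ∃ x : K, x = (∑ k ∈ Finset.range p, y ^ k) / (p : K) := ⟨_, rfl⟩
  have hx : (p : K) * x = ∑ k ∈ Finset.range p, y ^ k := by
    rw [hxdef, mul_div_cancel₀ _ hp0]
  have hsq := sq_sub_self p hp0 y w x hy hx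
  have hxC : x ∈ C := by
    refine hquad x (-1) (-(w * ∑ k ∈ Finset.range p, ∑ j ∈ Finset.range k, y ^ j))
      (C.neg_mem C.one_mem) (C.neg_mem (C.mul_mem hw ?_)) ?_
    · exact C.sum_mem fun k _ => C.sum_mem fun j _ => C.pow_mem hyC j
    · linear_combination hsq
  rw [← hxdef]
  refine ⟨hyC, hxC, ?_⟩
  obtain ⟨d, hd⟩ := local_idem_sq (R := C) p hp hp3 (subring_reg p hp0 C) ⟨w, hw⟩ ⟨y, hyC⟩
    ⟨x, hxC⟩ (Subtype.ext (by push_cast; exact hy)) (Subtype.ext (by push_cast; exact hx))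
  refine ⟨d, d.2, ?_⟩
  have h := congrArg Subtype.val hd
  push_cast at h
  exact h

/-- **Change of the local root.**  If `y' = y + p a` with `a ∈ C`, the two idempotents agree
modulo `p C`. -/
theorem local_compat_mem (p : ℕ) (hp : p.Prime) (hp3 : 3 ≤ p) (hp0 : (p : K) ≠ 0)
    (C : Subring K) (hpow : PowClosed p C) (hquad : QuadClosed C)
    (w y w' y' a : K) (hw : w ∈ C) (hw' : w' ∈ C) (ha : a ∈ C)
    (hy : y ^ p = 1 + (p : K) ^ 2 * w) (hy' : y' ^ p = 1 + (p : K) ^ 2 * w')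
    (hyy : y' = y + (p : K) * a) :
    ∃ d ∈ C, ((∑ k ∈ Finset.range p, y' ^ k) / (p : K)) ^ 2
      - ((∑ k ∈ Finset.range p, y ^ k) / (p : K)) ^ 2 = (p : K) * d := by
  obtain ⟨hyC, hxC, -⟩ := local_mem p hp hp3 hp0 C hpow hquad w y hw hy
  obtain ⟨hyC', hxC', -⟩ := local_mem p hp hp3 hp0 C hpow hquad w' y' hw' hy'
  have hx : (p : K) * ((∑ k ∈ Finset.range p, y ^ k) / (p : K)) = ∑ k ∈ Finset.range p, y ^ k :=
    mul_div_cancel₀ _ hp0
  have hx' : (p : K) * ((∑ k ∈ Finset.range p, y' ^ k) / (p : K))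
      = ∑ k ∈ Finset.range p, y' ^ k := mul_div_cancel₀ _ hp0
  obtain ⟨d, hd⟩ := local_compat (R := C) p hp hp3 (subring_reg p hp0 C) ⟨w, hw⟩ ⟨y, hyC⟩
    ⟨_, hxC⟩ ⟨y', hyC'⟩ ⟨_, hxC'⟩ ⟨a, ha⟩ (Subtype.ext (by push_cast; exact hy))
    (Subtype.ext (by push_cast; exact hx)) (Subtype.ext (by push_cast; exact hx'))
    (Subtype.ext (by push_cast; exact hyy))
  refine ⟨d, d.2, ?_⟩
  have h := congrArg Subtype.val hd
  push_cast at h
  exact h

/-- **Two local roots differ by a factor `≡ 1` modulo `p`** (base field; this is where the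
reducedness of the fibre is used). -/
theorem base_compat (p : ℕ) (hp : p.Prime) (hp3 : 3 ≤ p)
    (R : Subring K) (hpow : PowClosed p R) (hred : RedP p R)
    (H G w G' w' : K) (hH : H ≠ 0) (hw : w ∈ R) (hw' : w' ∈ R)
    (hG : H = G ^ p * (1 + (p : K) ^ 2 * w)) (hG' : H = G' ^ p * (1 + (p : K) ^ 2 * w')) :
    ∃ a₁ ∈ R, G / G' * (1 + (p : K) ^ 2 * w) = 1 + (p : K) * a₁ := by
  have hpR : (p : K) ∈ R := natCast_mem R p
  have hG0 : G' ^ p ≠ 0 := by
    intro h; apply hH; rw [hG', h, zero_mul]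
  have hu : (1 + (p : K) ^ 2 * w) ∈ R := R.add_mem R.one_mem (R.mul_mem (R.pow_mem hpR 2) hw)
  have hu' : (1 + (p : K) ^ 2 * w') ∈ R :=
    R.add_mem R.one_mem (R.mul_mem (R.pow_mem hpR 2) hw')
  have epow : (1 + (p : K) ^ 2 * w) ^ p = (1 + (p : K) ^ 2 * w) ^ (p - 1) * (1 + (p : K) ^ 2 * w) := by
    rw [← pow_succ, Nat.sub_add_cancel hp.pos]
  obtain ⟨g, hgdef⟩ : ∃ g : K, g = G / G' * (1 + (p : K) ^ 2 * w) := ⟨_, rfl⟩
  have hgp : g ^ p = (1 + (p : K) ^ 2 * w') * (1 + (p : K) ^ 2 * w) ^ (p - 1) := by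
    rw [hgdef, mul_pow, div_pow, div_mul_eq_mul_div, div_eq_iff hG0, epow]
    linear_combination (1 + (p : K) ^ 2 * w) ^ (p - 1) * (hG' - hG)
  have hgR : g ∈ R := hpow g (by rw [hgp]; exact R.mul_mem hu' (R.pow_mem hu _))
  -- `(1 + p² w)^(p-1) = 1 + k p² w`
  obtain ⟨k₁, hk₁⟩ : ∃ k₁ : K, k₁ = ∑ i ∈ Finset.range (p - 1), (1 + (p : K) ^ 2 * w) ^ i :=
    ⟨_, rfl⟩
  have hk₁R : k₁ ∈ R := by rw [hk₁]; exact R.sum_mem fun i _ => R.pow_mem hu i
  have hgeom : (1 + (p : K) ^ 2 * w) ^ (p - 1) = 1 + k₁ * ((p : K) ^ 2 * w) := by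
    have h := geom_sum_mul (1 + (p : K) ^ 2 * w) (p - 1)
    rw [← hk₁] at h
    linear_combination -h
  -- `(g - 1)^p ∈ p R`
  obtain ⟨r, hr⟩ := exists_add_pow_prime_eq hp (⟨g, hgR⟩ : R) (-1)
  have hodd : (-1 : R) ^ p = -1 := Odd.neg_one_pow (hp.odd_of_ne_two (by omega))
  rw [hodd] at hr
  have hr' := congrArg Subtype.val hr
  push_cast at hr'
  have h1 : ∃ d ∈ R, (g - 1) ^ p = (p : K) * d := by
    refine ⟨(p : K) * w' + (p : K) * k₁ * w + (p : K) ^ 3 * w' * k₁ * w - g * (r : K), ?_, ?_⟩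
    · refine R.sub_mem (R.add_mem (R.add_mem (R.mul_mem hpR hw') (R.mul_mem (R.mul_mem hpR hk₁R) hw))
        (R.mul_mem (R.mul_mem (R.mul_mem (R.pow_mem hpR 3) hw') hk₁R) hw)) (R.mul_mem hgR r.2)
    · have e : g - 1 = g + -1 := by ring
      rw [e, hr', hgp, hgeom]; ring
  obtain ⟨a₁, ha₁, h2⟩ := hred (g - 1) (R.sub_mem hgR R.one_mem) h1
  exact ⟨a₁, ha₁, by rw [← hgdef]; linear_combination h2⟩

end Local

/-! ### The local idempotents attached to local roots of `H` -/

section Pair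

variable {F L : Type*} [Field F] [Field L] [Algebra F L]

/-- The idempotent (modulo `p`) of the split sheet, attached to a local root `G` of `H`:
`E = x²`, `x = (∑_{k<p} y^k) / p`, `y = z / G`. -/
noncomputable def idem (p : ℕ) (z : L) (G : F) : L :=
  ((∑ k ∈ Finset.range p, (z / algebraMap F L G) ^ k) / (p : L)) ^ 2

theorem y_pow (p : ℕ) (H G w : F) (hH : H ≠ 0) (z : L) (hz : z ^ p = algebraMap F L H)
    (hG : H = G ^ p * (1 + (p : F) ^ 2 * w)) :
    (z / algebraMap F L G) ^ p = 1 + (p : L) ^ 2 * algebraMap F L w := by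
  have hG0 : G ^ p ≠ 0 := by
    intro h; apply hH; rw [hG, h, zero_mul]
  have hφ : algebraMap F L G ^ p ≠ 0 := by
    rw [← map_pow]; exact (map_ne_zero (algebraMap F L)).mpr hG0
  rw [div_pow, hz, div_eq_iff hφ, hG, map_mul, map_add, map_one, map_mul, map_pow, map_pow,
    map_natCast]
  ring

theorem map_mem_locRing {B : Subring F} {C : Subring L}
    (hBC : ∀ x ∈ B, algebraMap F L x ∈ C) {s : F} (hs : s ∈ B) {x : F}
    (hx : x ∈ locRing B s hs) : algebraMap F L x ∈ locRing C (algebraMap F L s) (hBC s hs) := by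
  obtain ⟨k, hk⟩ := hx
  exact ⟨k, by rw [← map_pow, ← map_mul]; exact hBC _ hk⟩

theorem map_mem_locRing_mul {B : Subring F} {C : Subring L}
    (hBC : ∀ x ∈ B, algebraMap F L x ∈ C) {s t : F} (hs : s ∈ B) (ht : t ∈ B) {x : F}
    (hx : x ∈ locRing B (s * t) (B.mul_mem hs ht)) :
    algebraMap F L x ∈ locRing C (algebraMap F L s * algebraMap F L t)
      (C.mul_mem (hBC s hs) (hBC t ht)) := by
  obtain ⟨k, hk⟩ := hx
  exact ⟨k, by rw [← map_mul, ← map_pow, ← map_mul]; exact hBC _ hk⟩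

theorem idem_mem (p : ℕ) (hp : p.Prime) (hp3 : 3 ≤ p) (hp0 : (p : L) ≠ 0)
    (R : Subring F) (C : Subring L) (hRC : ∀ x ∈ R, algebraMap F L x ∈ C)
    (hpow : PowClosed p C) (hquad : QuadClosed C)
    (H G w : F) (hH : H ≠ 0) (z : L) (hz : z ^ p = algebraMap F L H) (hw : w ∈ R)
    (hG : H = G ^ p * (1 + (p : F) ^ 2 * w)) :
    idem p z G ∈ C ∧ ∃ d ∈ C, idem p z G ^ 2 - idem p z G = (p : L) * d := by
  obtain ⟨-, hx, hd⟩ := local_mem p hp hp3 hp0 C hpow hquad (algebraMap F L w) _ (hRC w hw)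
    (y_pow p H G w hH z hz hG)
  exact ⟨C.pow_mem hx 2, hd⟩

theorem idem_compat (p : ℕ) (hp : p.Prime) (hp3 : 3 ≤ p) (hp0 : (p : L) ≠ 0)
    (R : Subring F) (C : Subring L) (hRC : ∀ x ∈ R, algebraMap F L x ∈ C)
    (hRpow : PowClosed p R) (hRred : RedP p R) (hpow : PowClosed p C) (hquad : QuadClosed C)
    (H G w G' w' : F) (hH : H ≠ 0) (z : L) (hz : z ^ p = algebraMap F L H)
    (hw : w ∈ R) (hw' : w' ∈ R)
    (hG : H = G ^ p * (1 + (p : F) ^ 2 * w)) (hG' : H = G' ^ p * (1 + (p : F) ^ 2 * w')) :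
    ∃ d ∈ C, idem p z G' - idem p z G = (p : L) * d := by
  obtain ⟨a₁, ha₁, h1⟩ := base_compat p hp hp3 R hRpow hRred H G w G' w' hH hw hw' hG hG'
  have hy := y_pow p H G w hH z hz hG
  have hy' := y_pow p H G' w' hH z hz hG'
  obtain ⟨hyC, -, -⟩ := local_mem p hp hp3 hp0 C hpow hquad _ _ (hRC w hw) hy
  obtain ⟨hyC', -, -⟩ := local_mem p hp hp3 hp0 C hpow hquad _ _ (hRC w' hw') hy'
  have hG0 : G ≠ 0 := by
    rintro rfl
    apply hH; rw [hG, zero_pow hp.ne_zero, zero_mul]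
  have hG0' : G' ≠ 0 := by
    rintro rfl
    apply hH; rw [hG', zero_pow hp.ne_zero, zero_mul]
  have hφG : algebraMap F L G ≠ 0 := (map_ne_zero (algebraMap F L)).mpr hG0
  have hφG' : algebraMap F L G' ≠ 0 := (map_ne_zero (algebraMap F L)).mpr hG0'
  have hGG : z / algebraMap F L G' = algebraMap F L (G / G') * (z / algebraMap F L G) := by
    rw [map_div₀]; field_simp
  have h1' := congrArg (algebraMap F L) h1
  rw [map_mul, map_add, map_one, map_mul, map_pow, map_natCast, map_add, map_one, map_mul,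
    map_natCast] at h1'
  have hyy : z / algebraMap F L G' = z / algebraMap F L G + (p : L) *
      (algebraMap F L a₁ * (z / algebraMap F L G)
        - (p : L) * algebraMap F L w * (z / algebraMap F L G')) := by
    rw [hGG]
    linear_combination (z / algebraMap F L G) * h1'
  exact local_compat_mem p hp hp3 hp0 C hpow hquad _ _ _ _ _ (hRC w hw) (hRC w' hw')
    (C.sub_mem (C.mul_mem (hRC a₁ ha₁) hyC)
      (C.mul_mem (C.mul_mem (natCast_mem C p) (hRC w hw)) hyC')) hy hy' hyy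

/-- **Gluing on one chart.**  `B`, `C` the chart rings of `F` and `L`. -/
theorem chart_glue (p : ℕ) (hp : p.Prime) (hp3 : 3 ≤ p) (hp0 : (p : L) ≠ 0)
    (B : Subring F) (C : Subring L) (hBC : ∀ x ∈ B, algebraMap F L x ∈ C)
    (hBpow : PowClosed p B) (hBred : RedP p B) (hCpow : PowClosed p C) (hCquad : QuadClosed C)
    (H : F) (hH : H ≠ 0) (z : L) (hz : z ^ p = algebraMap F L H)
    {n : ℕ} (s a G w : Fin n → F) (b : F) (hs : ∀ i, s i ∈ B) (ha : ∀ i, a i ∈ B) (hb : b ∈ B)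
    (hcov : ∑ i, a i * s i + (p : F) * b = 1)
    (hw : ∀ i, w i ∈ locRing B (s i) (hs i))
    (hHG : ∀ i, H = G i ^ p * (1 + (p : F) ^ 2 * w i)) :
    ∃ e ∈ C, (∃ d ∈ C, e ^ 2 - e = (p : L) * d) ∧
      ∀ j, ∃ d ∈ locRing C (algebraMap F L (s j)) (hBC _ (hs j)),
        e - idem p z (G j) = (p : L) * d := by
  have hpF : (p : F) ≠ 0 := by
    intro h; apply hp0
    have h' := congrArg (algebraMap F L) h
    rwa [map_natCast, map_zero] at h'
  have hcov' : ∑ i, algebraMap F L (a i) * algebraMap F L (s i) + (p : L) * algebraMap F L b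
      = 1 := by
    have h := congrArg (algebraMap F L) hcov
    rw [map_add, map_sum, map_mul, map_natCast, map_one] at h
    rw [← h]
    congr 1
    exact Finset.sum_congr rfl fun i _ => (map_mul _ _ _).symm
  refine glue_idem C (p : L) (natCast_mem C p) hp0 (fun i => algebraMap F L (s i))
    (fun i => algebraMap F L (a i)) (algebraMap F L b) (fun i => hBC _ (hs i))
    (fun i => hBC _ (ha i)) (hBC _ hb) hcov' (fun i => idem p z (G i)) ?_ ?_ ?_
  · intro i
    exact (idem_mem p hp hp3 hp0 (locRing B (s i) (hs i)) _ (fun x hx => map_mem_locRing hBC (hs i) hx)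
      (powClosed_locRing hp.pos hCpow _ _) (quadClosed_locRing hCquad _ _) H (G i) (w i) hH z hz
      (hw i) (hHG i)).1
  · intro i
    exact (idem_mem p hp hp3 hp0 (locRing B (s i) (hs i)) _ (fun x hx => map_mem_locRing hBC (hs i) hx)
      (powClosed_locRing hp.pos hCpow _ _) (quadClosed_locRing hCquad _ _) H (G i) (w i) hH z hz
      (hw i) (hHG i)).2
  · intro i j
    exact idem_compat p hp hp3 hp0 (locRing B (s i * s j) (B.mul_mem (hs i) (hs j))) _
      (fun x hx => map_mem_locRing_mul hBC (hs i) (hs j) hx)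
      (powClosed_locRing hp.pos hBpow _ _) (redP_locRing hp.pos hpF hBred _ _)
      (powClosed_locRing hp.pos hCpow _ _) (quadClosed_locRing hCquad _ _) H (G i) (w i) (G j)
      (w j) hH z hz (locRing_le_mul_left B _ _ (hs i) (hs j) (hw i))
      (locRing_le_mul_right B _ _ (hs i) (hs j) (hw j)) (hHG i) (hHG j)

/-- **The two glued idempotents agree modulo `p` on the overlap.** -/
theorem overlap_glue (p : ℕ) (hp : p.Prime) (hp3 : 3 ≤ p) (hp0 : (p : L) ≠ 0)
    (B0 B1 B01 : Subring F) (C0 C1 C01 : Subring L) (hB0 : B0 ≤ B01) (hB1 : B1 ≤ B01)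
    (hC0 : C0 ≤ C01) (hC1 : C1 ≤ C01)
    (hBC0 : ∀ x ∈ B0, algebraMap F L x ∈ C0) (hBC1 : ∀ x ∈ B1, algebraMap F L x ∈ C1)
    (hBC01 : ∀ x ∈ B01, algebraMap F L x ∈ C01)
    (hBpow : PowClosed p B01) (hBred : RedP p B01) (hCpow : PowClosed p C01)
    (hCquad : QuadClosed C01)
    (H : F) (hH : H ≠ 0) (z : L) (hz : z ^ p = algebraMap F L H)
    {n : ℕ} (s a G w : Fin n → F) (b : F) (hs : ∀ i, s i ∈ B0) (ha : ∀ i, a i ∈ B0)
    (hb : b ∈ B0) (hcov : ∑ i, a i * s i + (p : F) * b = 1)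
    (hw : ∀ i, w i ∈ locRing B0 (s i) (hs i))
    (hHG : ∀ i, H = G i ^ p * (1 + (p : F) ^ 2 * w i))
    {n' : ℕ} (s' a' G' w' : Fin n' → F) (b' : F) (hs' : ∀ i, s' i ∈ B1) (ha' : ∀ i, a' i ∈ B1)
    (hb' : b' ∈ B1) (hcov' : ∑ i, a' i * s' i + (p : F) * b' = 1)
    (hw' : ∀ i, w' i ∈ locRing B1 (s' i) (hs' i))
    (hHG' : ∀ i, H = G' i ^ p * (1 + (p : F) ^ 2 * w' i))
    (e0 e1 : L) (he0 : e0 ∈ C0) (he1 : e1 ∈ C1)
    (hloc0 : ∀ j, ∃ d ∈ locRing C0 (algebraMap F L (s j)) (hBC0 _ (hs j)),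
        e0 - idem p z (G j) = (p : L) * d)
    (hloc1 : ∀ j, ∃ d ∈ locRing C1 (algebraMap F L (s' j)) (hBC1 _ (hs' j)),
        e1 - idem p z (G' j) = (p : L) * d) :
    ∃ d ∈ C01, e0 - e1 = (p : L) * d := by
  have hpF : (p : F) ≠ 0 := by
    intro h; apply hp0
    have h' := congrArg (algebraMap F L) h
    rwa [map_natCast, map_zero] at h'
  refine ⟨(e0 - e1) / (p : L), ?_, by field_simp⟩
  -- the product cover
  have hc0 : ∑ i, algebraMap F L (a i) * algebraMap F L (s i) + (p : L) * algebraMap F L b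
      = 1 := by
    have h := congrArg (algebraMap F L) hcov
    rw [map_add, map_sum, map_mul, map_natCast, map_one] at h
    rw [← h]
    congr 1
    exact Finset.sum_congr rfl fun i _ => (map_mul _ _ _).symm
  have hc1 : ∑ i, algebraMap F L (a' i) * algebraMap F L (s' i) + (p : L) * algebraMap F L b'
      = 1 := by
    have h := congrArg (algebraMap F L) hcov'
    rw [map_add, map_sum, map_mul, map_natCast, map_one] at h
    rw [← h]
    congr 1
    exact Finset.sum_congr rfl fun i _ => (map_mul _ _ _).symm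
  have hprod : ∑ x : Fin n × Fin n', (algebraMap F L (a x.1) * algebraMap F L (a' x.2))
        * (algebraMap F L (s x.1) * algebraMap F L (s' x.2))
      + (p : L) * (algebraMap F L b + algebraMap F L b'
        - (p : L) * algebraMap F L b * algebraMap F L b') = 1 := by
    have e : ∑ x : Fin n × Fin n', (algebraMap F L (a x.1) * algebraMap F L (a' x.2))
        * (algebraMap F L (s x.1) * algebraMap F L (s' x.2))
        = (∑ i, algebraMap F L (a i) * algebraMap F L (s i))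
          * ∑ j, algebraMap F L (a' j) * algebraMap F L (s' j) := by
      rw [Fintype.sum_prod_type, Finset.sum_mul_sum]
      exact Finset.sum_congr rfl fun i _ => Finset.sum_congr rfl fun j _ => by ring
    rw [e]
    linear_combination (∑ j, algebraMap F L (a' j) * algebraMap F L (s' j)) * hc0
      + (1 - (p : L) * algebraMap F L b) * hc1
  have hpC : (p : L) ∈ C01 := natCast_mem C01 p
  refine mem_of_cover C01 (p : L) hpC
    (fun x : Fin n × Fin n' => algebraMap F L (s x.1) * algebraMap F L (s' x.2))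
    (fun x => algebraMap F L (a x.1) * algebraMap F L (a' x.2))
    (algebraMap F L b + algebraMap F L b' - (p : L) * algebraMap F L b * algebraMap F L b')
    (fun x => C01.mul_mem (hC0 (hBC0 _ (hs x.1))) (hC1 (hBC1 _ (hs' x.2))))
    (fun x => C01.mul_mem (hC0 (hBC0 _ (ha x.1))) (hC1 (hBC1 _ (ha' x.2))))
    (C01.sub_mem (C01.add_mem (hC0 (hBC0 _ hb)) (hC1 (hBC1 _ hb')))
      (C01.mul_mem (C01.mul_mem hpC (hC0 (hBC0 _ hb))) (hC1 (hBC1 _ hb'))))
    hprod _ ?_ ?_
  · rintro ⟨i, j⟩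
    obtain ⟨d0, hd0, hde0⟩ := hloc0 i
    obtain ⟨d1, hd1, hde1⟩ := hloc1 j
    have hsi : s i ∈ B01 := hB0 (hs i)
    have hsj : s' j ∈ B01 := hB1 (hs' j)
    obtain ⟨d2, hd2, hde2⟩ := idem_compat p hp hp3 hp0
      (locRing B01 (s i * s' j) (B01.mul_mem hsi hsj)) _
      (fun x hx => map_mem_locRing_mul hBC01 hsi hsj hx)
      (powClosed_locRing hp.pos hBpow _ _) (redP_locRing hp.pos hpF hBred _ _)
      (powClosed_locRing hp.pos hCpow _ _) (quadClosed_locRing hCquad _ _) H (G i) (w i) (G' j)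
      (w' j) hH z hz
      (locRing_le_mul_left B01 _ _ hsi hsj (locRing_mono hB0 _ (hs i) (hw i)))
      (locRing_le_mul_right B01 _ _ hsi hsj (locRing_mono hB1 _ (hs' j) (hw' j))) (hHG i) (hHG' j)
    have e : (e0 - e1) / (p : L) = d0 - d1 - d2 := by
      rw [div_eq_iff hp0]
      linear_combination hde0 - hde1 - hde2
    rw [e]
    refine Subring.sub_mem _ (Subring.sub_mem _ ?_ ?_) hd2
    · exact locRing_le_mul_left C01 _ _ (hBC01 _ hsi) (hBC01 _ hsj)
        (locRing_mono hC0 _ (hBC0 _ (hs i)) hd0)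
    · exact locRing_le_mul_right C01 _ _ (hBC01 _ hsi) (hBC01 _ hsj)
        (locRing_mono hC1 _ (hBC1 _ (hs' j)) hd1)
  · rw [mul_div_cancel₀ _ hp0]
    exact C01.sub_mem (hC0 he0) (hC1 he1)

end Pair

/-! ### The main theorem -/

section Main

variable {O F L : Type*} [CommRing O] [Field F] [Field L] [Algebra O F] [Algebra F L]
  [Algebra O L] [IsScalarTower O F L]

/-- Reducedness of the fibre passes from the chart `O[u]` to the overlap `O[u, u⁻¹]`. -/
theorem redP_overlap (p : ℕ) (hp : 0 < p) (hp0 : (p : F) ≠ 0) (u : F) (hu : u ≠ 0)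
    (hred : RedP p (chartRing (Algebra.adjoin O ({u} : Set F)))) :
    RedP p (chartRing (Algebra.adjoin O ({u, u⁻¹} : Set F))) := by
  rintro t ht ⟨d, hd, hde⟩
  obtain ⟨n, hn⟩ := CechP1.exists_pow_mul_isIntegral u hu t ht
  obtain ⟨m, hm⟩ := CechP1.exists_pow_mul_isIntegral u hu d hd
  have huB : u ∈ chartRing (Algebra.adjoin O ({u} : Set F)) :=
    CechP1.isIntegral_adjoin_of_mem (Algebra.subset_adjoin (Set.mem_singleton u))
  have h1 : u ^ (n + m) * t ∈ chartRing (Algebra.adjoin O ({u} : Set F)) :=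
    pow_mul_mem_of_le huB hn (Nat.le_add_right n m)
  have h2 : ∃ d' ∈ chartRing (Algebra.adjoin O ({u} : Set F)),
      (u ^ (n + m) * t) ^ p = (p : F) * d' := by
    refine ⟨(u ^ (n + m)) ^ (p - 1) * (u ^ (n + m) * d), ?_, ?_⟩
    · exact Subring.mul_mem _ (Subring.pow_mem _ (Subring.pow_mem _ huB _) _)
        (pow_mul_mem_of_le huB hm (Nat.le_add_left m n))
    · have h3 : (u ^ (n + m)) ^ p = (u ^ (n + m)) ^ (p - 1) * u ^ (n + m) := by
        rw [← pow_succ, Nat.sub_add_cancel hp]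
      rw [mul_pow, h3, hde]; ring
  obtain ⟨d', hd', he⟩ := hred _ h1 h2
  refine ⟨t / (p : F), ?_, by field_simp⟩
  have e : t / (p : F) = u⁻¹ ^ (n + m) * d' := by
    have h4 : u ^ (n + m) * (t / (p : F)) = d' := by
      rw [← mul_div_assoc, he, mul_div_cancel_left₀ _ hp0]
    rw [← h4, ← mul_assoc, ← mul_pow, inv_mul_cancel₀ hu, one_pow, one_mul]
  rw [e]
  refine Subring.mul_mem _ (Subring.pow_mem _ ?_ _) (chartRing_mono (Algebra.adjoin_mono (by simp)) hd')
  exact CechP1.isIntegral_adjoin_of_mem (Algebra.subset_adjoin (by simp))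

omit [Algebra O L] [IsScalarTower O F L] in
/-- **The trace end on one chart**: if the glued element is `≡ 0` or `≡ 1` modulo `p`, then
`1 / p` is regular on the chart of `F`. -/
theorem chart_trace (p : ℕ) (hp : p.Prime) (hp0 : (p : L) ≠ 0)
    (S : Subalgebra O F) (Cl : Subring L)
    (hBC : ∀ x ∈ chartRing S, algebraMap F L x ∈ Cl)
    (hdown : ∀ c : L, c ∈ Cl → IsIntegral S c)
    (H : F) (hirr : ∀ g : F, H ≠ g ^ p) (z : L) (hz : z ^ p = algebraMap F L H)
    {n : ℕ} (s a G w : Fin n → F) (b : F) (hs : ∀ i, s i ∈ chartRing S)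
    (ha : ∀ i, a i ∈ chartRing S) (hb : b ∈ chartRing S)
    (hcov : ∑ i, a i * s i + (p : F) * b = 1)
    (hw : ∀ i, w i ∈ locRing (chartRing S) (s i) (hs i))
    (hHG : ∀ i, H = G i ^ p * (1 + (p : F) ^ 2 * w i))
    (e : L)
    (hloc : ∀ j, ∃ d ∈ locRing Cl (algebraMap F L (s j)) (hBC _ (hs j)),
        e - idem p z (G j) = (p : L) * d)
    (hcase : (∃ d ∈ Cl, e = (p : L) * d) ∨ (∃ d ∈ Cl, e - 1 = (p : L) * d)) :
    (p : F)⁻¹ ∈ chartRing S := by
  have hpF : (p : F) ≠ 0 := by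
    intro h; apply hp0
    have h' := congrArg (algebraMap F L) h
    rwa [map_natCast, map_zero] at h'
  have hH : H ≠ 0 := fun h => hirr 0 (by rw [h, zero_pow hp.ne_zero])
  refine mem_of_cover (chartRing S) (p : F) (natCast_mem _ p) s a b hs ha hb hcov _
    (fun j => ?_) (by rw [mul_inv_cancel₀ hpF]; exact Subring.one_mem _)
  obtain ⟨d, hd, hde⟩ := hloc j
  obtain ⟨k, hk⟩ := hw j
  have hy := y_pow p H (G j) (w j) hH z hz (hHG j)
  have hirr' : Irreducible (X ^ p - C (1 + (p : F) ^ 2 * w j) : F[X]) :=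
    X_pow_sub_C_irreducible_of_prime hp
      (fun b hb => hirr (G j * b) (by rw [hHG j, mul_pow, hb]))
  have hsj := hs j
  rcases hcase with ⟨d', hd', hde'⟩ | ⟨d', hd', hde'⟩
  · have h1 : idem p z (G j) / (p : L) = d' - d := by
      rw [div_eq_iff hp0]; linear_combination hde' - hde
    obtain ⟨N, hN⟩ : d' - d ∈ locRing Cl (algebraMap F L (s j)) (hBC _ (hs j)) :=
      Subring.sub_mem _ (le_locRing Cl _ _ hd') hd
    have hint : IsIntegral S (algebraMap F L (s j ^ N)
        * ((∑ i ∈ Finset.range p, (z / algebraMap F L (G j)) ^ i) / (p : L)) ^ 2 / (p : L)) := by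
      have h2 := hdown _ hN
      rw [← h1, ← map_pow] at h2
      rw [mul_div_assoc]
      exact h2
    have h2 : s j ^ N * ((p : F)⁻¹ + w j * ((p : F) - 1)) ∈ chartRing S :=
      PthTrace.isIntegral_of_sq_div (R := S) p hp.pos hp0 _ (w j) hy hirr' (s j ^ N) hint
    refine ⟨N + k, ?_⟩
    have e3 : s j ^ (N + k) * (p : F)⁻¹ = s j ^ k * (s j ^ N * ((p : F)⁻¹ + w j * ((p : F) - 1)))
        - s j ^ N * ((p : F) - 1) * (s j ^ k * w j) := by
      rw [pow_add]; ring
    rw [e3]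
    exact Subring.sub_mem _ (Subring.mul_mem _ (Subring.pow_mem _ hsj k) h2)
      (Subring.mul_mem _ (Subring.mul_mem _ (Subring.pow_mem _ hsj N)
        (Subring.sub_mem _ (natCast_mem _ p) (Subring.one_mem _))) hk)
  · have h1 : (idem p z (G j) - 1) / (p : L) = d' - d := by
      rw [div_eq_iff hp0]; linear_combination hde' - hde
    obtain ⟨N, hN⟩ : d' - d ∈ locRing Cl (algebraMap F L (s j)) (hBC _ (hs j)) :=
      Subring.sub_mem _ (le_locRing Cl _ _ hd') hd
    have hint : IsIntegral S (algebraMap F L (s j ^ N)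
        * (((∑ i ∈ Finset.range p, (z / algebraMap F L (G j)) ^ i) / (p : L)) ^ 2 - 1)
          / (p : L)) := by
      have h2 := hdown _ hN
      rw [← h1, ← map_pow] at h2
      rw [mul_div_assoc]
      exact h2
    have h2 : s j ^ N * ((p : F)⁻¹ + w j * ((p : F) - 1) - 1) ∈ chartRing S :=
      PthTrace.isIntegral_of_sq_sub_one_div (R := S) p hp.pos hp0 _ (w j) hy hirr' (s j ^ N) hint
    refine ⟨N + k, ?_⟩
    have e3 : s j ^ (N + k) * (p : F)⁻¹
        = s j ^ k * (s j ^ N * ((p : F)⁻¹ + w j * ((p : F) - 1) - 1))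
          - s j ^ N * ((p : F) - 1) * (s j ^ k * w j) + s j ^ (N + k) := by
      rw [pow_add]; ring
    rw [e3]
    exact Subring.add_mem _ (Subring.sub_mem _ (Subring.mul_mem _ (Subring.pow_mem _ hsj k) h2)
      (Subring.mul_mem _ (Subring.mul_mem _ (Subring.pow_mem _ hsj N)
        (Subring.sub_mem _ (natCast_mem _ p) (Subring.one_mem _))) hk))
      (Subring.pow_mem _ hsj _)

/-- `H` is, locally near the fibre `p = 0` of the chart `S`, a `p`-th power times
`1 + p² · (regular)`: there are finitely many `s i` in the chart whose principal opens cover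
the fibre (`∑ a i * s i + p * b = 1`), and on `D(s i)`: `H = G i ^ p * (1 + p ^ 2 * w i)` with
`w i` regular on `D(s i)` (`s i ^ k * w i` in the chart). -/
def LocalPow (S : Subalgebra O F) (p : ℕ) (H : F) : Prop :=
  ∃ (n : ℕ) (s a G w : Fin n → F) (b : F),
    (∀ i, IsIntegral S (s i)) ∧ (∀ i, IsIntegral S (a i)) ∧ IsIntegral S b ∧
    ∑ i, a i * s i + (p : F) * b = 1 ∧
    (∀ i, ∃ k : ℕ, IsIntegral S (s i ^ k * w i)) ∧
    ∀ i, H = G i ^ p * (1 + (p : F) ^ 2 * w i)

/-- **Local `p`-th powers are global** (the NZ last step; unramified base, `π = p`).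
`O` noetherian with `p` a prime element, `F` a field over `O` whose normal model over `P¹_O`
(charts: integral closures of `O[u]`, `O[u⁻¹]`) has reduced fibre at `p` (`hred0`, `hredinf`),
`H : F` locally of the form `G ^ p * (1 + p ^ 2 * w)` near every point of the fibre (`LocalPow`
on both charts).  If a field `L ⊇ F` contains a `p`-th root of `H`, has no new constants
(`hOL`) and a finite chart, then `H` is a `p`-th power in `F`. -/
theorem exists_pow_eq_of_localPow [IsNoetherianRing O] (p : ℕ) (hp : p.Prime) (hp3 : 3 ≤ p)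
    (hπ : Prime (p : O)) (hinj : Function.Injective (algebraMap O L))
    (hOL : ∀ x : L, IsIntegral O x → ∃ a : O, algebraMap O L a = x)
    (u : F) (hu : u ≠ 0)
    [Module.Finite (Algebra.adjoin O ({algebraMap F L u} : Set L))
      (integralClosure (Algebra.adjoin O ({algebraMap F L u} : Set L)) L)]
    (hred0 : ∀ x : F, IsIntegral (Algebra.adjoin O ({u} : Set F)) x →
      IsIntegral (Algebra.adjoin O ({u} : Set F)) (x ^ p / (p : F)) →
      IsIntegral (Algebra.adjoin O ({u} : Set F)) (x / (p : F)))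
    (hredinf : ∀ x : F, IsIntegral (Algebra.adjoin O ({u⁻¹} : Set F)) x →
      IsIntegral (Algebra.adjoin O ({u⁻¹} : Set F)) (x ^ p / (p : F)) →
      IsIntegral (Algebra.adjoin O ({u⁻¹} : Set F)) (x / (p : F)))
    (H : F) (z : L) (hz : z ^ p = algebraMap F L H)
    (h0 : LocalPow (Algebra.adjoin O ({u} : Set F)) p H)
    (hinf : LocalPow (Algebra.adjoin O ({u⁻¹} : Set F)) p H) :
    ∃ g : F, H = g ^ p := by
  by_contra hcon
  push Not at hcon
  have hH : H ≠ 0 := fun h => hcon 0 (by rw [h, zero_pow hp.ne_zero])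
  have hpL : (p : L) ≠ 0 := by
    intro h
    have h' : algebraMap O L (p : O) = algebraMap O L 0 := by rw [map_natCast, map_zero, h]
    exact hπ.ne_zero (hinj h')
  have hpF : (p : F) ≠ 0 := by
    intro h; apply hpL
    have h' := congrArg (algebraMap F L) h
    rwa [map_natCast, map_zero] at h'
  have hφu : algebraMap F L u ≠ 0 := (map_ne_zero (algebraMap F L)).mpr hu
  -- comparison of the charts of `F` and `L`
  have hBC0 : ∀ x ∈ chartRing (Algebra.adjoin O ({u} : Set F)),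
      algebraMap F L x ∈ chartRing (Algebra.adjoin O ({algebraMap F L u} : Set L)) := by
    intro x hx
    have h := bridge_up (L := L) ({u} : Set F) (mem_chartRing.mp hx)
    rw [Set.image_singleton] at h
    exact h
  have hBC1 : ∀ x ∈ chartRing (Algebra.adjoin O ({u⁻¹} : Set F)),
      algebraMap F L x ∈ chartRing (Algebra.adjoin O ({(algebraMap F L u)⁻¹} : Set L)) := by
    intro x hx
    have h := bridge_up (L := L) ({u⁻¹} : Set F) (mem_chartRing.mp hx)
    rw [Set.image_singleton, map_inv₀] at h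
    exact h
  have hBC01 : ∀ x ∈ chartRing (Algebra.adjoin O ({u, u⁻¹} : Set F)),
      algebraMap F L x
        ∈ chartRing (Algebra.adjoin O ({algebraMap F L u, (algebraMap F L u)⁻¹} : Set L)) := by
    intro x hx
    have h := bridge_up (L := L) ({u, u⁻¹} : Set F) (mem_chartRing.mp hx)
    rw [Set.image_pair, map_inv₀] at h
    exact h
  have hdown0 : ∀ c : L, c ∈ chartRing (Algebra.adjoin O ({algebraMap F L u} : Set L)) →
      IsIntegral (Algebra.adjoin O ({u} : Set F)) c := by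
    intro c hc
    refine bridge_down ({u} : Set F) ?_
    rw [Set.image_singleton]
    exact hc
  have hdown1 : ∀ c : L, c ∈ chartRing (Algebra.adjoin O ({(algebraMap F L u)⁻¹} : Set L)) →
      IsIntegral (Algebra.adjoin O ({u⁻¹} : Set F)) c := by
    intro c hc
    refine bridge_down ({u⁻¹} : Set F) ?_
    rw [Set.image_singleton, map_inv₀]
    exact hc
  -- reducedness
  have hB0red : RedP p (chartRing (Algebra.adjoin O ({u} : Set F))) := by
    rintro t ht ⟨d, hd, hde⟩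
    refine ⟨t / (p : F), hred0 t ht ?_, by field_simp⟩
    rw [hde, mul_div_cancel_left₀ _ hpF]; exact hd
  have hB1red : RedP p (chartRing (Algebra.adjoin O ({u⁻¹} : Set F))) := by
    rintro t ht ⟨d, hd, hde⟩
    refine ⟨t / (p : F), hredinf t ht ?_, by field_simp⟩
    rw [hde, mul_div_cancel_left₀ _ hpF]; exact hd
  have hB01red := redP_overlap (O := O) p hp.pos hpF u hu hB0red
  -- the local data
  obtain ⟨n, s, a, G, w, b, hs, ha, hb, hcov, hw, hHG⟩ := h0
  obtain ⟨n', s', a', G', w', b', hs', ha', hb', hcov', hw', hHG'⟩ := hinf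
  -- gluing on the two charts
  obtain ⟨e0, he0, ⟨d0, hd0, hd0e⟩, hloc0⟩ := chart_glue p hp hp3 hpL _ _ hBC0
    (powClosed_chartRing _ hp.pos) hB0red (powClosed_chartRing _ hp.pos)
    (quadClosed_chartRing _) H hH z hz s a G w b hs ha hb hcov hw hHG
  obtain ⟨e1, he1, ⟨d1, hd1, hd1e⟩, hloc1⟩ := chart_glue p hp hp3 hpL _ _ hBC1
    (powClosed_chartRing _ hp.pos) hB1red (powClosed_chartRing _ hp.pos)
    (quadClosed_chartRing _) H hH z hz s' a' G' w' b' hs' ha' hb' hcov' hw' hHG'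
  -- the overlap
  obtain ⟨d01, hd01, hd01e⟩ := overlap_glue p hp hp3 hpL
    (chartRing (Algebra.adjoin O ({u} : Set F))) (chartRing (Algebra.adjoin O ({u⁻¹} : Set F)))
    (chartRing (Algebra.adjoin O ({u, u⁻¹} : Set F)))
    (chartRing (Algebra.adjoin O ({algebraMap F L u} : Set L)))
    (chartRing (Algebra.adjoin O ({(algebraMap F L u)⁻¹} : Set L)))
    (chartRing (Algebra.adjoin O ({algebraMap F L u, (algebraMap F L u)⁻¹} : Set L)))
    (chartRing_mono (Algebra.adjoin_mono (by simp)))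
    (chartRing_mono (Algebra.adjoin_mono (by simp)))
    (chartRing_mono (Algebra.adjoin_mono (by simp)))
    (chartRing_mono (Algebra.adjoin_mono (by simp)))
    hBC0 hBC1 hBC01 (powClosed_chartRing _ hp.pos) hB01red (powClosed_chartRing _ hp.pos)
    (quadClosed_chartRing _) H hH z hz s a G w b hs ha hb hcov hw hHG
    s' a' G' w' b' hs' ha' hb' hcov' hw' hHG' e0 e1 he0 he1 hloc0 hloc1
  -- connectedness of the fibre of the model of `L`
  have hconn := CechP1.connected (p : O) hπ hinj hOL (algebraMap F L u) hφu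
    (CechP1.hfin_of_finite (algebraMap F L u)) e0 e1 he0 he1
    ⟨d0, hd0, by rw [map_natCast]; exact hd0e⟩ ⟨d1, hd1, by rw [map_natCast]; exact hd1e⟩
    ⟨d01, hd01, by rw [map_natCast]; exact hd01e⟩
  rw [map_natCast] at hconn
  -- the trace
  have key : (p : F)⁻¹ ∈ chartRing (Algebra.adjoin O ({u} : Set F)) ∧
      (p : F)⁻¹ ∈ chartRing (Algebra.adjoin O ({u⁻¹} : Set F)) := by
    rcases hconn with ⟨⟨w0, hw0, hw0e⟩, ⟨w1, hw1, hw1e⟩⟩ | ⟨⟨w0, hw0, hw0e⟩, ⟨w1, hw1, hw1e⟩⟩
    · exact ⟨chart_trace p hp hpL _ _ hBC0 hdown0 H hcon z hz s a G w b hs ha hb hcov hw hHG e0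
          hloc0 (Or.inl ⟨w0, hw0, hw0e⟩),
        chart_trace p hp hpL _ _ hBC1 hdown1 H hcon z hz s' a' G' w' b' hs' ha' hb' hcov' hw'
          hHG' e1 hloc1 (Or.inl ⟨w1, hw1, hw1e⟩)⟩
    · exact ⟨chart_trace p hp hpL _ _ hBC0 hdown0 H hcon z hz s a G w b hs ha hb hcov hw hHG e0
          hloc0 (Or.inr ⟨w0, hw0, hw0e⟩),
        chart_trace p hp hpL _ _ hBC1 hdown1 H hcon z hz s' a' G' w' b' hs' ha' hb' hcov' hw'
          hHG' e1 hloc1 (Or.inr ⟨w1, hw1, hw1e⟩)⟩
  -- `1 / p` is a constant: absurd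
  have hint : IsIntegral O (algebraMap F L (p : F)⁻¹) :=
    CechP1.isIntegral_of_two_charts (algebraMap F L u) hφu _ (hBC0 _ key.1) (hBC1 _ key.2)
  obtain ⟨c, hc⟩ := hOL _ hint
  have h1 : algebraMap O L ((p : O) * c) = algebraMap O L 1 := by
    rw [map_mul, hc, map_natCast, map_inv₀, map_natCast, map_one, mul_inv_cancel₀ hpL]
  exact hπ.not_isUnit (IsUnit.of_mul_eq_one _ (hinj h1))

end Main

end Fermat.Agent.S44.L.PthRoot
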