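import Mathlib
import Fermat.Agent.S44.L.PthRoot

/-!
# PROGRAM MR (S44), strand L: `LocalPow` from pointwise data (quasi-compactness)

Level-free adapter for `S44/L/PthRoot.lean` (helper253).

`PthRoot.LocalPow S p H` asks for a FINITE family of chart elements `s i` covering the fibre
`p = 0` (`∑ a i * s i + p * b = 1`) with a local root on each `D(s i)`.  Here it is derived
from the pointwise statement: at every maximal ideal `𝔪 ∋ p` of the chart ring
(`integralClosure S F`) there are `s ∉ 𝔪`, `G`, `w` with `s * w` regular and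
`H = G ^ p * (1 + p ^ 2 * w)` (`PowAt`).

* `localPow_of_pointwise` : `(∀ 𝔪 maximal, p ∈ 𝔪 → PowAt S p H 𝔪) → LocalPow S p H`.
* `powAt_of_localization` : `PowAt` from `w` in the localisation at `𝔪` (`w = a / s`, `s ∉ 𝔪`).
* `exists_pow_eq_of_pointwise` : the main theorem of `PthRoot` with pointwise hypotheses.
-/

set_option autoImplicit false

namespace Fermat.Agent.S44.L.PthPoint

open Fermat.Agent.S44.L.PthRoot

variable {O F : Type*} [CommRing O] [Field F] [Algebra O F]

/-- **Local `p`-th power datum at a point** `𝔪` of the chart: `H = G ^ p * (1 + p ^ 2 * w)` with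
`w` regular at `𝔪` (`s * w` in the chart for some chart element `s ∉ 𝔪`). -/
def PowAt (S : Subalgebra O F) (p : ℕ) (H : F) (𝔪 : Ideal (integralClosure S F)) : Prop :=
  ∃ (s : integralClosure S F) (G w : F), s ∉ 𝔪 ∧ IsIntegral S ((s : F) * w) ∧
    H = G ^ p * (1 + (p : F) ^ 2 * w)

/-- `PowAt` from a local root whose `w` is a fraction `a / s` with `a`, `s` in the chart and
`s ∉ 𝔪` (i.e. `w` lies in the localisation of the chart at `𝔪`). -/
theorem powAt_of_localization (S : Subalgebra O F) (p : ℕ) (H : F)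
    (𝔪 : Ideal (integralClosure S F)) (a s : integralClosure S F) (hs : s ∉ 𝔪) (G : F)
    (hH : H = G ^ p * (1 + (p : F) ^ 2 * ((a : F) / (s : F)))) : PowAt S p H 𝔪 := by
  by_cases hs0 : (s : F) = 0
  · exfalso
    apply hs
    have : s = 0 := Subtype.ext hs0
    rw [this]; exact 𝔪.zero_mem
  · refine ⟨s, G, (a : F) / (s : F), hs, ?_, hH⟩
    rw [mul_div_cancel₀ _ hs0]
    exact a.2

/-- **Quasi-compactness**: pointwise local `p`-th power data at all points of the fibre `p = 0`
of the chart give `PthRoot.LocalPow`. -/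
theorem localPow_of_pointwise (S : Subalgebra O F) (p : ℕ) (H : F)
    (h : ∀ 𝔪 : Ideal (integralClosure S F), 𝔪.IsMaximal → (p : integralClosure S F) ∈ 𝔪 →
      PowAt S p H 𝔪) :
    LocalPow S p H := by
  classical
  -- the good chart elements
  obtain ⟨Good, hGood⟩ : ∃ Good : Set (integralClosure S F),
      Good = {s : integralClosure S F | ∃ G w : F,
        IsIntegral S ((s : F) * w) ∧ H = G ^ p * (1 + (p : F) ^ 2 * w)} := ⟨_, rfl⟩
  have htop : Ideal.span (insert (p : integralClosure S F) Good) = ⊤ := by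
    by_contra hne
    obtain ⟨𝔪, h𝔪, hle⟩ := Ideal.exists_le_maximal _ hne
    have hp𝔪 : (p : integralClosure S F) ∈ 𝔪 :=
      hle (Ideal.subset_span (Set.mem_insert _ _))
    obtain ⟨s, G, w, hs, hsw, hH⟩ := h 𝔪 h𝔪 hp𝔪
    apply hs
    refine hle (Ideal.subset_span (Set.mem_insert_of_mem _ ?_))
    rw [hGood]
    exact ⟨G, w, hsw, hH⟩
  have h1 : (1 : integralClosure S F) ∈ Ideal.span (insert (p : integralClosure S F) Good) := by
    rw [htop]; trivial
  obtain ⟨b, z, hz, h1z⟩ := Ideal.mem_span_insert.mp h1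
  obtain ⟨T, hT, hzT⟩ := Submodule.mem_span_finite_of_mem_span hz
  obtain ⟨f, hf⟩ := Submodule.mem_span_finset'.mp hzT
  -- local roots on the members of `T`
  have hroot : ∀ t : T, ∃ G w : F, IsIntegral S (((t : integralClosure S F) : F) * w) ∧
      H = G ^ p * (1 + (p : F) ^ 2 * w) := by
    intro t
    have ht := hT t.2
    rw [hGood] at ht
    exact ht
  choose G w hw hHG using hroot
  let e : Fin T.card ≃ T := T.equivFin.symm
  refine ⟨T.card, fun i => (((e i : T) : integralClosure S F) : F),
    fun i => ((f (e i) : integralClosure S F) : F), fun i => G (e i), fun i => w (e i), (b : F),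
    fun i => ((e i : T) : integralClosure S F).2, fun i => (f (e i)).2, b.2, ?_,
    fun i => ⟨1, by rw [pow_one]; exact hw (e i)⟩, fun i => hHG (e i)⟩
  -- the cover relation
  have h2 : ∑ i, ((f (e i) : integralClosure S F) : F) * (((e i : T) : integralClosure S F) : F)
      = ∑ t : T, ((f t : integralClosure S F) : F) * ((t : integralClosure S F) : F) :=
    Equiv.sum_comp e
      (fun t : T => ((f t : integralClosure S F) : F) * ((t : integralClosure S F) : F))
  have h3 : ∑ t : T, ((f t : integralClosure S F) : F) * ((t : integralClosure S F) : F)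
      = ((z : integralClosure S F) : F) := by
    rw [← hf]
    push_cast
    exact Finset.sum_congr rfl fun t _ => by rw [smul_eq_mul]; push_cast; rfl
  have h4 := congrArg (fun x : integralClosure S F => (x : F)) h1z
  push_cast at h4
  rw [h2, h3]
  rw [h4]; ring

/-- **Local `p`-th powers are global, pointwise form**: `PthRoot.exists_pow_eq_of_localPow` with
the local data given at the maximal ideals containing `p` of the two chart rings. -/
theorem exists_pow_eq_of_pointwise {L : Type*} [Field L] [Algebra F L] [Algebra O L]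
    [IsScalarTower O F L] [IsNoetherianRing O] (p : ℕ) (hp : p.Prime) (hp3 : 3 ≤ p)
    (hπ : Prime (p : O)) (hinj : Function.Injective (algebraMap O L))
    (hOL : ∀ x : L, IsIntegral O x → ∃ a : O, algebraMap O L a = x)
    (u : F) (hu : u ≠ 0)
    [Module.Finite (Algebra.adjoin O ({algebraMap F L u} : Set L))
      (integralClosure (Algebra.adjoin O ({algebraMap F L u} : Set L)) L)]
    (hred0 : ∀ x : F, IsIntegral (Algebra.adjoin O ({u} : Set F)) x →
      IsIntegral (Algebra.adjoin O ({u} : Set F)) (x ^ p / (p : F)) →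
      IsIntegral (Algebra.adjoin O ({u} : Set F)) (x / (p : F)))
    (hredinf : ∀ x : F, IsIntegral (Algebra.adjoin O ({u⁻¹} : Set F)) x →
      IsIntegral (Algebra.adjoin O ({u⁻¹} : Set F)) (x ^ p / (p : F)) →
      IsIntegral (Algebra.adjoin O ({u⁻¹} : Set F)) (x / (p : F)))
    (H : F) (z : L) (hz : z ^ p = algebraMap F L H)
    (h0 : ∀ 𝔪 : Ideal (integralClosure (Algebra.adjoin O ({u} : Set F)) F), 𝔪.IsMaximal →
      (p : integralClosure (Algebra.adjoin O ({u} : Set F)) F) ∈ 𝔪 →
      PowAt (Algebra.adjoin O ({u} : Set F)) p H 𝔪)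
    (hinf : ∀ 𝔪 : Ideal (integralClosure (Algebra.adjoin O ({u⁻¹} : Set F)) F), 𝔪.IsMaximal →
      (p : integralClosure (Algebra.adjoin O ({u⁻¹} : Set F)) F) ∈ 𝔪 →
      PowAt (Algebra.adjoin O ({u⁻¹} : Set F)) p H 𝔪) :
    ∃ g : F, H = g ^ p :=
  exists_pow_eq_of_localPow p hp hp3 hπ hinj hOL u hu hred0 hredinf H z hz
    (localPow_of_pointwise _ p H h0) (localPow_of_pointwise _ p H hinf)

end Fermat.Agent.S44.L.PthPoint
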