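import Mathlib
import Fermat.Agent.S44.L.Node
import Fermat.Agent.S44.L.PthPoint

/-!
# PROGRAM MR (S44), strand L: gluing the local `p`-th roots modulo `p ^ 2` at a closed point

Level-free commutative algebra (helper253).  Imports Mathlib, `S44/L/Node` (helper153; its
vocabulary is reused verbatim) and `S44/L/PthPoint`.

Setting (unramified base, uniformiser `p`): `R` a noetherian local domain, `F = Frac R`, and
either

* a REGULAR NODE: `𝔪_R = (s, t)`, `s`, `t` non-associated prime elements, `s * t = p * unit`, or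
* a SMOOTH POINT: `π = p * unit`, `R / (π)` a principal ideal domain.

Let `f ∈ Fˣ` have all horizontal orders divisible by `p` (`hhor`) and be of depth `≥ 2` on every
vertical branch through the point: `f = g ^ p * (1 + p ^ 2 * a / b)` with `b` a unit of the
branch (`hbr`).  Then the local roots glue: `f = G ^ p * (1 + p ^ 2 * w)` with `w ∈ R`
(`node_glue`, `smooth_glue`).

With `R` the local ring of a chart `integralClosure S K` at a maximal ideal `𝔪`, this is the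
datum `PthPoint.PowAt S p f 𝔪` (`powAt_of_atPrime`, `powAt_of_node`, `powAt_of_smooth`) consumed
by `PthPoint.exists_pow_eq_of_pointwise`.
-/

set_option autoImplicit false
set_option linter.unusedSectionVars false
set_option linter.style.haveILetI false

namespace Fermat.Agent.S44.L.NodeGlue

open IsLocalRing
open Fermat.Agent.S44.L.LocalPrincipal Fermat.Agent.S44.L.Node

/-! ### Two congruences -/

section Ring

variable {R : Type*} [CommRing R]

/-- `(x + s k) ^ p ≡ x ^ p` modulo `s ^ 2` when `s ∣ p`. -/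
theorem sq_dvd_add_pow_sub_pow {s : R} {p : ℕ} (hsp : s ∣ (p : R)) (x k : R) :
    s ^ 2 ∣ (x + s * k) ^ p - x ^ p := by
  obtain ⟨c, hc⟩ := Polynomial.binomExpansion (Polynomial.X ^ p : Polynomial R) x (s * k)
  obtain ⟨d, hd⟩ := hsp
  simp only [Polynomial.eval_pow, Polynomial.eval_X, Polynomial.derivative_X_pow,
    Polynomial.eval_mul, Polynomial.eval_C] at hc
  refine ⟨d * x ^ (p - 1) * k + c * k ^ 2, ?_⟩
  rw [hc, hd]
  ring

/-- Frobenius is injective modulo a prime ideal containing `p`. -/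
theorem sub_mem_of_pow_sub_pow_mem {I : Ideal R} [I.IsPrime] {p : ℕ} (hp : p.Prime)
    (hpI : (p : R) ∈ I) {x y : R} (h : x ^ p - y ^ p ∈ I) : x - y ∈ I := by
  haveI : Fact p.Prime := ⟨hp⟩
  haveI : CharP (R ⧸ I) p := by
    rw [CharP.charP_iff_prime_eq_zero hp, ← map_natCast (Ideal.Quotient.mk I)]
    exact Ideal.Quotient.eq_zero_iff_mem.mpr hpI
  rw [← Ideal.Quotient.eq_zero_iff_mem, map_sub] at h ⊢
  rw [map_pow, map_pow, ← sub_pow_char] at h
  exact (pow_eq_zero_iff hp.ne_zero).mp h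

end Ring

/-! ### One branch -/

section Domain

variable {R : Type*} [CommRing R] [IsDomain R]

/-- **Second-order step on a branch.**  From `b u X ^ p = c Y ^ p` with `c ≡ b` modulo `s ^ 2`,
`Y ≡ X γ` modulo `s`, `u = γ ^ p + s z` and `s ∣ p`: `s ∣ z`. -/
theorem dvd_of_branch {p : ℕ} {s : R} (hs : Prime s) (hsp : s ∣ (p : R)) {u b c X Y γ z : R}
    (hb : ¬ s ∣ b) (hX : ¬ s ∣ X) (hc : s ^ 2 ∣ c - b) (hY : s ∣ Y - X * γ)
    (hu : u = γ ^ p + s * z) (e : b * u * X ^ p = c * Y ^ p) : s ∣ z := by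
  obtain ⟨k, hk⟩ := hY
  obtain ⟨n, hn⟩ := hc
  obtain ⟨m, hm⟩ := sq_dvd_add_pow_sub_pow hsp (X * γ) k
  have hY' : Y = X * γ + s * k := by linear_combination hk
  have hc' : c = b + s ^ 2 * n := by linear_combination hn
  have hm' : (X * γ + s * k) ^ p = (X * γ) ^ p + s ^ 2 * m := by linear_combination hm
  rw [hY', hc', hu, hm'] at e
  have h1 : s * (b * z * X ^ p) = s * (s * (n * (X * γ) ^ p + b * m + s ^ 2 * n * m)) := by
    linear_combination e
  have h3 : s ∣ b * z * X ^ p := ⟨_, mul_left_cancel₀ hs.ne_zero h1⟩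
  rcases hs.dvd_or_dvd h3 with h4 | h4
  · rcases hs.dvd_or_dvd h4 with h5 | h5
    · exact absurd h5 hb
    · exact h5
  · exact absurd (hs.dvd_of_dvd_pow h4) hX

/-- On an integrally closed branch `R / (s)`, `u` is a `p`-th power: from
`b u X ^ p = c Y ^ p` with `c ≡ b` modulo `s`. -/
theorem root_mod {p : ℕ} (hp : p ≠ 0) {s : R} [IsDomain (R ⧸ Ideal.span {s})]
    [IsIntegrallyClosed (R ⧸ Ideal.span {s})] {u b c X Y : R} (hb : ¬ s ∣ b) (hX : ¬ s ∣ X)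
    (hc : s ∣ c - b) (e : b * u * X ^ p = c * Y ^ p) :
    ∃ γ : R, s ∣ Y - X * γ ∧ s ∣ u - γ ^ p := by
  set mk := Ideal.Quotient.mk (Ideal.span {s}) with hmk
  have hz : ∀ x : R, mk x = 0 ↔ s ∣ x := fun x => by
    rw [hmk, Ideal.Quotient.eq_zero_iff_mem, Ideal.mem_span_singleton]
  have hb' : mk b ≠ 0 := fun h0 => hb ((hz b).mp h0)
  have hX' : mk X ≠ 0 := fun h0 => hX ((hz X).mp h0)
  have hcb : mk c = mk b := by
    rw [← sub_eq_zero, ← map_sub]
    exact (hz _).mpr hc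
  have e' : mk u * mk X ^ p = mk Y ^ p := by
    have := congrArg mk e
    simp only [map_mul, map_pow] at this
    rw [hcb, mul_assoc] at this
    exact mul_left_cancel₀ hb' this
  have hdvd : mk X ∣ mk Y :=
    (IsIntegrallyClosed.pow_dvd_pow_iff hp).mp ⟨mk u, by rw [← e', mul_comm]⟩
  obtain ⟨γ, hγ⟩ := hdvd
  obtain ⟨γ, rfl⟩ := Ideal.Quotient.mk_surjective γ
  refine ⟨γ, ?_, ?_⟩
  · rw [← hz, map_sub, map_mul, hγ, sub_self]
  · rw [← hz, map_sub, map_pow, sub_eq_zero]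
    rw [hγ, mul_pow, mul_comm] at e'
    exact mul_left_cancel₀ (pow_ne_zero p hX') e'

variable [WfDvdMonoid R] {F : Type*} [Field F] [Algebra R F] [IsFractionRing R F]

/-- **Order on a branch.**  If `f = U s ^ i h ^ p` (`s ∤ U`) satisfies the branch relation
`b f = g ^ p c` with `s ∤ b`, `s ∤ c`, then `p ∣ i` and `b U X ^ p = c Y ^ p` in `R` with
`s ∤ X`, `s ∤ Y`. -/
theorem branch_reduce {p : ℕ} (hp : p ≠ 0) {s : R} (hs : Prime s) {U b c : R} {i : ℕ}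
    {h g : F} (hh : h ≠ 0) (hU : ¬ s ∣ U) (hb : ¬ s ∣ b) (hc : ¬ s ∣ c)
    (e : algebraMap R F b * (algebraMap R F U * algebraMap R F s ^ i * h ^ p)
      = g ^ p * algebraMap R F c) :
    ∃ (X Y : R), ¬ s ∣ X ∧ ¬ s ∣ Y ∧ p ∣ i ∧ b * U * X ^ p = c * Y ^ p := by
  have hinj := IsFractionRing.injective R F
  obtain ⟨hn, hd, hhd, rfl⟩ := IsFractionRing.div_surjective R h
  obtain ⟨gn, gd, hgd, rfl⟩ := IsFractionRing.div_surjective R g
  have hhd0 : hd ≠ 0 := nonZeroDivisors.ne_zero hhd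
  have hgd0 : gd ≠ 0 := nonZeroDivisors.ne_zero hgd
  have hhdF : algebraMap R F hd ≠ 0 := (map_ne_zero_iff _ hinj).mpr hhd0
  have hgdF : algebraMap R F gd ≠ 0 := (map_ne_zero_iff _ hinj).mpr hgd0
  have hhn0 : hn ≠ 0 := by
    rintro rfl
    exact hh (by simp)
  have hb0 : b ≠ 0 := fun h0 => hb (h0 ▸ dvd_zero s)
  have hU0 : U ≠ 0 := fun h0 => hU (h0 ▸ dvd_zero s)
  have hR : b * U * s ^ i * (hn * gd) ^ p = c * s ^ 0 * (gn * hd) ^ p := by
    apply hinj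
    simp only [map_mul, map_pow, pow_zero, mul_one]
    have hHp : (algebraMap R F hn / algebraMap R F hd) ^ p * algebraMap R F hd ^ p
        = algebraMap R F hn ^ p := by
      rw [← mul_pow, div_mul_cancel₀ _ hhdF]
    have hGp : (algebraMap R F gn / algebraMap R F gd) ^ p * algebraMap R F gd ^ p
        = algebraMap R F gn ^ p := by
      rw [← mul_pow, div_mul_cancel₀ _ hgdF]
    rw [mul_pow, mul_pow, ← hHp, ← hGp]
    linear_combination (algebraMap R F hd ^ p * algebraMap R F gd ^ p) * e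
  have hgn0 : gn ≠ 0 := by
    rintro rfl
    rw [zero_mul, zero_pow hp, mul_zero] at hR
    exact mul_ne_zero (mul_ne_zero (mul_ne_zero hb0 hU0) (pow_ne_zero _ hs.ne_zero))
      (pow_ne_zero _ (mul_ne_zero hhn0 hgd0)) hR
  have hA : ¬ s ∣ b * U := fun hd' => (hs.dvd_or_dvd hd').elim hb hU
  obtain ⟨X, Y, α, β, hX, hY, hαβ, e'⟩ := exists_reduced hs (p := p) (i := i) (m := 0) hA hc
    (mul_ne_zero hhn0 hgd0) (mul_ne_zero hgn0 hhd0) hR
  refine ⟨X, Y, hX, hY, ?_, e'⟩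
  rw [zero_add] at hαβ
  exact (Nat.dvd_add_iff_left (dvd_mul_right p α)).mpr ⟨β, hαβ⟩

end Domain

/-! ### The two local statements -/

section Local

variable {R : Type*} [CommRing R] [IsDomain R] [IsLocalRing R] [IsNoetherianRing R]
  {F : Type*} [Field F] [Algebra R F] [IsFractionRing R F]

/-- The last algebraic step: `u = γ ^ p + ϖ ^ 2 z` with `ϖ v = p` and `γ δ = 1` is
`γ ^ p (1 + p ^ 2 w)`. -/
theorem eq_pow_mul_one_add {p : ℕ} {u γ δ ϖ z : R} (v : Rˣ) (hv : ϖ * v = (p : R))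
    (hδ : γ * δ = 1) (hu : u - γ ^ p = ϖ ^ 2 * z) :
    u = γ ^ p * (1 + (p : R) ^ 2 * (((v⁻¹ : Rˣ) : R) ^ 2 * z * δ ^ p)) := by
  have hvv : (v : R) * ((v⁻¹ : Rˣ) : R) = 1 := Units.mul_inv v
  have h1 : γ ^ p * δ ^ p = 1 := by rw [← mul_pow, hδ, one_pow]
  rw [← hv]
  linear_combination hu - ϖ ^ 2 * z * h1
    - ϖ ^ 2 * z * (γ ^ p * δ ^ p) * (1 + (v : R) * ((v⁻¹ : Rˣ) : R)) * hvv

/-- **Gluing at a regular node** (unramified base).  `R` a noetherian local domain with maximal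
ideal `(s, t)`, `s`, `t` non-associated primes, `s t = p * unit`, `F = Frac R`.  If `f ∈ Fˣ`
has all horizontal orders divisible by `p` and is `g₁ ^ p (1 + p ^ 2 w₁)` with `w₁ ∈ R_(s)` and
`g₂ ^ p (1 + p ^ 2 w₂)` with `w₂ ∈ R_(t)`, then `f = G ^ p (1 + p ^ 2 w)` with `w ∈ R`. -/
theorem node_glue (p : ℕ) (hp : p.Prime) {s t : R} (hs : Prime s) (ht : Prime t)
    (hne : ¬ Associated s t) (hm : maximalIdeal R = Ideal.span {s, t})
    (hst : Associated (s * t) (p : R)) (f : F) (hf : f ≠ 0)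
    (hhor : ∀ q : R, Prime q → ¬ q ∣ (p : R) →
      ∃ (a b : R) (h : F), ¬ q ∣ a ∧ ¬ q ∣ b ∧ algebraMap R F b * f = algebraMap R F a * h ^ p)
    (hbr₁ : ∃ (g : F) (a b : R), ¬ s ∣ b ∧
      algebraMap R F b * f = g ^ p * algebraMap R F (b + (p : R) ^ 2 * a))
    (hbr₂ : ∃ (g : F) (a b : R), ¬ t ∣ b ∧
      algebraMap R F b * f = g ^ p * algebraMap R F (b + (p : R) ^ 2 * a)) :
    ∃ (G : F) (w : R), f = G ^ p * (1 + (p : F) ^ 2 * algebraMap R F w) := by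
  obtain ⟨v, hv⟩ := hst
  have hm' : maximalIdeal R = Ideal.span {t, s} := by rw [hm, Set.pair_comm]
  haveI : IsDomain (R ⧸ Ideal.span {s}) := isDomain_quot hs
  haveI : IsPrincipalIdealRing (R ⧸ Ideal.span {s}) := isPrincipalIdealRing_quot hs hm
  haveI : IsDomain (R ⧸ Ideal.span {t}) := isDomain_quot ht
  haveI : IsPrincipalIdealRing (R ⧸ Ideal.span {t}) := isPrincipalIdealRing_quot ht hm'
  haveI : UniqueFactorizationMonoid R := quot_ufm hs.ne_zero
  have hst' : ¬ s ∣ t := not_dvd_of_not_associated hs ht hne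
  have hts' : ¬ t ∣ s := not_dvd_of_not_associated ht hs (fun h => hne h.symm)
  have hsp : s ∣ (p : R) := ⟨t * v, by rw [← hv]; ring⟩
  have htp : t ∣ (p : R) := ⟨s * v, by rw [← hv]; ring⟩
  -- factorisation of `f`
  obtain ⟨u, i, j, h, hfe⟩ := exists_eq_unit_mul_pow_mul_pow_mul_pow s t hp.ne_zero hf (by
    intro g hg hgs hgt
    refine hhor g hg ?_
    rw [← hv]
    intro hd
    rcases hg.dvd_or_dvd hd with hd | hd
    · rcases hg.dvd_or_dvd hd with hd | hd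
      · exact hgs (hg.associated_of_dvd hs hd)
      · exact hgt (hg.associated_of_dvd ht hd)
    · exact hg.not_isUnit (isUnit_of_dvd_unit hd v.isUnit))
  have hh : h ≠ 0 := by
    rintro rfl
    rw [zero_pow hp.ne_zero, mul_zero] at hfe
    exact hf hfe
  obtain ⟨g₁, a₁, b₁, hb₁, e₁⟩ := hbr₁
  obtain ⟨g₂, a₂, b₂, hb₂, e₂⟩ := hbr₂
  have hu_s : ¬ s ∣ (u : R) := fun hd => hs.not_isUnit (isUnit_of_dvd_unit hd u.isUnit)
  have hu_t : ¬ t ∣ (u : R) := fun hd => ht.not_isUnit (isUnit_of_dvd_unit hd u.isUnit)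
  have hc₁ : ¬ s ∣ b₁ + (p : R) ^ 2 * a₁ := fun hd =>
    hb₁ ((dvd_add_left (Dvd.dvd.mul_right (dvd_pow hsp two_ne_zero) a₁)).mp hd)
  have hc₂ : ¬ t ∣ b₂ + (p : R) ^ 2 * a₂ := fun hd =>
    hb₂ ((dvd_add_left (Dvd.dvd.mul_right (dvd_pow htp two_ne_zero) a₂)).mp hd)
  -- the two branches
  have E₁ : algebraMap R F b₁ * (algebraMap R F (u * t ^ j) * algebraMap R F s ^ i * h ^ p)
      = g₁ ^ p * algebraMap R F (b₁ + (p : R) ^ 2 * a₁) := by
    rw [← e₁, hfe]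
    simp only [map_mul, map_pow]
    ring
  have E₂ : algebraMap R F b₂ * (algebraMap R F (u * s ^ i) * algebraMap R F t ^ j * h ^ p)
      = g₂ ^ p * algebraMap R F (b₂ + (p : R) ^ 2 * a₂) := by
    rw [← e₂, hfe]
    simp only [map_mul, map_pow]
  obtain ⟨X₁, Y₁, hX₁, hY₁, ⟨i', hi'⟩, r₁⟩ := branch_reduce hp.ne_zero hs hh (U := u * t ^ j)
    (fun hd => (hs.dvd_or_dvd hd).elim hu_s (fun hd' => hst' (hs.dvd_of_dvd_pow hd')))
    hb₁ hc₁ E₁
  obtain ⟨X₂, Y₂, hX₂, hY₂, ⟨j', hj'⟩, r₂⟩ := branch_reduce hp.ne_zero ht hh (U := u * s ^ i)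
    (fun hd => (ht.dvd_or_dvd hd).elim hu_t (fun hd' => hts' (ht.dvd_of_dvd_pow hd')))
    hb₂ hc₂ E₂
  subst hi' hj'
  have r₁' : b₁ * u * (t ^ j' * X₁) ^ p = (b₁ + (p : R) ^ 2 * a₁) * Y₁ ^ p := by
    rw [← r₁]
    ring
  have r₂' : b₂ * u * (s ^ i' * X₂) ^ p = (b₂ + (p : R) ^ 2 * a₂) * Y₂ ^ p := by
    rw [← r₂]
    ring
  have hX₁' : ¬ s ∣ t ^ j' * X₁ := fun hd =>
    (hs.dvd_or_dvd hd).elim (fun hd' => hst' (hs.dvd_of_dvd_pow hd')) hX₁
  have hX₂' : ¬ t ∣ s ^ i' * X₂ := fun hd =>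
    (ht.dvd_or_dvd hd).elim (fun hd' => hts' (ht.dvd_of_dvd_pow hd')) hX₂
  have hcb₁ : s ^ 2 ∣ (b₁ + (p : R) ^ 2 * a₁) - b₁ := ⟨(t * v) ^ 2 * a₁, by rw [← hv]; ring⟩
  have hcb₂ : t ^ 2 ∣ (b₂ + (p : R) ^ 2 * a₂) - b₂ := ⟨(s * v) ^ 2 * a₂, by rw [← hv]; ring⟩
  -- roots on the two branches
  obtain ⟨γ₁, hγ₁Y, hγ₁u⟩ := root_mod hp.ne_zero hb₁ hX₁'
    (dvd_trans (dvd_pow_self s two_ne_zero) hcb₁) r₁'
  obtain ⟨γ₂, hγ₂Y, hγ₂u⟩ := root_mod hp.ne_zero hb₂ hX₂'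
    (dvd_trans (dvd_pow_self t two_ne_zero) hcb₂) r₂'
  -- they agree at the closed point
  have hsm : ∀ x : R, s ∣ x → x ∈ maximalIdeal R := by
    rintro x ⟨k, rfl⟩
    exact Ideal.mul_mem_right _ _ (mem_maximalIdeal_left hm)
  have htm : ∀ x : R, t ∣ x → x ∈ maximalIdeal R := by
    rintro x ⟨k, rfl⟩
    exact Ideal.mul_mem_right _ _ (mem_maximalIdeal_right hm)
  have hpm : (p : R) ∈ maximalIdeal R := hsm _ hsp
  have hγγ : γ₁ ^ p - γ₂ ^ p ∈ maximalIdeal R := by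
    have e : γ₁ ^ p - γ₂ ^ p = ((u : R) - γ₂ ^ p) - ((u : R) - γ₁ ^ p) := by ring
    rw [e]
    exact Ideal.sub_mem _ (htm _ hγ₂u) (hsm _ hγ₁u)
  have hd := sub_mem_of_pow_sub_pow_mem hp hpm hγγ
  rw [hm, Ideal.mem_span_pair] at hd
  obtain ⟨x, y, hxy⟩ := hd
  obtain ⟨γ, hγ⟩ : ∃ γ : R, γ = γ₁ - x * s := ⟨_, rfl⟩
  have hγ1 : s ∣ γ₁ - γ := ⟨x, by rw [hγ]; ring⟩
  have hγ2 : t ∣ γ - γ₂ := ⟨y, by rw [hγ]; linear_combination (-1 : R) * hxy⟩
  have hsu : s ∣ (u : R) - γ ^ p := by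
    have e : (u : R) - γ ^ p = ((u : R) - γ₁ ^ p) + (γ₁ ^ p - γ ^ p) := by ring
    rw [e]
    exact dvd_add hγ₁u (dvd_trans hγ1 (sub_dvd_pow_sub_pow _ _ _))
  have htu : t ∣ (u : R) - γ ^ p := by
    have e : (u : R) - γ ^ p = ((u : R) - γ₂ ^ p) - (γ ^ p - γ₂ ^ p) := by ring
    rw [e]
    exact dvd_sub hγ₂u (dvd_trans hγ2 (sub_dvd_pow_sub_pow _ _ _))
  obtain ⟨k, hk⟩ := hsu
  have htk : t ∣ k := (ht.dvd_or_dvd (hk ▸ htu)).resolve_left hts'
  obtain ⟨z, rfl⟩ := htk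
  -- second-order step on the two branches
  have hY₁γ : s ∣ Y₁ - t ^ j' * X₁ * γ := by
    have e : Y₁ - t ^ j' * X₁ * γ = (Y₁ - t ^ j' * X₁ * γ₁) + t ^ j' * X₁ * (γ₁ - γ) := by ring
    rw [e]
    exact dvd_add hγ₁Y (Dvd.dvd.mul_left hγ1 _)
  have hY₂γ : t ∣ Y₂ - s ^ i' * X₂ * γ := by
    have e : Y₂ - s ^ i' * X₂ * γ = (Y₂ - s ^ i' * X₂ * γ₂) - s ^ i' * X₂ * (γ - γ₂) := by ring
    rw [e]
    exact dvd_sub hγ₂Y (Dvd.dvd.mul_left hγ2 _)
  have hsz : s ∣ t * z := dvd_of_branch hs hsp hb₁ hX₁' hcb₁ hY₁γ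
    (by linear_combination hk) r₁'
  have htz : t ∣ s * z := dvd_of_branch ht htp hb₂ hX₂' hcb₂ hY₂γ
    (by linear_combination hk) r₂'
  obtain ⟨z₁, rfl⟩ := (hs.dvd_or_dvd hsz).resolve_left hst'
  have htz₁ : t ∣ z₁ :=
    (ht.dvd_or_dvd ((ht.dvd_or_dvd htz).resolve_left hts')).resolve_left hts'
  obtain ⟨z₂, rfl⟩ := htz₁
  -- `γ` is a unit
  have hγu : IsUnit γ := by
    by_contra hnu
    have hγm : γ ∈ maximalIdeal R := (IsLocalRing.mem_maximalIdeal _).mpr hnu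
    have hum : (u : R) ∈ maximalIdeal R := by
      have e : (u : R) = ((u : R) - γ ^ p) + γ ^ p := by ring
      rw [e, hk]
      exact Ideal.add_mem _ (Ideal.mul_mem_right _ _ (mem_maximalIdeal_left hm))
        (Ideal.pow_mem_of_mem _ hγm p hp.pos)
    exact (IsLocalRing.mem_maximalIdeal _).mp hum u.isUnit
  obtain ⟨δ, hδ⟩ := hγu.exists_right_inv
  have hu := eq_pow_mul_one_add (p := p) (u := (u : R)) (ϖ := s * t) (z := z₂) v hv hδ
    (by rw [hk]; ring)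
  refine ⟨algebraMap R F γ * algebraMap R F s ^ i' * algebraMap R F t ^ j' * h,
    ((v⁻¹ : Rˣ) : R) ^ 2 * z₂ * δ ^ p, ?_⟩
  have hu' := congrArg (algebraMap R F) hu
  simp only [map_mul, map_pow, map_add, map_one, map_natCast] at hu' ⊢
  rw [hfe, hu']
  ring

/-- **Gluing at a smooth point** (unramified base).  `R` a noetherian local domain, `π = p *
unit` with `R / (π)` a principal ideal domain, `F = Frac R`.  If `f ∈ Fˣ` has all horizontal
orders divisible by `p` and is `g ^ p (1 + p ^ 2 w₁)` with `w₁ ∈ R_(π)`, then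
`f = G ^ p (1 + p ^ 2 w)` with `w ∈ R`. -/
theorem smooth_glue (p : ℕ) (hp : p.Prime) {π : R} (hπ0 : π ≠ 0)
    [IsDomain (R ⧸ Ideal.span {π})] [IsPrincipalIdealRing (R ⧸ Ideal.span {π})]
    (hπp : Associated π (p : R)) (f : F) (hf : f ≠ 0)
    (hhor : ∀ q : R, Prime q → ¬ q ∣ (p : R) →
      ∃ (a b : R) (h : F), ¬ q ∣ a ∧ ¬ q ∣ b ∧ algebraMap R F b * f = algebraMap R F a * h ^ p)
    (hbr : ∃ (g : F) (a b : R), ¬ π ∣ b ∧
      algebraMap R F b * f = g ^ p * algebraMap R F (b + (p : R) ^ 2 * a)) :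
    ∃ (G : F) (w : R), f = G ^ p * (1 + (p : F) ^ 2 * algebraMap R F w) := by
  obtain ⟨v, hv⟩ := hπp
  have hπ : Prime π := by
    have h1 : (Ideal.span {π}).IsPrime := (Ideal.Quotient.isDomain_iff_prime _).mp inferInstance
    exact (Ideal.span_singleton_prime hπ0).mp h1
  haveI : UniqueFactorizationMonoid R := quot_ufm hπ0
  have hπp' : π ∣ (p : R) := ⟨v, hv.symm⟩
  obtain ⟨u, k, h, hfe⟩ := quot_exists_eq_unit_mul_pow_mul_pow hπ0 hp.ne_zero hf (by
    intro g hg hgπ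
    refine hhor g hg ?_
    rw [← hv]
    intro hd
    rcases hg.dvd_or_dvd hd with hd | hd
    · exact hgπ hd
    · exact hg.not_isUnit (isUnit_of_dvd_unit hd v.isUnit))
  have hh : h ≠ 0 := by
    rintro rfl
    rw [zero_pow hp.ne_zero, mul_zero] at hfe
    exact hf hfe
  obtain ⟨g, a, b, hb, e⟩ := hbr
  have hu_π : ¬ π ∣ (u : R) := fun hd => hπ.not_isUnit (isUnit_of_dvd_unit hd u.isUnit)
  have hc : ¬ π ∣ b + (p : R) ^ 2 * a := fun hd =>
    hb ((dvd_add_left (Dvd.dvd.mul_right (dvd_pow hπp' two_ne_zero) a)).mp hd)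
  have E : algebraMap R F b * (algebraMap R F u * algebraMap R F π ^ k * h ^ p)
      = g ^ p * algebraMap R F (b + (p : R) ^ 2 * a) := by
    rw [← e, hfe]
  obtain ⟨X, Y, hX, hY, ⟨k', hk'⟩, r⟩ := branch_reduce hp.ne_zero hπ hh (U := u) hu_π hb hc E
  subst hk'
  have hcb : π ^ 2 ∣ (b + (p : R) ^ 2 * a) - b := ⟨(v : R) ^ 2 * a, by rw [← hv]; ring⟩
  obtain ⟨γ, hγY, hγu⟩ := root_mod hp.ne_zero hb hX (dvd_trans (dvd_pow_self π two_ne_zero) hcb) r
  obtain ⟨z, hz⟩ := hγu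
  have hπz : π ∣ z := dvd_of_branch hπ hπp' hb hX hcb hγY (by linear_combination hz) r
  obtain ⟨z₁, rfl⟩ := hπz
  have hπm : π ∈ maximalIdeal R := (IsLocalRing.mem_maximalIdeal _).mpr hπ.not_isUnit
  have hγunit : IsUnit γ := by
    by_contra hnu
    have hγm : γ ∈ maximalIdeal R := (IsLocalRing.mem_maximalIdeal _).mpr hnu
    have hum : (u : R) ∈ maximalIdeal R := by
      have e : (u : R) = ((u : R) - γ ^ p) + γ ^ p := by ring
      rw [e, hz]
      exact Ideal.add_mem _ (Ideal.mul_mem_right _ _ hπm) (Ideal.pow_mem_of_mem _ hγm p hp.pos)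
    exact (IsLocalRing.mem_maximalIdeal _).mp hum u.isUnit
  obtain ⟨δ, hδ⟩ := hγunit.exists_right_inv
  have hu := eq_pow_mul_one_add (p := p) (u := (u : R)) (ϖ := π) (z := z₁) v hv hδ
    (by rw [hz]; ring)
  refine ⟨algebraMap R F γ * algebraMap R F π ^ k' * h, ((v⁻¹ : Rˣ) : R) ^ 2 * z₁ * δ ^ p, ?_⟩
  have hu' := congrArg (algebraMap R F) hu
  simp only [map_mul, map_pow, map_add, map_one, map_natCast] at hu' ⊢
  rw [hfe, hu']
  ring

end Local

/-! ### The datum `PthPoint.PowAt` -/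

section PowAt

variable {O K : Type*} [CommRing O] [Field K] [Algebra O K]

/-- `PthPoint.PowAt` from a local root with `w` in (any model of) the local ring of the chart
at `𝔪`. -/
theorem powAt_of_atPrime (S : Subalgebra O K) (p : ℕ) (H : K)
    (𝔪 : Ideal (integralClosure S K)) [𝔪.IsPrime] (A : Type*) [CommRing A]
    [Algebra (integralClosure S K) A] [IsLocalization.AtPrime A 𝔪] [Algebra A K]
    [IsScalarTower (integralClosure S K) A K] (G : K) (w : A)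
    (hH : H = G ^ p * (1 + (p : K) ^ 2 * algebraMap A K w)) : PthPoint.PowAt S p H 𝔪 := by
  obtain ⟨a, s, rfl⟩ := IsLocalization.exists_mk'_eq 𝔪.primeCompl w
  have hs : (s : integralClosure S K) ∉ 𝔪 := s.2
  have hs0 : (((s : integralClosure S K)) : K) ≠ 0 := by
    intro h0
    apply hs
    have : (s : integralClosure S K) = 0 := Subtype.ext h0
    rw [this]
    exact 𝔪.zero_mem
  refine PthPoint.powAt_of_localization S p H 𝔪 a s hs G ?_
  rw [hH]
  congr 3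
  rw [eq_div_iff hs0]
  have h1 := IsLocalization.mk'_spec A a s
  have h2 := congrArg (algebraMap A K) h1
  rw [map_mul, ← IsScalarTower.algebraMap_apply, ← IsScalarTower.algebraMap_apply] at h2
  exact h2

variable (S : Subalgebra O K) (𝔪 : Ideal (integralClosure S K)) [𝔪.IsPrime]
  (A : Type*) [CommRing A] [IsDomain A] [IsLocalRing A] [IsNoetherianRing A]
  [Algebra (integralClosure S K) A] [IsLocalization.AtPrime A 𝔪] [Algebra A K]
  [IsFractionRing A K] [IsScalarTower (integralClosure S K) A K]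

/-- `PthPoint.PowAt` at a regular node of the chart. -/
theorem powAt_of_node (p : ℕ) (hp : p.Prime) {s t : A} (hs : Prime s) (ht : Prime t)
    (hne : ¬ Associated s t) (hm : maximalIdeal A = Ideal.span {s, t})
    (hst : Associated (s * t) (p : A)) (H : K) (hH : H ≠ 0)
    (hhor : ∀ q : A, Prime q → ¬ q ∣ (p : A) →
      ∃ (a b : A) (h : K), ¬ q ∣ a ∧ ¬ q ∣ b ∧ algebraMap A K b * H = algebraMap A K a * h ^ p)
    (hbr₁ : ∃ (g : K) (a b : A), ¬ s ∣ b ∧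
      algebraMap A K b * H = g ^ p * algebraMap A K (b + (p : A) ^ 2 * a))
    (hbr₂ : ∃ (g : K) (a b : A), ¬ t ∣ b ∧
      algebraMap A K b * H = g ^ p * algebraMap A K (b + (p : A) ^ 2 * a)) :
    PthPoint.PowAt S p H 𝔪 := by
  obtain ⟨G, w, h⟩ := node_glue p hp hs ht hne hm hst H hH hhor hbr₁ hbr₂
  exact powAt_of_atPrime S p H 𝔪 A G w h

/-- `PthPoint.PowAt` at a smooth point of the fibre of the chart. -/
theorem powAt_of_smooth (p : ℕ) (hp : p.Prime) {π : A} (hπ0 : π ≠ 0)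
    [IsDomain (A ⧸ Ideal.span {π})] [IsPrincipalIdealRing (A ⧸ Ideal.span {π})]
    (hπp : Associated π (p : A)) (H : K) (hH : H ≠ 0)
    (hhor : ∀ q : A, Prime q → ¬ q ∣ (p : A) →
      ∃ (a b : A) (h : K), ¬ q ∣ a ∧ ¬ q ∣ b ∧ algebraMap A K b * H = algebraMap A K a * h ^ p)
    (hbr : ∃ (g : K) (a b : A), ¬ π ∣ b ∧
      algebraMap A K b * H = g ^ p * algebraMap A K (b + (p : A) ^ 2 * a)) :
    PthPoint.PowAt S p H 𝔪 := by
  obtain ⟨G, w, h⟩ := smooth_glue p hp hπ0 hπp H hH hhor hbr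
  exact powAt_of_atPrime S p H 𝔪 A G w h

end PowAt

end Fermat.Agent.S44.L.NodeGlue
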