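import Mathlib
import Fermat.Agent.S44.L.PthRoot
import Fermat.Agent.S44.L.PthPoint

/-!
# PROGRAM MR (S44), strand L: local `p`-th powers are global, RAMIFIED base

Level-free port of `S44/L/PthRoot.lean` (helper253) to a base `O` in which `p = η * π ^ p` with
`π` a prime element and `η` a unit (e.g. `O = O₀[π]`, `π` a root of an Eisenstein polynomial of
degree `p` over an unramified `O₀`).  The local shape of the datum is the LANDED one,
`H = G ^ p * (1 + p ^ 2 * w)` (`PthRoot.LocalPow`, `PthPoint.PowAt`); what changes is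

* the reducedness hypothesis: the fibre of each chart at `π` (not at `p`) is reduced
  (`hred0`, `hredinf`; `RedPi`);
* the compatibility of two local roots: `g ^ p ≡ 1` modulo `p ^ 2` implies `g ≡ 1` modulo `p`
  (`Compat`), proved from `RedPi` by climbing the powers of `π` (`compat_of_red`); the gluing
  lemmas of `PthRoot` are re-proved over the abstract predicate `Compat`
  (`chart_glue_of_compat`, `overlap_glue_of_compat`), so that the unramified case is the
  instance `compat_of_redP`;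
* connectedness is applied with the prime `π`, and an idempotent modulo `p` which is `≡ 0`
  modulo `π` is `≡ 0` modulo `p` (`idem_upgrade`).

Main exits: `exists_pow_eq_of_localPow_ram`, `exists_pow_eq_of_pointwise_ram`.
-/

set_option autoImplicit false

namespace Fermat.Agent.S44.L.PthRootRam

open Polynomial Fermat.Agent.S30.Model Fermat.Agent.S44.L.PthRoot

/-! ### Ring level: climbing the powers of `π` -/

section Ring

variable {R : Type*} [CommRing R]

/-- `(1 + a) ^ p = 1 + a ^ p + p a (1 + a q)`. -/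
theorem one_add_pow_expansion (p : ℕ) (hp : p.Prime) (a : R) :
    ∃ q : R, (1 + a) ^ p = 1 + a ^ p + (p : R) * a * (1 + a * q) := by
  obtain ⟨r₁, hr⟩ := exists_geom_expansion p hp
  have h := geom_expansion_eval p r₁ hr (1 + a)
  have h2 := geom_sum_mul (1 + a) p
  have e : (1 + a - 1) = a := by ring
  rw [e] at h h2
  refine ⟨aeval a r₁, ?_⟩
  have e2 : a ^ p = a ^ (p - 1) * a := by rw [← pow_succ, Nat.sub_add_cancel hp.pos]
  rw [h] at h2
  rw [e2]
  linear_combination -h2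

theorem pow_mul_cancel (π : R) (hreg : ∀ a b : R, π * a = π * b → a = b) (m : ℕ) (a b : R)
    (h : π ^ m * a = π ^ m * b) : a = b := by
  induction m with
  | zero => simpa using h
  | succ m ih =>
    apply ih
    apply hreg
    rw [← mul_assoc, ← mul_assoc, ← pow_succ']
    exact h

/-- **One step.**  `p = η π ^ p`, `π` regular, `R / π` reduced.  If `g = 1 + π ^ k a` with
`1 ≤ k < p` and `g ^ p ≡ 1` modulo `π ^ (2 p)`, then `π ∣ a`. -/
theorem compat_step (p : ℕ) (hp : p.Prime) (hp3 : 3 ≤ p) (π η η' : R) (hηη : η * η' = 1)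
    (hpπ : (p : R) = η * π ^ p) (hreg : ∀ a b : R, π * a = π * b → a = b)
    (hred : ∀ t : R, (∃ d, t ^ p = π * d) → ∃ d, t = π * d)
    (k : ℕ) (hk1 : 1 ≤ k) (hkp : k < p) (a D : R)
    (h : (1 + π ^ k * a) ^ p = 1 + π ^ (2 * p) * D) : ∃ a' : R, a = π * a' := by
  obtain ⟨q, hq⟩ := one_add_pow_expansion p hp (π ^ k * a)
  rw [hq, hpπ] at h
  rcases Nat.lt_or_ge k 2 with hk2 | hk2
  · obtain rfl : k = 1 := by omega
    obtain ⟨n, rfl⟩ : ∃ n, p = n + 1 := ⟨p - 1, by omega⟩
    apply hred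
    refine ⟨π ^ n * D - η * a * (1 + π * a * q), ?_⟩
    apply pow_mul_cancel π hreg (n + 1)
    linear_combination h
  · obtain ⟨j, rfl⟩ : ∃ j, k = j + 2 := ⟨k - 2, by omega⟩
    obtain ⟨m, rfl⟩ : ∃ m, p = j + 3 + m := ⟨p - (j + 3), by omega⟩
    refine ⟨η' * (π ^ m * D - π ^ (j * j + 3 * j + j * m + m) * a ^ (j + 3 + m)
      - η * π ^ (j + 1) * a ^ 2 * q), ?_⟩
    apply pow_mul_cancel π hreg (j + 3 + m + (j + 2))
    linear_combination η' * h - π ^ (j + 3 + m + (j + 2)) * a * hηη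

/-- **`g ^ p ≡ 1` modulo `p ^ 2` implies `g ≡ 1` modulo `p`** when `p = η π ^ p`, `π` is
regular and `R / π` is reduced. -/
theorem compat_of_red (p : ℕ) (hp : p.Prime) (hp3 : 3 ≤ p) (π η η' : R) (hηη : η * η' = 1)
    (hpπ : (p : R) = η * π ^ p) (hreg : ∀ a b : R, π * a = π * b → a = b)
    (hred : ∀ t : R, (∃ d, t ^ p = π * d) → ∃ d, t = π * d)
    (g D : R) (h : g ^ p = 1 + (p : R) ^ 2 * D) : ∃ a : R, g = 1 + (p : R) * a := by
  obtain ⟨r, hr⟩ := exists_add_pow_prime_eq hp g (-1)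
  have hodd : (-1 : R) ^ p = -1 := Odd.neg_one_pow (hp.odd_of_ne_two (by omega))
  rw [hodd] at hr
  have h0 : ∃ d, (g - 1) ^ p = π * d := by
    refine ⟨η * π ^ (p - 1) * ((p : R) * D - g * r), ?_⟩
    have e : g - 1 = g + -1 := by ring
    have e2 : π ^ p = π ^ (p - 1) * π := by rw [← pow_succ, Nat.sub_add_cancel hp.pos]
    have e3 : (p : R) = π * (η * π ^ (p - 1)) := by rw [hpπ, e2]; ring
    rw [e, hr, h]
    linear_combination ((p : R) * D - g * r) * e3
  obtain ⟨a₁, ha₁⟩ := hred _ h0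
  have key : ∀ k : ℕ, 1 ≤ k → k ≤ p → ∃ a : R, g = 1 + π ^ k * a := by
    intro k hk1
    induction k, hk1 using Nat.le_induction with
    | base => intro _; exact ⟨a₁, by rw [pow_one]; linear_combination ha₁⟩
    | succ k hk ih =>
      intro hkp
      obtain ⟨a, ha⟩ := ih (by omega)
      have h' : (1 + π ^ k * a) ^ p = 1 + π ^ (2 * p) * (η ^ 2 * D) := by
        rw [← ha, h, hpπ]; ring
      obtain ⟨a', ha'⟩ := compat_step p hp hp3 π η η' hηη hpπ hreg hred k hk (by omega) a _ h'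
      exact ⟨a', by rw [ha, ha', pow_succ]; ring⟩
  obtain ⟨a, ha⟩ := key p hp.one_le le_rfl
  refine ⟨η' * a, ?_⟩
  rw [ha, hpπ]
  linear_combination (-(π ^ p * a)) * hηη

end Ring

/-! ### Subrings of a field: `RedPi` and `Compat` -/

section Sub

variable {K : Type*} [Field K]

/-- `C / π C` is reduced (Frobenius form). -/
def RedPi (π : K) (p : ℕ) (C : Subring K) : Prop :=
  ∀ t : K, t ∈ C → (∃ d ∈ C, t ^ p = π * d) → ∃ d ∈ C, t = π * d

/-- `g ^ p ≡ 1` modulo `p ^ 2` implies `g ≡ 1` modulo `p`, in `C`. -/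
def Compat (p : ℕ) (C : Subring K) : Prop :=
  ∀ g : K, g ∈ C → (∃ d ∈ C, g ^ p = 1 + (p : K) ^ 2 * d) → ∃ a ∈ C, g = 1 + (p : K) * a

theorem redPi_locRing {p : ℕ} (hp : 0 < p) {π : K} (hπ0 : π ≠ 0) {C : Subring K}
    (hC : RedPi π p C) (s : K) (hs : s ∈ C) : RedPi π p (locRing C s hs) := by
  rintro t ⟨n, hn⟩ ⟨d, ⟨m, hm⟩, hd⟩
  have h1 : s ^ (n + m) * t ∈ C := pow_mul_mem_of_le hs hn (Nat.le_add_right n m)
  have h2 : ∃ d' ∈ C, (s ^ (n + m) * t) ^ p = π * d' := by
    refine ⟨(s ^ (n + m)) ^ (p - 1) * (s ^ (n + m) * d), ?_, ?_⟩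
    · exact C.mul_mem (C.pow_mem (C.pow_mem hs _) _)
        (pow_mul_mem_of_le hs hm (Nat.le_add_left m n))
    · have h3 : (s ^ (n + m)) ^ p = (s ^ (n + m)) ^ (p - 1) * s ^ (n + m) := by
        rw [← pow_succ, Nat.sub_add_cancel hp]
      rw [mul_pow, h3, hd]; ring
  obtain ⟨d', hd', he⟩ := hC _ h1 h2
  refine ⟨t / π, ⟨n + m, ?_⟩, by field_simp⟩
  have e : s ^ (n + m) * (t / π) = d' := by
    rw [← mul_div_assoc, he, mul_div_cancel_left₀ _ hπ0]
  rw [e]; exact hd'

/-- The unramified case: `RedP` gives `Compat`. -/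
theorem compat_of_redP (p : ℕ) (hp : p.Prime) (hp3 : 3 ≤ p) (C : Subring K) (hred : RedP p C) :
    Compat p C := by
  rintro g hg ⟨d, hd, hgd⟩
  have hpC : (p : K) ∈ C := natCast_mem C p
  obtain ⟨r, hr⟩ := exists_add_pow_prime_eq hp (⟨g, hg⟩ : C) (-1)
  have hodd : (-1 : C) ^ p = -1 := Odd.neg_one_pow (hp.odd_of_ne_two (by omega))
  rw [hodd] at hr
  have hr' := congrArg Subtype.val hr
  push_cast at hr'
  have h1 : ∃ d' ∈ C, (g - 1) ^ p = (p : K) * d' := by
    refine ⟨(p : K) * d - g * (r : K), C.sub_mem (C.mul_mem hpC hd) (C.mul_mem hg r.2), ?_⟩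
    have e : g - 1 = g + -1 := by ring
    rw [e, hr', hgd]; ring
  obtain ⟨a₁, ha₁, h2⟩ := hred (g - 1) (C.sub_mem hg C.one_mem) h1
  exact ⟨a₁, ha₁, by linear_combination h2⟩

/-- The ramified case: `p = η π ^ p`, `η` a unit of `C`, `C / π C` reduced. -/
theorem compat_of_redPi (p : ℕ) (hp : p.Prime) (hp3 : 3 ≤ p) (C : Subring K) (π η : K)
    (hπC : π ∈ C) (hηC : η ∈ C) (hηC' : η⁻¹ ∈ C) (hπ0 : π ≠ 0) (hη0 : η ≠ 0)
    (hpπ : (p : K) = η * π ^ p) (hred : RedPi π p C) : Compat p C := by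
  rintro g hg ⟨d, hd, hgd⟩
  obtain ⟨a, ha⟩ := compat_of_red (R := C) p hp hp3 ⟨π, hπC⟩ ⟨η, hηC⟩ ⟨η⁻¹, hηC'⟩
    (Subtype.ext (by push_cast; exact mul_inv_cancel₀ hη0))
    (Subtype.ext (by push_cast; exact hpπ))
    (fun a b hab => Subtype.ext (mul_left_cancel₀ hπ0 (by
      have h := congrArg Subtype.val hab
      push_cast at h
      exact h)))
    (fun t ⟨d', hd'⟩ => by
      obtain ⟨e, he, hte⟩ := hred (t : K) t.2 ⟨(d' : K), d'.2, by
        have h := congrArg Subtype.val hd'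
        push_cast at h
        exact h⟩
      exact ⟨⟨e, he⟩, Subtype.ext (by push_cast; exact hte)⟩)
    ⟨g, hg⟩ ⟨d, hd⟩ (Subtype.ext (by push_cast; exact hgd))
  refine ⟨a, a.2, ?_⟩
  have h := congrArg Subtype.val ha
  push_cast at h
  exact h

/-- **Two local roots differ by a factor `≡ 1` modulo `p`** (abstract form of
`PthRoot.base_compat`). -/
theorem base_compat_of_compat (p : ℕ) (hp : p.Prime)
    (R : Subring K) (hpow : PowClosed p R) (hc : Compat p R)
    (H G w G' w' : K) (hH : H ≠ 0) (hw : w ∈ R) (hw' : w' ∈ R)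
    (hG : H = G ^ p * (1 + (p : K) ^ 2 * w)) (hG' : H = G' ^ p * (1 + (p : K) ^ 2 * w')) :
    ∃ a₁ ∈ R, G / G' * (1 + (p : K) ^ 2 * w) = 1 + (p : K) * a₁ := by
  have hpR : (p : K) ∈ R := natCast_mem R p
  have hG0 : G' ^ p ≠ 0 := by
    intro h; apply hH; rw [hG', h, zero_mul]
  have hu : (1 + (p : K) ^ 2 * w) ∈ R := R.add_mem R.one_mem (R.mul_mem (R.pow_mem hpR 2) hw)
  have hu' : (1 + (p : K) ^ 2 * w') ∈ R :=
    R.add_mem R.one_mem (R.mul_mem (R.pow_mem hpR 2) hw')
  have epow : (1 + (p : K) ^ 2 * w) ^ p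
      = (1 + (p : K) ^ 2 * w) ^ (p - 1) * (1 + (p : K) ^ 2 * w) := by
    rw [← pow_succ, Nat.sub_add_cancel hp.pos]
  obtain ⟨g, hgdef⟩ : ∃ g : K, g = G / G' * (1 + (p : K) ^ 2 * w) := ⟨_, rfl⟩
  have hgp : g ^ p = (1 + (p : K) ^ 2 * w') * (1 + (p : K) ^ 2 * w) ^ (p - 1) := by
    rw [hgdef, mul_pow, div_pow, div_mul_eq_mul_div, div_eq_iff hG0, epow]
    linear_combination (1 + (p : K) ^ 2 * w) ^ (p - 1) * (hG' - hG)
  have hgR : g ∈ R := hpow g (by rw [hgp]; exact R.mul_mem hu' (R.pow_mem hu _))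
  obtain ⟨k₁, hk₁⟩ : ∃ k₁ : K, k₁ = ∑ i ∈ Finset.range (p - 1), (1 + (p : K) ^ 2 * w) ^ i :=
    ⟨_, rfl⟩
  have hk₁R : k₁ ∈ R := by rw [hk₁]; exact R.sum_mem fun i _ => R.pow_mem hu i
  have hgeom : (1 + (p : K) ^ 2 * w) ^ (p - 1) = 1 + k₁ * ((p : K) ^ 2 * w) := by
    have h := geom_sum_mul (1 + (p : K) ^ 2 * w) (p - 1)
    rw [← hk₁] at h
    linear_combination -h
  obtain ⟨a₁, ha₁, h2⟩ := hc g hgR ⟨w' + k₁ * w + (p : K) ^ 2 * w' * k₁ * w,
    R.add_mem (R.add_mem hw' (R.mul_mem hk₁R hw))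
      (R.mul_mem (R.mul_mem (R.mul_mem (R.pow_mem hpR 2) hw') hk₁R) hw),
    by rw [hgp, hgeom]; ring⟩
  exact ⟨a₁, ha₁, by rw [← hgdef]; exact h2⟩

/-- An idempotent modulo `p` which is `≡ 0` modulo `π` is `≡ 0` modulo `p = η π ^ p`. -/
theorem idem_upgrade (C : Subring K) (p : ℕ) (hp : 0 < p) (π η : K) (hηC' : η⁻¹ ∈ C) (hη0 : η ≠ 0)
    (hpπ : (p : K) = η * π ^ p) (e d w : K) (he : e ∈ C) (hd : d ∈ C) (hw : w ∈ C)
    (hidem : e ^ 2 - e = (p : K) * d) (h0 : e = π * w) : ∃ d' ∈ C, e = (p : K) * d' := by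
  obtain ⟨S, hS⟩ : ∃ S : K, S = ∑ i ∈ Finset.range (p - 1), e ^ i := ⟨_, rfl⟩
  have hSC : S ∈ C := by rw [hS]; exact C.sum_mem fun i _ => C.pow_mem he i
  have hep : e ^ p = π ^ p * w ^ p := by rw [h0, mul_pow]
  have hinv : η * η⁻¹ = 1 := mul_inv_cancel₀ hη0
  have hg : (e ^ 2 - e) * S = e ^ p - e := by
    have h := geom_sum_mul e (p - 1)
    rw [← hS] at h
    have e1 : e ^ p = e ^ (p - 1) * e := by rw [← pow_succ, Nat.sub_add_cancel hp]
    rw [e1]
    linear_combination e * h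
  refine ⟨η⁻¹ * w ^ p - d * S, C.sub_mem (C.mul_mem hηC' (C.pow_mem hw p)) (C.mul_mem hd hSC), ?_⟩
  linear_combination (-(η⁻¹ * w ^ p)) * hpπ - (π ^ p * w ^ p) * hinv + hep - S * hidem + hg

end Sub

/-! ### The gluing lemmas of `PthRoot` over `Compat` -/

section Pair

variable {F L : Type*} [Field F] [Field L] [Algebra F L]

theorem idem_compat_of_compat (p : ℕ) (hp : p.Prime) (hp3 : 3 ≤ p) (hp0 : (p : L) ≠ 0)
    (R : Subring F) (C : Subring L) (hRC : ∀ x ∈ R, algebraMap F L x ∈ C)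
    (hRpow : PowClosed p R) (hRc : Compat p R) (hpow : PowClosed p C) (hquad : QuadClosed C)
    (H G w G' w' : F) (hH : H ≠ 0) (z : L) (hz : z ^ p = algebraMap F L H)
    (hw : w ∈ R) (hw' : w' ∈ R)
    (hG : H = G ^ p * (1 + (p : F) ^ 2 * w)) (hG' : H = G' ^ p * (1 + (p : F) ^ 2 * w')) :
    ∃ d ∈ C, idem p z G' - idem p z G = (p : L) * d := by
  obtain ⟨a₁, ha₁, h1⟩ := base_compat_of_compat p hp R hRpow hRc H G w G' w' hH hw hw' hG hG'
  have hy := y_pow p H G w hH z hz hG
  have hy' := y_pow p H G' w' hH z hz hG'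
  obtain ⟨hyC, -, -⟩ := local_mem p hp hp3 hp0 C hpow hquad _ _ (hRC w hw) hy
  obtain ⟨hyC', -, -⟩ := local_mem p hp hp3 hp0 C hpow hquad _ _ (hRC w' hw') hy'
  have hG0 : G ≠ 0 := by
    rintro rfl
    apply hH; rw [hG, zero_pow hp.ne_zero, zero_mul]
  have hG0' : G' ≠ 0 := by
    rintro rfl
    apply hH; rw [hG', zero_pow hp.ne_zero, zero_mul]
  have hφG : algebraMap F L G ≠ 0 := (map_ne_zero (algebraMap F L)).mpr hG0
  have hφG' : algebraMap F L G' ≠ 0 := (map_ne_zero (algebraMap F L)).mpr hG0'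
  have hGG : z / algebraMap F L G' = algebraMap F L (G / G') * (z / algebraMap F L G) := by
    rw [map_div₀]; field_simp
  have h1' := congrArg (algebraMap F L) h1
  rw [map_mul, map_add, map_one, map_mul, map_pow, map_natCast, map_add, map_one, map_mul,
    map_natCast] at h1'
  have hyy : z / algebraMap F L G' = z / algebraMap F L G + (p : L) *
      (algebraMap F L a₁ * (z / algebraMap F L G)
        - (p : L) * algebraMap F L w * (z / algebraMap F L G')) := by
    rw [hGG]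
    linear_combination (z / algebraMap F L G) * h1'
  exact local_compat_mem p hp hp3 hp0 C hpow hquad _ _ _ _ _ (hRC w hw) (hRC w' hw')
    (C.sub_mem (C.mul_mem (hRC a₁ ha₁) hyC)
      (C.mul_mem (C.mul_mem (natCast_mem C p) (hRC w hw)) hyC')) hy hy' hyy

/-- **Gluing on one chart** (abstract form of `PthRoot.chart_glue`). -/
theorem chart_glue_of_compat (p : ℕ) (hp : p.Prime) (hp3 : 3 ≤ p) (hp0 : (p : L) ≠ 0)
    (B : Subring F) (C : Subring L) (hBC : ∀ x ∈ B, algebraMap F L x ∈ C)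
    (hBpow : PowClosed p B) (hBc : ∀ (s : F) (hs : s ∈ B), Compat p (locRing B s hs))
    (hCpow : PowClosed p C) (hCquad : QuadClosed C)
    (H : F) (hH : H ≠ 0) (z : L) (hz : z ^ p = algebraMap F L H)
    {n : ℕ} (s a G w : Fin n → F) (b : F) (hs : ∀ i, s i ∈ B) (ha : ∀ i, a i ∈ B) (hb : b ∈ B)
    (hcov : ∑ i, a i * s i + (p : F) * b = 1)
    (hw : ∀ i, w i ∈ locRing B (s i) (hs i))
    (hHG : ∀ i, H = G i ^ p * (1 + (p : F) ^ 2 * w i)) :
    ∃ e ∈ C, (∃ d ∈ C, e ^ 2 - e = (p : L) * d) ∧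
      ∀ j, ∃ d ∈ locRing C (algebraMap F L (s j)) (hBC _ (hs j)),
        e - idem p z (G j) = (p : L) * d := by
  have hcov' : ∑ i, algebraMap F L (a i) * algebraMap F L (s i) + (p : L) * algebraMap F L b
      = 1 := by
    have h := congrArg (algebraMap F L) hcov
    rw [map_add, map_sum, map_mul, map_natCast, map_one] at h
    rw [← h]
    congr 1
    exact Finset.sum_congr rfl fun i _ => (map_mul _ _ _).symm
  refine glue_idem C (p : L) (natCast_mem C p) hp0 (fun i => algebraMap F L (s i))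
    (fun i => algebraMap F L (a i)) (algebraMap F L b) (fun i => hBC _ (hs i))
    (fun i => hBC _ (ha i)) (hBC _ hb) hcov' (fun i => idem p z (G i)) ?_ ?_ ?_
  · intro i
    exact (idem_mem p hp hp3 hp0 (locRing B (s i) (hs i)) _
      (fun x hx => map_mem_locRing hBC (hs i) hx)
      (powClosed_locRing hp.pos hCpow _ _) (quadClosed_locRing hCquad _ _) H (G i) (w i) hH z hz
      (hw i) (hHG i)).1
  · intro i
    exact (idem_mem p hp hp3 hp0 (locRing B (s i) (hs i)) _
      (fun x hx => map_mem_locRing hBC (hs i) hx)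
      (powClosed_locRing hp.pos hCpow _ _) (quadClosed_locRing hCquad _ _) H (G i) (w i) hH z hz
      (hw i) (hHG i)).2
  · intro i j
    exact idem_compat_of_compat p hp hp3 hp0 (locRing B (s i * s j) (B.mul_mem (hs i) (hs j))) _
      (fun x hx => map_mem_locRing_mul hBC (hs i) (hs j) hx)
      (powClosed_locRing hp.pos hBpow _ _) (hBc _ _)
      (powClosed_locRing hp.pos hCpow _ _) (quadClosed_locRing hCquad _ _) H (G i) (w i) (G j)
      (w j) hH z hz (locRing_le_mul_left B _ _ (hs i) (hs j) (hw i))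
      (locRing_le_mul_right B _ _ (hs i) (hs j) (hw j)) (hHG i) (hHG j)

/-- **The two glued idempotents agree modulo `p` on the overlap** (abstract form of
`PthRoot.overlap_glue`). -/
theorem overlap_glue_of_compat (p : ℕ) (hp : p.Prime) (hp3 : 3 ≤ p) (hp0 : (p : L) ≠ 0)
    (B0 B1 B01 : Subring F) (C0 C1 C01 : Subring L) (hB0 : B0 ≤ B01) (hB1 : B1 ≤ B01)
    (hC0 : C0 ≤ C01) (hC1 : C1 ≤ C01)
    (hBC0 : ∀ x ∈ B0, algebraMap F L x ∈ C0) (hBC1 : ∀ x ∈ B1, algebraMap F L x ∈ C1)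
    (hBC01 : ∀ x ∈ B01, algebraMap F L x ∈ C01)
    (hBpow : PowClosed p B01) (hBc : ∀ (s : F) (hs : s ∈ B01), Compat p (locRing B01 s hs))
    (hCpow : PowClosed p C01) (hCquad : QuadClosed C01)
    (H : F) (hH : H ≠ 0) (z : L) (hz : z ^ p = algebraMap F L H)
    {n : ℕ} (s a G w : Fin n → F) (b : F) (hs : ∀ i, s i ∈ B0) (ha : ∀ i, a i ∈ B0)
    (hb : b ∈ B0) (hcov : ∑ i, a i * s i + (p : F) * b = 1)
    (hw : ∀ i, w i ∈ locRing B0 (s i) (hs i))
    (hHG : ∀ i, H = G i ^ p * (1 + (p : F) ^ 2 * w i))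
    {n' : ℕ} (s' a' G' w' : Fin n' → F) (b' : F) (hs' : ∀ i, s' i ∈ B1) (ha' : ∀ i, a' i ∈ B1)
    (hb' : b' ∈ B1) (hcov' : ∑ i, a' i * s' i + (p : F) * b' = 1)
    (hw' : ∀ i, w' i ∈ locRing B1 (s' i) (hs' i))
    (hHG' : ∀ i, H = G' i ^ p * (1 + (p : F) ^ 2 * w' i))
    (e0 e1 : L) (he0 : e0 ∈ C0) (he1 : e1 ∈ C1)
    (hloc0 : ∀ j, ∃ d ∈ locRing C0 (algebraMap F L (s j)) (hBC0 _ (hs j)),
        e0 - idem p z (G j) = (p : L) * d)
    (hloc1 : ∀ j, ∃ d ∈ locRing C1 (algebraMap F L (s' j)) (hBC1 _ (hs' j)),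
        e1 - idem p z (G' j) = (p : L) * d) :
    ∃ d ∈ C01, e0 - e1 = (p : L) * d := by
  refine ⟨(e0 - e1) / (p : L), ?_, by field_simp⟩
  -- the product cover
  have hc0 : ∑ i, algebraMap F L (a i) * algebraMap F L (s i) + (p : L) * algebraMap F L b
      = 1 := by
    have h := congrArg (algebraMap F L) hcov
    rw [map_add, map_sum, map_mul, map_natCast, map_one] at h
    rw [← h]
    congr 1
    exact Finset.sum_congr rfl fun i _ => (map_mul _ _ _).symm
  have hc1 : ∑ i, algebraMap F L (a' i) * algebraMap F L (s' i) + (p : L) * algebraMap F L b'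
      = 1 := by
    have h := congrArg (algebraMap F L) hcov'
    rw [map_add, map_sum, map_mul, map_natCast, map_one] at h
    rw [← h]
    congr 1
    exact Finset.sum_congr rfl fun i _ => (map_mul _ _ _).symm
  have hprod : ∑ x : Fin n × Fin n', (algebraMap F L (a x.1) * algebraMap F L (a' x.2))
        * (algebraMap F L (s x.1) * algebraMap F L (s' x.2))
      + (p : L) * (algebraMap F L b + algebraMap F L b'
        - (p : L) * algebraMap F L b * algebraMap F L b') = 1 := by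
    have e : ∑ x : Fin n × Fin n', (algebraMap F L (a x.1) * algebraMap F L (a' x.2))
        * (algebraMap F L (s x.1) * algebraMap F L (s' x.2))
        = (∑ i, algebraMap F L (a i) * algebraMap F L (s i))
          * ∑ j, algebraMap F L (a' j) * algebraMap F L (s' j) := by
      rw [Fintype.sum_prod_type, Finset.sum_mul_sum]
      exact Finset.sum_congr rfl fun i _ => Finset.sum_congr rfl fun j _ => by ring
    rw [e]
    linear_combination (∑ j, algebraMap F L (a' j) * algebraMap F L (s' j)) * hc0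
      + (1 - (p : L) * algebraMap F L b) * hc1
  have hpC : (p : L) ∈ C01 := natCast_mem C01 p
  refine mem_of_cover C01 (p : L) hpC
    (fun x : Fin n × Fin n' => algebraMap F L (s x.1) * algebraMap F L (s' x.2))
    (fun x => algebraMap F L (a x.1) * algebraMap F L (a' x.2))
    (algebraMap F L b + algebraMap F L b' - (p : L) * algebraMap F L b * algebraMap F L b')
    (fun x => C01.mul_mem (hC0 (hBC0 _ (hs x.1))) (hC1 (hBC1 _ (hs' x.2))))
    (fun x => C01.mul_mem (hC0 (hBC0 _ (ha x.1))) (hC1 (hBC1 _ (ha' x.2))))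
    (C01.sub_mem (C01.add_mem (hC0 (hBC0 _ hb)) (hC1 (hBC1 _ hb')))
      (C01.mul_mem (C01.mul_mem hpC (hC0 (hBC0 _ hb))) (hC1 (hBC1 _ hb'))))
    hprod _ ?_ ?_
  · rintro ⟨i, j⟩
    obtain ⟨d0, hd0, hde0⟩ := hloc0 i
    obtain ⟨d1, hd1, hde1⟩ := hloc1 j
    have hsi : s i ∈ B01 := hB0 (hs i)
    have hsj : s' j ∈ B01 := hB1 (hs' j)
    obtain ⟨d2, hd2, hde2⟩ := idem_compat_of_compat p hp hp3 hp0
      (locRing B01 (s i * s' j) (B01.mul_mem hsi hsj)) _
      (fun x hx => map_mem_locRing_mul hBC01 hsi hsj hx)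
      (powClosed_locRing hp.pos hBpow _ _) (hBc _ _)
      (powClosed_locRing hp.pos hCpow _ _) (quadClosed_locRing hCquad _ _) H (G i) (w i) (G' j)
      (w' j) hH z hz
      (locRing_le_mul_left B01 _ _ hsi hsj (locRing_mono hB0 _ (hs i) (hw i)))
      (locRing_le_mul_right B01 _ _ hsi hsj (locRing_mono hB1 _ (hs' j) (hw' j))) (hHG i) (hHG' j)
    have e : (e0 - e1) / (p : L) = d0 - d1 - d2 := by
      rw [div_eq_iff hp0]
      linear_combination hde0 - hde1 - hde2
    rw [e]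
    refine Subring.sub_mem _ (Subring.sub_mem _ ?_ ?_) hd2
    · exact locRing_le_mul_left C01 _ _ (hBC01 _ hsi) (hBC01 _ hsj)
        (locRing_mono hC0 _ (hBC0 _ (hs i)) hd0)
    · exact locRing_le_mul_right C01 _ _ (hBC01 _ hsi) (hBC01 _ hsj)
        (locRing_mono hC1 _ (hBC1 _ (hs' j)) hd1)
  · rw [mul_div_cancel₀ _ hp0]
    exact C01.sub_mem (hC0 he0) (hC1 he1)

end Pair

/-! ### The main theorem over a ramified base -/

section Main

variable {O F L : Type*} [CommRing O] [Field F] [Field L] [Algebra O F] [Algebra F L]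
  [Algebra O L] [IsScalarTower O F L]

/-- Reducedness of the fibre at `π` passes from the chart `O[u]` to the overlap
`O[u, u⁻¹]`. -/
theorem redPi_overlap (p : ℕ) (hp : 0 < p) (π : F) (hπ0 : π ≠ 0) (u : F) (hu : u ≠ 0)
    (hred : RedPi π p (chartRing (Algebra.adjoin O ({u} : Set F)))) :
    RedPi π p (chartRing (Algebra.adjoin O ({u, u⁻¹} : Set F))) := by
  rintro t ht ⟨d, hd, hde⟩
  obtain ⟨n, hn⟩ := CechP1.exists_pow_mul_isIntegral u hu t ht
  obtain ⟨m, hm⟩ := CechP1.exists_pow_mul_isIntegral u hu d hd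
  have huB : u ∈ chartRing (Algebra.adjoin O ({u} : Set F)) :=
    CechP1.isIntegral_adjoin_of_mem (Algebra.subset_adjoin (Set.mem_singleton u))
  have h1 : u ^ (n + m) * t ∈ chartRing (Algebra.adjoin O ({u} : Set F)) :=
    pow_mul_mem_of_le huB hn (Nat.le_add_right n m)
  have h2 : ∃ d' ∈ chartRing (Algebra.adjoin O ({u} : Set F)),
      (u ^ (n + m) * t) ^ p = π * d' := by
    refine ⟨(u ^ (n + m)) ^ (p - 1) * (u ^ (n + m) * d), ?_, ?_⟩
    · exact Subring.mul_mem _ (Subring.pow_mem _ (Subring.pow_mem _ huB _) _)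
        (pow_mul_mem_of_le huB hm (Nat.le_add_left m n))
    · have h3 : (u ^ (n + m)) ^ p = (u ^ (n + m)) ^ (p - 1) * u ^ (n + m) := by
        rw [← pow_succ, Nat.sub_add_cancel hp]
      rw [mul_pow, h3, hde]; ring
  obtain ⟨d', hd', he⟩ := hred _ h1 h2
  refine ⟨t / π, ?_, by field_simp⟩
  have e : t / π = u⁻¹ ^ (n + m) * d' := by
    have h4 : u ^ (n + m) * (t / π) = d' := by
      rw [← mul_div_assoc, he, mul_div_cancel_left₀ _ hπ0]
    rw [← h4, ← mul_assoc, ← mul_pow, inv_mul_cancel₀ hu, one_pow, one_mul]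
  rw [e]
  refine Subring.mul_mem _ (Subring.pow_mem _ ?_ _)
    (chartRing_mono (Algebra.adjoin_mono (by simp)) hd')
  exact CechP1.isIntegral_adjoin_of_mem (Algebra.subset_adjoin (by simp))

/-- **Local `p`-th powers are global, ramified base.**  `O` noetherian, `π` a prime element,
`p = η π ^ p` with `η` a unit; `F` a field over `O` whose normal model over `P¹_O` (charts:
integral closures of `O[u]`, `O[u⁻¹]`) has reduced fibre at `π` (`hred0`, `hredinf`); `H : F`
locally of the form `G ^ p * (1 + p ^ 2 * w)` near every point of the fibre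
(`PthRoot.LocalPow` on both charts).  If a field `L ⊇ F` contains a `p`-th root of `H`, has no
new constants (`hOL`) and a finite chart, then `H` is a `p`-th power in `F`. -/
theorem exists_pow_eq_of_localPow_ram [IsNoetherianRing O] (p : ℕ) (hp : p.Prime) (hp3 : 3 ≤ p)
    (π η : O) (hπ : Prime π) (hη : IsUnit η) (hpπ : (p : O) = η * π ^ p)
    (hinj : Function.Injective (algebraMap O L))
    (hOL : ∀ x : L, IsIntegral O x → ∃ a : O, algebraMap O L a = x)
    (u : F) (hu : u ≠ 0)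
    [Module.Finite (Algebra.adjoin O ({algebraMap F L u} : Set L))
      (integralClosure (Algebra.adjoin O ({algebraMap F L u} : Set L)) L)]
    (hred0 : ∀ x : F, IsIntegral (Algebra.adjoin O ({u} : Set F)) x →
      IsIntegral (Algebra.adjoin O ({u} : Set F)) (x ^ p / algebraMap O F π) →
      IsIntegral (Algebra.adjoin O ({u} : Set F)) (x / algebraMap O F π))
    (hredinf : ∀ x : F, IsIntegral (Algebra.adjoin O ({u⁻¹} : Set F)) x →
      IsIntegral (Algebra.adjoin O ({u⁻¹} : Set F)) (x ^ p / algebraMap O F π) →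
      IsIntegral (Algebra.adjoin O ({u⁻¹} : Set F)) (x / algebraMap O F π))
    (H : F) (z : L) (hz : z ^ p = algebraMap F L H)
    (h0 : LocalPow (Algebra.adjoin O ({u} : Set F)) p H)
    (hinf : LocalPow (Algebra.adjoin O ({u⁻¹} : Set F)) p H) :
    ∃ g : F, H = g ^ p := by
  by_contra hcon
  push Not at hcon
  have hH : H ≠ 0 := fun h => hcon 0 (by rw [h, zero_pow hp.ne_zero])
  obtain ⟨η', hηη⟩ := hη.exists_right_inv
  have hinjF : Function.Injective (algebraMap O F) := by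
    intro a b hab
    apply hinj
    rw [IsScalarTower.algebraMap_apply O F L, IsScalarTower.algebraMap_apply O F L, hab]
  have hπF : algebraMap O F π ≠ 0 := fun h => hπ.ne_zero (hinjF (by rw [h, map_zero]))
  have hπL : algebraMap O L π ≠ 0 := fun h => hπ.ne_zero (hinj (by rw [h, map_zero]))
  have hηF : algebraMap O F η ≠ 0 := by
    intro h
    have h1 : algebraMap O F (η * η') = 0 := by rw [map_mul, h, zero_mul]
    rw [hηη, map_one] at h1
    exact one_ne_zero h1
  have hηL : algebraMap O L η ≠ 0 := by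
    intro h
    have h1 : algebraMap O L (η * η') = 0 := by rw [map_mul, h, zero_mul]
    rw [hηη, map_one] at h1
    exact one_ne_zero h1
  have hηF' : (algebraMap O F η)⁻¹ = algebraMap O F η' :=
    inv_eq_of_mul_eq_one_right (by rw [← map_mul, hηη, map_one])
  have hηL' : (algebraMap O L η)⁻¹ = algebraMap O L η' :=
    inv_eq_of_mul_eq_one_right (by rw [← map_mul, hηη, map_one])
  have hpπF : (p : F) = algebraMap O F η * algebraMap O F π ^ p := by
    rw [← map_pow, ← map_mul, ← hpπ, map_natCast]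
  have hpπL : (p : L) = algebraMap O L η * algebraMap O L π ^ p := by
    rw [← map_pow, ← map_mul, ← hpπ, map_natCast]
  have hpF : (p : F) ≠ 0 := by rw [hpπF]; exact mul_ne_zero hηF (pow_ne_zero _ hπF)
  have hpL : (p : L) ≠ 0 := by rw [hpπL]; exact mul_ne_zero hηL (pow_ne_zero _ hπL)
  have hφu : algebraMap F L u ≠ 0 := (map_ne_zero (algebraMap F L)).mpr hu
  -- comparison of the charts of `F` and `L`
  have hBC0 : ∀ x ∈ chartRing (Algebra.adjoin O ({u} : Set F)),
      algebraMap F L x ∈ chartRing (Algebra.adjoin O ({algebraMap F L u} : Set L)) := by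
    intro x hx
    have h := bridge_up (L := L) ({u} : Set F) (mem_chartRing.mp hx)
    rw [Set.image_singleton] at h
    exact h
  have hBC1 : ∀ x ∈ chartRing (Algebra.adjoin O ({u⁻¹} : Set F)),
      algebraMap F L x ∈ chartRing (Algebra.adjoin O ({(algebraMap F L u)⁻¹} : Set L)) := by
    intro x hx
    have h := bridge_up (L := L) ({u⁻¹} : Set F) (mem_chartRing.mp hx)
    rw [Set.image_singleton, map_inv₀] at h
    exact h
  have hBC01 : ∀ x ∈ chartRing (Algebra.adjoin O ({u, u⁻¹} : Set F)),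
      algebraMap F L x
        ∈ chartRing (Algebra.adjoin O ({algebraMap F L u, (algebraMap F L u)⁻¹} : Set L)) := by
    intro x hx
    have h := bridge_up (L := L) ({u, u⁻¹} : Set F) (mem_chartRing.mp hx)
    rw [Set.image_pair, map_inv₀] at h
    exact h
  have hdown0 : ∀ c : L, c ∈ chartRing (Algebra.adjoin O ({algebraMap F L u} : Set L)) →
      IsIntegral (Algebra.adjoin O ({u} : Set F)) c := by
    intro c hc
    refine bridge_down ({u} : Set F) ?_
    rw [Set.image_singleton]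
    exact hc
  have hdown1 : ∀ c : L, c ∈ chartRing (Algebra.adjoin O ({(algebraMap F L u)⁻¹} : Set L)) →
      IsIntegral (Algebra.adjoin O ({u⁻¹} : Set F)) c := by
    intro c hc
    refine bridge_down ({u⁻¹} : Set F) ?_
    rw [Set.image_singleton, map_inv₀]
    exact hc
  -- reducedness at `π`
  have hB0red : RedPi (algebraMap O F π) p (chartRing (Algebra.adjoin O ({u} : Set F))) := by
    rintro t ht ⟨d, hd, hde⟩
    refine ⟨t / algebraMap O F π, hred0 t ht ?_, by field_simp⟩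
    rw [hde, mul_div_cancel_left₀ _ hπF]; exact hd
  have hB1red : RedPi (algebraMap O F π) p (chartRing (Algebra.adjoin O ({u⁻¹} : Set F))) := by
    rintro t ht ⟨d, hd, hde⟩
    refine ⟨t / algebraMap O F π, hredinf t ht ?_, by field_simp⟩
    rw [hde, mul_div_cancel_left₀ _ hπF]; exact hd
  have hB01red := redPi_overlap (O := O) p hp.pos _ hπF u hu hB0red
  -- `Compat` on all localisations of the three chart rings
  have hcompat : ∀ (S : Subalgebra O F), RedPi (algebraMap O F π) p (chartRing S) →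
      ∀ (s : F) (hs : s ∈ chartRing S), Compat p (locRing (chartRing S) s hs) := by
    intro S hS s hs
    refine compat_of_redPi p hp hp3 _ (algebraMap O F π) (algebraMap O F η)
      (le_locRing _ _ _ (algebraMap_mem_chartRing S π))
      (le_locRing _ _ _ (algebraMap_mem_chartRing S η)) ?_ hπF hηF hpπF
      (redPi_locRing hp.pos hπF hS s hs)
    rw [hηF']
    exact le_locRing _ _ _ (algebraMap_mem_chartRing S η')
  -- the local data
  obtain ⟨n, s, a, G, w, b, hs, ha, hb, hcov, hw, hHG⟩ := h0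
  obtain ⟨n', s', a', G', w', b', hs', ha', hb', hcov', hw', hHG'⟩ := hinf
  -- gluing on the two charts
  obtain ⟨e0, he0, ⟨d0, hd0, hd0e⟩, hloc0⟩ := chart_glue_of_compat p hp hp3 hpL _ _ hBC0
    (powClosed_chartRing _ hp.pos) (hcompat _ hB0red) (powClosed_chartRing _ hp.pos)
    (quadClosed_chartRing _) H hH z hz s a G w b hs ha hb hcov hw hHG
  obtain ⟨e1, he1, ⟨d1, hd1, hd1e⟩, hloc1⟩ := chart_glue_of_compat p hp hp3 hpL _ _ hBC1
    (powClosed_chartRing _ hp.pos) (hcompat _ hB1red) (powClosed_chartRing _ hp.pos)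
    (quadClosed_chartRing _) H hH z hz s' a' G' w' b' hs' ha' hb' hcov' hw' hHG'
  -- the overlap
  obtain ⟨d01, hd01, hd01e⟩ := overlap_glue_of_compat p hp hp3 hpL
    (chartRing (Algebra.adjoin O ({u} : Set F))) (chartRing (Algebra.adjoin O ({u⁻¹} : Set F)))
    (chartRing (Algebra.adjoin O ({u, u⁻¹} : Set F)))
    (chartRing (Algebra.adjoin O ({algebraMap F L u} : Set L)))
    (chartRing (Algebra.adjoin O ({(algebraMap F L u)⁻¹} : Set L)))
    (chartRing (Algebra.adjoin O ({algebraMap F L u, (algebraMap F L u)⁻¹} : Set L)))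
    (chartRing_mono (Algebra.adjoin_mono (by simp)))
    (chartRing_mono (Algebra.adjoin_mono (by simp)))
    (chartRing_mono (Algebra.adjoin_mono (by simp)))
    (chartRing_mono (Algebra.adjoin_mono (by simp)))
    hBC0 hBC1 hBC01 (powClosed_chartRing _ hp.pos) (hcompat _ hB01red)
    (powClosed_chartRing _ hp.pos)
    (quadClosed_chartRing _) H hH z hz s a G w b hs ha hb hcov hw hHG
    s' a' G' w' b' hs' ha' hb' hcov' hw' hHG' e0 e1 he0 he1 hloc0 hloc1
  -- from `p` to `π`: `p = π * (η π ^ (p - 1))`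
  have hpπL' : (p : L) = algebraMap O L π * algebraMap O L (η * π ^ (p - 1)) := by
    rw [hpπL, map_mul, map_pow]
    have e2 : algebraMap O L π ^ p = algebraMap O L π ^ (p - 1) * algebraMap O L π := by
      rw [← pow_succ, Nat.sub_add_cancel hp.pos]
    rw [e2]; ring
  have hmodπ : ∀ (T : Subalgebra O L) (x d : L), d ∈ chartRing T → x = (p : L) * d →
      ∃ w, IsIntegral T w ∧ x = algebraMap O L π * w := by
    intro T x d hd hx
    refine ⟨algebraMap O L (η * π ^ (p - 1)) * d,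
      mem_chartRing.mp (Subring.mul_mem _ (algebraMap_mem_chartRing T _) hd), ?_⟩
    rw [hx, hpπL']; ring
  -- connectedness of the fibre of the model of `L`, at the prime `π`
  have hconn := CechP1.connected π hπ hinj hOL (algebraMap F L u) hφu
    (CechP1.hfin_of_finite (algebraMap F L u)) e0 e1 he0 he1
    (hmodπ _ _ d0 hd0 hd0e) (hmodπ _ _ d1 hd1 hd1e) (hmodπ _ _ d01 hd01 hd01e)
  -- upgrade from `π` to `p`
  have hup : ∀ (T : Subalgebra O L) (e d : L), e ∈ chartRing T → d ∈ chartRing T →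
      e ^ 2 - e = (p : L) * d →
      ((∃ w, IsIntegral T w ∧ e = algebraMap O L π * w) → ∃ d' ∈ chartRing T, e = (p : L) * d') ∧
      ((∃ w, IsIntegral T w ∧ e - 1 = algebraMap O L π * w) →
        ∃ d' ∈ chartRing T, e - 1 = (p : L) * d') := by
    intro T e d he hd hidem
    have hη'T : (algebraMap O L η)⁻¹ ∈ chartRing T := by
      rw [hηL']; exact algebraMap_mem_chartRing T η'
    constructor
    · rintro ⟨w, hw, hew⟩
      exact idem_upgrade (chartRing T) p hp.pos (algebraMap O L π) (algebraMap O L η) hη'T hηL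
        hpπL e d w he hd (mem_chartRing.mpr hw) hidem hew
    · rintro ⟨w, hw, hew⟩
      obtain ⟨d', hd', hde'⟩ := idem_upgrade (chartRing T) p hp.pos (algebraMap O L π)
        (algebraMap O L η) hη'T hηL hpπL (1 - e) d (-w)
        (Subring.sub_mem _ (Subring.one_mem _) he) hd
        (Subring.neg_mem _ (mem_chartRing.mpr hw)) (by linear_combination hidem)
        (by linear_combination -hew)
      exact ⟨-d', Subring.neg_mem _ hd', by linear_combination -hde'⟩
  have hup0 := hup _ e0 d0 he0 hd0 hd0e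
  have hup1 := hup _ e1 d1 he1 hd1 hd1e
  -- the trace
  have key : (p : F)⁻¹ ∈ chartRing (Algebra.adjoin O ({u} : Set F)) ∧
      (p : F)⁻¹ ∈ chartRing (Algebra.adjoin O ({u⁻¹} : Set F)) := by
    rcases hconn with ⟨h0', h1'⟩ | ⟨h0', h1'⟩
    · exact ⟨chart_trace p hp hpL _ _ hBC0 hdown0 H hcon z hz s a G w b hs ha hb hcov hw hHG e0
          hloc0 (Or.inl (hup0.1 h0')),
        chart_trace p hp hpL _ _ hBC1 hdown1 H hcon z hz s' a' G' w' b' hs' ha' hb' hcov' hw'
          hHG' e1 hloc1 (Or.inl (hup1.1 h1'))⟩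
    · exact ⟨chart_trace p hp hpL _ _ hBC0 hdown0 H hcon z hz s a G w b hs ha hb hcov hw hHG e0
          hloc0 (Or.inr (hup0.2 h0')),
        chart_trace p hp hpL _ _ hBC1 hdown1 H hcon z hz s' a' G' w' b' hs' ha' hb' hcov' hw'
          hHG' e1 hloc1 (Or.inr (hup1.2 h1'))⟩
  -- `1 / p` is a constant: absurd
  have hint : IsIntegral O (algebraMap F L (p : F)⁻¹) :=
    CechP1.isIntegral_of_two_charts (algebraMap F L u) hφu _ (hBC0 _ key.1) (hBC1 _ key.2)
  obtain ⟨c, hc⟩ := hOL _ hint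
  have h1 : algebraMap O L ((p : O) * c) = algebraMap O L 1 := by
    rw [map_mul, hc, map_natCast, map_inv₀, map_natCast, map_one, mul_inv_cancel₀ hpL]
  have hpu : IsUnit (p : O) := IsUnit.of_mul_eq_one _ (hinj h1)
  rw [hpπ] at hpu
  have hπu : IsUnit (π ^ p) := isUnit_of_mul_isUnit_right hpu
  exact hπ.not_isUnit ((isUnit_pow_iff hp.ne_zero).mp hπu)

/-- **The ramified exit with pointwise hypotheses**: at every maximal ideal `𝔪 ∋ p` of the two
chart rings of `F`, the datum `PthPoint.PowAt`. -/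
theorem exists_pow_eq_of_pointwise_ram [IsNoetherianRing O] (p : ℕ) (hp : p.Prime) (hp3 : 3 ≤ p)
    (π η : O) (hπ : Prime π) (hη : IsUnit η) (hpπ : (p : O) = η * π ^ p)
    (hinj : Function.Injective (algebraMap O L))
    (hOL : ∀ x : L, IsIntegral O x → ∃ a : O, algebraMap O L a = x)
    (u : F) (hu : u ≠ 0)
    [Module.Finite (Algebra.adjoin O ({algebraMap F L u} : Set L))
      (integralClosure (Algebra.adjoin O ({algebraMap F L u} : Set L)) L)]
    (hred0 : ∀ x : F, IsIntegral (Algebra.adjoin O ({u} : Set F)) x →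
      IsIntegral (Algebra.adjoin O ({u} : Set F)) (x ^ p / algebraMap O F π) →
      IsIntegral (Algebra.adjoin O ({u} : Set F)) (x / algebraMap O F π))
    (hredinf : ∀ x : F, IsIntegral (Algebra.adjoin O ({u⁻¹} : Set F)) x →
      IsIntegral (Algebra.adjoin O ({u⁻¹} : Set F)) (x ^ p / algebraMap O F π) →
      IsIntegral (Algebra.adjoin O ({u⁻¹} : Set F)) (x / algebraMap O F π))
    (H : F) (z : L) (hz : z ^ p = algebraMap F L H)
    (h0 : ∀ 𝔪 : Ideal (integralClosure (Algebra.adjoin O ({u} : Set F)) F), 𝔪.IsMaximal →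
      (p : integralClosure (Algebra.adjoin O ({u} : Set F)) F) ∈ 𝔪 →
      PthPoint.PowAt (Algebra.adjoin O ({u} : Set F)) p H 𝔪)
    (hinf : ∀ 𝔪 : Ideal (integralClosure (Algebra.adjoin O ({u⁻¹} : Set F)) F), 𝔪.IsMaximal →
      (p : integralClosure (Algebra.adjoin O ({u⁻¹} : Set F)) F) ∈ 𝔪 →
      PthPoint.PowAt (Algebra.adjoin O ({u⁻¹} : Set F)) p H 𝔪) :
    ∃ g : F, H = g ^ p :=
  exists_pow_eq_of_localPow_ram p hp hp3 π η hπ hη hpπ hinj hOL u hu hred0 hredinf H z hz
    (PthPoint.localPow_of_pointwise _ p H h0) (PthPoint.localPow_of_pointwise _ p H hinf)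

end Main

end Fermat.Agent.S44.L.PthRootRam
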