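import Mathlib
import Fermat.Agent.S44.L.PthRoot
import Fermat.Agent.S44.L.PthPoint
import Fermat.Agent.S44.L.PthRootRam

/-!
# PROGRAM MR (S44), strand L: the ramified exit with pointwise data of depth `p + 2`

Level-free (Mathlib + `S44/L/PthRoot` + `PthPoint` + `PthRootRam`), helper126.  Companion of the
ramified exit `PthRootRam.exists_pow_eq_of_pointwise_ram` and of `DepthHensel` (helper253):
over a base with `p = η π ^ p`, `η` a unit, a local `p`-th power of depth `d ≥ p + 2`,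
`H = G ^ p * (1 + π ^ d * w)` with `w` regular at a closed point `𝔪` of the fibre
(`s * w` in the chart for some chart element `s ∉ 𝔪`: no model of the local ring is asked of
the consumer), has the landed shape `PthPoint.PowAt`.  The Hensel step is an identity, iterated
finitely often; there is no completion:

  `(1 + π ^ (d - p) * w / η) ^ p = 1 + π ^ d * w + π ^ (d + 1) * v`        (`d ≥ p + 2`, `p ≥ 3`).

* `depth_identity`, `depth_step`, `depth_iter`, `exists_sq_form` : in a commutative ring in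
  which every `1 + π a` is a unit.
* `hensel_local` : the same in a local ring `A` mapping to a field.
* `locAt` : the local ring of the chart at a prime, as a subring of the field.
* `PowAtDepth`, `PowAtRam` (depth `p + 2`), `powAtDepth_mono`, `powAt_of_powAtDepth`,
  `powAt_of_powAtRam`.
* `powAtDepth_of_atPrime`, `powAtRam_of_atPrime` : from a local root whose `w` lies in a model of
  the local ring of the chart.
* `exists_pow_eq_of_powAtRam`, `exists_pow_eq_of_powAtDepth` : the ramified exit with pointwise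
  data of depth `p + 2` (resp. any depths `≥ p + 2`).
-/

set_option autoImplicit false

namespace Fermat.Agent.S44.L.DepthHenselExit

open Polynomial Fermat.Agent.S44.L.PthRoot Fermat.Agent.S44.L.PthPoint

/-! ### The Hensel step in a ring -/

section Ring

variable {R : Type*} [CommRing R]

/-- **The Hensel step as an identity**: for `d ≥ p + 2`,
`(1 + π^(d-p) w/η)^p = 1 + π^d w + π^(d+1) v`. -/
theorem depth_identity (p : ℕ) (hp : p.Prime) (hp3 : 3 ≤ p) (ϖ η η' : R) (hηη' : η * η' = 1)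
    (hpϖ : (p : R) = η * ϖ ^ p) (d : ℕ) (hd : p + 2 ≤ d) (w : R) :
    ∃ v : R, (1 + ϖ ^ (d - p) * (η' * w)) ^ p = 1 + ϖ ^ d * w + ϖ ^ (d + 1) * v := by
  obtain ⟨m, rfl⟩ := Nat.exists_eq_add_of_le hd
  have em : p + 2 + m - p = 2 + m := by omega
  rw [em]
  obtain ⟨r₁, hr⟩ := exists_geom_expansion p hp
  obtain ⟨y, hy⟩ : ∃ y : R, y = 1 + ϖ ^ (2 + m) * (η' * w) := ⟨_, rfl⟩
  rw [← hy]
  have hA := geom_expansion_eval p r₁ hr y
  have hgeo := geom_sum_mul y p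
  obtain ⟨A₁, hA₁⟩ : ∃ A₁ : R, A₁ = aeval (y - 1) r₁ := ⟨_, rfl⟩
  rw [← hA₁] at hA
  have hy1 : y - 1 = ϖ ^ (2 + m) * (η' * w) := by rw [hy]; ring
  rw [hy1] at hA
  have epow : (ϖ ^ (2 + m) * (η' * w)) ^ p
      = (ϖ ^ (2 + m) * (η' * w)) ^ (p - 1) * (ϖ ^ (2 + m) * (η' * w)) := by
    rw [← pow_succ, Nat.sub_add_cancel hp.pos]
  -- `y^p = 1 + X^p + p X (1 + X A₁)`, `X = π^(2+m) η' w`
  have h1 : y ^ p = 1 + (ϖ ^ (2 + m) * (η' * w)) ^ p
      + (p : R) * (ϖ ^ (2 + m) * (η' * w)) * (1 + ϖ ^ (2 + m) * (η' * w) * A₁) := by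
    have h2 : y ^ p - 1 = ((ϖ ^ (2 + m) * (η' * w)) ^ (p - 1)
        + (p : R) * (1 + ϖ ^ (2 + m) * (η' * w) * A₁)) * (ϖ ^ (2 + m) * (η' * w)) := by
      rw [← hA, ← hy1, hgeo]
    rw [epow]
    linear_combination h2
  -- exponents
  have hle : p + 2 + m + 1 ≤ (2 + m) * p := by nlinarith
  obtain ⟨j, hj⟩ := Nat.exists_eq_add_of_le hle
  have e1 : (ϖ ^ (2 + m)) ^ p = ϖ ^ (p + 2 + m) * ϖ * ϖ ^ j := by
    rw [← pow_mul, ← pow_succ, ← pow_add, hj]
  have e2 : ϖ ^ (p + 2 + m) = ϖ ^ p * ϖ ^ (2 + m) := by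
    rw [← pow_add]; congr 1; omega
  have e3 : ϖ ^ (p + 2 + m + 1) = ϖ ^ (p + 2 + m) * ϖ := pow_succ _ _
  have e4 : ϖ ^ (2 + m) = ϖ * ϖ ^ (1 + m) := by
    rw [← pow_succ']; congr 1; omega
  refine ⟨ϖ ^ j * (η' * w) ^ p + ϖ ^ (1 + m) * (η' * w) * A₁ * w, ?_⟩
  have e5 : (p : R) * (ϖ ^ (2 + m) * (η' * w)) = ϖ ^ (p + 2 + m) * w := by
    rw [hpϖ, e2]
    linear_combination (ϖ ^ p * ϖ ^ (2 + m) * w) * hηη'
  rw [h1, mul_pow, e1, e5, e3]
  have e6 : ϖ ^ (p + 2 + m) * w * (1 + ϖ ^ (2 + m) * (η' * w) * A₁)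
      = ϖ ^ (p + 2 + m) * w + ϖ ^ (p + 2 + m) * ϖ * (ϖ ^ (1 + m) * (η' * w) * A₁ * w) := by
    rw [e4]; ring
  rw [e6]; ring

/-- One Hensel step: depth `d ≥ p + 2` to depth `d + 1`, in a ring in which every `1 + π a` is
a unit. -/
theorem depth_step (p : ℕ) (hp : p.Prime) (hp3 : 3 ≤ p) (ϖ η η' : R) (hηη' : η * η' = 1)
    (hpϖ : (p : R) = η * ϖ ^ p) (hunit : ∀ a : R, IsUnit (1 + ϖ * a))
    (d : ℕ) (hd : p + 2 ≤ d) (w : R) :
    ∃ (g : Rˣ) (w' : R), 1 + ϖ ^ d * w = (g : R) ^ p * (1 + ϖ ^ (d + 1) * w') := by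
  obtain ⟨v, hv⟩ := depth_identity p hp hp3 ϖ η η' hηη' hpϖ d hd w
  have em : ϖ ^ (d - p) = ϖ * ϖ ^ (d - p - 1) := by
    rw [← pow_succ']; congr 1; omega
  obtain ⟨g, hg⟩ := hunit (ϖ ^ (d - p - 1) * (η' * w))
  have hg' : (g : R) = 1 + ϖ ^ (d - p) * (η' * w) := by rw [hg, em]; ring
  rw [← hg'] at hv
  refine ⟨g, -v * ((g⁻¹ : Rˣ) : R) ^ p, ?_⟩
  have h1 : (g : R) ^ p * ((g⁻¹ : Rˣ) : R) ^ p = 1 := by
    rw [← mul_pow, Units.mul_inv, one_pow]
  linear_combination -hv + (ϖ ^ (d + 1) * v) * h1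

/-- Iterated Hensel steps: depth `d ≥ p + 2` to depth `d + k`. -/
theorem depth_iter (p : ℕ) (hp : p.Prime) (hp3 : 3 ≤ p) (ϖ η η' : R) (hηη' : η * η' = 1)
    (hpϖ : (p : R) = η * ϖ ^ p) (hunit : ∀ a : R, IsUnit (1 + ϖ * a))
    (d : ℕ) (hd : p + 2 ≤ d) (k : ℕ) (w : R) :
    ∃ (g : Rˣ) (w' : R), 1 + ϖ ^ d * w = (g : R) ^ p * (1 + ϖ ^ (d + k) * w') := by
  induction k with
  | zero => exact ⟨1, w, by simp⟩
  | succ k ih =>
    obtain ⟨g, w₁, h1⟩ := ih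
    obtain ⟨g₁, w₂, h2⟩ := depth_step p hp hp3 ϖ η η' hηη' hpϖ hunit (d + k) (by omega) w₁
    refine ⟨g * g₁, w₂, ?_⟩
    rw [h1, h2, Units.val_mul, mul_pow, add_assoc d k 1]
    ring

/-- **Depth `d ≥ p + 2` gives the shape `1 + p ^ 2 * w`.** -/
theorem exists_sq_form (p : ℕ) (hp : p.Prime) (hp3 : 3 ≤ p) (ϖ η η' : R) (hηη' : η * η' = 1)
    (hpϖ : (p : R) = η * ϖ ^ p) (hunit : ∀ a : R, IsUnit (1 + ϖ * a))
    (d : ℕ) (hd : p + 2 ≤ d) (w : R) :
    ∃ (g : Rˣ) (w' : R), 1 + ϖ ^ d * w = (g : R) ^ p * (1 + (p : R) ^ 2 * w') := by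
  obtain ⟨g, w₁, h1⟩ := depth_iter p hp hp3 ϖ η η' hηη' hpϖ hunit d hd (2 * p) w
  refine ⟨g, η' ^ 2 * (ϖ ^ d * w₁), ?_⟩
  have e1 : (p : R) * η' = ϖ ^ p := by
    rw [hpϖ]; linear_combination ϖ ^ p * hηη'
  have e2 : ϖ ^ (d + 2 * p) = ϖ ^ d * (ϖ ^ p) ^ 2 := by
    rw [← pow_mul, ← pow_add]; congr 1; ring
  rw [h1, e2, ← e1]
  ring

end Ring

/-! ### Local rings inside a field -/

section LocalRing

/-- **The Hensel step in a local ring** `A` mapping to a field `K`: `π` in the maximal ideal,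
`p = η π ^ p` with `η` a unit, `f = G ^ p * (1 + π ^ d * r)` with `d ≥ p + 2` and `r ∈ A`
give `f = G' ^ p * (1 + p ^ 2 * w)` with `w ∈ A`. -/
theorem hensel_local {A : Type*} [CommRing A] [IsLocalRing A] {K : Type*} [Field K]
    [Algebra A K] (p : ℕ) (hp : p.Prime) (hp3 : 3 ≤ p) (ϖ η : A)
    (hϖ : ϖ ∈ IsLocalRing.maximalIdeal A) (hη : IsUnit η) (hpϖ : (p : A) = η * ϖ ^ p)
    (d : ℕ) (hd : p + 2 ≤ d) (f G : K) (r : A)
    (hf : f = G ^ p * (1 + algebraMap A K ϖ ^ d * algebraMap A K r)) :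
    ∃ (G' : K) (w : A), f = G' ^ p * (1 + (p : K) ^ 2 * algebraMap A K w) := by
  obtain ⟨η', hηη'⟩ := hη.exists_right_inv
  have hunit : ∀ a : A, IsUnit (1 + ϖ * a) := by
    intro a
    have h1 : -(ϖ * a) ∈ nonunits A := by
      rw [← IsLocalRing.mem_maximalIdeal]
      exact neg_mem (Ideal.mul_mem_right _ _ hϖ)
    have h2 := IsLocalRing.isUnit_one_sub_self_of_mem_nonunits _ h1
    rwa [sub_neg_eq_add] at h2
  obtain ⟨g, w, h⟩ := exists_sq_form p hp hp3 ϖ η η' hηη' hpϖ hunit d hd r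
  refine ⟨G * algebraMap A K g, w, ?_⟩
  have h' := congrArg (algebraMap A K) h
  rw [map_add, map_one, map_mul, map_pow, map_mul, map_pow, map_add, map_one, map_mul, map_pow,
    map_natCast] at h'
  rw [hf, h', mul_pow]
  ring

end LocalRing

/-! ### The local ring of a chart at a prime -/

section Point

variable {O F : Type*} [CommRing O] [Field F] [Algebra O F]

/-- The local ring of the chart (the integral closure of `S` in `F`) at the prime `𝔪`, as a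
subring of `F`: the `x` with `s * x` in the chart for some chart element `s ∉ 𝔪`. -/
def locAt (S : Subalgebra O F) (𝔪 : Ideal (integralClosure S F)) (h𝔪 : 𝔪.IsPrime) :
    Subring F where
  carrier := {x | ∃ s : integralClosure S F, s ∉ 𝔪 ∧ IsIntegral S ((s : F) * x)}
  mul_mem' := by
    rintro x y ⟨s, hs, hsx⟩ ⟨t, ht, hty⟩
    refine ⟨s * t, fun h => (h𝔪.mem_or_mem h).elim hs ht, ?_⟩
    have e : ((s * t : integralClosure S F) : F) * (x * y) = ((s : F) * x) * ((t : F) * y) := by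
      push_cast; ring
    rw [e]; exact hsx.mul hty
  one_mem' := ⟨1, (Ideal.ne_top_iff_one 𝔪).mp h𝔪.ne_top, by
    simpa using (isIntegral_one : IsIntegral S (1 : F))⟩
  add_mem' := by
    rintro x y ⟨s, hs, hsx⟩ ⟨t, ht, hty⟩
    refine ⟨s * t, fun h => (h𝔪.mem_or_mem h).elim hs ht, ?_⟩
    have e : ((s * t : integralClosure S F) : F) * (x + y)
        = (t : F) * ((s : F) * x) + (s : F) * ((t : F) * y) := by
      push_cast; ring
    rw [e]
    exact ((show IsIntegral S (t : F) from t.2).mul hsx).add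
      ((show IsIntegral S (s : F) from s.2).mul hty)
  zero_mem' := ⟨1, (Ideal.ne_top_iff_one 𝔪).mp h𝔪.ne_top, by
    simpa using (isIntegral_zero : IsIntegral S (0 : F))⟩
  neg_mem' := by
    rintro x ⟨s, hs, hsx⟩
    exact ⟨s, hs, by rw [mul_neg]; exact hsx.neg⟩

theorem mem_locAt {S : Subalgebra O F} {𝔪 : Ideal (integralClosure S F)} {h𝔪 : 𝔪.IsPrime}
    {x : F} : x ∈ locAt S 𝔪 h𝔪 ↔
      ∃ s : integralClosure S F, s ∉ 𝔪 ∧ IsIntegral S ((s : F) * x) := Iff.rfl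

theorem coe_mem_locAt (S : Subalgebra O F) (𝔪 : Ideal (integralClosure S F)) (h𝔪 : 𝔪.IsPrime)
    (b : integralClosure S F) : (b : F) ∈ locAt S 𝔪 h𝔪 :=
  ⟨1, (Ideal.ne_top_iff_one 𝔪).mp h𝔪.ne_top, by
    simpa using (show IsIntegral S (b : F) from b.2)⟩

/-- `1 + π a` is a unit of the local ring at `𝔪` when `π ∈ 𝔪`. -/
theorem locAt_unit (S : Subalgebra O F) (𝔪 : Ideal (integralClosure S F)) (h𝔪 : 𝔪.IsPrime)
    (ϖ : integralClosure S F) (hϖ : ϖ ∈ 𝔪) (a : F) (ha : a ∈ locAt S 𝔪 h𝔪) :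
    1 + (ϖ : F) * a ≠ 0 ∧ (1 + (ϖ : F) * a)⁻¹ ∈ locAt S 𝔪 h𝔪 := by
  obtain ⟨s, hs, hsa⟩ := ha
  obtain ⟨q, hq⟩ : ∃ q : integralClosure S F, q = s + ϖ * ⟨(s : F) * a, hsa⟩ := ⟨_, rfl⟩
  have hq𝔪 : q ∉ 𝔪 := by
    intro h
    apply hs
    have e : s = q - ϖ * ⟨(s : F) * a, hsa⟩ := by rw [hq]; ring
    rw [e]; exact 𝔪.sub_mem h (𝔪.mul_mem_right _ hϖ)
  have hqF : (q : F) = (s : F) * (1 + (ϖ : F) * a) := by
    rw [hq]; push_cast; ring
  have hq0 : (q : F) ≠ 0 := by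
    intro h
    apply hq𝔪
    have e : q = 0 := Subtype.ext h
    rw [e]; exact 𝔪.zero_mem
  have h10 : 1 + (ϖ : F) * a ≠ 0 := by
    intro h; apply hq0; rw [hqF, h, mul_zero]
  refine ⟨h10, q, hq𝔪, ?_⟩
  have e : (q : F) * (1 + (ϖ : F) * a)⁻¹ = (s : F) := by
    rw [hqF, mul_assoc, mul_inv_cancel₀ h10, mul_one]
  rw [e]; exact s.2

/-- **Local `p`-th power datum of depth `d` at a point** `𝔪` of the chart, over a base with
`p = η π ^ p`: `H = G ^ p * (1 + π ^ d * w)` with `w` regular at `𝔪`. -/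
def PowAtDepth (S : Subalgebra O F) (p : ℕ) (π : O) (d : ℕ) (H : F)
    (𝔪 : Ideal (integralClosure S F)) : Prop :=
  ∃ (s : integralClosure S F) (G w : F), s ∉ 𝔪 ∧ IsIntegral S ((s : F) * w) ∧
    H = G ^ p * (1 + algebraMap O F π ^ d * w)

/-- **Local `p`-th power datum of depth `p + 2` at a point** `𝔪` of the chart:
`H = G ^ p * (1 + π ^ (p + 2) * w)` with `w` regular at `𝔪`. -/
def PowAtRam (S : Subalgebra O F) (p : ℕ) (π : O) (H : F)
    (𝔪 : Ideal (integralClosure S F)) : Prop :=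
  ∃ (s : integralClosure S F) (G w : F), s ∉ 𝔪 ∧ IsIntegral S ((s : F) * w) ∧
    H = G ^ p * (1 + algebraMap O F π ^ (p + 2) * w)

theorem powAtRam_iff (S : Subalgebra O F) (p : ℕ) (π : O) (H : F)
    (𝔪 : Ideal (integralClosure S F)) :
    PowAtRam S p π H 𝔪 ↔ PowAtDepth S p π (p + 2) H 𝔪 := Iff.rfl

/-- **Depth `d ≥ p + 2` at a closed point of the fibre gives the landed shape `PowAt`.** -/
theorem powAt_of_powAtDepth (S : Subalgebra O F) (p : ℕ) (hp : p.Prime) (hp3 : 3 ≤ p)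
    (π η : O) (hη : IsUnit η) (hpπ : (p : O) = η * π ^ p) (d : ℕ) (hd : p + 2 ≤ d) (H : F)
    (𝔪 : Ideal (integralClosure S F)) (h𝔪 : 𝔪.IsPrime)
    (hp𝔪 : (p : integralClosure S F) ∈ 𝔪) (h : PowAtDepth S p π d H 𝔪) :
    PowAt S p H 𝔪 := by
  obtain ⟨s, G, w, hs, hsw, hH⟩ := h
  obtain ⟨η', hηη'⟩ := hη.exists_right_inv
  have hOB : ∀ a : O, IsIntegral S (algebraMap O F a) := fun a =>
    mem_chartRing.mp (algebraMap_mem_chartRing S a)
  obtain ⟨ϖB, hϖB⟩ : ∃ x : integralClosure S F, (x : F) = algebraMap O F π :=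
    ⟨⟨_, hOB π⟩, rfl⟩
  obtain ⟨ηB, hηB⟩ : ∃ x : integralClosure S F, (x : F) = algebraMap O F η :=
    ⟨⟨_, hOB η⟩, rfl⟩
  obtain ⟨η'B, hη'B⟩ : ∃ x : integralClosure S F, (x : F) = algebraMap O F η' :=
    ⟨⟨_, hOB η'⟩, rfl⟩
  have hηη'F : algebraMap O F η * algebraMap O F η' = 1 := by
    rw [← map_mul, hηη', map_one]
  have hpF : (p : F) = algebraMap O F η * algebraMap O F π ^ p := by
    have h := congrArg (algebraMap O F) hpπ
    rwa [map_natCast, map_mul, map_pow] at h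
  have h1𝔪 : (1 : integralClosure S F) ∉ 𝔪 := (Ideal.ne_top_iff_one 𝔪).mp h𝔪.ne_top
  have hϖ𝔪 : ϖB ∈ 𝔪 := by
    have e : (p : integralClosure S F) = ηB * ϖB ^ p :=
      Subtype.ext (by push_cast; rw [hηB, hϖB]; exact hpF)
    rw [e] at hp𝔪
    rcases h𝔪.mem_or_mem hp𝔪 with h1 | h1
    · exfalso
      apply h1𝔪
      have e1 : (1 : integralClosure S F) = ηB * η'B :=
        Subtype.ext (by push_cast; rw [hηB, hη'B]; exact hηη'F.symm)
      rw [e1]; exact 𝔪.mul_mem_right _ h1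
    · exact h𝔪.mem_of_pow_mem _ h1
  -- the Hensel steps in the local ring at `𝔪`
  obtain ⟨Rl, hRl⟩ : ∃ Rl : Subring F, Rl = locAt S 𝔪 h𝔪 := ⟨_, rfl⟩
  have hmem : ∀ b : integralClosure S F, (b : F) ∈ Rl := fun b => by
    rw [hRl]; exact coe_mem_locAt S 𝔪 h𝔪 b
  have hπR : algebraMap O F π ∈ Rl := by rw [← hϖB]; exact hmem ϖB
  have hηR : algebraMap O F η ∈ Rl := by rw [← hηB]; exact hmem ηB
  have hη'R : algebraMap O F η' ∈ Rl := by rw [← hη'B]; exact hmem η'B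
  have hwR : w ∈ Rl := by rw [hRl]; exact ⟨s, hs, hsw⟩
  have hunit : ∀ a : Rl, IsUnit (1 + (⟨algebraMap O F π, hπR⟩ : Rl) * a) := by
    intro a
    have ha : (a : F) ∈ locAt S 𝔪 h𝔪 := by rw [← hRl]; exact a.2
    obtain ⟨h0, hinv⟩ := locAt_unit S 𝔪 h𝔪 ϖB hϖ𝔪 (a : F) ha
    rw [hϖB, ← hRl] at hinv
    rw [hϖB] at h0
    refine IsUnit.of_mul_eq_one ⟨_, hinv⟩ (Subtype.ext ?_)
    push_cast
    exact mul_inv_cancel₀ h0
  obtain ⟨g, w', h1⟩ := exists_sq_form (R := Rl) p hp hp3 ⟨algebraMap O F π, hπR⟩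
    ⟨algebraMap O F η, hηR⟩ ⟨algebraMap O F η', hη'R⟩ (Subtype.ext (by push_cast; exact hηη'F))
    (Subtype.ext (by push_cast; exact hpF)) hunit d hd ⟨w, hwR⟩
  have h1' := congrArg Subtype.val h1
  push_cast at h1'
  have hw'R : (w' : F) ∈ locAt S 𝔪 h𝔪 := by rw [← hRl]; exact w'.2
  obtain ⟨s', hs', hsw'⟩ := hw'R
  exact ⟨s', G * ((g : Rl) : F), (w' : F), hs', hsw', by rw [hH, h1', mul_pow]; ring⟩

/-- **Depth `p + 2` at a closed point of the fibre gives the landed shape `PowAt`.** -/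
theorem powAt_of_powAtRam (S : Subalgebra O F) (p : ℕ) (hp : p.Prime) (hp3 : 3 ≤ p)
    (π η : O) (hη : IsUnit η) (hpπ : (p : O) = η * π ^ p) (H : F)
    (𝔪 : Ideal (integralClosure S F)) (h𝔪 : 𝔪.IsPrime)
    (hp𝔪 : (p : integralClosure S F) ∈ 𝔪) (h : PowAtRam S p π H 𝔪) :
    PowAt S p H 𝔪 :=
  powAt_of_powAtDepth S p hp hp3 π η hη hpπ (p + 2) le_rfl H 𝔪 h𝔪 hp𝔪 h

/-- `PowAtDepth` from a local root whose `w` lies in (any model of) the local ring of the chart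
at `𝔪`. -/
theorem powAtDepth_of_atPrime (S : Subalgebra O F) (p : ℕ) (π : O) (d : ℕ) (H : F)
    (𝔪 : Ideal (integralClosure S F)) [𝔪.IsPrime] (A : Type*) [CommRing A]
    [Algebra (integralClosure S F) A] [IsLocalization.AtPrime A 𝔪] [Algebra A F]
    [IsScalarTower (integralClosure S F) A F] (G : F) (w : A)
    (hH : H = G ^ p * (1 + algebraMap O F π ^ d * algebraMap A F w)) :
    PowAtDepth S p π d H 𝔪 := by
  obtain ⟨a, s, rfl⟩ := IsLocalization.exists_mk'_eq 𝔪.primeCompl w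
  have hs : (s : integralClosure S F) ∉ 𝔪 := s.2
  refine ⟨s, G, algebraMap A F (IsLocalization.mk' A a s), hs, ?_, hH⟩
  have h1 := IsLocalization.mk'_spec A a s
  have h2 := congrArg (algebraMap A F) h1
  rw [map_mul, ← IsScalarTower.algebraMap_apply, ← IsScalarTower.algebraMap_apply] at h2
  have e : ((s : integralClosure S F) : F) * algebraMap A F (IsLocalization.mk' A a s)
      = (a : F) := by
    rw [mul_comm]; exact h2
  rw [e]; exact a.2

/-- `PowAtRam` from a local root whose `w` lies in (any model of) the local ring of the chart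
at `𝔪`. -/
theorem powAtRam_of_atPrime (S : Subalgebra O F) (p : ℕ) (π : O) (H : F)
    (𝔪 : Ideal (integralClosure S F)) [𝔪.IsPrime] (A : Type*) [CommRing A]
    [Algebra (integralClosure S F) A] [IsLocalization.AtPrime A 𝔪] [Algebra A F]
    [IsScalarTower (integralClosure S F) A F] (G : F) (w : A)
    (hH : H = G ^ p * (1 + algebraMap O F π ^ (p + 2) * algebraMap A F w)) :
    PowAtRam S p π H 𝔪 :=
  powAtDepth_of_atPrime S p π (p + 2) H 𝔪 A G w hH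

/-- A datum of depth `d' ≥ d` is a datum of depth `d`. -/
theorem powAtDepth_mono (S : Subalgebra O F) (p : ℕ) (π : O) {d d' : ℕ} (hdd : d ≤ d') (H : F)
    (𝔪 : Ideal (integralClosure S F)) (h : PowAtDepth S p π d' H 𝔪) :
    PowAtDepth S p π d H 𝔪 := by
  obtain ⟨s, G, w, hs, hsw, hH⟩ := h
  have hπ : IsIntegral S (algebraMap O F π) :=
    mem_chartRing.mp (algebraMap_mem_chartRing S π)
  refine ⟨s, G, algebraMap O F π ^ (d' - d) * w, hs, ?_, ?_⟩
  · have e : (s : F) * (algebraMap O F π ^ (d' - d) * w)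
        = algebraMap O F π ^ (d' - d) * ((s : F) * w) := by ring
    rw [e]; exact (hπ.pow _).mul hsw
  · rw [hH, ← mul_assoc, ← pow_add, Nat.add_sub_cancel' hdd]

end Point

/-! ### The ramified exit with pointwise data of depth `p + 2` -/

section Exit

variable {O F L : Type*} [CommRing O] [Field F] [Field L] [Algebra O F] [Algebra F L]
  [Algebra O L] [IsScalarTower O F L]

/-- **The ramified exit with pointwise data of any depths `≥ p + 2`**: at every maximal ideal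
`𝔪 ∋ p` of the two chart rings of `F`, a datum `PowAtDepth` of some depth `d ≥ p + 2`. -/
theorem exists_pow_eq_of_powAtDepth [IsNoetherianRing O] (p : ℕ) (hp : p.Prime) (hp3 : 3 ≤ p)
    (π η : O) (hπ : Prime π) (hη : IsUnit η) (hpπ : (p : O) = η * π ^ p)
    (hinj : Function.Injective (algebraMap O L))
    (hOL : ∀ x : L, IsIntegral O x → ∃ a : O, algebraMap O L a = x)
    (u : F) (hu : u ≠ 0)
    [Module.Finite (Algebra.adjoin O ({algebraMap F L u} : Set L))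
      (integralClosure (Algebra.adjoin O ({algebraMap F L u} : Set L)) L)]
    (hred0 : ∀ x : F, IsIntegral (Algebra.adjoin O ({u} : Set F)) x →
      IsIntegral (Algebra.adjoin O ({u} : Set F)) (x ^ p / algebraMap O F π) →
      IsIntegral (Algebra.adjoin O ({u} : Set F)) (x / algebraMap O F π))
    (hredinf : ∀ x : F, IsIntegral (Algebra.adjoin O ({u⁻¹} : Set F)) x →
      IsIntegral (Algebra.adjoin O ({u⁻¹} : Set F)) (x ^ p / algebraMap O F π) →
      IsIntegral (Algebra.adjoin O ({u⁻¹} : Set F)) (x / algebraMap O F π))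
    (H : F) (z : L) (hz : z ^ p = algebraMap F L H)
    (h0 : ∀ 𝔪 : Ideal (integralClosure (Algebra.adjoin O ({u} : Set F)) F), 𝔪.IsMaximal →
      (p : integralClosure (Algebra.adjoin O ({u} : Set F)) F) ∈ 𝔪 →
      ∃ d : ℕ, p + 2 ≤ d ∧ PowAtDepth (Algebra.adjoin O ({u} : Set F)) p π d H 𝔪)
    (hinf : ∀ 𝔪 : Ideal (integralClosure (Algebra.adjoin O ({u⁻¹} : Set F)) F), 𝔪.IsMaximal →
      (p : integralClosure (Algebra.adjoin O ({u⁻¹} : Set F)) F) ∈ 𝔪 →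
      ∃ d : ℕ, p + 2 ≤ d ∧ PowAtDepth (Algebra.adjoin O ({u⁻¹} : Set F)) p π d H 𝔪) :
    ∃ g : F, H = g ^ p :=
  PthRootRam.exists_pow_eq_of_pointwise_ram p hp hp3 π η hπ hη hpπ hinj hOL u hu hred0 hredinf
    H z hz
    (fun 𝔪 h𝔪 hp𝔪 => by
      obtain ⟨d, hd, h⟩ := h0 𝔪 h𝔪 hp𝔪
      exact powAt_of_powAtDepth _ p hp hp3 π η hη hpπ d hd H 𝔪 h𝔪.isPrime hp𝔪 h)
    (fun 𝔪 h𝔪 hp𝔪 => by
      obtain ⟨d, hd, h⟩ := hinf 𝔪 h𝔪 hp𝔪
      exact powAt_of_powAtDepth _ p hp hp3 π η hη hpπ d hd H 𝔪 h𝔪.isPrime hp𝔪 h)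

/-- **The ramified exit with pointwise data of depth `p + 2`**: at every maximal ideal `𝔪 ∋ p`
of the two chart rings of `F`, the datum `PowAtRam`. -/
theorem exists_pow_eq_of_powAtRam [IsNoetherianRing O] (p : ℕ) (hp : p.Prime) (hp3 : 3 ≤ p)
    (π η : O) (hπ : Prime π) (hη : IsUnit η) (hpπ : (p : O) = η * π ^ p)
    (hinj : Function.Injective (algebraMap O L))
    (hOL : ∀ x : L, IsIntegral O x → ∃ a : O, algebraMap O L a = x)
    (u : F) (hu : u ≠ 0)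
    [Module.Finite (Algebra.adjoin O ({algebraMap F L u} : Set L))
      (integralClosure (Algebra.adjoin O ({algebraMap F L u} : Set L)) L)]
    (hred0 : ∀ x : F, IsIntegral (Algebra.adjoin O ({u} : Set F)) x →
      IsIntegral (Algebra.adjoin O ({u} : Set F)) (x ^ p / algebraMap O F π) →
      IsIntegral (Algebra.adjoin O ({u} : Set F)) (x / algebraMap O F π))
    (hredinf : ∀ x : F, IsIntegral (Algebra.adjoin O ({u⁻¹} : Set F)) x →
      IsIntegral (Algebra.adjoin O ({u⁻¹} : Set F)) (x ^ p / algebraMap O F π) →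
      IsIntegral (Algebra.adjoin O ({u⁻¹} : Set F)) (x / algebraMap O F π))
    (H : F) (z : L) (hz : z ^ p = algebraMap F L H)
    (h0 : ∀ 𝔪 : Ideal (integralClosure (Algebra.adjoin O ({u} : Set F)) F), 𝔪.IsMaximal →
      (p : integralClosure (Algebra.adjoin O ({u} : Set F)) F) ∈ 𝔪 →
      PowAtRam (Algebra.adjoin O ({u} : Set F)) p π H 𝔪)
    (hinf : ∀ 𝔪 : Ideal (integralClosure (Algebra.adjoin O ({u⁻¹} : Set F)) F), 𝔪.IsMaximal →
      (p : integralClosure (Algebra.adjoin O ({u⁻¹} : Set F)) F) ∈ 𝔪 →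
      PowAtRam (Algebra.adjoin O ({u⁻¹} : Set F)) p π H 𝔪) :
    ∃ g : F, H = g ^ p :=
  exists_pow_eq_of_powAtDepth p hp hp3 π η hπ hη hpπ hinj hOL u hu hred0 hredinf H z hz
    (fun 𝔪 h𝔪 hp𝔪 => ⟨p + 2, le_rfl, h0 𝔪 h𝔪 hp𝔪⟩)
    (fun 𝔪 h𝔪 hp𝔪 => ⟨p + 2, le_rfl, hinf 𝔪 h𝔪 hp𝔪⟩)

end Exit


end Fermat.Agent.S44.L.DepthHenselExit
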