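import Mathlib

/-!
# S44 (Mazur–Ribet), strand L: the local ring at a node / smooth point, `Localization.AtPrime`

Level-free, Mathlib only.  `C` a domain, `y` a prime ideal, `R₀ = Localization.AtPrime y`,
`a = algebraMap C R₀`.  The elementwise vocabulary of Program C's brick C1
("`P = (t)` locally at `y`": `t ∈ P` and `∀ x ∈ P, ∃ s ∉ y, s * x ∈ (t)`;
"`y = (t₁, t₂)` locally at `y`": `∀ m ∈ y, ∃ s ∉ y, s * m ∈ (t₁, t₂)`) is translated into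
statements on the local ring `R₀`:

* `map_eq_span_singleton` : `P R₀ = (a t)`.
* `prime_algebraMap` : `a t` is a prime element of `R₀` (`P` prime, `P ≤ y`, `t ≠ 0`).
* `maximalIdeal_eq_span_pair` : `𝔪_{R₀} = (a t₁, a t₂)`.
* `node_localization` : at a node (`t₁ t₂ = ϖ g`, `g ∉ y`, `P₁ = (t₁)`, `P₂ = (t₂)`,
  `y = (t₁, t₂)` locally): `a t₁`, `a t₂` are non-associated primes generating `𝔪_{R₀}` and
  `a t₁ * a t₂ ~ a ϖ`.
* `node_localization_nat` : the same normalised to `x * a t₂ = p` (`p = ϖ * e`, `e ∉ y`):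
  the hypotheses of `NodeCover.exists_node_cover`.
* `smooth_localization` : at a smooth point (`P = (ϖ)`, `y = (ϖ, z)` locally): `a ϖ` is prime
  and `𝔪_{R₀} = (a ϖ, a z)`.
-/

set_option autoImplicit false
set_option linter.unusedSectionVars false

namespace Fermat.Agent.S44.L.NodeLoc

open IsLocalRing

section Basic

variable {C : Type*} [CommRing C] (y : Ideal C) [y.IsPrime]

local notation "R₀" => Localization.AtPrime y
local notation "a" => algebraMap C (Localization.AtPrime y)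

theorem isUnit_algebraMap_of_notMem {s : C} (hs : s ∉ y) : IsUnit (a s) :=
  IsLocalization.map_units (Localization.AtPrime y) (⟨s, hs⟩ : y.primeCompl)

/-- `s * x ∈ (t)` with `s ∉ y` gives `a x ∈ (a t)`. -/
theorem algebraMap_mem_span_singleton {s x t : C} (hs : s ∉ y)
    (h : s * x ∈ Ideal.span {t}) : a x ∈ Ideal.span {a t} := by
  obtain ⟨c, hc⟩ := Ideal.mem_span_singleton'.mp h
  obtain ⟨u, hu⟩ := isUnit_algebraMap_of_notMem y hs
  rw [Ideal.mem_span_singleton']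
  refine ⟨↑u⁻¹ * a c, ?_⟩
  have h1 : a s * a x = a c * a t := by rw [← map_mul, ← map_mul, hc]
  have h2 : a x = ↑u⁻¹ * (a s * a x) := by
    rw [← hu, ← mul_assoc, Units.inv_mul, one_mul]
  rw [h2, h1]
  ring

/-- `s * x ∈ (t₁, t₂)` with `s ∉ y` gives `a x ∈ (a t₁, a t₂)`. -/
theorem algebraMap_mem_span_pair {s x t₁ t₂ : C} (hs : s ∉ y)
    (h : s * x ∈ Ideal.span {t₁, t₂}) : a x ∈ Ideal.span {a t₁, a t₂} := by
  obtain ⟨c₁, c₂, hc⟩ := Ideal.mem_span_pair.mp h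
  obtain ⟨u, hu⟩ := isUnit_algebraMap_of_notMem y hs
  rw [Ideal.mem_span_pair]
  refine ⟨↑u⁻¹ * a c₁, ↑u⁻¹ * a c₂, ?_⟩
  have h1 : a s * a x = a c₁ * a t₁ + a c₂ * a t₂ := by
    rw [← map_mul, ← map_mul, ← map_mul, ← map_add, hc]
  have h2 : a x = ↑u⁻¹ * (a s * a x) := by
    rw [← hu, ← mul_assoc, Units.inv_mul, one_mul]
  rw [h2, h1]
  ring

/-- "`P = (t)` locally at `y`" gives `P R₀ = (a t)`. -/
theorem map_eq_span_singleton (P : Ideal C) (t : C) (ht : t ∈ P)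
    (hgen : ∀ x ∈ P, ∃ s, s ∉ y ∧ s * x ∈ Ideal.span {t}) :
    P.map a = Ideal.span {a t} := by
  apply le_antisymm
  · rw [Ideal.map_le_iff_le_comap]
    intro x hx
    obtain ⟨s, hs, h⟩ := hgen x hx
    exact Ideal.mem_comap.mpr (algebraMap_mem_span_singleton y hs h)
  · rw [Ideal.span_singleton_le_iff_mem]
    exact Ideal.mem_map_of_mem _ ht

/-- "`y = (t₁, t₂)` locally at `y`" gives `𝔪_{R₀} = (a t₁, a t₂)`. -/
theorem maximalIdeal_eq_span_pair (t₁ t₂ : C) (h₁ : t₁ ∈ y) (h₂ : t₂ ∈ y)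
    (hm : ∀ m ∈ y, ∃ s, s ∉ y ∧ s * m ∈ Ideal.span {t₁, t₂}) :
    maximalIdeal R₀ = Ideal.span {a t₁, a t₂} := by
  rw [← Localization.AtPrime.map_eq_maximalIdeal]
  apply le_antisymm
  · rw [Ideal.map_le_iff_le_comap]
    intro x hx
    obtain ⟨s, hs, h⟩ := hm x hx
    exact Ideal.mem_comap.mpr (algebraMap_mem_span_pair y hs h)
  · rw [Ideal.span_le]
    intro x hx
    simp only [Set.mem_insert_iff, Set.mem_singleton_iff] at hx
    rcases hx with rfl | rfl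
    · exact Ideal.mem_map_of_mem _ h₁
    · exact Ideal.mem_map_of_mem _ h₂

/-- `t₁ t₂ = ϖ g` with `g ∉ y` gives `a t₁ * a t₂ ~ a ϖ`. -/
theorem associated_mul (ϖ t₁ t₂ g : C) (hg : g ∉ y) (h : t₁ * t₂ = ϖ * g) :
    Associated (a t₁ * a t₂) (a ϖ) := by
  obtain ⟨u, hu⟩ := isUnit_algebraMap_of_notMem y hg
  refine ⟨u⁻¹, ?_⟩
  have h1 : a t₁ * a t₂ = a ϖ * ↑u := by rw [hu, ← map_mul, ← map_mul, h]
  rw [h1, mul_assoc, Units.mul_inv, mul_one]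

end Basic

section Domain

variable {C : Type*} [CommRing C] [IsDomain C] (y : Ideal C) [y.IsPrime]

local notation "R₀" => Localization.AtPrime y
local notation "a" => algebraMap C (Localization.AtPrime y)

theorem algebraMap_injective : Function.Injective (a) :=
  IsLocalization.injective (Localization.AtPrime y) y.primeCompl_le_nonZeroDivisors

theorem disjoint_of_le (P : Ideal C) (hPy : P ≤ y) : Disjoint (y.primeCompl : Set C) (P : Set C) :=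
  Set.disjoint_left.mpr fun _ hx hxP => hx (hPy hxP)

/-- "`P = (t)` locally at `y`", `P` prime inside `y`, `t ≠ 0`: `a t` is a prime element. -/
theorem prime_algebraMap (P : Ideal C) [hP : P.IsPrime] (hPy : P ≤ y) (t : C) (ht0 : t ≠ 0)
    (ht : t ∈ P) (hgen : ∀ x ∈ P, ∃ s, s ∉ y ∧ s * x ∈ Ideal.span {t}) : Prime (a t) := by
  have h0 : a t ≠ 0 := fun h => ht0 (algebraMap_injective y (by rw [h, map_zero]))
  have hprime : (P.map a).IsPrime :=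
    IsLocalization.isPrime_of_isPrime_disjoint y.primeCompl (Localization.AtPrime y) P hP
      (disjoint_of_le y P hPy)
  rw [map_eq_span_singleton y P t ht hgen] at hprime
  exact (Ideal.span_singleton_prime h0).mp hprime

/-- `a x ∈ P R₀` iff `x ∈ P`, for `P` prime inside `y`. -/
theorem algebraMap_mem_map_iff (P : Ideal C) [hP : P.IsPrime] (hPy : P ≤ y) (x : C) :
    a x ∈ P.map a ↔ x ∈ P := by
  constructor
  · intro h
    have h1 : x ∈ (P.map a).under C := Ideal.mem_comap.mpr h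
    rwa [IsLocalization.under_map_of_isPrime_disjoint y.primeCompl (Localization.AtPrime y) hP
      (disjoint_of_le y P hPy)] at h1
  · exact Ideal.mem_map_of_mem _

/-- If `P₂ = (t₂)` locally at `y` and `t₁ ∉ P₂`, then `a t₁`, `a t₂` are not associated. -/
theorem not_associated (P₂ : Ideal C) [hP₂ : P₂.IsPrime] (hP₂y : P₂ ≤ y) (t₁ t₂ : C)
    (ht₂ : t₂ ∈ P₂) (hgen₂ : ∀ x ∈ P₂, ∃ s, s ∉ y ∧ s * x ∈ Ideal.span {t₂})
    (hne : t₁ ∉ P₂) : ¬ Associated (a t₁) (a t₂) := by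
  intro hass
  apply hne
  rw [← algebraMap_mem_map_iff y P₂ hP₂y, map_eq_span_singleton y P₂ t₂ ht₂ hgen₂,
    Ideal.mem_span_singleton]
  exact hass.symm.dvd

/-- **The local ring at a node.**  `t₁ t₂ = ϖ g` with `g ∉ y`, `P₁ = (t₁)`, `P₂ = (t₂)`,
`y = (t₁, t₂)` locally at `y`, `t₁ ∉ P₂`: in `R₀ = C_y` the elements `a t₁`, `a t₂` are
non-associated primes, generate the maximal ideal, and `a t₁ * a t₂ ~ a ϖ`. -/
theorem node_localization (P₁ P₂ : Ideal C) [P₁.IsPrime] [P₂.IsPrime] (hP₁ : P₁ ≤ y)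
    (hP₂ : P₂ ≤ y) (ϖ t₁ t₂ g : C) (hϖ : ϖ ≠ 0) (hg : g ∉ y) (h : t₁ * t₂ = ϖ * g)
    (ht₁ : t₁ ∈ P₁) (hgen₁ : ∀ x ∈ P₁, ∃ s, s ∉ y ∧ s * x ∈ Ideal.span {t₁})
    (ht₂ : t₂ ∈ P₂) (hgen₂ : ∀ x ∈ P₂, ∃ s, s ∉ y ∧ s * x ∈ Ideal.span {t₂})
    (hne : t₁ ∉ P₂)
    (hm : ∀ m ∈ y, ∃ s, s ∉ y ∧ s * m ∈ Ideal.span {t₁, t₂}) :
    Prime (a t₁) ∧ Prime (a t₂) ∧ ¬ Associated (a t₁) (a t₂) ∧
      maximalIdeal R₀ = Ideal.span {a t₁, a t₂} ∧ Associated (a t₁ * a t₂) (a ϖ) := by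
  have hg0 : g ≠ 0 := fun h0 => hg (h0 ▸ y.zero_mem)
  have h12 : t₁ * t₂ ≠ 0 := by rw [h]; exact mul_ne_zero hϖ hg0
  have ht₁0 : t₁ ≠ 0 := left_ne_zero_of_mul h12
  have ht₂0 : t₂ ≠ 0 := right_ne_zero_of_mul h12
  exact ⟨prime_algebraMap y P₁ hP₁ t₁ ht₁0 ht₁ hgen₁, prime_algebraMap y P₂ hP₂ t₂ ht₂0 ht₂ hgen₂,
    not_associated y P₂ hP₂ t₁ t₂ ht₂ hgen₂ hne,
    maximalIdeal_eq_span_pair y t₁ t₂ (hP₁ ht₁) (hP₂ ht₂) hm, associated_mul y ϖ t₁ t₂ g hg h⟩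

/-- **The local ring at a node, normalised** (`p = ϖ * e`, `e ∉ y`): there is `x ~ a t₁` with
`x * a t₂ = p`; `x`, `a t₂` are non-associated primes generating the maximal ideal of `R₀`.
These are the hypotheses `hx hy hne hm hxy` of `NodeCover.exists_node_cover`. -/
theorem node_localization_nat (P₁ P₂ : Ideal C) [P₁.IsPrime] [P₂.IsPrime] (hP₁ : P₁ ≤ y)
    (hP₂ : P₂ ≤ y) (ϖ t₁ t₂ g : C) (hϖ : ϖ ≠ 0) (hg : g ∉ y) (h : t₁ * t₂ = ϖ * g)
    (ht₁ : t₁ ∈ P₁) (hgen₁ : ∀ x ∈ P₁, ∃ s, s ∉ y ∧ s * x ∈ Ideal.span {t₁})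
    (ht₂ : t₂ ∈ P₂) (hgen₂ : ∀ x ∈ P₂, ∃ s, s ∉ y ∧ s * x ∈ Ideal.span {t₂})
    (hne : t₁ ∉ P₂)
    (hm : ∀ m ∈ y, ∃ s, s ∉ y ∧ s * m ∈ Ideal.span {t₁, t₂})
    (p : ℕ) (e : C) (he : e ∉ y) (hp : (p : C) = ϖ * e) :
    ∃ x : R₀, Associated x (a t₁) ∧ Prime x ∧ Prime (a t₂) ∧ ¬ Associated x (a t₂) ∧
      maximalIdeal R₀ = Ideal.span {x, a t₂} ∧ x * a t₂ = (p : R₀) := by
  obtain ⟨hp₁, hp₂, hna, hmax, -⟩ := node_localization y P₁ P₂ hP₁ hP₂ ϖ t₁ t₂ g hϖ hg h ht₁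
    hgen₁ ht₂ hgen₂ hne hm
  obtain ⟨ug, hug⟩ := isUnit_algebraMap_of_notMem y hg
  obtain ⟨ue, hue⟩ := isUnit_algebraMap_of_notMem y he
  have hass : Associated (a t₁ * ↑(ue * ug⁻¹)) (a t₁) :=
    (associated_mul_unit_left (a t₁) _ (ue * ug⁻¹).isUnit)
  refine ⟨a t₁ * ↑(ue * ug⁻¹), hass, hass.symm.prime hp₁, hp₂,
    fun h' => hna (hass.symm.trans h'), ?_, ?_⟩
  · rw [hmax, Ideal.span_insert, Ideal.span_insert (a t₁ * ↑(ue * ug⁻¹)),
      Ideal.span_singleton_mul_right_unit (ue * ug⁻¹).isUnit]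
  · have h1 : a t₁ * a t₂ = a ϖ * ↑ug := by rw [hug, ← map_mul, ← map_mul, h]
    have h2 : (p : R₀) = a ϖ * ↑ue := by
      rw [hue, ← map_mul, ← hp, map_natCast]
    rw [h2]
    calc a t₁ * ↑(ue * ug⁻¹) * a t₂ = (a t₁ * a t₂) * (↑ue * ↑ug⁻¹) := by
          rw [Units.val_mul]; ring
      _ = a ϖ * ↑ue * (↑ug * ↑ug⁻¹) := by rw [h1]; ring
      _ = a ϖ * ↑ue := by rw [Units.mul_inv, mul_one]

/-- **The local ring at a smooth point.**  `P = (ϖ)` and `y = (ϖ, z)` locally at `y`: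
`a ϖ` is a prime element of `R₀ = C_y` and `𝔪_{R₀} = (a ϖ, a z)`. -/
theorem smooth_localization (P : Ideal C) [P.IsPrime] (hP : P ≤ y) (ϖ : C) (hϖ0 : ϖ ≠ 0)
    (hϖP : ϖ ∈ P) (hgen : ∀ x ∈ P, ∃ s, s ∉ y ∧ s * x ∈ Ideal.span {ϖ})
    (z : C) (hz : z ∈ y) (hm : ∀ m ∈ y, ∃ s, s ∉ y ∧ s * m ∈ Ideal.span {ϖ, z}) :
    Prime (a ϖ) ∧ maximalIdeal R₀ = Ideal.span {a ϖ, a z} :=
  ⟨prime_algebraMap y P hP ϖ hϖ0 hϖP hgen, maximalIdeal_eq_span_pair y ϖ z (hP hϖP) hz hm⟩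

/-- `R₀ = C_y` is integrally closed when `C` is. -/
theorem isIntegrallyClosed_localization [IsIntegrallyClosed C] : IsIntegrallyClosed R₀ :=
  isIntegrallyClosed_of_isLocalization (Localization.AtPrime y) y.primeCompl
    y.primeCompl_le_nonZeroDivisors

/-- `R₀ = C_y` is noetherian when `C` is. -/
theorem isNoetherianRing_localization [hC : IsNoetherianRing C] : IsNoetherianRing R₀ :=
  IsLocalization.isNoetherianRing y.primeCompl (Localization.AtPrime y) hC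

end Domain

end Fermat.Agent.S44.L.NodeLoc
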