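import Mathlib
import Fermat.Agent.Lib.NormalFree

/-!
# Program MR (S44), strand L, brick (L.PUR): purity of the branch locus in dimension two

Level-free commutative algebra (helper230).  `R` a local unique factorisation domain, `S` a
finite free `R`-algebra with basis `b` (in the application `R` is the two-dimensional regular
local ring of a chart at a closed point and `S` the integral closure of `R` in a finite
separable extension of its fraction field, free by `Lib/NormalFree`).

If no prime element of `R` divides the discriminant of `b` ("unramified in codimension one"),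
then the discriminant is a unit, the closed fibre `S / 𝔪 S` is reduced, and

  (UNR)  for every proper ideal `P` of `S` and every `x ∈ P` there is `s ∉ P` with
         `s * x ∈ 𝔪 S`

(for `P` maximal: `P S_P = 𝔪 S_P`).

Criteria for `¬ g ∣ discr R b` at a prime element `g`:

* `not_dvd_discr_of_family`  : some family of rank-many elements has discriminant prime to `g`;
* `not_dvd_discr_of_ringHoms`: rank-many distinct ring homomorphisms `S → Ω` into a field,
  with the same restriction to `R`, killing `g` (geometric points of the fibre);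
* `not_dvd_discr_of_primes`  : rank-many distinct primes of `S` over `(g)` (totally split);
* `not_dvd_discr_of_charZero`: `S` unramified at every prime over `(g)`, residue
  characteristic zero.
-/

set_option autoImplicit false

namespace Fermat.Agent.S44.L.Purity

open IsLocalRing Matrix

attribute [local instance] Ideal.Quotient.field

section Family

variable {R S : Type*} [CommRing R] [CommRing S] [Algebra R S]
variable {ι : Type*} [Fintype ι] [DecidableEq ι]

/-- The discriminant of a family of rank-many elements is a square times the discriminant of a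
basis. -/
theorem discr_family_eq (b : Module.Basis ι R S) (c : ι → S) :
    Algebra.discr R c = (Matrix.of fun i j => b.repr (c j) i).det ^ 2 * Algebra.discr R b := by
  set P : Matrix ι ι R := Matrix.of fun i j => b.repr (c j) i with hP
  have h : c = (b : ι → S) ᵥ* P.map (algebraMap R S) := by
    funext j
    simp only [Matrix.vecMul, dotProduct, Matrix.map_apply, hP, Matrix.of_apply]
    conv_lhs => rw [← b.sum_repr (c j)]
    exact Finset.sum_congr rfl fun i _ => by rw [Algebra.smul_def, mul_comm]
  calc Algebra.discr R c = Algebra.discr R ((b : ι → S) ᵥ* P.map (algebraMap R S)) := by rw [← h]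
    _ = P.det ^ 2 * Algebra.discr R b := Algebra.discr_of_matrix_vecMul _ _

/-- Reindexing a family does not change its discriminant. -/
theorem discr_comp_equiv {κ : Type*} [Fintype κ] [DecidableEq κ] (c : κ → S) (e : ι ≃ κ) :
    Algebra.discr R (c ∘ e) = Algebra.discr R c := by
  rw [Algebra.discr_def, Algebra.discr_def]
  have h : Algebra.traceMatrix R (c ∘ e) = (Algebra.traceMatrix R c).submatrix e e := by
    ext i j
    simp [Algebra.traceMatrix_apply]
  rw [h, Matrix.det_submatrix_equiv_self]

/-- **(C1)** A family of rank-many elements with discriminant prime to `g`. -/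
theorem not_dvd_discr_of_family (b : Module.Basis ι R S) {g : R} {κ : Type*} [Fintype κ]
    [DecidableEq κ] (c : κ → S) (hcard : Fintype.card κ = Fintype.card ι)
    (hc : ¬ g ∣ Algebra.discr R c) : ¬ g ∣ Algebra.discr R b := by
  intro hg
  apply hc
  rw [← discr_comp_equiv c (Fintype.equivOfCardEq hcard).symm, discr_family_eq b]
  exact Dvd.dvd.mul_left hg _

end Family

section Core

variable {R S : Type*} [CommRing R] [CommRing S] [Algebra R S]
variable {ι : Type*} [Fintype ι] [DecidableEq ι]

/-- Unit discriminant: the closed fibre is reduced (elementwise). -/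
theorem mem_map_of_pow_mem [IsLocalRing R] (b : Module.Basis ι R S)
    (hd : IsUnit (Algebra.discr R b)) {x : S} {k : ℕ}
    (hx : x ^ k ∈ (maximalIdeal R).map (algebraMap R S)) :
    x ∈ (maximalIdeal R).map (algebraMap R S) := by
  classical
  have hfree : Module.Free R S := Module.Free.of_basis b
  have hfin : Module.Finite R S := Module.Finite.of_basis b
  -- traces of multiples of `x` lie in the maximal ideal
  have htr : ∀ y : S, Algebra.trace R S (x * y) ∈ maximalIdeal R := by
    intro y
    rw [← Ideal.Quotient.eq_zero_iff_mem, ← Algebra.trace_quotient_mk]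
    have hnil : IsNilpotent
        (Ideal.Quotient.mk ((maximalIdeal R).map (algebraMap R S)) (x * y)) := by
      refine ⟨k, ?_⟩
      rw [← map_pow, Ideal.Quotient.eq_zero_iff_mem, mul_pow]
      exact Ideal.mul_mem_right _ _ hx
    rw [Algebra.trace_apply]
    exact (LinearMap.isNilpotent_trace_of_isNilpotent
      ((LinearMap.isNilpotent_mulLeft_iff _ _).mpr hnil)).eq_zero
  -- coordinates
  set a : ι → R := fun i => b.repr x i with ha
  set T : Matrix ι ι R := Algebra.traceMatrix R b with hT
  have hTdet : IsUnit T.det := by rw [hT, ← Algebra.discr_def]; exact hd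
  have haT : ∀ j, (a ᵥ* T) j ∈ maximalIdeal R := by
    intro j
    have h1 : (a ᵥ* T) j = Algebra.trace R S (x * b j) := by
      simp only [Matrix.vecMul, dotProduct, hT, Algebra.traceMatrix_apply,
        Algebra.traceForm_apply]
      conv_rhs => rw [← b.sum_repr x, Finset.sum_mul, map_sum]
      refine Finset.sum_congr rfl fun i _ => ?_
      rw [smul_mul_assoc, LinearMap.map_smul, smul_eq_mul]
    rw [h1]; exact htr (b j)
  have hai : ∀ i, a i ∈ maximalIdeal R := by
    intro i
    have h2 : a = (a ᵥ* T) ᵥ* T⁻¹ := by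
      rw [Matrix.vecMul_vecMul, Matrix.mul_nonsing_inv _ hTdet, Matrix.vecMul_one]
    rw [h2]
    simp only [Matrix.vecMul, dotProduct]
    exact Ideal.sum_mem _ fun j _ => Ideal.mul_mem_right _ _ (haT j)
  rw [← b.sum_repr x]
  refine Ideal.sum_mem _ fun i _ => ?_
  rw [Algebra.smul_def]
  exact Ideal.mul_mem_right _ _ (Ideal.mem_map_of_mem _ (hai i))

/-- Unit discriminant: **(UNR)** at every proper ideal. -/
theorem exists_notMem_mul_mem [IsLocalRing R] (b : Module.Basis ι R S)
    (hd : IsUnit (Algebra.discr R b)) (P : Ideal S) (hP : P ≠ ⊤) {x : S} (hx : x ∈ P) :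
    ∃ s : S, s ∉ P ∧ s * x ∈ (maximalIdeal R).map (algebraMap R S) := by
  classical
  have hfree : Module.Free R S := Module.Free.of_basis b
  have hfin : Module.Finite R S := Module.Finite.of_basis b
  have hfin' : Module.Finite (R ⧸ maximalIdeal R) (S ⧸ (maximalIdeal R).map (algebraMap R S)) :=
    Module.Finite.of_restrictScalars_finite R _ _
  have hart : IsArtinianRing (S ⧸ (maximalIdeal R).map (algebraMap R S)) :=
    IsArtinianRing.of_finite (R ⧸ maximalIdeal R) _
  obtain ⟨n, ybar, hy⟩ := IsArtinian.exists_pow_succ_smul_dvd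
    (Ideal.Quotient.mk ((maximalIdeal R).map (algebraMap R S)) x)
    (1 : S ⧸ (maximalIdeal R).map (algebraMap R S))
  obtain ⟨y, rfl⟩ := Ideal.Quotient.mk_surjective ybar
  have h1 : x ^ (n + 1) * y - x ^ n ∈ (maximalIdeal R).map (algebraMap R S) := by
    rw [← Ideal.Quotient.eq_zero_iff_mem, map_sub, map_mul, map_pow, map_pow, sub_eq_zero]
    simpa [smul_eq_mul] using hy
  have h2 : (x * (1 - x * y)) ^ (n + 1) ∈ (maximalIdeal R).map (algebraMap R S) := by
    have e : (x * (1 - x * y)) ^ (n + 1)
        = -(x * (1 - x * y) ^ n) * (x ^ (n + 1) * y - x ^ n) := by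
      rw [mul_pow]; ring
    rw [e]
    exact Ideal.mul_mem_left _ _ h1
  refine ⟨1 - x * y, fun hs => hP ?_, ?_⟩
  · rw [Ideal.eq_top_iff_one]
    have : (1 : S) = (1 - x * y) + x * y := by ring
    rw [this]
    exact P.add_mem hs (P.mul_mem_right _ hx)
  · rw [mul_comm]
    exact mem_map_of_pow_mem b hd h2

/-- Over a unique factorisation domain, a discriminant prime to every prime element is a
unit. -/
theorem isUnit_discr [IsDomain R] [UniqueFactorizationMonoid R] (b : Module.Basis ι R S)
    (hne : ∃ g : R, Prime g) (h : ∀ g : R, Prime g → ¬ g ∣ Algebra.discr R b) :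
    IsUnit (Algebra.discr R b) := by
  by_contra hu
  by_cases h0 : Algebra.discr R b = 0
  · obtain ⟨g, hg⟩ := hne
    exact h g hg (h0 ▸ dvd_zero g)
  · obtain ⟨g, hg, hgd⟩ := WfDvdMonoid.exists_irreducible_factor hu h0
    exact h g (UniqueFactorizationMonoid.irreducible_iff_prime.mp hg) hgd

/-- **(L.PUR), abstract form.**  `R` a local unique factorisation domain, `S` finite free over
`R` with basis `b`; if no prime element of `R` divides the discriminant of `b`, then (UNR) holds
at every proper ideal `P` of `S`. -/
theorem unr_of_not_dvd_discr [IsDomain R] [IsLocalRing R] [UniqueFactorizationMonoid R]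
    (b : Module.Basis ι R S) (hne : ∃ g : R, Prime g)
    (h : ∀ g : R, Prime g → ¬ g ∣ Algebra.discr R b) (P : Ideal S) (hP : P ≠ ⊤) {x : S}
    (hx : x ∈ P) : ∃ s : S, s ∉ P ∧ s * x ∈ (maximalIdeal R).map (algebraMap R S) :=
  exists_notMem_mul_mem b (isUnit_discr b hne h) P hP hx

end Core

section Points

variable {R S : Type*} [CommRing R] [CommRing S] [Algebra R S]
variable {ι : Type*} [Fintype ι] [DecidableEq ι]
variable {Ω : Type*} [Field Ω]

/-- Rank-many distinct points of a fibre: the matrix of their values on a basis is invertible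
(Dedekind's independence of characters). -/
theorem det_points_ne_zero (b : Module.Basis ι R S) (ρ : R →+* Ω) (ψ : ι → S →+* Ω)
    (hψ : Function.Injective ψ) (hρ : ∀ l, (ψ l).comp (algebraMap R S) = ρ) :
    (Matrix.of fun l j => ψ l (b j)).det ≠ 0 := by
  intro h0
  obtain ⟨v, hv0, hv⟩ := Matrix.exists_vecMul_eq_zero_iff.mpr h0
  have hval : ∀ (l : ι) (x : S), ψ l x = ∑ j, ρ (b.repr x j) * ψ l (b j) := by
    intro l x
    conv_lhs => rw [← b.sum_repr x]
    rw [map_sum]
    refine Finset.sum_congr rfl fun j _ => ?_
    rw [Algebra.smul_def, map_mul, ← hρ l]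
    rfl
  have key : ∀ x : S, ∑ l, v l * ψ l x = 0 := by
    intro x
    calc ∑ l, v l * ψ l x = ∑ l, ∑ j, ρ (b.repr x j) * (v l * ψ l (b j)) := by
          refine Finset.sum_congr rfl fun l _ => ?_
          rw [hval l x, Finset.mul_sum]
          exact Finset.sum_congr rfl fun j _ => by ring
      _ = ∑ j, ρ (b.repr x j) * ∑ l, v l * ψ l (b j) := by
          rw [Finset.sum_comm]
          exact Finset.sum_congr rfl fun j _ => by rw [Finset.mul_sum]
      _ = 0 := by
          refine Finset.sum_eq_zero fun j _ => ?_
          have h := congrFun hv j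
          simp only [Matrix.vecMul, dotProduct, Matrix.of_apply, Pi.zero_apply] at h
          rw [h, mul_zero]
  have hli : LinearIndependent Ω (fun l : ι => ((ψ l : S →* Ω) : S → Ω)) :=
    (linearIndependent_monoidHom S Ω).comp (fun l : ι => (ψ l : S →* Ω))
      (fun l l' h => hψ (RingHom.ext fun x => DFunLike.congr_fun h x))
  have hz := Fintype.linearIndependent_iff.mp hli v (by
    funext x
    simp only [Finset.sum_apply, Pi.smul_apply, smul_eq_mul, Pi.zero_apply]
    exact key x)
  exact hv0 (funext hz)

/-- The trace is the sum of the points. -/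
theorem map_trace_eq_sum (b : Module.Basis ι R S) (ρ : R →+* Ω) (ψ : ι → S →+* Ω)
    (hψ : Function.Injective ψ) (hρ : ∀ l, (ψ l).comp (algebraMap R S) = ρ) (x : S) :
    ρ (Algebra.trace R S x) = ∑ l, ψ l x := by
  set V : Matrix ι ι Ω := Matrix.of fun l j => ψ l (b j) with hV
  have hdet : IsUnit V.det := (det_points_ne_zero b ρ ψ hψ hρ).isUnit
  set M : Matrix ι ι Ω := (Algebra.leftMulMatrix b x).map ρ with hM
  have hcomm : Matrix.diagonal (fun l => ψ l x) * V = V * M := by
    ext l j
    rw [Matrix.diagonal_mul, Matrix.mul_apply]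
    simp only [hV, hM, Matrix.of_apply, Matrix.map_apply, Algebra.leftMulMatrix_eq_repr_mul]
    rw [← map_mul]
    conv_lhs => rw [← b.sum_repr (x * b j)]
    rw [map_sum]
    refine Finset.sum_congr rfl fun i _ => ?_
    rw [Algebra.smul_def, map_mul, ← hρ l, mul_comm]
    rfl
  rw [Algebra.trace_eq_matrix_trace b x]
  have h1 : ρ (Matrix.trace (Algebra.leftMulMatrix b x)) = Matrix.trace M := by
    simp only [Matrix.trace, map_sum, hM, Matrix.diag_apply, Matrix.map_apply]
  rw [h1]
  have h2 : M = V⁻¹ * (Matrix.diagonal (fun l => ψ l x) * V) := by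
    rw [hcomm, ← Matrix.mul_assoc, Matrix.nonsing_inv_mul _ hdet, Matrix.one_mul]
  rw [h2, Matrix.trace_mul_comm, Matrix.mul_assoc, Matrix.mul_nonsing_inv _ hdet, Matrix.mul_one,
    Matrix.trace_diagonal]

/-- Rank-many distinct points of a fibre: the discriminant does not vanish there. -/
theorem map_discr_ne_zero (b : Module.Basis ι R S) (ρ : R →+* Ω) (ψ : ι → S →+* Ω)
    (hψ : Function.Injective ψ) (hρ : ∀ l, (ψ l).comp (algebraMap R S) = ρ) :
    ρ (Algebra.discr R b) ≠ 0 := by
  set V : Matrix ι ι Ω := Matrix.of fun l j => ψ l (b j) with hV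
  have hT : ρ.mapMatrix (Algebra.traceMatrix R b) = Vᵀ * V := by
    ext i j
    simp only [RingHom.mapMatrix_apply, Matrix.map_apply, Algebra.traceMatrix_apply,
      Algebra.traceForm_apply, Matrix.mul_apply, Matrix.transpose_apply, hV, Matrix.of_apply]
    rw [map_trace_eq_sum b ρ ψ hψ hρ]
    exact Finset.sum_congr rfl fun l _ => map_mul _ _ _
  rw [Algebra.discr_def, RingHom.map_det, hT, Matrix.det_mul, Matrix.det_transpose]
  exact mul_ne_zero (det_points_ne_zero b ρ ψ hψ hρ) (det_points_ne_zero b ρ ψ hψ hρ)

/-- **(C2)** Rank-many distinct ring homomorphisms `S → Ω` into a field with the same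
restriction `ρ` to `R`, `ρ g = 0` (geometric points of the fibre over `g`). -/
theorem not_dvd_discr_of_ringHoms (b : Module.Basis ι R S) {g : R} (ρ : R →+* Ω) (hg : ρ g = 0)
    (Ψ : Finset (S →+* Ω)) (hcard : Fintype.card ι ≤ Ψ.card)
    (hΨ : ∀ ψ ∈ Ψ, ψ.comp (algebraMap R S) = ρ) : ¬ g ∣ Algebra.discr R b := by
  classical
  obtain ⟨f⟩ : Nonempty (ι ↪ Ψ) :=
    Function.Embedding.nonempty_of_card_le (by rwa [Fintype.card_coe])
  rintro ⟨e, he⟩
  refine map_discr_ne_zero b ρ (fun i => (f i : S →+* Ω))
    (fun i j h => f.injective (Subtype.ext h)) (fun i => hΨ _ (f i).2) ?_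
  rw [he, map_mul, hg, zero_mul]

end Points

section Primes

variable {R S : Type*} [CommRing R] [CommRing S] [Algebra R S]
variable {ι : Type*} [Fintype ι] [DecidableEq ι]

/-- **(C3)** Rank-many distinct primes of `S` over `(g)` (the totally split case). -/
theorem not_dvd_discr_of_primes (b : Module.Basis ι R S) {g : R} (hg : Prime g)
    (𝒬 : Finset (Ideal S)) (hcard : Fintype.card ι ≤ 𝒬.card)
    (h𝒬 : ∀ Q ∈ 𝒬, Q.IsPrime ∧ Q.comap (algebraMap R S) = Ideal.span {g}) :
    ¬ g ∣ Algebra.discr R b := by
  classical
  have hgp : (Ideal.span {g}).IsPrime := (Ideal.span_singleton_prime hg.ne_zero).mpr hg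
  have hfin : Module.Finite R S := Module.Finite.of_basis b
  have hint : Algebra.IsIntegral R S := Algebra.IsIntegral.of_finite R S
  let D := R ⧸ Ideal.span {g}
  let κ := FractionRing D
  let Ω := AlgebraicClosure κ
  let ρ : R →+* Ω := (algebraMap D Ω).comp (Ideal.Quotient.mk (Ideal.span {g}))
  have hρg : ρ g = 0 := by
    have : Ideal.Quotient.mk (Ideal.span {g}) g = 0 :=
      Ideal.Quotient.eq_zero_iff_mem.mpr (Ideal.mem_span_singleton_self g)
    simp only [ρ, RingHom.comp_apply, this, map_zero]
  have hDΩ : Function.Injective (algebraMap D Ω) := by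
    rw [IsScalarTower.algebraMap_eq D κ Ω]
    exact (algebraMap κ Ω).injective.comp (IsFractionRing.injective D κ)
  -- the point attached to a prime over `(g)`
  have hpt : ∀ Q : Ideal S, Q.IsPrime → Q.comap (algebraMap R S) = Ideal.span {g} →
      ∃ ψ : S →+* Ω, ψ.comp (algebraMap R S) = ρ ∧ RingHom.ker ψ = Q := by
    intro Q hQ hQg
    have hlo : Q.LiesOver (Ideal.span {g}) := ⟨hQg.symm⟩
    have htf1 : Module.IsTorsionFree D (S ⧸ Q) :=
      Module.isTorsionFree_iff_algebraMap_injective.mpr
        (FaithfulSMul.algebraMap_injective D (S ⧸ Q))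
    have htf2 : Module.IsTorsionFree D Ω := Module.isTorsionFree_iff_algebraMap_injective.mpr hDΩ
    have halg : Algebra.IsAlgebraic D (S ⧸ Q) := Algebra.IsIntegral.isAlgebraic
    let θ : S ⧸ Q →ₐ[D] Ω := IsAlgClosed.lift
    refine ⟨(θ : S ⧸ Q →+* Ω).comp (Ideal.Quotient.mk Q), ?_, ?_⟩
    · ext r
      simp only [RingHom.comp_apply, ρ]
      rw [← Ideal.Quotient.algebraMap_mk_of_liesOver Q (Ideal.span {g}) r]
      exact θ.commutes _
    · have hker : RingHom.ker (θ : S ⧸ Q →+* Ω) = ⊥ := by
        apply Ideal.eq_bot_of_comap_eq_bot (R := D)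
        rw [eq_bot_iff]
        intro a ha
        rw [Ideal.mem_comap, RingHom.mem_ker] at ha
        have h1 : algebraMap D Ω a = 0 := by
          rw [← ha]; exact (θ.commutes a).symm
        exact (map_eq_zero_iff _ hDΩ).mp h1
      rw [← RingHom.comap_ker, hker, ← RingHom.ker_eq_comap_bot, Ideal.mk_ker]
  choose Φ hΦ using hpt
  let F : {Q // Q ∈ 𝒬} → S →+* Ω := fun Q => Φ Q.1 (h𝒬 Q.1 Q.2).1 (h𝒬 Q.1 Q.2).2
  have hF : Function.Injective F := by
    intro Q Q' h
    apply Subtype.ext
    rw [← (hΦ Q.1 (h𝒬 Q.1 Q.2).1 (h𝒬 Q.1 Q.2).2).2, ← (hΦ Q'.1 (h𝒬 Q'.1 Q'.2).1 (h𝒬 Q'.1 Q'.2).2).2]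
    exact congrArg RingHom.ker h
  refine not_dvd_discr_of_ringHoms b ρ hρg (𝒬.attach.image F) ?_ ?_
  · rw [Finset.card_image_of_injective _ hF, Finset.card_attach]; exact hcard
  · intro ψ hψ
    obtain ⟨Q, -, rfl⟩ := Finset.mem_image.mp hψ
    exact (hΦ Q.1 (h𝒬 Q.1 Q.2).1 (h𝒬 Q.1 Q.2).2).1

end Primes

section IntegralClosure

universe u v w

variable {R : Type u} [CommRing R] [IsDomain R] (K : Type v) (L : Type w) [Field K] [Algebra R K]
  [IsFractionRing R K] [Field L] [Algebra K L] [Algebra R L] [IsScalarTower R K L]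

/-- **(P2)** A basis of the integral closure of `R` in `L` has `[L : K]` elements. -/
theorem card_basis [Algebra.IsAlgebraic K L] {ι : Type*} [Fintype ι]
    (b : Module.Basis ι R (integralClosure R L)) : Fintype.card ι = Module.finrank K L := by
  have hloc : IsLocalization
      (Algebra.algebraMapSubmonoid (integralClosure R L) (nonZeroDivisors R)) L :=
    IsIntegralClosure.isLocalization R K L (integralClosure R L)
  exact (Module.finrank_eq_card_basis (b.localizationLocalization K (nonZeroDivisors R) L)).symm

/-- **(P2)** The rank of the integral closure, when it is free. -/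
theorem finrank_integralClosure [Algebra.IsAlgebraic K L] [Module.Free R (integralClosure R L)]
    [Module.Finite R (integralClosure R L)] :
    Module.finrank R (integralClosure R L) = Module.finrank K L := by
  rw [Module.finrank_eq_card_chooseBasisIndex]
  exact card_basis K L (Module.Free.chooseBasis R (integralClosure R L))

/-- **(L.PUR)** for the integral closure `C` of a two-dimensional regular local ring `R` (binder
block of `Lib/NormalFree.free_integralClosure`) in a finite separable extension `L` of its
fraction field: if no prime element of `R` divides the discriminant of a basis of `C`, then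
`P C_P = 𝔪_R C_P` at every maximal ideal `P` of `C`, in the elementwise form (UNR). -/
theorem unr_integralClosure [IsIntegrallyClosed R] [IsLocalRing R] [IsNoetherianRing R]
    [UniqueFactorizationMonoid R] [FiniteDimensional K L] [Algebra.IsSeparable K L] {τ : R}
    (hτ : Prime τ) (hτm : τ ∈ maximalIdeal R) [IsPrincipalIdealRing (R ⧸ Ideal.span {τ})]
    (h : ∀ (ι : Type w) [Fintype ι] [DecidableEq ι] (b : Module.Basis ι R (integralClosure R L))
      (g : R), Prime g → ¬ g ∣ Algebra.discr R b)
    (P : Ideal (integralClosure R L)) (hP : P ≠ ⊤) {x : integralClosure R L} (hx : x ∈ P) :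
    ∃ s : integralClosure R L, s ∉ P ∧
      s * x ∈ (maximalIdeal R).map (algebraMap R (integralClosure R L)) := by
  classical
  have hfree : Module.Free R (integralClosure R L) :=
    Fermat.Agent.Lib.NormalFree.free_integralClosure K L hτ hτm
  have hfin : Module.Finite R (integralClosure R L) :=
    Fermat.Agent.Lib.NormalFree.finite_integralClosure K L
  exact unr_of_not_dvd_discr (Module.Free.chooseBasis R (integralClosure R L)) ⟨τ, hτ⟩
    (fun g hg => h _ _ g hg) P hP hx

end IntegralClosure

end Fermat.Agent.S44.L.Purity
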