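/-
PROGRAM MR (S44), strand L, row (L.PUR) "purity in dimension 2", level-free core (helper275,
second of the row; owner helper230).  Mathlib only.

* `isUnit_of_forall_height_one_notMem` (A1, Krull): in a Noetherian domain a nonzero element
  lying in no prime of height one is a unit.
* `repr_mem_of_trace_mem`, `mem_map_of_trace_mem`: if the discriminant of a basis `b` of `C / R`
  is a unit and `Tr (a * b j) ∈ I` for all `j`, then `a ∈ I C`.
* `isReduced_quotient`: unit discriminant over a local ring ⟹ the closed fibre `C ⧸ 𝔪 C` is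
  reduced.
* `unr_of_isUnit_discr` (A2): unit discriminant over a local ring ⟹ UNR at every maximal ideal
  `P` of `C`: for `x ∈ P` there is `s ∉ P` with `s * x ∈ 𝔪 C`.
-/
import Mathlib

set_option autoImplicit false

open IsLocalRing

namespace Fermat.Agent.S44.L.PurityCore

/-! ### (A1) Krull -/

/-- **(A1)** In a Noetherian domain, a nonzero element which lies in no prime of height one is a
unit (Krull's principal ideal theorem). -/
theorem isUnit_of_forall_height_one_notMem {R : Type*} [CommRing R] [IsDomain R]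
    [IsNoetherianRing R] {d : R} (hd : d ≠ 0)
    (h : ∀ q : Ideal R, q.IsPrime → q.height = 1 → d ∉ q) : IsUnit d := by
  by_contra hu
  have hne : Ideal.span {d} ≠ ⊤ := by
    rw [Ne, Ideal.span_singleton_eq_top]
    exact hu
  obtain ⟨p, hp⟩ := (Ideal.span {d}).nonempty_minimalPrimes hne
  have hprime : p.IsPrime := hp.1.1
  have hle : p.height ≤ 1 := Ideal.height_le_one_of_isPrincipal_of_mem_minimalPrimes _ p hp
  have hdp : d ∈ p := hp.1.2 (Ideal.mem_span_singleton_self d)
  have hpbot : p ≠ ⊥ := by
    rintro rfl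
    exact hd (by simpa using hdp)
  have hge : 1 ≤ p.height := by
    rw [Order.one_le_iff_ne_zero, Ne, Ideal.height_eq_zero_iff_eq_bot]
    exact hpbot
  exact h p hprime (le_antisymm hle hge) hdp

/-! ### (A2) unit discriminant ⟹ UNR -/

section Trace

variable {R C : Type*} [CommRing R] [CommRing C] [Algebra R C]
variable {ι : Type*} [Fintype ι] [DecidableEq ι]

/-- If the discriminant of the basis `b` is a unit and all the traces `Tr (a * b j)` lie in the
ideal `I`, then all the coordinates of `a` lie in `I`. -/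
theorem repr_mem_of_trace_mem (b : Module.Basis ι R C) (hd : IsUnit (Algebra.discr R b))
    (I : Ideal R) {a : C} (h : ∀ j, Algebra.trace R C (a * b j) ∈ I) (i : ι) :
    b.repr a i ∈ I := by
  classical
  set T : Matrix ι ι R := Algebra.traceMatrix R b with hT
  have hdet : IsUnit T.det := hd
  set r : ι → R := fun i => b.repr a i with hr
  set t : ι → R := fun j => Algebra.trace R C (a * b j) with ht
  have h1 : Matrix.vecMul r T = t := by
    funext j
    have ha : a = ∑ i, r i • b i := (b.sum_repr a).symm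
    simp only [Matrix.vecMul, dotProduct, hT, Algebra.traceMatrix_apply, Algebra.traceForm_apply,
      ht]
    conv_rhs => rw [ha, Finset.sum_mul, map_sum]
    refine Finset.sum_congr rfl fun i _ => ?_
    rw [smul_mul_assoc, map_smul, smul_eq_mul]
  have h2 : r = Matrix.vecMul t T⁻¹ := by
    rw [← h1, Matrix.vecMul_vecMul, Matrix.mul_nonsing_inv T hdet, Matrix.vecMul_one]
  have h3 : r i = ∑ j, t j * T⁻¹ j i := by
    rw [h2]
    rfl
  show r i ∈ I
  rw [h3]
  exact Ideal.sum_mem _ fun j _ => Ideal.mul_mem_right _ _ (h j)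

/-- If the discriminant of the basis `b` is a unit and all the traces `Tr (a * b j)` lie in the
ideal `I`, then `a ∈ I C`. -/
theorem mem_map_of_trace_mem (b : Module.Basis ι R C) (hd : IsUnit (Algebra.discr R b))
    (I : Ideal R) {a : C} (h : ∀ j, Algebra.trace R C (a * b j) ∈ I) :
    a ∈ I.map (algebraMap R C) := by
  rw [← b.sum_repr a]
  refine Ideal.sum_mem _ fun i _ => ?_
  rw [Algebra.smul_def]
  exact Ideal.mul_mem_right _ _ (Ideal.mem_map_of_mem _ (repr_mem_of_trace_mem b hd I h i))

end Trace

/-- The trace of a nilpotent element of an algebra over a field is zero. -/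
theorem trace_eq_zero_of_isNilpotent {k A : Type*} [Field k] [CommRing A] [Algebra k A] {y : A}
    (hy : IsNilpotent y) : Algebra.trace k A y = 0 := by
  have h1 : IsNilpotent (Algebra.lmul k A y) := hy.map (Algebra.lmul k A)
  have h2 : IsNilpotent (LinearMap.trace k A (Algebra.lmul k A y)) :=
    LinearMap.isNilpotent_trace_of_isNilpotent h1
  exact h2.eq_zero

section Local

variable {R C : Type*} [CommRing R] [IsLocalRing R] [CommRing C] [Algebra R C]
variable {ι : Type*} [Fintype ι] [DecidableEq ι]

attribute [local instance] Ideal.Quotient.field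

/-- If the discriminant is a unit, an element of `C` which is nilpotent modulo `𝔪 C` lies in
`𝔪 C`. -/
theorem mem_map_of_pow_mem (b : Module.Basis ι R C) (hd : IsUnit (Algebra.discr R b)) {a : C}
    {n : ℕ} (ha : a ^ n ∈ (maximalIdeal R).map (algebraMap R C)) :
    a ∈ (maximalIdeal R).map (algebraMap R C) := by
  have : Module.Free R C := Module.Free.of_basis b
  have : Module.Finite R C := Module.Finite.of_basis b
  refine mem_map_of_trace_mem b hd _ fun j => ?_
  rw [← Ideal.Quotient.eq_zero_iff_mem, ← Algebra.trace_quotient_mk]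
  apply trace_eq_zero_of_isNilpotent
  refine ⟨n, ?_⟩
  rw [← map_pow, mul_pow, map_mul, Ideal.Quotient.eq_zero_iff_mem.mpr ha, zero_mul]

/-- If the discriminant is a unit, the closed fibre `C ⧸ 𝔪 C` is reduced. -/
theorem isReduced_quotient (b : Module.Basis ι R C) (hd : IsUnit (Algebra.discr R b)) :
    IsReduced (C ⧸ (maximalIdeal R).map (algebraMap R C)) := by
  refine ⟨fun y hy => ?_⟩
  obtain ⟨a, rfl⟩ := Ideal.Quotient.mk_surjective y
  obtain ⟨n, hn⟩ := hy
  rw [← map_pow, Ideal.Quotient.eq_zero_iff_mem] at hn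
  exact Ideal.Quotient.eq_zero_iff_mem.mpr (mem_map_of_pow_mem b hd hn)

/-- **(A2)** Unit discriminant ⟹ UNR: for every maximal ideal `P` of `C` and `x ∈ P` there is
`s ∉ P` with `s * x ∈ 𝔪 C`. -/
theorem unr_of_isUnit_discr (b : Module.Basis ι R C) (hd : IsUnit (Algebra.discr R b))
    (P : Ideal C) [hP : P.IsMaximal] {x : C} (hx : x ∈ P) :
    ∃ s : C, s ∉ P ∧ s * x ∈ (maximalIdeal R).map (algebraMap R C) := by
  classical
  have : Module.Free R C := Module.Free.of_basis b
  have : Module.Finite R C := Module.Finite.of_basis b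
  set J : Ideal C := (maximalIdeal R).map (algebraMap R C) with hJ
  -- `𝔪 C ≤ P`
  have hJP : J ≤ P := by
    have hmax : (P.comap (algebraMap R C)).IsMaximal :=
      Ideal.isMaximal_comap_of_isIntegral_of_isMaximal P
    have h1 : P.comap (algebraMap R C) = maximalIdeal R := IsLocalRing.eq_maximalIdeal hmax
    rw [hJ, Ideal.map_le_iff_le_comap, h1]
  -- the closed fibre
  have hred : IsReduced (C ⧸ J) := isReduced_quotient b hd
  have hfin : Module.Finite (R ⧸ maximalIdeal R) (C ⧸ J) :=
    Module.Finite.of_restrictScalars_finite R (R ⧸ maximalIdeal R) (C ⧸ J)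
  have hart : IsArtinianRing (C ⧸ J) := IsArtinianRing.of_finite (R ⧸ maximalIdeal R) (C ⧸ J)
  -- the maximal ideal `P / J`
  have hPmax : (P.map (Ideal.Quotient.mk J)).IsMaximal :=
    Ideal.IsMaximal.map_of_surjective_of_ker_le Ideal.Quotient.mk_surjective
      (by rw [Ideal.mk_ker]; exact hJP)
  let Pb : MaximalSpectrum (C ⧸ J) := ⟨P.map (Ideal.Quotient.mk J), hPmax⟩
  let e : ∀ I : MaximalSpectrum (C ⧸ J), (C ⧸ J) ⧸ I.asIdeal := Pi.single Pb 1
  obtain ⟨s, hs⟩ := Ideal.Quotient.mk_surjective ((IsArtinianRing.equivPi (C ⧸ J)).symm e)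
  have hcomap : (P.map (Ideal.Quotient.mk J)).comap (Ideal.Quotient.mk J) = P := by
    rw [Ideal.comap_map_of_surjective _ Ideal.Quotient.mk_surjective, ← RingHom.ker_eq_comap_bot,
      Ideal.mk_ker, sup_eq_left]
    exact hJP
  refine ⟨s, fun hsP => ?_, ?_⟩
  · -- `s ∉ P`
    have h1 : Ideal.Quotient.mk J s ∈ P.map (Ideal.Quotient.mk J) := Ideal.mem_map_of_mem _ hsP
    have h2 : (IsArtinianRing.equivPi (C ⧸ J)) (Ideal.Quotient.mk J s) Pb = 0 := by
      rw [IsArtinianRing.equivPi_apply]
      exact Ideal.Quotient.eq_zero_iff_mem.mpr h1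
    rw [hs, AlgEquiv.apply_symm_apply] at h2
    have h3 : e Pb = 1 := Pi.single_eq_same Pb 1
    rw [h3] at h2
    have : Nontrivial ((C ⧸ J) ⧸ Pb.asIdeal) := Ideal.Quotient.nontrivial_iff.mpr hPmax.ne_top
    exact one_ne_zero h2
  · -- `s * x ∈ 𝔪 C`
    rw [← Ideal.Quotient.eq_zero_iff_mem, map_mul]
    apply (IsArtinianRing.equivPi (C ⧸ J)).injective
    rw [map_mul, map_zero, hs, AlgEquiv.apply_symm_apply]
    funext I
    rw [Pi.mul_apply, IsArtinianRing.equivPi_apply, Pi.zero_apply]
    by_cases hI : I = Pb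
    · subst hI
      have hxP : Ideal.Quotient.mk J x ∈ Pb.asIdeal := Ideal.mem_map_of_mem _ hx
      rw [Ideal.Quotient.eq_zero_iff_mem.mpr hxP, mul_zero]
    · rw [show e I = 0 from Pi.single_eq_of_ne hI 1, zero_mul]

end Local

end Fermat.Agent.S44.L.PurityCore
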