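import Mathlib
import Fermat.Agent.S44.L.PurityCore
import Fermat.Agent.Lib.NormalFree

set_option autoImplicit false

open IsLocalRing Matrix

namespace Fermat.Agent.S44.L.PurityDisc

open Fermat.Agent.S44.L.PurityCore

/-- **(P1)** In a UFD a nonzero element divisible by no prime element is a unit. -/
theorem isUnit_of_forall_prime_not_dvd {R : Type*} [CommRing R] [IsDomain R]
    [UniqueFactorizationMonoid R] {d : R} (hd : d ≠ 0) (h : ∀ g : R, Prime g → ¬ g ∣ d) :
    IsUnit d := by
  by_contra hu
  obtain ⟨g, hg, hgd⟩ := WfDvdMonoid.exists_irreducible_factor hu hd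
  exact h g (UniqueFactorizationMonoid.irreducible_iff_prime.mp hg) hgd

section Family

variable {R C ι κ : Type*} [CommRing R] [CommRing C] [Algebra R C]
  [Fintype ι] [DecidableEq ι] [Fintype κ] [DecidableEq κ]

/-- **(P2)** The discriminant of a basis divides the discriminant of every family of the same
cardinality. -/
theorem discr_basis_dvd_discr (b : Module.Basis ι R C) (e : κ ≃ ι) (c : κ → C) :
    Algebra.discr R b ∣ Algebra.discr R c := by
  let b' : Module.Basis κ R C := b.reindex e.symm
  have hb' : Algebra.discr R b' = Algebra.discr R b := by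
    rw [show (b' : κ → C) = b ∘ e.symm.symm from Module.Basis.coe_reindex _ _]
    exact Algebra.discr_reindex (A := R) b e.symm
  let P : Matrix κ κ R := fun i j => b'.repr (c i) j
  have hc : c = (P.map (algebraMap R C)) *ᵥ b' := by
    funext i
    have h1 : c i = ∑ j, b'.repr (c i) j • b' j := (b'.sum_repr (c i)).symm
    simp only [Matrix.mulVec, dotProduct, P]
    conv_lhs => rw [h1]
    exact Finset.sum_congr rfl fun j _ => Algebra.smul_def _ _
  rw [hc, Algebra.discr_of_matrix_mulVec, hb']
  exact Dvd.intro_left _ rfl

end Family

/-- **(P3)** The discriminant of an `R`-basis of the integral closure of `R` in a finite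
separable extension of `Frac R` is nonzero. -/
theorem discr_ne_zero_of_isSeparable {R : Type*} (K L : Type*) [CommRing R] [IsDomain R]
    [Field K] [Algebra R K] [IsFractionRing R K] [Field L] [Algebra K L] [Algebra R L]
    [IsScalarTower R K L] [FiniteDimensional K L] [Algebra.IsSeparable K L]
    {ι : Type*} [Fintype ι] [DecidableEq ι] (b : Module.Basis ι R (integralClosure R L)) :
    Algebra.discr R b ≠ 0 := by
  have hloc : IsLocalization
      (Algebra.algebraMapSubmonoid (integralClosure R L) (nonZeroDivisors R)) L :=
    IsIntegralClosure.isLocalization_of_isSeparable R K L (integralClosure R L)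
  have h := Algebra.discr_localizationLocalization R (nonZeroDivisors R) (Rₘ := K) L b
  intro h0
  rw [h0, map_zero] at h
  exact Algebra.discr_not_zero_of_basis K
    (b.localizationLocalization K (nonZeroDivisors R) L) h

section Unr

variable {R C ι κ : Type*} [CommRing R] [IsDomain R] [IsLocalRing R] [CommRing C] [Algebra R C]
  [Fintype ι] [DecidableEq ι] [Fintype κ] [DecidableEq κ]

/-- **(P4)** Purity, discriminant form over a factorial local ring: if for every prime element
`g` of `R` some family `c` has discriminant prime to `g`, then `C` is unramified over the closed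
point: for every maximal `P` of `C` and `x ∈ P` there is `s ∉ P` with `s * x ∈ 𝔪 C`. -/
theorem unr_of_forall_prime_exists_discr [UniqueFactorizationMonoid R]
    (b : Module.Basis ι R C) (e : κ ≃ ι) (hb : Algebra.discr R b ≠ 0)
    (h : ∀ g : R, Prime g → ∃ c : κ → C, ¬ g ∣ Algebra.discr R c)
    (P : Ideal C) [P.IsMaximal] {x : C} (hx : x ∈ P) :
    ∃ s : C, s ∉ P ∧ s * x ∈ (maximalIdeal R).map (algebraMap R C) := by
  refine unr_of_isUnit_discr b (isUnit_of_forall_prime_not_dvd hb fun g hg hgd => ?_) P hx
  obtain ⟨c, hc⟩ := h g hg
  exact hc (hgd.trans (discr_basis_dvd_discr b e c))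

/-- **(P4')** Purity, discriminant form over a Noetherian local domain: if for every prime `q`
of height one some family `c` has discriminant outside `q`, then UNR holds at every maximal
ideal of `C`. -/
theorem unr_of_forall_height_one_exists_discr [IsNoetherianRing R]
    (b : Module.Basis ι R C) (e : κ ≃ ι) (hb : Algebra.discr R b ≠ 0)
    (h : ∀ q : Ideal R, q.IsPrime → q.height = 1 → ∃ c : κ → C, Algebra.discr R c ∉ q)
    (P : Ideal C) [P.IsMaximal] {x : C} (hx : x ∈ P) :
    ∃ s : C, s ∉ P ∧ s * x ∈ (maximalIdeal R).map (algebraMap R C) := by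
  refine unr_of_isUnit_discr b
    (isUnit_of_forall_height_one_notMem hb fun q hq hq1 hdq => ?_) P hx
  obtain ⟨c, hc⟩ := h q hq hq1
  obtain ⟨k, hk⟩ := discr_basis_dvd_discr b e c
  exact hc (hk ▸ Ideal.mul_mem_right k q hdq)

end Unr

section IntegralClosure

variable {R : Type*} (K L : Type*) [CommRing R] [IsDomain R] [IsIntegrallyClosed R]
  [IsLocalRing R] [IsNoetherianRing R]
  [Field K] [Algebra R K] [IsFractionRing R K]
  [Field L] [Algebra K L] [Algebra R L] [IsScalarTower R K L]
  [FiniteDimensional K L] [Algebra.IsSeparable K L]

/-- The integral closure has an `R`-basis indexed by `Fin (finrank K L)`. -/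
theorem exists_basis_integralClosure {π : R} (hπ : Prime π) (hπm : π ∈ maximalIdeal R)
    [IsPrincipalIdealRing (R ⧸ Ideal.span {π})] :
    Nonempty (Module.Basis (Fin (Module.finrank K L)) R (integralClosure R L)) := by
  have hfin : Module.Finite R (integralClosure R L) :=
    Fermat.Agent.Lib.NormalFree.finite_integralClosure K L
  have hfree : Module.Free R (integralClosure R L) :=
    Fermat.Agent.Lib.NormalFree.free_integralClosure K L hπ hπm
  let b := Module.Free.chooseBasis R (integralClosure R L)
  have hloc : IsLocalization
      (Algebra.algebraMapSubmonoid (integralClosure R L) (nonZeroDivisors R)) L :=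
    IsIntegralClosure.isLocalization_of_isSeparable R K L (integralClosure R L)
  let bK : Module.Basis (Module.Free.ChooseBasisIndex R (integralClosure R L)) K L :=
    b.localizationLocalization K (nonZeroDivisors R) L
  have hcard : Fintype.card (Module.Free.ChooseBasisIndex R (integralClosure R L))
      = Module.finrank K L := (Module.finrank_eq_card_basis bK).symm
  exact ⟨b.reindex (Fintype.equivFinOfCardEq hcard)⟩

/-- **(P5)** Purity for the integral closure `C` of `R` in a finite separable extension `L` of
`K = Frac R`, `R` a factorial Noetherian local domain with a prime `π ∈ 𝔪` such that `R ⧸ (π)`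
is a principal ideal ring: if for every prime element `g` of `R` some family
`c : Fin [L : K] → C` has discriminant prime to `g`, then for every maximal `P` of `C` and
`x ∈ P` there is `s ∉ P` with `s * x ∈ 𝔪 C`. -/
theorem unr_integralClosure_of_forall_prime [UniqueFactorizationMonoid R] {π : R} (hπ : Prime π)
    (hπm : π ∈ maximalIdeal R) [IsPrincipalIdealRing (R ⧸ Ideal.span {π})]
    (h : ∀ g : R, Prime g →
      ∃ c : Fin (Module.finrank K L) → integralClosure R L, ¬ g ∣ Algebra.discr R c)
    (P : Ideal (integralClosure R L)) [P.IsMaximal] {x : integralClosure R L} (hx : x ∈ P) :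
    ∃ s : integralClosure R L, s ∉ P ∧
      s * x ∈ (maximalIdeal R).map (algebraMap R (integralClosure R L)) := by
  obtain ⟨b⟩ := exists_basis_integralClosure K L hπ hπm
  exact unr_of_forall_prime_exists_discr b (Equiv.refl _) (discr_ne_zero_of_isSeparable K L b) h
    P hx

/-- **(P5')** The same with height-one primes instead of prime elements (no factoriality). -/
theorem unr_integralClosure_of_forall_height_one {π : R} (hπ : Prime π)
    (hπm : π ∈ maximalIdeal R) [IsPrincipalIdealRing (R ⧸ Ideal.span {π})]
    (h : ∀ q : Ideal R, q.IsPrime → q.height = 1 →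
      ∃ c : Fin (Module.finrank K L) → integralClosure R L, Algebra.discr R c ∉ q)
    (P : Ideal (integralClosure R L)) [P.IsMaximal] {x : integralClosure R L} (hx : x ∈ P) :
    ∃ s : integralClosure R L, s ∉ P ∧
      s * x ∈ (maximalIdeal R).map (algebraMap R (integralClosure R L)) := by
  obtain ⟨b⟩ := exists_basis_integralClosure K L hπ hπm
  exact unr_of_forall_height_one_exists_discr b (Equiv.refl _)
    (discr_ne_zero_of_isSeparable K L b) h P hx

end IntegralClosure

end Fermat.Agent.S44.L.PurityDisc
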