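import Mathlib
import Fermat.Agent.S44.L.Node

/-!
# Program MR (S44), strand L, brick (L.UNR): the consumer of UNR

Level-free commutative algebra (helper196).  Imports Mathlib and the landed `S44/L/Node`
(helper153; it imports `S44/L/LocalPrincipal`, helper27) only.

Setting: `R` a noetherian local domain whose maximal ideal is `(s, t)` with `s`, `t`
non-associated prime elements (a regular node) [resp. `π ≠ 0` with `R / (π)` a principal ideal
domain (a smooth point of the special fibre)]; `C` a noetherian domain, integral over `R`, with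
`R → C` injective; `P` a maximal ideal of `C` at which `C` is unramified over `R`:

  `hunr : ∀ x ∈ P, ∃ c : C, c ∉ P ∧ c * x ∈ (maximalIdeal R).map (algebraMap R C)`

(the conclusion of the purity brick (L.PUR)).  Then the localisation `C_P` is again a regular node
with the same parameters: its maximal ideal is `(s, t)` and `s`, `t` are non-associated prime
elements of `C_P` (`node_atPrime`) [resp. `π` is a nonzero element of `C_P` with `C_P / (π)` a
principal ideal domain (`smooth_atPrime`)].  These are the binder blocks of `Node.node_lemma` and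
of the quot-forms of `LocalPrincipal` on `Localization.AtPrime P`.

Proof.  `P C_P = m_R C_P = (s, t)` by `hunr`.  `R` is factorial (`LocalPrincipal.quot_ufm`), hence
integrally closed, so going down holds for `R ⊆ C` (Mathlib): there is a prime `Q ⊆ P` of `C` over
`(t)`; if `s ^ n ∈ t C_P`, then `c s ^ n ∈ t C ⊆ Q` with `c ∉ P`, so `s ∈ Q ∩ R = (t)`, which is
false.  So `C_P / (t)` is a noetherian local ring whose maximal ideal is generated by the
non-nilpotent element `s`; by Krull's intersection theorem it is a domain, i.e. `t` is prime.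
-/

set_option autoImplicit false
set_option linter.style.haveILetI false

namespace Fermat.Agent.S44.L.Unr

open IsLocalRing
open Fermat.Agent.S44.L

/-! ### A noetherian local ring with principal maximal ideal -/

section DVR

variable {B : Type*} [CommRing B] [IsLocalRing B] [IsNoetherianRing B]

/-- In a noetherian local ring with maximal ideal `(ϑ)`, every nonzero element is a unit times
a power of `ϑ` (Krull's intersection theorem). -/
theorem exists_eq_unit_mul_pow_of_maximalIdeal_eq_span {ϑ : B}
    (hm : maximalIdeal B = Ideal.span {ϑ}) {x : B} (hx : x ≠ 0) :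
    ∃ (u : B) (n : ℕ), IsUnit u ∧ x = u * ϑ ^ n := by
  have hK : ⨅ i : ℕ, (maximalIdeal B) ^ i = ⊥ :=
    Ideal.iInf_pow_eq_bot_of_isLocalRing _ (maximalIdeal.isMaximal B).ne_top
  have h1 : ∃ n : ℕ, x ∉ maximalIdeal B ^ n := by
    by_contra hcon
    apply hx
    have h2 : x ∈ (⨅ i : ℕ, (maximalIdeal B) ^ i) := by
      rw [Ideal.mem_iInf]
      exact fun n => not_not.mp fun h => hcon ⟨n, h⟩
    rw [hK] at h2
    exact (Submodule.mem_bot B).mp h2
  classical
  obtain ⟨n, hn, hmin⟩ : ∃ n : ℕ, x ∉ maximalIdeal B ^ n ∧ ∀ k < n, x ∈ maximalIdeal B ^ k :=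
    ⟨Nat.find h1, Nat.find_spec h1, fun k hk => not_not.mp (Nat.find_min h1 hk)⟩
  have hn0 : n ≠ 0 := by
    rintro rfl
    rw [pow_zero, Ideal.one_eq_top] at hn
    exact hn Submodule.mem_top
  obtain ⟨k, rfl⟩ := Nat.exists_eq_succ_of_ne_zero hn0
  have hk' : x ∈ maximalIdeal B ^ k := hmin k (Nat.lt_succ_self k)
  rw [hm, Ideal.span_singleton_pow, Ideal.mem_span_singleton] at hk'
  obtain ⟨u, hu⟩ := hk'
  refine ⟨u, k, ?_, by rw [hu, mul_comm]⟩
  by_contra hu'
  have humem : u ∈ maximalIdeal B := by
    rw [IsLocalRing.mem_maximalIdeal, mem_nonunits_iff]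
    exact hu'
  rw [hm, Ideal.mem_span_singleton] at humem
  obtain ⟨v, rfl⟩ := humem
  apply hn
  rw [hm, Ideal.span_singleton_pow, Ideal.mem_span_singleton]
  exact ⟨v, by rw [hu, pow_succ]; ring⟩

/-- **DVR criterion.**  A noetherian local ring whose maximal ideal is generated by one
non-nilpotent element is a domain. -/
theorem isDomain_of_maximalIdeal_eq_span {ϑ : B} (hm : maximalIdeal B = Ideal.span {ϑ})
    (hϑ : ∀ n : ℕ, ϑ ^ n ≠ 0) : IsDomain B := by
  haveI : NoZeroDivisors B := by
    refine ⟨fun {x y} hxy => ?_⟩
    by_contra hcon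
    obtain ⟨hx0, hy0⟩ := not_or.mp hcon
    obtain ⟨u, a, hu, rfl⟩ := exists_eq_unit_mul_pow_of_maximalIdeal_eq_span hm hx0
    obtain ⟨v, b, hv, rfl⟩ := exists_eq_unit_mul_pow_of_maximalIdeal_eq_span hm hy0
    have h1 : (u * v) * ϑ ^ (a + b) = 0 := by
      rw [← hxy, pow_add]
      ring
    exact hϑ (a + b) ((hu.mul hv).mul_right_eq_zero.mp h1)
  exact NoZeroDivisors.to_isDomain B

end DVR

/-! ### Lying over the closed point -/

section Over

variable {R : Type*} [CommRing R] [IsLocalRing R]
  {C : Type*} [CommRing C] [Algebra R C] [Algebra.IsIntegral R C] (P : Ideal C) [P.IsMaximal]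

/-- A maximal ideal of an integral extension of a local ring lies over the maximal ideal. -/
theorem under_eq_maximalIdeal : P.under R = maximalIdeal R :=
  IsLocalRing.eq_maximalIdeal (Ideal.IsMaximal.under R P)

theorem map_maximalIdeal_le : (maximalIdeal R).map (algebraMap R C) ≤ P := by
  rw [Ideal.map_le_iff_le_comap, ← Ideal.under_def, under_eq_maximalIdeal P]

/-- Under UNR at `P`, the maximal ideal of `C_P` is generated by the generators of `m_R`. -/
theorem map_eq_span (A : Type*) [CommRing A] [Algebra C A] [IsLocalization.AtPrime A P]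
    {π θ : R} (hm : maximalIdeal R = Ideal.span {π, θ})
    (hunr : ∀ x ∈ P, ∃ c : C, c ∉ P ∧ c * x ∈ (maximalIdeal R).map (algebraMap R C)) :
    P.map (algebraMap C A) =
      Ideal.span {algebraMap C A (algebraMap R C π), algebraMap C A (algebraMap R C θ)} := by
  have h1 : P.map (algebraMap C A)
      = ((maximalIdeal R).map (algebraMap R C)).map (algebraMap C A) := by
    apply le_antisymm
    · rw [Ideal.map_le_iff_le_comap]
      intro x hx
      obtain ⟨c, hc, hcx⟩ := hunr x hx
      rw [Ideal.mem_comap]
      have hu : IsUnit (algebraMap C A c) :=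
        (IsLocalization.AtPrime.isUnit_to_map_iff A P c).mpr hc
      have h2 : algebraMap C A (c * x) ∈
          Ideal.map (algebraMap C A) ((maximalIdeal R).map (algebraMap R C)) :=
        Ideal.mem_map_of_mem _ hcx
      rw [map_mul] at h2
      exact (Ideal.unit_mul_mem_iff_mem _ hu).mp h2
    · exact Ideal.map_mono (map_maximalIdeal_le P)
  rw [h1, hm, Ideal.map_span, Ideal.map_span, Set.image_pair, Set.image_pair]

end Over

/-! ### The core: one prime generator at a time -/

section Core

variable {R : Type*} [CommRing R] [IsLocalRing R] [IsIntegrallyClosed R]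
  {C : Type*} [CommRing C] [IsDomain C] [Algebra R C] [FaithfulSMul R C] [Algebra.IsIntegral R C]

/-- Going down: if `π` is a prime element of `R` not dividing `θ`, then no power of `θ` is
divisible by `π` in `C_P`. -/
theorem not_dvd_pow_atPrime (P : Ideal C) [P.IsMaximal]
    (A : Type*) [CommRing A] [Algebra C A] [IsLocalization.AtPrime A P]
    {π θ : R} (hπ : Prime π) (hπθ : ¬ π ∣ θ) (n : ℕ) :
    ¬ algebraMap C A (algebraMap R C π) ∣ algebraMap C A (algebraMap R C θ) ^ n := by
  intro hdvd
  haveI hq : (Ideal.span {π}).IsPrime := (Ideal.span_singleton_prime hπ.ne_zero).mpr hπ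
  haveI : P.LiesOver (maximalIdeal R) := ⟨(under_eq_maximalIdeal P).symm⟩
  have hle : Ideal.span {π} ≤ maximalIdeal R := by
    rw [Ideal.span_singleton_le_iff_mem, IsLocalRing.mem_maximalIdeal, mem_nonunits_iff]
    exact hπ.not_isUnit
  obtain ⟨Q, hQP, hQ, hQo⟩ :=
    Ideal.exists_ideal_le_liesOver_of_le (p := Ideal.span {π}) (q := maximalIdeal R) P hle
  obtain ⟨z, hz⟩ := hdvd
  obtain ⟨⟨a, c⟩, rfl⟩ := IsLocalization.mk'_surjective P.primeCompl z
  have h1 : algebraMap C A (algebraMap R C θ ^ n * c) = algebraMap C A (algebraMap R C π * a) := by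
    rw [map_mul, map_mul, map_pow, hz, mul_assoc, IsLocalization.mk'_spec]
  have h2 := IsLocalization.injective A P.primeCompl_le_nonZeroDivisors h1
  have hπQ : algebraMap R C π ∈ Q :=
    (Ideal.mem_of_liesOver Q (Ideal.span {π}) π).mp (Ideal.mem_span_singleton_self π)
  have h3 : algebraMap R C θ ^ n * c ∈ Q := by
    rw [h2]
    exact Ideal.mul_mem_right _ _ hπQ
  have hc : (c : C) ∉ Q := fun h => c.2 (hQP h)
  have h4 : algebraMap R C θ ∈ Q := hQ.mem_of_pow_mem n ((hQ.mem_or_mem h3).resolve_right hc)
  have h5 : θ ∈ Ideal.span {π} := (Ideal.mem_of_liesOver Q (Ideal.span {π}) θ).mpr h4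
  exact hπθ (Ideal.mem_span_singleton.mp h5)

variable [IsNoetherianRing C] (P : Ideal C) [P.IsMaximal]
  (A : Type*) [CommRing A] [Algebra C A] [IsLocalization.AtPrime A P]

/-- **(L.UNR), core.**  `R` an integrally closed local domain with `m_R = (π, θ)`, `π` prime;
`C` a noetherian domain, integral over `R`, unramified at the maximal ideal `P`; `A = C_P`.
Then `π` is prime in `A`, `A / (π)` is a principal ideal domain, `P A = (π, θ)`, and `π ∤ θ` in
`A` if `π ∤ θ` in `R`. -/
theorem core {π θ : R} (hπ : Prime π) (hm : maximalIdeal R = Ideal.span {π, θ})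
    (hunr : ∀ x ∈ P, ∃ c : C, c ∉ P ∧ c * x ∈ (maximalIdeal R).map (algebraMap R C)) :
    Prime (algebraMap C A (algebraMap R C π)) ∧
    IsDomain (A ⧸ Ideal.span {algebraMap C A (algebraMap R C π)}) ∧
    IsPrincipalIdealRing (A ⧸ Ideal.span {algebraMap C A (algebraMap R C π)}) ∧
    P.map (algebraMap C A) =
      Ideal.span {algebraMap C A (algebraMap R C π), algebraMap C A (algebraMap R C θ)} ∧
    (¬ π ∣ θ → ¬ algebraMap C A (algebraMap R C π) ∣ algebraMap C A (algebraMap R C θ)) := by
  haveI : IsLocalRing A := IsLocalization.AtPrime.isLocalRing A P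
  haveI : IsDomain A := IsLocalization.isDomain_of_atPrime A P
  haveI : IsNoetherianRing A := IsLocalization.isNoetherianRing P.primeCompl A inferInstance
  have hmA := map_eq_span P A hm hunr
  have hmA' : maximalIdeal A =
      Ideal.span {algebraMap C A (algebraMap R C π), algebraMap C A (algebraMap R C θ)} := by
    rw [← hmA, IsLocalization.AtPrime.map_eq_maximalIdeal P A]
  have hinj : Function.Injective (algebraMap C A) :=
    IsLocalization.injective A P.primeCompl_le_nonZeroDivisors
  have hπ'0 : algebraMap C A (algebraMap R C π) ≠ 0 := by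
    rw [Ne, map_eq_zero_iff _ hinj, map_eq_zero_iff _ (FaithfulSMul.algebraMap_injective R C)]
    exact hπ.ne_zero
  have hπ'm : algebraMap C A (algebraMap R C π) ∈ maximalIdeal A := by
    rw [hmA']
    exact Ideal.subset_span (by simp)
  have hdom : IsDomain (A ⧸ Ideal.span {algebraMap C A (algebraMap R C π)}) := by
    by_cases hdvd : π ∣ θ
    · -- `m_R = (π)`: the quotient is a field
      have hθ' : algebraMap C A (algebraMap R C θ) ∈
          Ideal.span {algebraMap C A (algebraMap R C π)} := by
        obtain ⟨e, rfl⟩ := hdvd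
        rw [map_mul, map_mul]
        exact Ideal.mul_mem_right _ _ (Ideal.mem_span_singleton_self _)
      have hspan : Ideal.span {algebraMap C A (algebraMap R C π)} = maximalIdeal A := by
        rw [hmA']
        apply le_antisymm
        · exact Ideal.span_mono (by simp)
        · rw [Ideal.span_le]
          rintro x (rfl | rfl)
          · exact Ideal.mem_span_singleton_self _
          · exact hθ'
      haveI : (Ideal.span {algebraMap C A (algebraMap R C π)}).IsPrime :=
        hspan ▸ (maximalIdeal.isMaximal A).isPrime
      infer_instance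
    · -- `π ∤ θ`: the quotient is a discrete valuation ring with uniformiser `θ`
      haveI : Nontrivial (A ⧸ Ideal.span {algebraMap C A (algebraMap R C π)}) := by
        rw [Ideal.Quotient.nontrivial_iff]
        intro htop
        have h1 : (1 : A) ∈ Ideal.span {algebraMap C A (algebraMap R C π)} := by
          rw [htop]
          exact Submodule.mem_top
        exact (Ideal.ne_top_iff_one _).mp (maximalIdeal.isMaximal A).ne_top
          (((Ideal.span_singleton_le_iff_mem _).mpr hπ'm) h1)
      haveI : IsLocalRing (A ⧸ Ideal.span {algebraMap C A (algebraMap R C π)}) :=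
        IsLocalRing.of_surjective' (Ideal.Quotient.mk _) Ideal.Quotient.mk_surjective
      have hmB : maximalIdeal (A ⧸ Ideal.span {algebraMap C A (algebraMap R C π)}) =
          Ideal.span {Ideal.Quotient.mk (Ideal.span {algebraMap C A (algebraMap R C π)})
            (algebraMap C A (algebraMap R C θ))} := by
        ext x
        obtain ⟨x, rfl⟩ := Ideal.Quotient.mk_surjective x
        rw [Ideal.mem_span_singleton, IsLocalRing.mem_maximalIdeal, mem_nonunits_iff]
        constructor
        · intro hx
          have hxm : x ∈ maximalIdeal A := by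
            rw [IsLocalRing.mem_maximalIdeal, mem_nonunits_iff]
            exact fun hu => hx (hu.map _)
          exact Node.mk_dvd_of_mem hmA' hxm
        · rintro ⟨c, hc⟩ hu
          rw [hc] at hu
          exact Node.not_isUnit_mk hmA' (isUnit_of_mul_isUnit_left hu)
      refine isDomain_of_maximalIdeal_eq_span hmB (fun n hn => ?_)
      rw [← map_pow, Ideal.Quotient.eq_zero_iff_mem, Ideal.mem_span_singleton] at hn
      exact not_dvd_pow_atPrime P A hπ hdvd n hn
  have hprime : Prime (algebraMap C A (algebraMap R C π)) := by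
    rw [← Ideal.span_singleton_prime hπ'0, ← Ideal.Quotient.isDomain_iff_prime]
    exact hdom
  refine ⟨hprime, hdom, Node.isPrincipalIdealRing_quot hprime hmA', hmA, ?_⟩
  intro hdvd h
  exact not_dvd_pow_atPrime P A hπ hdvd 1 (by rwa [pow_one])

end Core

/-! ### The two binder blocks on `Localization.AtPrime P` -/

section Main

variable {R : Type*} [CommRing R] [IsDomain R] [IsLocalRing R] [IsNoetherianRing R]
  {C : Type*} [CommRing C] [IsDomain C] [Algebra R C] [FaithfulSMul R C] [Algebra.IsIntegral R C]
  [IsNoetherianRing C] (P : Ideal C) [P.IsMaximal]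

/-- **(L.UNR), node form.**  `R` a noetherian local domain with `m_R = (s, t)`, `s`, `t`
non-associated primes; `C` a noetherian domain, integral over `R`, unramified at the maximal ideal
`P` (`hunr`).  Then `C_P` is a noetherian local domain (Mathlib instances) with maximal ideal
`(s, t)`, and `s`, `t` are non-associated prime elements of `C_P`: the binder block of
`Node.node_lemma`. -/
theorem node_atPrime {s t : R} (hs : Prime s) (ht : Prime t) (hne : ¬ Associated s t)
    (hm : maximalIdeal R = Ideal.span {s, t})
    (hunr : ∀ x ∈ P, ∃ c : C, c ∉ P ∧ c * x ∈ (maximalIdeal R).map (algebraMap R C)) :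
    Prime (algebraMap C (Localization.AtPrime P) (algebraMap R C s)) ∧
    Prime (algebraMap C (Localization.AtPrime P) (algebraMap R C t)) ∧
    ¬ Associated (algebraMap C (Localization.AtPrime P) (algebraMap R C s))
        (algebraMap C (Localization.AtPrime P) (algebraMap R C t)) ∧
    maximalIdeal (Localization.AtPrime P) =
      Ideal.span {algebraMap C (Localization.AtPrime P) (algebraMap R C s),
        algebraMap C (Localization.AtPrime P) (algebraMap R C t)} := by
  haveI : IsDomain (R ⧸ Ideal.span {s}) := Node.isDomain_quot hs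
  haveI : IsPrincipalIdealRing (R ⧸ Ideal.span {s}) := Node.isPrincipalIdealRing_quot hs hm
  haveI : UniqueFactorizationMonoid R := LocalPrincipal.quot_ufm hs.ne_zero
  have hm' : maximalIdeal R = Ideal.span {t, s} := by rw [hm, Set.pair_comm]
  obtain ⟨hs', -, -, hmap, hnd⟩ := core P (Localization.AtPrime P) hs hm hunr
  obtain ⟨ht', -, -, -, -⟩ := core P (Localization.AtPrime P) ht hm' hunr
  refine ⟨hs', ht', fun hass => hnd (Node.not_dvd_of_not_associated hs ht hne) hass.dvd, ?_⟩
  rw [← hmap]
  exact (IsLocalization.AtPrime.map_eq_maximalIdeal P (Localization.AtPrime P)).symm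

/-- **(L.UNR), smooth form.**  `R` a noetherian local domain, `π ≠ 0` with `R / (π)` a principal
ideal domain; `C` a noetherian domain, integral over `R`, unramified at the maximal ideal `P`
(`hunr`).  Then `π ≠ 0` in `C_P` and `C_P / (π)` is a principal ideal domain: the binder block
of the quot-forms of `LocalPrincipal`. -/
theorem smooth_atPrime {π : R} (hπ0 : π ≠ 0) [IsDomain (R ⧸ Ideal.span {π})]
    [IsPrincipalIdealRing (R ⧸ Ideal.span {π})]
    (hunr : ∀ x ∈ P, ∃ c : C, c ∉ P ∧ c * x ∈ (maximalIdeal R).map (algebraMap R C)) :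
    algebraMap C (Localization.AtPrime P) (algebraMap R C π) ≠ 0 ∧
    IsDomain (Localization.AtPrime P ⧸
      Ideal.span {algebraMap C (Localization.AtPrime P) (algebraMap R C π)}) ∧
    IsPrincipalIdealRing (Localization.AtPrime P ⧸
      Ideal.span {algebraMap C (Localization.AtPrime P) (algebraMap R C π)}) := by
  haveI : UniqueFactorizationMonoid R := LocalPrincipal.quot_ufm hπ0
  have hπ : Prime π :=
    (Ideal.span_singleton_prime hπ0).mp ((Ideal.Quotient.isDomain_iff_prime _).mp inferInstance)
  haveI : IsLocalRing (R ⧸ Ideal.span {π}) :=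
    IsLocalRing.of_surjective' (Ideal.Quotient.mk _) Ideal.Quotient.mk_surjective
  obtain ⟨θb, hθb⟩ :=
    (IsPrincipalIdealRing.principal (maximalIdeal (R ⧸ Ideal.span {π}))).principal
  obtain ⟨θ, rfl⟩ := Ideal.Quotient.mk_surjective θb
  have hcomap : (maximalIdeal (R ⧸ Ideal.span {π})).comap (Ideal.Quotient.mk (Ideal.span {π}))
      = maximalIdeal R :=
    IsLocalRing.eq_maximalIdeal (Ideal.comap_isMaximal_of_surjective _ Ideal.Quotient.mk_surjective)
  have hm : maximalIdeal R = Ideal.span {π, θ} := by
    rw [← hcomap, hθb, Ideal.submodule_span_eq, ← Set.image_singleton, ← Ideal.map_span,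
      Ideal.comap_map_of_surjective _ Ideal.Quotient.mk_surjective, ← RingHom.ker_eq_comap_bot,
      Ideal.mk_ker, Ideal.span_insert, sup_comm]
  obtain ⟨hπ', hdom, hpid, -, -⟩ := core P (Localization.AtPrime P) hπ hm hunr
  exact ⟨hπ'.ne_zero, hdom, hpid⟩

omit [IsDomain R] [IsLocalRing R] [IsNoetherianRing R] [IsDomain C] [FaithfulSMul R C]
  [Algebra.IsIntegral R C] [IsNoetherianRing C] in
/-- Transport of the relation `s * t ~ ϖ` of `Node.node_lemma` to `C_P`. -/
theorem associated_atPrime {O : Type*} [CommRing O] [Algebra O R] [Algebra O C]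
    [IsScalarTower O R C] {s t : R} {ϖ : O} (hst : Associated (s * t) (algebraMap O R ϖ)) :
    Associated (algebraMap C (Localization.AtPrime P) (algebraMap R C s) *
        algebraMap C (Localization.AtPrime P) (algebraMap R C t))
      (algebraMap O (Localization.AtPrime P) ϖ) := by
  have h := hst.map ((algebraMap C (Localization.AtPrime P)).comp (algebraMap R C))
  rw [map_mul] at h
  rw [IsScalarTower.algebraMap_apply O C (Localization.AtPrime P),
    IsScalarTower.algebraMap_apply O R C]
  exact h

end Main

/-! ### The same for a finite extension -/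

section Finite

variable {R : Type*} [CommRing R] [IsDomain R] [IsLocalRing R] [IsNoetherianRing R]
  {C : Type*} [CommRing C] [IsDomain C] [Algebra R C] [FaithfulSMul R C] [Module.Finite R C]
  (P : Ideal C) [P.IsMaximal]

omit [IsDomain R] [IsLocalRing R] [IsDomain C] [FaithfulSMul R C] in
/-- A finite algebra over a noetherian ring is a noetherian ring. -/
theorem isNoetherianRing_of_finite (R : Type*) [CommRing R] [IsNoetherianRing R]
    (C : Type*) [CommRing C] [Algebra R C] [Module.Finite R C] : IsNoetherianRing C :=
  isNoetherian_of_tower R (isNoetherian_of_isNoetherianRing_of_finite R C)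

/-- **(L.UNR), node form**, for `C` finite over `R`; the first clause is the remaining instance
of the binder block of `Node.node_lemma` on `Localization.AtPrime P`. -/
theorem node_atPrime_of_finite {s t : R} (hs : Prime s) (ht : Prime t) (hne : ¬ Associated s t)
    (hm : maximalIdeal R = Ideal.span {s, t})
    (hunr : ∀ x ∈ P, ∃ c : C, c ∉ P ∧ c * x ∈ (maximalIdeal R).map (algebraMap R C)) :
    IsNoetherianRing (Localization.AtPrime P) ∧
    Prime (algebraMap C (Localization.AtPrime P) (algebraMap R C s)) ∧
    Prime (algebraMap C (Localization.AtPrime P) (algebraMap R C t)) ∧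
    ¬ Associated (algebraMap C (Localization.AtPrime P) (algebraMap R C s))
        (algebraMap C (Localization.AtPrime P) (algebraMap R C t)) ∧
    maximalIdeal (Localization.AtPrime P) =
      Ideal.span {algebraMap C (Localization.AtPrime P) (algebraMap R C s),
        algebraMap C (Localization.AtPrime P) (algebraMap R C t)} := by
  haveI : IsNoetherianRing C := isNoetherianRing_of_finite R C
  exact ⟨inferInstance, node_atPrime P hs ht hne hm hunr⟩

/-- **(L.UNR), smooth form**, for `C` finite over `R`. -/
theorem smooth_atPrime_of_finite {π : R} (hπ0 : π ≠ 0) [IsDomain (R ⧸ Ideal.span {π})]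
    [IsPrincipalIdealRing (R ⧸ Ideal.span {π})]
    (hunr : ∀ x ∈ P, ∃ c : C, c ∉ P ∧ c * x ∈ (maximalIdeal R).map (algebraMap R C)) :
    IsNoetherianRing (Localization.AtPrime P) ∧
    algebraMap C (Localization.AtPrime P) (algebraMap R C π) ≠ 0 ∧
    IsDomain (Localization.AtPrime P ⧸
      Ideal.span {algebraMap C (Localization.AtPrime P) (algebraMap R C π)}) ∧
    IsPrincipalIdealRing (Localization.AtPrime P ⧸
      Ideal.span {algebraMap C (Localization.AtPrime P) (algebraMap R C π)}) := by
  haveI : IsNoetherianRing C := isNoetherianRing_of_finite R C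
  exact ⟨inferInstance, smooth_atPrime P hπ0 hunr⟩

end Finite

end Fermat.Agent.S44.L.Unr
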