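import Mathlib
import Fermat.Agent.S44.L.Unr
import Fermat.Agent.S44.L.PurityDisc

/-!
# Program MR (S44), strand L: (L.UNR) for any model of the localisation, and (L.PUR) ∘ (L.UNR)

Level-free commutative algebra (helper196).  Imports Mathlib, `S44/L/Unr` and `S44/L/PurityDisc`
(helper230).

* `node_isLocalization`, `smooth_isLocalization`: the statements of `Unr.node_atPrime`,
  `Unr.smooth_atPrime` for any `A` with `IsLocalization.AtPrime A P` (for instance the subalgebra
  `Localization.subalgebra.ofField L P.primeCompl _` of the function field `L`, which comes with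
  `Algebra A L` and `IsFractionRing A L`).  The instances `IsDomain A`, `IsLocalRing A`,
  `IsNoetherianRing A` of the binder blocks are part of the conclusion.
* `node_integralClosure`, `smooth_integralClosure`: the same for the integral closure `C` of `R`
  in a finite separable extension `L` of `Frac R`, with the discriminant hypothesis of the purity
  brick `PurityDisc.unr_integralClosure_of_forall_prime` in place of UNR.
* `isFractionRing_of_integralClosure`: `Frac (C_P) = L`.
-/

set_option autoImplicit false
set_option linter.style.haveILetI false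

namespace Fermat.Agent.S44.L.UnrLoc

open IsLocalRing
open Fermat.Agent.S44.L

/-! ### The maximal ideal at a smooth point -/

section Pair

variable {R : Type*} [CommRing R] [IsLocalRing R]

/-- If `R / (π)` is a principal ideal domain then `m_R = (π, θ)` for some `θ`. -/
theorem exists_maximalIdeal_eq_span_pair (π : R) [IsDomain (R ⧸ Ideal.span {π})]
    [IsPrincipalIdealRing (R ⧸ Ideal.span {π})] :
    ∃ θ : R, maximalIdeal R = Ideal.span {π, θ} := by
  haveI : IsLocalRing (R ⧸ Ideal.span {π}) :=
    IsLocalRing.of_surjective' (Ideal.Quotient.mk _) Ideal.Quotient.mk_surjective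
  obtain ⟨θb, hθb⟩ :=
    (IsPrincipalIdealRing.principal (maximalIdeal (R ⧸ Ideal.span {π}))).principal
  obtain ⟨θ, rfl⟩ := Ideal.Quotient.mk_surjective θb
  have hcomap : (maximalIdeal (R ⧸ Ideal.span {π})).comap (Ideal.Quotient.mk (Ideal.span {π}))
      = maximalIdeal R :=
    IsLocalRing.eq_maximalIdeal (Ideal.comap_isMaximal_of_surjective _ Ideal.Quotient.mk_surjective)
  refine ⟨θ, ?_⟩
  rw [← hcomap, hθb, Ideal.submodule_span_eq, ← Set.image_singleton, ← Ideal.map_span,
    Ideal.comap_map_of_surjective _ Ideal.Quotient.mk_surjective, ← RingHom.ker_eq_comap_bot,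
    Ideal.mk_ker, Ideal.span_insert, sup_comm]

end Pair

/-! ### Any model of the localisation -/

section Loc

variable {R : Type*} [CommRing R] [IsDomain R] [IsLocalRing R] [IsNoetherianRing R]
  {C : Type*} [CommRing C] [IsDomain C] [Algebra R C] [FaithfulSMul R C] [Algebra.IsIntegral R C]
  [IsNoetherianRing C] (P : Ideal C) [P.IsMaximal]
  (A : Type*) [CommRing A] [Algebra C A] [IsLocalization.AtPrime A P]

/-- **(L.UNR), node form**, for any localisation `A` of `C` at `P`. -/
theorem node_isLocalization {s t : R} (hs : Prime s) (ht : Prime t) (hne : ¬ Associated s t)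
    (hm : maximalIdeal R = Ideal.span {s, t})
    (hunr : ∀ x ∈ P, ∃ c : C, c ∉ P ∧ c * x ∈ (maximalIdeal R).map (algebraMap R C)) :
    ∃ (_ : IsDomain A) (_ : IsLocalRing A) (_ : IsNoetherianRing A),
      Prime (algebraMap C A (algebraMap R C s)) ∧ Prime (algebraMap C A (algebraMap R C t)) ∧
      ¬ Associated (algebraMap C A (algebraMap R C s)) (algebraMap C A (algebraMap R C t)) ∧
      maximalIdeal A =
        Ideal.span {algebraMap C A (algebraMap R C s), algebraMap C A (algebraMap R C t)} := by
  haveI : IsDomain (R ⧸ Ideal.span {s}) := Node.isDomain_quot hs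
  haveI : IsPrincipalIdealRing (R ⧸ Ideal.span {s}) := Node.isPrincipalIdealRing_quot hs hm
  haveI : UniqueFactorizationMonoid R := LocalPrincipal.quot_ufm hs.ne_zero
  have hm' : maximalIdeal R = Ideal.span {t, s} := by rw [hm, Set.pair_comm]
  obtain ⟨hs', -, -, hmap, hnd⟩ := Unr.core P A hs hm hunr
  obtain ⟨ht', -, -, -, -⟩ := Unr.core P A ht hm' hunr
  haveI : IsLocalRing A := IsLocalization.AtPrime.isLocalRing A P
  refine ⟨IsLocalization.isDomain_of_atPrime A P, inferInstance,
    IsLocalization.isNoetherianRing P.primeCompl A inferInstance, hs', ht',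
    fun hass => hnd (Node.not_dvd_of_not_associated hs ht hne) hass.dvd, ?_⟩
  rw [← hmap]
  exact (IsLocalization.AtPrime.map_eq_maximalIdeal P A).symm

/-- **(L.UNR), smooth form**, for any localisation `A` of `C` at `P`. -/
theorem smooth_isLocalization {π : R} (hπ0 : π ≠ 0) [IsDomain (R ⧸ Ideal.span {π})]
    [IsPrincipalIdealRing (R ⧸ Ideal.span {π})]
    (hunr : ∀ x ∈ P, ∃ c : C, c ∉ P ∧ c * x ∈ (maximalIdeal R).map (algebraMap R C)) :
    ∃ (_ : IsDomain A) (_ : IsLocalRing A) (_ : IsNoetherianRing A),
      algebraMap C A (algebraMap R C π) ≠ 0 ∧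
      IsDomain (A ⧸ Ideal.span {algebraMap C A (algebraMap R C π)}) ∧
      IsPrincipalIdealRing (A ⧸ Ideal.span {algebraMap C A (algebraMap R C π)}) := by
  haveI : UniqueFactorizationMonoid R := LocalPrincipal.quot_ufm hπ0
  have hπ : Prime π :=
    (Ideal.span_singleton_prime hπ0).mp ((Ideal.Quotient.isDomain_iff_prime _).mp inferInstance)
  obtain ⟨θ, hm⟩ := exists_maximalIdeal_eq_span_pair π
  obtain ⟨hπ', hdom, hpid, -, -⟩ := Unr.core P A hπ hm hunr
  exact ⟨IsLocalization.isDomain_of_atPrime A P, IsLocalization.AtPrime.isLocalRing A P,
    IsLocalization.isNoetherianRing P.primeCompl A inferInstance, hπ'.ne_zero, hdom, hpid⟩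

end Loc

/-! ### The integral closure in a finite separable extension: purity, then UNR -/

section IntegralClosure

/-- `R → integralClosure R L` is injective. -/
theorem faithfulSMul_integralClosure {R : Type*} (K L : Type*) [CommRing R] [IsDomain R]
    [Field K] [Algebra R K] [IsFractionRing R K] [Field L] [Algebra K L] [Algebra R L]
    [IsScalarTower R K L] : FaithfulSMul R (integralClosure R L) := by
  haveI : FaithfulSMul R L := by
    rw [faithfulSMul_iff_algebraMap_injective, IsScalarTower.algebraMap_eq R K L]
    exact (algebraMap K L).injective.comp (IsFractionRing.injective R K)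
  infer_instance

/-- `Frac (C_P) = L` for the integral closure `C` of `R` in `L` and any localisation `A` of `C`
at a prime inside `L`. -/
theorem isFractionRing_of_integralClosure {R : Type*} (K L : Type*) [CommRing R] [IsDomain R]
    [Field K] [Algebra R K] [IsFractionRing R K] [Field L] [Algebra K L] [Algebra R L]
    [IsScalarTower R K L] [FiniteDimensional K L]
    (P : Ideal (integralClosure R L)) [P.IsPrime]
    (A : Type*) [CommRing A] [Algebra (integralClosure R L) A] [IsLocalization.AtPrime A P]
    [Algebra A L] [IsScalarTower (integralClosure R L) A L] : IsFractionRing A L := by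
  haveI : IsFractionRing (integralClosure R L) L :=
    integralClosure.isFractionRing_of_finite_extension K L
  haveI : IsDomain A := IsLocalization.isDomain_of_atPrime A P
  exact IsFractionRing.isFractionRing_of_isDomain_of_isLocalization P.primeCompl A L

variable {R : Type*} (K L : Type*) [CommRing R] [IsDomain R] [IsLocalRing R] [IsNoetherianRing R]
  [Field K] [Algebra R K] [IsFractionRing R K]
  [Field L] [Algebra K L] [Algebra R L] [IsScalarTower R K L]
  [FiniteDimensional K L] [Algebra.IsSeparable K L]

/-- **(L.PUR) ∘ (L.UNR), node form.**  `R` a noetherian local domain with `m_R = (s, t)`, `s`, `t`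
non-associated primes, `K = Frac R`, `L / K` finite separable, `C` the integral closure of `R` in
`L`.  If for every prime element `g` of `R` some family `c : Fin [L : K] → C` has discriminant
prime to `g`, then for every maximal ideal `P` of `C` the local ring `A = C_P` is a noetherian
local domain with maximal ideal `(s, t)`, `s`, `t` non-associated primes of `A`. -/
theorem node_integralClosure {s t : R} (hs : Prime s) (ht : Prime t) (hne : ¬ Associated s t)
    (hm : maximalIdeal R = Ideal.span {s, t})
    (h : ∀ g : R, Prime g →
      ∃ c : Fin (Module.finrank K L) → integralClosure R L, ¬ g ∣ Algebra.discr R c)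
    (P : Ideal (integralClosure R L)) [P.IsMaximal]
    (A : Type*) [CommRing A] [Algebra (integralClosure R L) A] [IsLocalization.AtPrime A P] :
    ∃ (_ : IsDomain A) (_ : IsLocalRing A) (_ : IsNoetherianRing A),
      Prime (algebraMap (integralClosure R L) A (algebraMap R (integralClosure R L) s)) ∧
      Prime (algebraMap (integralClosure R L) A (algebraMap R (integralClosure R L) t)) ∧
      ¬ Associated (algebraMap (integralClosure R L) A (algebraMap R (integralClosure R L) s))
        (algebraMap (integralClosure R L) A (algebraMap R (integralClosure R L) t)) ∧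
      maximalIdeal A =
        Ideal.span {algebraMap (integralClosure R L) A (algebraMap R (integralClosure R L) s),
          algebraMap (integralClosure R L) A (algebraMap R (integralClosure R L) t)} := by
  haveI : IsDomain (R ⧸ Ideal.span {s}) := Node.isDomain_quot hs
  haveI : IsPrincipalIdealRing (R ⧸ Ideal.span {s}) := Node.isPrincipalIdealRing_quot hs hm
  haveI : UniqueFactorizationMonoid R := LocalPrincipal.quot_ufm hs.ne_zero
  haveI : FaithfulSMul R (integralClosure R L) := faithfulSMul_integralClosure K L
  haveI : Module.Finite R (integralClosure R L) :=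
    Fermat.Agent.Lib.NormalFree.finite_integralClosure K L
  haveI : IsNoetherianRing (integralClosure R L) :=
    Unr.isNoetherianRing_of_finite R (integralClosure R L)
  have hsm : s ∈ maximalIdeal R := by
    rw [hm]
    exact Ideal.subset_span (by simp)
  exact node_isLocalization P A hs ht hne hm fun x hx =>
    PurityDisc.unr_integralClosure_of_forall_prime K L hs hsm h P hx

/-- **(L.PUR) ∘ (L.UNR), smooth form.**  `R` a noetherian local domain, `π ≠ 0` a non-unit with
`R / (π)` a principal ideal domain, `K = Frac R`, `L / K` finite separable, `C` the integral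
closure of `R` in `L`.  If for every prime element `g` of `R` some family `c : Fin [L : K] → C`
has discriminant prime to `g`, then for every maximal ideal `P` of `C` the local ring `A = C_P`
is a noetherian local domain in which `π ≠ 0` and `A / (π)` is a principal ideal domain. -/
theorem smooth_integralClosure {π : R} (hπ0 : π ≠ 0) [IsDomain (R ⧸ Ideal.span {π})]
    [IsPrincipalIdealRing (R ⧸ Ideal.span {π})]
    (h : ∀ g : R, Prime g →
      ∃ c : Fin (Module.finrank K L) → integralClosure R L, ¬ g ∣ Algebra.discr R c)
    (P : Ideal (integralClosure R L)) [P.IsMaximal]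
    (A : Type*) [CommRing A] [Algebra (integralClosure R L) A] [IsLocalization.AtPrime A P] :
    ∃ (_ : IsDomain A) (_ : IsLocalRing A) (_ : IsNoetherianRing A),
      algebraMap (integralClosure R L) A (algebraMap R (integralClosure R L) π) ≠ 0 ∧
      IsDomain (A ⧸ Ideal.span
        {algebraMap (integralClosure R L) A (algebraMap R (integralClosure R L) π)}) ∧
      IsPrincipalIdealRing (A ⧸ Ideal.span
        {algebraMap (integralClosure R L) A (algebraMap R (integralClosure R L) π)}) := by
  haveI : UniqueFactorizationMonoid R := LocalPrincipal.quot_ufm hπ0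
  have hπ : Prime π :=
    (Ideal.span_singleton_prime hπ0).mp ((Ideal.Quotient.isDomain_iff_prime _).mp inferInstance)
  haveI : FaithfulSMul R (integralClosure R L) := faithfulSMul_integralClosure K L
  haveI : Module.Finite R (integralClosure R L) :=
    Fermat.Agent.Lib.NormalFree.finite_integralClosure K L
  haveI : IsNoetherianRing (integralClosure R L) :=
    Unr.isNoetherianRing_of_finite R (integralClosure R L)
  have hπm : π ∈ maximalIdeal R := by
    rw [IsLocalRing.mem_maximalIdeal, mem_nonunits_iff]
    exact hπ.not_isUnit
  exact smooth_isLocalization P A hπ0 fun x hx =>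
    PurityDisc.unr_integralClosure_of_forall_prime K L hπ hπm h P hx

end IntegralClosure

end Fermat.Agent.S44.L.UnrLoc
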