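import Mathlib
import Fermat.Agent.S44.L.UnrLoc
import Fermat.Agent.S44.L.Purity

/-!
# Program MR (S44), strand L: (L.PUR) ∘ (L.UNR), basis form

Level-free commutative algebra (helper196).  Imports Mathlib, `S44/L/UnrLoc` and `S44/L/Purity`
(helper230).

The statements of `UnrLoc.node_integralClosure`, `UnrLoc.smooth_integralClosure` with the
hypothesis of `Purity.unr_integralClosure` verbatim (no prime element of `R` divides the
discriminant of a basis of the integral closure), which is what the criteria (C2)-(C5) of the
purity brick produce.
-/

set_option autoImplicit false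
set_option linter.style.haveILetI false

namespace Fermat.Agent.S44.L.UnrPur

open IsLocalRing
open Fermat.Agent.S44.L

universe u v w

variable {R : Type u} (K : Type v) (L : Type w) [CommRing R] [IsDomain R] [IsLocalRing R]
  [IsNoetherianRing R] [Field K] [Algebra R K] [IsFractionRing R K]
  [Field L] [Algebra K L] [Algebra R L] [IsScalarTower R K L]
  [FiniteDimensional K L] [Algebra.IsSeparable K L]

include K in
/-- **(L.PUR) ∘ (L.UNR), node form, basis form of the hypothesis.**  `R` a noetherian local domain
with `m_R = (s, t)`, `s`, `t` non-associated primes, `K = Frac R`, `L / K` finite separable, `C`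
the integral closure of `R` in `L`.  If no prime element of `R` divides the discriminant of a
basis of `C`, then for every maximal ideal `P` of `C` the local ring `A = C_P` is a noetherian
local domain with maximal ideal `(s, t)`, `s`, `t` non-associated primes of `A`. -/
theorem node_integralClosure_of_basis {s t : R} (hs : Prime s) (ht : Prime t)
    (hne : ¬ Associated s t) (hm : maximalIdeal R = Ideal.span {s, t})
    (h : ∀ (ι : Type w) [Fintype ι] [DecidableEq ι] (b : Module.Basis ι R (integralClosure R L))
      (g : R), Prime g → ¬ g ∣ Algebra.discr R b)
    (P : Ideal (integralClosure R L)) [P.IsMaximal]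
    (A : Type*) [CommRing A] [Algebra (integralClosure R L) A] [IsLocalization.AtPrime A P] :
    ∃ (_ : IsDomain A) (_ : IsLocalRing A) (_ : IsNoetherianRing A),
      Prime (algebraMap (integralClosure R L) A (algebraMap R (integralClosure R L) s)) ∧
      Prime (algebraMap (integralClosure R L) A (algebraMap R (integralClosure R L) t)) ∧
      ¬ Associated (algebraMap (integralClosure R L) A (algebraMap R (integralClosure R L) s))
        (algebraMap (integralClosure R L) A (algebraMap R (integralClosure R L) t)) ∧
      maximalIdeal A =
        Ideal.span {algebraMap (integralClosure R L) A (algebraMap R (integralClosure R L) s),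
          algebraMap (integralClosure R L) A (algebraMap R (integralClosure R L) t)} := by
  haveI : IsDomain (R ⧸ Ideal.span {s}) := Node.isDomain_quot hs
  haveI : IsPrincipalIdealRing (R ⧸ Ideal.span {s}) := Node.isPrincipalIdealRing_quot hs hm
  haveI : UniqueFactorizationMonoid R := LocalPrincipal.quot_ufm hs.ne_zero
  haveI : FaithfulSMul R (integralClosure R L) := UnrLoc.faithfulSMul_integralClosure K L
  haveI : Module.Finite R (integralClosure R L) :=
    Fermat.Agent.Lib.NormalFree.finite_integralClosure K L
  haveI : IsNoetherianRing (integralClosure R L) :=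
    Unr.isNoetherianRing_of_finite R (integralClosure R L)
  have hsm : s ∈ maximalIdeal R := by
    rw [hm]
    exact Ideal.subset_span (by simp)
  exact UnrLoc.node_isLocalization P A hs ht hne hm fun x hx =>
    Purity.unr_integralClosure K L hs hsm h P (Ideal.IsMaximal.ne_top inferInstance) hx

include K in
/-- **(L.PUR) ∘ (L.UNR), smooth form, basis form of the hypothesis.** -/
theorem smooth_integralClosure_of_basis {π : R} (hπ0 : π ≠ 0) [IsDomain (R ⧸ Ideal.span {π})]
    [IsPrincipalIdealRing (R ⧸ Ideal.span {π})]
    (h : ∀ (ι : Type w) [Fintype ι] [DecidableEq ι] (b : Module.Basis ι R (integralClosure R L))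
      (g : R), Prime g → ¬ g ∣ Algebra.discr R b)
    (P : Ideal (integralClosure R L)) [P.IsMaximal]
    (A : Type*) [CommRing A] [Algebra (integralClosure R L) A] [IsLocalization.AtPrime A P] :
    ∃ (_ : IsDomain A) (_ : IsLocalRing A) (_ : IsNoetherianRing A),
      algebraMap (integralClosure R L) A (algebraMap R (integralClosure R L) π) ≠ 0 ∧
      IsDomain (A ⧸ Ideal.span
        {algebraMap (integralClosure R L) A (algebraMap R (integralClosure R L) π)}) ∧
      IsPrincipalIdealRing (A ⧸ Ideal.span
        {algebraMap (integralClosure R L) A (algebraMap R (integralClosure R L) π)}) := by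
  haveI : UniqueFactorizationMonoid R := LocalPrincipal.quot_ufm hπ0
  have hπ : Prime π :=
    (Ideal.span_singleton_prime hπ0).mp ((Ideal.Quotient.isDomain_iff_prime _).mp inferInstance)
  haveI : FaithfulSMul R (integralClosure R L) := UnrLoc.faithfulSMul_integralClosure K L
  haveI : Module.Finite R (integralClosure R L) :=
    Fermat.Agent.Lib.NormalFree.finite_integralClosure K L
  haveI : IsNoetherianRing (integralClosure R L) :=
    Unr.isNoetherianRing_of_finite R (integralClosure R L)
  have hπm : π ∈ maximalIdeal R := by
    rw [IsLocalRing.mem_maximalIdeal, mem_nonunits_iff]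
    exact hπ.not_isUnit
  exact UnrLoc.smooth_isLocalization P A hπ0 fun x hx =>
    Purity.unr_integralClosure K L hπ hπm h P (Ideal.IsMaximal.ne_top inferInstance) hx

end Fermat.Agent.S44.L.UnrPur
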