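/-
PROGRAM MR (S44), strand L — level-free leaf (L.SEPUNR), second file (helper109).

Bridges from the valuation form of "unramified" (`S44/L/SepUnr.lean`) to the elementwise form
used by the purity criteria (`S44/L/DiscrZero.lean`, `S44/L/DiscrLoc.lean`):

* `exists_comap_eq` : every valuation subring of `L` extends to any field extension `L'`;
* `unramified_descend` : if every valuation subring of `L'` over `w` has `e = 1`, so has every
  valuation subring of an intermediate field `L`;
* `isDiscreteValuationRing_primeValuationSubring`, `valuation_le_of_lt_one` : the valuation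
  subring `LocalPrincipal.primeValuationSubring K g hg` of a prime element `g` of a factorial
  domain is a DVR with uniformiser `g`;
* `unr_of_valuation` : `R` factorial, `g` a prime element, `C` the integral closure of `R` in
  `L`; if every valuation subring of `L` over the valuation subring of `g` has `e = 1`, then
  `Q C_Q = g C_Q` for every prime `Q` of `C` over `(g)`, in the elementwise form
  `∀ x ∈ Q, ∃ s ∉ Q, s * x ∈ g C`.
-/
import Mathlib
import Fermat.Agent.S44.L.LocalPrincipal
import Fermat.Agent.S44.L.SepUnr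

set_option autoImplicit false

open IsLocalRing

namespace Fermat.Agent.S44.L.SepUnrBridge

open Fermat.Agent.S44.L.LocalPrincipal Fermat.Agent.S44.L.SepUnr

/-! ### Extension of valuation subrings -/

section Extension

variable {K L L' : Type*} [Field K] [Field L] [Field L'] [Algebra L L']

/-- **Chevalley.**  Every valuation subring of `L` is the restriction of a valuation subring of
a field extension `L'`. -/
theorem exists_comap_eq (W : ValuationSubring L) :
    ∃ W' : ValuationSubring L', W'.comap (algebraMap L L') = W := by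
  obtain ⟨W', hle, hloc⟩ :=
    (LocalSubring.map (algebraMap L L') W.toLocalSubring).exists_le_valuationSubring
  refine ⟨W', ?_⟩
  ext x
  rw [ValuationSubring.mem_comap]
  constructor
  · intro hx
    by_contra hxW
    have hx0 : x ≠ 0 := fun h => hxW (h ▸ W.zero_mem)
    have hxinv : x⁻¹ ∈ W := (W.mem_or_inv_mem x).resolve_left hxW
    let z : (LocalSubring.map (algebraMap L L') W.toLocalSubring).toSubring :=
      ⟨algebraMap L L' x⁻¹, ⟨x⁻¹, hxinv, rfl⟩⟩
    have hz : IsUnit (Subring.inclusion hle z) := by
      refine IsUnit.of_mul_eq_one ⟨algebraMap L L' x, hx⟩ (Subtype.ext ?_)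
      show algebraMap L L' x⁻¹ * algebraMap L L' x = 1
      rw [← map_mul, inv_mul_cancel₀ hx0, map_one]
    have hz' : IsUnit z := hloc.map_nonunit z hz
    obtain ⟨z', hzz'⟩ := isUnit_iff_exists_inv.mp hz'
    obtain ⟨y, hy, hyz⟩ := z'.2
    have h1 : algebraMap L L' (x⁻¹ * y) = 1 := by
      rw [map_mul, hyz]
      exact congrArg Subtype.val hzz'
    have h2 : x⁻¹ * y = 1 := (algebraMap L L').injective (by rw [h1, map_one])
    have h3 : y = x := by
      have h4 := congrArg (fun t => x * t) h2
      simp only [mul_one] at h4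
      rw [← mul_assoc, mul_inv_cancel₀ hx0, one_mul] at h4
      exact h4
    exact hxW (h3 ▸ hy)
  · intro hx
    exact hle ⟨x, hx, rfl⟩

variable [Algebra K L] [Algebra K L'] [IsScalarTower K L L']

/-- If every valuation subring of `L'` over `w` has `e = 1`, so has every valuation subring of
an intermediate field `L`. -/
theorem unramified_descend (w : ValuationSubring K)
    (hE : ∀ W' : ValuationSubring L', W'.comap (algebraMap K L') = w →
      ∀ x : L', W'.valuation x < 1 →
        ∃ y : K, w.valuation y < 1 ∧ W'.valuation x ≤ W'.valuation (algebraMap K L' y))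
    (W : ValuationSubring L) (hW : W.comap (algebraMap K L) = w) :
    ∀ x : L, W.valuation x < 1 →
      ∃ y : K, w.valuation y < 1 ∧ W.valuation x ≤ W.valuation (algebraMap K L y) := by
  obtain ⟨W', hW'⟩ := exists_comap_eq (L' := L') W
  have h1 : W'.comap (algebraMap K L') = w := by
    rw [← hW, ← hW']
    ext y
    simp only [ValuationSubring.mem_comap]
    rw [IsScalarTower.algebraMap_apply K L L']
  exact unramified_tower w W W' hW' (hE W' h1)

end Extension

/-! ### The valuation subring of a prime element -/

section PrimeVal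

variable {R : Type*} [CommRing R] [IsDomain R] [UniqueFactorizationMonoid R]
  {K : Type*} [Field K] [Algebra R K] [IsFractionRing R K]

/-- `g` generates the maximal ideal of its valuation subring. -/
theorem valuation_le_of_lt_one (g : R) (hg : Prime g) (y : K)
    (hy : (primeValuationSubring K g hg).valuation y < 1) :
    (primeValuationSubring K g hg).valuation y
      ≤ (primeValuationSubring K g hg).valuation (algebraMap R K g) := by
  have hinj := IsFractionRing.injective R K
  have hgK : algebraMap R K g ≠ 0 := (map_ne_zero_iff _ hinj).mpr hg.ne_zero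
  rcases eq_or_ne y 0 with rfl | hy0
  · simp
  obtain ⟨n, a, b, ha, hb, e⟩ := exists_eq_zpow_mul_div (K := K) g hg hy0
  have haK : algebraMap R K a ≠ 0 :=
    (map_ne_zero_iff _ hinj).mpr fun h0 => ha (h0 ▸ dvd_zero g)
  have hbK : algebraMap R K b ≠ 0 :=
    (map_ne_zero_iff _ hinj).mpr fun h0 => hb (h0 ▸ dvd_zero g)
  have hyw : y ∈ primeValuationSubring K g hg := (ValuationSubring.valuation_le_one_iff _ _).mp hy.le
  have hn : 0 ≤ n := (zpow_mul_div_mem_primeValuationSubring_iff g hg ha hb).mp (e ▸ hyw)
  have hn1 : 1 ≤ n := by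
    by_contra hcon
    have hn0 : n = 0 := by omega
    rw [hn0, zpow_zero, one_mul] at e
    have hyinv : y⁻¹ ∈ primeValuationSubring K g hg := by
      refine ⟨b, a, ha, ?_⟩
      rw [e]
      field_simp
    exact ((valuation_lt_one_iff_inv _ y).mp hy).elim hy0 (fun h => h hyinv)
  have h1 : y / algebraMap R K g ∈ primeValuationSubring K g hg := by
    have h2 : y / algebraMap R K g
        = algebraMap R K g ^ (n - 1) * (algebraMap R K a / algebraMap R K b) := by
      rw [e, zpow_sub₀ hgK, zpow_one]
      field_simp
    rw [h2]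
    exact (zpow_mul_div_mem_primeValuationSubring_iff g hg ha hb).mpr (by omega)
  rw [← ValuationSubring.valuation_le_one_iff, map_div₀,
    div_le_one₀ (zero_lt_iff.mpr ((Valuation.ne_zero_iff _).mpr hgK))] at h1
  exact h1

/-- The valuation subring of a prime element of a factorial domain is a DVR. -/
theorem isDiscreteValuationRing_primeValuationSubring (g : R) (hg : Prime g) :
    IsDiscreteValuationRing (primeValuationSubring K g hg) := by
  have hPIR := isPrincipalIdealRing_primeValuationSubring (K := K) g hg
  have hinj := IsFractionRing.injective R K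
  have hgK : algebraMap R K g ≠ 0 := (map_ne_zero_iff _ hinj).mpr hg.ne_zero
  refine { not_a_field' := ?_ }
  intro hbot
  let γ : primeValuationSubring K g hg :=
    ⟨algebraMap R K g, algebraMap_mem_primeValuationSubring g hg g⟩
  have hγ : γ ∈ maximalIdeal (primeValuationSubring K g hg) := by
    rw [mem_maximalIdeal, mem_nonunits_iff]
    intro hu
    obtain ⟨δ, hδ⟩ := isUnit_iff_exists_inv.mp hu
    have h1 : algebraMap R K g * (δ : K) = 1 := congrArg Subtype.val hδ
    have h2 : (δ : K) = (algebraMap R K g)⁻¹ := eq_inv_of_mul_eq_one_right h1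
    exact inv_algebraMap_notMem_primeValuationSubring (K := K) g hg (h2 ▸ δ.2)
  rw [hbot, Ideal.mem_bot] at hγ
  exact hgK (congrArg Subtype.val hγ)

end PrimeVal

/-! ### From valuations to the elementwise form -/

section Bridge

variable {R : Type*} [CommRing R] [IsDomain R] [UniqueFactorizationMonoid R]
  (K L : Type*) [Field K] [Algebra R K] [IsFractionRing R K] [Field L] [Algebra K L]
  [Algebra R L] [IsScalarTower R K L]

/-- **Valuation form ⟹ elementwise form of "unramified over `(g)`".**  `R` factorial, `g` a
prime element, `C` the integral closure of `R` in `L`.  If every valuation subring of `L` over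
the valuation subring of `g` has `e = 1`, then for every prime `Q` of `C` over `(g)` and every
`x ∈ Q` there is `s ∉ Q` with `s * x ∈ g C`. -/
theorem unr_of_valuation {g : R} (hg : Prime g)
    (hE : ∀ W : ValuationSubring L, W.comap (algebraMap K L) = primeValuationSubring K g hg →
      ∀ x : L, W.valuation x < 1 → ∃ y : K, (primeValuationSubring K g hg).valuation y < 1 ∧
        W.valuation x ≤ W.valuation (algebraMap K L y))
    (Q : Ideal (integralClosure R L)) (hQ : Q.IsPrime)
    (hQg : Q.comap (algebraMap R (integralClosure R L)) = Ideal.span {g})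
    (x : integralClosure R L) (hx : x ∈ Q) :
    ∃ s : integralClosure R L, s ∉ Q ∧
      s * x ∈ (Ideal.span {g}).map (algebraMap R (integralClosure R L)) := by
  classical
  have hinjK := IsFractionRing.injective R K
  have hgK : algebraMap R K g ≠ 0 := (map_ne_zero_iff _ hinjK).mpr hg.ne_zero
  have hgL : algebraMap R L g ≠ 0 := by
    rw [IsScalarTower.algebraMap_apply R K L]
    exact (_root_.map_ne_zero _).mpr hgK
  -- the local subring `C_Q` of `L`
  let A : Subring L := (integralClosure R L).toSubring
  let Q' : Ideal A := Q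
  have hQ' : Q'.IsPrime := hQ
  let D : LocalSubring L := LocalSubring.ofPrime A Q'
  have hAD : A ≤ D.toSubring := LocalSubring.le_ofPrime A Q'
  -- elements of `R` in `Q`
  have hRQ : ∀ r : R, (⟨algebraMap R L r, (integralClosure R L).algebraMap_mem r⟩ : A) ∈ Q' ↔
      g ∣ r := by
    intro r
    have h1 : algebraMap R (integralClosure R L) r ∈ Q ↔ r ∈ Ideal.span {g} := by
      rw [← hQg, Ideal.mem_comap]
    rw [Ideal.mem_span_singleton] at h1
    exact h1
  -- `D` is integrally closed in `L`
  have hDcl : IsIntegrallyClosedIn D.toSubring L := by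
    rw [Subring.isIntegrallyClosedIn_iff]
    intro y hy
    obtain ⟨m, hm⟩ := IsIntegral.exists_multiple_integral_of_isLocalization Q'.primeCompl y hy
    have h1 : m • y ∈ A := (Subring.isIntegrallyClosedIn_iff (S := A)).mp inferInstance hm
    have hmu : IsUnit (algebraMap A D.toSubring m) := IsLocalization.map_units _ m
    obtain ⟨m', hm'⟩ := isUnit_iff_exists_inv.mp hmu
    have h3 : ((m : A) : L) * (m' : L) = 1 := congrArg Subtype.val hm'
    have h2 : y = (m' : L) * (m • y) := by
      have h4 : m • y = ((m : A) : L) * y := rfl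
      rw [h4, ← mul_assoc, mul_comm (m' : L), h3, one_mul]
    rw [h2]
    exact D.toSubring.mul_mem m'.2 (hAD h1)
  by_contra hcon
  push Not at hcon
  -- `x / g` is not in `D`
  have htD : (x : L) * (algebraMap R L g)⁻¹ ∉ D.toSubring := by
    intro ht
    obtain ⟨⟨a, s⟩, has⟩ := IsLocalization.surj Q'.primeCompl (⟨_, ht⟩ : D.toSubring)
    have h1 : (x : L) * (algebraMap R L g)⁻¹ * ((s : A) : L) = (a : L) := congrArg Subtype.val has
    apply hcon (s : A) s.2
    have h2 : (s : A) * x = algebraMap R (integralClosure R L) g * a := by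
      apply Subtype.ext
      show ((s : A) : L) * (x : L) = algebraMap R L g * (a : L)
      rw [← h1]
      field_simp
    rw [h2]
    exact Ideal.mul_mem_right _ _ (Ideal.mem_map_of_mem _ (Ideal.mem_span_singleton_self g))
  obtain ⟨V, ⟨hDV, hloc⟩, htV⟩ :=
    LocalSubring.exists_le_valuationSubring_of_isIntegrallyClosedIn htD
  have hAV : ∀ c : A, (c : L) ∈ V := fun c => hDV (hAD c.2)
  -- elements of `Q` are non-units of `V`
  have hQV : ∀ c : A, c ∈ Q' → V.valuation (c : L) < 1 := by
    intro c hc
    rw [valuation_lt_one_iff_inv]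
    by_contra h1
    push Not at h1
    obtain ⟨hc0, hcinv⟩ := h1
    have h2 : algebraMap A D.toSubring c ∈ maximalIdeal D.toSubring :=
      (IsLocalization.AtPrime.to_map_mem_maximal_iff D.toSubring Q' c).mpr hc
    have h3 : IsUnit (Subring.inclusion hDV (algebraMap A D.toSubring c)) := by
      refine IsUnit.of_mul_eq_one ⟨(c : L)⁻¹, hcinv⟩ (Subtype.ext ?_)
      show (c : L) * (c : L)⁻¹ = 1
      exact mul_inv_cancel₀ hc0
    exact (mem_nonunits_iff.mp ((mem_maximalIdeal _).mp h2)) (hloc.map_nonunit _ h3)
  -- elements of `C` outside `Q` are units of `V`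
  have hunitV : ∀ c : A, c ∉ Q' → (c : L)⁻¹ ∈ V := by
    intro c hc
    have hu : IsUnit (algebraMap A D.toSubring c) :=
      IsLocalization.map_units D.toSubring (⟨c, hc⟩ : Q'.primeCompl)
    obtain ⟨c', hc'⟩ := isUnit_iff_exists_inv.mp hu
    have h1 : (c : L) * (c' : L) = 1 := congrArg Subtype.val hc'
    have h2 : (c' : L) = (c : L)⁻¹ := eq_inv_of_mul_eq_one_right h1
    rw [← h2]
    exact hDV c'.2
  have hRV : ∀ r : R, algebraMap R L r ∈ V := fun r =>
    hAV ⟨algebraMap R L r, (integralClosure R L).algebraMap_mem r⟩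
  have hgV : V.valuation (algebraMap R L g) < 1 :=
    hQV ⟨algebraMap R L g, (integralClosure R L).algebraMap_mem g⟩ ((hRQ g).mpr dvd_rfl)
  have hRunit : ∀ r : R, ¬ g ∣ r → (algebraMap R L r)⁻¹ ∈ V := fun r hr =>
    hunitV ⟨algebraMap R L r, (integralClosure R L).algebraMap_mem r⟩ (fun h => hr ((hRQ r).mp h))
  -- `V` lies over the valuation subring of `g`
  have hVw : V.comap (algebraMap K L) = primeValuationSubring K g hg := by
    ext y
    rw [ValuationSubring.mem_comap]
    constructor
    · intro hy
      by_contra hyw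
      have hy0 : y ≠ 0 := fun h => hyw (h ▸ zero_mem _)
      have h1 : (primeValuationSubring K g hg).valuation y⁻¹ < 1 :=
        (valuation_lt_one_iff_inv _ _).mpr (Or.inr (by rw [inv_inv]; exact hyw))
      have h2 := valuation_le_of_lt_one g hg y⁻¹ h1
      have h3 : y⁻¹ / algebraMap R K g ∈ primeValuationSubring K g hg := by
        rw [← ValuationSubring.valuation_le_one_iff, map_div₀,
          div_le_one₀ (zero_lt_iff.mpr ((Valuation.ne_zero_iff _).mpr hgK))]
        exact h2
      obtain ⟨a, b, hb, e⟩ := h3
      have h4 : algebraMap R K b = y * algebraMap R K a * algebraMap R K g := by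
        rw [← e]
        field_simp
      have h5 : algebraMap R L b = algebraMap K L y * algebraMap R L a * algebraMap R L g := by
        rw [IsScalarTower.algebraMap_apply R K L, h4, map_mul, map_mul,
          ← IsScalarTower.algebraMap_apply R K L, ← IsScalarTower.algebraMap_apply R K L]
      have h6 : V.valuation (algebraMap R L b) < 1 := by
        rw [h5, map_mul, map_mul]
        refine lt_of_le_of_lt (mul_le_of_le_one_left' ?_) hgV
        exact mul_le_one' ((V.valuation_le_one_iff _).mpr hy)
          ((V.valuation_le_one_iff _).mpr (hRV a))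
      rcases (valuation_lt_one_iff_inv V _).mp h6 with h7 | h7
      · have hb0 : b = 0 := by
          have h8 : algebraMap R K b = 0 := by
            rw [IsScalarTower.algebraMap_apply R K L] at h7
            exact (_root_.map_eq_zero _).mp h7
          exact hinjK (by rw [h8, map_zero])
        exact hb (hb0 ▸ dvd_zero g)
      · exact h7 (hRunit b hb)
    · rintro ⟨a, b, hb, e⟩
      have hbK : algebraMap R K b ≠ 0 :=
        (map_ne_zero_iff _ hinjK).mpr fun h0 => hb (h0 ▸ dvd_zero g)
      have h1 : algebraMap K L y = algebraMap R L a * (algebraMap R L b)⁻¹ := by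
        have h2 : y = algebraMap R K a * (algebraMap R K b)⁻¹ := by
          rw [← e]
          field_simp
        rw [h2, map_mul, map_inv₀, ← IsScalarTower.algebraMap_apply R K L,
          ← IsScalarTower.algebraMap_apply R K L]
      rw [h1]
      exact V.mul_mem _ _ (hRV a) (hRunit b hb)
  -- conclusion: `x / g ∈ V`
  have hxV : V.valuation (x : L) < 1 := hQV x hx
  obtain ⟨y, hy, hxy⟩ := hE V hVw (x : L) hxV
  have h1 := valuation_le_of_lt_one g hg y hy
  have h2 : V.valuation (algebraMap K L y) ≤ V.valuation (algebraMap R L g) := by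
    rw [IsScalarTower.algebraMap_apply R K L]
    exact (valuation_map_le_iff _ V hVw y (algebraMap R K g)).mpr h1
  apply htV
  rw [← ValuationSubring.valuation_le_one_iff, map_mul, map_inv₀, ← div_eq_mul_inv,
    div_le_one₀ (zero_lt_iff.mpr ((Valuation.ne_zero_iff _).mpr hgL))]
  exact hxy.trans h2

end Bridge

/-! ### The horizontal case: constants, then a Kummer extension -/

section Horizontal

variable {K K₁ L' : Type*} [Field K] [Field K₁] [Field L'] [Algebra K K₁] [Algebra K₁ L']
  [Algebra K L'] [IsScalarTower K K₁ L'] [CharZero K]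

/-- **Constants, then Kummer.**  `w` a DVR of `K` containing a subfield `k₀` and `p⁻¹`;
`K₁ = K(θ)` with `θ` algebraic over `k₀`; `L' = K₁(z)` with `z ^ p = t`, where `t` is a unit times
a `p`-th power at every valuation subring of `K₁` over `w`.  Then every valuation subring of `L'`
over `w` has `e = 1`. -/
theorem unramified_constants_kummer (w : ValuationSubring K) [IsDiscreteValuationRing w]
    (k₀ : Subfield K) (hk₀ : ∀ a ∈ k₀, a ∈ w) (θ : K₁) (q : Polynomial k₀) (hq : q ≠ 0)
    (hθ : Polynomial.aeval θ (q.map k₀.subtype) = 0)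
    (hgen₁ : IntermediateField.adjoin K {θ} = ⊤)
    (p : ℕ) (hp0 : p ≠ 0) (hp : (p : K)⁻¹ ∈ w)
    (t : K₁) (ht : t ≠ 0) (z : L') (hz : z ^ p = algebraMap K₁ L' t)
    (hgen₂ : IntermediateField.adjoin K₁ {z} = ⊤)
    (hdiv : ∀ W₁ : ValuationSubring K₁, W₁.comap (algebraMap K K₁) = w →
      ∃ u h : K₁, t = u * h ^ p ∧ u ∈ W₁ ∧ u⁻¹ ∈ W₁)
    (W' : ValuationSubring L') (hW' : W'.comap (algebraMap K L') = w) :
    ∀ x : L', W'.valuation x < 1 →
      ∃ y : K, w.valuation y < 1 ∧ W'.valuation x ≤ W'.valuation (algebraMap K L' y) := by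
  classical
  set W₁ : ValuationSubring K₁ := W'.comap (algebraMap K₁ L') with hW₁def
  have hW₁ : W₁.comap (algebraMap K K₁) = w := by
    rw [← hW']
    ext y
    simp only [hW₁def, ValuationSubring.mem_comap]
    rw [IsScalarTower.algebraMap_apply K K₁ L']
  -- `K₁` is algebraic over `K`
  have hθint : IsIntegral K θ := by
    have h1 : q.map k₀.subtype ≠ 0 := (Polynomial.map_ne_zero_iff k₀.subtype.injective).mpr hq
    exact (isAlgebraic_iff_isIntegral).mp ⟨q.map k₀.subtype, h1, hθ⟩
  have halg : Algebra.IsAlgebraic K K₁ := by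
    have h1 : FiniteDimensional K (IntermediateField.adjoin K {θ}) :=
      IntermediateField.adjoin.finiteDimensional hθint
    rw [hgen₁] at h1
    have h2 : FiniteDimensional K K₁ :=
      Module.Finite.equiv (IntermediateField.topEquiv (F := K) (E := K₁)).toLinearEquiv
    exact Algebra.IsAlgebraic.of_finite K K₁
  have h1 := unramified_of_subfield w W₁ hW₁ k₀ hk₀ θ q hq hθ hgen₁
  have hDVR : IsDiscreteValuationRing W₁ := isDiscreteValuationRing_of_unramified w W₁ hW₁ h1
  obtain ⟨u, h, htu, hu, hu'⟩ := hdiv W₁ hW₁
  have hu0 : u ≠ 0 := by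
    rintro rfl
    exact ht (by rw [htu, zero_mul])
  have hh0 : h ≠ 0 := by
    rintro rfl
    exact ht (by rw [htu, zero_pow hp0, mul_zero])
  have hchar : CharZero K₁ := charZero_of_injective_algebraMap (algebraMap K K₁).injective
  have hpK₁ : ((p : ℕ) : K₁) ≠ 0 := Nat.cast_ne_zero.mpr hp0
  have hpW₁ : ((p : ℕ) : K₁)⁻¹ ∈ W₁ := by
    have h2 : algebraMap K K₁ ((p : K)⁻¹) ∈ W₁ := (map_mem_iff w W₁ hW₁ _).mpr hp
    rw [map_inv₀, map_natCast] at h2
    exact h2
  have h2 := unramified_kummer W₁ W' rfl p hp0 u h hu hu' hu0 hh0 hpW₁ hpK₁ z (htu ▸ hz) hgen₂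
  exact unramified_trans w W₁ W' rfl h1 h2

end Horizontal

/-! ### The horizontal criterion in the elementwise form -/

section HorizontalUnr

variable {R : Type*} [CommRing R] [IsDomain R] [UniqueFactorizationMonoid R]
  (K L : Type*) [Field K] [Algebra R K] [IsFractionRing R K] [Field L] [Algebra K L]
  [Algebra R L] [IsScalarTower R K L]
  {K₁ L' : Type*} [Field K₁] [Field L'] [Algebra K K₁] [Algebra K₁ L'] [Algebra K L']
  [IsScalarTower K K₁ L'] [Algebra L L'] [IsScalarTower K L L'] [CharZero K]

/-- **(h) of D5.**  `R` factorial, `g` a prime element with `p` a unit at `g`, `L ⊆ L'` where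
`L' = K₁(z)`, `K₁ = K(θ)` with `θ` algebraic over a subfield `k₀` of constants (units at `g`),
`z ^ p = t` with `t` a unit times a `p`-th power at every valuation subring of `K₁` over `g`.
Then every prime `Q` of the integral closure `C` of `R` in `L` over `(g)` is unramified:
`∀ x ∈ Q, ∃ s ∉ Q, s * x ∈ g C`. -/
theorem unr_horizontal {g : R} (hg : Prime g)
    (k₀ : Subfield K) (hk₀ : ∀ a ∈ k₀, a ∈ primeValuationSubring K g hg) (θ : K₁)
    (q : Polynomial k₀) (hq : q ≠ 0) (hθ : Polynomial.aeval θ (q.map k₀.subtype) = 0)
    (hgen₁ : IntermediateField.adjoin K {θ} = ⊤)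
    (p : ℕ) (hp0 : p ≠ 0) (hp : (p : K)⁻¹ ∈ primeValuationSubring K g hg)
    (t : K₁) (ht : t ≠ 0) (z : L') (hz : z ^ p = algebraMap K₁ L' t)
    (hgen₂ : IntermediateField.adjoin K₁ {z} = ⊤)
    (hdiv : ∀ W₁ : ValuationSubring K₁,
      W₁.comap (algebraMap K K₁) = primeValuationSubring K g hg →
      ∃ u h : K₁, t = u * h ^ p ∧ u ∈ W₁ ∧ u⁻¹ ∈ W₁)
    (Q : Ideal (integralClosure R L)) (hQ : Q.IsPrime)
    (hQg : Q.comap (algebraMap R (integralClosure R L)) = Ideal.span {g})
    (x : integralClosure R L) (hx : x ∈ Q) :
    ∃ s : integralClosure R L, s ∉ Q ∧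
      s * x ∈ (Ideal.span {g}).map (algebraMap R (integralClosure R L)) := by
  have hDVR : IsDiscreteValuationRing (primeValuationSubring K g hg) :=
    isDiscreteValuationRing_primeValuationSubring g hg
  refine unr_of_valuation K L hg (fun W hW => ?_) Q hQ hQg x hx
  exact unramified_descend (L' := L') (primeValuationSubring K g hg)
    (fun W' hW' => unramified_constants_kummer (primeValuationSubring K g hg) k₀ hk₀ θ q hq hθ
      hgen₁ p hp0 hp t ht z hz hgen₂ hdiv W' hW') W hW

end HorizontalUnr

end Fermat.Agent.S44.L.SepUnrBridge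

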