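import Mathlib

/-!
# Program MR (S44), strand L, brick (L.N), file 2: the regular cover of a thickness-one node

Level-free commutative algebra, Mathlib only (helper27; literals of helper153).

* `eisenstein_adjoinRoot` : for a noetherian local domain `B`, a prime element `π` and
  `h = X ^ n + π k` with `deg k < n`, `k(0)` a unit, the ring `B[X] / (h)` is a local domain
  in which the root `r` is a prime element with `r ^ n ∼ π`, `B` injects, `r ∣ b ↔ π ∣ b` for
  `b ∈ B`, and every element is congruent to an element of `B` modulo `r`.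
* `eis_maximalIdeal` : its maximal ideal is `(𝔪_B, r)`.
* `eis_of_prime_of_prime_mk` : a second prime `ϖ` of `B` such that `π` stays prime in `B / (ϖ)`
  stays prime in `B[X] / (h)`.
* `exists_node_cover` : over a regular node `x y = p` (`𝔪 = (x, y)`, `x`, `y` non-associated
  primes) there is a finite local domain `R` with `𝔪_R = (s, t)`, `s`, `t` non-associated
  primes, `t ^ (p - 1) = y`, `s ^ (p - 1) ∼ x` and `(1 + s t) ^ p = 1`.
-/

set_option autoImplicit false

open Polynomial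

namespace Fermat.Agent.S44.L.NodeCover

universe u

/-! ### The Eisenstein step: polynomial facts -/

section Poly

variable {B : Type u} [CommRing B] {h : B[X]} {π : B} {n : ℕ} {k : B[X]}

theorem eis_monic (hh : h = X ^ n + C π * k) (hk : k.natDegree < n) : h.Monic := by
  subst hh
  refine monic_X_pow_add ?_
  calc (C π * k).degree ≤ (C π).degree + k.degree := degree_mul_le _ _
    _ ≤ 0 + k.degree := add_le_add degree_C_le le_rfl
    _ = k.degree := zero_add _
    _ ≤ (k.natDegree : WithBot ℕ) := degree_le_natDegree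
    _ < (n : WithBot ℕ) := by exact_mod_cast hk

theorem eis_natDegree [Nontrivial B] (hh : h = X ^ n + C π * k) (hk : k.natDegree < n) :
    h.natDegree = n := by
  subst hh
  rw [natDegree_add_eq_left_of_natDegree_lt, natDegree_X_pow]
  rw [natDegree_X_pow]
  exact (natDegree_C_mul_le π k).trans_lt hk

theorem eis_degree_ne_zero [Nontrivial B] (hh : h = X ^ n + C π * k) (hk : k.natDegree < n)
    (hn : n ≠ 0) : h.degree ≠ 0 := by
  rw [degree_eq_natDegree (eis_monic hh hk).ne_zero, eis_natDegree hh hk]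
  exact_mod_cast hn

theorem eis_eval_zero (hh : h = X ^ n + C π * k) (hn : n ≠ 0) : h.eval 0 = π * k.eval 0 := by
  subst hh
  simp [hn]

theorem eis_root_pow (hh : h = X ^ n + C π * k) :
    AdjoinRoot.root h ^ n = -(AdjoinRoot.of h π * AdjoinRoot.mk h k) := by
  subst hh
  have h0 : AdjoinRoot.mk (X ^ n + C π * k) (X ^ n + C π * k) = 0 := AdjoinRoot.mk_self
  rw [map_add, map_pow, map_mul, AdjoinRoot.mk_X, AdjoinRoot.mk_C] at h0
  exact eq_neg_of_add_eq_zero_left h0

/-- Every element of `B[X] / (h)` is an element of `B` plus a multiple of the root. -/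
theorem eis_exists_eq (c : AdjoinRoot h) :
    ∃ (b : B) (c' : AdjoinRoot h), c = AdjoinRoot.of h b + AdjoinRoot.root h * c' := by
  obtain ⟨g, rfl⟩ := AdjoinRoot.mk_surjective c
  refine ⟨g.coeff 0, AdjoinRoot.mk h g.divX, ?_⟩
  conv_lhs => rw [← X_mul_divX_add g]
  rw [map_add, map_mul, AdjoinRoot.mk_X, AdjoinRoot.mk_C, add_comm]

/-- `r ∣ b` in `B[X] / (h)` forces `π ∣ b` in `B`. -/
theorem eis_dvd_of_root_dvd (hh : h = X ^ n + C π * k) (hn : n ≠ 0) {b : B}
    (hb : AdjoinRoot.root h ∣ AdjoinRoot.of h b) : π ∣ b := by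
  obtain ⟨c, hc⟩ := hb
  obtain ⟨g, rfl⟩ := AdjoinRoot.mk_surjective c
  have h0 : AdjoinRoot.mk h (C b - X * g) = 0 := by
    rw [map_sub, map_mul, AdjoinRoot.mk_C, AdjoinRoot.mk_X, hc, sub_self]
  obtain ⟨q, hq⟩ := AdjoinRoot.mk_eq_zero.mp h0
  have he := congrArg (eval 0) hq
  rw [eval_sub, eval_C, eval_mul, eval_X, zero_mul, sub_zero, eval_mul, eis_eval_zero hh hn]
    at he
  exact ⟨k.eval 0 * q.eval 0, by rw [he]; ring⟩

end Poly

/-! ### The Eisenstein step over a local ring -/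

section LocalRing

variable {B : Type u} [CommRing B] [IsLocalRing B] {h : B[X]} {π : B} {n : ℕ} {k : B[X]}

/-- The root lies in the Jacobson radical. -/
theorem eis_root_mem_jacobson (hh : h = X ^ n + C π * k) (hk : k.natDegree < n)
    (hπ : Prime π) : AdjoinRoot.root h ∈ Ideal.jacobson (⊥ : Ideal (AdjoinRoot h)) := by
  have hmon := eis_monic hh hk
  have : Module.Finite B (AdjoinRoot h) := hmon.finite_adjoinRoot
  have : Algebra.IsIntegral B (AdjoinRoot h) := Algebra.IsIntegral.of_finite B (AdjoinRoot h)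
  rw [Ideal.jacobson, Ideal.mem_sInf]
  rintro 𝔐 ⟨-, h𝔐⟩
  have hcomap : (𝔐.comap (algebraMap B (AdjoinRoot h))).IsMaximal :=
    Ideal.isMaximal_comap_of_isIntegral_of_isMaximal 𝔐
  have hπ𝔐 : AdjoinRoot.of h π ∈ 𝔐 := by
    have hmem : π ∈ 𝔐.comap (algebraMap B (AdjoinRoot h)) := by
      rw [IsLocalRing.eq_maximalIdeal hcomap, IsLocalRing.mem_maximalIdeal, mem_nonunits_iff]
      exact hπ.not_isUnit
    exact hmem
  refine h𝔐.isPrime.mem_of_pow_mem n ?_
  rw [eis_root_pow hh]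
  exact 𝔐.neg_mem (𝔐.mul_mem_right _ hπ𝔐)

theorem eis_isUnit_of_add (hh : h = X ^ n + C π * k) (hk : k.natDegree < n) (hπ : Prime π)
    {b : B} (hb : IsUnit b) (c' : AdjoinRoot h) :
    IsUnit (AdjoinRoot.of h b + AdjoinRoot.root h * c') := by
  obtain ⟨u, rfl⟩ := hb
  have hj := Ideal.mem_jacobson_bot.mp (eis_root_mem_jacobson hh hk hπ)
    (c' * AdjoinRoot.of h ((u⁻¹ : Bˣ) : B))
  have hu : IsUnit (AdjoinRoot.of h (u : B)) := u.isUnit.map (AdjoinRoot.of h)
  have h1 : AdjoinRoot.of h (u : B) * AdjoinRoot.of h ((u⁻¹ : Bˣ) : B) = 1 := by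
    rw [← map_mul, Units.mul_inv, map_one]
  have heq : AdjoinRoot.of h (u : B) + AdjoinRoot.root h * c' = AdjoinRoot.of h (u : B) *
      (AdjoinRoot.root h * (c' * AdjoinRoot.of h ((u⁻¹ : Bˣ) : B)) + 1) := by
    linear_combination (-(AdjoinRoot.root h * c')) * h1
  rw [heq]
  exact hu.mul hj

theorem eis_isUnit_mk (hh : h = X ^ n + C π * k) (hk : k.natDegree < n) (hπ : Prime π)
    (hk0 : IsUnit (k.eval 0)) : IsUnit (AdjoinRoot.mk h k) := by
  have he : AdjoinRoot.mk h k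
      = AdjoinRoot.of h (k.coeff 0) + AdjoinRoot.root h * AdjoinRoot.mk h k.divX := by
    conv_lhs => rw [← X_mul_divX_add k]
    rw [map_add, map_mul, AdjoinRoot.mk_X, AdjoinRoot.mk_C, add_comm]
  rw [he]
  exact eis_isUnit_of_add hh hk hπ (by rwa [coeff_zero_eq_eval_zero]) _

/-- `r ^ n ∼ π`. -/
theorem eis_associated (hh : h = X ^ n + C π * k) (hk : k.natDegree < n) (hπ : Prime π)
    (hk0 : IsUnit (k.eval 0)) : Associated (AdjoinRoot.root h ^ n) (AdjoinRoot.of h π) := by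
  obtain ⟨v, hv⟩ := eis_isUnit_mk hh hk hπ hk0
  refine ⟨-v⁻¹, ?_⟩
  rw [eis_root_pow hh, ← hv, Units.val_neg, neg_mul_neg, mul_assoc, Units.mul_inv, mul_one]

theorem eis_root_dvd_of (hh : h = X ^ n + C π * k) (hk : k.natDegree < n) (hn : n ≠ 0)
    (hπ : Prime π) (hk0 : IsUnit (k.eval 0)) : AdjoinRoot.root h ∣ AdjoinRoot.of h π :=
  (dvd_pow_self _ hn).trans (eis_associated hh hk hπ hk0).dvd

/-- Evaluation at `X = 0` followed by the residue map of `B`. -/
noncomputable def eisRes (hh : h = X ^ n + C π * k) (hn : n ≠ 0) (hπ : Prime π) :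
    AdjoinRoot h →+* IsLocalRing.ResidueField B :=
  AdjoinRoot.lift (IsLocalRing.residue B) 0 (by
    have h0 : IsLocalRing.residue B π = 0 := by
      rw [IsLocalRing.residue_eq_zero_iff, IsLocalRing.mem_maximalIdeal, mem_nonunits_iff]
      exact hπ.not_isUnit
    rw [eval₂_at_zero, coeff_zero_eq_eval_zero, eis_eval_zero hh hn, map_mul, h0, zero_mul])

theorem eisRes_of (hh : h = X ^ n + C π * k) (hn : n ≠ 0) (hπ : Prime π) (b : B) :
    eisRes hh hn hπ (AdjoinRoot.of h b) = IsLocalRing.residue B b :=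
  AdjoinRoot.lift_of _

theorem eisRes_root (hh : h = X ^ n + C π * k) (hn : n ≠ 0) (hπ : Prime π) :
    eisRes hh hn hπ (AdjoinRoot.root h) = 0 :=
  AdjoinRoot.lift_root _

/-- The units of `B[X] / (h)`. -/
theorem eis_isUnit_iff (hh : h = X ^ n + C π * k) (hk : k.natDegree < n) (hn : n ≠ 0)
    (hπ : Prime π) (b : B) (c' : AdjoinRoot h) :
    IsUnit (AdjoinRoot.of h b + AdjoinRoot.root h * c') ↔ IsUnit b := by
  constructor
  · intro hu
    by_contra hb
    have h0 : eisRes hh hn hπ (AdjoinRoot.of h b + AdjoinRoot.root h * c') = 0 := by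
      rw [map_add, map_mul, eisRes_of, eisRes_root, zero_mul, add_zero,
        IsLocalRing.residue_eq_zero_iff]
      exact (IsLocalRing.mem_maximalIdeal b).mpr hb
    exact not_isUnit_zero (h0 ▸ hu.map (eisRes hh hn hπ))
  · exact fun hb => eis_isUnit_of_add hh hk hπ hb c'

/-- The maximal ideal of `B[X] / (h)` is `(𝔪_B, r)`. -/
theorem eis_maximalIdeal (hh : h = X ^ n + C π * k) (hk : k.natDegree < n) (hn : n ≠ 0)
    (hπ : Prime π) [IsLocalRing (AdjoinRoot h)] :
    IsLocalRing.maximalIdeal (AdjoinRoot h)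
      = Ideal.map (AdjoinRoot.of h) (IsLocalRing.maximalIdeal B)
        ⊔ Ideal.span {AdjoinRoot.root h} := by
  apply le_antisymm
  · intro c hc
    obtain ⟨b, c', rfl⟩ := eis_exists_eq c
    have hb : ¬ IsUnit b := fun hb =>
      (IsLocalRing.mem_maximalIdeal _).mp hc ((eis_isUnit_iff hh hk hn hπ b c').mpr hb)
    exact Submodule.add_mem_sup
      (Ideal.mem_map_of_mem _ ((IsLocalRing.mem_maximalIdeal b).mpr hb))
      (Ideal.mul_mem_right _ _ (Ideal.mem_span_singleton_self _))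
  · refine sup_le (Ideal.map_le_iff_le_comap.mpr fun b hb => ?_) ?_
    · rw [Ideal.mem_comap, IsLocalRing.mem_maximalIdeal, mem_nonunits_iff]
      intro hu
      have hu' : IsUnit (AdjoinRoot.of h b + AdjoinRoot.root h * 0) := by
        rwa [mul_zero, add_zero]
      exact (IsLocalRing.mem_maximalIdeal b).mp hb ((eis_isUnit_iff hh hk hn hπ b 0).mp hu')
    · rw [Ideal.span_singleton_le_iff_mem, IsLocalRing.mem_maximalIdeal, mem_nonunits_iff]
      intro hu
      have hu' : IsUnit (AdjoinRoot.of h 0 + AdjoinRoot.root h * 1) := by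
        rwa [map_zero, zero_add, mul_one]
      exact not_isUnit_zero ((eis_isUnit_iff hh hk hn hπ 0 1).mp hu')

theorem eis_root_not_isUnit (hh : h = X ^ n + C π * k) (hk : k.natDegree < n) (hn : n ≠ 0)
    (hπ : Prime π) : ¬ IsUnit (AdjoinRoot.root h) := by
  intro hu
  have hu' : IsUnit (AdjoinRoot.of h 0 + AdjoinRoot.root h * 1) := by
    rwa [map_zero, zero_add, mul_one]
  exact not_isUnit_zero ((eis_isUnit_iff hh hk hn hπ 0 1).mp hu')

theorem eis_root_dvd_iff (hh : h = X ^ n + C π * k) (hk : k.natDegree < n) (hn : n ≠ 0)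
    (hπ : Prime π) (hk0 : IsUnit (k.eval 0)) (b : B) (c' : AdjoinRoot h) :
    AdjoinRoot.root h ∣ AdjoinRoot.of h b + AdjoinRoot.root h * c' ↔ π ∣ b := by
  constructor
  · intro hd
    exact eis_dvd_of_root_dvd hh hn ((dvd_add_left (dvd_mul_right _ _)).mp hd)
  · rintro ⟨d, rfl⟩
    refine dvd_add ?_ (dvd_mul_right _ _)
    rw [map_mul]
    exact (eis_root_dvd_of hh hk hn hπ hk0).mul_right _

end LocalRing

/-! ### The Eisenstein step over a local domain -/

section Local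

variable {B : Type u} [CommRing B] [IsDomain B] [IsLocalRing B]
  {h : B[X]} {π : B} {n : ℕ} {k : B[X]}

omit [IsLocalRing B] in
theorem eis_of_injective (hh : h = X ^ n + C π * k) (hk : k.natDegree < n) (hn : n ≠ 0) :
    Function.Injective (AdjoinRoot.of h) :=
  AdjoinRoot.of.injective_of_degree_ne_zero (eis_degree_ne_zero hh hk hn)

/-- `B[X] / (h)` is a local ring. -/
theorem eis_isLocalRing (hh : h = X ^ n + C π * k) (hk : k.natDegree < n) (hn : n ≠ 0)
    (hπ : Prime π) : IsLocalRing (AdjoinRoot h) := by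
  have : Nontrivial (AdjoinRoot h) := (eis_of_injective hh hk hn).nontrivial
  refine IsLocalRing.of_isUnit_or_isUnit_one_sub_self fun a => ?_
  obtain ⟨b, c', rfl⟩ := eis_exists_eq a
  by_cases hb : IsUnit b
  · exact Or.inl (eis_isUnit_of_add hh hk hπ hb c')
  · right
    have h1 : IsUnit (1 - b) := (IsLocalRing.isUnit_or_isUnit_one_sub_self b).resolve_left hb
    have he : 1 - (AdjoinRoot.of h b + AdjoinRoot.root h * c')
        = AdjoinRoot.of h (1 - b) + AdjoinRoot.root h * (-c') := by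
      rw [map_sub, map_one]
      ring
    rw [he]
    exact eis_isUnit_of_add hh hk hπ h1 _

theorem eis_root_ne_zero (hh : h = X ^ n + C π * k) (hk : k.natDegree < n) (hn : n ≠ 0)
    (hπ : Prime π) (hk0 : IsUnit (k.eval 0)) : AdjoinRoot.root h ≠ 0 := by
  intro h0
  have ha := eis_associated hh hk hπ hk0
  rw [h0, zero_pow hn] at ha
  have hπ0 : AdjoinRoot.of h π = 0 := (associated_zero_iff_eq_zero _).mp ha.symm
  exact hπ.ne_zero (eis_of_injective hh hk hn (hπ0.trans (map_zero _).symm))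


/-- The root is a prime element. -/
theorem eis_root_prime (hh : h = X ^ n + C π * k) (hk : k.natDegree < n) (hn : n ≠ 0)
    (hπ : Prime π) (hk0 : IsUnit (k.eval 0)) : Prime (AdjoinRoot.root h) := by
  refine ⟨eis_root_ne_zero hh hk hn hπ hk0, eis_root_not_isUnit hh hk hn hπ, fun a b hab => ?_⟩
  obtain ⟨a0, a', rfl⟩ := eis_exists_eq a
  obtain ⟨b0, b', rfl⟩ := eis_exists_eq b
  have hab' : AdjoinRoot.root h ∣ AdjoinRoot.of h (a0 * b0) + AdjoinRoot.root h *
      (AdjoinRoot.of h a0 * b' + a' * AdjoinRoot.of h b0 + AdjoinRoot.root h * a' * b') := by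
    convert hab using 1
    rw [map_mul]
    ring
  rw [eis_root_dvd_iff hh hk hn hπ hk0] at hab'
  rw [eis_root_dvd_iff hh hk hn hπ hk0, eis_root_dvd_iff hh hk hn hπ hk0]
  exact hπ.dvd_or_dvd hab'

omit [IsLocalRing B] in
/-- The root is a non-zero-divisor. -/
theorem eis_root_mul_eq_zero (hh : h = X ^ n + C π * k) (hn : n ≠ 0) (hπ : Prime π)
    (hk0 : IsUnit (k.eval 0)) {c : AdjoinRoot h} (hc : AdjoinRoot.root h * c = 0) : c = 0 := by
  obtain ⟨g, rfl⟩ := AdjoinRoot.mk_surjective c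
  have h0 : AdjoinRoot.mk h (X * g) = 0 := by rw [map_mul, AdjoinRoot.mk_X, hc]
  obtain ⟨q, hq⟩ := AdjoinRoot.mk_eq_zero.mp h0
  have hq0 : q.coeff 0 = 0 := by
    have he := congrArg (eval 0) hq
    rw [eval_mul, eval_X, zero_mul, eval_mul, eis_eval_zero hh hn] at he
    have hne : π * k.eval 0 ≠ 0 := mul_ne_zero hπ.ne_zero hk0.ne_zero
    rw [coeff_zero_eq_eval_zero]
    exact (mul_eq_zero.mp he.symm).resolve_left hne
  obtain ⟨q', rfl⟩ := X_dvd_iff.mpr hq0
  rw [AdjoinRoot.mk_eq_zero]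
  refine ⟨q', mul_left_cancel₀ (X_ne_zero : (X : B[X]) ≠ 0) ?_⟩
  rw [hq]
  ring

variable [IsNoetherianRing B]

/-- `B[X] / (h)` is a domain. -/
theorem eis_isDomain (hh : h = X ^ n + C π * k) (hk : k.natDegree < n) (hn : n ≠ 0)
    (hπ : Prime π) (hk0 : IsUnit (k.eval 0)) : IsDomain (AdjoinRoot h) := by
  have : Nontrivial (AdjoinRoot h) := (eis_of_injective hh hk hn).nontrivial
  have := eis_isLocalRing hh hk hn hπ
  have hprime := eis_root_prime hh hk hn hπ hk0
  have hpow : ∀ (m : ℕ) (c : AdjoinRoot h), AdjoinRoot.root h ^ m * c = 0 → c = 0 := by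
    intro m
    induction m with
    | zero =>
      intro c hc
      simpa using hc
    | succ m ih =>
      intro c hc
      rw [pow_succ, mul_assoc] at hc
      exact eis_root_mul_eq_zero hh hn hπ hk0 (ih _ hc)
  have hkrull : ⨅ i : ℕ, (Ideal.span {AdjoinRoot.root h}) ^ i = (⊥ : Ideal (AdjoinRoot h)) :=
    Ideal.iInf_pow_eq_bot_of_isLocalRing _ (by
      rw [Ne, Ideal.span_singleton_eq_top]
      exact hprime.not_isUnit)
  have hdecomp : ∀ a : AdjoinRoot h, a ≠ 0 → ∃ (i : ℕ) (a' : AdjoinRoot h),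
      a = AdjoinRoot.root h ^ i * a' ∧ ¬ AdjoinRoot.root h ∣ a' := by
    intro a ha
    have hex : ∃ i : ℕ, ¬ AdjoinRoot.root h ^ i ∣ a := by
      by_contra hcon
      apply ha
      have hmem : a ∈ ⨅ i : ℕ, (Ideal.span {AdjoinRoot.root h}) ^ i := by
        rw [Ideal.mem_iInf]
        intro i
        rw [Ideal.span_singleton_pow, Ideal.mem_span_singleton]
        by_contra hnd
        exact hcon ⟨i, hnd⟩
      rw [hkrull] at hmem
      exact hmem
    classical
    have hpos : Nat.find hex ≠ 0 := by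
      intro h0
      have hs := Nat.find_spec hex
      rw [h0, pow_zero] at hs
      exact hs (one_dvd a)
    obtain ⟨i, hi⟩ := Nat.exists_eq_add_one_of_ne_zero hpos
    have hdvd : AdjoinRoot.root h ^ i ∣ a := by
      by_contra hnd
      exact Nat.find_min hex (by omega) hnd
    obtain ⟨a', rfl⟩ := hdvd
    refine ⟨i, a', rfl, ?_⟩
    rintro ⟨a'', rfl⟩
    apply Nat.find_spec hex
    rw [hi, pow_succ]
    exact ⟨a'', by ring⟩
  have : NoZeroDivisors (AdjoinRoot h) := ⟨fun {a b} hab => by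
    by_contra hcon
    rw [not_or] at hcon
    obtain ⟨i, a', rfl, ha'⟩ := hdecomp a hcon.1
    obtain ⟨j, b', rfl, hb'⟩ := hdecomp b hcon.2
    have h0 : AdjoinRoot.root h ^ (i + j) * (a' * b') = 0 := by
      rw [← hab]
      ring
    have h1 : a' * b' = 0 := hpow _ _ h0
    exact (hprime.dvd_or_dvd (h1 ▸ dvd_zero _)).elim ha' hb'⟩
  exact NoZeroDivisors.to_isDomain _

/-- **The Eisenstein step** (literal of helper153). -/
theorem eisenstein_adjoinRoot {B : Type u} [CommRing B] [IsDomain B] [IsLocalRing B]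
    [IsNoetherianRing B] (π : B) (hπ : Prime π) (n : ℕ) (hn : n ≠ 0) (k : B[X])
    (hk : k.natDegree < n) (hk0 : IsUnit (k.eval 0)) :
    let h : B[X] := X ^ n + C π * k
    IsDomain (AdjoinRoot h) ∧ IsLocalRing (AdjoinRoot h) ∧ Prime (AdjoinRoot.root h) ∧
      Associated (AdjoinRoot.root h ^ n) (AdjoinRoot.of h π) ∧
      Function.Injective (AdjoinRoot.of h) ∧
      (∀ b : B, AdjoinRoot.root h ∣ AdjoinRoot.of h b → π ∣ b) ∧
      (∀ c : AdjoinRoot h, ∃ b : B, AdjoinRoot.root h ∣ c - AdjoinRoot.of h b) := by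
  intro h
  refine ⟨eis_isDomain rfl hk hn hπ hk0, eis_isLocalRing rfl hk hn hπ,
    eis_root_prime rfl hk hn hπ hk0, eis_associated rfl hk hπ hk0, eis_of_injective rfl hk hn,
    fun b hb => eis_dvd_of_root_dvd rfl hn hb, fun c => ?_⟩
  obtain ⟨b, c', rfl⟩ := eis_exists_eq c
  exact ⟨b, c', by ring⟩

/-- **A second prime stays prime.**  If `ϖ` is a prime of `B` such that `π` is prime in
`B / (ϖ)`, then `ϖ` is prime in `B[X] / (h)` and divides only the multiples of `ϖ` in `B`. -/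
theorem eis_of_prime_of_prime_mk (hh : h = X ^ n + C π * k) (hk : k.natDegree < n)
    (hn : n ≠ 0) (hk0 : IsUnit (k.eval 0)) {ϖ : B} (hϖ : Prime ϖ)
    (hπ' : Prime (Ideal.Quotient.mk (Ideal.span {ϖ}) π)) :
    Prime (AdjoinRoot.of h ϖ) ∧ ∀ b : B, AdjoinRoot.of h ϖ ∣ AdjoinRoot.of h b → ϖ ∣ b := by
  have hI : (Ideal.span {ϖ}).IsPrime := (Ideal.span_singleton_prime hϖ.ne_zero).mpr hϖ
  have : IsLocalRing (B ⧸ Ideal.span {ϖ}) :=
    IsLocalRing.of_surjective' (Ideal.Quotient.mk _) Ideal.Quotient.mk_surjective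
  have hh' : h.map (Ideal.Quotient.mk (Ideal.span {ϖ}))
      = X ^ n + C (Ideal.Quotient.mk (Ideal.span {ϖ}) π)
        * k.map (Ideal.Quotient.mk (Ideal.span {ϖ})) := by
    rw [hh, Polynomial.map_add, Polynomial.map_mul, Polynomial.map_pow, Polynomial.map_X,
      Polynomial.map_C]
  have hk' : (k.map (Ideal.Quotient.mk (Ideal.span {ϖ}))).natDegree < n :=
    natDegree_map_le.trans_lt hk
  have hk0' : IsUnit ((k.map (Ideal.Quotient.mk (Ideal.span {ϖ}))).eval 0) := by
    rw [eval_zero_map]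
    exact hk0.map _
  have hdom' : IsDomain (AdjoinRoot (h.map (Ideal.Quotient.mk (Ideal.span {ϖ})))) :=
    eis_isDomain hh' hk' hn hπ' hk0'
  have hinj' : Function.Injective (AdjoinRoot.of (h.map (Ideal.Quotient.mk (Ideal.span {ϖ})))) :=
    eis_of_injective hh' hk' hn
  have hmap : Ideal.map (AdjoinRoot.of h) (Ideal.span {ϖ}) = Ideal.span {AdjoinRoot.of h ϖ} := by
    rw [Ideal.map_span, Set.image_singleton]
  have hdomQ : IsDomain (AdjoinRoot h ⧸ Ideal.map (AdjoinRoot.of h) (Ideal.span {ϖ})) :=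
    MulEquiv.isDomain (AdjoinRoot (h.map (Ideal.Quotient.mk (Ideal.span {ϖ}))))
      (AdjoinRoot.quotEquivQuotMap h (Ideal.span {ϖ})).toRingEquiv.toMulEquiv
  have hprimeI : (Ideal.map (AdjoinRoot.of h) (Ideal.span {ϖ})).IsPrime :=
    (Ideal.Quotient.isDomain_iff_prime _).mp hdomQ
  have hne0 : AdjoinRoot.of h ϖ ≠ 0 := fun h0 =>
    hϖ.ne_zero (eis_of_injective hh hk hn (h0.trans (map_zero _).symm))
  refine ⟨(Ideal.span_singleton_prime hne0).mp (hmap ▸ hprimeI), fun b hb => ?_⟩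
  have hmem : AdjoinRoot.of h b ∈ Ideal.map (AdjoinRoot.of h) (Ideal.span {ϖ}) := by
    rw [hmap]
    exact Ideal.mem_span_singleton.mpr hb
  have h0 : Ideal.Quotient.mk (Ideal.map (AdjoinRoot.of h) (Ideal.span {ϖ}))
      (AdjoinRoot.mk h (C b)) = 0 := by
    rw [AdjoinRoot.mk_C]
    exact Ideal.Quotient.eq_zero_iff_mem.mpr hmem
  have h1 := AdjoinRoot.quotEquivQuotMap_apply_mk h (C b) (Ideal.span {ϖ})
  rw [h0, map_zero, Polynomial.map_C] at h1
  have h2 : AdjoinRoot.of (h.map (Ideal.Quotient.mk (Ideal.span {ϖ})))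
      (Ideal.Quotient.mk (Ideal.span {ϖ}) b) = 0 := h1.symm
  have h3 : Ideal.Quotient.mk (Ideal.span {ϖ}) b = 0 := hinj' (h2.trans (map_zero _).symm)
  exact Ideal.mem_span_singleton.mp (Ideal.Quotient.eq_zero_iff_mem.mp h3)

end Local

/-! ### Two generators of the maximal ideal -/

/-- In a local ring with `𝔪 = (a, b)` and `a ∤ b`, the class of `b` is prime in `A / (a)`. -/
theorem prime_mk_of_maximalIdeal_eq {A : Type*} [CommRing A] [IsLocalRing A] {a b : A}
    (hm : IsLocalRing.maximalIdeal A = Ideal.span {a, b}) (hab : ¬ a ∣ b) :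
    Prime (Ideal.Quotient.mk (Ideal.span {a}) b) := by
  have key : ∀ c : A, Ideal.Quotient.mk (Ideal.span {a}) b ∣ Ideal.Quotient.mk (Ideal.span {a}) c
      ↔ c ∈ IsLocalRing.maximalIdeal A := by
    intro c
    rw [hm, Ideal.mem_span_pair]
    constructor
    · rintro ⟨d, hd⟩
      obtain ⟨d, rfl⟩ := Ideal.Quotient.mk_surjective d
      rw [← map_mul, Ideal.Quotient.eq, Ideal.mem_span_singleton'] at hd
      obtain ⟨e, he⟩ := hd
      exact ⟨e, d, by linear_combination he⟩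
    · rintro ⟨u, v, rfl⟩
      refine ⟨Ideal.Quotient.mk _ v, ?_⟩
      rw [← map_mul, Ideal.Quotient.eq, Ideal.mem_span_singleton']
      exact ⟨u, by ring⟩
  refine ⟨fun h0 => hab (Ideal.mem_span_singleton.mp (Ideal.Quotient.eq_zero_iff_mem.mp h0)),
    fun hu => ?_, fun c d hcd => ?_⟩
  · have h1 : (1 : A) ∈ IsLocalRing.maximalIdeal A := (key 1).mp (by
      rw [map_one]
      exact hu.dvd)
    exact (IsLocalRing.mem_maximalIdeal _).mp h1 isUnit_one
  · obtain ⟨c, rfl⟩ := Ideal.Quotient.mk_surjective c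
    obtain ⟨d, rfl⟩ := Ideal.Quotient.mk_surjective d
    rw [← map_mul, key] at hcd
    rw [key, key]
    exact (IsLocalRing.maximalIdeal.isMaximal A).isPrime.mem_or_mem hcd

/-! ### The `p`-th root of unity `1 + s t` -/

/-- `(1 + λ) ^ p = 1` as soon as `λ ^ p = - p λ θ(λ)`, `θ(Y) = ∑_{j<p-1} (C(p,j+1)/p) Y^j`. -/
theorem one_add_pow_eq_one {A : Type*} [CommRing A] (q : ℕ) (hp : (q + 1).Prime) (lam : A)
    (hlam : lam ^ (q + 1) = -(((q + 1 : ℕ) : A) * lam *
      ∑ j ∈ Finset.range q, (((q + 1).choose (j + 1) / (q + 1) : ℕ) : A) * lam ^ j)) :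
    (1 + lam) ^ (q + 1) = 1 := by
  have hsum : ∑ j ∈ Finset.range q, lam ^ (j + 1) * (((q + 1).choose (j + 1) : ℕ) : A)
      = ((q + 1 : ℕ) : A) * lam *
        ∑ j ∈ Finset.range q, (((q + 1).choose (j + 1) / (q + 1) : ℕ) : A) * lam ^ j := by
    rw [Finset.mul_sum]
    refine Finset.sum_congr rfl fun j hj => ?_
    have hj' : j < q := Finset.mem_range.mp hj
    have hdiv : (q + 1) * ((q + 1).choose (j + 1) / (q + 1)) = (q + 1).choose (j + 1) :=
      Nat.mul_div_cancel' (hp.dvd_choose_self (Nat.succ_ne_zero j) (by omega))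
    have hcast : (((q + 1).choose (j + 1) : ℕ) : A)
        = ((q + 1 : ℕ) : A) * (((q + 1).choose (j + 1) / (q + 1) : ℕ) : A) := by
      rw [← Nat.cast_mul, hdiv]
    rw [hcast]
    ring
  rw [add_comm, add_pow, Finset.sum_range_succ, Finset.sum_range_succ']
  simp only [one_pow, mul_one, pow_zero, Nat.choose_zero_right, Nat.choose_self, Nat.cast_one]
  rw [hsum, hlam]
  ring

/-! ### The polynomial `θ(t X)` -/

/-- `θ(t X) = ∑_{j<q} (C(q+1, j+1)/(q+1)) t^j X^j`. -/
noncomputable def thetaPoly {A : Type*} [CommRing A] (q : ℕ) (t : A) : A[X] :=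
  ∑ j ∈ Finset.range q, C ((((q + 1).choose (j + 1) / (q + 1) : ℕ) : A) * t ^ j) * X ^ j

theorem thetaPoly_natDegree_lt {A : Type*} [CommRing A] {q : ℕ} (hq : q ≠ 0) (t : A) :
    (thetaPoly q t).natDegree < q := by
  refine lt_of_le_of_lt (natDegree_sum_le_of_forall_le _ _ (n := q - 1) fun j hj => ?_)
    (by omega)
  have hj' := Finset.mem_range.mp hj
  exact (natDegree_C_mul_X_pow_le _ _).trans (by omega)

theorem thetaPoly_eval_zero {A : Type*} [CommRing A] {q : ℕ} (hq : q ≠ 0) (t : A) :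
    (thetaPoly q t).eval 0 = 1 := by
  obtain ⟨q', rfl⟩ := Nat.exists_eq_add_one_of_ne_zero hq
  rw [thetaPoly, eval_finsetSum, Finset.sum_range_succ']
  have h0 : ∑ j ∈ Finset.range q', eval (0 : A)
      (C ((((q' + 1 + 1).choose (j + 1 + 1) / (q' + 1 + 1) : ℕ) : A) * t ^ (j + 1)) * X ^ (j + 1))
      = 0 := Finset.sum_eq_zero fun j _ => by
    rw [eval_mul, eval_pow, eval_X, zero_pow (Nat.succ_ne_zero j), mul_zero]
  rw [h0, zero_add, eval_mul, eval_C, eval_pow, eval_X, pow_zero, pow_zero, mul_one, mul_one,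
    Nat.choose_one_right, Nat.div_self (Nat.succ_pos _), Nat.cast_one]

theorem mk_thetaPoly {A : Type*} [CommRing A] (q : ℕ) (t : A) (f : A[X]) :
    AdjoinRoot.mk f (thetaPoly q t) = ∑ j ∈ Finset.range q,
      (((q + 1).choose (j + 1) / (q + 1) : ℕ) : AdjoinRoot f)
        * (AdjoinRoot.root f * AdjoinRoot.of f t) ^ j := by
  rw [thetaPoly, map_sum]
  refine Finset.sum_congr rfl fun j _ => ?_
  rw [map_mul, map_pow, AdjoinRoot.mk_C, AdjoinRoot.mk_X, map_mul, map_natCast, map_pow, mul_pow]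
  ring

/-! ### The cover -/

section Cover

variable {R₀ : Type u} [CommRing R₀] [IsDomain R₀] [IsLocalRing R₀] [IsNoetherianRing R₀]

theorem exists_node_cover_aux (q : ℕ) (hp : (q + 1).Prime) (x y : R₀) (hx : Prime x)
    (hy : Prime y) (hne : ¬ Associated x y)
    (hm : IsLocalRing.maximalIdeal R₀ = Ideal.span {x, y}) (hxy : x * y = ((q + 1 : ℕ) : R₀)) :
    ∃ (R : Type u) (_ : CommRing R) (_ : IsDomain R) (_ : IsLocalRing R) (_ : IsNoetherianRing R)
      (_ : Algebra R₀ R) (s t : R), Function.Injective (algebraMap R₀ R) ∧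
      Algebra.IsIntegral R₀ R ∧ Prime s ∧ Prime t ∧ ¬ Associated s t ∧
      IsLocalRing.maximalIdeal R = Ideal.span {s, t} ∧ (1 + s * t) ^ (q + 1) = 1 ∧
      Associated (s ^ q) (algebraMap R₀ R x) ∧ t ^ q = algebraMap R₀ R y ∧
      (∀ b : R₀, s ∣ algebraMap R₀ R b → x ∣ b) ∧ (∀ b : R₀, t ∣ algebraMap R₀ R b → y ∣ b) := by
  have hq : q ≠ 0 := by
    rintro rfl
    exact Nat.not_prime_one hp
  have hxy' : ¬ x ∣ y := fun hd => hne (hx.associated_of_dvd hy hd)
  have hyx' : ¬ y ∣ x := fun hd => hne (hy.associated_of_dvd hx hd).symm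
  -- first step: adjoin `t₁` with `t₁ ^ q = y`
  obtain ⟨h₁, hh₁⟩ : ∃ h₁ : R₀[X], h₁ = X ^ q + C y * (-1) := ⟨_, rfl⟩
  have hk₁ : (-1 : R₀[X]).natDegree < q := by
    rw [natDegree_neg, natDegree_one]
    exact Nat.pos_of_ne_zero hq
  have hk0₁ : IsUnit ((-1 : R₀[X]).eval 0) := by
    rw [eval_neg, eval_one]
    exact isUnit_one.neg
  have hdom₁ : IsDomain (AdjoinRoot h₁) := eis_isDomain hh₁ hk₁ hq hy hk0₁
  have hloc₁ : IsLocalRing (AdjoinRoot h₁) := eis_isLocalRing hh₁ hk₁ hq hy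
  have hinj₁ := eis_of_injective hh₁ hk₁ hq
  have ht₁ : Prime (AdjoinRoot.root h₁) := eis_root_prime hh₁ hk₁ hq hy hk0₁
  have ht₁pow : AdjoinRoot.root h₁ ^ q = AdjoinRoot.of h₁ y := by
    rw [eis_root_pow hh₁, map_neg, map_one]
    ring
  have hdvd₁ : ∀ b : R₀, AdjoinRoot.root h₁ ∣ AdjoinRoot.of h₁ b → y ∣ b :=
    fun b hb => eis_dvd_of_root_dvd hh₁ hq hb
  have hm₁ : IsLocalRing.maximalIdeal (AdjoinRoot h₁)
      = Ideal.span {AdjoinRoot.root h₁, AdjoinRoot.of h₁ x} := by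
    rw [eis_maximalIdeal hh₁ hk₁ hq hy, hm, Ideal.map_span, Set.image_pair]
    apply le_antisymm
    · refine sup_le (Ideal.span_le.mpr ?_) (Ideal.span_mono (by simp))
      rintro z (rfl | rfl)
      · exact Ideal.subset_span (by simp)
      · rw [← ht₁pow]
        exact Ideal.pow_mem_of_mem _ (Ideal.subset_span (by simp)) q (Nat.pos_of_ne_zero hq)
    · refine Ideal.span_le.mpr ?_
      rintro z (rfl | rfl)
      · exact Ideal.mem_sup_right (Ideal.subset_span rfl)
      · exact Ideal.mem_sup_left (Ideal.subset_span (by simp))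
  obtain ⟨hX₁, hX₁dvd⟩ := eis_of_prime_of_prime_mk hh₁ hk₁ hq hk0₁ hx
    (prime_mk_of_maximalIdeal_eq hm hxy')
  -- second step: adjoin `s` with `s ^ q = - x θ(t₁ s)`
  obtain ⟨h₂, hh₂⟩ : ∃ h₂ : (AdjoinRoot h₁)[X],
      h₂ = X ^ q + C (AdjoinRoot.of h₁ x) * thetaPoly q (AdjoinRoot.root h₁) := ⟨_, rfl⟩
  have hk₂ := thetaPoly_natDegree_lt hq (AdjoinRoot.root h₁)
  have hk0₂ : IsUnit ((thetaPoly q (AdjoinRoot.root h₁)).eval 0) := by
    rw [thetaPoly_eval_zero hq]
    exact isUnit_one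
  have hdom₂ : IsDomain (AdjoinRoot h₂) := eis_isDomain hh₂ hk₂ hq hX₁ hk0₂
  have hloc₂ : IsLocalRing (AdjoinRoot h₂) := eis_isLocalRing hh₂ hk₂ hq hX₁
  have hinj₂ := eis_of_injective hh₂ hk₂ hq
  have hs : Prime (AdjoinRoot.root h₂) := eis_root_prime hh₂ hk₂ hq hX₁ hk0₂
  have hsass : Associated (AdjoinRoot.root h₂ ^ q) (AdjoinRoot.of h₂ (AdjoinRoot.of h₁ x)) :=
    eis_associated hh₂ hk₂ hX₁ hk0₂
  have hspow := eis_root_pow hh₂
  have hdvd₂ : ∀ b : AdjoinRoot h₁, AdjoinRoot.root h₂ ∣ AdjoinRoot.of h₂ b →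
      AdjoinRoot.of h₁ x ∣ b := fun b hb => eis_dvd_of_root_dvd hh₂ hq hb
  obtain ⟨ht, htdvd⟩ := eis_of_prime_of_prime_mk hh₂ hk₂ hq hk0₂ ht₁
    (prime_mk_of_maximalIdeal_eq hm₁ fun hd => hyx' (hdvd₁ x hd))
  have htpow : AdjoinRoot.of h₂ (AdjoinRoot.root h₁) ^ q
      = AdjoinRoot.of h₂ (AdjoinRoot.of h₁ y) := by
    rw [← map_pow, ht₁pow]
  have halg : ∀ b : R₀, algebraMap R₀ (AdjoinRoot h₂) b
      = AdjoinRoot.of h₂ (AdjoinRoot.of h₁ b) := fun b => rfl
  refine ⟨AdjoinRoot h₂, inferInstance, hdom₂, hloc₂, inferInstance, inferInstance,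
    AdjoinRoot.root h₂, AdjoinRoot.of h₂ (AdjoinRoot.root h₁), ?_, ?_, hs, ht, ?_, ?_, ?_, ?_,
    ?_, ?_, ?_⟩
  · intro a b hab
    rw [halg, halg] at hab
    exact hinj₁ (hinj₂ hab)
  · have hfin₁ : Module.Finite R₀ (AdjoinRoot h₁) := (eis_monic hh₁ hk₁).finite_adjoinRoot
    have hfin₂ : Module.Finite (AdjoinRoot h₁) (AdjoinRoot h₂) :=
      (eis_monic hh₂ hk₂).finite_adjoinRoot
    have hi₁ : Algebra.IsIntegral R₀ (AdjoinRoot h₁) := Algebra.IsIntegral.of_finite _ _
    have hi₂ : Algebra.IsIntegral (AdjoinRoot h₁) (AdjoinRoot h₂) :=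
      Algebra.IsIntegral.of_finite _ _
    exact Algebra.IsIntegral.trans (AdjoinRoot h₁)
  · intro hass
    have hst : AdjoinRoot.root h₂ ∣ AdjoinRoot.of h₂ (AdjoinRoot.of h₁ y) := by
      rw [← htpow]
      exact hass.dvd.trans (dvd_pow_self _ hq)
    exact hxy' (hX₁dvd y (hdvd₂ _ hst))
  · rw [eis_maximalIdeal hh₂ hk₂ hq hX₁, hm₁, Ideal.map_span, Set.image_pair]
    apply le_antisymm
    · refine sup_le (Ideal.span_le.mpr ?_) (Ideal.span_mono (by simp))
      rintro z (rfl | rfl)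
      · exact Ideal.subset_span (by simp)
      · have hd : AdjoinRoot.root h₂ ∣ AdjoinRoot.of h₂ (AdjoinRoot.of h₁ x) :=
          (dvd_pow_self _ hq).trans hsass.dvd
        exact Ideal.span_mono (by simp) (Ideal.mem_span_singleton.mpr hd)
    · refine Ideal.span_le.mpr ?_
      rintro z (rfl | rfl)
      · exact Ideal.mem_sup_right (Ideal.subset_span rfl)
      · exact Ideal.mem_sup_left (Ideal.subset_span (by simp))
  · refine one_add_pow_eq_one q hp _ ?_
    have hXY : AdjoinRoot.of h₂ (AdjoinRoot.of h₁ x) * AdjoinRoot.of h₂ (AdjoinRoot.of h₁ y)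
        = ((q + 1 : ℕ) : AdjoinRoot h₂) := by
      rw [← map_mul, ← map_mul, hxy, map_natCast, map_natCast]
    calc (AdjoinRoot.root h₂ * AdjoinRoot.of h₂ (AdjoinRoot.root h₁)) ^ (q + 1)
        = (AdjoinRoot.root h₂ * AdjoinRoot.of h₂ (AdjoinRoot.root h₁))
          * (AdjoinRoot.root h₂ ^ q * AdjoinRoot.of h₂ (AdjoinRoot.root h₁) ^ q) := by ring
      _ = (AdjoinRoot.root h₂ * AdjoinRoot.of h₂ (AdjoinRoot.root h₁))
          * (-(AdjoinRoot.of h₂ (AdjoinRoot.of h₁ x)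
              * AdjoinRoot.mk h₂ (thetaPoly q (AdjoinRoot.root h₁)))
            * AdjoinRoot.of h₂ (AdjoinRoot.of h₁ y)) := by rw [hspow, htpow]
      _ = -((AdjoinRoot.of h₂ (AdjoinRoot.of h₁ x) * AdjoinRoot.of h₂ (AdjoinRoot.of h₁ y))
          * (AdjoinRoot.root h₂ * AdjoinRoot.of h₂ (AdjoinRoot.root h₁))
          * AdjoinRoot.mk h₂ (thetaPoly q (AdjoinRoot.root h₁))) := by ring
      _ = _ := by rw [hXY, mk_thetaPoly]
  · exact hsass
  · exact htpow
  · intro b hb
    rw [halg] at hb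
    exact hX₁dvd b (hdvd₂ _ hb)
  · intro b hb
    rw [halg] at hb
    exact hdvd₁ b (htdvd _ hb)

/-- **The regular cover of a thickness-one node** (literal of helper153).  Over a noetherian
local domain `R₀` with `𝔪 = (x, y)`, `x`, `y` non-associated primes and `x y = p`, there is a
finite noetherian local domain `R ⊇ R₀` with `𝔪_R = (s, t)`, `s`, `t` non-associated primes,
`t ^ (p - 1) = y`, `s ^ (p - 1) ∼ x` and `(1 + s t) ^ p = 1`. -/
theorem exists_node_cover (p : ℕ) (hp : p.Prime) (x y : R₀) (hx : Prime x) (hy : Prime y)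
    (hne : ¬ Associated x y) (hm : IsLocalRing.maximalIdeal R₀ = Ideal.span {x, y})
    (hxy : x * y = (p : R₀)) :
    ∃ (R : Type u) (_ : CommRing R) (_ : IsDomain R) (_ : IsLocalRing R) (_ : IsNoetherianRing R)
      (_ : Algebra R₀ R) (s t : R), Function.Injective (algebraMap R₀ R) ∧
      Algebra.IsIntegral R₀ R ∧ Prime s ∧ Prime t ∧ ¬ Associated s t ∧
      IsLocalRing.maximalIdeal R = Ideal.span {s, t} ∧ (1 + s * t) ^ p = 1 ∧
      Associated (s ^ (p - 1)) (algebraMap R₀ R x) ∧ t ^ (p - 1) = algebraMap R₀ R y ∧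
      (∀ b : R₀, s ∣ algebraMap R₀ R b → x ∣ b) ∧ (∀ b : R₀, t ∣ algebraMap R₀ R b → y ∣ b) := by
  obtain ⟨q, rfl⟩ := Nat.exists_eq_add_one_of_ne_zero hp.ne_zero
  simpa only [Nat.add_sub_cancel] using exists_node_cover_aux q hp x y hx hy hne hm hxy

end Cover

end Fermat.Agent.S44.L.NodeCover
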