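import Mathlib
import Fermat.Agent.S36.CycloBase

/-!
# `A ∩ K(ζ) = (A ∩ K)[ζ]` and the map to the node cover (strand L of S44)

`A` is a valuation subring of `ℚ̄` over the prime `q`, `K` a number field fixed by the inertia
group of `A` (so `q` is a uniformiser of `A ∩ K`), `ζ` a primitive `q`-th root of unity,
`λ = ζ - 1`.

* `exists_expansion_OE`: every element of `A ∩ K(ζ)` is `∑_{i < q-1} c_i λ^i` with
  `c_i ∈ A ∩ K`;
* `expansion_eq_zero`: such an expansion is unique;
* `exists_ringHom_of_root`: for a domain `R`, a ring homomorphism `φ₀ : A ∩ K → R` and a `q`-th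
  root of unity `x ≠ 1` of `R`, there is a ring homomorphism `φ : A ∩ K(ζ) → R` extending `φ₀`
  with `φ ζ = x` and `φ λ = x - 1`.
-/

set_option autoImplicit false

open scoped IntermediateField
open Polynomial

noncomputable section

namespace Fermat.Agent.S44.L.CycloHom

local notation "Qb" => AlgebraicClosure ℚ

open Fermat.Agent.S18.K1Defs Fermat.Agent.S36.UnramBase Fermat.Agent.S30
open Fermat.Agent.S36.CycloBase

variable (A : ValuationSubring Qb) {q : ℕ} (hq : q.Prime) (hA : A.LiesOverPrime q)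
  (K : IntermediateField ℚ Qb) [FiniteDimensional ℚ K]
  (hK : A.inertiaSubgroupIn ℚ ≤ K.fixingSubgroup) {ζ : Qb} (hζ : IsPrimitiveRoot ζ q)

include hq hA hK hζ in
/-- If `c (ζ - 1)^i` is integral, `c ∈ K` and `i < q - 1`, then `c` is integral. -/
theorem valuation_coeff_le_one (c : K) (i : ℕ) (hi : i < q - 1)
    (h : A.valuation ((c : Qb) * (ζ - 1) ^ i) ≤ 1) : A.valuation (c : Qb) ≤ 1 := by
  by_cases hc0 : (c : Qb) = 0
  · rw [hc0, map_zero]
    exact zero_le
  have hpos := valuation_lam_pos A hq hζ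
  have hlt := (valuation_lam A hq hA hζ).1
  have h0 : A.valuation ((c : Qb) * (ζ - 1) ^ i) ≠ 0 := by
    rw [Ne, map_eq_zero]
    exact mul_ne_zero hc0 (pow_ne_zero _ (zeta_sub_one_ne_zero hq hζ))
  obtain ⟨n, hn⟩ := exists_valuation_term A hq hA K hK hζ c i h0
  have hn0 : 0 ≤ ((q - 1 : ℕ) : ℤ) * n + (i : ℤ) := by
    by_contra hneg
    rw [not_le] at hneg
    have h1 : A.valuation (ζ - 1) ^ (-1 : ℤ)
        ≤ A.valuation (ζ - 1) ^ (((q - 1 : ℕ) : ℤ) * n + (i : ℤ)) :=
      zpow_le_zpow_right_of_le_one₀ hpos hlt.le (by omega)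
    rw [← hn, zpow_neg_one] at h1
    exact absurd (h1.trans h) (not_le.mpr ((one_lt_inv₀ hpos).mpr hlt))
  have hn' : 0 ≤ n := by
    by_contra hneg
    rw [not_le] at hneg
    have h1 : ((q - 1 : ℕ) : ℤ) * n ≤ ((q - 1 : ℕ) : ℤ) * (-1) :=
      mul_le_mul_of_nonneg_left (by omega) (by positivity)
    have h2 : (i : ℤ) < ((q - 1 : ℕ) : ℤ) := by exact_mod_cast hi
    omega
  have hvc : A.valuation (c : Qb) = A.valuation (ζ - 1) ^ (((q - 1 : ℕ) : ℤ) * n) := by
    rw [map_mul, map_pow, zpow_add₀ hpos.ne', zpow_natCast] at hn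
    exact mul_right_cancel₀ (pow_ne_zero _ hpos.ne') hn
  rw [hvc]
  have h3 := zpow_le_zpow_right_of_le_one₀ hpos hlt.le
    (show (0 : ℤ) ≤ ((q - 1 : ℕ) : ℤ) * n by positivity)
  rwa [zpow_zero] at h3

/-- The coercion `A ∩ E → ℚ̄` as a ring homomorphism. -/
def toQb (E : IntermediateField ℚ Qb) : OE A E →+* Qb :=
  (algebraMap E Qb).comp (OE A E).subtype

theorem toQb_apply (E : IntermediateField ℚ Qb) (z : OE A E) :
    toQb A E z = (((z : E)) : Qb) := rfl

theorem toQb_injective (E : IntermediateField ℚ Qb) : Function.Injective (toQb A E) := by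
  intro x y hxy
  exact Subtype.ext (Subtype.ext hxy)

omit [FiniteDimensional ℚ K] in
theorem toQb_expansion (c : ℕ → OE A K) :
    toQb A (cyclo K ζ) (∑ i ∈ Finset.range (q - 1),
      inclOE A (le_cyclo K ζ) (c i) * lam A hq K hζ ^ i)
    = ∑ i ∈ Finset.range (q - 1), (((c i : K)) : Qb) * (ζ - 1) ^ i := by
  rw [map_sum]
  refine Finset.sum_congr rfl fun i _ => ?_
  rw [map_mul, map_pow]
  rfl

include hA hK in
/-- **`A ∩ K(ζ) = ⊕_{i < q-1} (A ∩ K) λ^i`, existence.** -/
theorem exists_expansion_OE (y : OE A (cyclo K ζ)) :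
    ∃ c : ℕ → OE A K, y = ∑ i ∈ Finset.range (q - 1),
      inclOE A (le_cyclo K ζ) (c i) * lam A hq K hζ ^ i := by
  obtain ⟨c, hc⟩ := exists_expansion K hq hζ (((y : cyclo K ζ)) : Qb) (y : cyclo K ζ).2
  have hdist := val_sum_of_distinct A.valuation (Finset.range (q - 1))
    (fun i => ((c i : K) : Qb) * (ζ - 1) ^ i) (fun i hi j hj h0 h =>
      term_index_eq A hq hA K hK hζ (c i) (c j) i j (Finset.mem_range.mp hi)
        (Finset.mem_range.mp hj) h0 h)
  rw [← hc] at hdist
  have hterm : ∀ j, j < q - 1 → A.valuation (((c j : K) : Qb) * (ζ - 1) ^ j) ≤ 1 :=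
    fun j hj => (hdist.1 j (Finset.mem_range.mpr hj)).trans (valuation_coe_le_one_OE A _ y)
  have hcA : ∀ j, j < q - 1 → ((c j : K) : Qb) ∈ A := fun j hj =>
    (A.valuation_le_one_iff _).mp
      (valuation_coeff_le_one A hq hA K hK hζ (c j) j hj (hterm j hj))
  classical
  refine ⟨fun j => if hj : j < q - 1 then ⟨c j, hcA j hj⟩ else 0, ?_⟩
  apply toQb_injective A (cyclo K ζ)
  rw [toQb_expansion, toQb_apply, hc]
  refine Finset.sum_congr rfl fun i hi => ?_
  rw [dif_pos (Finset.mem_range.mp hi)]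

include hA hK in
/-- **`A ∩ K(ζ) = ⊕_{i < q-1} (A ∩ K) λ^i`, uniqueness.** -/
theorem expansion_eq_zero (c : ℕ → OE A K)
    (h : ∑ i ∈ Finset.range (q - 1), inclOE A (le_cyclo K ζ) (c i) * lam A hq K hζ ^ i = 0) :
    ∀ i, i < q - 1 → c i = 0 := by
  intro i hi
  have h' := congrArg (toQb A (cyclo K ζ)) h
  rw [toQb_expansion, map_zero] at h'
  have hdist := val_sum_of_distinct A.valuation (Finset.range (q - 1))
    (fun i => (((c i : OE A K) : K) : Qb) * (ζ - 1) ^ i) (fun i hi j hj h0 h =>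
      term_index_eq A hq hA K hK hζ (c i) (c j) i j (Finset.mem_range.mp hi)
        (Finset.mem_range.mp hj) h0 h)
  rw [h', map_zero] at hdist
  have h1 := hdist.1 i (Finset.mem_range.mpr hi)
  rw [le_zero_iff, map_eq_zero] at h1
  rcases mul_eq_zero.mp h1 with h2 | h2
  · exact Subtype.ext (Subtype.ext h2)
  · exact absurd h2 (pow_ne_zero _ (zeta_sub_one_ne_zero hq hζ))

/-- The minimal polynomial of `λ = ζ - 1` over `A ∩ K`: `Φ_q (X + 1)`. -/
def minLam : (OE A K)[X] := (cyclotomic q (OE A K)).comp (X + C 1)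

omit [FiniteDimensional ℚ K] in
theorem minLam_monic : (minLam A (q := q) K).Monic :=
  (cyclotomic.monic q (OE A K)).comp (monic_X_add_C 1) (by
    rw [natDegree_X_add_C]; exact one_ne_zero)

omit [FiniteDimensional ℚ K] in
include hq in
theorem natDegree_minLam : (minLam A (q := q) K).natDegree = q - 1 := by
  rw [minLam, natDegree_comp, natDegree_cyclotomic, Nat.totient_prime hq, natDegree_X_add_C,
    mul_one]

omit [FiniteDimensional ℚ K] in
include hq in
theorem minLam_ne_one : minLam A (q := q) K ≠ 1 := by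
  intro h1
  have h2 := natDegree_minLam A hq K
  rw [h1, natDegree_one] at h2
  have := hq.two_le
  omega

omit [FiniteDimensional ℚ K] in
/-- Evaluation of `Φ_q (X + 1)` at `x - 1`, for a `q`-th root of unity `x ≠ 1` of a domain. -/
theorem eval₂_minLam {R : Type*} [CommRing R] [IsDomain R] (φ₀ : OE A K →+* R) (x : R)
    (hx : x ^ q = 1) (hx1 : x ≠ 1) (hq : q.Prime) :
    (minLam A (q := q) K).eval₂ φ₀ (x - 1) = 0 := by
  have : Fact q.Prime := ⟨hq⟩
  rw [minLam, eval₂_comp]
  have e : eval₂ φ₀ (x - 1) (X + C 1 : (OE A K)[X]) = x := by simp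
  rw [e, eval₂_eq_eval_map, map_cyclotomic]
  have h := congrArg (eval x) (cyclotomic_prime_mul_X_sub_one R q)
  rw [eval_mul, eval_sub, eval_sub, eval_pow, eval_X, eval_one, hx, sub_self] at h
  rcases mul_eq_zero.mp h with h1 | h1
  · exact h1
  · exact absurd (sub_eq_zero.mp h1) hx1

omit [FiniteDimensional ℚ K] in
theorem eval₂_minLam_lam :
    (minLam A (q := q) K).eval₂ (inclOE A (le_cyclo K ζ)) (lam A hq K hζ) = 0 := by
  have h := eval₂_minLam A K (inclOE A (le_cyclo K ζ)) (zetaO A hq K hζ)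
    ((isPrimitiveRoot_zetaO A hq K hζ).pow_eq_one)
    ((isPrimitiveRoot_zetaO A hq K hζ).ne_one hq.one_lt) hq
  rwa [← lam_eq] at h

/-- The comparison map `(A ∩ K)[X] / Φ_q (X + 1) → A ∩ K(ζ)`, `X ↦ λ`. -/
def adjoinToOE : AdjoinRoot (minLam A (q := q) K) →+* OE A (cyclo K ζ) :=
  AdjoinRoot.lift (inclOE A (le_cyclo K ζ)) (lam A hq K hζ) (eval₂_minLam_lam A hq K hζ)

include hA hK in
theorem adjoinToOE_bijective : Function.Bijective (adjoinToOE A hq K hζ) := by
  constructor
  · rw [injective_iff_map_eq_zero]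
    intro z hz
    obtain ⟨g, rfl⟩ := AdjoinRoot.mk_surjective z
    have hmon := minLam_monic A (q := q) K
    set r := g %ₘ minLam A (q := q) K with hr
    have hmk : AdjoinRoot.mk (minLam A (q := q) K) g = AdjoinRoot.mk (minLam A (q := q) K) r := by
      rw [AdjoinRoot.mk_eq_mk]
      have hdiv := modByMonic_add_div g (minLam A (q := q) K)
      exact ⟨g /ₘ minLam A (q := q) K, by linear_combination (-1 : (OE A K)[X]) * hdiv⟩
    have hdeg : r.natDegree < q - 1 := by
      rw [← natDegree_minLam A hq K]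
      exact natDegree_modByMonic_lt _ hmon (minLam_ne_one A hq K)
    rw [hmk] at hz ⊢
    rw [adjoinToOE, AdjoinRoot.lift_mk, eval₂_eq_sum_range' _ hdeg] at hz
    have hcoeff := expansion_eq_zero A hq hA K hK hζ (fun i => r.coeff i) hz
    have hr0 : r = 0 := by
      refine Polynomial.ext fun i => ?_
      rw [coeff_zero]
      by_cases hi : i < q - 1
      · exact hcoeff i hi
      · exact coeff_eq_zero_of_natDegree_lt (lt_of_lt_of_le hdeg (not_lt.mp hi))
    rw [hr0, map_zero]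
  · intro y
    obtain ⟨c, hc⟩ := exists_expansion_OE A hq hA K hK hζ y
    refine ⟨∑ i ∈ Finset.range (q - 1),
      AdjoinRoot.of (minLam A (q := q) K) (c i) * AdjoinRoot.root (minLam A (q := q) K) ^ i, ?_⟩
    rw [hc, map_sum]
    refine Finset.sum_congr rfl fun i _ => ?_
    rw [map_mul, map_pow, adjoinToOE, AdjoinRoot.lift_root, AdjoinRoot.lift_of]

include hA hK in
/-- **The map to the node cover.**  For a domain `R`, a ring homomorphism `φ₀ : A ∩ K → R` and
a `q`-th root of unity `x ≠ 1` of `R`, there is a ring homomorphism `φ : A ∩ K(ζ) → R`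
extending `φ₀` with `φ ζ = x` and `φ (ζ - 1) = x - 1`. -/
theorem exists_ringHom_of_root {R : Type*} [CommRing R] [IsDomain R] (φ₀ : OE A K →+* R)
    (x : R) (hx : x ^ q = 1) (hx1 : x ≠ 1) :
    ∃ φ : OE A (cyclo K ζ) →+* R,
      (∀ c : OE A K, φ (inclOE A (le_cyclo K ζ) c) = φ₀ c) ∧
      φ (zetaO A hq K hζ) = x ∧ φ (lam A hq K hζ) = x - 1 := by
  let e : AdjoinRoot (minLam A (q := q) K) ≃+* OE A (cyclo K ζ) :=
    RingEquiv.ofBijective (adjoinToOE A hq K hζ) (adjoinToOE_bijective A hq hA K hK hζ)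
  let ψ : AdjoinRoot (minLam A (q := q) K) →+* R :=
    AdjoinRoot.lift φ₀ (x - 1) (eval₂_minLam A K φ₀ x hx hx1 hq)
  have he_of : ∀ c : OE A K, e (AdjoinRoot.of (minLam A (q := q) K) c)
      = inclOE A (le_cyclo K ζ) c := by
    intro c
    show adjoinToOE A hq K hζ (AdjoinRoot.of (minLam A (q := q) K) c) = _
    rw [adjoinToOE, AdjoinRoot.lift_of]
  have he_root : e (AdjoinRoot.root (minLam A (q := q) K)) = lam A hq K hζ := by
    show adjoinToOE A hq K hζ (AdjoinRoot.root (minLam A (q := q) K)) = _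
    rw [adjoinToOE, AdjoinRoot.lift_root]
  have hlam : (ψ.comp e.symm.toRingHom) (lam A hq K hζ) = x - 1 := by
    rw [← he_root]
    show ψ (e.symm (e _)) = _
    rw [RingEquiv.symm_apply_apply]
    exact AdjoinRoot.lift_root _
  refine ⟨ψ.comp e.symm.toRingHom, fun c => ?_, ?_, hlam⟩
  · rw [← he_of]
    show ψ (e.symm (e _)) = _
    rw [RingEquiv.symm_apply_apply]
    exact AdjoinRoot.lift_of _
  · rw [zetaO_eq, map_add, map_one, hlam]
    ring

end Fermat.Agent.S44.L.CycloHom
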