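import Mathlib
import Fermat.Agent.S34.TwoPrimesGauss

/-!
# MR.L: base change of Gauss reductions along a ramified extension `O₀ → O₁` of the base DVR

Level-free.  `O₀ → O₁` is a local homomorphism of discrete valuation rings inside a field
extension `f : E₀ → E₁`, `ϖ` and `π` are uniformisers of `O₀`, `O₁` with `π ^ e ∣ ϖ`
(in the application `O₁ = O₀[π]`, `π` a root of an Eisenstein polynomial of degree `e`, and
`E₁ = ⊕_{i<e} E₀ π^i`).

* `(G1)` `coeffMap_mem_V`, `red_coeffMap` : coefficientwise base change maps the Gauss ring of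
  `O₀` to that of `O₁` and commutes with the two reductions (`resMap`).
* `(G2)` `mem_V_of_sum_mem_V` : if `∑_{i<e} π^i c_i` is Gauss-integral over `O₁`, with the `c_i`
  in the fraction field of `O₀((q))`, then every `c_i` is Gauss-integral over `O₀`.
* `(G3)` `red_sum` : the reduction of `∑_{i<e} π^i c_i` is the reduction of `c_0`.
* chart level (`redHom` vocabulary of `S34/TwoPrimesGauss`): `inclBC`, `redHom_inclBC`,
  `redHom_eq_of_coords`, `redHom_eq_of_chart_coords`, and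
  `(T)` `exists_red_eq` : every reduction of the chart ring over `O₁` is, after multiplication by
  a nonzero reduction coming from the chart ring over `O₀`, a reduction coming from `O₀`;
  `hfr_transfer` transfers the residue-form Frobenius statement from `O₀` to `O₁`.
* `hloc_of_gen`, `hgen_of_centre`, `hgen_of_sat`, `hfrac_of_isFractionRing` : suppliers of the
  hypothesis `hloc` of `(T)` on the `O₀`-chart alone.
-/

set_option autoImplicit false
set_option linter.unusedSectionVars false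
set_option linter.style.haveILetI false

noncomputable section

namespace Fermat.Agent.S44.L.GaussBC

open ModularCurve Polynomial
open Fermat.Agent.S30
open Fermat.Agent.S34.TwoPrimesGauss

/-! ### Generalities -/

section Gen

theorem coeffMap_injective' {R S : Type*} [CommRing R] [CommRing S] (g : R →+* S)
    (hg : Function.Injective g) : Function.Injective (coeffMap g) := by
  intro a b h
  ext k
  have h1 := congrArg (fun x => x.coeff k) h
  simp only [coeffMap_coeff] at h1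
  exact hg h1

theorem coeffMap_C {R S : Type*} [CommRing R] [CommRing S] (g : R →+* S) (r : R) :
    coeffMap g (HahnSeries.C r) = HahnSeries.C (g r) := by
  rw [HahnSeries.C_apply, HahnSeries.C_apply, coeffMap_single]

variable {O E : Type*} [CommRing O] [IsDomain O] [IsDiscreteValuationRing O] [Field E]
  [Algebra O E] [FaithfulSMul O E]

theorem C_mem_V (r : O) : HahnSeries.C (algebraMap O E r) ∈ GaussDVR.V O E := by
  rw [← GaussDVR.iota_C]
  exact GaussDVR.mem_of_int O E _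

theorem isUnit_of_red_ne_zero (x : GaussDVR.V O E) (hx : GaussDVR.red O E x ≠ 0) : IsUnit x := by
  have hx0 : (x : LaurentSeries E) ≠ 0 := by
    intro h0
    apply hx
    have hx' : x = 0 := Subtype.ext h0
    rw [hx', map_zero]
  exact ⟨⟨x, ⟨_, GaussDVR.inv_mem O E x hx⟩, Subtype.ext (mul_inv_cancel₀ hx0),
    Subtype.ext (inv_mul_cancel₀ hx0)⟩, rfl⟩

theorem C_unif_ne_zero (ϖ : O) (hϖ : Irreducible ϖ) :
    (HahnSeries.C (algebraMap O E ϖ) : LaurentSeries E) ≠ 0 := by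
  rw [← GaussDVR.coe_unif E ϖ]
  exact GaussDVR.coe_unif_ne_zero E ϖ hϖ

theorem exists_pow_mul_mem_V (ϖ : O) (hϖ : Irreducible ϖ) (x : LaurentSeries E)
    (hx : x ∈ GaussDVR.fracField O E) :
    ∃ n : ℕ, HahnSeries.C (algebraMap O E ϖ) ^ n * x ∈ GaussDVR.V O E := by
  obtain ⟨a, b, hb, h⟩ := hx
  obtain ⟨k, b', rfl, hb'⟩ := GaussDVR.exists_pow_mul ϖ hϖ b hb
  refine ⟨k, a, b', hb', ?_⟩
  rw [← h, map_mul, map_pow, GaussDVR.iota_C]
  ring

end Gen

/-! ### The two Gauss rings -/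

section Gauss

variable {O₀ O₁ E₀ E₁ : Type*}
  [CommRing O₀] [IsDomain O₀] [IsDiscreteValuationRing O₀]
  [CommRing O₁] [IsDomain O₁] [IsDiscreteValuationRing O₁]
  [Field E₀] [Field E₁] [Algebra O₀ E₀] [FaithfulSMul O₀ E₀] [Algebra O₁ E₁] [FaithfulSMul O₁ E₁]
  (j : O₀ →+* O₁) [IsLocalHom j] (f : E₀ →+* E₁)
  (hjf : ∀ r : O₀, f (algebraMap O₀ E₀ r) = algebraMap O₁ E₁ (j r))
  (ϖ : O₀) (hϖ : Irreducible ϖ) (π : O₁) (hπ : Irreducible π) (e : ℕ) (hdvd : π ^ e ∣ j ϖ)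

/-- The map `κ₀((q)) → κ₁((q))` induced by a local homomorphism `O₀ → O₁`. -/
abbrev resMap : LaurentSeries (IsLocalRing.ResidueField O₀) →+*
    LaurentSeries (IsLocalRing.ResidueField O₁) :=
  coeffMap (IsLocalRing.ResidueField.map j)

theorem resMap_injective : Function.Injective (resMap j) :=
  coeffMap_injective' _ (IsLocalRing.ResidueField.map j).injective

include hjf in
theorem j_injective : Function.Injective j := by
  intro a b h
  apply FaithfulSMul.algebraMap_injective O₀ E₀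
  apply f.injective
  rw [hjf, hjf, h]

include hjf in
theorem coeffMap_iota (a : LaurentSeries O₀) :
    coeffMap f (GaussDVR.iota O₀ E₀ a) = GaussDVR.iota O₁ E₁ (coeffMap j a) := by
  show coeffMap f (coeffMap (algebraMap O₀ E₀) a) = coeffMap (algebraMap O₁ E₁) (coeffMap j a)
  rw [coeffMap_coeffMap, coeffMap_coeffMap]
  exact coeffMap_congr (RingHom.ext hjf) a

theorem rho_coeffMap (a : LaurentSeries O₀) :
    GaussDVR.rho O₁ (coeffMap j a) = resMap j (GaussDVR.rho O₀ a) := by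
  show coeffMap (IsLocalRing.residue O₁) (coeffMap j a) =
    coeffMap (IsLocalRing.ResidueField.map j) (coeffMap (IsLocalRing.residue O₀) a)
  rw [coeffMap_coeffMap, coeffMap_coeffMap]
  exact coeffMap_congr (RingHom.ext fun r => rfl) a

include hjf in
/-- `(G1)` Coefficientwise base change maps the Gauss ring into the Gauss ring. -/
theorem coeffMap_mem_V {x : LaurentSeries E₀} (hx : x ∈ GaussDVR.V O₀ E₀) :
    coeffMap f x ∈ GaussDVR.V O₁ E₁ := by
  obtain ⟨a, b, hb, h⟩ := hx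
  refine ⟨coeffMap j a, coeffMap j b, ?_, ?_⟩
  · rw [rho_coeffMap]
    exact fun h0 => hb (resMap_injective j (by rw [h0, map_zero]))
  · rw [← coeffMap_iota j f hjf, ← coeffMap_iota j f hjf, ← map_mul, h]

include hjf in
theorem coeffMap_mem_fracField {x : LaurentSeries E₀} (hx : x ∈ GaussDVR.fracField O₀ E₀) :
    coeffMap f x ∈ GaussDVR.fracField O₁ E₁ := by
  obtain ⟨a, b, hb, h⟩ := hx
  refine ⟨coeffMap j a, coeffMap j b, ?_, ?_⟩
  · exact fun h0 => hb (coeffMap_injective' j (j_injective j f hjf) (by rw [h0, map_zero]))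
  · rw [← coeffMap_iota j f hjf, ← coeffMap_iota j f hjf, ← map_mul, h]

/-- The induced map of Gauss rings `V₀ → V₁`. -/
def mapV : GaussDVR.V O₀ E₀ →+* GaussDVR.V O₁ E₁ :=
  ((coeffMap f).comp (GaussDVR.V O₀ E₀).subtype).codRestrict (GaussDVR.V O₁ E₁)
    (fun x => coeffMap_mem_V j f hjf x.2)

theorem coe_mapV (x : GaussDVR.V O₀ E₀) :
    ((mapV j f hjf x : GaussDVR.V O₁ E₁) : LaurentSeries E₁) =
      coeffMap f (x : LaurentSeries E₀) := rfl

/-- `(G1)` Base change commutes with the reductions. -/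
theorem red_mapV (x : GaussDVR.V O₀ E₀) :
    GaussDVR.red O₁ E₁ (mapV j f hjf x) = resMap j (GaussDVR.red O₀ E₀ x) := by
  obtain ⟨a, b, hb, h⟩ := (GaussDVR.mem_V O₀ E₀).mp x.2
  have hb' : GaussDVR.rho O₁ (coeffMap j b) ≠ 0 := by
    rw [rho_coeffMap]
    exact fun h0 => hb (resMap_injective j (by rw [h0, map_zero]))
  rw [GaussDVR.red_eq O₁ E₁ _ (coeffMap j a) (coeffMap j b) hb'
      (by rw [coe_mapV, ← coeffMap_iota j f hjf, ← coeffMap_iota j f hjf, ← map_mul, h]),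
    GaussDVR.red_eq O₀ E₀ x a b hb h, rho_coeffMap, rho_coeffMap, map_div₀]

/-- `(G1)` in membership form. -/
theorem red_coeffMap (x : LaurentSeries E₀) (hx : x ∈ GaussDVR.V O₀ E₀) :
    GaussDVR.red O₁ E₁ ⟨coeffMap f x, coeffMap_mem_V j f hjf hx⟩ =
      resMap j (GaussDVR.red O₀ E₀ ⟨x, hx⟩) :=
  red_mapV j f hjf ⟨x, hx⟩

include hdvd in
theorem unif_pow_dvd_mapV_unif :
    GaussDVR.unif E₁ π ^ e ∣ mapV j f hjf (GaussDVR.unif E₀ ϖ) := by
  obtain ⟨υ, hυ⟩ := hdvd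
  refine ⟨GaussDVR.ofInt O₁ E₁ (HahnSeries.C υ), Subtype.ext ?_⟩
  rw [coe_mapV, GaussDVR.coe_unif, coeffMap_C, hjf, hυ, Subring.coe_mul, Subring.coe_pow,
    GaussDVR.coe_unif, GaussDVR.coe_ofInt, GaussDVR.iota_C]
  simp only [map_mul, map_pow]

include hϖ hπ hdvd in
/-- If `π^e` divides `∑_{i<e} π^i c_i` in `V₁` with all `c_i ∈ V₀`, then every `c_i` reduces
to zero. -/
theorem red_eq_zero_of_dvd_sum (c : Fin e → GaussDVR.V O₀ E₀)
    (h : GaussDVR.unif E₁ π ^ e ∣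
      ∑ i : Fin e, GaussDVR.unif E₁ π ^ (i : ℕ) * mapV j f hjf (c i)) :
    ∀ i, GaussDVR.red O₀ E₀ (c i) = 0 := by
  have key : ∀ n : ℕ, ∀ i : Fin e, (i : ℕ) = n → GaussDVR.red O₀ E₀ (c i) = 0 := by
    intro n
    induction n using Nat.strong_induction_on with
    | _ n ih =>
      intro i hi
      have hothers : ∀ k ∈ (Finset.univ : Finset (Fin e)).erase i,
          GaussDVR.unif E₁ π ^ ((i : ℕ) + 1) ∣
            GaussDVR.unif E₁ π ^ (k : ℕ) * mapV j f hjf (c k) := by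
        intro k hk
        have hki : (k : ℕ) ≠ (i : ℕ) := fun h => (Finset.mem_erase.mp hk).1 (Fin.ext h)
        rcases lt_or_gt_of_ne hki with hlt | hgt
        · have h0 := ih (k : ℕ) (by omega) k rfl
          obtain ⟨y, hy⟩ := GaussDVR.ker E₀ ϖ hϖ (c k) h0
          rw [hy, map_mul]
          refine Dvd.dvd.mul_left (Dvd.dvd.mul_right ?_ _) _
          exact (pow_dvd_pow _ (by have := i.2; omega)).trans
            (unif_pow_dvd_mapV_unif j f hjf ϖ π e hdvd)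
        · exact Dvd.dvd.mul_right (pow_dvd_pow _ (by omega)) _
      have hsum : GaussDVR.unif E₁ π ^ ((i : ℕ) + 1) ∣
          ∑ i : Fin e, GaussDVR.unif E₁ π ^ (i : ℕ) * mapV j f hjf (c i) :=
        (pow_dvd_pow _ (by have := i.2; omega)).trans h
      rw [← Finset.add_sum_erase Finset.univ _ (Finset.mem_univ i)] at hsum
      have hi' := (dvd_add_left (Finset.dvd_sum hothers)).mp hsum
      rw [pow_succ, mul_dvd_mul_iff_left (pow_ne_zero _ (GaussDVR.unif_ne_zero E₁ π hπ))] at hi'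
      obtain ⟨z, hz⟩ := hi'
      have hred : resMap j (GaussDVR.red O₀ E₀ (c i)) = 0 := by
        rw [← red_mapV j f hjf, hz, map_mul, GaussDVR.red_unif E₁ π hπ, zero_mul]
      exact resMap_injective j (by rw [hred, map_zero])
  exact fun i => key i i rfl

include hjf hϖ hπ hdvd in
/-- `(G2)` **Coordinatewise integrality.**  If `∑_{i<e} π^i c_i` lies in the Gauss ring of `O₁`
and the `c_i` lie in the fraction field of `O₀((q))`, every `c_i` lies in the Gauss ring of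
`O₀`. -/
theorem mem_V_of_sum_mem_V (c : Fin e → LaurentSeries E₀)
    (hc : ∀ i, c i ∈ GaussDVR.fracField O₀ E₀)
    (h : ∑ i : Fin e, HahnSeries.C (algebraMap O₁ E₁ π) ^ (i : ℕ) * coeffMap f (c i) ∈
      GaussDVR.V O₁ E₁) :
    ∀ i, c i ∈ GaussDVR.V O₀ E₀ := by
  have hC0 : (HahnSeries.C (algebraMap O₀ E₀ ϖ) : LaurentSeries E₀) ≠ 0 :=
    C_unif_ne_zero ϖ hϖ
  have key : ∀ n : ℕ, ∀ c : Fin e → LaurentSeries E₀,
      (∀ i, HahnSeries.C (algebraMap O₀ E₀ ϖ) ^ n * c i ∈ GaussDVR.V O₀ E₀) →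
      (∑ i : Fin e, HahnSeries.C (algebraMap O₁ E₁ π) ^ (i : ℕ) * coeffMap f (c i) ∈
        GaussDVR.V O₁ E₁) →
      ∀ i, c i ∈ GaussDVR.V O₀ E₀ := by
    intro n
    induction n with
    | zero =>
      intro c hc _ i
      simpa using hc i
    | succ n ih =>
      intro c hc hsum
      refine ih c ?_ hsum
      obtain ⟨υ, hυ⟩ := hdvd
      have hd : ∀ i : Fin e, ∃ d : GaussDVR.V O₀ E₀,
          (d : LaurentSeries E₀) = HahnSeries.C (algebraMap O₀ E₀ ϖ) ^ (n + 1) * c i :=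
        fun i => ⟨⟨_, hc i⟩, rfl⟩
      choose d hd using hd
      have hterm : ∀ i : Fin e,
          ((GaussDVR.unif E₁ π ^ (i : ℕ) * mapV j f hjf (d i) : GaussDVR.V O₁ E₁) :
            LaurentSeries E₁) =
          (HahnSeries.C (algebraMap O₁ E₁ υ) ^ (n + 1) *
            HahnSeries.C (algebraMap O₁ E₁ π) ^ (e * (n + 1))) *
            (HahnSeries.C (algebraMap O₁ E₁ π) ^ (i : ℕ) * coeffMap f (c i)) := by
        intro i
        rw [Subring.coe_mul, Subring.coe_pow, GaussDVR.coe_unif, coe_mapV, hd i, map_mul,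
          map_pow, coeffMap_C, hjf, hυ]
        simp only [map_mul, map_pow]
        ring
      have hdvd' : GaussDVR.unif E₁ π ^ e ∣
          ∑ i : Fin e, GaussDVR.unif E₁ π ^ (i : ℕ) * mapV j f hjf (d i) := by
        refine ⟨GaussDVR.ofInt O₁ E₁ (HahnSeries.C υ) ^ (n + 1) * GaussDVR.unif E₁ π ^ (e * n) *
          ⟨_, hsum⟩, Subtype.ext ?_⟩
        have hL : ((∑ i : Fin e, GaussDVR.unif E₁ π ^ (i : ℕ) * mapV j f hjf (d i) :
              GaussDVR.V O₁ E₁) : LaurentSeries E₁) =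
            ∑ i : Fin e, ((GaussDVR.unif E₁ π ^ (i : ℕ) * mapV j f hjf (d i) :
              GaussDVR.V O₁ E₁) : LaurentSeries E₁) :=
          map_sum (GaussDVR.V O₁ E₁).subtype
            (fun i : Fin e => GaussDVR.unif E₁ π ^ (i : ℕ) * mapV j f hjf (d i)) Finset.univ
        rw [hL, Finset.sum_congr rfl (fun i _ => hterm i), ← Finset.mul_sum]
        simp only [Subring.coe_mul, Subring.coe_pow, GaussDVR.coe_unif, GaussDVR.coe_ofInt,
          GaussDVR.iota_C]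
        ring
      have hred := red_eq_zero_of_dvd_sum j f hjf ϖ hϖ π hπ e ⟨υ, hυ⟩ d hdvd'
      intro i
      obtain ⟨y, hy⟩ := GaussDVR.ker' E₀ ϖ hϖ _ (hred i)
      have hyi : HahnSeries.C (algebraMap O₀ E₀ ϖ) ^ n * c i = (y : LaurentSeries E₀) := by
        apply mul_left_cancel₀ hC0
        rw [← hy, hd i]
        ring
      rw [hyi]
      exact y.2
  choose k hk using fun i => exists_pow_mul_mem_V ϖ hϖ (c i) (hc i)
  refine key (∑ i, k i) c (fun i => ?_) h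
  have hle : k i ≤ ∑ i, k i :=
    Finset.single_le_sum (fun _ _ => Nat.zero_le _) (Finset.mem_univ i)
  obtain ⟨d, hd⟩ := Nat.exists_eq_add_of_le hle
  rw [hd, pow_add, mul_right_comm]
  exact mul_mem (hk i) (pow_mem (C_mem_V ϖ) d)

include hjf hπ in
/-- `(G3)` **The reduction of `∑_{i<e} π^i c_i` is the reduction of `c_0`.** -/
theorem red_sum (c : Fin e → LaurentSeries E₀) (hc : ∀ i, c i ∈ GaussDVR.V O₀ E₀)
    (i₀ : Fin e) (hi₀ : (i₀ : ℕ) = 0)
    (h : ∑ i : Fin e, HahnSeries.C (algebraMap O₁ E₁ π) ^ (i : ℕ) * coeffMap f (c i) ∈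
      GaussDVR.V O₁ E₁) :
    GaussDVR.red O₁ E₁ ⟨_, h⟩ = resMap j (GaussDVR.red O₀ E₀ ⟨c i₀, hc i₀⟩) := by
  have hx : (⟨_, h⟩ : GaussDVR.V O₁ E₁) =
      ∑ i : Fin e, GaussDVR.unif E₁ π ^ (i : ℕ) * mapV j f hjf ⟨c i, hc i⟩ := by
    apply Subtype.ext
    have hL : ((∑ i : Fin e, GaussDVR.unif E₁ π ^ (i : ℕ) * mapV j f hjf ⟨c i, hc i⟩ :
          GaussDVR.V O₁ E₁) : LaurentSeries E₁) =
        ∑ i : Fin e, ((GaussDVR.unif E₁ π ^ (i : ℕ) * mapV j f hjf ⟨c i, hc i⟩ :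
          GaussDVR.V O₁ E₁) : LaurentSeries E₁) :=
      map_sum (GaussDVR.V O₁ E₁).subtype
        (fun i : Fin e => GaussDVR.unif E₁ π ^ (i : ℕ) * mapV j f hjf ⟨c i, hc i⟩) Finset.univ
    show ∑ i : Fin e, HahnSeries.C (algebraMap O₁ E₁ π) ^ (i : ℕ) * coeffMap f (c i) = _
    rw [hL]
    refine Finset.sum_congr rfl fun i _ => ?_
    rw [Subring.coe_mul, Subring.coe_pow, GaussDVR.coe_unif, coe_mapV]
  rw [hx, map_sum, Finset.sum_eq_single i₀]
  · rw [map_mul, map_pow, hi₀, pow_zero, one_mul, red_mapV]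
  · intro k _ hk
    have hk0 : (k : ℕ) ≠ 0 := fun h0 => hk (Fin.ext (by rw [h0, hi₀]))
    rw [map_mul, map_pow, GaussDVR.red_unif E₁ π hπ, zero_pow hk0, zero_mul]
  · intro h0
    exact absurd (Finset.mem_univ _) h0

end Gauss

/-! ### One chart: suppliers of `hloc` -/

section Loc

variable {O E : Type*} [CommRing O] [IsDomain O] [IsDiscreteValuationRing O] [Field E]
  [Algebra O E] [FaithfulSMul O E] {L : Type*} [Field L] [Algebra O L]
  (σ : L →+* LaurentSeries E)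
  (hσO : ∀ r : O, σ (algebraMap O L r) = HahnSeries.C (algebraMap O E r))
  (ϖ : O) (hϖ : Irreducible ϖ) (hσfrac : ∀ x : L, σ x ∈ GaussDVR.fracField O E)
  (u : L) (U : LaurentSeries O) (hσu : σ u = GaussDVR.iota O E U)

local notation "rC" => redHom σ hσO ϖ hϖ hσfrac u U hσu

local notation "tC" => toV σ hσO ϖ hϖ hσfrac u U hσu

theorem toV_piC : tC (piC u ϖ) = GaussDVR.unif E ϖ := by
  apply Subtype.ext
  rw [coe_toV, coe_piC, hσO, GaussDVR.coe_unif]

theorem toV_eq_zero (x : Chart O u) (hx : tC x = 0) : x = 0 := by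
  have h1 : σ (x : L) = 0 := congrArg (fun v : GaussDVR.V O E => (v : LaurentSeries E)) hx
  have h2 : (x : L) = 0 := σ.injective (by rw [h1, map_zero])
  exact Subtype.ext h2

include hσO hϖ in
theorem algebraMap_unif_ne_zero : algebraMap O L ϖ ≠ 0 := by
  intro h0
  have h1 := hσO ϖ
  rw [h0, map_zero] at h1
  exact C_unif_ne_zero ϖ hϖ h1.symm

/-- **Supplier of `hloc`.**  If `L` is the fraction field of the chart ring and every element
of the centre `ker rC` becomes divisible by `ϖ` after multiplication by an element outside the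
centre, then every element of `L` with Gauss-integral expansion is a fraction of chart
elements with denominator outside the centre. -/
theorem hloc_of_gen
    (hfrac : ∀ c : L, ∃ a s : Chart O u, s ≠ 0 ∧ c * (s : L) = (a : L))
    (hgen : ∀ s : Chart O u, rC s = 0 →
      ∃ m s' : Chart O u, rC m ≠ 0 ∧ s * m = piC u ϖ * s')
    (c : L) (hc : σ c ∈ GaussDVR.V O E) :
    ∃ t a0 : Chart O u, rC t ≠ 0 ∧ c * (t : L) = (a0 : L) := by
  have hpiL : algebraMap O L ϖ ≠ 0 := algebraMap_unif_ne_zero σ hσO ϖ hϖ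
  have key : ∀ n : ℕ, ∀ a s : Chart O u, s ≠ 0 → c * (s : L) = (a : L) →
      ¬ GaussDVR.unif E ϖ ^ n ∣ tC s →
      ∃ t a0 : Chart O u, rC t ≠ 0 ∧ c * (t : L) = (a0 : L) := by
    intro n
    induction n with
    | zero =>
      intro a s _ _ hnd
      exact absurd (by rw [pow_zero]; exact one_dvd _) hnd
    | succ n ih =>
      intro a s hs0 hcs hnd
      by_cases hrs : rC s = 0
      · obtain ⟨m, s', hm, hsm⟩ := hgen s hrs
        have hra : rC a = 0 := by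
          have h1 : tC a = ⟨σ c, hc⟩ * tC s := Subtype.ext (by
            show σ (a : L) = σ c * σ (s : L)
            rw [← hcs, map_mul])
          show GaussDVR.red O E (tC a) = 0
          rw [h1, map_mul]
          have h2 : GaussDVR.red O E (tC s) = 0 := hrs
          rw [h2, mul_zero]
        obtain ⟨m', a', hm', ham⟩ := hgen a hra
        have hm0 : m ≠ 0 := fun h0 => hm (by rw [h0, map_zero])
        have hm'0 : m' ≠ 0 := fun h0 => hm' (by rw [h0, map_zero])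
        have hs'0 : s' ≠ 0 := by
          rintro rfl
          rw [mul_zero] at hsm
          exact mul_ne_zero hs0 hm0 hsm
        refine ih (a' * m) (s' * m') (mul_ne_zero hs'0 hm'0) ?_ ?_
        · have e1 : (s : L) * (m : L) = algebraMap O L ϖ * (s' : L) :=
            congrArg (fun z : Chart O u => (z : L)) hsm
          have e2 : (a : L) * (m' : L) = algebraMap O L ϖ * (a' : L) :=
            congrArg (fun z : Chart O u => (z : L)) ham
          show c * ((s' : L) * (m' : L)) = (a' : L) * (m : L)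
          apply mul_left_cancel₀ hpiL
          calc algebraMap O L ϖ * (c * ((s' : L) * (m' : L)))
              = c * (algebraMap O L ϖ * (s' : L)) * (m' : L) := by ring
            _ = c * ((s : L) * (m : L)) * (m' : L) := by rw [e1]
            _ = (c * (s : L)) * (m' : L) * (m : L) := by ring
            _ = (a : L) * (m' : L) * (m : L) := by rw [hcs]
            _ = algebraMap O L ϖ * (a' : L) * (m : L) := by rw [e2]
            _ = algebraMap O L ϖ * ((a' : L) * (m : L)) := by ring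
        · intro hd
          apply hnd
          have hum : IsUnit (tC m) := isUnit_of_red_ne_zero (tC m) hm
          have hum' : IsUnit (tC m') := isUnit_of_red_ne_zero (tC m') hm'
          rw [map_mul, hum'.dvd_mul_right] at hd
          have h2 : GaussDVR.unif E ϖ ^ (n + 1) ∣ tC s * tC m := by
            rw [← map_mul, hsm, map_mul, toV_piC, pow_succ']
            exact mul_dvd_mul_left _ hd
          exact (hum.dvd_mul_right).mp h2
      · exact ⟨s, a, hrs, hcs⟩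
  obtain ⟨a, s, hs0, hcs⟩ := hfrac c
  obtain ⟨n, hn⟩ := GaussDVR.exists_not_pow_dvd E ϖ hϖ (tC s)
    (fun h0 => hs0 (toV_eq_zero σ hσO ϖ hϖ hσfrac u U hσu s h0))
  exact key n a s hs0 hcs hn

/-- `hgen` when the centre is `(ϖ)` (one component). -/
theorem hgen_of_centre (h : ∀ s : Chart O u, rC s = 0 → piC u ϖ ∣ s) :
    ∀ s : Chart O u, rC s = 0 → ∃ m s' : Chart O u, rC m ≠ 0 ∧ s * m = piC u ϖ * s' := by
  intro s hs
  obtain ⟨s', hs'⟩ := h s hs
  exact ⟨1, s', by rw [map_one]; exact one_ne_zero, by rw [mul_one, hs']⟩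

/-- `hgen` from a second reduction `r'` with `ker rC ⊓ ker r' = (ϖ)` and a separator (two
components). -/
theorem hgen_of_sat {K : Type*} [CommRing K] (r' : Chart O u →+* K)
    (hsat : ∀ c : Chart O u, rC c = 0 → r' c = 0 → piC u ϖ ∣ c)
    (hsep : ∃ m : Chart O u, r' m = 0 ∧ rC m ≠ 0) :
    ∀ s : Chart O u, rC s = 0 → ∃ m s' : Chart O u, rC m ≠ 0 ∧ s * m = piC u ϖ * s' := by
  intro s hs
  obtain ⟨m, hm', hm⟩ := hsep
  obtain ⟨s', hs'⟩ := hsat (s * m) (by rw [map_mul, hs, zero_mul])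
    (by rw [map_mul, hm', mul_zero])
  exact ⟨m, s', hm, hs'⟩

/-- `hfrac` from `IsFractionRing`. -/
theorem hfrac_of_isFractionRing [IsFractionRing (Chart O u) L] :
    ∀ c : L, ∃ a s : Chart O u, s ≠ 0 ∧ c * (s : L) = (a : L) := by
  intro c
  obtain ⟨⟨a, s⟩, h⟩ := IsLocalization.surj (nonZeroDivisors (Chart O u)) c
  exact ⟨a, (s : Chart O u), nonZeroDivisors.ne_zero s.2, h⟩

end Loc

/-! ### Two charts -/

section Chart

variable {O₀ O₁ E₀ E₁ : Type*}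
  [CommRing O₀] [IsDomain O₀] [IsDiscreteValuationRing O₀]
  [CommRing O₁] [IsDomain O₁] [IsDiscreteValuationRing O₁]
  [Field E₀] [Field E₁] [Algebra O₀ E₀] [FaithfulSMul O₀ E₀] [Algebra O₁ E₁] [FaithfulSMul O₁ E₁]
  {L₀ L₁ : Type*} [Field L₀] [Field L₁] [Algebra O₀ L₀] [Algebra O₁ L₁]
  (j : O₀ →+* O₁) [IsLocalHom j] (f : E₀ →+* E₁)
  (hjf : ∀ r : O₀, f (algebraMap O₀ E₀ r) = algebraMap O₁ E₁ (j r))
  (ϖ : O₀) (hϖ : Irreducible ϖ) (π : O₁) (hπ : Irreducible π) (e : ℕ) (hdvd : π ^ e ∣ j ϖ)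
  (σ₀ : L₀ →+* LaurentSeries E₀)
  (hσO₀ : ∀ r : O₀, σ₀ (algebraMap O₀ L₀ r) = HahnSeries.C (algebraMap O₀ E₀ r))
  (hσfrac₀ : ∀ x : L₀, σ₀ x ∈ GaussDVR.fracField O₀ E₀)
  (σ₁ : L₁ →+* LaurentSeries E₁)
  (hσO₁ : ∀ r : O₁, σ₁ (algebraMap O₁ L₁ r) = HahnSeries.C (algebraMap O₁ E₁ r))
  (hσfrac₁ : ∀ x : L₁, σ₁ x ∈ GaussDVR.fracField O₁ E₁)
  (β : L₀ →+* L₁) (hβ : ∀ x : L₀, σ₁ (β x) = coeffMap f (σ₀ x))
  (u : L₀) (U : LaurentSeries O₀) (hσu : σ₀ u = GaussDVR.iota O₀ E₀ U)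

include hjf hβ hσu in
theorem sigma_beta_u : σ₁ (β u) = GaussDVR.iota O₁ E₁ (coeffMap j U) := by
  rw [hβ, hσu, coeffMap_iota j f hjf]

include hjf hσO₀ hσO₁ hβ in
theorem beta_algebraMap (r : O₀) : β (algebraMap O₀ L₀ r) = algebraMap O₁ L₁ (j r) := by
  apply σ₁.injective
  rw [hβ, hσO₀, hσO₁, coeffMap_C, hjf]

include hjf hσO₀ hσO₁ hβ in
theorem isIntegral_beta {x : L₀} (hx : IsIntegral (Algebra.adjoin O₀ {u}) x) :
    IsIntegral (Algebra.adjoin O₁ {β u}) (β x) := by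
  rw [isIntegral_adjoin_iff] at hx ⊢
  obtain ⟨q, hq, hqx⟩ := hx
  have hcomp : (((aeval (β u) : O₁[X] →ₐ[O₁] L₁) : O₁[X] →+* L₁)).comp
      (Polynomial.mapRingHom j) =
      β.comp ((aeval u : O₀[X] →ₐ[O₀] L₀) : O₀[X] →+* L₀) := by
    refine Polynomial.ringHom_ext (fun r => ?_) ?_
    · simp [beta_algebraMap j f hjf σ₀ hσO₀ σ₁ hσO₁ β hβ]
    · simp
  refine ⟨q.map (Polynomial.mapRingHom j), hq.map _, ?_⟩
  rw [eval₂_map, hcomp, ← hom_eval₂, hqx, map_zero]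

/-- The base-change map of chart rings `Chart O₀ u → Chart O₁ (β u)`. -/
def inclBC : Chart O₀ u →+* Chart O₁ (β u) where
  toFun x := ⟨β (x : L₀), isIntegral_beta j f hjf σ₀ hσO₀ σ₁ hσO₁ β hβ u x.2⟩
  map_one' := Subtype.ext (map_one β)
  map_mul' _ _ := Subtype.ext (map_mul β _ _)
  map_zero' := Subtype.ext (map_zero β)
  map_add' _ _ := Subtype.ext (map_add β _ _)

theorem coe_inclBC (x : Chart O₀ u) :
    ((inclBC j f hjf σ₀ hσO₀ σ₁ hσO₁ β hβ u x : Chart O₁ (β u)) : L₁) = β (x : L₀) := rfl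

local notation "r₀" => redHom σ₀ hσO₀ ϖ hϖ hσfrac₀ u U hσu

local notation "r₁" => redHom σ₁ hσO₁ π hπ hσfrac₁ (β u) (coeffMap j U)
  (sigma_beta_u j f hjf σ₀ σ₁ β hβ u U hσu)

local notation "ι₁" => inclBC j f hjf σ₀ hσO₀ σ₁ hσO₁ β hβ u

/-- The reduction over `O₁` restricted to the chart over `O₀` is the reduction over `O₀`. -/
theorem redHom_inclBC (x : Chart O₀ u) : r₁ (ι₁ x) = resMap j (r₀ x) := by
  show GaussDVR.red O₁ E₁ _ = resMap j (GaussDVR.red O₀ E₀ (toV σ₀ hσO₀ ϖ hϖ hσfrac₀ u U hσu x))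
  rw [← red_mapV j f hjf]
  congr 1
  exact Subtype.ext (hβ (x : L₀))

include hjf hϖ hπ hdvd hσfrac₀ in
/-- `(G2)` at chart level: the coordinates of an element with Gauss-integral expansion have
Gauss-integral expansions. -/
theorem sigma_coords_mem_V (x : L₁) (hx : σ₁ x ∈ GaussDVR.V O₁ E₁) (c : Fin e → L₀)
    (hc : σ₁ x = ∑ i : Fin e,
      HahnSeries.C (algebraMap O₁ E₁ π) ^ (i : ℕ) * coeffMap f (σ₀ (c i))) :
    ∀ i, σ₀ (c i) ∈ GaussDVR.V O₀ E₀ :=
  mem_V_of_sum_mem_V j f hjf ϖ hϖ π hπ e hdvd (fun i => σ₀ (c i)) (fun i => hσfrac₀ (c i))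
    (by rw [← hc]; exact hx)

include hϖ hdvd hσfrac₀ in
/-- `(G3)` at chart level: the reduction of `a = ∑_{i<e} π^i c_i` is the reduction of `c_0`. -/
theorem redHom_eq_of_coords (a : Chart O₁ (β u)) (c : Fin e → L₀)
    (hc : σ₁ (a : L₁) = ∑ i : Fin e,
      HahnSeries.C (algebraMap O₁ E₁ π) ^ (i : ℕ) * coeffMap f (σ₀ (c i)))
    (i₀ : Fin e) (hi₀ : (i₀ : ℕ) = 0) (h₀ : σ₀ (c i₀) ∈ GaussDVR.V O₀ E₀) :
    r₁ a = resMap j (GaussDVR.red O₀ E₀ ⟨σ₀ (c i₀), h₀⟩) := by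
  have ha : σ₁ (a : L₁) ∈ GaussDVR.V O₁ E₁ :=
    sigma_mem_V σ₁ hσO₁ π hπ hσfrac₁ (β u) (coeffMap j U)
      (sigma_beta_u j f hjf σ₀ σ₁ β hβ u U hσu) a.2
  have hV := sigma_coords_mem_V j f hjf ϖ hϖ π hπ e hdvd σ₀ hσfrac₀ σ₁ (a : L₁) ha c hc
  have hsum : ∑ i : Fin e,
      HahnSeries.C (algebraMap O₁ E₁ π) ^ (i : ℕ) * coeffMap f (σ₀ (c i)) ∈
        GaussDVR.V O₁ E₁ := by
    rw [← hc]; exact ha
  have h3 := red_sum j f hjf π hπ e (fun i => σ₀ (c i)) hV i₀ hi₀ hsum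
  have h4 : toV σ₁ hσO₁ π hπ hσfrac₁ (β u) (coeffMap j U)
      (sigma_beta_u j f hjf σ₀ σ₁ β hβ u U hσu) a = ⟨_, hsum⟩ := Subtype.ext hc
  show GaussDVR.red O₁ E₁ (toV σ₁ hσO₁ π hπ hσfrac₁ (β u) (coeffMap j U)
      (sigma_beta_u j f hjf σ₀ σ₁ β hβ u U hσu) a) = _
  rw [h4]
  exact h3

/-- `(G3)` when the coordinates are chart elements (exact base change of chart rings). -/
theorem redHom_eq_of_chart_coords (a : Chart O₁ (β u)) (c : Fin e → Chart O₀ u)
    (hc : σ₁ (a : L₁) = ∑ i : Fin e,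
      HahnSeries.C (algebraMap O₁ E₁ π) ^ (i : ℕ) * coeffMap f (σ₀ (c i : L₀)))
    (i₀ : Fin e) (hi₀ : (i₀ : ℕ) = 0) :
    r₁ a = resMap j (r₀ (c i₀)) := by
  have ha : σ₁ (a : L₁) ∈ GaussDVR.V O₁ E₁ :=
    sigma_mem_V σ₁ hσO₁ π hπ hσfrac₁ (β u) (coeffMap j U)
      (sigma_beta_u j f hjf σ₀ σ₁ β hβ u U hσu) a.2
  have hV : ∀ i, σ₀ (c i : L₀) ∈ GaussDVR.V O₀ E₀ := fun i =>
    sigma_mem_V σ₀ hσO₀ ϖ hϖ hσfrac₀ u U hσu (c i).2
  have hsum : ∑ i : Fin e,
      HahnSeries.C (algebraMap O₁ E₁ π) ^ (i : ℕ) * coeffMap f (σ₀ (c i : L₀)) ∈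
        GaussDVR.V O₁ E₁ := by
    rw [← hc]; exact ha
  have h3 := red_sum j f hjf π hπ e (fun i => σ₀ (c i : L₀)) hV i₀ hi₀ hsum
  have h4 : toV σ₁ hσO₁ π hπ hσfrac₁ (β u) (coeffMap j U)
      (sigma_beta_u j f hjf σ₀ σ₁ β hβ u U hσu) a = ⟨_, hsum⟩ := Subtype.ext hc
  show GaussDVR.red O₁ E₁ (toV σ₁ hσO₁ π hπ hσfrac₁ (β u) (coeffMap j U)
      (sigma_beta_u j f hjf σ₀ σ₁ β hβ u U hσu) a) = _
  rw [h4]
  exact h3

include hσO₁ hβ in
/-- `hspan` from a decomposition in `L₁`. -/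
theorem hspan_of_L
    (hspanL : ∀ x : L₁, ∃ c : Fin e → L₀,
      x = ∑ i : Fin e, algebraMap O₁ L₁ π ^ (i : ℕ) * β (c i)) :
    ∀ x : L₁, ∃ c : Fin e → L₀, σ₁ x = ∑ i : Fin e,
      HahnSeries.C (algebraMap O₁ E₁ π) ^ (i : ℕ) * coeffMap f (σ₀ (c i)) := by
  intro x
  obtain ⟨c, hc⟩ := hspanL x
  refine ⟨c, ?_⟩
  conv_lhs => rw [hc]
  rw [map_sum]
  refine Finset.sum_congr rfl fun i _ => ?_
  rw [map_mul, map_pow, hσO₁, hβ]

include hdvd in
/-- `(T)` **Transfer of reductions.**  If `L₁ = ∑_{i<e} π^i β(L₀)` and every element of `L₀`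
with Gauss-integral expansion is a fraction of chart elements with denominator outside the
centre, then every reduction of the chart ring over `O₁` is such a fraction of reductions
coming from the chart ring over `O₀`. -/
theorem exists_red_eq (he : 0 < e)
    (hspan : ∀ x : L₁, ∃ c : Fin e → L₀, σ₁ x = ∑ i : Fin e,
      HahnSeries.C (algebraMap O₁ E₁ π) ^ (i : ℕ) * coeffMap f (σ₀ (c i)))
    (hloc : ∀ c : L₀, σ₀ c ∈ GaussDVR.V O₀ E₀ →
      ∃ t a0 : Chart O₀ u, r₀ t ≠ 0 ∧ c * (t : L₀) = (a0 : L₀))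
    (a : Chart O₁ (β u)) :
    ∃ t a0 : Chart O₀ u, r₀ t ≠ 0 ∧ resMap j (r₀ t) * r₁ a = resMap j (r₀ a0) := by
  obtain ⟨c, hc⟩ := hspan (a : L₁)
  have ha : σ₁ (a : L₁) ∈ GaussDVR.V O₁ E₁ :=
    sigma_mem_V σ₁ hσO₁ π hπ hσfrac₁ (β u) (coeffMap j U)
      (sigma_beta_u j f hjf σ₀ σ₁ β hβ u U hσu) a.2
  have hV := sigma_coords_mem_V j f hjf ϖ hϖ π hπ e hdvd σ₀ hσfrac₀ σ₁ (a : L₁) ha c hc
  have h1 := redHom_eq_of_coords j f hjf ϖ hϖ π hπ e hdvd σ₀ hσfrac₀ σ₁ hσO₁ hσfrac₁ β hβ u U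
    hσu a c hc ⟨0, he⟩ rfl (hV ⟨0, he⟩)
  obtain ⟨t, a0, ht, hta⟩ := hloc (c ⟨0, he⟩) (hV ⟨0, he⟩)
  refine ⟨t, a0, ht, ?_⟩
  rw [h1, ← map_mul]
  congr 1
  show GaussDVR.red O₀ E₀ (toV σ₀ hσO₀ ϖ hϖ hσfrac₀ u U hσu t) *
      GaussDVR.red O₀ E₀ ⟨σ₀ (c ⟨0, he⟩), hV ⟨0, he⟩⟩ =
    GaussDVR.red O₀ E₀ (toV σ₀ hσO₀ ϖ hϖ hσfrac₀ u U hσu a0)
  rw [← map_mul]
  congr 1
  apply Subtype.ext
  show σ₀ (t : L₀) * σ₀ (c ⟨0, he⟩) = σ₀ (a0 : L₀)
  rw [← hta, map_mul, mul_comm]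

include hdvd in
/-- `(T)` in `inclBC` form. -/
theorem exists_red_eq' (he : 0 < e)
    (hspan : ∀ x : L₁, ∃ c : Fin e → L₀, σ₁ x = ∑ i : Fin e,
      HahnSeries.C (algebraMap O₁ E₁ π) ^ (i : ℕ) * coeffMap f (σ₀ (c i)))
    (hloc : ∀ c : L₀, σ₀ c ∈ GaussDVR.V O₀ E₀ →
      ∃ t a0 : Chart O₀ u, r₀ t ≠ 0 ∧ c * (t : L₀) = (a0 : L₀))
    (a : Chart O₁ (β u)) :
    ∃ t a0 : Chart O₀ u, r₁ (ι₁ t) ≠ 0 ∧ r₁ (ι₁ t) * r₁ a = r₁ (ι₁ a0) := by
  obtain ⟨t, a0, ht, h⟩ := exists_red_eq j f hjf ϖ hϖ π hπ e hdvd σ₀ hσO₀ hσfrac₀ σ₁ hσO₁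
    hσfrac₁ β hβ u U hσu he hspan hloc a
  have hincl : ∀ x : Chart O₀ u, r₁ (ι₁ x) = resMap j (r₀ x) :=
    redHom_inclBC j f hjf ϖ hϖ π hπ σ₀ hσO₀ hσfrac₀ σ₁ hσO₁ hσfrac₁ β hβ u U hσu
  refine ⟨t, a0, ?_, ?_⟩
  · rw [hincl]
    exact fun h0 => ht (resMap_injective j (by rw [h0, map_zero]))
  · rw [hincl, hincl]
    exact h

/-- **Transfer of the residue-form Frobenius statement `hfr`** (the radicial input of the
fierce block) from the chart over `O₀` to the chart over `O₁`, given `(T)`. -/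
theorem hfr_transfer (ℓ : ℕ) [NeZero ℓ]
    (hT : ∀ a : Chart O₁ (β u), ∃ t a0 : Chart O₀ u, r₀ t ≠ 0 ∧
      resMap j (r₀ t) * r₁ a = resMap j (r₀ a0))
    (hfr : ∀ a : Chart O₀ u, ∃ s r : Chart O₀ u, r₀ s ≠ 0 ∧
      qExpand (IsLocalRing.ResidueField O₀) ℓ (r₀ s) * r₀ a ^ ℓ =
        qExpand (IsLocalRing.ResidueField O₀) ℓ (r₀ r)) :
    ∀ a : Chart O₁ (β u), ∃ s r : Chart O₁ (β u), r₁ s ≠ 0 ∧
      qExpand (IsLocalRing.ResidueField O₁) ℓ (r₁ s) * r₁ a ^ ℓ =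
        qExpand (IsLocalRing.ResidueField O₁) ℓ (r₁ r) := by
  intro a
  obtain ⟨t, a0, ht, hta⟩ := hT a
  obtain ⟨s0, r0, hs0, h0⟩ := hfr a0
  obtain ⟨st, rt, hst, h1⟩ := hfr t
  have hrt : r₀ rt ≠ 0 := by
    intro hz
    rw [hz, map_zero] at h1
    exact mul_ne_zero (fun h => hst (qExpand_injective ℓ (by rw [h, map_zero])))
      (pow_ne_zero ℓ ht) h1
  have hresT : resMap j (r₀ t) ≠ 0 := fun h => ht (resMap_injective j (by rw [h, map_zero]))
  have e0 : qExpand (IsLocalRing.ResidueField O₁) ℓ (resMap j (r₀ s0)) * resMap j (r₀ a0) ^ ℓ =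
      qExpand (IsLocalRing.ResidueField O₁) ℓ (resMap j (r₀ r0)) := by
    rw [← coeffMap_qExpand, ← coeffMap_qExpand, ← map_pow, ← map_mul, h0]
  have e1 : qExpand (IsLocalRing.ResidueField O₁) ℓ (resMap j (r₀ st)) * resMap j (r₀ t) ^ ℓ =
      qExpand (IsLocalRing.ResidueField O₁) ℓ (resMap j (r₀ rt)) := by
    rw [← coeffMap_qExpand, ← coeffMap_qExpand, ← map_pow, ← map_mul, h1]
  have hincl : ∀ x : Chart O₀ u, r₁ (ι₁ x) = resMap j (r₀ x) :=
    redHom_inclBC j f hjf ϖ hϖ π hπ σ₀ hσO₀ hσfrac₀ σ₁ hσO₁ hσfrac₁ β hβ u U hσu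
  refine ⟨ι₁ (s0 * rt), ι₁ (r0 * st), ?_, ?_⟩
  · rw [hincl, map_mul]
    exact fun h => mul_ne_zero hs0 hrt (resMap_injective j (by rw [h, map_zero]))
  · rw [hincl, hincl]
    apply mul_left_cancel₀ (pow_ne_zero ℓ hresT)
    simp only [map_mul]
    rw [← e1, ← e0, ← hta]
    ring

end Chart

end Fermat.Agent.S44.L.GaussBC
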