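import Mathlib
import Fermat.Agent.S18.K1Top
import Fermat.Agent.S30.GaussDescent
import Fermat.Agent.S30.E4.GaussNorm
import Fermat.Agent.S44.Contract

/-!
# PROGRAM MR (S44), strand L, row (L.RED): transfer between the `E`-level and the `ℚ̄`-level

`A` a valuation subring of `ℚ̄`, `E ⊆ ℚ̄` a number field with `O = OE A E = A ∩ E` a discrete
valuation ring, `κ_O → κ_A` the map of residue fields.

* `resMap`, `kmap` : the residue field map and the induced (injective) map
  `κ_O((q)) → κ_A((q))`; `kmap_rho` : `kmap (ρ a) = red (up a)` for `a ∈ O((q))`.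
* `kmap_red_mul` : if `z ∈ E((q))` is Gauss-integral over `O` and its image over `ℚ̄` is a
  fraction `P / Q` of `A`-integral series with `red Q ≠ 0`, then `kmap (red z) = red P / red Q`.
* `exists_frac_of_mem_V` : a Gauss-integral `z ∈ E((q))` whose image lies in `Fb N` is a fraction
  `P / Q` of `A`-integral series OF `Fb N`, `red Q ≠ 0` (`E4.hasGaussNorm` + the constant is
  integral).
* `kmap_red_mem_redSet` : hence `kmap (red z) ∈ Contract.redSet N A`.
* `exists_descent_int` : an `A`-integral series of `Fb N` comes from an `O`-integral series of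
  `LE N E` for every sufficiently large number field `E`.
-/

set_option autoImplicit false
set_option linter.unusedSectionVars false
set_option linter.style.haveILetI false

open ModularCurve HahnSeries

noncomputable section

namespace Fermat.Agent.S44.L.RedTransfer

open Fermat.Agent.S30 Fermat.Agent.S18.K1Defs Fermat.Agent.S18.K1Top Fermat.Agent.S18.Wiring
open Fermat.Agent.S44.Contract

local notation "Qb" => AlgebraicClosure ℚ

variable (A : ValuationSubring Qb) (E : IntermediateField ℚ Qb)

/-! ### The map of residue fields -/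

theorem isLocalHom_inclOA : IsLocalHom (inclOA A E) :=
  ⟨fun x h => (isUnit_inclOA_iff A E x).mp h⟩

/-- The map of residue fields `κ_O → κ_A`, `O = A ∩ E`. -/
def resMap : IsLocalRing.ResidueField (OE A E) →+* IsLocalRing.ResidueField A :=
  haveI := isLocalHom_inclOA A E
  IsLocalRing.ResidueField.map (inclOA A E)

theorem resMap_residue (x : OE A E) :
    resMap A E (IsLocalRing.residue (OE A E) x) = IsLocalRing.residue A (inclOA A E x) := by
  haveI := isLocalHom_inclOA A E
  exact IsLocalRing.ResidueField.map_residue (inclOA A E) x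

/-- The induced map `κ_O((q)) → κ_A((q))`. -/
def kmap : LaurentSeries (IsLocalRing.ResidueField (OE A E)) →+*
    LaurentSeries (IsLocalRing.ResidueField A) :=
  coeffMap (resMap A E)

theorem kmap_injective : Function.Injective (kmap A E) := by
  intro x y h
  ext n
  apply (resMap A E).injective
  have := congrArg (fun t : LaurentSeries (IsLocalRing.ResidueField A) => t.coeff n) h
  simpa [kmap] using this

/-- `kmap (ρ a) = red (up a)`. -/
theorem kmap_residue (a : LaurentSeries (OE A E)) :
    kmap A E (coeffMap (IsLocalRing.residue (OE A E)) a) = Congr.red A (up A E a) := by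
  ext n
  show resMap A E (IsLocalRing.residue (OE A E) (a.coeff n)) =
    IsLocalRing.residue A (inclOA A E (a.coeff n))
  exact resMap_residue A E _

theorem incl_up' (a : LaurentSeries (OE A E)) :
    Congr.incl A (up A E a) = GaussDescent.up E (coeffMap (algebraMap (OE A E) E) a) :=
  incl_up A E a

theorem incl_C (a : A) : Congr.incl A (HahnSeries.C a) = HahnSeries.C (a : Qb) :=
  coeffMap_C A.subtype a

theorem red_C (a : A) :
    Congr.red A (HahnSeries.C a) = HahnSeries.C (IsLocalRing.residue A a) :=
  coeffMap_C (IsLocalRing.residue A) a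

section DVR

variable [IsDiscreteValuationRing (OE A E)]

theorem kmap_rho (a : LaurentSeries (OE A E)) :
    kmap A E (GaussDVR.rho (OE A E) a) = Congr.red A (up A E a) :=
  kmap_residue A E a

theorem red_up_ne_zero {b : LaurentSeries (OE A E)} (hb : GaussDVR.rho (OE A E) b ≠ 0) :
    Congr.red A (up A E b) ≠ 0 := by
  rw [← kmap_rho]
  exact fun h0 => hb (kmap_injective A E (by rw [h0, map_zero]))

/-- A Gauss-integral series over `E`, pushed to `ℚ̄`, is the fraction of the pushed numerator
and denominator. -/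
theorem up_mul_incl_up (z : LaurentSeries E) (a b : LaurentSeries (OE A E))
    (hab : z * GaussDVR.iota (OE A E) E b = GaussDVR.iota (OE A E) E a) :
    GaussDescent.up E z * Congr.incl A (up A E b) = Congr.incl A (up A E a) := by
  rw [incl_up', incl_up']
  have h := congrArg (GaussDescent.up E) hab
  rw [map_mul] at h
  exact h

/-- **Comparison of reductions.**  If `z ∈ E((q))` is Gauss-integral over `O` and its image
over `ℚ̄` is `P / Q` with `P, Q` integral over `A`, `red Q ≠ 0`, then
`kmap (red z) * red Q = red P`. -/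
theorem kmap_red_mul (z : LaurentSeries E) (hz : z ∈ GaussDVR.V (OE A E) E)
    (P Q : LaurentSeries A)
    (h : GaussDescent.up E z * Congr.incl A Q = Congr.incl A P) :
    kmap A E (GaussDVR.red (OE A E) E ⟨z, hz⟩) * Congr.red A Q = Congr.red A P := by
  obtain ⟨a, b, hb, hab⟩ := (GaussDVR.mem_V (OE A E) E).mp hz
  have h1 : GaussDVR.red (OE A E) E ⟨z, hz⟩ * GaussDVR.rho (OE A E) b =
      GaussDVR.rho (OE A E) a := GaussDVR.red_mul_rho (OE A E) E ⟨z, hz⟩ a b hab
  have h2 := congrArg (kmap A E) h1
  rw [map_mul, kmap_rho, kmap_rho] at h2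
  have hb' : Congr.red A (up A E b) ≠ 0 := red_up_ne_zero A E hb
  have hab' := up_mul_incl_up A E z a b hab
  have h3 : Congr.incl A (up A E a * Q) = Congr.incl A (P * up A E b) := by
    rw [map_mul, map_mul, ← h, ← hab']
    ring
  have h4 : up A E a * Q = P * up A E b := Congr.incl_injective A h3
  have h5 : Congr.red A (up A E a) * Congr.red A Q = Congr.red A P * Congr.red A (up A E b) := by
    rw [← map_mul, ← map_mul, h4]
  apply mul_right_cancel₀ hb'
  calc kmap A E (GaussDVR.red (OE A E) E ⟨z, hz⟩) * Congr.red A Q * Congr.red A (up A E b)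
      = (kmap A E (GaussDVR.red (OE A E) E ⟨z, hz⟩) * Congr.red A (up A E b)) *
          Congr.red A Q := by ring
    _ = Congr.red A (up A E a) * Congr.red A Q := by rw [h2]
    _ = Congr.red A P * Congr.red A (up A E b) := h5

/-- **Gauss-integral elements of the function field are fractions of integral series of the
function field.**  `z ∈ E((q))` Gauss-integral over `O = A ∩ E` with image in `Fb N`: the image
is `P / Q` with `P, Q` `A`-integral series of `Fb N`, `red Q ≠ 0`. -/
theorem exists_frac_of_mem_V (N ℓ : ℕ) [Fact ℓ.Prime] (hA : A.LiesOverPrime ℓ)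
    (z : LaurentSeries E) (hz : z ∈ GaussDVR.V (OE A E) E)
    (hzN : GaussDescent.up E z ∈ E4.Fb N) :
    ∃ P Q : LaurentSeries A, Congr.incl A P ∈ E4.Fb N ∧ Congr.incl A Q ∈ E4.Fb N ∧
      Congr.red A Q ≠ 0 ∧ GaussDescent.up E z * Congr.incl A Q = Congr.incl A P := by
  by_cases hz0 : GaussDescent.up E z = 0
  · refine ⟨0, 1, ?_, ?_, ?_, ?_⟩
    · rw [map_zero]; exact zero_mem _
    · rw [map_one]; exact one_mem _
    · rw [map_one]; exact one_ne_zero
    · rw [hz0, zero_mul, map_zero]
  · have hf0 : (⟨_, hzN⟩ : E4.Fb N) ≠ 0 := fun h => hz0 (congrArg Subtype.val h)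
    obtain ⟨c, P, Q, hP, hQ, hc, hPr, hQr, hfc⟩ := E4.hasGaussNorm N ℓ A hA ⟨_, hzN⟩ hf0
    have hfc' : GaussDescent.up E z * Congr.incl A Q = HahnSeries.C c * Congr.incl A P := by
      have h := congrArg (fun x : E4.Fb N => (x : LaurentSeries Qb)) hfc
      rw [Fermat.Agent.S18.Wiring.C_eq_algebraMap]
      exact h
    obtain ⟨a, b, hb, hab⟩ := (GaussDVR.mem_V (OE A E) E).mp hz
    have hb' : Congr.red A (up A E b) ≠ 0 := red_up_ne_zero A E hb
    have hab' := up_mul_incl_up A E z a b hab
    by_cases hcA : c ∈ A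
    · refine ⟨HahnSeries.C ⟨c, hcA⟩ * P, Q, ?_, hQ, hQr, ?_⟩
      · rw [map_mul, incl_C, Fermat.Agent.S18.Wiring.C_eq_algebraMap]
        exact mul_mem ((E4.Fb N).algebraMap_mem c) hP
      · rw [map_mul, incl_C, hfc']
    · exfalso
      have hci : c⁻¹ ∈ A := (A.mem_or_inv_mem c).resolve_left hcA
      have hres : IsLocalRing.residue A ⟨c⁻¹, hci⟩ = 0 := by
        rw [IsLocalRing.residue_eq_zero_iff, IsLocalRing.mem_maximalIdeal, mem_nonunits_iff]
        intro hu
        apply hcA
        have h1 := ((isUnit_iff_inv_mem A ⟨c⁻¹, hci⟩).mp hu).2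
        simpa using h1
      have h3 : Congr.incl A (P * up A E b) =
          Congr.incl A (HahnSeries.C ⟨c⁻¹, hci⟩ * up A E a * Q) := by
        rw [map_mul, map_mul, map_mul, incl_C, ← hab']
        have h4 : Congr.incl A P = HahnSeries.C c⁻¹ * (GaussDescent.up E z * Congr.incl A Q) := by
          rw [hfc', ← mul_assoc, ← map_mul, inv_mul_cancel₀ hc, map_one, one_mul]
        rw [h4]
        ring
      have h5 := congrArg (Congr.red A) (Congr.incl_injective A h3)
      rw [map_mul, map_mul, map_mul, red_C, hres, map_zero, zero_mul, zero_mul] at h5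
      exact (mul_ne_zero hPr hb') h5

/-- **The reductions of Gauss-integral elements of `LE N E` lie in the reduced function field
of level `N`** (in `Contract.redSet N A`). -/
theorem kmap_red_mem_redSet (N ℓ : ℕ) [Fact ℓ.Prime] (hA : A.LiesOverPrime ℓ)
    (z : LaurentSeries E) (hz : z ∈ GaussDVR.V (OE A E) E)
    (hzN : GaussDescent.up E z ∈ E4.Fb N) :
    kmap A E (GaussDVR.red (OE A E) E ⟨z, hz⟩) ∈ redSet N A := by
  obtain ⟨P, Q, hP, hQ, hQr, h⟩ := exists_frac_of_mem_V A E N ℓ hA z hz hzN
  exact ⟨P, Q, hP, hQ, hQr, kmap_red_mul A E z hz P Q h⟩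

end DVR

/-! ### Descent of integral series -/

/-- An `A`-integral series of `Fb N` comes from an integral series over `A ∩ E` lying in
`LE N E`, for every sufficiently large number field `E`. -/
theorem exists_descent_int (N : ℕ) (P : LaurentSeries A) (hP : Congr.incl A P ∈ E4.Fb N) :
    ∃ E₀ : IntermediateField ℚ Qb, FiniteDimensional ℚ E₀ ∧
      ∀ E : IntermediateField ℚ Qb, E₀ ≤ E →
        ∃ a : LaurentSeries (OE A E),
          coeffMap (algebraMap (OE A E) E) a ∈ LE N E ∧ up A E a = P := by
  obtain ⟨E₀, hE₀, h⟩ := GaussDescent.exists_descent (modularFunctionFieldFull N) hP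
  refine ⟨E₀, hE₀, fun E hE => ?_⟩
  obtain ⟨y, hy, hyP⟩ := h E hE
  obtain ⟨a, hay, haP⟩ := exists_up_eq A E P y hyP
  exact ⟨a, by rw [hay]; exact hy, haP⟩

end Fermat.Agent.S44.L.RedTransfer
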