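import Mathlib
import Fermat.Agent.S44.Contract
import Fermat.Prelude.Def_ModularCurve_JqCoeff

/-!
# PROGRAM MR (S44), strand L: the top split of `Contract.LStatement`

Statement-level file (helper88).  Six `Prop`s in landed vocabulary; the compiled assembly
`LStatement ⟸ Red ∧ Hecke ∧ NZ ∧ Slope ∧ HDiv ∧ Kappa` is the file `S44/L/TopProof.lean`.

Notation: `p = P.p`, level `N' p` with `p ∤ N'`, `A` a valuation subring of `ℚ̄` over `p`,
`κ` its residue field, `x ↦ x̄` the reduction at the Gauss valuation of `A` on `q`-expansions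
(`RedAt`), `redField N' A ⊆ κ((q))` the function field of the reduced curve of level `N'`.

* `RedStatement`   : every nonzero `x ∈ FN (N' p)` has a reduction, and it lies in
  `redField N' A` (the prime `v_∞` above the Gauss valuation of level `N'` has `e = f = 1`).
* `HeckeStatement` : `T_ℓ x = c x^a k^p` gives the weight-2 Hecke relation for `θ x̄ / x̄`.
* `KappaStatement` : every nonzero element of `κ` is a root of unity.
* `HDivStatement`  : the multiplicative `T_ℓ` preserves "`p ∣ ord` of the reduction at every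
  FINITE (non-cuspidal) place of the reduced curve".
* `SlopeStatement` : the geometric core (C1 → cover → (★)): an Eisenstein function `D`
  (`T_ℓ D ~ D^(ℓ+1)`, `D̄` of order prime to `p` at some finite place) such that, for
  `f = \overline{ι R}`: `p ∣ ord_w f` at the cusps `w`, and there is a SLOPE `δ ∈ ℤ` with
  `p ∣ ord_w (f^m D̄^(-δ))` at every finite place `w`.
* `NZStatement`    : `θ f ≠ 0` for `f = \overline{ι R}`, `R ∉ ⟨T⟩`.
-/

set_option autoImplicit false

open WeierstrassCurve WeierstrassCurve.Affine WeierstrassCurve.Affine.Point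
open HahnSeries ModularCurve AlgebraicCurve

namespace Fermat.Agent.S44.L.Top

open Fermat.Agent.S30 Fermat.Agent.S30.Producer Fermat.Agent.S44.Contract

local notation "GQb" => (AlgebraicClosure ℚ ≃ₐ[ℚ] AlgebraicClosure ℚ)

/-- **Reduction at the Gauss valuation**, quotient form: `x ∈ FN N` is `c · U / V` with
`U, V` integral `q`-series with nonzero reductions, and `f = Ū / V̄`.  (`f` is determined by
`x` up to a nonzero constant of `κ`.) -/
def RedAt (N : ℕ) (A : ValuationSubring Qb) (x : FN N)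
    (f : LaurentSeries (IsLocalRing.ResidueField A)) : Prop :=
  ∃ (c : Qb) (U V : LaurentSeries A), c ≠ 0 ∧ Congr.red A U ≠ 0 ∧ Congr.red A V ≠ 0 ∧
    (x : LaurentSeries Qb) * Congr.incl A V = HahnSeries.C c * Congr.incl A U ∧
    f * Congr.red A V = Congr.red A U

/-- `p ∣ ord_w f`, order-free: `f = u h ^ p` with `u` a unit of the valuation subring `w`. -/
def PDivAt (p : ℕ) {K : Type*} [Field K] (w : ValuationSubring K) (f : K) : Prop :=
  ∃ u h : K, f = u * h ^ p ∧ u ∈ w ∧ u⁻¹ ∈ w

/-- A valuation subring of the reduced function field is FINITE (non-cuspidal): it contains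
the reduction of `j`. -/
def IsFinitePl (N' : ℕ) (A : ValuationSubring Qb) (w : ValuationSubring (redField N' A)) : Prop :=
  ∃ jb : redField N' A,
    (jb : LaurentSeries (IsLocalRing.ResidueField A)) = jqModC (IsLocalRing.ResidueField A) ∧
      jb ∈ w

/-- The body of `Contract.EShape` with its witnesses exposed. -/
def EShapeData (P : FreyPackage) (A : ValuationSubring Qb) (T R : (P.freyCurve⁄Qb).Point)
    (ζ b : Qb) : Prop :=
  P.p • T = 0 ∧ P.p • R = 0 ∧ T ≠ 0 ∧ (∀ k : ℕ, R ≠ k • T) ∧
    IsPrimitiveRoot ζ P.p ∧ b ≠ 0 ∧ b ^ P.p ∈ A ∧ (b ^ P.p)⁻¹ ∈ A ∧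
    ∀ σ : GQb, σ ∈ A.inertiaSubgroupIn ℚ →
      ∃ k j : ℕ, σ ζ = ζ ^ k ∧ σ • T = k • T ∧ σ b = ζ ^ j * b ∧ σ • R = R + j • T

theorem eShape_iff (P : FreyPackage) (A : ValuationSubring Qb) :
    EShape P A ↔ ∃ T R ζ b, EShapeData P A T R ζ b := Iff.rfl

/-! ### The six bricks -/

/-- **(L.RED)** Every nonzero function of level `N' p` has a reduction at the Gauss valuation
of `q`-expansions, and this reduction lies in the reduced function field of level `N'`. -/
def RedStatement : Prop :=
  ∀ (p N' : ℕ) [NeZero N'] [NeZero p], p.Prime → 5 ≤ p → ¬ p ∣ N' →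
    ∀ A : ValuationSubring Qb, A.LiesOverPrime p →
    ∀ x : FN (N' * p), x ≠ 0 →
      ∃ f : redField N' A,
        RedAt (N' * p) A x (f : LaurentSeries (IsLocalRing.ResidueField A))

/-- **(L.HECKE)** `T_ℓ x = c x^a k^p` implies the weight-2 Hecke relation with eigenvalue `a`
for `φ = θ f / f`, `f` the reduction of `x`. -/
def HeckeStatement : Prop :=
  ∀ (p N' : ℕ) [NeZero N'] [NeZero p], p.Prime → 5 ≤ p → ¬ p ∣ N' →
    ∀ A : ValuationSubring Qb, A.LiesOverPrime p →
    ∀ ℓ : ℕ, ℓ.Prime → ¬ ℓ ∣ N' * p →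
    ∀ (x k : FN (N' * p)) (c : Qb) (a : ℤ), x ≠ 0 →
      E4.heckeFb (N' * p) ℓ x = algebraMap Qb (FN (N' * p)) c * x ^ a * k ^ p →
    ∀ f g φ : LaurentSeries (IsLocalRing.ResidueField A), RedAt (N' * p) A x f →
      (∀ n : ℤ, g.coeff n = (n : IsLocalRing.ResidueField A) * f.coeff n) → φ * f = g →
      ∀ n : ℤ,
        φ.coeff (ℓ * n)
            + (ℓ : IsLocalRing.ResidueField A) * (if (ℓ : ℤ) ∣ n then φ.coeff (n / ℓ) else 0)
          = ((a : ℤ) : IsLocalRing.ResidueField A) * φ.coeff n

/-- **(L.KAPPA)** The residue field of `A` is algebraic over `𝔽_p`: every nonzero element is a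
root of unity (so constants are units of every valuation subring of the reduced field). -/
def KappaStatement : Prop :=
  ∀ p : ℕ, p.Prime → ∀ A : ValuationSubring Qb, A.LiesOverPrime p →
    ∀ c : IsLocalRing.ResidueField A, c ≠ 0 → ∃ n : ℕ, 0 < n ∧ c ^ n = 1

/-- **(L.HDIV)** The multiplicative Hecke operator preserves "`p ∣ ord` of the reduction at
every finite place". -/
def HDivStatement : Prop :=
  ∀ (p N' : ℕ) [NeZero N'] [NeZero p], p.Prime → 5 ≤ p → ¬ p ∣ N' →
    ∀ A : ValuationSubring Qb, A.LiesOverPrime p →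
    ∀ ℓ : ℕ, ℓ.Prime → ¬ ℓ ∣ N' * p →
    ∀ (G : FN (N' * p)) (g g' : redField N' A), G ≠ 0 →
      RedAt (N' * p) A G (g : LaurentSeries (IsLocalRing.ResidueField A)) →
      RedAt (N' * p) A (E4.heckeFb (N' * p) ℓ G)
        (g' : LaurentSeries (IsLocalRing.ResidueField A)) →
      (∀ w : ValuationSubring (redField N' A), IsFinitePl N' A w → PDivAt p w g) →
      ∀ w : ValuationSubring (redField N' A), IsFinitePl N' A w → PDivAt p w g'

/-- **(L.SLOPE)** The geometric core.  There are an Eisenstein function `D` of level `N' p`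
with reduction `D̄` and an integer `m` prime to `p` (`D = Δ(q)/Δ(q^p)`, `m = 12`) such that
`T_ℓ D ~ D^(ℓ+1)`, `D̄` has order prime to `p` at some finite place, and for every `R` of an
`EShape` datum and every reduction `f` of `ι R`: `p ∣ ord_w f` at every cusp `w`, and there is
`δ ∈ ℤ` with `p ∣ ord_w (f^m D̄^(-δ))` at every finite place `w`. -/
def SlopeStatement : Prop :=
  ∀ (P : FreyPackage) (N' : ℕ) [NeZero N'] [NeZero P.p] (W : WeierstrassCurve ℤ),
    ¬ P.p ∣ N' → Squarefree N' →
    ∀ A : ValuationSubring Qb, A.LiesOverPrime P.p →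
    ∀ ι : (P.freyCurve⁄Qb).Point → FN (N' * P.p), IsNewEmb P N' W ι →
    ∃ (D : FN (N' * P.p)) (Dbar : redField N' A) (m : ℕ),
      D ≠ 0 ∧ 0 < m ∧ ¬ P.p ∣ m ∧
      RedAt (N' * P.p) A D (Dbar : LaurentSeries (IsLocalRing.ResidueField A)) ∧
      (∀ ℓ : ℕ, ℓ.Prime → ¬ ℓ ∣ N' * P.p → ∃ (c : Qb) (k : FN (N' * P.p)),
        E4.heckeFb (N' * P.p) ℓ D
          = algebraMap Qb (FN (N' * P.p)) c * D ^ (ℓ + 1) * k ^ P.p) ∧
      (∃ w : ValuationSubring (redField N' A), IsFinitePl N' A w ∧ ¬ PDivAt P.p w Dbar) ∧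
      ∀ (T R : (P.freyCurve⁄Qb).Point) (ζ b : Qb), EShapeData P A T R ζ b →
        ∀ f : redField N' A,
          RedAt (N' * P.p) A (ι R) (f : LaurentSeries (IsLocalRing.ResidueField A)) →
          (∀ w : ValuationSubring (redField N' A), ¬ IsFinitePl N' A w → PDivAt P.p w f) ∧
          ∃ δ : ℤ, ∀ w : ValuationSubring (redField N' A), IsFinitePl N' A w →
            PDivAt P.p w (f ^ m * Dbar ^ (-δ))

/-- **(L.NZ)** The logarithmic derivative of the reduction of `ι R` does not vanish. -/
def NZStatement : Prop :=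
  ∀ (P : FreyPackage) (N' : ℕ) [NeZero N'] [NeZero P.p] (W : WeierstrassCurve ℤ),
    ¬ P.p ∣ N' → Squarefree N' →
    ∀ A : ValuationSubring Qb, A.LiesOverPrime P.p →
    ∀ ι : (P.freyCurve⁄Qb).Point → FN (N' * P.p), IsNewEmb P N' W ι →
    ∀ (T R : (P.freyCurve⁄Qb).Point) (ζ b : Qb), EShapeData P A T R ζ b →
      ∀ f : LaurentSeries (IsLocalRing.ResidueField A), RedAt (N' * P.p) A (ι R) f →
        ∃ n : ℤ, (n : IsLocalRing.ResidueField A) * f.coeff n ≠ 0

/-- The target of the assembly file `S44/L/TopProof.lean`. -/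
def TopAssembly : Prop :=
  RedStatement → HeckeStatement → KappaStatement → HDivStatement → SlopeStatement →
    NZStatement → LStatement

end Fermat.Agent.S44.L.Top
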