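import Mathlib
import Fermat.Agent.S44.L.Top

/-!
# PROGRAM MR (S44), strand L, brick (L.KAPPA) (helper290)

`kappaStatement : Top.KappaStatement`: for a valuation subring `A` of `ℚ̄` lying over a prime
`p`, every nonzero element of the residue field `κ` of `A` is a root of unity.

Proof: lift `c ∈ κ` to `a ∈ A`; `a` is a root of a primitive polynomial `f ∈ ℤ[X]`; `f` does
not vanish modulo `p` and its reduction kills `c` (the map `ℤ → A → κ` factors through
`ZMod p`); so `c` is algebraic over `𝔽_p`, the field `𝔽_p(c)` is finite, and `c ≠ 0` has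
finite multiplicative order.

Consumer forms (same file): `isOfFinOrder_residue`, `isAlgebraic_residue`,
`mem_valuationSubring_of_pow_eq_one` (roots of unity are units of every valuation subring),
`map_mem_valuationSubring` and `unit_of_coe_eq_C` (constants `C c`, `c ≠ 0`, are units of every
valuation subring of a subfield of `κ((q))`).
-/

set_option autoImplicit false

namespace Fermat.Agent.S44.L.Kappa

open Polynomial IntermediateField

local notation "Qb" => AlgebraicClosure ℚ

variable {p : ℕ} {A : ValuationSubring Qb}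

/-- The residue field of a valuation subring of `ℚ̄` over `p` has characteristic `p`. -/
theorem charP_residueField (hp : p.Prime) (hA : A.LiesOverPrime p) :
    CharP (IsLocalRing.ResidueField A) p := by
  refine (CharP.charP_iff_prime_eq_zero hp).2 ?_
  obtain ⟨hmem, hmax⟩ := (A.mem_nonunits_iff_exists_mem_maximalIdeal).1 hA
  have h1 : (⟨(p : Qb), hmem⟩ : A) = ((p : ℕ) : A) := Subtype.ext (by simp)
  rw [h1] at hmax
  have h2 := (IsLocalRing.residue_eq_zero_iff ((p : ℕ) : A)).2 hmax
  rwa [map_natCast] at h2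

/-- Every element of `ℚ̄` is a root of a primitive polynomial with integer coefficients. -/
theorem exists_isPrimitive_eval₂_eq_zero (a : Qb) :
    ∃ f : ℤ[X], f.IsPrimitive ∧ f.eval₂ (Int.castRingHom Qb) a = 0 := by
  have halg : IsAlgebraic ℚ a :=
    (AlgebraicClosure.isAlgebraic ℚ).isAlgebraic a
  have halgZ : IsAlgebraic ℤ a := (IsFractionRing.isAlgebraic_iff ℤ ℚ Qb).mpr halg
  obtain ⟨g, hg0, hg⟩ := halgZ
  refine ⟨g.primPart, g.isPrimitive_primPart, ?_⟩
  have hc : g.content ≠ 0 := by rwa [Ne, Polynomial.content_eq_zero_iff]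
  have hmap : algebraMap ℤ Qb = Int.castRingHom Qb := RingHom.ext_int _ _
  have h2 : (C g.content * g.primPart).eval₂ (Int.castRingHom Qb) a = 0 := by
    rw [← g.eq_C_content_mul_primPart, ← hmap]
    exact hg
  rw [Polynomial.eval₂_mul, Polynomial.eval₂_C] at h2
  rcases mul_eq_zero.mp h2 with h | h
  · exact absurd (by simpa using h) hc
  · exact h

/-- A primitive integer polynomial does not vanish modulo a prime. -/
theorem map_ne_zero_of_isPrimitive (hp : p.Prime) {f : ℤ[X]} (hf : f.IsPrimitive) :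
    f.map (Int.castRingHom (ZMod p)) ≠ 0 := by
  intro h0
  have hdvd : C (p : ℤ) ∣ f := by
    rw [Polynomial.C_dvd_iff_dvd_coeff]
    intro i
    have hi : (f.map (Int.castRingHom (ZMod p))).coeff i = 0 := by rw [h0, coeff_zero]
    rw [Polynomial.coeff_map, eq_intCast] at hi
    exact (ZMod.intCast_zmod_eq_zero_iff_dvd _ p).mp hi
  have hu : IsUnit (p : ℤ) := hf _ hdvd
  have h1 : ((p : ℤ)).natAbs = 1 := Int.isUnit_iff_natAbs_eq.mp hu
  rw [Int.natAbs_natCast] at h1
  exact hp.one_lt.ne' h1

/-- Every element of the residue field is a root of a nonzero polynomial over `𝔽_p`. -/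
theorem exists_ne_zero_eval₂_eq_zero (hp : p.Prime) (hA : A.LiesOverPrime p)
    (c : IsLocalRing.ResidueField A) :
    haveI := charP_residueField hp hA
    ∃ f : (ZMod p)[X], f ≠ 0 ∧
      f.eval₂ (ZMod.castHom (dvd_refl p) (IsLocalRing.ResidueField A)) c = 0 := by
  have := charP_residueField hp hA
  obtain ⟨a, rfl⟩ := IsLocalRing.residue_surjective c
  obtain ⟨f, hprim, hf⟩ := exists_isPrimitive_eval₂_eq_zero (a : Qb)
  refine ⟨f.map (Int.castRingHom (ZMod p)), map_ne_zero_of_isPrimitive hp hprim, ?_⟩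
  have h1 : f.eval₂ (Int.castRingHom A) a = 0 := by
    apply Subtype.ext
    have h := Polynomial.hom_eval₂ f (Int.castRingHom A) A.subtype a
    have hcomp : A.subtype.comp (Int.castRingHom A) = Int.castRingHom Qb := RingHom.ext_int _ _
    rw [hcomp] at h
    exact h.trans hf
  have h2 := congrArg (IsLocalRing.residue A) h1
  rw [Polynomial.hom_eval₂, map_zero] at h2
  rw [Polynomial.eval₂_map]
  have hcomp : (IsLocalRing.residue A).comp (Int.castRingHom A) =
      (ZMod.castHom (dvd_refl p) (IsLocalRing.ResidueField A)).comp (Int.castRingHom (ZMod p)) :=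
    RingHom.ext_int _ _
  rw [← hcomp]
  exact h2

/-- Every nonzero element of the residue field of a valuation subring of `ℚ̄` over `p` has
finite multiplicative order. -/
theorem isOfFinOrder_residue (hp : p.Prime) (hA : A.LiesOverPrime p)
    {c : IsLocalRing.ResidueField A} (hc : c ≠ 0) : IsOfFinOrder c := by
  have : Fact p.Prime := ⟨hp⟩
  have := charP_residueField hp hA
  let _ : Algebra (ZMod p) (IsLocalRing.ResidueField A) :=
    (ZMod.castHom (dvd_refl p) (IsLocalRing.ResidueField A)).toAlgebra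
  obtain ⟨f, hf0, hf⟩ := exists_ne_zero_eval₂_eq_zero hp hA c
  have halg : IsAlgebraic (ZMod p) c := ⟨f, hf0, hf⟩
  have hint : IsIntegral (ZMod p) c := halg.isIntegral
  have : FiniteDimensional (ZMod p) (ZMod p)⟮c⟯ :=
    IntermediateField.adjoin.finiteDimensional hint
  have : Finite (ZMod p)⟮c⟯ := Module.finite_of_finite (ZMod p)
  have hmem : c ∈ (ZMod p)⟮c⟯ := IntermediateField.mem_adjoin_simple_self _ c
  have hx : (⟨c, hmem⟩ : (ZMod p)⟮c⟯) ≠ 0 := fun h => hc (congrArg Subtype.val h)
  have hfin : IsOfFinOrder (Units.mk0 (⟨c, hmem⟩ : (ZMod p)⟮c⟯) hx) := isOfFinOrder_of_finite _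
  obtain ⟨n, hn, hpow⟩ := isOfFinOrder_iff_pow_eq_one.mp hfin
  refine isOfFinOrder_iff_pow_eq_one.mpr ⟨n, hn, ?_⟩
  have h := congrArg
    (fun u : ((ZMod p)⟮c⟯)ˣ => (((u : (ZMod p)⟮c⟯)) : IsLocalRing.ResidueField A)) hpow
  simpa using h

/-- Core form of `(L.KAPPA)`. -/
theorem exists_pow_eq_one (hp : p.Prime) (hA : A.LiesOverPrime p)
    (c : IsLocalRing.ResidueField A) (hc : c ≠ 0) : ∃ n : ℕ, 0 < n ∧ c ^ n = 1 :=
  isOfFinOrder_iff_pow_eq_one.mp (isOfFinOrder_residue hp hA hc)

/-- Every element of the residue field is algebraic over `𝔽_p`, for any `ZMod p`-algebra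
structure on the residue field. -/
theorem isAlgebraic_residue (hp : p.Prime) (hA : A.LiesOverPrime p)
    [Algebra (ZMod p) (IsLocalRing.ResidueField A)] (c : IsLocalRing.ResidueField A) :
    IsAlgebraic (ZMod p) c := by
  have := charP_residueField hp hA
  obtain ⟨f, hf0, hf⟩ := exists_ne_zero_eval₂_eq_zero hp hA c
  refine ⟨f, hf0, ?_⟩
  rw [Polynomial.aeval_def]
  have hmap : algebraMap (ZMod p) (IsLocalRing.ResidueField A) =
      ZMod.castHom (dvd_refl p) (IsLocalRing.ResidueField A) := Subsingleton.elim _ _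
  rw [hmap]
  exact hf

/-- A root of unity of a field is a unit of every valuation subring. -/
theorem mem_valuationSubring_of_pow_eq_one {K : Type*} [Field K] (w : ValuationSubring K)
    {x : K} {n : ℕ} (hn : 0 < n) (h : x ^ n = 1) : x ∈ w ∧ x⁻¹ ∈ w := by
  have hmul : x * x ^ (n - 1) = 1 := by
    rw [← pow_succ', Nat.sub_add_cancel hn, h]
  have h1 : x⁻¹ = x ^ (n - 1) := inv_eq_of_mul_eq_one_right hmul
  have h2 : x = x⁻¹ ^ (n - 1) := by rw [inv_pow, ← h1, inv_inv]
  rcases w.mem_or_inv_mem x with hm | hm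
  · exact ⟨hm, by rw [h1]; exact pow_mem hm _⟩
  · exact ⟨by rw [h2]; exact pow_mem hm _, hm⟩

/-- The image of a nonzero residue constant under a ring homomorphism into a field is a unit
of every valuation subring of that field. -/
theorem map_mem_valuationSubring (hp : p.Prime) (hA : A.LiesOverPrime p) {K : Type*} [Field K]
    (φ : IsLocalRing.ResidueField A →+* K) (w : ValuationSubring K)
    {c : IsLocalRing.ResidueField A} (hc : c ≠ 0) : φ c ∈ w ∧ (φ c)⁻¹ ∈ w := by
  obtain ⟨n, hn, hpow⟩ := exists_pow_eq_one hp hA c hc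
  exact mem_valuationSubring_of_pow_eq_one w hn (by rw [← map_pow, hpow, map_one])

/-- A nonzero constant `C c` of a subfield of `κ((q))` is a unit of every valuation subring of
that subfield. -/
theorem unit_of_coe_eq_C (hp : p.Prime) (hA : A.LiesOverPrime p)
    {F : Subfield (LaurentSeries (IsLocalRing.ResidueField A))} (w : ValuationSubring F)
    (x : F) {c : IsLocalRing.ResidueField A} (hc : c ≠ 0)
    (hx : (x : LaurentSeries (IsLocalRing.ResidueField A)) = HahnSeries.C c) :
    x ∈ w ∧ x⁻¹ ∈ w := by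
  obtain ⟨n, hn, hpow⟩ := exists_pow_eq_one hp hA c hc
  refine mem_valuationSubring_of_pow_eq_one w hn (Subtype.ext ?_)
  show (x : LaurentSeries (IsLocalRing.ResidueField A)) ^ n = 1
  rw [hx, ← map_pow, hpow, map_one]

/-- **(L.KAPPA)** -/
theorem kappaStatement : Top.KappaStatement :=
  fun _ hp _ hA c hc => exists_pow_eq_one hp hA c hc

end Fermat.Agent.S44.L.Kappa
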