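import Mathlib
import Fermat.Agent.S44.H.Bricks
import Fermat.Agent.S36.QFormal
import Fermat.Agent.S44.L.Kappa
import Fermat.Prelude.Thm_ModularCurve_coeff_jqModC_neg_one

/-!
# PROGRAM MR (S44), strand L, row (L.RedSep) = (B) + (RS-b) (helper290)

`θ = q d/dq` maps the reduced function field `redField N A ⊆ κ((q))` into
`redField N A · θ(j̄)`; separability of the reduced field over `κ(j̄)` is taken from the
canonical strand-H literals `H.RedFinStatement` and `H.SepSeriesStatement` as hypotheses.

Level-free core (any field `Ω` with an additive Leibniz map `θ`, `k` a subfield):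
* `theta_one_eq_zero`, `theta_pow_succ`, `theta_inv_eq` : the calculus;
* `theta_aeval` : `θ (P(f)) = g τ + P'(f) θ f` for `P ∈ E[X]`, `E → k`, `θ E ⊆ k τ`;
* `theta_mem_mul` **(B)** : `k / E` separable algebraic and `θ E ⊆ k τ` give `θ k ⊆ k τ`
  (apply `θ` to the minimal polynomial; `P'(f) ≠ 0` by separability);
* `theta_mem_mul_adjoin` **(B′)** : the same for `E = κ₀(t)` (`IntermediateField.adjoin κ₀ {t}`,
  the shape of `H.SepSeriesStatement`), `θ κ₀ = 0`: `θ k ⊆ k θ(t)`.

Instance (`κ` the residue field of a valuation subring `A` of `ℚ̄` over `p`,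
`θ = S36.QFormal.theta`):
* `jqModC_ne_zero'`, `theta_jqModC_ne_zero`, `order_jqModC_eq`, `not_dvd_order_jqModC` :
  `j̄ ≠ 0`, `θ(j̄) ≠ 0`, `ord j̄ = -1`, `p ∤ ord j̄` (any field);
* `exists_pow_eq_residue` : every element of `κ` is a `p`-th power (`κ` is algebraic over
  `𝔽_p`, `Kappa.isAlgebraic_residue`) - the perfectness hypothesis of `H.SepSeriesStatement`;
* `theta_coe_redField`, `theta_redField`, `theta_div_theta_jqModC_mem` **(RS-b)** :
  `θ f = f' θ(j̄)` with `f' ∈ redField N A`, for `f ∈ redField N A`;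
* `exists_deriv_redField` : the derivation `d/dj̄` of `redField N A` (`θ f = D f · θ(j̄)`,
  additive, Leibniz, killing the constants).
-/

set_option autoImplicit false

open Polynomial

namespace Fermat.Agent.S44.L.RedSep

section Core

variable {Ω : Type*} [Field Ω] (θ : Ω →+ Ω) (hθ : ∀ x y : Ω, θ (x * y) = θ x * y + x * θ y)

include hθ

/-- A Leibniz map kills `1`. -/
theorem theta_one_eq_zero : θ 1 = 0 := by
  have h := hθ 1 1
  rw [mul_one, mul_one, one_mul] at h
  linear_combination -h

/-- The power rule. -/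
theorem theta_pow_succ (x : Ω) (n : ℕ) : θ (x ^ (n + 1)) = ((n + 1 : ℕ) : Ω) * x ^ n * θ x := by
  induction n with
  | zero => simp
  | succ n ih =>
    rw [pow_succ, hθ, ih]
    push_cast
    ring

/-- The inverse rule. -/
theorem theta_inv_eq (x : Ω) (hx : x ≠ 0) : θ x⁻¹ = -(x⁻¹ ^ 2 * θ x) := by
  have h := hθ x x⁻¹
  rw [mul_inv_cancel₀ hx, theta_one_eq_zero θ hθ] at h
  have h2 : x * θ x⁻¹ = -(θ x * x⁻¹) := by linear_combination -h
  calc θ x⁻¹ = x⁻¹ * (x * θ x⁻¹) := by rw [← mul_assoc, inv_mul_cancel₀ hx, one_mul]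
    _ = -(x⁻¹ ^ 2 * θ x) := by rw [h2]; ring

variable (k : Subfield Ω) {E : Type*} [Field E] [Algebra E k]

/-- `θ (P(f)) = g τ + P'(f) θ f` for a polynomial `P` over a field `E` mapping to `k`, as soon as
`θ` maps (the image of) `E` into `k τ`. -/
theorem theta_aeval (τ : Ω) (h₀ : ∀ e : E, ∃ c : k, θ ((algebraMap E k e : k) : Ω) = c * τ)
    (f : k) (P : E[X]) :
    ∃ g : k, θ ((aeval f P : k) : Ω)
      = g * τ + ((aeval f (derivative P) : k) : Ω) * θ (f : Ω) := by
  induction P using Polynomial.induction_on' with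
  | add P Q hP hQ =>
    obtain ⟨g₁, h₁⟩ := hP
    obtain ⟨g₂, h₂⟩ := hQ
    refine ⟨g₁ + g₂, ?_⟩
    rw [map_add, derivative_add, map_add]
    push_cast
    rw [map_add, h₁, h₂]
    ring
  | monomial n a =>
    obtain ⟨c, hc⟩ := h₀ a
    refine ⟨c * f ^ n, ?_⟩
    rw [aeval_monomial, derivative_monomial, aeval_monomial]
    push_cast
    rw [hθ, hc]
    rcases n with _ | n
    · simp [theta_one_eq_zero θ hθ]
    · rw [theta_pow_succ θ hθ]
      simp only [Nat.add_sub_cancel]
      push_cast
      ring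

/-- **(B)** If `k` is separable algebraic over (the image of) a field `E` and `θ` maps `E` into
`k τ`, then `θ` maps `k` into `k τ`. -/
theorem theta_mem_mul [Algebra.IsSeparable E k] (τ : Ω)
    (h₀ : ∀ e : E, ∃ c : k, θ ((algebraMap E k e : k) : Ω) = c * τ) (f : k) :
    ∃ f' : k, θ (f : Ω) = f' * τ := by
  have hsep : (minpoly E f).Separable := Algebra.IsSeparable.isSeparable E f
  obtain ⟨g, hg⟩ := theta_aeval θ hθ k τ h₀ f (minpoly E f)
  have hd : aeval f (derivative (minpoly E f)) ≠ 0 :=
    hsep.aeval_derivative_ne_zero (minpoly.aeval E f)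
  rw [minpoly.aeval] at hg
  set d : k := aeval f (derivative (minpoly E f)) with hd_def
  have hdΩ : (d : Ω) ≠ 0 := fun h => hd (Subtype.ext h)
  have h0 : θ ((0 : k) : Ω) = 0 := by simp
  rw [h0] at hg
  refine ⟨-(g / d), ?_⟩
  push_cast
  field_simp
  linear_combination -hg

/-- **(B′)** the same for `E = κ₀(t)`, `κ₀` a subfield of `k` killed by `θ`: `θ` maps `k` into
`k θ(t)`. -/
theorem theta_mem_mul_adjoin (κ₀ : Subfield k) (t : k)
    [Algebra.IsSeparable (IntermediateField.adjoin κ₀ {t}) k]
    (hκ₀ : ∀ c : k, c ∈ κ₀ → θ (c : Ω) = 0) (f : k) :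
    ∃ f' : k, θ (f : Ω) = f' * θ (t : Ω) := by
  refine theta_mem_mul θ hθ k (E := IntermediateField.adjoin κ₀ {t}) (θ (t : Ω)) ?_ f
  rintro ⟨e, he⟩
  show ∃ c : k, θ ((e : k) : Ω) = c * θ (t : Ω)
  induction he using IntermediateField.adjoin_induction with
  | mem x hx =>
    obtain rfl : x = t := hx
    exact ⟨1, by simp⟩
  | algebraMap x =>
    refine ⟨0, ?_⟩
    change θ ((x : k) : Ω) = ((0 : k) : Ω) * θ (t : Ω)
    rw [hκ₀ _ x.2]
    simp
  | add x y hx hy ihx ihy =>
    obtain ⟨a, ha⟩ := ihx
    obtain ⟨b, hb⟩ := ihy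
    exact ⟨a + b, by push_cast; rw [map_add, ha, hb]; ring⟩
  | inv x hx ih =>
    obtain ⟨a, ha⟩ := ih
    by_cases hx0 : x = 0
    · exact ⟨0, by simp [hx0]⟩
    · have hxΩ : (x : Ω) ≠ 0 := fun h => hx0 (Subtype.ext h)
      refine ⟨-(x⁻¹ ^ 2 * a), ?_⟩
      push_cast
      rw [theta_inv_eq θ hθ _ hxΩ, ha]
      ring
  | mul x y hx hy ihx ihy =>
    obtain ⟨a, ha⟩ := ihx
    obtain ⟨b, hb⟩ := ihy
    exact ⟨a * y + x * b, by push_cast; rw [hθ, ha, hb]; ring⟩

end Core

section Inst

open HahnSeries ModularCurve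
open Fermat.Agent.S30 Fermat.Agent.S30.Producer Fermat.Agent.S44.Contract
open Fermat.Agent.S36.QFormal

/-- `j̄ ≠ 0` over any field. -/
theorem jqModC_ne_zero' (κ : Type*) [Field κ] : jqModC κ ≠ 0 := by
  intro h
  have h1 : (jqModC κ).coeff (-1 : ℤ) = 1 := ModularCurve.coeff_jqModC_neg_one κ
  rw [h, HahnSeries.coeff_zero] at h1
  exact zero_ne_one h1

/-- `θ(j̄) ≠ 0` over any field (the coefficient of `q⁻¹` is `-1`). -/
theorem theta_jqModC_ne_zero (κ : Type*) [Field κ] : theta (jqModC κ) ≠ 0 := by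
  intro h
  have h1 : (theta (jqModC κ)).coeff (-1 : ℤ) = 0 := by rw [h, HahnSeries.coeff_zero]
  rw [coeff_theta, ModularCurve.coeff_jqModC_neg_one] at h1
  simp at h1

/-- `j̄` has order `-1` over any field. -/
theorem order_jqModC_eq (κ : Type*) [Field κ] : (jqModC κ).order = -1 := by
  have h1 : (jqModC κ).coeff (-1 : ℤ) ≠ 0 := by
    rw [ModularCurve.coeff_jqModC_neg_one]; exact one_ne_zero
  have hcoeff : ∀ n : ℤ, n < -1 → (jqModC κ).coeff n = 0 := by
    intro n hn
    rw [jqModC, HahnSeries.coeff_single_mul, ofPowerSeries_coeff_of_neg _ (by omega), mul_zero]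
  apply le_antisymm (HahnSeries.order_le_of_coeff_ne_zero h1)
  by_contra hlt
  rw [not_le] at hlt
  exact (HahnSeries.coeff_order_eq_zero.not.mpr (jqModC_ne_zero' κ)) (hcoeff _ hlt)

/-- A prime does not divide the order of `j̄`. -/
theorem not_dvd_order_jqModC (κ : Type*) [Field κ] {p : ℕ} (hp : p.Prime) :
    ¬ (p : ℤ) ∣ (jqModC κ).order := by
  rw [order_jqModC_eq, Int.dvd_neg]
  intro h
  have h2 : p ∣ 1 := Int.natCast_dvd_natCast.mp (by simpa using h)
  exact hp.one_lt.ne' (Nat.dvd_one.mp h2)

/-- The residue field of a valuation subring of `ℚ̄` over `p` is perfect: every element is a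
`p`-th power. -/
theorem exists_pow_eq_residue (p : ℕ) (hp : p.Prime) (A : ValuationSubring Qb)
    (hA : A.LiesOverPrime p) (c : IsLocalRing.ResidueField A) :
    ∃ d : IsLocalRing.ResidueField A, d ^ p = c := by
  have : Fact p.Prime := ⟨hp⟩
  have := Kappa.charP_residueField hp hA
  let _ : Algebra (ZMod p) (IsLocalRing.ResidueField A) := ZMod.algebra _ p
  have : Algebra.IsAlgebraic (ZMod p) (IsLocalRing.ResidueField A) :=
    ⟨fun c => Kappa.isAlgebraic_residue hp hA c⟩
  have : PerfectField (IsLocalRing.ResidueField A) :=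
    Algebra.IsAlgebraic.perfectField (K := ZMod p)
  have : PerfectRing (IsLocalRing.ResidueField A) p := PerfectField.toPerfectRing p
  obtain ⟨d, hd⟩ := surjective_frobenius (IsLocalRing.ResidueField A) p c
  exact ⟨d, by rw [← hd, frobenius_def]⟩

/-- **(RS-b)**, subtype form: `θ` maps the reduced function field into itself times `θ(j̄)`. -/
theorem theta_coe_redField (hFin : H.RedFinStatement) (hSep : H.SepSeriesStatement)
    (p N : ℕ) [NeZero N] (hp : p.Prime) (A : ValuationSubring Qb) (hA : A.LiesOverPrime p)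
    (f : redField N A) :
    ∃ f' : redField N A, theta (f : LaurentSeries (IsLocalRing.ResidueField A))
      = (f' : LaurentSeries (IsLocalRing.ResidueField A))
        * theta (jqModC (IsLocalRing.ResidueField A)) := by
  obtain ⟨κ₀, t, hκ₀, hC, ht, -, hfin⟩ := hFin p N hp A hA
  have := Kappa.charP_residueField hp hA
  have hsep := hSep (IsLocalRing.ResidueField A) p hp (exists_pow_eq_residue p hp A hA)
    (redField N A) κ₀ t hκ₀ hC (by rw [ht]; exact jqModC_ne_zero' _)
    (by rw [ht]; exact not_dvd_order_jqModC _ hp) (Algebra.IsAlgebraic.of_finite _ _)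
  have h := theta_mem_mul_adjoin theta theta_mul (redField N A) κ₀ t (fun c hc => by
    obtain ⟨a, ha⟩ := (hκ₀ c).mp hc
    rw [ha, theta_C]) f
  rwa [ht] at h

/-- **(RS-b)**, membership form. -/
theorem theta_redField (hFin : H.RedFinStatement) (hSep : H.SepSeriesStatement)
    (p N : ℕ) [NeZero N] (hp : p.Prime) (A : ValuationSubring Qb) (hA : A.LiesOverPrime p)
    (f : LaurentSeries (IsLocalRing.ResidueField A)) (hf : f ∈ redField N A) :
    ∃ f' ∈ redField N A, theta f = f' * theta (jqModC (IsLocalRing.ResidueField A)) := by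
  obtain ⟨f', h⟩ := theta_coe_redField hFin hSep p N hp A hA ⟨f, hf⟩
  exact ⟨f', f'.2, h⟩

/-- **(RS-b)**, quotient form: `θ f / θ(j̄)` lies in the reduced function field. -/
theorem theta_div_theta_jqModC_mem (hFin : H.RedFinStatement) (hSep : H.SepSeriesStatement)
    (p N : ℕ) [NeZero N] (hp : p.Prime) (A : ValuationSubring Qb) (hA : A.LiesOverPrime p)
    (f : LaurentSeries (IsLocalRing.ResidueField A)) (hf : f ∈ redField N A) :
    theta f / theta (jqModC (IsLocalRing.ResidueField A)) ∈ redField N A := by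
  obtain ⟨f', hf', h⟩ := theta_redField hFin hSep p N hp A hA f hf
  rw [h, mul_div_assoc, div_self (theta_jqModC_ne_zero _), mul_one]
  exact hf'

/-- **(RS-b)**, derivation form: `d/dj̄` on the reduced function field. -/
theorem exists_deriv_redField (hFin : H.RedFinStatement) (hSep : H.SepSeriesStatement)
    (p N : ℕ) [NeZero N] (hp : p.Prime) (A : ValuationSubring Qb) (hA : A.LiesOverPrime p) :
    ∃ D : redField N A →+ redField N A,
      (∀ f : redField N A, theta (f : LaurentSeries (IsLocalRing.ResidueField A))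
        = (D f : LaurentSeries (IsLocalRing.ResidueField A))
          * theta (jqModC (IsLocalRing.ResidueField A))) ∧
      (∀ x y : redField N A, D (x * y) = D x * y + x * D y) ∧
      (∀ c : IsLocalRing.ResidueField A, ∀ x : redField N A,
        (x : LaurentSeries (IsLocalRing.ResidueField A)) = HahnSeries.C c → D x = 0) := by
  have hτ := theta_jqModC_ne_zero (IsLocalRing.ResidueField A)
  have key : ∀ f : redField N A, ∀ g : redField N A,
      theta (f : LaurentSeries (IsLocalRing.ResidueField A))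
        = (g : LaurentSeries (IsLocalRing.ResidueField A))
          * theta (jqModC (IsLocalRing.ResidueField A)) →
      (g : LaurentSeries (IsLocalRing.ResidueField A))
        = theta (f : LaurentSeries (IsLocalRing.ResidueField A))
          / theta (jqModC (IsLocalRing.ResidueField A)) := by
    intro f g h
    rw [h, mul_div_assoc, div_self hτ, mul_one]
  choose D hD using theta_coe_redField hFin hSep p N hp A hA
  have hD' := fun f => key f (D f) (hD f)
  have hadd : ∀ x y : redField N A, D (x + y) = D x + D y := by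
    intro x y
    apply Subtype.ext
    push_cast
    rw [hD', hD', hD']
    push_cast
    rw [map_add, add_div]
  refine ⟨AddMonoidHom.mk' D hadd, hD, ?_, ?_⟩
  · intro x y
    show D (x * y) = D x * y + x * D y
    apply Subtype.ext
    push_cast
    rw [hD', hD', hD']
    push_cast
    rw [theta_mul]
    field_simp
  · intro c x hx
    show D x = 0
    apply Subtype.ext
    rw [hD', hx, theta_C]
    simp

end Inst

end Fermat.Agent.S44.L.RedSep
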