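import Mathlib

/-!
# PROGRAM MR (S44), strand L, row (NZ.a): the field-theoretic core (level-free, Mathlib only)

`Ω` a field of characteristic `p`, `φ` its Frobenius, `k ⊆ M ⊆ Ω` subfields with `k` perfect
(`φ k = k`), `J ∈ M` not a `p`-th power in `Ω`, and `M` finite over `k(J)`.  Then
`M ∩ φ(Ω) = φ(M)`: an element of `Ω` whose `p`-th power lies in `M` lies in `M`.
No separability of `M / k(J)` is assumed; the proof is a degree count
(`[M : φ M] = [k(J) : k(J^p)] = p`) with Mathlib's `Subfield.relfinrank`.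

* `relfinrank_closure_pow` : `[k(J) : k(J^p)] = p` when `J ∉ k(J^p)`;
* `relfinrank_ne_zero_of_dependent` : a uniform bound on the size of `k₁`-independent families
  in `M` makes `M` finite over `k₁`;
* `mem_of_pow_mem` : the statement above.
-/

set_option autoImplicit false

open Polynomial

namespace Fermat.Agent.S44.L.ThetaKerCore

variable {Ω : Type*} [Field Ω]

/-- A subfield `M` is finite over a subfield `k₁ ≤ M` as soon as any `d + 1` elements of `M`
are linearly dependent over `k₁`. -/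
theorem relfinrank_ne_zero_of_dependent (k₁ M : Subfield Ω) (hle : k₁ ≤ M) (d : ℕ)
    (hdep : ∀ s : Fin (d + 1) → Ω, (∀ i, s i ∈ M) → ∃ c : Fin (d + 1) → Ω,
      (∀ i, c i ∈ k₁) ∧ (∃ i, c i ≠ 0) ∧ ∑ i, c i * s i = 0) :
    k₁.relfinrank M ≠ 0 := by
  rw [Subfield.relfinrank_eq_finrank_of_le hle]
  have hrank : Module.rank ↥k₁ ↥(Subfield.extendScalars hle) ≤ (d : Cardinal) := by
    apply rank_le
    intro s hs
    by_contra hcard
    rw [not_le] at hcard
    obtain ⟨e⟩ : Nonempty (Fin (d + 1) ↪ ↥s) := by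
      apply Function.Embedding.nonempty_of_card_le
      rw [Fintype.card_fin, Fintype.card_coe]
      omega
    have hli := hs.comp e e.injective
    obtain ⟨c, hc1, ⟨i0, hi0⟩, hc⟩ :=
      hdep (fun i => (((e i : ↥s) : ↥(Subfield.extendScalars hle)) : Ω))
        (fun i => ((e i : ↥s) : ↥(Subfield.extendScalars hle)).2)
    rw [Fintype.linearIndependent_iff] at hli
    have h0 := hli (fun i => (⟨c i, hc1 i⟩ : ↥k₁)) (by
      apply Subtype.ext
      rw [AddSubmonoidClass.coe_finsetSum]
      refine (Finset.sum_congr rfl fun i _ => ?_).trans hc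
      rfl) i0
    exact hi0 (congrArg Subtype.val h0)
  have hfin : Module.Finite ↥k₁ ↥(Subfield.extendScalars hle) :=
    Module.rank_lt_aleph0_iff.1 (lt_of_le_of_lt hrank Cardinal.natCast_lt_aleph0)
  exact Module.finrank_pos.ne'

variable (p : ℕ) [Fact p.Prime] [CharP Ω p]

/-- The Frobenius image of a subfield lies in it. -/
theorem map_frobenius_le (M : Subfield Ω) : M.map (frobenius Ω p) ≤ M := by
  rintro x ⟨y, hy, rfl⟩
  rw [frobenius_def]
  exact pow_mem hy p

/-- `[k(J) : k(J^p)] = p` as soon as `J ∉ k(J^p)`. -/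
theorem relfinrank_closure_pow (k : Subfield Ω) (J : Ω)
    (hJ : J ∉ Subfield.closure ((k : Set Ω) ∪ {J ^ p})) :
    (Subfield.closure ((k : Set Ω) ∪ {J ^ p})).relfinrank
      (Subfield.closure ((k : Set Ω) ∪ {J})) = p := by
  have hp : p.Prime := Fact.out
  set kp := Subfield.closure ((k : Set Ω) ∪ {J ^ p}) with hkp
  set k1 := Subfield.closure ((k : Set Ω) ∪ {J}) with hk1
  have hk_kp : (k : Set Ω) ⊆ kp := fun x hx => Subfield.subset_closure (Or.inl hx)
  have hJp : J ^ p ∈ kp := Subfield.subset_closure (Or.inr rfl)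
  have hJ1 : J ∈ k1 := Subfield.subset_closure (Or.inr rfl)
  have hle : kp ≤ k1 := by
    rw [hkp, Subfield.closure_le]
    rintro x (hx | hx)
    · exact Subfield.subset_closure (Or.inl hx)
    · rw [Set.mem_singleton_iff] at hx
      rw [hx]
      exact pow_mem hJ1 p
  rw [Subfield.relfinrank_eq_finrank_of_le hle]
  have hEq : Subfield.extendScalars hle = IntermediateField.adjoin (↥kp) {J} := by
    apply le_antisymm
    · have h1 : k1 ≤ (IntermediateField.adjoin (↥kp) {J}).toSubfield := by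
        rw [hk1, Subfield.closure_le]
        rintro y (hy | hy)
        · exact (IntermediateField.adjoin (↥kp) {J}).algebraMap_mem ⟨y, hk_kp hy⟩
        · rw [Set.mem_singleton_iff] at hy
          rw [hy]
          exact IntermediateField.mem_adjoin_simple_self _ J
      intro x hx
      exact h1 hx
    · rw [IntermediateField.adjoin_simple_le_iff]
      exact hJ1
  rw [hEq]
  set a : ↥kp := ⟨J ^ p, hJp⟩ with ha
  have hirr : Irreducible (X ^ p - C a : (↥kp)[X]) := by
    apply X_pow_sub_C_irreducible_of_prime hp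
    intro b hb
    have h1 : (b : Ω) ^ p = J ^ p := by
      have h := congrArg (Subtype.val) hb
      simpa [ha] using h
    have h2 : (b : Ω) = J := by
      apply frobenius_inj Ω p
      rw [frobenius_def, frobenius_def]
      exact h1
    exact hJ (h2 ▸ b.2)
  have hroot : aeval J (X ^ p - C a : (↥kp)[X]) = 0 := by
    rw [map_sub, map_pow, aeval_X, aeval_C]
    show J ^ p - (a : Ω) = 0
    rw [ha]
    exact sub_self _
  have hmonic : (X ^ p - C a : (↥kp)[X]).Monic := monic_X_pow_sub_C a hp.ne_zero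
  have hmin := minpoly.eq_of_irreducible_of_monic hirr hroot hmonic
  have hint : IsIntegral (↥kp) J := ⟨_, hmonic, hroot⟩
  rw [IntermediateField.adjoin.finrank hint, ← hmin, natDegree_X_pow_sub_C]

/-- **Core of (NZ.a).**  `k ⊆ M ⊆ Ω` subfields in characteristic `p`, `k` perfect, `J ∈ M` not
a `p`-th power of `Ω`, `M` finite over `k(J)`.  Then every `h : Ω` with `h ^ p ∈ M` lies in
`M`. -/
theorem mem_of_pow_mem (k : Subfield Ω) (hk : k.map (frobenius Ω p) = k) (J : Ω)
    (hJ : ∀ x : Ω, x ^ p ≠ J) (M : Subfield Ω) (hkM : k ≤ M) (hJM : J ∈ M)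
    (hfin : (Subfield.closure ((k : Set Ω) ∪ {J})).relfinrank M ≠ 0)
    (h : Ω) (hh : h ^ p ∈ M) : h ∈ M := by
  have hp : p.Prime := Fact.out
  set φ := frobenius Ω p with hφ
  set k1 := Subfield.closure ((k : Set Ω) ∪ {J}) with hk1
  set kp := Subfield.closure ((k : Set Ω) ∪ {J ^ p}) with hkp
  have hmap : k1.map φ = kp := by
    rw [hk1, RingHom.map_field_closure, hkp, Set.image_union, Set.image_singleton]
    have h1 : (φ '' (k : Set Ω)) = (k : Set Ω) := by
      have h2 := congrArg (fun S : Subfield Ω => (S : Set Ω)) hk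
      simpa using h2
    rw [h1, hφ, frobenius_def]
  have hk1M : k1 ≤ M := by
    rw [hk1, Subfield.closure_le]
    rintro x (hx | hx)
    · exact hkM hx
    · rw [Set.mem_singleton_iff] at hx
      rw [hx]
      exact hJM
  have hJkp : J ∉ kp := by
    intro hJ'
    rw [← hmap] at hJ'
    obtain ⟨y, -, hy⟩ := hJ'
    rw [hφ, frobenius_def] at hy
    exact hJ y hy
  have h1 : kp.relfinrank k1 = p := relfinrank_closure_pow p k J hJkp
  have hkp1 : kp ≤ k1 := by
    rw [← hmap]
    exact map_frobenius_le p k1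
  set Mp := M.map φ with hMp
  have hMpM : Mp ≤ M := map_frobenius_le p M
  have hkpMp : kp ≤ Mp := by
    rw [← hmap]
    rintro x ⟨y, hy, rfl⟩
    exact ⟨y, hk1M hy, rfl⟩
  have h2 : kp.relfinrank Mp = k1.relfinrank M := by
    rw [← hmap]
    exact Subfield.relfinrank_map_map k1 M φ
  have t1 := Subfield.relfinrank_mul_relfinrank hkp1 hk1M
  have t2 := Subfield.relfinrank_mul_relfinrank hkpMp hMpM
  have h3 : Mp.relfinrank M = p := by
    rw [h1] at t1
    rw [h2] at t2
    have h4 : k1.relfinrank M * Mp.relfinrank M = k1.relfinrank M * p := by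
      rw [t2, ← t1, mul_comm]
    exact Nat.eq_of_mul_eq_mul_left (Nat.pos_of_ne_zero hfin) h4
  set K0 := M ⊓ φ.fieldRange with hK0
  have hMpK0 : Mp ≤ K0 := by
    refine le_inf hMpM ?_
    rintro x ⟨y, -, rfl⟩
    exact ⟨y, rfl⟩
  have hK0M : K0 ≤ M := inf_le_left
  have t3 := Subfield.relfinrank_mul_relfinrank hMpK0 hK0M
  rw [h3] at t3
  have hne1 : K0.relfinrank M ≠ 1 := by
    intro h1'
    have h5 := (Subfield.relfinrank_eq_one_iff.1 h1') hJM
    obtain ⟨y, hy⟩ := h5.2
    rw [hφ, frobenius_def] at hy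
    exact hJ y hy
  have hdvd : K0.relfinrank M ∣ p := Dvd.intro_left _ t3
  have hK0p : K0.relfinrank M = p := ((Nat.dvd_prime hp).1 hdvd).resolve_left hne1
  have hone : Mp.relfinrank K0 = 1 := by
    rw [hK0p] at t3
    have h6 : Mp.relfinrank K0 * p = 1 * p := by rw [t3, one_mul]
    exact Nat.eq_of_mul_eq_mul_right hp.pos h6
  have hK0Mp : K0 ≤ Mp := Subfield.relfinrank_eq_one_iff.1 hone
  have hmem : h ^ p ∈ K0 := ⟨hh, ⟨h, by rw [hφ, frobenius_def]⟩⟩
  obtain ⟨y, hyM, hy⟩ := hK0Mp hmem
  have hyh : y = h := by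
    apply frobenius_inj Ω p
    rw [← hφ, hy, hφ, frobenius_def]
  exact hyh ▸ hyM

end Fermat.Agent.S44.L.ThetaKerCore
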