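import Mathlib
import Fermat.Agent.S44.Contract
import Fermat.Agent.S44.L.Kappa
import Fermat.Agent.S44.L.ThetaKerCore
import Fermat.Agent.S24.Degree.Main
import Fermat.Agent.S41.NonEis.Basics
import Fermat.Prelude.Sol.S_ModularCurve_coeff_jqModC_neg_one

/-!
# PROGRAM MR (S44), strand L, row (NZ.a): `ker θ ∩ redField = (redField)^p`

`A` a valuation subring of `ℚ̄` over `p`, `κ` its residue field, `redField N A ⊆ κ((q))` the
reduced function field of level `N` (`Contract.redField`).

* `mem_redSet_of_mem_redField` / `redSet_eq` : **(S)** `redSet N A` is already a subfield: every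
  element of `redField N A` is a quotient `Ū / V̄` of reductions of integral `q`-series of `Fb N`.
* `exists_common_den` : finitely many elements of `redSet` have a common denominator.
* `exists_dependence` : **(F)** any `d + 1` elements of `redField N A`, `d = [Fb N : ℚ̄(j)]`, are
  linearly dependent over `κ[j̄]`, `j̄ = jqModC κ`  (`redField N A` is finite over `κ(j̄)`).
* `exists_pow_of_theta_eq_zero` : **(NZ.a)** `f ∈ redField N A` with `θ f = 0` is `g ^ p` with
  `g ∈ redField N A`.  No separability of the reduced curve over the `j`-line is used.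
-/

set_option autoImplicit false

open HahnSeries ModularCurve Polynomial

namespace Fermat.Agent.S44.L.ThetaKer

open Fermat.Agent.S30 Fermat.Agent.S44.Contract

local notation "Qb" => AlgebraicClosure ℚ

variable (N : ℕ) (A : ValuationSubring Qb)

local notation "κ" => IsLocalRing.ResidueField A

/-! ### (S): `redSet` is a subfield -/

theorem zero_mem_redSet : (0 : LaurentSeries κ) ∈ redSet N A :=
  ⟨0, 1, by rw [map_zero]; exact zero_mem _, by rw [map_one]; exact one_mem _,
    by rw [map_one]; exact one_ne_zero, by rw [map_zero, zero_mul]⟩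

theorem one_mem_redSet : (1 : LaurentSeries κ) ∈ redSet N A :=
  ⟨1, 1, by rw [map_one]; exact one_mem _, by rw [map_one]; exact one_mem _,
    by rw [map_one]; exact one_ne_zero, by rw [map_one, one_mul]⟩

theorem add_mem_redSet {φ ψ : LaurentSeries κ} (hφ : φ ∈ redSet N A) (hψ : ψ ∈ redSet N A) :
    φ + ψ ∈ redSet N A := by
  obtain ⟨U₁, V₁, hU₁, hV₁, h1, e1⟩ := hφ
  obtain ⟨U₂, V₂, hU₂, hV₂, h2, e2⟩ := hψ
  refine ⟨U₁ * V₂ + U₂ * V₁, V₁ * V₂, ?_, ?_, ?_, ?_⟩
  · rw [map_add, map_mul, map_mul]
    exact add_mem (mul_mem hU₁ hV₂) (mul_mem hU₂ hV₁)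
  · rw [map_mul]
    exact mul_mem hV₁ hV₂
  · rw [map_mul]
    exact mul_ne_zero h1 h2
  · rw [map_mul, map_add, map_mul, map_mul, ← e1, ← e2]
    ring

theorem neg_mem_redSet {φ : LaurentSeries κ} (hφ : φ ∈ redSet N A) : -φ ∈ redSet N A := by
  obtain ⟨U₁, V₁, hU₁, hV₁, h1, e1⟩ := hφ
  refine ⟨-U₁, V₁, ?_, hV₁, h1, ?_⟩
  · rw [map_neg]
    exact neg_mem hU₁
  · rw [map_neg, ← e1]
    ring

theorem mul_mem_redSet {φ ψ : LaurentSeries κ} (hφ : φ ∈ redSet N A) (hψ : ψ ∈ redSet N A) :
    φ * ψ ∈ redSet N A := by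
  obtain ⟨U₁, V₁, hU₁, hV₁, h1, e1⟩ := hφ
  obtain ⟨U₂, V₂, hU₂, hV₂, h2, e2⟩ := hψ
  refine ⟨U₁ * U₂, V₁ * V₂, ?_, ?_, ?_, ?_⟩
  · rw [map_mul]
    exact mul_mem hU₁ hU₂
  · rw [map_mul]
    exact mul_mem hV₁ hV₂
  · rw [map_mul]
    exact mul_ne_zero h1 h2
  · rw [map_mul, map_mul, ← e1, ← e2]
    ring

theorem inv_mem_redSet {φ : LaurentSeries κ} (hφ : φ ∈ redSet N A) : φ⁻¹ ∈ redSet N A := by
  obtain ⟨U₁, V₁, hU₁, hV₁, h1, e1⟩ := hφ
  by_cases hU0 : Congr.red A U₁ = 0
  · have hφ0 : φ = 0 := by
      rw [hU0] at e1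
      exact (mul_eq_zero.1 e1).resolve_right h1
    rw [hφ0, inv_zero]
    exact zero_mem_redSet N A
  · refine ⟨V₁, U₁, hV₁, hU₁, hU0, ?_⟩
    have hφ0 : φ ≠ 0 := by
      rintro rfl
      rw [zero_mul] at e1
      exact hU0 e1.symm
    rw [← e1, ← mul_assoc, inv_mul_cancel₀ hφ0, one_mul]

/-- **(S)** Every element of the reduced function field is a quotient of reductions. -/
theorem mem_redSet_of_mem_redField {φ : LaurentSeries κ} (hφ : φ ∈ redField N A) :
    φ ∈ redSet N A := by
  unfold redField at hφ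
  induction hφ using Subfield.closure_induction with
  | mem x hx => exact hx
  | one => exact one_mem_redSet N A
  | add x y _ _ hx hy => exact add_mem_redSet N A hx hy
  | neg x _ hx => exact neg_mem_redSet N A hx
  | inv x _ hx => exact inv_mem_redSet N A hx
  | mul x y _ _ hx hy => exact mul_mem_redSet N A hx hy

theorem redSet_eq : (redField N A : Set (LaurentSeries κ)) = redSet N A :=
  Set.Subset.antisymm (fun _ h => mem_redSet_of_mem_redField N A h)
    (fun _ h => Subfield.subset_closure h)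

/-! ### Constants and `j̄` -/

/-- `HahnSeries.C` is the algebra map of `LaurentSeries` (the two `Algebra` instances agree). -/
theorem C_eq_algebraMap' (L : Type*) [Field L] (c : L) :
    (HahnSeries.C c : LaurentSeries L) = algebraMap L (LaurentSeries L) c := by
  rw [ModularCurve.algebraMap_laurentSeries_eq_single]
  rfl

theorem incl_C (a : A) : Congr.incl A (HahnSeries.C a) = HahnSeries.C (a : Qb) := by
  show coeffMap A.subtype (HahnSeries.single 0 a) = _
  rw [coeffMap_single]
  rfl

theorem red_C (a : A) :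
    Congr.red A (HahnSeries.C a) = HahnSeries.C (IsLocalRing.residue A a) := by
  show coeffMap (IsLocalRing.residue A) (HahnSeries.single 0 a) = _
  rw [coeffMap_single]
  rfl

theorem incl_jqModC : Congr.incl A (jqModC A) = jqModC Qb := map_jqModC A.subtype

theorem red_jqModC : Congr.red A (jqModC A) = jqModC κ := map_jqModC (IsLocalRing.residue A)

theorem C_mem_Fb (c : Qb) : (HahnSeries.C c : LaurentSeries Qb) ∈ E4.Fb N := by
  rw [C_eq_algebraMap']
  exact (E4.Fb N).algebraMap_mem c

theorem jqModC_mem_Fb : jqModC Qb ∈ E4.Fb N := by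
  have h := (Fermat.Agent.S24.DegreeGen.jBar N).2
  have h2 : ((Fermat.Agent.S24.DegreeGen.jBar N : ↥(modularFunctionFieldBar N)) :
      LaurentSeries Qb) = jqModC Qb := by
    rw [Fermat.Agent.S24.DegreeGen.coe_jBar, ← jqModC_rat]
    exact map_jqModC (algebraMap ℚ Qb)
  rw [h2] at h
  exact h

theorem C_mem_redField (c : κ) : (HahnSeries.C c : LaurentSeries κ) ∈ redField N A := by
  obtain ⟨a, rfl⟩ := IsLocalRing.residue_surjective c
  refine Subfield.subset_closure ⟨HahnSeries.C a, 1, ?_, ?_, ?_, ?_⟩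
  · rw [incl_C]
    exact C_mem_Fb N _
  · rw [map_one]
    exact one_mem _
  · rw [map_one]
    exact one_ne_zero
  · rw [map_one, mul_one, red_C]

theorem jqModC_mem_redField : jqModC κ ∈ redField N A := by
  refine Subfield.subset_closure ⟨jqModC A, 1, ?_, ?_, ?_, ?_⟩
  · rw [incl_jqModC]
    exact jqModC_mem_Fb N
  · rw [map_one]
    exact one_mem _
  · rw [map_one]
    exact one_ne_zero
  · rw [map_one, mul_one, red_jqModC]

/-! ### Common denominators -/

/-- Finitely many elements of `redSet` have a common denominator. -/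
theorem exists_common_den {ι : Type*} [Fintype ι] [DecidableEq ι] (s : ι → LaurentSeries κ)
    (hs : ∀ i, s i ∈ redSet N A) :
    ∃ (V : LaurentSeries A) (U : ι → LaurentSeries A), Congr.incl A V ∈ E4.Fb N ∧
      (∀ i, Congr.incl A (U i) ∈ E4.Fb N) ∧ Congr.red A V ≠ 0 ∧
      ∀ i, s i * Congr.red A V = Congr.red A (U i) := by
  choose U₀ V₀ hU₀ hV₀ h0 e0 using hs
  refine ⟨∏ k, V₀ k, fun i => U₀ i * ∏ k ∈ Finset.univ.erase i, V₀ k, ?_, ?_, ?_, ?_⟩
  · rw [map_prod]
    exact prod_mem fun k _ => hV₀ k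
  · intro i
    rw [map_mul, map_prod]
    exact mul_mem (hU₀ i) (prod_mem fun k _ => hV₀ k)
  · rw [map_prod]
    exact Finset.prod_ne_zero_iff.2 fun k _ => h0 k
  · intro i
    rw [map_mul, ← e0 i, ← Finset.mul_prod_erase Finset.univ V₀ (Finset.mem_univ i), map_mul]
    ring

/-! ### (F): finiteness of the reduced field over `κ(j̄)` -/

/-- Finitely many elements of `ℚ̄`, not all zero, can be scaled into `A` with one of them
becoming `1`. -/
theorem exists_scale (S : Finset Qb) (hS : ∃ x ∈ S, x ≠ 0) :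
    ∃ c : Qb, c ≠ 0 ∧ (∀ x ∈ S, c * x ∈ A) ∧ ∃ x ∈ S, c * x = 1 := by
  obtain ⟨x1, hx1, hx1'⟩ := hS
  obtain ⟨x0, hx0, hmax⟩ := Finset.exists_max_image S A.valuation ⟨x1, hx1⟩
  have hx0' : x0 ≠ 0 := by
    rintro rfl
    have h := hmax x1 hx1
    rw [map_zero] at h
    exact hx1' ((A.valuation).zero_iff.1 (le_antisymm h zero_le'))
  refine ⟨x0⁻¹, inv_ne_zero hx0', fun x hx => ?_, x0, hx0, inv_mul_cancel₀ hx0'⟩
  rw [← A.valuation_le_one_iff, map_mul, map_inv₀]
  have hv0 : A.valuation x0 ≠ 0 := (A.valuation).ne_zero_iff.2 hx0'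
  rw [inv_mul_le_iff₀ (zero_lt_iff.2 hv0), mul_one]
  exact hmax x hx

theorem aeval_mem_closure (a : Polynomial κ) (J : LaurentSeries κ) :
    aeval J a ∈ Subfield.closure
      (((HahnSeries.C : κ →+* LaurentSeries κ).fieldRange : Set (LaurentSeries κ)) ∪ {J}) := by
  rw [aeval_eq_sum_range]
  refine sum_mem fun i _ => ?_
  rw [Algebra.smul_def, ← C_eq_algebraMap']
  have h1 : (HahnSeries.C (a.coeff i) : LaurentSeries κ) ∈ Subfield.closure
      (((HahnSeries.C : κ →+* LaurentSeries κ).fieldRange : Set (LaurentSeries κ)) ∪ {J}) :=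
    Subfield.subset_closure (Or.inl ⟨a.coeff i, rfl⟩)
  have h2 : J ∈ Subfield.closure
      (((HahnSeries.C : κ →+* LaurentSeries κ).fieldRange : Set (LaurentSeries κ)) ∪ {J}) :=
    Subfield.subset_closure (Or.inr rfl)
  exact mul_mem h1 (pow_mem h2 i)

open Fermat.Agent.S24.Modular in
/-- **(F)** Any `ψ(N) + 1` elements of the reduced function field of level `N` are linearly
dependent over `κ[j̄]`. -/
theorem exists_dependence [NeZero N] (s : Fin (dedekindPsi N + 1) → LaurentSeries κ)
    (hs : ∀ i, s i ∈ redSet N A) :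
    ∃ a : Fin (dedekindPsi N + 1) → Polynomial κ, (∃ i, a i ≠ 0) ∧
      ∑ i, aeval (jqModC κ) (a i) * s i = 0 := by
  classical
  obtain ⟨hfinite, hrank⟩ := Fermat.Agent.S24.Degree.finite_and_finrank_jF N
  obtain ⟨V, U, hV, hU, hV0, hsU⟩ := exists_common_den N A s hs
  let y : Fin (dedekindPsi N + 1) → FN N := fun i => ⟨Congr.incl A (U i), hU i⟩
  have hnli : ¬ LinearIndependent ↥(IntermediateField.adjoin Kbar {jF N}) y := by
    intro hli
    have h1 := hli.fintype_card_le_finrank
    rw [Fintype.card_fin, hrank] at h1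
    omega
  rw [Fintype.not_linearIndependent_iff] at hnli
  obtain ⟨g, hg, i0, hi0⟩ := hnli
  have hrt : ∀ i, ∃ r t : Polynomial Kbar, aeval (jF N) t ≠ 0 ∧
      ((g i : ↥(IntermediateField.adjoin Kbar {jF N})) : FN N) * aeval (jF N) t
        = aeval (jF N) r := by
    intro i
    obtain ⟨r, t, hrt⟩ := (IntermediateField.mem_adjoin_simple_iff Kbar _).1 (g i).2
    by_cases ht : aeval (jF N) t = 0
    · refine ⟨0, 1, ?_, ?_⟩
      · rw [map_one]
        exact one_ne_zero
      · rw [hrt, ht, div_zero, zero_mul, map_zero]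
    · exact ⟨r, t, ht, by rw [hrt, div_mul_cancel₀ _ ht]⟩
  choose r t ht hrt using hrt
  let P : Fin (dedekindPsi N + 1) → Polynomial Kbar :=
    fun i => r i * ∏ k ∈ Finset.univ.erase i, t k
  let T : FN N := ∏ k, aeval (jF N) (t k)
  have hT : T ≠ 0 := Finset.prod_ne_zero_iff.2 fun k _ => ht k
  have hP : ∀ i, aeval (jF N) (P i)
      = ((g i : ↥(IntermediateField.adjoin Kbar {jF N})) : FN N) * T := by
    intro i
    show aeval (jF N) (r i * ∏ k ∈ Finset.univ.erase i, t k) = _
    rw [map_mul, map_prod, ← hrt i, mul_assoc,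
      Finset.mul_prod_erase Finset.univ (fun k => aeval (jF N) (t k)) (Finset.mem_univ i)]
  have hrel : ∑ i, aeval (jF N) (P i) * y i = 0 := by
    have h1 : ∑ i, aeval (jF N) (P i) * y i = T * ∑ i, g i • y i := by
      rw [Finset.mul_sum]
      refine Finset.sum_congr rfl fun i _ => ?_
      rw [hP i, Algebra.smul_def]
      show _ = T * (((g i : ↥(IntermediateField.adjoin Kbar {jF N})) : FN N) * y i)
      ring
    rw [h1, hg, mul_zero]
  have hP0 : P i0 ≠ 0 := by
    intro h
    have h1 := hP i0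
    rw [h, map_zero] at h1
    rcases mul_eq_zero.1 h1.symm with h2 | h2
    · exact hi0 (Subtype.ext h2)
    · exact hT h2
  -- scale the coefficients into `A`
  let S : Finset Kbar := Finset.univ.biUnion fun i => (P i).coeffs
  have hS : ∃ x ∈ S, x ≠ 0 :=
    ⟨(P i0).leadingCoeff, Finset.mem_biUnion.2 ⟨i0, Finset.mem_univ _,
      Polynomial.coeff_mem_coeffs (leadingCoeff_ne_zero.2 hP0)⟩, leadingCoeff_ne_zero.2 hP0⟩
  obtain ⟨c, hc0, hcA, x0, hx0S, hx0⟩ := exists_scale A S hS
  have hlift : ∀ i, ∃ Q : Polynomial A, Q.map A.subtype = C c * P i := by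
    intro i
    have h1 : C c * P i ∈ Polynomial.lifts A.subtype := by
      rw [Polynomial.lifts_iff_coeff_lifts]
      intro n
      rw [coeff_C_mul]
      by_cases h0 : (P i).coeff n = 0
      · rw [h0, mul_zero]
        exact ⟨0, map_zero _⟩
      · exact ⟨⟨c * (P i).coeff n, hcA _ (Finset.mem_biUnion.2 ⟨i, Finset.mem_univ _,
          Polynomial.coeff_mem_coeffs h0⟩)⟩, rfl⟩
    exact (Polynomial.mem_lifts _).1 h1
  choose Q hQ using hlift
  have hcompI : (Congr.incl A).comp (HahnSeries.C : A →+* LaurentSeries A)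
      = (HahnSeries.C : Qb →+* LaurentSeries Qb).comp A.subtype :=
    RingHom.ext fun a => incl_C A a
  have hcompR : (Congr.red A).comp (HahnSeries.C : A →+* LaurentSeries A)
      = (algebraMap κ (LaurentSeries κ)).comp (IsLocalRing.residue A) :=
    RingHom.ext fun a => by
      rw [RingHom.comp_apply, red_C, RingHom.comp_apply, C_eq_algebraMap']
  have hjF : ((jF N : FN N) : LaurentSeries Qb) = jqModC Qb := by
    show ((Fermat.Agent.S24.DegreeGen.jBar N : ↥(modularFunctionFieldBar N)) :
      LaurentSeries Qb) = jqModC Qb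
    rw [Fermat.Agent.S24.DegreeGen.coe_jBar, ← jqModC_rat]
    exact map_jqModC (algebraMap ℚ Qb)
  have hterm : ∀ i, Congr.incl A ((Q i).eval₂ (HahnSeries.C : A →+* LaurentSeries A) (jqModC A)
      * U i) = HahnSeries.C c * (((aeval (jF N) (P i) * y i : FN N)) : LaurentSeries Qb) := by
    intro i
    rw [map_mul, Polynomial.hom_eval₂, incl_jqModC, hcompI, ← Polynomial.eval₂_map, hQ i,
      Polynomial.eval₂_mul, Polynomial.eval₂_C]
    have hC : (HahnSeries.C : Qb →+* LaurentSeries Qb) = algebraMap Qb (LaurentSeries Qb) :=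
      RingHom.ext fun c => C_eq_algebraMap' Qb c
    have h1 : ((aeval (jF N) (P i) : FN N) : LaurentSeries Qb)
        = (P i).eval₂ (HahnSeries.C : Qb →+* LaurentSeries Qb) (jqModC Qb) := by
      rw [hC, ← Polynomial.aeval_def, ← hjF]
      exact (Polynomial.aeval_algHom_apply (modularFunctionFieldBar N).val (jF N) (P i)).symm
    rw [MulMemClass.coe_mul, h1, mul_assoc]
  have key : ∑ i, (Q i).eval₂ (HahnSeries.C : A →+* LaurentSeries A) (jqModC A) * U i = 0 := by
    apply Congr.incl_injective A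
    rw [map_sum, map_zero, Finset.sum_congr rfl fun i _ => hterm i, ← Finset.mul_sum]
    have h1 : ∑ i, (((aeval (jF N) (P i) * y i : FN N)) : LaurentSeries Qb)
        = ((∑ i, aeval (jF N) (P i) * y i : FN N) : LaurentSeries Qb) :=
      (AddSubmonoidClass.coe_finsetSum _ _).symm
    rw [h1, hrel]
    exact mul_zero _
  have key2 := congrArg (Congr.red A) key
  rw [map_sum, map_zero] at key2
  let a : Fin (dedekindPsi N + 1) → Polynomial κ := fun i => (Q i).map (IsLocalRing.residue A)
  have hterm2 : ∀ i, Congr.red A ((Q i).eval₂ (HahnSeries.C : A →+* LaurentSeries A) (jqModC A)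
      * U i) = aeval (jqModC κ) (a i) * s i * Congr.red A V := by
    intro i
    rw [map_mul, Polynomial.hom_eval₂, red_jqModC, ← hsU i, hcompR, ← Polynomial.eval₂_map,
      ← Polynomial.aeval_def]
    ring
  rw [Finset.sum_congr rfl fun i _ => hterm2 i, ← Finset.sum_mul] at key2
  refine ⟨a, ?_, (mul_eq_zero.1 key2).resolve_right hV0⟩
  obtain ⟨i1, -, hx0mem⟩ := Finset.mem_biUnion.1 hx0S
  obtain ⟨n, -, hn⟩ := Polynomial.mem_coeffs_iff.1 hx0mem
  refine ⟨i1, fun h => ?_⟩
  have h1 : (Q i1).coeff n = 1 := by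
    apply Subtype.ext
    have h2 := congrArg (fun q : Polynomial Qb => q.coeff n) (hQ i1)
    simp only [coeff_map, coeff_C_mul] at h2
    rw [← hn, hx0] at h2
    exact h2
  have h3 : (a i1).coeff n = 1 := by
    show ((Q i1).map (IsLocalRing.residue A)).coeff n = 1
    rw [Polynomial.coeff_map, h1, map_one]
  rw [h, Polynomial.coeff_zero] at h3
  exact zero_ne_one h3

/-! ### The exit -/

/-- **(NZ.a)** An element of the reduced function field of level `N` killed by `θ = q d/dq` is
a `p`-th power in the reduced function field.  (`hθ` is the negation of the conclusion of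
`Top.NZStatement`.) -/
theorem exists_pow_of_theta_eq_zero (p N : ℕ) [NeZero N] (hp : p.Prime) (A : ValuationSubring Qb)
    (hA : A.LiesOverPrime p) (f : redField N A)
    (hθ : ∀ n : ℤ, (n : IsLocalRing.ResidueField A)
      * (f : LaurentSeries (IsLocalRing.ResidueField A)).coeff n = 0) :
    ∃ g : redField N A, f = g ^ p := by
  haveI : Fact p.Prime := ⟨hp⟩
  haveI : CharP (IsLocalRing.ResidueField A) p := Kappa.charP_residueField hp hA
  haveI : IsAlgClosed (IsLocalRing.ResidueField A) :=
    Fermat.Agent.S41.NonEis.Basics.isAlgClosed_residueField A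
  haveI : CharP (LaurentSeries (IsLocalRing.ResidueField A)) p :=
    charP_of_injective_algebraMap
      (algebraMap (IsLocalRing.ResidueField A) (LaurentSeries (IsLocalRing.ResidueField A))).injective p
  have hpdvd : ∀ n : ℤ, ¬ (p : ℤ) ∣ n →
      (f : LaurentSeries (IsLocalRing.ResidueField A)).coeff n = 0 := by
    intro n hn
    have h1 : (n : IsLocalRing.ResidueField A) ≠ 0 :=
      fun h0 => hn ((CharP.intCast_eq_zero_iff (IsLocalRing.ResidueField A) p n).1 h0)
    exact (mul_eq_zero.1 (hθ n)).resolve_left h1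
  set y := Congr.contract p hp.pos (f : LaurentSeries (IsLocalRing.ResidueField A)) with hy
  have hexp : Congr.expand p hp.pos y = f := Congr.expand_contract p hp.pos _ hpdvd
  set h := coeffMap ((frobeniusEquiv (IsLocalRing.ResidueField A) p).symm :
    IsLocalRing.ResidueField A →+* IsLocalRing.ResidueField A) y with hh
  have hfrob : coeffMap (frobenius (IsLocalRing.ResidueField A) p) h = y := by
    rw [hh, coeffMap_coeffMap]
    have h1 : (frobenius (IsLocalRing.ResidueField A) p).comp
        ((frobeniusEquiv (IsLocalRing.ResidueField A) p).symm :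
          IsLocalRing.ResidueField A →+* IsLocalRing.ResidueField A)
        = RingHom.id (IsLocalRing.ResidueField A) :=
      RingHom.ext fun x => frobenius_apply_frobeniusEquiv_symm _ p x
    rw [h1, coeffMap_id]
  have hpow : h ^ p = (f : LaurentSeries (IsLocalRing.ResidueField A)) := by
    rw [← Congr.expand_coeffMap_frobenius p hp.pos h, hfrob, hexp]
  have hmem : h ∈ redField N A := by
    refine ThetaKerCore.mem_of_pow_mem p
      (HahnSeries.C : IsLocalRing.ResidueField A →+*
        LaurentSeries (IsLocalRing.ResidueField A)).fieldRange ?_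
      (jqModC (IsLocalRing.ResidueField A)) ?_ (redField N A) ?_ (jqModC_mem_redField N A) ?_ h
      (hpow ▸ f.2)
    · ext x
      constructor
      · rintro ⟨_, ⟨c, rfl⟩, rfl⟩
        exact ⟨c ^ p, by rw [frobenius_def, map_pow]⟩
      · rintro ⟨c, rfl⟩
        refine ⟨HahnSeries.C ((frobeniusEquiv (IsLocalRing.ResidueField A) p).symm c),
          ⟨_, rfl⟩, ?_⟩
        rw [frobenius_def, ← map_pow, frobeniusEquiv_symm_pow_p]
    · intro x hx
      have h1 : (x ^ p).coeff (-1) = 0 := by
        rw [← Congr.expand_coeffMap_frobenius p hp.pos x]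
        refine Congr.coeff_expand_of_not_dvd p hp.pos _ ?_
        intro hdvd
        have h2 : (p : ℤ) ∣ ((1 : ℕ) : ℤ) := by
          rw [Nat.cast_one]
          exact (Int.dvd_neg).1 hdvd
        exact hp.one_lt.ne' (Nat.dvd_one.1 (Int.natCast_dvd_natCast.1 h2))
      rw [hx, P2MW.S_ModularCurve_coeff_jqModC_neg_one.solution] at h1
      exact one_ne_zero h1
    · rintro _ ⟨c, rfl⟩
      exact C_mem_redField N A c
    · refine ThetaKerCore.relfinrank_ne_zero_of_dependent _ _ ?_ (dedekindPsi N) ?_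
      · rw [Subfield.closure_le]
        rintro x (⟨c, rfl⟩ | hx)
        · exact C_mem_redField N A c
        · rw [Set.mem_singleton_iff] at hx
          rw [hx]
          exact jqModC_mem_redField N A
      · intro s hs
        obtain ⟨a, ⟨i0, hi0⟩, ha⟩ :=
          exists_dependence N A s (fun i => mem_redSet_of_mem_redField N A (hs i))
        exact ⟨fun i => aeval (jqModC (IsLocalRing.ResidueField A)) (a i),
          fun i => aeval_mem_closure A (a i) _,
          ⟨i0, fun h0 => hi0
            (P2MW.S_ModularCurve_coeff_jqModC_neg_one.ModularCurve.CharLRows.aeval_jqModC_eq_zero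
              _ h0)⟩, ha⟩
  exact ⟨⟨h, hmem⟩, Subtype.ext hpow.symm⟩

/-- Contrapositive consumer form for `Top.NZStatement`: an element of the reduced function
field which is not a `p`-th power there has `θ f ≠ 0`. -/
theorem exists_coeff_ne_zero_of_not_pow (p N : ℕ) [NeZero N] (hp : p.Prime)
    (A : ValuationSubring Qb) (hA : A.LiesOverPrime p) (f : redField N A)
    (hf : ∀ g : redField N A, f ≠ g ^ p) :
    ∃ n : ℤ, (n : IsLocalRing.ResidueField A)
      * (f : LaurentSeries (IsLocalRing.ResidueField A)).coeff n ≠ 0 := by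
  by_contra h
  push_neg at h
  obtain ⟨g, hg⟩ := exists_pow_of_theta_eq_zero p N hp A hA f h
  exact hf g hg

end Fermat.Agent.S44.L.ThetaKer
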