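import Mathlib
import Fermat.Agent.S44.H.Bricks
import Fermat.Agent.S44.L.ThetaKer

/-!
# PROGRAM MR (S44): `H.RedFinStatement` from the dependence form `ThetaKer.exists_dependence`

`redFinStatement : H.RedFinStatement` — the reduced function field `redField N A` contains the
constants and `j̄`, its field of constants `κ₀` is infinite, and it is finite-dimensional over
`κ₀(j̄)`.  Pure packaging of `ThetaKer.exists_dependence` (any `ψ(N) + 1` elements are dependent
over `κ[j̄]`), `ThetaKer.C_mem_redField`, `ThetaKer.jqModC_mem_redField`.
-/

set_option autoImplicit false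

open HahnSeries ModularCurve Polynomial

namespace Fermat.Agent.S44.L.ThetaKerFin

open Fermat.Agent.S30 Fermat.Agent.S44.Contract Fermat.Agent.S44.L.ThetaKer

local notation "Qb" => AlgebraicClosure ℚ

variable (N : ℕ) (A : ValuationSubring Qb)

local notation "κ" => IsLocalRing.ResidueField A

/-- The subfield of constants of the reduced function field. -/
noncomputable def constSub : Subfield (redField N A) :=
  (HahnSeries.C : κ →+* LaurentSeries κ).fieldRange.comap (redField N A).subtype

theorem mem_constSub (x : redField N A) :
    x ∈ constSub N A ↔ ∃ c : κ, (x : LaurentSeries κ) = HahnSeries.C c := by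
  constructor
  · rintro ⟨c, hc⟩
    exact ⟨c, hc.symm⟩
  · rintro ⟨c, hc⟩
    exact ⟨c, hc.symm⟩

/-- The constant `c` as an element of the field of constants. -/
noncomputable def constHom : κ →+* constSub N A where
  toFun c := ⟨⟨HahnSeries.C c, C_mem_redField N A c⟩, ⟨c, rfl⟩⟩
  map_one' := by
    apply Subtype.ext
    apply Subtype.ext
    exact map_one _
  map_mul' a b := by
    apply Subtype.ext
    apply Subtype.ext
    exact map_mul _ a b
  map_zero' := by
    apply Subtype.ext
    apply Subtype.ext
    exact map_zero _
  map_add' a b := by
    apply Subtype.ext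
    apply Subtype.ext
    exact map_add _ a b

theorem coe_constHom (c : κ) :
    (((constHom N A c : constSub N A) : redField N A) : LaurentSeries κ) = HahnSeries.C c := rfl

/-- `j̄` as an element of the reduced function field. -/
noncomputable def jRed : redField N A := ⟨jqModC κ, jqModC_mem_redField N A⟩

/-- Evaluation of a polynomial with constant coefficients at `j̄`, inside `redField N A`. -/
theorem coe_aeval_jRed (a : Polynomial κ) :
    ((aeval (jRed N A) (a.map (constHom N A)) : redField N A) : LaurentSeries κ)
      = aeval (jqModC κ) a := by
  have h1 : ((aeval (jRed N A) (a.map (constHom N A)) : redField N A) : LaurentSeries κ)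
      = (redField N A).subtype (aeval (jRed N A) (a.map (constHom N A))) := rfl
  rw [h1, aeval_def, Polynomial.hom_eval₂, Polynomial.eval₂_map, aeval_def]
  congr 1
  refine RingHom.ext fun c => ?_
  show (((constHom N A c : constSub N A) : redField N A) : LaurentSeries κ) = _
  rw [coe_constHom, C_eq_algebraMap']

/-- **`H.RedFinStatement`.** -/
theorem redFinStatement : Fermat.Agent.S44.H.RedFinStatement := by
  intro p N _ hp A hA
  classical
  haveI : IsAlgClosed (IsLocalRing.ResidueField A) :=
    Fermat.Agent.S41.NonEis.Basics.isAlgClosed_residueField A
  refine ⟨constSub N A, jRed N A, mem_constSub N A, C_mem_redField N A, rfl, ?_, ?_⟩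
  · exact Infinite.of_injective (constHom N A) (constHom N A).injective
  · have hrank : Module.rank ↥(IntermediateField.adjoin (constSub N A) {jRed N A}) (redField N A)
        ≤ ((dedekindPsi N : ℕ) : Cardinal) := by
      apply rank_le
      intro s hs
      by_contra hcard
      rw [not_le] at hcard
      obtain ⟨e⟩ : Nonempty (Fin (dedekindPsi N + 1) ↪ ↥s) := by
        apply Function.Embedding.nonempty_of_card_le
        rw [Fintype.card_fin, Fintype.card_coe]
        omega
      have hli := hs.comp e e.injective
      obtain ⟨a, ⟨i0, hi0⟩, ha⟩ := exists_dependence N A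
        (fun i => (((e i : ↥s) : redField N A) : LaurentSeries (IsLocalRing.ResidueField A)))
        (fun i => mem_redSet_of_mem_redField N A ((e i : ↥s) : redField N A).2)
      rw [Fintype.linearIndependent_iff] at hli
      have hmem : ∀ i, aeval (jRed N A) ((a i).map (constHom N A))
          ∈ IntermediateField.adjoin (constSub N A) {jRed N A} := fun i =>
        IntermediateField.algebra_adjoin_le_adjoin _ _
          (Polynomial.aeval_mem_adjoin_singleton _ _)
      have h0 := hli (fun i => ⟨aeval (jRed N A) ((a i).map (constHom N A)), hmem i⟩) (by
        apply Subtype.ext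
        rw [AddSubmonoidClass.coe_finsetSum]
        refine (Finset.sum_congr rfl fun i _ => ?_).trans (ha.trans rfl)
        show ((aeval (jRed N A) ((a i).map (constHom N A)) : redField N A) :
          LaurentSeries (IsLocalRing.ResidueField A)) * _ = _
        rw [coe_aeval_jRed]
        rfl) i0
      have h1 := congrArg (fun x : ↥(IntermediateField.adjoin (constSub N A) {jRed N A}) =>
        (((x : redField N A)) : LaurentSeries (IsLocalRing.ResidueField A))) h0
      simp only at h1
      rw [coe_aeval_jRed] at h1
      exact hi0
        (P2MW.S_ModularCurve_coeff_jqModC_neg_one.ModularCurve.CharLRows.aeval_jqModC_eq_zero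
          _ h1)
    haveI hfree : Module.Free ↥(IntermediateField.adjoin (constSub N A) {jRed N A})
        (redField N A) := Module.Free.of_divisionRing _ _
    exact Module.rank_lt_aleph0_iff.1 (lt_of_le_of_lt hrank Cardinal.natCast_lt_aleph0)

end Fermat.Agent.S44.L.ThetaKerFin
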