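import Mathlib
import Fermat.Agent.S44.L.RedSep
import Fermat.Agent.S44.L.ThetaKerFin
import Fermat.Agent.S44.H.SepSeries

/-!
# PROGRAM MR (S44), strand L, row (L.RedSep): the unconditional instance (helper290)

`RedSep.lean` proves (RS-b) from the two strand-H literals `H.RedFinStatement` and
`H.SepSeriesStatement`.  Both are theorems (`ThetaKerFin.redFinStatement`,
`H.SepSeries.sepSeries`), so here are the unconditional forms, for a valuation subring `A` of
`ℚ̄` over a prime `p`, any level `N ≠ 0`, `κ` the residue field of `A`:

* `finiteDimensional_redField`, `isSeparable_redField` : the reduced function field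
  `redField N A` is finite and separable over `κ₀(j̄)` (`κ₀ = ThetaKerFin.constSub N A` the
  constants, `j̄ = ThetaKerFin.jRed N A`);
* `theta_redField`, `theta_coe_redField`, `theta_div_theta_jqModC_mem` **(RS-b)** :
  `θ f = f' θ(j̄)` with `f' ∈ redField N A` for `f ∈ redField N A`;
* `exists_deriv_redField` : the derivation `d/dj̄` of `redField N A`.
-/

set_option autoImplicit false

open HahnSeries ModularCurve

namespace Fermat.Agent.S44.L.RedSepInst

open Fermat.Agent.S30 Fermat.Agent.S30.Producer Fermat.Agent.S44.Contract
open Fermat.Agent.S36.QFormal Fermat.Agent.S44.L.ThetaKerFin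

variable {p : ℕ} (N : ℕ) [NeZero N] (hp : p.Prime) (A : ValuationSubring Qb)
  (hA : A.LiesOverPrime p)

include hp hA

/-- The reduced function field is finite over `κ₀(j̄)`, with the explicit witnesses of
`ThetaKerFin`. -/
theorem finiteDimensional_redField :
    FiniteDimensional (IntermediateField.adjoin (constSub N A) {jRed N A}) (redField N A) := by
  obtain ⟨κ₀, t, hκ₀, -, ht, -, hfin⟩ := redFinStatement p N hp A hA
  have h1 : κ₀ = constSub N A :=
    Subfield.ext fun x => (hκ₀ x).trans (mem_constSub N A x).symm
  have h2 : t = jRed N A := Subtype.ext ht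
  subst h1 h2
  exact hfin

/-- The reduced function field is separable over `κ₀(j̄)`. -/
theorem isSeparable_redField :
    Algebra.IsSeparable (IntermediateField.adjoin (constSub N A) {jRed N A}) (redField N A) := by
  have := Kappa.charP_residueField hp hA
  have := finiteDimensional_redField N hp A hA
  exact Fermat.Agent.S44.H.SepSeries.sepSeries (IsLocalRing.ResidueField A) p hp
    (RedSep.exists_pow_eq_residue p hp A hA) (redField N A) (constSub N A) (jRed N A)
    (mem_constSub N A) (ThetaKer.C_mem_redField N A) (RedSep.jqModC_ne_zero' _)
    (RedSep.not_dvd_order_jqModC _ hp) (Algebra.IsAlgebraic.of_finite _ _)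

/-- **(RS-b)**, subtype form, unconditional. -/
theorem theta_coe_redField (f : redField N A) :
    ∃ f' : redField N A, theta (f : LaurentSeries (IsLocalRing.ResidueField A))
      = (f' : LaurentSeries (IsLocalRing.ResidueField A))
        * theta (jqModC (IsLocalRing.ResidueField A)) :=
  RedSep.theta_coe_redField redFinStatement Fermat.Agent.S44.H.SepSeries.sepSeries p N hp A hA f

/-- **(RS-b)**, membership form, unconditional. -/
theorem theta_redField (f : LaurentSeries (IsLocalRing.ResidueField A))
    (hf : f ∈ redField N A) :
    ∃ f' ∈ redField N A, theta f = f' * theta (jqModC (IsLocalRing.ResidueField A)) :=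
  RedSep.theta_redField redFinStatement Fermat.Agent.S44.H.SepSeries.sepSeries p N hp A hA f hf

/-- **(RS-b)**, quotient form, unconditional. -/
theorem theta_div_theta_jqModC_mem (f : LaurentSeries (IsLocalRing.ResidueField A))
    (hf : f ∈ redField N A) :
    theta f / theta (jqModC (IsLocalRing.ResidueField A)) ∈ redField N A :=
  RedSep.theta_div_theta_jqModC_mem redFinStatement Fermat.Agent.S44.H.SepSeries.sepSeries
    p N hp A hA f hf

/-- **(RS-b)**, derivation form, unconditional: `d/dj̄` on the reduced function field. -/
theorem exists_deriv_redField :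
    ∃ D : redField N A →+ redField N A,
      (∀ f : redField N A, theta (f : LaurentSeries (IsLocalRing.ResidueField A))
        = (D f : LaurentSeries (IsLocalRing.ResidueField A))
          * theta (jqModC (IsLocalRing.ResidueField A))) ∧
      (∀ x y : redField N A, D (x * y) = D x * y + x * D y) ∧
      (∀ c : IsLocalRing.ResidueField A, ∀ x : redField N A,
        (x : LaurentSeries (IsLocalRing.ResidueField A)) = HahnSeries.C c → D x = 0) :=
  RedSep.exists_deriv_redField redFinStatement Fermat.Agent.S44.H.SepSeries.sepSeries p N hp A hA

end Fermat.Agent.S44.L.RedSepInst
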