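import Mathlib
import Fermat.Agent.S44.L.Top

/-!
# PROGRAM MR (S44), strand L: the formal top assembly

`lStatement_of_top : Top.TopAssembly`, i.e.

  `RedStatement → HeckeStatement → KappaStatement → HDivStatement → SlopeStatement →
     NZStatement → Contract.LStatement`.

Everything here is formal (helper37, after the sketch of MR RULING #2):

* `PDivAt` is closed under products, inverses, integer powers; `p`-th powers and units of `w`
  satisfy it; `PDivAt p w (f ^ e)` with `p ∤ e` gives `PDivAt p w f`;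
* `RedAt` is multiplicative, constants reduce to `1`, and the reduction is unique up to a
  nonzero constant of the residue field (`redAt_unique`);
* `heckeHom` : the multiplicative Hecke operator `E4.heckeFb N ℓ` as a monoid-with-zero
  homomorphism of `FN N` (for `ℓ` prime, `ℓ ∤ N`);
* the Eisenstein step `pDivAt_eis`: with `G = x^m D^(-δ)`, comparing the two reductions of
  `T_ℓ G` gives `PDivAt p w (D̄ ^ (δ (ℓ + 1 - a)))` at every finite `w`;
* the assembly: at the place of `SlopeStatement` where `D̄` is not `PDivAt`, `p ∣ δ (ℓ + 1 - a)`,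
  the non-Eisenstein prime gives `p ∣ δ`, hence `PDivAt p w f` at every finite `w`
  (`p ∤ m`); cusps by `SlopeStatement`; `θ f ≠ 0` by `NZStatement`; the Hecke relation by
  `HeckeStatement`.
-/

set_option autoImplicit false

open HahnSeries ModularCurve AlgebraicCurve

namespace Fermat.Agent.S44.L.TopProof

open Fermat.Agent.S30 Fermat.Agent.S30.Producer Fermat.Agent.S44.Contract
open Fermat.Agent.S44.L.Top

/-! ### `PDivAt` -/

section PDiv

variable {K : Type*} [Field K]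

theorem pDivAt_of_unit (p : ℕ) (w : ValuationSubring K) {u : K} (hu : u ∈ w) (hu' : u⁻¹ ∈ w) :
    PDivAt p w u :=
  ⟨u, 1, by rw [one_pow, mul_one], hu, hu'⟩

theorem pDivAt_one (p : ℕ) (w : ValuationSubring K) : PDivAt p w (1 : K) :=
  pDivAt_of_unit p w w.one_mem (by rw [inv_one]; exact w.one_mem)

theorem pDivAt_pow_self (p : ℕ) (w : ValuationSubring K) (h : K) : PDivAt p w (h ^ p) :=
  ⟨1, h, by rw [one_mul], w.one_mem, by rw [inv_one]; exact w.one_mem⟩

variable {p : ℕ} {w : ValuationSubring K}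

theorem pDivAt_mul {f g : K} (hf : PDivAt p w f) (hg : PDivAt p w g) : PDivAt p w (f * g) := by
  obtain ⟨u, h, rfl, hu, hu'⟩ := hf
  obtain ⟨u', h', rfl, hv, hv'⟩ := hg
  refine ⟨u * u', h * h', by rw [mul_pow]; ring, w.mul_mem _ _ hu hv, ?_⟩
  rw [mul_inv]
  exact w.mul_mem _ _ hu' hv'

theorem pDivAt_inv {f : K} (hf : PDivAt p w f) : PDivAt p w f⁻¹ := by
  obtain ⟨u, h, rfl, hu, hu'⟩ := hf
  refine ⟨u⁻¹, h⁻¹, by rw [mul_inv, inv_pow], hu', ?_⟩
  rw [inv_inv]
  exact hu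

theorem pDivAt_pow {f : K} (hf : PDivAt p w f) (n : ℕ) : PDivAt p w (f ^ n) := by
  induction n with
  | zero => rw [pow_zero]; exact pDivAt_one p w
  | succ n ih => rw [pow_succ]; exact pDivAt_mul ih hf

theorem pDivAt_zpow {f : K} (hf : PDivAt p w f) (n : ℤ) : PDivAt p w (f ^ n) := by
  cases n with
  | ofNat n => rw [Int.ofNat_eq_natCast, zpow_natCast]; exact pDivAt_pow hf n
  | negSucc n => rw [zpow_negSucc]; exact pDivAt_inv (pDivAt_pow hf (n + 1))

/-- `p ∣ e · ord f` and `p ∤ e` give `p ∣ ord f`. -/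
theorem pDivAt_of_zpow {f : K} (hf0 : f ≠ 0) {e : ℤ} (hp : p.Prime) (he : ¬ (p : ℤ) ∣ e)
    (hf : PDivAt p w (f ^ e)) : PDivAt p w f := by
  have hpi : Prime (p : ℤ) := Nat.prime_iff_prime_int.mp hp
  have hcop : IsCoprime (p : ℤ) e := hpi.coprime_iff_not_dvd.2 he
  obtain ⟨a, b, hab⟩ := hcop
  have h1 : f = (f ^ e) ^ b * (f ^ a) ^ p := by
    rw [← zpow_mul, ← zpow_natCast (f ^ a) p, ← zpow_mul, ← zpow_add₀ hf0]
    have h2 : e * b + a * (p : ℤ) = 1 := by rw [← hab]; ring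
    rw [h2, zpow_one]
  rw [h1]
  exact pDivAt_mul (pDivAt_zpow hf b) (pDivAt_pow_self p w _)

/-- Roots of unity are units of every valuation subring. -/
theorem mem_and_inv_mem_of_pow_eq_one (w : ValuationSubring K) {a : K} {n : ℕ} (hn : 0 < n)
    (h : a ^ n = 1) : a ∈ w ∧ a⁻¹ ∈ w := by
  have ha : a ≠ 0 := by
    rintro rfl
    rw [zero_pow hn.ne'] at h
    exact zero_ne_one h
  have hinv : a⁻¹ = a ^ (n - 1) := by
    rw [eq_comm, ← mul_right_inj' ha, mul_inv_cancel₀ ha, ← pow_succ', Nat.sub_add_cancel hn, h]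
  have hself : a = (a⁻¹) ^ (n - 1) := by
    rw [inv_pow, ← hinv, inv_inv]
  rcases w.mem_or_inv_mem a with h1 | h1
  · exact ⟨h1, by rw [hinv]; exact pow_mem h1 _⟩
  · exact ⟨by rw [hself]; exact pow_mem h1 _, h1⟩

end PDiv

/-! ### A multiplicative identity -/

/-- The exponent bookkeeping of the Eisenstein step, in a commutative group. -/
theorem eis_identity_group {G : Type*} [CommGroup G] (F D kb kb' : G) (a δ : ℤ) (m p n : ℕ) :
    D ^ (δ * ((n : ℤ) - a))
      = (F ^ m * D ^ (-δ)) ^ a * ((F ^ a * kb ^ p) ^ m * (D ^ n * kb' ^ p) ^ (-δ))⁻¹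
          * (kb ^ m * kb' ^ (-δ)) ^ p := by
  apply Additive.ofMul.injective
  simp only [ofMul_mul, ofMul_zpow, ofMul_pow, ofMul_inv]
  module

/-- The same identity for nonzero elements of a field. -/
theorem eis_identity {K : Type*} [Field K] {F D kb kb' : K} (hF : F ≠ 0) (hD : D ≠ 0)
    (hkb : kb ≠ 0) (hkb' : kb' ≠ 0) (a δ : ℤ) (m p n : ℕ) :
    D ^ (δ * ((n : ℤ) - a))
      = (F ^ m * D ^ (-δ)) ^ a * ((F ^ a * kb ^ p) ^ m * (D ^ n * kb' ^ p) ^ (-δ))⁻¹
          * (kb ^ m * kb' ^ (-δ)) ^ p := by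
  have h := congrArg Units.val
    (eis_identity_group (Units.mk0 F hF) (Units.mk0 D hD) (Units.mk0 kb hkb)
      (Units.mk0 kb' hkb') a δ m p n)
  simpa only [Units.val_mul, Units.val_zpow_eq_zpow_val, Units.val_pow_eq_pow_val,
    Units.val_inv_eq_inv_val, Units.val_mk0] using h

/-! ### `RedAt` -/

section Red

variable {N : ℕ} {A : ValuationSubring Qb}

theorem incl_C (a : A) : Congr.incl A (HahnSeries.C a) = HahnSeries.C (a : Qb) := by
  show coeffMap A.subtype (HahnSeries.single 0 a) = HahnSeries.single 0 (a : Qb)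
  rw [coeffMap_single]
  rfl

theorem red_C (a : A) :
    Congr.red A (HahnSeries.C a) = HahnSeries.C (IsLocalRing.residue A a) := by
  show coeffMap (IsLocalRing.residue A) (HahnSeries.single 0 a)
    = HahnSeries.single 0 (IsLocalRing.residue A a)
  rw [coeffMap_single]

theorem redAt_ne_zero {x : FN N} {f : LaurentSeries (IsLocalRing.ResidueField A)}
    (h : RedAt N A x f) : f ≠ 0 := by
  obtain ⟨c, U, V, -, hU, -, -, hf⟩ := h
  rintro rfl
  rw [zero_mul] at hf
  exact hU hf.symm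

theorem redAt_left_ne_zero {x : FN N} {f : LaurentSeries (IsLocalRing.ResidueField A)}
    (h : RedAt N A x f) : x ≠ 0 := by
  obtain ⟨c, U, V, hc, hU, -, hx, -⟩ := h
  rintro rfl
  apply hU
  have h1 : (HahnSeries.C c : LaurentSeries Qb) * Congr.incl A U = 0 := by
    rw [← hx]
    show (0 : LaurentSeries Qb) * _ = 0
    rw [zero_mul]
  have h0 : Congr.incl A U = 0 := by
    rcases mul_eq_zero.1 h1 with h2 | h2
    · exact absurd ((map_eq_zero_iff _ HahnSeries.C_injective).1 h2) hc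
    · exact h2
  have hU0 : U = 0 := Congr.incl_injective A (by rw [h0, _root_.map_zero])
  rw [hU0, _root_.map_zero]

theorem redAt_const (N : ℕ) (A : ValuationSubring Qb) {c : Qb} (hc : c ≠ 0) :
    RedAt N A (algebraMap Qb (FN N) c) 1 := by
  refine ⟨c, 1, 1, hc, ?_, ?_, ?_, ?_⟩
  · rw [map_one]; exact one_ne_zero
  · rw [map_one]; exact one_ne_zero
  · rw [map_one, mul_one, mul_one, HahnSeries.C_apply]
    exact algebraMap_laurentSeries_eq_single Qb c
  · rw [map_one, mul_one]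

theorem redAt_one (N : ℕ) (A : ValuationSubring Qb) : RedAt N A (1 : FN N) 1 := by
  have h := redAt_const N A (c := 1) one_ne_zero
  rwa [map_one] at h

theorem redAt_mul {x y : FN N} {f g : LaurentSeries (IsLocalRing.ResidueField A)}
    (hx : RedAt N A x f) (hy : RedAt N A y g) : RedAt N A (x * y) (f * g) := by
  obtain ⟨c, U, V, hc, hU, hV, hxe, hfe⟩ := hx
  obtain ⟨c', U', V', hc', hU', hV', hye, hge⟩ := hy
  refine ⟨c * c', U * U', V * V', mul_ne_zero hc hc', ?_, ?_, ?_, ?_⟩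
  · rw [map_mul]; exact mul_ne_zero hU hU'
  · rw [map_mul]; exact mul_ne_zero hV hV'
  · have hco : ((x * y : FN N) : LaurentSeries Qb)
        = (x : LaurentSeries Qb) * (y : LaurentSeries Qb) := rfl
    rw [map_mul, map_mul, map_mul, hco]
    linear_combination (y : LaurentSeries Qb) * Congr.incl A V' * hxe
      + HahnSeries.C c * Congr.incl A U * hye
  · rw [map_mul, map_mul]
    linear_combination g * Congr.red A V' * hfe + Congr.red A U * hge

theorem redAt_const_mul {x : FN N} {f : LaurentSeries (IsLocalRing.ResidueField A)} {c : Qb}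
    (hc : c ≠ 0) (hx : RedAt N A x f) : RedAt N A (algebraMap Qb (FN N) c * x) f := by
  have h := redAt_mul (redAt_const N A hc) hx
  rwa [one_mul] at h

theorem redAt_inv {x : FN N} {f : LaurentSeries (IsLocalRing.ResidueField A)}
    (hx : RedAt N A x f) : RedAt N A x⁻¹ f⁻¹ := by
  have hx0 := redAt_left_ne_zero hx
  have hf0 := redAt_ne_zero hx
  obtain ⟨c, U, V, hc, hU, hV, hxe, hfe⟩ := hx
  have hx0' : (x : LaurentSeries Qb) ≠ 0 := fun h => hx0 (Subtype.ext h)
  have hC : (HahnSeries.C c : LaurentSeries Qb) ≠ 0 := fun h =>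
    hc ((map_eq_zero_iff _ HahnSeries.C_injective).1 h)
  refine ⟨c⁻¹, V, U, inv_ne_zero hc, hV, hU, ?_, ?_⟩
  · have hco : ((x⁻¹ : FN N) : LaurentSeries Qb) = (x : LaurentSeries Qb)⁻¹ := rfl
    rw [hco, map_inv₀, inv_mul_eq_iff_eq_mul₀ hx0']
    calc Congr.incl A U
        = (HahnSeries.C c : LaurentSeries Qb)⁻¹ * (HahnSeries.C c * Congr.incl A U) := by
          rw [← mul_assoc, inv_mul_cancel₀ hC, one_mul]
      _ = (HahnSeries.C c : LaurentSeries Qb)⁻¹ * ((x : LaurentSeries Qb) * Congr.incl A V) := by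
          rw [hxe]
      _ = (x : LaurentSeries Qb) * ((HahnSeries.C c : LaurentSeries Qb)⁻¹ * Congr.incl A V) := by
          ring
  · rw [← hfe, ← mul_assoc, inv_mul_cancel₀ hf0, one_mul]

theorem redAt_pow {x : FN N} {f : LaurentSeries (IsLocalRing.ResidueField A)}
    (hx : RedAt N A x f) (n : ℕ) : RedAt N A (x ^ n) (f ^ n) := by
  induction n with
  | zero => rw [pow_zero, pow_zero]; exact redAt_one N A
  | succ n ih => rw [pow_succ, pow_succ]; exact redAt_mul ih hx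

theorem redAt_zpow {x : FN N} {f : LaurentSeries (IsLocalRing.ResidueField A)}
    (hx : RedAt N A x f) (n : ℤ) : RedAt N A (x ^ n) (f ^ n) := by
  cases n with
  | ofNat n => rw [Int.ofNat_eq_natCast, zpow_natCast, zpow_natCast]; exact redAt_pow hx n
  | negSucc n => rw [zpow_negSucc, zpow_negSucc]; exact redAt_inv (redAt_pow hx (n + 1))

/-- If `d ∈ A` and `d · X = Y` for integral series with `Ȳ ≠ 0`, then `Ȳ = e · X̄`, `e ≠ 0`. -/
theorem exists_red_eq_of_incl_eq {d : Qb} (hd : d ∈ A) {X Y : LaurentSeries A}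
    (h : (HahnSeries.C d : LaurentSeries Qb) * Congr.incl A X = Congr.incl A Y)
    (hY : Congr.red A Y ≠ 0) :
    ∃ e : IsLocalRing.ResidueField A, e ≠ 0 ∧ HahnSeries.C e * Congr.red A X = Congr.red A Y := by
  have h1 : HahnSeries.C (⟨d, hd⟩ : A) * X = Y := by
    apply Congr.incl_injective A
    rw [map_mul, incl_C]
    exact h
  have h2 : HahnSeries.C (IsLocalRing.residue A ⟨d, hd⟩) * Congr.red A X = Congr.red A Y := by
    rw [← h1, map_mul, red_C]
  refine ⟨IsLocalRing.residue A ⟨d, hd⟩, fun h0 => hY ?_, h2⟩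
  rw [← h2, h0, _root_.map_zero, zero_mul]

/-- **The reduction is unique up to a nonzero constant.** -/
theorem redAt_unique {x : FN N} {f f' : LaurentSeries (IsLocalRing.ResidueField A)}
    (h : RedAt N A x f) (h' : RedAt N A x f') :
    ∃ e : IsLocalRing.ResidueField A, e ≠ 0 ∧ f = HahnSeries.C e * f' := by
  obtain ⟨c, U, V, hc, hU, hV, hx, hf⟩ := h
  obtain ⟨c', U', V', hc', hU', hV', hx', hf'⟩ := h'
  have hC : (HahnSeries.C c : LaurentSeries Qb) ≠ 0 := fun h =>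
    hc ((map_eq_zero_iff _ HahnSeries.C_injective).1 h)
  have hC' : (HahnSeries.C c' : LaurentSeries Qb) ≠ 0 := fun h =>
    hc' ((map_eq_zero_iff _ HahnSeries.C_injective).1 h)
  have hkey : (HahnSeries.C c : LaurentSeries Qb) * Congr.incl A (U * V')
      = HahnSeries.C c' * Congr.incl A (U' * V) := by
    rw [map_mul, map_mul]
    linear_combination (-Congr.incl A V') * hx + Congr.incl A V * hx'
  have hVV : Congr.red A V * Congr.red A V' ≠ 0 := mul_ne_zero hV hV'
  rcases A.mem_or_inv_mem (c / c') with hd | hd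
  · -- `c / c' ∈ A`
    have h1 : (HahnSeries.C (c / c') : LaurentSeries Qb) * Congr.incl A (U * V')
        = Congr.incl A (U' * V) := by
      rw [map_div₀, div_mul_eq_mul_div, hkey, mul_div_cancel_left₀ _ hC']
    obtain ⟨e, he, hee⟩ := exists_red_eq_of_incl_eq hd h1
      (by rw [map_mul]; exact mul_ne_zero hU' hV)
    rw [map_mul, map_mul] at hee
    have hCe : (HahnSeries.C e : LaurentSeries (IsLocalRing.ResidueField A)) ≠ 0 := fun h =>
      he ((map_eq_zero_iff _ HahnSeries.C_injective).1 h)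
    refine ⟨e⁻¹, inv_ne_zero he, ?_⟩
    have h2 : (HahnSeries.C e * f - f') * (Congr.red A V * Congr.red A V') = 0 := by
      linear_combination hee + HahnSeries.C e * Congr.red A V' * hf - Congr.red A V * hf'
    have h3 : HahnSeries.C e * f = f' := by
      rcases mul_eq_zero.1 h2 with h4 | h4
      · exact sub_eq_zero.1 h4
      · exact absurd h4 hVV
    rw [← h3, map_inv₀, ← mul_assoc, inv_mul_cancel₀ hCe, one_mul]
  · -- `c' / c ∈ A`
    have hd' : c' / c ∈ A := by rwa [inv_div] at hd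
    have h1 : (HahnSeries.C (c' / c) : LaurentSeries Qb) * Congr.incl A (U' * V)
        = Congr.incl A (U * V') := by
      rw [map_div₀, div_mul_eq_mul_div, ← hkey, mul_div_cancel_left₀ _ hC]
    obtain ⟨e, he, hee⟩ := exists_red_eq_of_incl_eq hd' h1
      (by rw [map_mul]; exact mul_ne_zero hU hV')
    rw [map_mul, map_mul] at hee
    refine ⟨e, he, ?_⟩
    have h2 : (f - HahnSeries.C e * f') * (Congr.red A V * Congr.red A V') = 0 := by
      linear_combination (-1 : LaurentSeries (IsLocalRing.ResidueField A)) * hee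
        + Congr.red A V' * hf - HahnSeries.C e * Congr.red A V * hf'
    rcases mul_eq_zero.1 h2 with h4 | h4
    · exact sub_eq_zero.1 h4
    · exact absurd h4 hVV

end Red

/-! ### The multiplicative Hecke operator as a homomorphism -/

/-- `E4.heckeFb N ℓ` as a monoid-with-zero homomorphism (`ℓ` prime, `ℓ ∤ N`). -/
noncomputable def heckeHom (N : ℕ) [NeZero N] {ℓ : ℕ} (hℓ : ℓ.Prime) (hℓN : ¬ ℓ ∣ N) :
    FN N →*₀ FN N where
  toFun := E4.heckeFb N ℓ
  map_zero' := by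
    apply Subtype.ext
    rw [E4.coe_heckeFb N hℓ hℓN]
    show Congr.heckeMul ℓ hℓ.pos (E4.zetaU ℓ) (0 : LaurentSeries Qb) = 0
    unfold Congr.heckeMul
    rw [_root_.map_zero, zero_mul]
  map_one' := by
    apply Subtype.ext
    rw [E4.coe_heckeFb N hℓ hℓN]
    exact map_one (Congr.heckeMulHom ℓ hℓ.pos (E4.zetaU ℓ) (E4.zetaU_spec hℓ.pos))
  map_mul' x y := by
    apply Subtype.ext
    rw [E4.coe_heckeFb N hℓ hℓN]
    show _ = ((E4.heckeFb N ℓ x : FN N) : LaurentSeries Qb)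
      * ((E4.heckeFb N ℓ y : FN N) : LaurentSeries Qb)
    rw [E4.coe_heckeFb N hℓ hℓN, E4.coe_heckeFb N hℓ hℓN]
    exact Congr.heckeMul_mul ℓ hℓ.pos (E4.zetaU ℓ) (E4.zetaU_spec hℓ.pos) _ _

theorem heckeHom_apply (N : ℕ) [NeZero N] {ℓ : ℕ} (hℓ : ℓ.Prime) (hℓN : ¬ ℓ ∣ N) (x : FN N) :
    heckeHom N hℓ hℓN x = E4.heckeFb N ℓ x := rfl

/-- If `T_ℓ x = c · y · k ^ p` with `x ≠ 0`, then `c ≠ 0` and `k ≠ 0`. -/
theorem ne_zero_of_hecke_eq (N : ℕ) [NeZero N] {ℓ : ℕ} (hℓ : ℓ.Prime) (hℓN : ¬ ℓ ∣ N)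
    {p : ℕ} (hp : p ≠ 0) {x y k : FN N} {c : Qb} (hx : x ≠ 0)
    (h : E4.heckeFb N ℓ x = algebraMap Qb (FN N) c * y * k ^ p) : c ≠ 0 ∧ k ≠ 0 := by
  have h0 : E4.heckeFb N ℓ x ≠ 0 := by
    rw [← heckeHom_apply N hℓ hℓN]
    exact (map_ne_zero (heckeHom N hℓ hℓN)).2 hx
  constructor
  · rintro rfl
    apply h0
    rw [h, _root_.map_zero, zero_mul, zero_mul]
  · rintro rfl
    apply h0
    rw [h, zero_pow hp, mul_zero]

/-! ### `θ` on Laurent series -/

/-- `θ f = q d/dq f`, coefficientwise. -/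
noncomputable def thetaS {k : Type*} [Field k] (f : LaurentSeries k) : LaurentSeries k :=
  HahnSeries.ofSuppBddBelow (fun n : ℤ => (n : k) * f.coeff n)
    ⟨f.order, fun n hn => by
      by_contra hlt
      rw [not_le] at hlt
      apply hn
      show (n : k) * f.coeff n = 0
      rw [HahnSeries.coeff_eq_zero_of_lt_order hlt, mul_zero]⟩

theorem coeff_thetaS {k : Type*} [Field k] (f : LaurentSeries k) (n : ℤ) :
    (thetaS f).coeff n = (n : k) * f.coeff n := rfl

/-! ### The Eisenstein step -/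

/-- **The Eisenstein step.**  With `G = x ^ m · D ^ (-δ)`, the two reductions of `T_ℓ G`
(via `HDivStatement`, and via the formula `T_ℓ G = const · G ^ a · D ^ (δ (a - ℓ - 1)) · K ^ p`)
differ by a constant; hence `D̄ ^ (δ (ℓ + 1 - a))` is `PDivAt` at every finite place. -/
theorem pDivAt_eis (hRed : RedStatement) (hKappa : KappaStatement) (hHDiv : HDivStatement)
    (p N' : ℕ) [NeZero N'] [NeZero p] (hp : p.Prime) (hp5 : 5 ≤ p) (hpN' : ¬ p ∣ N')
    (A : ValuationSubring Qb) (hA : A.LiesOverPrime p)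
    (ℓ : ℕ) (hℓ : ℓ.Prime) (hℓN : ¬ ℓ ∣ N' * p)
    (x D k k' : FN (N' * p)) (c c' : Qb) (a δ : ℤ) (m : ℕ)
    (hx : E4.heckeFb (N' * p) ℓ x = algebraMap Qb (FN (N' * p)) c * x ^ a * k ^ p)
    (hD : E4.heckeFb (N' * p) ℓ D = algebraMap Qb (FN (N' * p)) c' * D ^ (ℓ + 1) * k' ^ p)
    (f Dbar : redField N' A)
    (hf : RedAt (N' * p) A x (f : LaurentSeries (IsLocalRing.ResidueField A)))
    (hDb : RedAt (N' * p) A D (Dbar : LaurentSeries (IsLocalRing.ResidueField A)))
    (hsl : ∀ w : ValuationSubring (redField N' A), IsFinitePl N' A w →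
      PDivAt p w (f ^ m * Dbar ^ (-δ)))
    (w : ValuationSubring (redField N' A)) (hw : IsFinitePl N' A w) :
    PDivAt p w (Dbar ^ (δ * (((ℓ + 1 : ℕ) : ℤ) - a))) := by
  have hx0 : x ≠ 0 := redAt_left_ne_zero hf
  have hD0 : D ≠ 0 := redAt_left_ne_zero hDb
  have hf0 : f ≠ 0 := fun h => redAt_ne_zero hf (by rw [h]; rfl)
  have hDb0 : Dbar ≠ 0 := fun h => redAt_ne_zero hDb (by rw [h]; rfl)
  obtain ⟨hc, hk⟩ := ne_zero_of_hecke_eq (N' * p) hℓ hℓN hp.ne_zero hx0 hx
  obtain ⟨hc', hk'⟩ := ne_zero_of_hecke_eq (N' * p) hℓ hℓN hp.ne_zero hD0 hD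
  obtain ⟨kb, hkb⟩ := hRed p N' hp hp5 hpN' A hA k hk
  obtain ⟨kb', hkb'⟩ := hRed p N' hp hp5 hpN' A hA k' hk'
  have hkb0 : kb ≠ 0 := fun h => redAt_ne_zero hkb (by rw [h]; rfl)
  have hkb'0 : kb' ≠ 0 := fun h => redAt_ne_zero hkb' (by rw [h]; rfl)
  -- the function `G` and its Hecke transform
  set G : FN (N' * p) := x ^ m * D ^ (-δ) with hGdef
  have hG0 : G ≠ 0 := mul_ne_zero (pow_ne_zero _ hx0) (zpow_ne_zero _ hD0)
  have hTG : E4.heckeFb (N' * p) ℓ G
      = (algebraMap Qb (FN (N' * p)) c * x ^ a * k ^ p) ^ m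
        * (algebraMap Qb (FN (N' * p)) c' * D ^ (ℓ + 1) * k' ^ p) ^ (-δ) := by
    rw [← heckeHom_apply (N' * p) hℓ hℓN, hGdef, map_mul, map_pow, map_zpow₀,
      heckeHom_apply, heckeHom_apply, hx, hD]
  have hTG0 : E4.heckeFb (N' * p) ℓ G ≠ 0 := by
    rw [← heckeHom_apply (N' * p) hℓ hℓN]
    exact (map_ne_zero (heckeHom (N' * p) hℓ hℓN)).2 hG0
  -- first reduction of `T_ℓ G`: through `HDivStatement`
  obtain ⟨g', hg'⟩ := hRed p N' hp hp5 hpN' A hA _ hTG0
  have hGred : RedAt (N' * p) A G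
      ((f ^ m * Dbar ^ (-δ) : redField N' A) : LaurentSeries (IsLocalRing.ResidueField A)) :=
    redAt_mul (redAt_pow hf m) (redAt_zpow hDb (-δ))
  have hpd' : PDivAt p w g' :=
    hHDiv p N' hp hp5 hpN' A hA ℓ hℓ hℓN G (f ^ m * Dbar ^ (-δ)) g' hG0 hGred hg' hsl w hw
  -- second reduction of `T_ℓ G`: through the formula
  set g'' : redField N' A := (f ^ a * kb ^ p) ^ m * (Dbar ^ (ℓ + 1) * kb' ^ p) ^ (-δ) with hg''def
  have hg''0 : g'' ≠ 0 :=
    mul_ne_zero (pow_ne_zero _ (mul_ne_zero (zpow_ne_zero _ hf0) (pow_ne_zero _ hkb0)))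
      (zpow_ne_zero _ (mul_ne_zero (pow_ne_zero _ hDb0) (pow_ne_zero _ hkb'0)))
  have hg'' : RedAt (N' * p) A (E4.heckeFb (N' * p) ℓ G)
      (g'' : LaurentSeries (IsLocalRing.ResidueField A)) := by
    rw [hTG]
    have h1 : RedAt (N' * p) A (algebraMap Qb (FN (N' * p)) c * x ^ a * k ^ p)
        ((f : LaurentSeries (IsLocalRing.ResidueField A)) ^ a
          * (kb : LaurentSeries (IsLocalRing.ResidueField A)) ^ p) := by
      rw [mul_assoc]
      exact redAt_const_mul hc (redAt_mul (redAt_zpow hf a) (redAt_pow hkb p))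
    have h2 : RedAt (N' * p) A (algebraMap Qb (FN (N' * p)) c' * D ^ (ℓ + 1) * k' ^ p)
        ((Dbar : LaurentSeries (IsLocalRing.ResidueField A)) ^ (ℓ + 1)
          * (kb' : LaurentSeries (IsLocalRing.ResidueField A)) ^ p) := by
      rw [mul_assoc]
      exact redAt_const_mul hc' (redAt_mul (redAt_pow hDb (ℓ + 1)) (redAt_pow hkb' p))
    exact redAt_mul (redAt_pow h1 m) (redAt_zpow h2 (-δ))
  -- the two reductions differ by a constant, which is a unit of `w`
  obtain ⟨e, he0, hee⟩ := redAt_unique hg' hg''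
  obtain ⟨n, hn, hen⟩ := hKappa p hp A hA e he0
  set E : redField N' A := g' * g''⁻¹ with hEdef
  have hEco : (E : LaurentSeries (IsLocalRing.ResidueField A)) = HahnSeries.C e := by
    have hg''co : (g'' : LaurentSeries (IsLocalRing.ResidueField A)) ≠ 0 := fun h =>
      hg''0 (Subtype.ext h)
    show (g' : LaurentSeries (IsLocalRing.ResidueField A))
      * (g'' : LaurentSeries (IsLocalRing.ResidueField A))⁻¹ = HahnSeries.C e
    rw [hee, mul_assoc, mul_inv_cancel₀ hg''co, mul_one]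
  have hEn : E ^ n = 1 := by
    apply Subtype.ext
    show (E : LaurentSeries (IsLocalRing.ResidueField A)) ^ n = 1
    rw [hEco, ← map_pow, hen, map_one]
  obtain ⟨hEw, hEw'⟩ := mem_and_inv_mem_of_pow_eq_one w hn hEn
  have hE0 : E ≠ 0 := by
    rintro h
    rw [h, zero_pow hn.ne'] at hEn
    exact zero_ne_one hEn
  have hpd'' : PDivAt p w g'' := by
    have h1 : g'' = E⁻¹ * g' := by
      rw [hEdef, mul_inv, inv_inv, mul_comm g'⁻¹ g'', mul_assoc, inv_mul_cancel₀, mul_one]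
      rintro rfl
      exact hE0 (by rw [hEdef, zero_mul])
    rw [h1]
    exact pDivAt_mul (pDivAt_of_unit p w hEw' (by rw [inv_inv]; exact hEw)) hpd'
  -- conclusion
  rw [eis_identity hf0 hDb0 hkb0 hkb'0 a δ m p (ℓ + 1)]
  exact pDivAt_mul (pDivAt_mul (pDivAt_zpow (hsl w hw) a) (pDivAt_inv hpd'')) (pDivAt_pow_self p w _)

/-! ### The assembly -/

/-- **`Contract.LStatement` from the six bricks of `S44/L/Top.lean`.** -/
theorem lStatement_of_top : Top.TopAssembly := by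
  intro hRed hHecke hKappa hHDiv hSlope hNZ P N' _ _ W hpN' hsq hNE A hA hE ι hι
  obtain ⟨T, R, ζ, b, hdata⟩ := hE
  have hdata' : EShapeData P A T R ζ b := hdata
  have hp : P.p.Prime := P.pp
  have hp5 : 5 ≤ P.p := P.hp5
  have hpR : P.p • R = 0 := hdata.2.1
  have hx0 : ι R ≠ 0 := hι.ne_zero R hpR
  -- the reduction of `ι R`
  obtain ⟨f, hf⟩ := hRed P.p N' hp hp5 hpN' A hA (ι R) hx0
  have hfco : (f : LaurentSeries (IsLocalRing.ResidueField A)) ≠ 0 := redAt_ne_zero hf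
  have hf0 : f ≠ 0 := fun h => hfco (by rw [h]; rfl)
  -- the slope datum
  obtain ⟨D, Dbar, m, hD0, hm0, hpm, hDred, hDhecke, ⟨w0, hw0fin, hw0⟩, hslope⟩ :=
    hSlope P N' W hpN' hsq A hA ι hι
  obtain ⟨hcusp, δ, hδ⟩ := hslope T R ζ b hdata' f hf
  have hDb0 : Dbar ≠ 0 := fun h => redAt_ne_zero hDred (by rw [h]; rfl)
  -- a non-Eisenstein prime
  obtain ⟨ℓ, hℓ, hℓS, hgood, hnE⟩ := hNE (N' * P.p).primeFactors
  have hℓN : ¬ ℓ ∣ N' * P.p := fun h =>
    hℓS (Nat.mem_primeFactors.2 ⟨hℓ, h, NeZero.ne _⟩)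
  obtain ⟨c, k, hck⟩ := hι.hecke ℓ hℓ hℓN hgood R hpR
  obtain ⟨c', k', hck'⟩ := hDhecke ℓ hℓ hℓN
  -- `p ∣ δ`
  have hpi : Prime (P.p : ℤ) := Nat.prime_iff_prime_int.mp hp
  have hdvd : (P.p : ℤ) ∣ δ * (((ℓ + 1 : ℕ) : ℤ) - W.apOfModel ℓ) := by
    by_contra hnd
    exact hw0 (pDivAt_of_zpow hDb0 hp hnd
      (pDivAt_eis hRed hKappa hHDiv P.p N' hp hp5 hpN' A hA ℓ hℓ hℓN (ι R) D k k' c c'
        (W.apOfModel ℓ) δ m hck hck' f Dbar hf hDred hδ w0 hw0fin))
  have hpδ : (P.p : ℤ) ∣ δ := by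
    rcases hpi.dvd_or_dvd hdvd with h | h
    · exact h
    · exfalso
      apply hnE
      have h1 : W.apOfModel ℓ - ((ℓ : ℤ) + 1) = -((((ℓ + 1 : ℕ) : ℤ)) - W.apOfModel ℓ) := by
        push_cast; ring
      rw [h1]
      exact (dvd_neg).2 h
  obtain ⟨δ', rfl⟩ := hpδ
  -- `PDivAt` at every place
  have hall : ∀ w : ValuationSubring (redField N' A), PDivAt P.p w f := by
    intro w
    by_cases hfin : IsFinitePl N' A w
    · have h1 : PDivAt P.p w (f ^ m) := by
        have h2 : f ^ m = (f ^ m * Dbar ^ (-((P.p : ℤ) * δ'))) * (Dbar ^ δ') ^ P.p := by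
          rw [← zpow_natCast (Dbar ^ δ') P.p, ← zpow_mul, mul_assoc, ← zpow_add₀ hDb0]
          have h3 : -((P.p : ℤ) * δ') + δ' * (P.p : ℤ) = 0 := by ring
          rw [h3, zpow_zero, mul_one]
        rw [h2]
        exact pDivAt_mul (hδ w hfin) (pDivAt_pow_self P.p w _)
      have hpm' : ¬ (P.p : ℤ) ∣ (m : ℤ) := fun h => hpm (Int.natCast_dvd_natCast.1 h)
      rw [← zpow_natCast] at h1
      exact pDivAt_of_zpow hf0 hp hpm' h1
    · exact hcusp w hfin
  -- the logarithmic derivative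
  set g : LaurentSeries (IsLocalRing.ResidueField A) :=
    thetaS (f : LaurentSeries (IsLocalRing.ResidueField A)) with hg
  set φ : LaurentSeries (IsLocalRing.ResidueField A) :=
    g * (f : LaurentSeries (IsLocalRing.ResidueField A))⁻¹ with hφ
  have hgco : ∀ n : ℤ, g.coeff n = (n : IsLocalRing.ResidueField A)
      * (f : LaurentSeries (IsLocalRing.ResidueField A)).coeff n := fun n => rfl
  have hφf : φ * (f : LaurentSeries (IsLocalRing.ResidueField A)) = g := by
    rw [hφ, mul_assoc, inv_mul_cancel₀ hfco, mul_one]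
  obtain ⟨n0, hn0⟩ := hNZ P N' W hpN' hsq A hA ι hι T R ζ b hdata' _ hf
  have hg0 : g ≠ 0 := by
    intro h
    apply hn0
    rw [← hgco n0, h]
    rfl
  have hφ0 : φ ≠ 0 := by
    intro h
    apply hg0
    rw [← hφf, h, zero_mul]
  refine ⟨f, g, φ, hf0, hall, hgco, hφf, hφ0, ?_⟩
  intro ℓ₁ hℓ₁ hgood₁ hℓ₁N n
  obtain ⟨c₁, k₁, hck₁⟩ := hι.hecke ℓ₁ hℓ₁ hℓ₁N hgood₁ R hpR
  exact hHecke P.p N' hp hp5 hpN' A hA ℓ₁ hℓ₁ hℓ₁N (ι R) k₁ c₁ (W.apOfModel ℓ₁) hx0 hck₁
    _ g φ hf hgco hφf n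

end Fermat.Agent.S44.L.TopProof
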