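import Mathlib
import Fermat.Agent.S44.L.TopProof
import Fermat.Agent.S44.L.Kappa

/-!
# PROGRAM MR (S44), strand L: the formal calculus of `RedAt` / `PDivAt` / `heckeFb`

Consumer-facing names for the lemmas proved in `S44/L/TopProof.lean` (helper37), plus a few
extra forms asked for by MR NOTE #2a:

* `PDivAt.mul / .inv / .div / .pow / .zpow / .pow_self / .of_unit / .one / .zero`,
  `PDivAt.of_zpow`, `PDivAt.of_pow_of_coprime`, `not_pdiv_pow`, `PDivAt.of_mul_left`;
* `RedAt.mul / .inv / .div / .pow / .zpow / .const_mul / .C_mul`, `redAt_algebraMap`,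
  `redAt_one`, `RedAt.unique`, `RedAt.unique'`, `RedAt.ne_zero`, `RedAt.left_ne_zero`;
* constants of the reduced field: `C_mem_redField`, `pDivAt_const`, and
  `RedAt.pDivAt_iff` (`PDivAt` does not depend on the chosen reduction);
* `heckeFb_mul / _one / _zero / _inv / _div / _pow / _zpow / _ne_zero` on `FN N`;
* coercion lemmas `redField → κ((q))`.

The dotted names live in the namespace `Fermat.Agent.S44.L.TopLemmas` (so they are used as
`TopLemmas.RedAt.mul hx hy`, or `RedAt.mul hx hy` after `open Fermat.Agent.S44.L.TopLemmas`).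
-/

set_option autoImplicit false

open HahnSeries ModularCurve AlgebraicCurve

namespace Fermat.Agent.S44.L.TopLemmas

open Fermat.Agent.S30 Fermat.Agent.S30.Producer Fermat.Agent.S44.Contract
open Fermat.Agent.S44.L.Top

/-! ### `PDivAt` -/

section PDiv

variable {K : Type*} [Field K] {p : ℕ} {w : ValuationSubring K}

theorem PDivAt.of_unit {u : K} (hu : u ∈ w) (hu' : u⁻¹ ∈ w) : PDivAt p w u :=
  TopProof.pDivAt_of_unit p w hu hu'

theorem PDivAt.one : PDivAt p w (1 : K) := TopProof.pDivAt_one p w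

theorem PDivAt.pow_self (h : K) : PDivAt p w (h ^ p) := TopProof.pDivAt_pow_self p w h

theorem PDivAt.zero (hp : p ≠ 0) : PDivAt p w (0 : K) :=
  ⟨1, 0, by rw [zero_pow hp, mul_zero], w.one_mem, by rw [inv_one]; exact w.one_mem⟩

theorem PDivAt.mul {f g : K} (hf : PDivAt p w f) (hg : PDivAt p w g) : PDivAt p w (f * g) :=
  TopProof.pDivAt_mul hf hg

theorem PDivAt.inv {f : K} (hf : PDivAt p w f) : PDivAt p w f⁻¹ := TopProof.pDivAt_inv hf

theorem PDivAt.div {f g : K} (hf : PDivAt p w f) (hg : PDivAt p w g) : PDivAt p w (f / g) := by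
  rw [div_eq_mul_inv]
  exact PDivAt.mul hf (PDivAt.inv hg)

theorem PDivAt.pow {f : K} (hf : PDivAt p w f) (n : ℕ) : PDivAt p w (f ^ n) :=
  TopProof.pDivAt_pow hf n

theorem PDivAt.zpow {f : K} (hf : PDivAt p w f) (n : ℤ) : PDivAt p w (f ^ n) :=
  TopProof.pDivAt_zpow hf n

/-- `PDivAt p w (f ^ e)` with `p ∤ e` gives `PDivAt p w f` (no hypothesis `f ≠ 0`). -/
theorem PDivAt.of_zpow (hp : p.Prime) {f : K} {e : ℤ} (he : ¬ (p : ℤ) ∣ e)
    (hf : PDivAt p w (f ^ e)) : PDivAt p w f := by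
  by_cases hf0 : f = 0
  · rw [hf0]
    exact PDivAt.zero hp.ne_zero
  · exact TopProof.pDivAt_of_zpow hf0 hp he hf

/-- `PDivAt p w (g ^ m)` with `m` prime to `p` gives `PDivAt p w g`. -/
theorem PDivAt.of_pow_of_coprime (hp : p.Prime) {g : K} {m : ℕ} (hm : Nat.Coprime m p)
    (h : PDivAt p w (g ^ m)) : PDivAt p w g := by
  have hpm : ¬ (p : ℤ) ∣ (m : ℤ) := by
    intro hd
    have h1 : p ∣ m := Int.natCast_dvd_natCast.1 hd
    have h2 : p ∣ Nat.gcd m p := Nat.dvd_gcd h1 (dvd_refl p)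
    rw [hm] at h2
    exact hp.one_lt.ne' (Nat.dvd_one.1 h2)
  rw [← zpow_natCast] at h
  exact PDivAt.of_zpow hp hpm h

/-- If `D` is not `PDivAt` but `D ^ e` is, then `p ∣ e`. -/
theorem not_pdiv_pow (hp : p.Prime) {D : K} (hD : ¬ PDivAt p w D) {e : ℤ}
    (h : PDivAt p w (D ^ e)) : (p : ℤ) ∣ e := by
  by_contra hne
  exact hD (PDivAt.of_zpow hp hne h)

/-- Cancelling a `PDivAt` factor. -/
theorem PDivAt.of_mul_left {f g : K} (hf0 : f ≠ 0) (hf : PDivAt p w f)
    (hfg : PDivAt p w (f * g)) : PDivAt p w g := by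
  have h1 : g = f⁻¹ * (f * g) := by rw [← mul_assoc, inv_mul_cancel₀ hf0, one_mul]
  rw [h1]
  exact PDivAt.mul (PDivAt.inv hf) hfg

end PDiv

/-! ### `RedAt` -/

section Red

variable {N : ℕ} {A : ValuationSubring Qb}

theorem RedAt.ne_zero {x : FN N} {f : LaurentSeries (IsLocalRing.ResidueField A)}
    (h : RedAt N A x f) : f ≠ 0 := TopProof.redAt_ne_zero h

theorem RedAt.left_ne_zero {x : FN N} {f : LaurentSeries (IsLocalRing.ResidueField A)}
    (h : RedAt N A x f) : x ≠ 0 := TopProof.redAt_left_ne_zero h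

/-- Nonzero constants reduce to `1`. -/
theorem redAt_algebraMap (N : ℕ) (A : ValuationSubring Qb) {c : Qb} (hc : c ≠ 0) :
    RedAt N A (algebraMap Qb (FN N) c) 1 := TopProof.redAt_const N A hc

theorem redAt_one (N : ℕ) (A : ValuationSubring Qb) : RedAt N A (1 : FN N) 1 :=
  TopProof.redAt_one N A

theorem RedAt.mul {x y : FN N} {f g : LaurentSeries (IsLocalRing.ResidueField A)}
    (hx : RedAt N A x f) (hy : RedAt N A y g) : RedAt N A (x * y) (f * g) :=
  TopProof.redAt_mul hx hy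

theorem RedAt.const_mul {x : FN N} {f : LaurentSeries (IsLocalRing.ResidueField A)} {c : Qb}
    (hc : c ≠ 0) (hx : RedAt N A x f) : RedAt N A (algebraMap Qb (FN N) c * x) f :=
  TopProof.redAt_const_mul hc hx

theorem RedAt.inv {x : FN N} {f : LaurentSeries (IsLocalRing.ResidueField A)}
    (hx : RedAt N A x f) : RedAt N A x⁻¹ f⁻¹ := TopProof.redAt_inv hx

theorem RedAt.div {x y : FN N} {f g : LaurentSeries (IsLocalRing.ResidueField A)}
    (hx : RedAt N A x f) (hy : RedAt N A y g) : RedAt N A (x / y) (f / g) := by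
  rw [div_eq_mul_inv, div_eq_mul_inv]
  exact RedAt.mul hx (RedAt.inv hy)

theorem RedAt.pow {x : FN N} {f : LaurentSeries (IsLocalRing.ResidueField A)}
    (hx : RedAt N A x f) (n : ℕ) : RedAt N A (x ^ n) (f ^ n) := TopProof.redAt_pow hx n

theorem RedAt.zpow {x : FN N} {f : LaurentSeries (IsLocalRing.ResidueField A)}
    (hx : RedAt N A x f) (n : ℤ) : RedAt N A (x ^ n) (f ^ n) := TopProof.redAt_zpow hx n

/-- **Uniqueness of the reduction up to a nonzero constant**: `f = C e * f'`. -/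
theorem RedAt.unique {x : FN N} {f f' : LaurentSeries (IsLocalRing.ResidueField A)}
    (h : RedAt N A x f) (h' : RedAt N A x f') :
    ∃ e : IsLocalRing.ResidueField A, e ≠ 0 ∧ f = HahnSeries.C e * f' :=
  TopProof.redAt_unique h h'

/-- The same, in the other direction: `f' = C e * f`. -/
theorem RedAt.unique' {x : FN N} {f f' : LaurentSeries (IsLocalRing.ResidueField A)}
    (h : RedAt N A x f) (h' : RedAt N A x f') :
    ∃ e : IsLocalRing.ResidueField A, e ≠ 0 ∧ f' = HahnSeries.C e * f :=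
  TopProof.redAt_unique h' h

/-- A nonzero constant multiple of a reduction is a reduction. -/
theorem RedAt.C_mul {x : FN N} {f : LaurentSeries (IsLocalRing.ResidueField A)}
    (hx : RedAt N A x f) {e : IsLocalRing.ResidueField A} (he : e ≠ 0) :
    RedAt N A x (HahnSeries.C e * f) := by
  obtain ⟨c, U, V, hc, hU, hV, hxe, hfe⟩ := hx
  obtain ⟨a, rfl⟩ := IsLocalRing.residue_surjective e
  have ha : IsUnit a := by
    by_contra hna
    exact he ((IsLocalRing.residue_eq_zero_iff a).2 ((IsLocalRing.mem_maximalIdeal a).2 hna))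
  have ha0 : (a : Qb) ≠ 0 := by
    intro h0
    apply ha.ne_zero
    exact Subtype.ext h0
  have hCe : (HahnSeries.C (IsLocalRing.residue A a) :
      LaurentSeries (IsLocalRing.ResidueField A)) ≠ 0 := fun h =>
    he ((map_eq_zero_iff _ HahnSeries.C_injective).1 h)
  have hCa : (HahnSeries.C (a : Qb) : LaurentSeries Qb) ≠ 0 := fun h =>
    ha0 ((map_eq_zero_iff _ HahnSeries.C_injective).1 h)
  refine ⟨c / (a : Qb), HahnSeries.C a * U, V, div_ne_zero hc ha0, ?_, hV, ?_, ?_⟩
  · rw [map_mul, TopProof.red_C]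
    exact mul_ne_zero hCe hU
  · rw [map_mul, TopProof.incl_C, hxe, map_div₀, ← mul_assoc, div_mul_cancel₀ _ hCa]
  · rw [map_mul, TopProof.red_C, mul_assoc, hfe]

end Red

/-! ### Constants of the reduced field -/

section Const

variable {N : ℕ} {A : ValuationSubring Qb}

/-- Constants lie in the reduced field. -/
theorem C_mem_redField (N : ℕ) (A : ValuationSubring Qb) (e : IsLocalRing.ResidueField A) :
    (HahnSeries.C e : LaurentSeries (IsLocalRing.ResidueField A)) ∈ redField N A := by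
  obtain ⟨a, rfl⟩ := IsLocalRing.residue_surjective e
  refine Subfield.subset_closure ⟨HahnSeries.C a, 1, ?_, ?_, ?_, ?_⟩
  · rw [TopProof.incl_C, HahnSeries.C_apply]
    exact E4.single_zero_mem_Fb N _
  · rw [map_one]
    exact (E4.Fb N).one_mem
  · rw [map_one]
    exact one_ne_zero
  · rw [map_one, mul_one, TopProof.red_C]

/-- A nonzero constant of the reduced field is `PDivAt` at every valuation subring. -/
theorem pDivAt_const {p : ℕ} (hp : p.Prime) (hA : A.LiesOverPrime p)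
    (w : ValuationSubring (redField N A)) {x : redField N A} {e : IsLocalRing.ResidueField A}
    (he : e ≠ 0) (hx : (x : LaurentSeries (IsLocalRing.ResidueField A)) = HahnSeries.C e) :
    PDivAt p w x := by
  obtain ⟨h1, h2⟩ := Kappa.unit_of_coe_eq_C hp hA w x he hx
  exact PDivAt.of_unit h1 h2

/-- Two reductions of the same function inside the reduced field differ by a constant which is
a unit of every valuation subring. -/
theorem RedAt.exists_unit {p : ℕ} (hp : p.Prime) (hA : A.LiesOverPrime p) {M : ℕ}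
    {x : FN M} {f f' : redField N A}
    (h : RedAt M A x (f : LaurentSeries (IsLocalRing.ResidueField A)))
    (h' : RedAt M A x (f' : LaurentSeries (IsLocalRing.ResidueField A))) :
    ∃ E : redField N A, f = E * f' ∧ ∀ w : ValuationSubring (redField N A), E ∈ w ∧ E⁻¹ ∈ w := by
  obtain ⟨e, he, hee⟩ := RedAt.unique h h'
  have hf'co : (f' : LaurentSeries (IsLocalRing.ResidueField A)) ≠ 0 := RedAt.ne_zero h'
  have hf'0 : f' ≠ 0 := fun h0 => hf'co (by rw [h0]; rfl)
  have hEco : ((f * f'⁻¹ : redField N A) : LaurentSeries (IsLocalRing.ResidueField A))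
      = HahnSeries.C e := by
    show (f : LaurentSeries (IsLocalRing.ResidueField A))
      * (f' : LaurentSeries (IsLocalRing.ResidueField A))⁻¹ = HahnSeries.C e
    rw [hee, mul_assoc, mul_inv_cancel₀ hf'co, mul_one]
  refine ⟨f * f'⁻¹, ?_, fun w => Kappa.unit_of_coe_eq_C hp hA w _ he hEco⟩
  rw [mul_assoc, inv_mul_cancel₀ hf'0, mul_one]

/-- **`PDivAt` does not depend on the chosen reduction.** -/
theorem RedAt.pDivAt_iff {p : ℕ} (hp : p.Prime) (hA : A.LiesOverPrime p) {M : ℕ}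
    {x : FN M} {f f' : redField N A}
    (h : RedAt M A x (f : LaurentSeries (IsLocalRing.ResidueField A)))
    (h' : RedAt M A x (f' : LaurentSeries (IsLocalRing.ResidueField A)))
    (w : ValuationSubring (redField N A)) : PDivAt p w f ↔ PDivAt p w f' := by
  obtain ⟨E, hE, hu⟩ := RedAt.exists_unit hp hA h h'
  obtain ⟨hEw, hEw'⟩ := hu w
  have hE0 : E ≠ 0 := by
    rintro rfl
    have hf0 : (f : LaurentSeries (IsLocalRing.ResidueField A)) ≠ 0 := RedAt.ne_zero h
    apply hf0
    rw [hE, zero_mul]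
    rfl
  constructor
  · intro hf
    rw [hE] at hf
    exact PDivAt.of_mul_left hE0 (PDivAt.of_unit hEw hEw') hf
  · intro hf'
    rw [hE]
    exact PDivAt.mul (PDivAt.of_unit hEw hEw') hf'

end Const

/-! ### The multiplicative Hecke operator on `FN N` -/

section Hecke

variable (N : ℕ) [NeZero N] {ℓ : ℕ}

theorem heckeFb_zero (hℓ : ℓ.Prime) (hℓN : ¬ ℓ ∣ N) : E4.heckeFb N ℓ 0 = 0 :=
  (TopProof.heckeHom N hℓ hℓN).map_zero

theorem heckeFb_one (hℓ : ℓ.Prime) (hℓN : ¬ ℓ ∣ N) : E4.heckeFb N ℓ 1 = 1 :=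
  (TopProof.heckeHom N hℓ hℓN).map_one

theorem heckeFb_mul (hℓ : ℓ.Prime) (hℓN : ¬ ℓ ∣ N) (x y : FN N) :
    E4.heckeFb N ℓ (x * y) = E4.heckeFb N ℓ x * E4.heckeFb N ℓ y :=
  (TopProof.heckeHom N hℓ hℓN).map_mul x y

theorem heckeFb_inv (hℓ : ℓ.Prime) (hℓN : ¬ ℓ ∣ N) (x : FN N) :
    E4.heckeFb N ℓ x⁻¹ = (E4.heckeFb N ℓ x)⁻¹ :=
  map_inv₀ (TopProof.heckeHom N hℓ hℓN) x

theorem heckeFb_div (hℓ : ℓ.Prime) (hℓN : ¬ ℓ ∣ N) (x y : FN N) :
    E4.heckeFb N ℓ (x / y) = E4.heckeFb N ℓ x / E4.heckeFb N ℓ y :=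
  map_div₀ (TopProof.heckeHom N hℓ hℓN) x y

theorem heckeFb_pow (hℓ : ℓ.Prime) (hℓN : ¬ ℓ ∣ N) (x : FN N) (n : ℕ) :
    E4.heckeFb N ℓ (x ^ n) = E4.heckeFb N ℓ x ^ n :=
  map_pow (TopProof.heckeHom N hℓ hℓN) x n

theorem heckeFb_zpow (hℓ : ℓ.Prime) (hℓN : ¬ ℓ ∣ N) (x : FN N) (n : ℤ) :
    E4.heckeFb N ℓ (x ^ n) = E4.heckeFb N ℓ x ^ n :=
  map_zpow₀ (TopProof.heckeHom N hℓ hℓN) x n

theorem heckeFb_ne_zero (hℓ : ℓ.Prime) (hℓN : ¬ ℓ ∣ N) {x : FN N} (hx : x ≠ 0) :
    E4.heckeFb N ℓ x ≠ 0 :=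
  (map_ne_zero (TopProof.heckeHom N hℓ hℓN)).2 hx

end Hecke

/-! ### Coercions `redField → κ((q))` -/

section Coe

variable {N : ℕ} {A : ValuationSubring Qb}

theorem coe_mul_redField (f g : redField N A) :
    ((f * g : redField N A) : LaurentSeries (IsLocalRing.ResidueField A))
      = (f : LaurentSeries (IsLocalRing.ResidueField A)) * g := rfl

theorem coe_inv_redField (f : redField N A) :
    ((f⁻¹ : redField N A) : LaurentSeries (IsLocalRing.ResidueField A))
      = (f : LaurentSeries (IsLocalRing.ResidueField A))⁻¹ := rfl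

theorem coe_div_redField (f g : redField N A) :
    ((f / g : redField N A) : LaurentSeries (IsLocalRing.ResidueField A))
      = (f : LaurentSeries (IsLocalRing.ResidueField A)) / g := rfl

theorem coe_pow_redField (f : redField N A) (n : ℕ) :
    ((f ^ n : redField N A) : LaurentSeries (IsLocalRing.ResidueField A))
      = (f : LaurentSeries (IsLocalRing.ResidueField A)) ^ n := rfl

theorem coe_zpow_redField (f : redField N A) (n : ℤ) :
    ((f ^ n : redField N A) : LaurentSeries (IsLocalRing.ResidueField A))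
      = (f : LaurentSeries (IsLocalRing.ResidueField A)) ^ n := rfl

theorem coe_one_redField :
    ((1 : redField N A) : LaurentSeries (IsLocalRing.ResidueField A)) = 1 := rfl

theorem coe_ne_zero_redField {f : redField N A} :
    (f : LaurentSeries (IsLocalRing.ResidueField A)) ≠ 0 ↔ f ≠ 0 :=
  ⟨fun h h0 => h (by rw [h0]; rfl), fun h h0 => h (Subtype.ext h0)⟩

end Coe

end Fermat.Agent.S44.L.TopLemmas
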