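import Mathlib
import Fermat.Agent.S44.L.TopProof

/-!
# PROGRAM MR (S44), strand L: the class calculus of a new embedding (helper84)

Formal consequences of `Contract.IsNewEmb` and `Top.EShapeData`, for the exits of the
SLOPE and NZ bricks.  No geometry.

* `Sim k p x y` : `x = c · y · h ^ p` with `c ≠ 0` a constant and `h ≠ 0` ("equal modulo
  constants and `p`-th powers"); an equivalence relation compatible with products, inverses,
  powers and semilinear ring endomorphisms (`Sim.refl`, `.symm`, `.trans`, `.mul`, `.inv`,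
  `.div`, `.pow`, `.zpow`, `.map`, `.of_mul_left`, `sim_zpow_of_modEq`, `sim_one_iff`).
* `galF_algebraMap`, `Sim.galAct` : the coefficientwise Galois action respects `Sim`.
* for `hι : IsNewEmb P N' W ι` (all points `p`-torsion):
  `sim_add`, `sim_zero`, `sim_neg`, `sim_sub`, `sim_nsmul`, `sim_zsmul`, `sim_gal` :
  `Q ↦ class of ι Q` is a Galois-equivariant homomorphism; `sim_hecke` : `T_ℓ (ι Q) ~ (ι Q)^(a_ℓ)`;
  `eq_zero_of_sim_one`, `eq_of_sim`, `eq_nsmul_of_sim_pow`, `eq_zsmul_of_sim_zpow` : it is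
  injective.
* for an `EShapeData P A T R ζ b` datum: `sim_galF_T`, `sim_galF_R` (the inertia group acts by
  `ι T ↦ (ι T)^k`, `ι R ↦ ι R · (ι T)^j` on classes, with the SAME `k`, `j` as on `ζ`, `b`),
  `sim_galF_T_of_fix`, `sim_galF_R_of_fix`, `exists_galF_R_eq` (elements fixing `ζ`, `b`),
  and `not_sim_zpow` : `ι R` is not a constant times a power of `ι T` times a `p`-th power
  (the contradiction closing NZ), packaged as `exists_coeff_ne_zero_of_core`.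
-/

set_option autoImplicit false

open WeierstrassCurve WeierstrassCurve.Affine WeierstrassCurve.Affine.Point
open HahnSeries ModularCurve AlgebraicCurve

namespace Fermat.Agent.S44.L.IotaCalc

open Fermat.Agent.S30 Fermat.Agent.S30.Producer Fermat.Agent.S44.Contract
open Fermat.Agent.S44.L.Top

local notation "GQb" => (AlgebraicClosure ℚ ≃ₐ[ℚ] AlgebraicClosure ℚ)

/-! ### The relation "equal modulo constants and `p`-th powers" -/

/-- `x ~ y`: `x = c · y · h ^ p` with `c` a nonzero constant and `h ≠ 0`. -/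
def Sim (k : Type*) {F : Type*} [Field k] [Field F] [Algebra k F] (p : ℕ) (x y : F) : Prop :=
  ∃ (c : k) (h : F), c ≠ 0 ∧ h ≠ 0 ∧ x = algebraMap k F c * y * h ^ p

section Core

variable {k F : Type*} [Field k] [Field F] [Algebra k F] {p : ℕ} {x y z x' y' : F}

theorem Sim.refl (x : F) : Sim k p x x :=
  ⟨1, 1, one_ne_zero, one_ne_zero, by simp⟩

theorem Sim.of_eq (h : x = y) : Sim k p x y := h ▸ Sim.refl x

theorem Sim.symm (h : Sim k p x y) : Sim k p y x := by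
  obtain ⟨c, g, hc, hg, rfl⟩ := h
  refine ⟨c⁻¹, g⁻¹, inv_ne_zero hc, inv_ne_zero hg, ?_⟩
  have hc' : algebraMap k F c ≠ 0 := (map_ne_zero _).mpr hc
  have hg' : g ^ p ≠ 0 := pow_ne_zero p hg
  rw [map_inv₀, inv_pow]
  field_simp

theorem Sim.trans (h : Sim k p x y) (h' : Sim k p y z) : Sim k p x z := by
  obtain ⟨c, g, hc, hg, rfl⟩ := h
  obtain ⟨c', g', hc', hg', rfl⟩ := h'
  exact ⟨c * c', g' * g, mul_ne_zero hc hc', mul_ne_zero hg' hg, by
    rw [map_mul, mul_pow]; ring⟩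

theorem Sim.mul (h : Sim k p x y) (h' : Sim k p x' y') : Sim k p (x * x') (y * y') := by
  obtain ⟨c, g, hc, hg, rfl⟩ := h
  obtain ⟨c', g', hc', hg', rfl⟩ := h'
  exact ⟨c * c', g * g', mul_ne_zero hc hc', mul_ne_zero hg hg', by
    rw [map_mul, mul_pow]; ring⟩

theorem Sim.inv (h : Sim k p x y) : Sim k p x⁻¹ y⁻¹ := by
  obtain ⟨c, g, hc, hg, rfl⟩ := h
  exact ⟨c⁻¹, g⁻¹, inv_ne_zero hc, inv_ne_zero hg, by
    rw [map_inv₀, inv_pow, mul_inv, mul_inv]⟩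

theorem Sim.div (h : Sim k p x y) (h' : Sim k p x' y') : Sim k p (x / x') (y / y') := by
  rw [div_eq_mul_inv, div_eq_mul_inv]
  exact h.mul h'.inv

theorem Sim.pow (h : Sim k p x y) (n : ℕ) : Sim k p (x ^ n) (y ^ n) := by
  obtain ⟨c, g, hc, hg, rfl⟩ := h
  exact ⟨c ^ n, g ^ n, pow_ne_zero n hc, pow_ne_zero n hg, by rw [map_pow]; ring⟩

theorem Sim.zpow (h : Sim k p x y) (n : ℤ) : Sim k p (x ^ n) (y ^ n) := by
  cases n with
  | ofNat n =>
    rw [Int.ofNat_eq_natCast, zpow_natCast, zpow_natCast]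
    exact h.pow n
  | negSucc n =>
    rw [zpow_negSucc, zpow_negSucc]
    exact (h.pow (n + 1)).inv

theorem Sim.ne_zero (h : Sim k p x y) (hy : y ≠ 0) : x ≠ 0 := by
  obtain ⟨c, g, hc, hg, rfl⟩ := h
  exact mul_ne_zero (mul_ne_zero ((map_ne_zero _).mpr hc) hy) (pow_ne_zero p hg)

theorem Sim.ne_zero' (h : Sim k p x y) (hx : x ≠ 0) : y ≠ 0 := h.symm.ne_zero hx

/-- Constructor from a bare equation and `x ≠ 0`. -/
theorem sim_of_eq_mul (hp : p ≠ 0) (hx : x ≠ 0) {c : k} {g : F}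
    (h : x = algebraMap k F c * y * g ^ p) : Sim k p x y := by
  refine ⟨c, g, ?_, ?_, h⟩
  · rintro rfl
    apply hx
    rw [h, _root_.map_zero, zero_mul, zero_mul]
  · rintro rfl
    apply hx
    rw [h, zero_pow hp, mul_zero]

theorem sim_const {c : k} (hc : c ≠ 0) : Sim k p (algebraMap k F c) 1 :=
  ⟨c, 1, hc, one_ne_zero, by simp⟩

theorem sim_pow_self {g : F} (hg : g ≠ 0) : Sim k p (g ^ p) 1 :=
  ⟨1, g, one_ne_zero, hg, by simp⟩

theorem sim_one_iff :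
    Sim k p x 1 ↔ ∃ (c : k) (g : F), c ≠ 0 ∧ g ≠ 0 ∧ x = algebraMap k F c * g ^ p := by
  constructor
  · rintro ⟨c, g, hc, hg, h⟩
    exact ⟨c, g, hc, hg, by rw [h, mul_one]⟩
  · rintro ⟨c, g, hc, hg, h⟩
    exact ⟨c, g, hc, hg, by rw [h, mul_one]⟩

theorem Sim.const_mul {c : k} (hc : c ≠ 0) (h : Sim k p x y) :
    Sim k p (algebraMap k F c * x) y := by
  have h1 := (sim_const (F := F) (p := p) hc).mul h
  rwa [one_mul] at h1

theorem Sim.mul_pow_self {g : F} (hg : g ≠ 0) (h : Sim k p x y) : Sim k p (x * g ^ p) y := by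
  have h1 := h.mul (sim_pow_self (k := k) hg)
  rwa [mul_one] at h1

theorem sim_pow_mul (hx : x ≠ 0) (n : ℕ) : Sim k p (x ^ (p * n)) 1 := by
  rw [mul_comm, pow_mul]
  exact sim_pow_self (pow_ne_zero n hx)

theorem sim_zpow_mul (hx : x ≠ 0) (n : ℤ) : Sim k p (x ^ ((p : ℤ) * n)) 1 := by
  rw [mul_comm, zpow_mul, zpow_natCast]
  exact sim_pow_self (zpow_ne_zero n hx)

/-- Cancellation. -/
theorem Sim.of_mul_left (hz : z ≠ 0) (h : Sim k p (z * x) (z * y)) : Sim k p x y := by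
  have h1 := (Sim.refl (k := k) (p := p) z⁻¹).mul h
  rwa [inv_mul_cancel_left₀ hz, inv_mul_cancel_left₀ hz] at h1

/-- Exponents matter only modulo `p`. -/
theorem sim_zpow_of_modEq (hx : x ≠ 0) {m n : ℤ} (h : m ≡ n [ZMOD p]) :
    Sim k p (x ^ m) (x ^ n) := by
  obtain ⟨d, hd⟩ := h.symm.dvd
  have hm : m = n + (p : ℤ) * d := by rw [← hd]; ring
  rw [hm, zpow_add₀ hx]
  have h1 := (Sim.refl (k := k) (p := p) (x ^ n)).mul (sim_zpow_mul (k := k) hx d)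
  rwa [mul_one] at h1

/-- Over an algebraically closed field of constants the constant is a `p`-th power. -/
theorem Sim.exists_eq_mul_pow [IsAlgClosed k] (hp : p ≠ 0) (h : Sim k p x y) :
    ∃ g : F, g ≠ 0 ∧ x = y * g ^ p := by
  obtain ⟨c, g, hc, hg, rfl⟩ := h
  obtain ⟨d, hd⟩ := IsAlgClosed.exists_pow_nat_eq c (Nat.pos_of_ne_zero hp)
  have hd0 : d ≠ 0 := by
    rintro rfl
    rw [zero_pow hp] at hd
    exact hc hd.symm
  refine ⟨algebraMap k F d * g, mul_ne_zero ((map_ne_zero _).mpr hd0) hg, ?_⟩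
  rw [← hd, map_pow, mul_pow]
  ring

/-- Semilinear ring endomorphisms respect `Sim`. -/
theorem Sim.map (σ : F →+* F) (τ : k →+* k)
    (hσ : ∀ c, σ (algebraMap k F c) = algebraMap k F (τ c)) (h : Sim k p x y) :
    Sim k p (σ x) (σ y) := by
  obtain ⟨c, g, hc, hg, rfl⟩ := h
  exact ⟨τ c, σ g, (map_ne_zero τ).mpr hc, (map_ne_zero σ).mpr hg, by
    rw [map_mul, map_mul, map_pow, hσ]⟩

end Core

/-! ### The Galois action on the function field -/

theorem galF_algebraMap (N : ℕ) (σ : GQb) (c : Qb) :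
    galF N σ (algebraMap Qb (FN N) c) = algebraMap Qb (FN N) (σ c) := by
  apply Subtype.ext
  rw [coe_galF]
  have h1 : ((algebraMap Qb (FN N) c : FN N) : LaurentSeries Qb) = HahnSeries.single 0 c :=
    algebraMap_laurentSeries_eq_single Qb c
  have h2 : ((algebraMap Qb (FN N) (σ c) : FN N) : LaurentSeries Qb)
      = HahnSeries.single 0 (σ c) := algebraMap_laurentSeries_eq_single Qb (σ c)
  rw [h1, h2]
  exact coeffMap_single _ _ _

theorem Sim.galAct {N p : ℕ} {x y : FN N} (σ : GQb) (h : Sim Qb p x y) :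
    Sim Qb p (galF N σ x) (galF N σ y) :=
  Sim.map (galF N σ : FN N →+* FN N) (σ : Qb →+* Qb) (fun c => galF_algebraMap N σ c) h

/-! ### The class map of a new embedding -/

section Iota

variable {P : FreyPackage} {N' : ℕ} [NeZero N'] [NeZero P.p] {W : WeierstrassCurve ℤ}
  {ι : (P.freyCurve⁄Qb).Point → FN (N' * P.p)}

/-- The Galois action preserves the `p`-torsion. -/
theorem nsmul_smul_eq_zero (E : WeierstrassCurve ℚ) (p : ℕ) (σ : GQb) {Q : (E⁄Qb).Point}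
    (hQ : p • Q = 0) : p • (σ • Q) = 0 := by
  have h1 : σ • (p • Q) = p • (σ • Q) :=
    (DistribSMul.toAddMonoidHom (E⁄Qb).Point σ).map_nsmul p Q
  rw [← h1, hQ]
  exact _root_.smul_zero (A := (E⁄Qb).Point) σ

theorem sim_add (hι : IsNewEmb P N' W ι) {Q Q' : (P.freyCurve⁄Qb).Point} (hQ : P.p • Q = 0)
    (hQ' : P.p • Q' = 0) : Sim Qb P.p (ι (Q + Q')) (ι Q * ι Q') := by
  obtain ⟨c, g, h⟩ := hι.add Q Q' hQ hQ'
  have hQQ : P.p • (Q + Q') = 0 := by rw [nsmul_add, hQ, hQ', add_zero]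
  refine sim_of_eq_mul (NeZero.ne P.p) (hι.ne_zero _ hQQ) (c := c) (g := g) ?_
  rw [h, mul_assoc (algebraMap Qb (FN (N' * P.p)) c)]

theorem sim_zero (hι : IsNewEmb P N' W ι) : Sim Qb P.p (ι 0) 1 := by
  have h0 : P.p • (0 : (P.freyCurve⁄Qb).Point) = 0 := nsmul_zero _
  have hne : ι 0 ≠ 0 := hι.ne_zero 0 h0
  have h1 := sim_add hι h0 h0
  rw [add_zero] at h1
  have h2 : Sim Qb P.p (ι 0 * 1) (ι 0 * ι 0) := by rwa [mul_one]
  exact (Sim.of_mul_left hne h2).symm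

theorem sim_neg (hι : IsNewEmb P N' W ι) {Q : (P.freyCurve⁄Qb).Point} (hQ : P.p • Q = 0) :
    Sim Qb P.p (ι (-Q)) (ι Q)⁻¹ := by
  have hQ' : P.p • (-Q) = 0 := by rw [neg_nsmul, hQ, _root_.neg_zero]
  have hne : ι Q ≠ 0 := hι.ne_zero Q hQ
  have h1 := sim_add hι hQ hQ'
  rw [add_neg_cancel] at h1
  have h2 : Sim Qb P.p (ι Q * ι (-Q)) 1 := h1.symm.trans (sim_zero hι)
  have h3 : Sim Qb P.p (ι Q * ι (-Q)) (ι Q * (ι Q)⁻¹) := by rwa [mul_inv_cancel₀ hne]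
  exact Sim.of_mul_left hne h3

theorem sim_sub (hι : IsNewEmb P N' W ι) {Q Q' : (P.freyCurve⁄Qb).Point} (hQ : P.p • Q = 0)
    (hQ' : P.p • Q' = 0) : Sim Qb P.p (ι (Q - Q')) (ι Q / ι Q') := by
  have hQ'' : P.p • (-Q') = 0 := by rw [neg_nsmul, hQ', _root_.neg_zero]
  rw [sub_eq_add_neg, div_eq_mul_inv]
  exact (sim_add hι hQ hQ'').trans ((Sim.refl _).mul (sim_neg hι hQ'))

theorem sim_nsmul (hι : IsNewEmb P N' W ι) {Q : (P.freyCurve⁄Qb).Point} (hQ : P.p • Q = 0)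
    (n : ℕ) : Sim Qb P.p (ι (n • Q)) (ι Q ^ n) := by
  induction n with
  | zero =>
    rw [zero_nsmul, pow_zero]
    exact sim_zero hι
  | succ n ih =>
    have hn : P.p • (n • Q) = 0 := by rw [nsmul_left_comm, hQ, nsmul_zero]
    rw [succ_nsmul, pow_succ]
    exact (sim_add hι hn hQ).trans (ih.mul (Sim.refl _))

theorem sim_zsmul (hι : IsNewEmb P N' W ι) {Q : (P.freyCurve⁄Qb).Point} (hQ : P.p • Q = 0)
    (n : ℤ) : Sim Qb P.p (ι (n • Q)) (ι Q ^ n) := by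
  cases n with
  | ofNat n =>
    rw [Int.ofNat_eq_natCast, natCast_zsmul, zpow_natCast]
    exact sim_nsmul hι hQ n
  | negSucc n =>
    have hn : P.p • ((n + 1) • Q) = 0 := by rw [nsmul_left_comm, hQ, nsmul_zero]
    rw [negSucc_zsmul, zpow_negSucc]
    exact (sim_neg hι hn).trans (sim_nsmul hι hQ (n + 1)).inv

theorem sim_gal (hι : IsNewEmb P N' W ι) (σ : GQb) {Q : (P.freyCurve⁄Qb).Point}
    (hQ : P.p • Q = 0) : Sim Qb P.p (ι (σ • Q)) (galF (N' * P.p) σ (ι Q)) := by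
  obtain ⟨c, g, h⟩ := hι.gal σ Q hQ
  exact sim_of_eq_mul (NeZero.ne P.p)
    (hι.ne_zero _ (nsmul_smul_eq_zero P.freyCurve P.p σ hQ)) h

theorem sim_hecke (hι : IsNewEmb P N' W ι) {ℓ : ℕ} (hℓ : ℓ.Prime) (hℓN : ¬ ℓ ∣ N' * P.p)
    (hgood : W.IsGoodPrimeFor ℓ) {Q : (P.freyCurve⁄Qb).Point} (hQ : P.p • Q = 0) :
    Sim Qb P.p (E4.heckeFb (N' * P.p) ℓ (ι Q)) (ι Q ^ (W.apOfModel ℓ)) := by
  obtain ⟨c, g, h⟩ := hι.hecke ℓ hℓ hℓN hgood Q hQ
  obtain ⟨hc, hg⟩ := TopProof.ne_zero_of_hecke_eq (N' * P.p) hℓ hℓN (NeZero.ne P.p)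
    (hι.ne_zero Q hQ) h
  exact ⟨c, g, hc, hg, h⟩

theorem eq_zero_of_sim_one (hι : IsNewEmb P N' W ι) {Q : (P.freyCurve⁄Qb).Point}
    (hQ : P.p • Q = 0) (h : Sim Qb P.p (ι Q) 1) : Q = 0 := by
  obtain ⟨c, g, -, -, h⟩ := h
  exact hι.inj Q hQ ⟨c, g, by rw [h, mul_one]⟩

theorem eq_of_sim (hι : IsNewEmb P N' W ι) {Q Q' : (P.freyCurve⁄Qb).Point} (hQ : P.p • Q = 0)
    (hQ' : P.p • Q' = 0) (h : Sim Qb P.p (ι Q) (ι Q')) : Q = Q' := by
  have hne : ι Q' ≠ 0 := hι.ne_zero Q' hQ'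
  have hd : P.p • (Q - Q') = 0 := by rw [nsmul_sub, hQ, hQ', sub_zero]
  have h1 : Sim Qb P.p (ι (Q - Q')) (ι Q' / ι Q') :=
    (sim_sub hι hQ hQ').trans (h.div (Sim.refl _))
  rw [div_self hne] at h1
  exact sub_eq_zero.mp (eq_zero_of_sim_one hι hd h1)

theorem eq_nsmul_of_sim_pow (hι : IsNewEmb P N' W ι) {T R : (P.freyCurve⁄Qb).Point}
    (hT : P.p • T = 0) (hR : P.p • R = 0) (n : ℕ) (h : Sim Qb P.p (ι R) (ι T ^ n)) :
    R = n • T := by
  have hn : P.p • (n • T) = 0 := by rw [nsmul_left_comm, hT, nsmul_zero]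
  exact eq_of_sim hι hR hn (h.trans (sim_nsmul hι hT n).symm)

theorem eq_zsmul_of_sim_zpow (hι : IsNewEmb P N' W ι) {T R : (P.freyCurve⁄Qb).Point}
    (hT : P.p • T = 0) (hR : P.p • R = 0) (n : ℤ) (h : Sim Qb P.p (ι R) (ι T ^ n)) :
    R = n • T := by
  have hn : P.p • (n • T) = 0 := by
    rw [← natCast_zsmul, smul_comm, natCast_zsmul, hT, zsmul_zero]
  exact eq_of_sim hι hR hn (h.trans (sim_zsmul hι hT n).symm)

/-! ### With an `EShape` datum -/

variable {A : ValuationSubring Qb} {T R : (P.freyCurve⁄Qb).Point} {ζ b : Qb}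

/-- **The contradiction closing NZ.**  `ι R` is not a constant times a power of `ι T` times a
`p`-th power. -/
theorem not_sim_zpow (hι : IsNewEmb P N' W ι) (hE : EShapeData P A T R ζ b) (n : ℤ) :
    ¬ Sim Qb P.p (ι R) (ι T ^ n) := by
  obtain ⟨hT, hR, -, hRT, -⟩ := hE
  intro h
  have h1 := eq_zsmul_of_sim_zpow hι hT hR n h
  have hp0 : (P.p : ℤ) ≠ 0 := by exact_mod_cast NeZero.ne P.p
  have h2 : n • T = (n % (P.p : ℤ)).toNat • T := by
    have hnn : 0 ≤ n % (P.p : ℤ) := Int.emod_nonneg n hp0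
    rw [← natCast_zsmul T (n % (P.p : ℤ)).toNat, Int.toNat_of_nonneg hnn]
    conv_lhs => rw [← Int.emod_add_mul_ediv n (P.p : ℤ)]
    rw [add_zsmul, mul_zsmul', natCast_zsmul, hT, zsmul_zero, add_zero]
  exact hRT _ (h1.trans h2)

/-- `ι R` is not a constant times a `p`-th power. -/
theorem not_sim_one (hι : IsNewEmb P N' W ι) (hE : EShapeData P A T R ζ b) :
    ¬ Sim Qb P.p (ι R) 1 := by
  have h := not_sim_zpow hι hE 0
  rwa [zpow_zero] at h

/-- **The exit of NZ.**  If `θ f = 0` forces `ι R ~ (ι T)^n` for some `n`, then `θ f ≠ 0`. -/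
theorem exists_coeff_ne_zero_of_core (hι : IsNewEmb P N' W ι) (hE : EShapeData P A T R ζ b)
    {f : LaurentSeries (IsLocalRing.ResidueField A)}
    (hcore : (∀ n : ℤ, (n : IsLocalRing.ResidueField A) * f.coeff n = 0) →
      ∃ n : ℤ, Sim Qb P.p (ι R) (ι T ^ n)) :
    ∃ n : ℤ, (n : IsLocalRing.ResidueField A) * f.coeff n ≠ 0 := by
  by_contra hne
  have hne' : ∀ n : ℤ, (n : IsLocalRing.ResidueField A) * f.coeff n = 0 :=
    fun n => by_contra fun hn => hne ⟨n, hn⟩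
  obtain ⟨n, hn⟩ := hcore hne'
  exact not_sim_zpow hι hE n hn

/-- The inertia group acts on the class of `ι T` through the cyclotomic character. -/
theorem sim_galF_T (hι : IsNewEmb P N' W ι) (hE : EShapeData P A T R ζ b) (σ : GQb)
    (hσ : σ ∈ A.inertiaSubgroupIn ℚ) :
    ∃ k : ℕ, σ ζ = ζ ^ k ∧ Sim Qb P.p (galF (N' * P.p) σ (ι T)) (ι T ^ k) := by
  obtain ⟨hT, hR, -, -, -, -, -, -, hin⟩ := hE
  obtain ⟨k, j, hζ, hσT, -, -⟩ := hin σ hσ
  refine ⟨k, hζ, ?_⟩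
  have h1 := (sim_gal hι σ hT).symm
  rw [hσT] at h1
  exact h1.trans (sim_nsmul hι hT k)

/-- The inertia group acts on the classes of `ι T`, `ι R` by `[χ, a; 0, 1]`, with the same
exponents as on `ζ` and `b`. -/
theorem sim_galF_R (hι : IsNewEmb P N' W ι) (hE : EShapeData P A T R ζ b) (σ : GQb)
    (hσ : σ ∈ A.inertiaSubgroupIn ℚ) :
    ∃ k j : ℕ, σ ζ = ζ ^ k ∧ σ b = ζ ^ j * b ∧
      Sim Qb P.p (galF (N' * P.p) σ (ι T)) (ι T ^ k) ∧
      Sim Qb P.p (galF (N' * P.p) σ (ι R)) (ι R * ι T ^ j) := by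
  obtain ⟨hT, hR, -, -, -, -, -, -, hin⟩ := hE
  obtain ⟨k, j, hζ, hσT, hb, hσR⟩ := hin σ hσ
  refine ⟨k, j, hζ, hb, ?_, ?_⟩
  · have h1 := (sim_gal hι σ hT).symm
    rw [hσT] at h1
    exact h1.trans (sim_nsmul hι hT k)
  · have hj : P.p • (j • T) = 0 := by rw [nsmul_left_comm, hT, nsmul_zero]
    have h1 := (sim_gal hι σ hR).symm
    rw [hσR] at h1
    exact h1.trans ((sim_add hι hR hj).trans ((Sim.refl _).mul (sim_nsmul hι hT j)))

/-- An inertia element fixing `ζ` fixes the class of `ι T`. -/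
theorem sim_galF_T_of_fix (hι : IsNewEmb P N' W ι) (hE : EShapeData P A T R ζ b) (σ : GQb)
    (hσ : σ ∈ A.inertiaSubgroupIn ℚ) (hfix : σ ζ = ζ) :
    Sim Qb P.p (galF (N' * P.p) σ (ι T)) (ι T) := by
  obtain ⟨k, hk, hsim⟩ := sim_galF_T hι hE σ hσ
  obtain ⟨hT, -, -, -, hζ, -⟩ := hE
  have hζ0 : ζ ≠ 0 := hζ.ne_zero (NeZero.ne P.p)
  have h1 : ζ ^ ((k : ℤ) - 1) = 1 := by
    rw [zpow_sub₀ hζ0, zpow_natCast, zpow_one, ← hk, hfix, div_self hζ0]
  have h2 : (P.p : ℤ) ∣ (k : ℤ) - 1 := (hζ.zpow_eq_one_iff_dvd _).mp h1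
  have h3 : (k : ℤ) ≡ 1 [ZMOD (P.p : ℤ)] := (Int.modEq_iff_dvd.mpr h2).symm
  have h4 := sim_zpow_of_modEq (k := Qb) (hι.ne_zero T hT) h3
  rw [zpow_natCast, zpow_one] at h4
  exact hsim.trans h4

/-- An inertia element fixing `b` fixes the class of `ι R`. -/
theorem sim_galF_R_of_fix (hι : IsNewEmb P N' W ι) (hE : EShapeData P A T R ζ b) (σ : GQb)
    (hσ : σ ∈ A.inertiaSubgroupIn ℚ) (hfix : σ b = b) :
    Sim Qb P.p (galF (N' * P.p) σ (ι R)) (ι R) := by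
  obtain ⟨k, j, -, hj, -, hsim⟩ := sim_galF_R hι hE σ hσ
  obtain ⟨hT, -, -, -, hζ, hb0, -⟩ := hE
  have h1 : ζ ^ j = 1 := by
    have h2 : ζ ^ j * b = 1 * b := by rw [← hj, hfix, one_mul]
    exact mul_right_cancel₀ hb0 h2
  obtain ⟨d, rfl⟩ := hζ.dvd_of_pow_eq_one j h1
  have h3 := (Sim.refl (k := Qb) (p := P.p) (ι R)).mul
    (sim_pow_mul (k := Qb) (hι.ne_zero T hT) d)
  rw [mul_one] at h3
  exact hsim.trans h3

/-- The same as an equation (the input shape of `S36/Descent.exists_invariant_rep_subgroup`). -/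
theorem exists_galF_R_eq (hι : IsNewEmb P N' W ι) (hE : EShapeData P A T R ζ b) (σ : GQb)
    (hσ : σ ∈ A.inertiaSubgroupIn ℚ) (hfix : σ b = b) :
    ∃ g : FN (N' * P.p), g ≠ 0 ∧ galF (N' * P.p) σ (ι R) = ι R * g ^ P.p :=
  (sim_galF_R_of_fix hι hE σ hσ hfix).exists_eq_mul_pow (NeZero.ne P.p)

end Iota

end Fermat.Agent.S44.L.IotaCalc
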