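import Mathlib
import Fermat.Agent.S44.L.IotaCalc
import Fermat.Agent.S36.Descent
import Fermat.Agent.S36.CoefDescent
import Fermat.Agent.S36.InvAux

/-!
# PROGRAM MR (S44), strand L, cover-free ALT, row ALT.8 (a): descent of the class of `ι R`

(helper84.)  `Fb`-level part of the row DESC: for a new embedding `ι` and an `EShape` datum
`(T, R, ζ, b)` at `A`, the class of `ι R` modulo `p`-th powers is invariant under the
stabiliser `stab A b = {τ ∈ I_A : τ b = b}` of `b` in the inertia group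
(`IotaCalc.exists_galF_R_eq`), so at any level `M` divisible by `N' p`:

* `exists_desc` : `ι R = f₀ · h ^ p` in `Fb M`, with `f₀ ≠ 0` fixed by `stab A b`, `p ∣ div f₀`,
  and `f₀` defined over a number field `Ks` fixed pointwise by `stab A b` and containing any
  given finite set of `stab A b`-fixed numbers (S36 `Descent.exists_invariant_rep_subgroup` +
  `Descent.exists_numberField_rep_level`).

The remaining part of the row (`Ks ≤ K(b)` with `K` in the inertia field, `Horiz`) is (8b).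
-/

set_option autoImplicit false

open WeierstrassCurve WeierstrassCurve.Affine WeierstrassCurve.Affine.Point
open HahnSeries ModularCurve AlgebraicCurve

namespace Fermat.Agent.S44.L.AltDesc

open Fermat.Agent.S30 Fermat.Agent.S30.Producer Fermat.Agent.S30.E4 Fermat.Agent.S44.Contract
open Fermat.Agent.S44.L.Top Fermat.Agent.S44.L.IotaCalc
open Fermat.Agent.S37.LevelPull (lvl coe_lvl)

local notation "GQb" => (AlgebraicClosure ℚ ≃ₐ[ℚ] AlgebraicClosure ℚ)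

/-- The stabiliser of `b` in the inertia group of `A`. -/
def stab (A : ValuationSubring Qb) (b : Qb) : Subgroup GQb where
  carrier := {τ | τ ∈ A.inertiaSubgroupIn ℚ ∧ τ b = b}
  mul_mem' := by
    rintro σ τ ⟨hσ, hσb⟩ ⟨hτ, hτb⟩
    exact ⟨mul_mem hσ hτ, by rw [AlgEquiv.mul_apply, hτb, hσb]⟩
  one_mem' := ⟨one_mem _, rfl⟩
  inv_mem' := by
    rintro σ ⟨hσ, hσb⟩
    refine ⟨inv_mem hσ, ?_⟩
    have h1 : σ⁻¹ (σ b) = b := σ.symm_apply_apply b
    rwa [hσb] at h1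

theorem mem_stab {A : ValuationSubring Qb} {b : Qb} {τ : GQb} :
    τ ∈ stab A b ↔ τ ∈ A.inertiaSubgroupIn ℚ ∧ τ b = b := Iff.rfl

theorem stab_le (A : ValuationSubring Qb) (b : Qb) : stab A b ≤ A.inertiaSubgroupIn ℚ :=
  fun _ h => h.1

section Desc

variable {P : FreyPackage} {N' : ℕ} [NeZero N'] [NeZero P.p] {W : WeierstrassCurve ℤ}
  {ι : (P.freyCurve⁄Qb).Point → FN (N' * P.p)} {A : ValuationSubring Qb}
  {T R : (P.freyCurve⁄Qb).Point} {ζ b : Qb}

/-- The class of `ι R` at level `M` is invariant under `stab A b`. -/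
theorem exists_gal_lvl_eq (hι : IsNewEmb P N' W ι) (hE : EShapeData P A T R ζ b) {M : ℕ}
    [NeZero M] (hM : N' * P.p ∣ M) (τ : GQb) (hτ : τ ∈ stab A b) :
    ∃ k : Fb M, k ≠ 0 ∧ gal M τ (lvl hM (ι R)) = lvl hM (ι R) * k ^ P.p := by
  obtain ⟨g, hg0, hg⟩ := exists_galF_R_eq hι hE τ hτ.1 hτ.2
  refine ⟨lvl hM g, (map_ne_zero (lvl hM)).mpr hg0, ?_⟩
  rw [Fermat.Agent.S36.InvAux.gal_lvl, ← map_pow, ← map_mul]
  exact congrArg (lvl hM) hg

/-- **ALT.8 (a).**  Descent of `ι R` at level `M` along `stab A b`. -/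
theorem exists_desc (hι : IsNewEmb P N' W ι) (hE : EShapeData P A T R ζ b) {M : ℕ} [NeZero M]
    (hM : N' * P.p ∣ M) (S : Finset Qb) (hS : ∀ s ∈ S, ∀ τ ∈ stab A b, τ s = s) :
    ∃ (f0 h : Fb M) (Ks : IntermediateField ℚ Qb) (y : LaurentSeries Ks),
      f0 ≠ 0 ∧ h ≠ 0 ∧ lvl hM (ι R) = f0 * h ^ P.p ∧
      (∀ τ ∈ stab A b, gal M τ f0 = f0) ∧ DivBy M P.p f0 ∧
      FiniteDimensional ℚ Ks ∧ (∀ τ ∈ stab A b, ∀ x ∈ Ks, τ x = x) ∧ (∀ s ∈ S, s ∈ Ks) ∧
      y ∈ laurentBaseChange Ks (modularFunctionFieldFull M) ∧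
      coeffMap (algebraMap Ks Qb) y = (f0 : LaurentSeries Qb) := by
  have hR : P.p • R = 0 := hE.2.1
  have hx0 : lvl hM (ι R) ≠ 0 := (map_ne_zero (lvl hM)).mpr (hι.ne_zero R hR)
  have hinv : ∀ τ ∈ stab A b, ∃ k : Fb M, gal M τ (lvl hM (ι R)) = lvl hM (ι R) * k ^ P.p := by
    intro τ hτ
    obtain ⟨k, -, hk⟩ := exists_gal_lvl_eq hι hE hM τ hτ
    exact ⟨k, hk⟩
  obtain ⟨f0, h, hh0, hfe, hfix⟩ :=
    Fermat.Agent.S36.Descent.exists_invariant_rep_subgroup M (stab A b) (NeZero.pos P.p)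
      (lvl hM (ι R)) hx0 hinv
  have hf00 : f0 ≠ 0 := by
    rintro rfl
    rw [zero_mul] at hfe
    exact hx0 hfe
  obtain ⟨Ks, hfin, hKfix, hSK, y, hy, hyf⟩ :=
    Fermat.Agent.S36.Descent.exists_numberField_rep_level M (stab A b) f0 hfix S hS
  have hhp : h ^ P.p ≠ 0 := pow_ne_zero _ hh0
  have hdiv : DivBy M P.p f0 := by
    have h1 : DivBy M P.p (lvl hM (ι R)) :=
      Fermat.Agent.S36.InvAux.divBy_lvl hM (hι.divBy R hR)
    have h2 : f0 = lvl hM (ι R) * (h ^ P.p)⁻¹ := by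
      rw [hfe, mul_assoc, mul_inv_cancel₀ hhp, mul_one]
    rw [h2]
    exact DivBy.mul hx0 (inv_ne_zero hhp) h1 (divBy_pow_self M P.p h).inv
  exact ⟨f0, h, Ks, y, hf00, hh0, hfe, hfix, hdiv, hfin, hKfix, hSK, hy, hyf⟩

end Desc

end Fermat.Agent.S44.L.AltDesc
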