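import Mathlib
import Fermat.Agent.S44.L.AltDesc
import Fermat.Agent.Lib.FixAdjoin

/-!
# PROGRAM MR (S44), strand L, cover-free ALT, row ALT.8 (a'): the representative over `K(b)`

(helper197, on top of helper84's `AltDesc.exists_desc` and `Lib/FixAdjoin`.)  For a new
embedding `ι` and an `EShape` datum `(T, R, ζ, b)` at `A`, at any level `M` divisible by
`N' p`: the class of `ι R` modulo `p`-th powers has a representative defined over
`K(b) = K ⊔ ℚ(b)`, where `K` is a number field fixed pointwise by the WHOLE inertia group of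
`A` (so `K` is unramified at `A`) and contains any given such number field `K₀`.

* `exists_desc_series` : the series form (`y ∈ laurentBaseChange (K ⊔ ℚ(b)) _`).
* `exists_desc_LE`     : the `LE` form (`fs : LE M (K ⊔ ℚ(b))`, `InvFun.upF`), with `p ∣ div`.
* `exists_rep`         : level `N' p`, relation `IotaCalc.Sim` (the shape of
  `NZ.EisBricks.NZRepStatement`).
-/

set_option autoImplicit false

open WeierstrassCurve WeierstrassCurve.Affine WeierstrassCurve.Affine.Point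
open HahnSeries ModularCurve AlgebraicCurve

namespace Fermat.Agent.S44.L.AltDescLE

open Fermat.Agent.S30 Fermat.Agent.S30.Producer Fermat.Agent.S30.E4 Fermat.Agent.S44.Contract
open Fermat.Agent.S44.L.Top Fermat.Agent.S44.L.IotaCalc
open Fermat.Agent.S37.LevelPull (lvl coe_lvl)
open Fermat.Agent.S18.K1Defs (LE)

local notation "GQb" => (AlgebraicClosure ℚ ≃ₐ[ℚ] AlgebraicClosure ℚ)

variable {P : FreyPackage} {N' : ℕ} [NeZero N'] [NeZero P.p] {W : WeierstrassCurve ℤ}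
  {ι : (P.freyCurve⁄Qb).Point → FN (N' * P.p)} {A : ValuationSubring Qb}
  {T R : (P.freyCurve⁄Qb).Point} {ζ b : Qb}

/-- **ALT.8 (a'), series form.**  At level `M`, `ι R = f₀ · h ^ p` with `p ∣ div f₀` and `f₀`
the coefficient extension of a series `y` over `K ⊔ ℚ(b)` lying in the function field of level
`M` over that field; `K ⊇ K₀` is a number field fixed pointwise by the inertia group. -/
theorem exists_desc_series (hι : IsNewEmb P N' W ι) (hE : EShapeData P A T R ζ b) {M : ℕ}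
    [NeZero M] (hM : N' * P.p ∣ M) (K₀ : IntermediateField ℚ Qb) [FiniteDimensional ℚ K₀]
    (hK₀ : ∀ τ ∈ A.inertiaSubgroupIn ℚ, ∀ x ∈ K₀, τ x = x) :
    ∃ K : IntermediateField ℚ Qb, FiniteDimensional ℚ K ∧ K₀ ≤ K ∧
      (∀ τ ∈ A.inertiaSubgroupIn ℚ, ∀ x ∈ K, τ x = x) ∧
      ∃ (f0 h : Fb M) (y : LaurentSeries ↥(K ⊔ IntermediateField.adjoin ℚ ({b} : Set Qb))),
        f0 ≠ 0 ∧ h ≠ 0 ∧ lvl hM (ι R) = f0 * h ^ P.p ∧ DivBy M P.p f0 ∧
        y ∈ laurentBaseChange ↥(K ⊔ IntermediateField.adjoin ℚ ({b} : Set Qb))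
          (modularFunctionFieldFull M) ∧
        coeffMap (algebraMap ↥(K ⊔ IntermediateField.adjoin ℚ ({b} : Set Qb)) Qb) y
          = (f0 : LaurentSeries Qb) := by
  obtain ⟨f0, h, Ks, y, hf0, hh0, hfe, -, hdiv, hKsfin, hKsfix, -, hy, hyf⟩ :=
    AltDesc.exists_desc hι hE hM ∅ (by simp)
  obtain ⟨K, hKfin, hK₀K, hKfix, hle⟩ :=
    Fermat.Agent.Lib.DescentSubfield.exists_numberField_sup_adjoin (A.inertiaSubgroupIn ℚ) b
      K₀ Ks inferInstance hKsfin hK₀ (fun τ hτ hτb x hx => hKsfix τ ⟨hτ, hτb⟩ x hx)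
  refine ⟨K, hKfin, hK₀K, hKfix, f0, h,
    coeffMap (IntermediateField.inclusion hle).toRingHom y, hf0, hh0, hfe, hdiv, ?_, ?_⟩
  · exact Fermat.Agent.S18.K1Top.coeffMap_mem_laurentBaseChange_hom _ hy
  · rw [coeffMap_coeffMap, ← hyf]
    rfl

/-- **ALT.8 (a'), `LE` form** (the literal of helper84 #7696).  At level `M`,
`ι R = upF fs · h ^ p` with `fs` in the function field of level `M` over `K ⊔ ℚ(b)`, `K ⊇ K₀` a
number field fixed pointwise by the inertia group, and `p ∣ div (upF fs)`. -/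
theorem exists_desc_LE (hι : IsNewEmb P N' W ι) (hE : EShapeData P A T R ζ b) {M : ℕ}
    [NeZero M] (hM : N' * P.p ∣ M) (K₀ : IntermediateField ℚ Qb) [FiniteDimensional ℚ K₀]
    (hK₀ : ∀ τ ∈ A.inertiaSubgroupIn ℚ, ∀ x ∈ K₀, τ x = x) :
    ∃ (K : IntermediateField ℚ Qb)
      (fs : LE M ↥(K ⊔ IntermediateField.adjoin ℚ ({b} : Set Qb))) (h : Fb M),
      FiniteDimensional ℚ K ∧ K₀ ≤ K ∧ (∀ τ ∈ A.inertiaSubgroupIn ℚ, ∀ x ∈ K, τ x = x) ∧
      fs ≠ 0 ∧ h ≠ 0 ∧ lvl hM (ι R) = Fermat.Agent.S36.InvFun.upF M _ fs * h ^ P.p ∧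
      DivBy M P.p (Fermat.Agent.S36.InvFun.upF M _ fs) := by
  obtain ⟨K, hKfin, hK₀K, hKfix, f0, h, y, hf0, hh0, hfe, hdiv, hy, hyf⟩ :=
    exists_desc_series hι hE hM K₀ hK₀
  have hup : Fermat.Agent.S36.InvFun.upF M
      (K ⊔ IntermediateField.adjoin ℚ ({b} : Set Qb)) ⟨y, hy⟩ = f0 := Subtype.ext hyf
  refine ⟨K, ⟨y, hy⟩, h, hKfin, hK₀K, hKfix, ?_, hh0, ?_, ?_⟩
  · intro h0
    apply hf0
    rw [← hup, h0, _root_.map_zero]
  · rw [hup]
    exact hfe
  · rw [hup]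
    exact hdiv

/-- **The representative at level `N' p`** (the shape of `NZ.EisBricks.NZRepStatement`):
`ι R ~ f₀` modulo constants and `p`-th powers, `f₀` defined over `K ⊔ ℚ(b)`. -/
theorem exists_rep (hι : IsNewEmb P N' W ι) (hE : EShapeData P A T R ζ b)
    (K₀ : IntermediateField ℚ Qb) (hK₀fin : FiniteDimensional ℚ K₀)
    (hK₀ : ∀ τ : GQb, τ ∈ A.inertiaSubgroupIn ℚ → ∀ x ∈ K₀, τ x = x) :
    ∃ K : IntermediateField ℚ Qb, FiniteDimensional ℚ K ∧ K₀ ≤ K ∧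
      (∀ τ : GQb, τ ∈ A.inertiaSubgroupIn ℚ → ∀ x ∈ K, τ x = x) ∧
      ∃ (f0 : FN (N' * P.p))
        (y : LaurentSeries ↥(K ⊔ IntermediateField.adjoin ℚ ({b} : Set Qb))),
        y ∈ laurentBaseChange ↥(K ⊔ IntermediateField.adjoin ℚ ({b} : Set Qb))
          (modularFunctionFieldFull (N' * P.p)) ∧
        coeffMap (algebraMap ↥(K ⊔ IntermediateField.adjoin ℚ ({b} : Set Qb)) Qb) y
          = (f0 : LaurentSeries Qb) ∧
        Sim Qb P.p (ι R) f0 := by
  obtain ⟨K, hKfin, hK₀K, hKfix, f0, h, y, hf0, hh0, hfe, -, hy, hyf⟩ :=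
    exists_desc_series hι hE (dvd_refl (N' * P.p)) K₀ hK₀
  refine ⟨K, hKfin, hK₀K, hKfix, f0, y, hy, hyf, 1, h, one_ne_zero, hh0, ?_⟩
  have hl : lvl (dvd_refl (N' * P.p)) (ι R) = ι R := Subtype.ext (coe_lvl _ _)
  rw [← hl, hfe, _root_.map_one, one_mul]

end Fermat.Agent.S44.L.AltDescLE
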