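import Mathlib
import Fermat.Agent.S36.CycloBase
import Fermat.Agent.S44.L.Kappa

/-!
# Perfectness of the residue field at the `O_K[ζ]` seam (strand L of S44)

`A` is a valuation subring of `ℚ̄` over the prime `q`.  The residue field of `A` is algebraic
over `𝔽_q` (`Kappa.isAlgebraic_residue`), hence perfect, and a `q`-th root can be taken to be a
*power* of the given element, so it stays in every subring:

* `exists_residue_pow_eq`: `c ^ (q ^ f) = c` for some `f ≥ 1`, for every `c` in the residue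
  field of `A`;
* `exists_valuation_pow_sub_lt`: `|x ^ (q ^ f) - x| < 1` for some `f ≥ 1`, for every `x ∈ A`;
* `exists_pow_sub_dvd_lam`: the hypothesis `hperf` of the node lemma for `O = A ∩ K(ζ)`,
  `ϖ = ζ - 1`: every `y ∈ O` is congruent to a `q`-th power modulo `ζ - 1`;
* `exists_pow_sub_dvd_natCast`: the same for `O = A ∩ K`, `ϖ = q`, `K` unramified.
-/

set_option autoImplicit false

open scoped IntermediateField
open Polynomial

noncomputable section

namespace Fermat.Agent.S44.L.CycloPerf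

local notation "Qb" => AlgebraicClosure ℚ

open Fermat.Agent.S18.K1Defs Fermat.Agent.S36.UnramBase Fermat.Agent.S30
open Fermat.Agent.S36.CycloBase

variable (A : ValuationSubring Qb) {q : ℕ} (hq : q.Prime) (hA : A.LiesOverPrime q)

include hq hA in
/-- Every element of the residue field of `A` is fixed by a positive power of Frobenius. -/
theorem exists_residue_pow_eq (c : IsLocalRing.ResidueField A) :
    ∃ f : ℕ, 0 < f ∧ c ^ (q ^ f) = c := by
  have : Fact q.Prime := ⟨hq⟩
  have := Kappa.charP_residueField hq hA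
  let _ : Algebra (ZMod q) (IsLocalRing.ResidueField A) :=
    (ZMod.castHom (dvd_refl q) (IsLocalRing.ResidueField A)).toAlgebra
  have halg : IsAlgebraic (ZMod q) c := Kappa.isAlgebraic_residue hq hA c
  have : FiniteDimensional (ZMod q) (ZMod q)⟮c⟯ :=
    IntermediateField.adjoin.finiteDimensional halg.isIntegral
  have : Finite (ZMod q)⟮c⟯ := Module.finite_of_finite (ZMod q)
  let _ : Fintype (ZMod q)⟮c⟯ := Fintype.ofFinite _
  have : CharP (ZMod q)⟮c⟯ q :=
    charP_of_injective_algebraMap (algebraMap (ZMod q) (ZMod q)⟮c⟯).injective q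
  obtain ⟨n, -, hn⟩ := FiniteField.card (ZMod q)⟮c⟯ q
  have hmem : c ∈ (ZMod q)⟮c⟯ := IntermediateField.mem_adjoin_simple_self _ c
  have h := FiniteField.pow_card (⟨c, hmem⟩ : (ZMod q)⟮c⟯)
  rw [hn] at h
  refine ⟨n, n.pos, ?_⟩
  have h2 := congrArg (fun u : (ZMod q)⟮c⟯ => (u : IsLocalRing.ResidueField A)) h
  simpa using h2

include hq hA in
/-- Every element of `A` is congruent to its image under a positive power of Frobenius. -/
theorem exists_valuation_pow_sub_lt (x : Qb) (hx : x ∈ A) :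
    ∃ f : ℕ, 0 < f ∧ A.valuation (x ^ (q ^ f) - x) < 1 := by
  obtain ⟨f, hf, h⟩ := exists_residue_pow_eq A hq hA (IsLocalRing.residue A ⟨x, hx⟩)
  refine ⟨f, hf, ?_⟩
  rw [← map_pow, ← sub_eq_zero, ← map_sub, IsLocalRing.residue_eq_zero_iff] at h
  exact (A.valuation_lt_one_iff _).mp h

variable (K : IntermediateField ℚ Qb) [FiniteDimensional ℚ K]
  (hK : A.inertiaSubgroupIn ℚ ≤ K.fixingSubgroup) {ζ : Qb} (hζ : IsPrimitiveRoot ζ q)

include hA hK in
/-- **`hperf` of the node lemma at `O = A ∩ K(ζ)`, `ϖ = ζ - 1`.** -/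
theorem exists_pow_sub_dvd_lam (y : OE A (cyclo K ζ)) :
    ∃ b : OE A (cyclo K ζ), lam A hq K hζ ∣ y - b ^ q := by
  obtain ⟨f, hf, hv⟩ := exists_valuation_pow_sub_lt A hq hA (((y : cyclo K ζ)) : Qb)
    (coe_mem_of_OE A _ y)
  refine ⟨y ^ (q ^ (f - 1)), ?_⟩
  have e : (y ^ (q ^ (f - 1))) ^ q = y ^ (q ^ f) := by
    rw [← pow_mul, ← pow_succ, Nat.sub_add_cancel hf]
  rw [e, lam_dvd_iff A hq hA K hK hζ, isUnit_OE_iff]
  intro h1
  have h2 : (((y - y ^ (q ^ f) : OE A (cyclo K ζ)) : cyclo K ζ) : Qb)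
      = -((((y : cyclo K ζ)) : Qb) ^ (q ^ f) - (((y : cyclo K ζ)) : Qb)) := by
    push_cast
    ring
  rw [h2, Valuation.map_neg] at h1
  rw [h1] at hv
  exact lt_irrefl _ hv

include hq hA hK in
/-- **`hperf` at the unramified base `O = A ∩ K`, `ϖ = q`.** -/
theorem exists_pow_sub_dvd_natCast (y : OE A K) :
    ∃ b : OE A K, ((q : ℕ) : OE A K) ∣ y - b ^ q := by
  obtain ⟨f, hf, hv⟩ := exists_valuation_pow_sub_lt A hq hA (((y : K)) : Qb)
    (coe_mem_of_OE A _ y)
  refine ⟨y ^ (q ^ (f - 1)), ?_⟩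
  have e : (y ^ (q ^ (f - 1))) ^ q = y ^ (q ^ f) := by
    rw [← pow_mul, ← pow_succ, Nat.sub_add_cancel hf]
  rw [e, ← Ideal.mem_span_singleton, ← maximalIdeal_OE_eq A K hq hA hK,
    IsLocalRing.mem_maximalIdeal, mem_nonunits_iff, isUnit_OE_iff]
  intro h1
  have h2 : (((y - y ^ (q ^ f) : OE A K) : K) : Qb)
      = -((((y : K)) : Qb) ^ (q ^ f) - (((y : K)) : Qb)) := by
    push_cast
    ring
  rw [h2, Valuation.map_neg] at h1
  rw [h1] at hv
  exact lt_irrefl _ hv

end Fermat.Agent.S44.L.CycloPerf
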