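import Mathlib
import Fermat.Agent.S36.CycloBase

/-!
# The `O_K[ζ]` seam of the node lemma (strand L of S44)

`A` is a valuation subring of `ℚ̄` over the prime `q`, `ζ` a primitive `q`-th root of unity,
`λ = ζ - 1`.

* `map_eq_of_pow_eq`: if `ω ^ q = 1 + λ ^ q * a` with `a ∈ A`, then every `σ` in the inertia
  group of `A` fixing `ζ` and `a` fixes `ω` (the class of `1 + λ ^ q a` is the *unramified*
  Kummer class).
* `map_eq_of_mem_cyclo`: an inertia element fixing `ζ` fixes `K(ζ)` pointwise when `K` is fixed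
  by inertia.
* `map_root_eq`: the Galois form of the conclusion of the node lemma: if
  `c₁ d ^ q = c₂ e ^ q (1 + λ ^ q a)` in `A ∩ K(ζ)`, then every `q`-th root of `c₁ / c₂` is fixed
  by the inertia elements fixing `ζ`.
-/

set_option autoImplicit false

open scoped IntermediateField
open Polynomial

noncomputable section

namespace Fermat.Agent.S44.L.CycloSeam

local notation "Qb" => AlgebraicClosure ℚ

open Fermat.Agent.S18.K1Defs Fermat.Agent.S36.UnramBase Fermat.Agent.S30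
open Fermat.Agent.S36.CycloBase

section Adapter

variable (A : ValuationSubring Qb) {q : ℕ} (hq : q.Prime) (hA : A.LiesOverPrime q)
  {ζ : Qb} (hζ : IsPrimitiveRoot ζ q)

include hq hζ in
/-- `|μ - 1| ≤ |ζ - 1|` for every `q`-th root of unity `μ`. -/
theorem valuation_root_sub_one_le (μ : Qb) (hμ : μ ^ q = 1) :
    A.valuation (μ - 1) ≤ A.valuation (ζ - 1) := by
  haveI : NeZero q := ⟨hq.ne_zero⟩
  obtain ⟨k, -, rfl⟩ := hζ.eq_pow_of_pow_eq_one hμ
  have h1 : ζ ^ k - 1 = (ζ - 1) * ∑ i ∈ Finset.range k, ζ ^ i := by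
    rw [mul_comm, geom_sum_mul]
  have h2 : A.valuation (∑ i ∈ Finset.range k, ζ ^ i) ≤ 1 := by
    rw [A.valuation_le_one_iff]
    exact sum_mem fun i _ => pow_mem (zeta_mem A hq hζ) i
  rw [h1, map_mul]
  exact mul_le_of_le_one_right' h2

include hq hA hζ in
/-- `|μ - 1| = |ζ - 1|` for every `q`-th root of unity `μ ≠ 1`. -/
theorem valuation_root_sub_one_eq (μ : Qb) (hμ : μ ^ q = 1) (hμ1 : μ ≠ 1) :
    A.valuation (μ - 1) = A.valuation (ζ - 1) := by
  have hμp : IsPrimitiveRoot μ q := by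
    have h1 : orderOf μ ∣ q := orderOf_dvd_of_pow_eq_one hμ
    rcases (Nat.dvd_prime hq).mp h1 with h | h
    · exact absurd (orderOf_eq_one_iff.mp h) hμ1
    · rw [← h]
      exact IsPrimitiveRoot.orderOf μ
  have h1 := (valuation_lam A hq hA hμp).2
  have h2 := (valuation_lam A hq hA hζ).2
  have hq1 : q - 1 ≠ 0 := by have := hq.two_le; omega
  exact (pow_left_inj₀ zero_le zero_le hq1).mp (h1.trans h2.symm)

include hq hζ in
/-- If `ω ^ q = 1 + λ ^ q a` with `a ∈ A`, then `|ω - 1| ≤ |λ|`. -/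
theorem valuation_sub_one_le (ω a : Qb) (ha : a ∈ A) (hω : ω ^ q = 1 + (ζ - 1) ^ q * a) :
    A.valuation (ω - 1) ≤ A.valuation (ζ - 1) := by
  by_contra hlt
  rw [not_le] at hlt
  have hprod : ω ^ q - 1 = ∏ μ ∈ nthRootsFinset q (1 : Qb), (ω - μ) := by
    have h := hζ.pow_sub_pow_eq_prod_sub_mul (x := ω) (y := 1) hq.pos
    simpa using h
  have hfac : ∀ μ ∈ nthRootsFinset q (1 : Qb), A.valuation (ω - μ) = A.valuation (ω - 1) := by
    intro μ hμ
    have hμ1 : μ ^ q = 1 := (mem_nthRootsFinset hq.pos 1).mp hμ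
    have h1 := valuation_root_sub_one_le A hq hζ μ hμ1
    have e : ω - μ = (ω - 1) - (μ - 1) := by ring
    rw [e]
    exact A.valuation.map_sub_eq_of_lt_left (lt_of_le_of_lt h1 hlt)
  have hcard : (nthRootsFinset q (1 : Qb)).card = q := hζ.card_nthRootsFinset
  have hv : A.valuation (ω ^ q - 1) = A.valuation (ω - 1) ^ q := by
    rw [hprod, map_prod, Finset.prod_congr rfl hfac, Finset.prod_const, hcard]
  have hv2 : A.valuation (ω ^ q - 1) ≤ A.valuation (ζ - 1) ^ q := by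
    rw [hω, add_sub_cancel_left, map_mul, map_pow]
    exact mul_le_of_le_one_right' ((A.valuation_le_one_iff _).mpr ha)
  rw [hv] at hv2
  exact absurd hv2 (not_le.mpr (pow_lt_pow_left₀ hlt zero_le hq.ne_zero))

include hq hA hζ in
/-- **The unramified Kummer class.**  If `ω ^ q = 1 + λ ^ q a` with `a ∈ A`, then every element
of the inertia group of `A` that fixes `ζ` and `a` fixes `ω`. -/
theorem map_eq_of_pow_eq (ω a : Qb) (ha : a ∈ A) (hω : ω ^ q = 1 + (ζ - 1) ^ q * a)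
    (σ : Qb ≃ₐ[ℚ] Qb) (hσ : σ ∈ A.inertiaSubgroupIn ℚ) (hσζ : σ ζ = ζ) (hσa : σ a = a) :
    σ ω = ω := by
  have hlam := valuation_lam A hq hA hζ
  have hlam0 : ζ - 1 ≠ 0 := zeta_sub_one_ne_zero hq hζ
  have hlampos := valuation_lam_pos A hq hζ
  have hωq : A.valuation (ω ^ q) = 1 := by
    rw [hω]
    have h1 : A.valuation ((ζ - 1) ^ q * a) < A.valuation (1 : Qb) := by
      rw [map_one, map_mul, map_pow]
      calc A.valuation (ζ - 1) ^ q * A.valuation a
          ≤ A.valuation (ζ - 1) ^ q * 1 := by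
            gcongr
            exact (A.valuation_le_one_iff _).mpr ha
        _ < 1 := by
            rw [mul_one]
            exact pow_lt_one₀ zero_le hlam.1 hq.ne_zero
    rw [A.valuation.map_add_eq_of_lt_left h1, map_one]
  have hω1 : A.valuation ω = 1 := by
    rw [map_pow] at hωq
    exact (pow_eq_one_iff_of_nonneg zero_le hq.ne_zero).mp hωq
  have hω0 : ω ≠ 0 := by
    intro h
    rw [h, map_zero] at hω1
    exact zero_ne_one hω1
  have hy : (ω - 1) / (ζ - 1) ∈ A := by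
    rw [← A.valuation_le_one_iff, map_div₀]
    exact div_le_one_of_le₀ (valuation_sub_one_le A hq hζ ω a ha hω) zero_le
  have hσω : (σ ω) ^ q = ω ^ q := by
    rw [← map_pow, hω]
    simp [hσζ, hσa]
  have hμq : (σ ω / ω) ^ q = 1 := by
    rw [div_pow, hσω, div_self (pow_ne_zero _ hω0)]
  have hσωμ : σ ω = (σ ω / ω) * ω := by rw [div_mul_cancel₀ _ hω0]
  by_contra hne
  have hμ1 : σ ω / ω ≠ 1 := by
    intro h
    rw [h, one_mul] at hσωμ
    exact hne hσωμ
  have hin := Fermat.Agent.Lib.InertiaBridge.sub_mem_of_mem_inertiaSubgroupIn A σ hσ _ hy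
  have hcalc : σ ((ω - 1) / (ζ - 1)) - (ω - 1) / (ζ - 1)
      = ω * ((σ ω / ω - 1) / (ζ - 1)) := by
    rw [map_div₀, map_sub, map_sub, map_one, hσζ]
    field_simp
    ring
  rw [hcalc] at hin
  have hv := A.mem_nonunits_iff.mp hin
  rw [map_mul, hω1, one_mul, map_div₀,
    valuation_root_sub_one_eq A hq hA hζ _ hμq hμ1, div_self hlampos.ne'] at hv
  exact lt_irrefl _ hv

/-- An inertia element fixing `ζ` fixes `K(ζ)` pointwise, when inertia fixes `K`. -/
theorem map_eq_of_mem_cyclo (K : IntermediateField ℚ Qb)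
    (hK : A.inertiaSubgroupIn ℚ ≤ K.fixingSubgroup) (ζ : Qb)
    (σ : Qb ≃ₐ[ℚ] Qb) (hσ : σ ∈ A.inertiaSubgroupIn ℚ) (hσζ : σ ζ = ζ)
    (x : Qb) (hx : x ∈ cyclo K ζ) : σ x = x := by
  rw [mem_cyclo_iff] at hx
  have hσK : ∀ y : K, σ (y : Qb) = y := fun y =>
    (IntermediateField.mem_fixingSubgroup_iff K σ).mp (hK hσ) y y.2
  induction hx using IntermediateField.adjoin_induction with
  | mem y hy =>
    rw [Set.mem_singleton_iff] at hy
    rw [hy, hσζ]
  | algebraMap y => exact hσK y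
  | add y z _ _ hy hz => rw [map_add, hy, hz]
  | inv y _ hy => rw [map_inv₀, hy]
  | mul y z _ _ hy hz => rw [map_mul, hy, hz]

variable (K : IntermediateField ℚ Qb) [FiniteDimensional ℚ K]
  (hK : A.inertiaSubgroupIn ℚ ≤ K.fixingSubgroup)

omit [FiniteDimensional ℚ K] in
include hA hK in
/-- **Galois form of the conclusion of the node lemma.**  If
`c₁ d ^ q = c₂ e ^ q (1 + λ ^ q a)` in `A ∩ K(ζ)` (`K` fixed by inertia), then every `q`-th root
`β` of `c₁ / c₂` in `ℚ̄` is fixed by the elements of the inertia group of `A` that fix `ζ`. -/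
theorem map_root_eq (c₁ c₂ d e a : OE A (cyclo K ζ)) (hc₂ : c₂ ≠ 0) (hd : d ≠ 0) (he : e ≠ 0)
    (h : c₁ * d ^ q = c₂ * e ^ q * (1 + lam A hq K hζ ^ q * a)) (β : Qb)
    (hβ : β ^ q * (((c₂ : cyclo K ζ)) : Qb) = (((c₁ : cyclo K ζ)) : Qb))
    (σ : Qb ≃ₐ[ℚ] Qb) (hσ : σ ∈ A.inertiaSubgroupIn ℚ) (hσζ : σ ζ = ζ) : σ β = β := by
  have hfix : ∀ z : OE A (cyclo K ζ), σ (((z : cyclo K ζ)) : Qb) = (((z : cyclo K ζ)) : Qb) :=
    fun z => map_eq_of_mem_cyclo A K hK ζ σ hσ hσζ _ (z : cyclo K ζ).2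
  have hne : ∀ z : OE A (cyclo K ζ), z ≠ 0 → (((z : cyclo K ζ)) : Qb) ≠ 0 := by
    intro z hz h0
    exact hz (Subtype.ext (Subtype.ext h0))
  have h' : (((c₁ : cyclo K ζ)) : Qb) * (((d : cyclo K ζ)) : Qb) ^ q
      = (((c₂ : cyclo K ζ)) : Qb) * (((e : cyclo K ζ)) : Qb) ^ q
        * (1 + (ζ - 1) ^ q * (((a : cyclo K ζ)) : Qb)) := by
    have h1 := congrArg (fun z : OE A (cyclo K ζ) => (((z : cyclo K ζ)) : Qb)) h
    simpa using h1
  have hd0 := hne d hd
  have he0 := hne e he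
  have hc0 := hne c₂ hc₂
  have hω : (β * (((d : cyclo K ζ)) : Qb) / (((e : cyclo K ζ)) : Qb)) ^ q
      = 1 + (ζ - 1) ^ q * (((a : cyclo K ζ)) : Qb) := by
    rw [div_pow, mul_pow, div_eq_iff (pow_ne_zero _ he0)]
    have h2 : β ^ q * (((d : cyclo K ζ)) : Qb) ^ q * (((c₂ : cyclo K ζ)) : Qb)
        = (1 + (ζ - 1) ^ q * (((a : cyclo K ζ)) : Qb)) * (((e : cyclo K ζ)) : Qb) ^ q
          * (((c₂ : cyclo K ζ)) : Qb) := by
      calc β ^ q * (((d : cyclo K ζ)) : Qb) ^ q * (((c₂ : cyclo K ζ)) : Qb)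
          = (β ^ q * (((c₂ : cyclo K ζ)) : Qb)) * (((d : cyclo K ζ)) : Qb) ^ q := by ring
        _ = (((c₁ : cyclo K ζ)) : Qb) * (((d : cyclo K ζ)) : Qb) ^ q := by rw [hβ]
        _ = _ := by rw [h']; ring
    exact mul_right_cancel₀ hc0 h2
  have hfixed := map_eq_of_pow_eq A hq hA hζ _ _ (coe_mem_of_OE A _ a) hω σ hσ hσζ (hfix a)
  rw [map_div₀, map_mul, hfix d, hfix e] at hfixed
  have h3 := (div_left_inj' he0).mp hfixed
  exact mul_right_cancel₀ hd0 h3

end Adapter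

end Fermat.Agent.S44.L.CycloSeam
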