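import Mathlib
import Fermat.Agent.S44.G.Ram
import Fermat.Agent.S44.L.CycloPerf
import Fermat.Agent.S44.L.CycloSeam

/-!
# The split / Eisenstein dichotomy of a peu ramifié Kummer generator (strand L of S44)

`A` is a valuation subring of `ℚ̄` over the prime `p`, `I` its inertia group, `ζ` a primitive
`p`-th root of unity and `b ≠ 0` with `τ b = ζ ^ j b` on `I` and `u = b ^ p` a unit of `A`
(the datum of `Contract.EShape`).

* `exists_root_approx`: there is `c`, fixed by `I`, a unit of `A`, with `|u - c ^ p| ≤ |p|`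
  (a power of `u`: the residue field is perfect).
* `exists_fixed_of_val_lt` (the SPLIT case): if `|b ^ p - c ^ p| < |p|` then `b = ζ ^ i b₀` with
  `b₀` fixed by `I` (Hensel without completions: one of the `p` roots `μ b / c` of
  `Y ^ p = b ^ p / c ^ p` is closer to `1` than `ζ - 1`, and such a root is fixed).
* `valuation_sub_one_pow_eq` (the EISENSTEIN case): if `|b ^ p - c ^ p| = |p|` then
  `π = b / c - 1` satisfies `|π| ^ p = |p|`.
* `smul_sub_eq_of_split`, `smul_eq_of_fix`: the consequences for the points of the shape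
  `σ R = R + j T`: in the split case `R - i T` is fixed by `I`; in general `R` is fixed by the
  stabiliser of `b` in `I`.
-/

set_option autoImplicit false

open scoped IntermediateField
open Polynomial

namespace Fermat.Agent.S44.L.KummerSplit

local notation "Qb" => AlgebraicClosure ℚ
local notation "GQb" => (AlgebraicClosure ℚ ≃ₐ[ℚ] AlgebraicClosure ℚ)

open Fermat.Agent.S36.CycloBase Fermat.Agent.S44.G

section Val

variable (A : ValuationSubring Qb) {p : ℕ} (hp : p.Prime) (hA : A.LiesOverPrime p)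

include hp hA in
/-- An element fixed by inertia of valuation `< 1` has valuation `≤ |p|`. -/
theorem valuation_le_p_of_fixed (x : Qb) (hx : ∀ τ ∈ A.inertiaSubgroupIn ℚ, τ x = x)
    (hv : A.valuation x < 1) : A.valuation x ≤ A.valuation (p : Qb) := by
  by_cases hx0 : x = 0
  · rw [hx0, map_zero]; exact zero_le
  obtain ⟨n, hn⟩ := Ram.exists_valuation_eq_zpow_of_fixed A hp hA x hx0 hx
  have hvp : A.valuation (p : Qb) < 1 := A.mem_nonunits_iff.mp hA
  have hp0 : 0 < A.valuation (p : Qb) := by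
    rw [zero_lt_iff, Ne, map_eq_zero]
    exact_mod_cast hp.ne_zero
  have hanti : StrictAnti (fun i : ℤ => A.valuation (p : Qb) ^ i) :=
    zpow_right_strictAnti₀ hp0 hvp
  have h0 : (0 : ℤ) < n := by
    have h1 : A.valuation (p : Qb) ^ n < A.valuation (p : Qb) ^ (0 : ℤ) := by
      rw [zpow_zero, ← hn]; exact hv
    exact hanti.lt_iff_gt.mp h1
  have h1 : A.valuation (p : Qb) ^ n ≤ A.valuation (p : Qb) ^ (1 : ℤ) :=
    hanti.antitone (by omega)
  rw [hn]
  simpa using h1

include hp hA in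
/-- An element fixed by inertia of valuation `< |p|` has valuation `≤ |p| ^ 2`. -/
theorem valuation_le_p_sq_of_fixed (x : Qb) (hx : ∀ τ ∈ A.inertiaSubgroupIn ℚ, τ x = x)
    (hv : A.valuation x < A.valuation (p : Qb)) : A.valuation x ≤ A.valuation (p : Qb) ^ 2 := by
  by_cases hx0 : x = 0
  · rw [hx0, map_zero]; exact zero_le
  obtain ⟨n, hn⟩ := Ram.exists_valuation_eq_zpow_of_fixed A hp hA x hx0 hx
  have hvp : A.valuation (p : Qb) < 1 := A.mem_nonunits_iff.mp hA
  have hp0 : 0 < A.valuation (p : Qb) := by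
    rw [zero_lt_iff, Ne, map_eq_zero]
    exact_mod_cast hp.ne_zero
  have hanti : StrictAnti (fun i : ℤ => A.valuation (p : Qb) ^ i) :=
    zpow_right_strictAnti₀ hp0 hvp
  have h0 : (1 : ℤ) < n := by
    have h1 : A.valuation (p : Qb) ^ n < A.valuation (p : Qb) ^ (1 : ℤ) := by
      rw [zpow_one, ← hn]; exact hv
    exact hanti.lt_iff_gt.mp h1
  have h1 : A.valuation (p : Qb) ^ n ≤ A.valuation (p : Qb) ^ (2 : ℤ) :=
    hanti.antitone (by omega)
  rw [hn]
  exact_mod_cast h1

include hp hA in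
/-- **A `p`-th root modulo `p`, fixed by inertia.**  For a unit `u` of `A` fixed by the inertia
group there is a unit `c` fixed by the inertia group with `|u - c ^ p| ≤ |p|`. -/
theorem exists_root_approx (u : Qb) (hu : A.valuation u = 1)
    (hfix : ∀ τ ∈ A.inertiaSubgroupIn ℚ, τ u = u) :
    ∃ c : Qb, (∀ τ ∈ A.inertiaSubgroupIn ℚ, τ c = c) ∧ A.valuation c = 1 ∧
      A.valuation (u - c ^ p) ≤ A.valuation (p : Qb) := by
  have huA : u ∈ A := (A.valuation_le_one_iff u).mp hu.le
  obtain ⟨f, hf, hlt⟩ := CycloPerf.exists_valuation_pow_sub_lt A hp hA u huA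
  obtain ⟨g, rfl⟩ : ∃ g, f = g + 1 := ⟨f - 1, by omega⟩
  refine ⟨u ^ (p ^ g), fun τ hτ => by rw [map_pow, hfix τ hτ], by rw [map_pow, hu, one_pow], ?_⟩
  have e : (u ^ (p ^ g)) ^ p = u ^ (p ^ (g + 1)) := by rw [← pow_mul, ← pow_succ]
  rw [e, A.valuation.map_sub_swap]
  refine valuation_le_p_of_fixed A hp hA _ (fun τ hτ => ?_) hlt
  rw [map_sub, map_pow, hfix τ hτ]

include hp hA in
/-- **The split case.**  If `b ^ p` agrees with the `p`-th power of an inertia-fixed unit `c`
modulo more than `p`, then `b` is `ζ ^ i` times an element fixed by the inertia group. -/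
theorem exists_fixed_of_val_lt (hp2 : p ≠ 2) {ζ : Qb} (hζ : IsPrimitiveRoot ζ p) (b c : Qb)
    (hc : A.valuation c = 1) (hcfix : ∀ τ ∈ A.inertiaSubgroupIn ℚ, τ c = c)
    (hbI : ∀ τ ∈ A.inertiaSubgroupIn ℚ, ∃ j : ℕ, τ b = ζ ^ j * b)
    (hlt : A.valuation (b ^ p - c ^ p) < A.valuation (p : Qb)) :
    ∃ (i : ℕ) (b₀ : Qb), (∀ τ ∈ A.inertiaSubgroupIn ℚ, τ b₀ = b₀) ∧ b = ζ ^ i * b₀ := by
  classical
  have hc0 : c ≠ 0 := by
    intro h; rw [h, map_zero] at hc; exact zero_ne_one hc
  obtain ⟨hlam, hlamp⟩ := valuation_lam A hp hA hζ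
  have hlam0 : 0 < A.valuation (ζ - 1) := valuation_lam_pos A hp hζ
  -- `b ^ p` is fixed by inertia
  have hbp : ∀ τ ∈ A.inertiaSubgroupIn ℚ, τ (b ^ p) = b ^ p := by
    intro τ hτ
    obtain ⟨j, hj⟩ := hbI τ hτ
    rw [map_pow, hj, mul_pow, ← pow_mul, mul_comm j p, pow_mul, hζ.pow_eq_one, one_pow, one_mul]
  -- `y = b / c`
  set y : Qb := b / c with hy
  have hyp : y ^ p - 1 = (b ^ p - c ^ p) / c ^ p := by
    rw [hy, div_pow, sub_div, div_self (pow_ne_zero p hc0)]
  have hyfix : ∀ τ ∈ A.inertiaSubgroupIn ℚ, τ (y ^ p - 1) = y ^ p - 1 := by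
    intro τ hτ
    rw [hyp, map_div₀, map_sub, map_pow τ c, hcfix τ hτ, hbp τ hτ]
  have hyv : A.valuation (y ^ p - 1) < A.valuation (p : Qb) := by
    rw [hyp, map_div₀, map_pow, hc, one_pow, div_one]; exact hlt
  have hsq : A.valuation (1 ^ p - y ^ p) ≤ A.valuation (ζ - 1) ^ (2 * (p - 1)) := by
    rw [one_pow, A.valuation.map_sub_swap, pow_mul', hlamp]
    exact valuation_le_p_sq_of_fixed A hp hA _ hyfix hyv
  -- some root is close to `1`
  have hprod := hζ.pow_sub_pow_eq_prod_sub_mul (1 : Qb) y hp.pos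
  obtain ⟨μ, hμmem, hμ⟩ : ∃ μ ∈ nthRootsFinset p (1 : Qb),
      A.valuation (1 - μ * y) < A.valuation (ζ - 1) := by
    by_contra hcon
    push Not at hcon
    have h1 : A.valuation (ζ - 1) ^ (nthRootsFinset p (1 : Qb)).card
        ≤ ∏ μ ∈ nthRootsFinset p (1 : Qb), A.valuation (1 - μ * y) :=
      Finset.pow_card_le_prod _ _ _ hcon
    rw [hζ.card_nthRootsFinset, ← map_prod, ← hprod] at h1
    have h2 : A.valuation (ζ - 1) ^ (2 * (p - 1)) < A.valuation (ζ - 1) ^ p := by
      apply pow_lt_pow_right_of_lt_one₀ hlam0 hlam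
      have := hp.two_le
      omega
    exact absurd (h1.trans hsq) (not_le.mpr h2)
  have hμp : μ ^ p = 1 := (mem_nthRootsFinset hp.pos (1 : Qb)).mp hμmem
  have hμ0 : μ ≠ 0 := by
    intro h; rw [h, zero_pow hp.ne_zero] at hμp; exact zero_ne_one hμp
  -- `z = μ y` is fixed by inertia
  set z : Qb := μ * y with hz
  have hzp : z ^ p = y ^ p := by rw [hz, mul_pow, hμp, one_mul]
  have hzfix : ∀ τ ∈ A.inertiaSubgroupIn ℚ, τ z = z := by
    intro τ hτ
    by_contra hne
    have hz0 : z ≠ 0 := by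
      intro h0
      apply hne
      rw [h0, map_zero]
    set ν : Qb := τ z / z with hν
    have hνz : τ z = ν * z := by rw [hν, div_mul_cancel₀ _ hz0]
    have hνp : ν ^ p = 1 := by
      have h1 : τ (z ^ p) = z ^ p := by
        have h2 := hyfix τ hτ
        rw [map_sub, map_one, sub_left_inj] at h2
        rw [hzp]; exact h2
      rw [hν, div_pow, ← map_pow, h1, div_self (pow_ne_zero p hz0)]
    have hν1 : ν ≠ 1 := by
      intro h1
      apply hne
      rw [hνz, h1, one_mul]
    have hνval : A.valuation (ν - 1) = A.valuation (ζ - 1) :=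
      CycloSeam.valuation_root_sub_one_eq A hp hA hζ ν hνp hν1
    have hνv : A.valuation ν = 1 := by
      have h1 : A.valuation ν ^ p = 1 := by rw [← map_pow, hνp, map_one]
      exact (pow_eq_one_iff_of_nonneg zero_le hp.ne_zero).mp h1
    have h3 : A.valuation (1 - τ z) = A.valuation (1 - z) := by
      have e : 1 - τ z = τ (1 - z) := by rw [map_sub, map_one]
      rw [e]
      exact Ram.valuation_apply A τ hτ _
    have e2 : 1 - τ z = (1 - ν) + ν * (1 - z) := by rw [hνz]; ring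
    have h4 : A.valuation (ν * (1 - z)) < A.valuation (1 - ν) := by
      rw [map_mul, hνv, one_mul, A.valuation.map_sub_swap 1 ν, hνval]
      exact hμ
    have h5 : A.valuation (1 - τ z) = A.valuation (1 - ν) := by
      rw [e2]
      exact A.valuation.map_add_eq_of_lt_left h4
    rw [h3, A.valuation.map_sub_swap 1 ν, hνval] at h5
    exact absurd hμ (by rw [h5]; exact lt_irrefl _)
  -- conclude
  have hμinv : (μ⁻¹) ^ p = 1 := by rw [inv_pow, hμp, inv_one]
  have : NeZero p := ⟨hp.ne_zero⟩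
  obtain ⟨i, -, hi⟩ := hζ.eq_pow_of_pow_eq_one hμinv
  refine ⟨i, z * c, fun τ hτ => by rw [map_mul, hzfix τ hτ, hcfix τ hτ], ?_⟩
  rw [hi, hz, hy, mul_assoc, div_mul_cancel₀ _ hc0, ← mul_assoc, inv_mul_cancel₀ hμ0, one_mul]

include hp in
/-- **The Eisenstein case.**  If `b`, `c` are units with `|b ^ p - c ^ p| = |p|`, then
`π = b / c - 1` satisfies `|π| ^ p = |p|`. -/
theorem valuation_sub_one_pow_eq (hvp : A.valuation (p : Qb) < 1) (b c : Qb)
    (hb : A.valuation b = 1) (hc : A.valuation c = 1)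
    (heq : A.valuation (b ^ p - c ^ p) = A.valuation (p : Qb)) :
    A.valuation (b / c - 1) ^ p = A.valuation (p : Qb) := by
  have hc0 : c ≠ 0 := by
    intro h; rw [h, map_zero] at hc; exact zero_ne_one hc
  set π : Qb := b / c - 1 with hπ
  have hy : b / c = π + 1 := by rw [hπ]; ring
  have hyv : A.valuation (b / c) = 1 := by rw [map_div₀, hb, hc, div_one]
  have hπle : A.valuation π ≤ 1 := by
    rw [hπ]
    exact (A.valuation.map_sub _ _).trans (max_le hyv.le (by rw [map_one]))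
  have hyp : (π + 1) ^ p - 1 = (b ^ p - c ^ p) / c ^ p := by
    rw [← hy, div_pow, sub_div, div_self (pow_ne_zero p hc0)]
  have hval : A.valuation ((π + 1) ^ p - 1) = A.valuation (p : Qb) := by
    rw [hyp, map_div₀, map_pow, hc, one_pow, div_one, heq]
  -- binomial expansion
  have hbin := add_pow_prime_eq hp π (1 : Qb)
  set r : Qb := ∑ k ∈ Finset.Ioo 0 p, π ^ (k - 1) * (1 : Qb) ^ (p - k - 1) *
    ((p.choose k / p : ℕ) : Qb) with hr
  have hrv : A.valuation r ≤ 1 := by
    rw [hr]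
    refine A.valuation.map_sum_le fun k _ => ?_
    rw [map_mul, map_mul, map_pow, map_pow, map_one, one_pow, mul_one]
    have h1 : A.valuation π ^ (k - 1) ≤ 1 := pow_le_one₀ zero_le hπle
    have h2 : A.valuation (((p.choose k / p : ℕ) : Qb)) ≤ 1 :=
      (A.valuation_le_one_iff _).mpr (natCast_mem A _)
    exact mul_le_one' h1 h2
  have e : π ^ p = ((π + 1) ^ p - 1) - (p : Qb) * π * 1 * r := by
    rw [hbin, one_pow]; ring
  have hπlt : A.valuation π < 1 := by
    by_contra hcon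
    have hπ1 : A.valuation π = 1 := le_antisymm hπle (not_lt.mp hcon)
    have h1 : A.valuation (π ^ p) = 1 := by rw [map_pow, hπ1, one_pow]
    have h2 : A.valuation (π ^ p) ≤ A.valuation (p : Qb) := by
      rw [e]
      refine (A.valuation.map_sub _ _).trans (max_le hval.le ?_)
      rw [map_mul, map_mul, map_mul, map_one, mul_one, hπ1, mul_one]
      exact mul_le_of_le_one_right' hrv
    rw [h1] at h2
    exact absurd hvp (not_lt.mpr h2)
  have hsmall : A.valuation ((p : Qb) * π * 1 * r) < A.valuation ((π + 1) ^ p - 1) := by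
    rw [hval, map_mul, map_mul, map_mul, map_one, mul_one, mul_assoc]
    have hp0 : 0 < A.valuation (p : Qb) := by
      rw [zero_lt_iff, Ne, map_eq_zero]
      exact_mod_cast hp.ne_zero
    have h1 : A.valuation π * A.valuation r < 1 :=
      lt_of_le_of_lt (mul_le_of_le_one_right' hrv) hπlt
    calc A.valuation (p : Qb) * (A.valuation π * A.valuation r)
        < A.valuation (p : Qb) * 1 := mul_lt_mul_of_pos_left h1 hp0
      _ = A.valuation (p : Qb) := mul_one _
  rw [← map_pow, e, A.valuation.map_sub_eq_of_lt_left hsmall, hval]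

end Val

section Points

open WeierstrassCurve WeierstrassCurve.Affine

variable {G : Type*} [AddCommGroup G]

/-- Multiples of a `p`-torsion element only depend on the exponent of `ζ`. -/
theorem nsmul_eq_of_pow_eq {p : ℕ} (hp : 0 < p) {ζ : Qb} (hζ : IsPrimitiveRoot ζ p) {T : G}
    (hT : p • T = 0) {a b : ℕ} (h : ζ ^ a = ζ ^ b) : a • T = b • T := by
  have hfin : IsOfFinOrder ζ := isOfFinOrder_iff_pow_eq_one.mpr ⟨p, hp, hζ.pow_eq_one⟩
  have hmod : a ≡ b [MOD p] := by
    have := hfin.pow_eq_pow_iff_modEq.mp h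
    rwa [← hζ.eq_orderOf] at this
  have key : ∀ c : ℕ, c • T = (c % p) • T := by
    intro c
    conv_lhs => rw [← Nat.mod_add_div c p, add_smul, mul_smul, smul_comm p, hT, nsmul_zero,
      add_zero]
  rw [key a, key b, hmod]

/-- **The split case, on points.**  If `b = ζ ^ i b₀` with `σ b₀ = b₀`, and `σ` acts by
`σ ζ = ζ ^ k`, `σ T = k T`, `σ b = ζ ^ j b`, `σ R = R + j T`, then `σ (R - i T) = R - i T`. -/
theorem smul_sub_eq_of_split {M : Type*} [Monoid M] [DistribMulAction M G] {p : ℕ} (hp : 0 < p)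
    {ζ : Qb} (hζ : IsPrimitiveRoot ζ p) {T R : G} (hT : p • T = 0) {b b₀ : Qb} (hb₀ : b₀ ≠ 0)
    {i : ℕ} (hb : b = ζ ^ i * b₀) (σ : M) {σb σb₀ σζ : Qb} (hσb₀ : σb₀ = b₀)
    (hσmul : σb = σζ ^ i * σb₀) {k j : ℕ} (hk : σζ = ζ ^ k) (hkT : σ • T = k • T)
    (hj : σb = ζ ^ j * b) (hjR : σ • R = R + j • T) :
    σ • (R - i • T) = R - i • T := by
  have h1 : ζ ^ (k * i) = ζ ^ (j + i) := by
    have h2 : ζ ^ (k * i) * b₀ = ζ ^ (j + i) * b₀ := by
      rw [pow_mul, ← hk, ← hσb₀, ← hσmul, hj, hb, pow_add, mul_assoc, hσb₀]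
    exact mul_right_cancel₀ hb₀ h2
  have h3 : (k * i) • T = (j + i) • T := nsmul_eq_of_pow_eq hp hζ hT h1
  rw [smul_sub, hjR, smul_comm σ i T, hkT, ← mul_smul, mul_comm i k, h3, add_smul]
  abel

/-- **The stabiliser of `b` fixes `R`.**  If `σ b = ζ ^ j b`, `σ R = R + j T` and `σ b = b`,
then `σ R = R`. -/
theorem smul_eq_of_fix {M : Type*} [Monoid M] [DistribMulAction M G] {p : ℕ}
    {ζ : Qb} (hζ : IsPrimitiveRoot ζ p) {T R : G} (hT : p • T = 0) {b : Qb} (hb0 : b ≠ 0)
    (σ : M) {σb : Qb} {j : ℕ} (hj : σb = ζ ^ j * b) (hjR : σ • R = R + j • T) (hfix : σb = b) :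
    σ • R = R := by
  have h1 : ζ ^ j = 1 := by
    have h2 : ζ ^ j * b = 1 * b := by rw [← hj, hfix, one_mul]
    exact mul_right_cancel₀ hb0 h2
  obtain ⟨c, rfl⟩ := (hζ.pow_eq_one_iff_dvd j).mp h1
  rw [hjR, mul_smul, smul_comm, hT, nsmul_zero, add_zero]

end Points

end Fermat.Agent.S44.L.KummerSplit
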