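import Mathlib
import Fermat.Agent.S44.L.AltDescLE
import Fermat.Agent.S44.L.KummerSplit

/-!
# PROGRAM MR (S44), strand L: the descent of `ι R` under the WEAK shape `FixBy`

(helper88.)  The whole Eisenstein-case machinery of the cover-free route (rows DESC, NODE-ALT,
CONST, GEN, CP, EX) uses of an `EShapeData` datum `(T, R, ζ, b)` only

* `P.p • R = 0`, and
* `FixBy P A R b` : the stabiliser of `b` in the inertia group of `A` fixes `R`.

This file states that weak shape and re-proves the descent row (helper84's `AltDesc.exists_desc`,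
helper197's `AltDescLE.exists_desc_series / exists_desc_LE / exists_rep`) from it, verbatim.
Why it matters: in the SPLIT case of the dichotomy `EisDich.eisDich` the point `R - i T` is fixed
by the whole inertia group, hence `FixBy P A (R - i T) b'` holds for EVERY `b'` - in particular
for a dummy Eisenstein generator `b' = (1 + p)^(1/p)` (`NZ/OneCase.exists_isEis`).  So the split
case is an instance of the Eisenstein-case statements in their weak form, and no unramified twin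
of the geometric core is needed.
-/

set_option autoImplicit false

open WeierstrassCurve WeierstrassCurve.Affine WeierstrassCurve.Affine.Point
open HahnSeries ModularCurve AlgebraicCurve

namespace Fermat.Agent.S44.L.AltDescW

open Fermat.Agent.S30 Fermat.Agent.S30.Producer Fermat.Agent.S30.E4 Fermat.Agent.S44.Contract
open Fermat.Agent.S44.L.Top Fermat.Agent.S44.L.IotaCalc Fermat.Agent.S44.L
open Fermat.Agent.S44.L.AltDesc (stab)
open Fermat.Agent.S37.LevelPull (lvl coe_lvl)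
open Fermat.Agent.S18.K1Defs (LE)

local notation "GQb" => (AlgebraicClosure ℚ ≃ₐ[ℚ] AlgebraicClosure ℚ)

/-- **The weak shape.**  The stabiliser of `b` in the inertia group of `A` fixes the point `R`. -/
def FixBy (P : FreyPackage) (A : ValuationSubring Qb) (R : (P.freyCurve⁄Qb).Point) (b : Qb) :
    Prop :=
  ∀ σ : GQb, σ ∈ A.inertiaSubgroupIn ℚ → σ b = b → σ • R = R

variable {P : FreyPackage} {N' : ℕ} [NeZero N'] [NeZero P.p] {W : WeierstrassCurve ℤ}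
  {ι : (P.freyCurve⁄Qb).Point → FN (N' * P.p)} {A : ValuationSubring Qb}
  {T R : (P.freyCurve⁄Qb).Point} {ζ b : Qb}

/-- An `EShapeData` datum has the weak shape. -/
theorem fixBy_of_eShapeData (hE : EShapeData P A T R ζ b) : FixBy P A R b := by
  obtain ⟨hpT, -, -, -, hζ, hb0, -, -, hI⟩ := hE
  intro σ hσ hfix
  obtain ⟨k, j, -, -, hj, hjR⟩ := hI σ hσ
  exact KummerSplit.smul_eq_of_fix hζ hpT hb0 σ hj hjR hfix

/-- A point fixed by the whole inertia group has the weak shape for every `b`. -/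
theorem fixBy_of_fixed (h : ∀ σ : GQb, σ ∈ A.inertiaSubgroupIn ℚ → σ • R = R) (b : Qb) :
    FixBy P A R b :=
  fun σ hσ _ => h σ hσ

/-- An inertia element fixing `b` fixes the class of `ι R` (weak form of
`IotaCalc.exists_galF_R_eq`). -/
theorem exists_galF_R_eq (hι : IsNewEmb P N' W ι) (hR : P.p • R = 0) (hfix : FixBy P A R b)
    (σ : GQb) (hσ : σ ∈ A.inertiaSubgroupIn ℚ) (hσb : σ b = b) :
    ∃ g : FN (N' * P.p), g ≠ 0 ∧ galF (N' * P.p) σ (ι R) = ι R * g ^ P.p := by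
  have h1 := sim_gal hι σ hR
  rw [hfix σ hσ hσb] at h1
  exact h1.symm.exists_eq_mul_pow (NeZero.ne P.p)

/-- The class of `ι R` at level `M` is invariant under `stab A b`. -/
theorem exists_gal_lvl_eq (hι : IsNewEmb P N' W ι) (hR : P.p • R = 0) (hfix : FixBy P A R b)
    {M : ℕ} [NeZero M] (hM : N' * P.p ∣ M) (τ : GQb) (hτ : τ ∈ stab A b) :
    ∃ k : Fb M, k ≠ 0 ∧ gal M τ (lvl hM (ι R)) = lvl hM (ι R) * k ^ P.p := by
  obtain ⟨g, hg0, hg⟩ := exists_galF_R_eq hι hR hfix τ hτ.1 hτ.2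
  refine ⟨lvl hM g, (map_ne_zero (lvl hM)).mpr hg0, ?_⟩
  rw [Fermat.Agent.S36.InvAux.gal_lvl, ← map_pow, ← map_mul]
  exact congrArg (lvl hM) hg

/-- **DESC, weak form** (`AltDesc.exists_desc` from `FixBy`). -/
theorem exists_desc (hι : IsNewEmb P N' W ι) (hR : P.p • R = 0) (hfix : FixBy P A R b) {M : ℕ}
    [NeZero M] (hM : N' * P.p ∣ M) (S : Finset Qb) (hS : ∀ s ∈ S, ∀ τ ∈ stab A b, τ s = s) :
    ∃ (f0 h : Fb M) (Ks : IntermediateField ℚ Qb) (y : LaurentSeries Ks),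
      f0 ≠ 0 ∧ h ≠ 0 ∧ lvl hM (ι R) = f0 * h ^ P.p ∧
      (∀ τ ∈ stab A b, gal M τ f0 = f0) ∧ DivBy M P.p f0 ∧
      FiniteDimensional ℚ Ks ∧ (∀ τ ∈ stab A b, ∀ x ∈ Ks, τ x = x) ∧ (∀ s ∈ S, s ∈ Ks) ∧
      y ∈ laurentBaseChange Ks (modularFunctionFieldFull M) ∧
      coeffMap (algebraMap Ks Qb) y = (f0 : LaurentSeries Qb) := by
  have hx0 : lvl hM (ι R) ≠ 0 := (map_ne_zero (lvl hM)).mpr (hι.ne_zero R hR)
  have hinv : ∀ τ ∈ stab A b, ∃ k : Fb M, gal M τ (lvl hM (ι R)) = lvl hM (ι R) * k ^ P.p := by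
    intro τ hτ
    obtain ⟨k, -, hk⟩ := exists_gal_lvl_eq hι hR hfix hM τ hτ
    exact ⟨k, hk⟩
  obtain ⟨f0, h, hh0, hfe, hfix'⟩ :=
    Fermat.Agent.S36.Descent.exists_invariant_rep_subgroup M (stab A b) (NeZero.pos P.p)
      (lvl hM (ι R)) hx0 hinv
  have hf00 : f0 ≠ 0 := by
    rintro rfl
    rw [zero_mul] at hfe
    exact hx0 hfe
  obtain ⟨Ks, hfin, hKfix, hSK, y, hy, hyf⟩ :=
    Fermat.Agent.S36.Descent.exists_numberField_rep_level M (stab A b) f0 hfix' S hS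
  have hhp : h ^ P.p ≠ 0 := pow_ne_zero _ hh0
  have hdiv : DivBy M P.p f0 := by
    have h1 : DivBy M P.p (lvl hM (ι R)) :=
      Fermat.Agent.S36.InvAux.divBy_lvl hM (hι.divBy R hR)
    have h2 : f0 = lvl hM (ι R) * (h ^ P.p)⁻¹ := by
      rw [hfe, mul_assoc, mul_inv_cancel₀ hhp, mul_one]
    rw [h2]
    exact DivBy.mul hx0 (inv_ne_zero hhp) h1 (divBy_pow_self M P.p h).inv
  exact ⟨f0, h, Ks, y, hf00, hh0, hfe, hfix', hdiv, hfin, hKfix, hSK, hy, hyf⟩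

/-- **DESC, series form, weak** (`AltDescLE.exists_desc_series` from `FixBy`). -/
theorem exists_desc_series (hι : IsNewEmb P N' W ι) (hR : P.p • R = 0) (hfix : FixBy P A R b)
    {M : ℕ} [NeZero M] (hM : N' * P.p ∣ M) (K₀ : IntermediateField ℚ Qb)
    [FiniteDimensional ℚ K₀] (hK₀ : ∀ τ ∈ A.inertiaSubgroupIn ℚ, ∀ x ∈ K₀, τ x = x) :
    ∃ K : IntermediateField ℚ Qb, FiniteDimensional ℚ K ∧ K₀ ≤ K ∧
      (∀ τ ∈ A.inertiaSubgroupIn ℚ, ∀ x ∈ K, τ x = x) ∧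
      ∃ (f0 h : Fb M) (y : LaurentSeries ↥(K ⊔ IntermediateField.adjoin ℚ ({b} : Set Qb))),
        f0 ≠ 0 ∧ h ≠ 0 ∧ lvl hM (ι R) = f0 * h ^ P.p ∧ DivBy M P.p f0 ∧
        y ∈ laurentBaseChange ↥(K ⊔ IntermediateField.adjoin ℚ ({b} : Set Qb))
          (modularFunctionFieldFull M) ∧
        coeffMap (algebraMap ↥(K ⊔ IntermediateField.adjoin ℚ ({b} : Set Qb)) Qb) y
          = (f0 : LaurentSeries Qb) := by
  obtain ⟨f0, h, Ks, y, hf0, hh0, hfe, -, hdiv, hKsfin, hKsfix, -, hy, hyf⟩ :=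
    exists_desc hι hR hfix hM ∅ (by simp)
  obtain ⟨K, hKfin, hK₀K, hKfix, hle⟩ :=
    Fermat.Agent.Lib.DescentSubfield.exists_numberField_sup_adjoin (A.inertiaSubgroupIn ℚ) b
      K₀ Ks inferInstance hKsfin hK₀ (fun τ hτ hτb x hx => hKsfix τ ⟨hτ, hτb⟩ x hx)
  refine ⟨K, hKfin, hK₀K, hKfix, f0, h,
    coeffMap (IntermediateField.inclusion hle).toRingHom y, hf0, hh0, hfe, hdiv, ?_, ?_⟩
  · exact Fermat.Agent.S18.K1Top.coeffMap_mem_laurentBaseChange_hom _ hy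
  · rw [coeffMap_coeffMap, ← hyf]
    rfl

/-- **DESC, `LE` form, weak** (`AltDescLE.exists_desc_LE` from `FixBy`). -/
theorem exists_desc_LE (hι : IsNewEmb P N' W ι) (hR : P.p • R = 0) (hfix : FixBy P A R b)
    {M : ℕ} [NeZero M] (hM : N' * P.p ∣ M) (K₀ : IntermediateField ℚ Qb)
    [FiniteDimensional ℚ K₀] (hK₀ : ∀ τ ∈ A.inertiaSubgroupIn ℚ, ∀ x ∈ K₀, τ x = x) :
    ∃ (K : IntermediateField ℚ Qb)
      (fs : LE M ↥(K ⊔ IntermediateField.adjoin ℚ ({b} : Set Qb))) (h : Fb M),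
      FiniteDimensional ℚ K ∧ K₀ ≤ K ∧ (∀ τ ∈ A.inertiaSubgroupIn ℚ, ∀ x ∈ K, τ x = x) ∧
      fs ≠ 0 ∧ h ≠ 0 ∧ lvl hM (ι R) = Fermat.Agent.S36.InvFun.upF M _ fs * h ^ P.p ∧
      DivBy M P.p (Fermat.Agent.S36.InvFun.upF M _ fs) := by
  obtain ⟨K, hKfin, hK₀K, hKfix, f0, h, y, hf0, hh0, hfe, hdiv, hy, hyf⟩ :=
    exists_desc_series hι hR hfix hM K₀ hK₀
  have hup : Fermat.Agent.S36.InvFun.upF M
      (K ⊔ IntermediateField.adjoin ℚ ({b} : Set Qb)) ⟨y, hy⟩ = f0 := Subtype.ext hyf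
  refine ⟨K, ⟨y, hy⟩, h, hKfin, hK₀K, hKfix, ?_, hh0, ?_, ?_⟩
  · intro h0
    apply hf0
    rw [← hup, h0, _root_.map_zero]
  · rw [hup]
    exact hfe
  · rw [hup]
    exact hdiv

/-- **The representative at level `N' p`, weak** (`AltDescLE.exists_rep` from `FixBy`). -/
theorem exists_rep (hι : IsNewEmb P N' W ι) (hR : P.p • R = 0) (hfix : FixBy P A R b)
    (K₀ : IntermediateField ℚ Qb) (hK₀fin : FiniteDimensional ℚ K₀)
    (hK₀ : ∀ τ : GQb, τ ∈ A.inertiaSubgroupIn ℚ → ∀ x ∈ K₀, τ x = x) :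
    ∃ K : IntermediateField ℚ Qb, FiniteDimensional ℚ K ∧ K₀ ≤ K ∧
      (∀ τ : GQb, τ ∈ A.inertiaSubgroupIn ℚ → ∀ x ∈ K, τ x = x) ∧
      ∃ (f0 : FN (N' * P.p))
        (y : LaurentSeries ↥(K ⊔ IntermediateField.adjoin ℚ ({b} : Set Qb))),
        y ∈ laurentBaseChange ↥(K ⊔ IntermediateField.adjoin ℚ ({b} : Set Qb))
          (modularFunctionFieldFull (N' * P.p)) ∧
        coeffMap (algebraMap ↥(K ⊔ IntermediateField.adjoin ℚ ({b} : Set Qb)) Qb) y
          = (f0 : LaurentSeries Qb) ∧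
        Sim Qb P.p (ι R) f0 := by
  obtain ⟨K, hKfin, hK₀K, hKfix, f0, h, y, hf0, hh0, hfe, -, hy, hyf⟩ :=
    exists_desc_series hι hR hfix (dvd_refl (N' * P.p)) K₀ hK₀
  refine ⟨K, hKfin, hK₀K, hKfix, f0, y, hy, hyf, 1, h, one_ne_zero, hh0, ?_⟩
  have hl : lvl (dvd_refl (N' * P.p)) (ι R) = ι R := Subtype.ext (coe_lvl _ _)
  rw [← hl, hfe, _root_.map_one, one_mul]

end Fermat.Agent.S44.L.AltDescW
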