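import Mathlib
import Fermat.Agent.S19.Cech.BCChart
import Fermat.Agent.S36.C1Inst4Alt

/-!
# PROGRAM MR (S44), strand L, cover-free twin of SLOPE: base change of the C1 chart (helper270)

`Qb = AlgebraicClosure ℚ`, `A` a valuation subring of `Qb` over the odd prime `q`, `K ≤ K'` number
fields with `O = OE A K`, `O' = OE A K'` discrete valuation rings, `K` unramified
(`q = ϖ * unit` in `O`), levels `(M, M q)` with `4 ∣ M`, `q ∤ M`.

The chart ring of level `M q` at the coordinate `α u₄` over the (possibly ramified) base `O'` is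
EXACTLY the base change of the chart ring over `O`:

  `Chart O' (α u₄) = ⊕ j, b j • lvl (Chart O (α u₄))`

for every family `b : Fin r → O'` which is a basis of `O'` over `O` and of `LE (M q) K'` over
`lvl (LE (M q) K)`, with residue degree one (the binders of
`S19/Cech/BCChart.isIntegral_iff_inSpan_lvl`, Program FG).  The only geometric input is the
reducedness of the special fibre over the unramified base, which is the landed (SAT)
`S36/C1Inst4Alt.fibre_u4` (`p_∞ ⊓ p_0 = (ϖ)`).

* `hrad_of_inf_ker` : level-free, "two reductions with `ker r₁ ⊓ ker r₂ = (ϖ)`" gives the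
  reducedness hypothesis `hrad` of `Lib/ChartBaseChange`.
* `coe_alpha_u4`, `lvl_alpha_u4` : the coordinate `α u₄` has the rational `q`-expansion `u₄`, so
  `lvl` maps the coordinate over `K` to the coordinate over `K'`.
* `hrad_u4` : `hrad` for the chart of `α u₄` over `OE A K`.
* `chart_u4_iff` : the base change statement.
* `exists_coords_u4`, `coords_unique` : existence and uniqueness of the coordinates.
-/

set_option autoImplicit false
set_option linter.unusedSectionVars false
set_option linter.unusedVariables false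
set_option linter.style.haveILetI false
set_option synthInstance.maxHeartbeats 400000
set_option maxHeartbeats 1000000

open ModularCurve Polynomial

noncomputable section

namespace Fermat.Agent.S44.L.AltChartBC

open Fermat.Agent.S18.K1Defs Fermat.Agent.S18.K1Main Fermat.Agent.S30 Fermat.Agent.S30.Model
open Fermat.Agent.S34 Fermat.Agent.S34.TwoPrimesGauss Fermat.Agent.S34.TwoPrimesRank
open Fermat.Agent.S34.HauptU.Plug Fermat.Agent.S34.HauptU.LevelMAux
open Fermat.Agent.S36.Haupt4 Fermat.Agent.S36.CycloBase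
open Fermat.Agent.Lib.ChartBaseChange Fermat.Agent.S19.Cech.BCChart

local notation "Qb" => AlgebraicClosure ℚ

/-! ### Level-free: reducedness from two reductions -/

/-- **Reducedness of a special fibre with two components.**  `S` a subalgebra of the field `L`
over `O`, `ϖc` the element `π` of the integral closure of `S`, `r₁`, `r₂` two ring homomorphisms
of the integral closure into domains with `ker r₁ ⊓ ker r₂ = (ϖc)`.  Then the special fibre of
the integral closure is reduced, in the elementwise form `hrad` of `Lib/ChartBaseChange`. -/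
theorem hrad_of_inf_ker {O L k₁ k₂ : Type*} [CommRing O] [Field L] [Algebra O L]
    [CommRing k₁] [IsDomain k₁] [CommRing k₂] [IsDomain k₂]
    (S : Subalgebra O L) (π : O) (ϖc : integralClosure S L)
    (hϖc : ((ϖc : integralClosure S L) : L) = algebraMap O L π)
    (r₁ : integralClosure S L →+* k₁) (r₂ : integralClosure S L →+* k₂)
    (hker : RingHom.ker r₁ ⊓ RingHom.ker r₂ = Ideal.span {ϖc}) :
    ∀ x : L, IsIntegral S x → ∀ (n : ℕ) (y : L), IsIntegral S y →
      x ^ n = algebraMap O L π * y → ∃ z : L, IsIntegral S z ∧ x = algebraMap O L π * z := by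
  intro x hx n y hy hxy
  set xc : integralClosure S L := ⟨x, hx⟩ with hxc
  set yc : integralClosure S L := ⟨y, hy⟩ with hyc
  have hϖmem : ϖc ∈ RingHom.ker r₁ ⊓ RingHom.ker r₂ := by
    rw [hker]; exact Ideal.mem_span_singleton_self ϖc
  have h1 : r₁ ϖc = 0 := RingHom.mem_ker.mp hϖmem.1
  have h2 : r₂ ϖc = 0 := RingHom.mem_ker.mp hϖmem.2
  have hpow : xc ^ n = ϖc * yc := by
    apply Subtype.ext
    show x ^ n = ((ϖc : integralClosure S L) : L) * y
    rw [hϖc, hxy]
  have hx1 : r₁ xc = 0 := by
    have h := congrArg r₁ hpow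
    rw [map_pow, map_mul, h1, zero_mul] at h
    exact eq_zero_of_pow_eq_zero h
  have hx2 : r₂ xc = 0 := by
    have h := congrArg r₂ hpow
    rw [map_pow, map_mul, h2, zero_mul] at h
    exact eq_zero_of_pow_eq_zero h
  have hmem : xc ∈ RingHom.ker r₁ ⊓ RingHom.ker r₂ :=
    ⟨RingHom.mem_ker.mpr hx1, RingHom.mem_ker.mpr hx2⟩
  rw [hker, Ideal.mem_span_singleton] at hmem
  obtain ⟨zc, hzc⟩ := hmem
  refine ⟨(zc : L), zc.2, ?_⟩
  have h := congrArg (fun t : integralClosure S L => (t : L)) hzc
  rw [← hϖc]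
  exact h

/-! ### The coordinate `α u₄` -/

section Coordinate

variable (M q : ℕ) [NeZero M] [NeZero q]

/-- The coordinate `α u₄` of level `M q` has the rational `q`-expansion `u₄`. -/
theorem coe_alpha_u4 (E : IntermediateField ℚ Qb) (h4 : 4 ∣ M) :
    ((alphaHom M q E (u4E M E h4) : LE (M * q) E) : LaurentSeries E) = coeffEmb E (u4 ℚ) := by
  have h := Fermat.Agent.S34.Sat.sigma_alpha M q E (u4E M E h4)
  rw [sigmaHom_apply] at h
  rw [h, coeffEmb_u4]
  rfl

/-- `lvl` maps the coordinate `α u₄` over `K` to the coordinate `α u₄` over `K'`. -/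
theorem lvl_alpha_u4 {K K' : IntermediateField ℚ Qb} (h : K ≤ K') (h4 : 4 ∣ M) :
    lvl (M * q) h (alphaHom M q K (u4E M K h4)) = alphaHom M q K' (u4E M K' h4) :=
  lvl_eq_of_coeffEmb (M * q) h (coe_alpha_u4 M q K h4) (coe_alpha_u4 M q K' h4)

end Coordinate

/-! ### Reducedness of the special fibre over the unramified base -/

section Arithmetic

variable (M q : ℕ) [NeZero M] [NeZero q] (A : ValuationSubring Qb)

/-- **`hrad` for the chart of `α u₄` over `O = OE A K`**, `K` unramified: the special fibre of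
the level-`M q` chart ring is reduced (`S36/C1Inst4Alt.fibre_u4`: `p_∞ ⊓ p_0 = (ϖ)`). -/
theorem hrad_u4 (hq : q.Prime) (hodd : q ≠ 2) (hqM : ¬ q ∣ M) (h4 : 4 ∣ M)
    (hA : A.LiesOverPrime q) (K : IntermediateField ℚ Qb) [FiniteDimensional ℚ K]
    [IsDiscreteValuationRing (OE A K)] (z : Qb) (hz : IsPrimitiveRoot z M) (hzK : z ∈ K)
    (ϖ : OE A K) (hϖ : Irreducible ϖ) (e : OE A K) (he : IsUnit e)
    (hqe : ((q : ℕ) : OE A K) = ϖ * e) :
    letI := algebraOL (OE A K) K (LE (M * q) K)
    ∀ x : LE (M * q) K,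
      IsIntegral (Algebra.adjoin (OE A K)
        ({alphaHom M q K (u4E M K h4)} : Set (LE (M * q) K))) x →
      ∀ (n : ℕ) (y : LE (M * q) K),
        IsIntegral (Algebra.adjoin (OE A K)
          ({alphaHom M q K (u4E M K h4)} : Set (LE (M * q) K))) y →
        x ^ n = algebraMap (OE A K) (LE (M * q) K) ϖ * y →
        ∃ z' : LE (M * q) K,
          IsIntegral (Algebra.adjoin (OE A K)
            ({alphaHom M q K (u4E M K h4)} : Set (LE (M * q) K))) z' ∧
            x = algebraMap (OE A K) (LE (M * q) K) ϖ * z' := by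
  letI := algebraOL (OE A K) K (LE M K)
  haveI := isScalarTower_OL (OE A K) K (LE M K)
  letI := algebraOL (OE A K) K (LE (M * q) K)
  haveI := isScalarTower_OL (OE A K) K (LE (M * q) K)
  have hf := (Fermat.Agent.S36.C1Inst4Alt.fibre_u4 A M q hq hodd hqM h4 hA K z hz hzK ϖ hϖ e he
    hqe).1
  exact hrad_of_inf_ker (Algebra.adjoin (OE A K)
      ({alphaHom M q K (u4E M K h4)} : Set (LE (M * q) K))) ϖ
    (piC (alphaHom M q K (u4E M K h4)) ϖ) (coe_piC _ _) _ _ hf

/-- **Base change of the C1 chart.**  `K ≤ K'` number fields, `K` unramified, `b` a basis of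
`OE A K'` over `OE A K` and of `LE (M q) K'` over `lvl (LE (M q) K)`, residue degree one.  Then

  `Chart (OE A K') (α u₄) = ⊕ j, b j • lvl (Chart (OE A K) (α u₄))`. -/
theorem chart_u4_iff (hq : q.Prime) (hodd : q ≠ 2) (hqM : ¬ q ∣ M) (h4 : 4 ∣ M)
    (hA : A.LiesOverPrime q) {K K' : IntermediateField ℚ Qb} (h : K ≤ K')
    [FiniteDimensional ℚ K] [IsDiscreteValuationRing (OE A K)]
    [IsDiscreteValuationRing (OE A K')]
    (z : Qb) (hz : IsPrimitiveRoot z M) (hzK : z ∈ K)
    (ϖ : OE A K) (hϖ : Irreducible ϖ) (e : OE A K) (he : IsUnit e)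
    (hqe : ((q : ℕ) : OE A K) = ϖ * e)
    {r : ℕ} (b : Fin r → OE A K')
    (hspanO : ∀ a : OE A K', ∃ a' : Fin r → OE A K, a = ∑ j, inclOE A h (a' j) * b j)
    (hres : ∀ a : OE A K', ∃ a' : OE A K, ¬ IsUnit (a - inclOE A h a'))
    (hindL : ∀ c : Fin r → LaurentSeries K,
      ∑ j, algebraMap K' (LaurentSeries K') ((b j : OE A K') : K') *
        coeffMap (IntermediateField.inclusion h : K →+* K') (c j) = 0 → ∀ j, c j = 0)
    (hspanL : ∀ x : LaurentSeries K', x ∈ LE (M * q) K' → ∃ c : Fin r → LaurentSeries K,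
      (∀ j, c j ∈ LE (M * q) K) ∧ x = ∑ j, algebraMap K' (LaurentSeries K') ((b j : OE A K') : K') *
        coeffMap (IntermediateField.inclusion h : K →+* K') (c j)) :
    letI := algebraOL (OE A K) K (LE (M * q) K)
    letI := algebraOL (OE A K') K' (LE (M * q) K')
    letI := (inclOE A h).toAlgebra
    ∀ x : LE (M * q) K',
      IsIntegral (Algebra.adjoin (OE A K')
        ({alphaHom M q K' (u4E M K' h4)} : Set (LE (M * q) K'))) x ↔
        InSpan (OE A K) (lvl (M * q) h) b
          ({alphaHom M q K (u4E M K h4)} : Set (LE (M * q) K)) x := by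
  letI := algebraOL (OE A K) K (LE (M * q) K)
  letI := algebraOL (OE A K') K' (LE (M * q) K')
  letI := (inclOE A h).toAlgebra
  intro x
  have key := isIntegral_iff_inSpan_lvl (M * q) A h b hspanO hres hindL hspanL ϖ hϖ
    ({alphaHom M q K (u4E M K h4)} : Set (LE (M * q) K))
    (hrad_u4 M q A hq hodd hqM h4 hA K z hz hzK ϖ hϖ e he hqe) x
  rw [Set.image_singleton, lvl_alpha_u4 M q h h4] at key
  exact key

/-- Existence of the coordinates: every element of the chart over `OE A K'` is
`∑ j, b j * lvl (c j)` with the `c j` in the chart over `OE A K`. -/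
theorem exists_coords_u4 (hq : q.Prime) (hodd : q ≠ 2) (hqM : ¬ q ∣ M) (h4 : 4 ∣ M)
    (hA : A.LiesOverPrime q) {K K' : IntermediateField ℚ Qb} (h : K ≤ K')
    [FiniteDimensional ℚ K] [IsDiscreteValuationRing (OE A K)]
    [IsDiscreteValuationRing (OE A K')]
    (z : Qb) (hz : IsPrimitiveRoot z M) (hzK : z ∈ K)
    (ϖ : OE A K) (hϖ : Irreducible ϖ) (e : OE A K) (he : IsUnit e)
    (hqe : ((q : ℕ) : OE A K) = ϖ * e)
    {r : ℕ} (b : Fin r → OE A K')
    (hspanO : ∀ a : OE A K', ∃ a' : Fin r → OE A K, a = ∑ j, inclOE A h (a' j) * b j)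
    (hres : ∀ a : OE A K', ∃ a' : OE A K, ¬ IsUnit (a - inclOE A h a'))
    (hindL : ∀ c : Fin r → LaurentSeries K,
      ∑ j, algebraMap K' (LaurentSeries K') ((b j : OE A K') : K') *
        coeffMap (IntermediateField.inclusion h : K →+* K') (c j) = 0 → ∀ j, c j = 0)
    (hspanL : ∀ x : LaurentSeries K', x ∈ LE (M * q) K' → ∃ c : Fin r → LaurentSeries K,
      (∀ j, c j ∈ LE (M * q) K) ∧ x = ∑ j, algebraMap K' (LaurentSeries K') ((b j : OE A K') : K') *
        coeffMap (IntermediateField.inclusion h : K →+* K') (c j)) :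
    letI := algebraOL (OE A K) K (LE (M * q) K)
    letI := algebraOL (OE A K') K' (LE (M * q) K')
    ∀ x : LE (M * q) K',
      IsIntegral (Algebra.adjoin (OE A K')
        ({alphaHom M q K' (u4E M K' h4)} : Set (LE (M * q) K'))) x →
      ∃ c : Fin r → LE (M * q) K,
        (∀ j, IsIntegral (Algebra.adjoin (OE A K)
          ({alphaHom M q K (u4E M K h4)} : Set (LE (M * q) K))) (c j)) ∧
        x = ∑ j, algebraMap (OE A K') (LE (M * q) K') (b j) * lvl (M * q) h (c j) := by
  letI := algebraOL (OE A K) K (LE (M * q) K)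
  letI := algebraOL (OE A K') K' (LE (M * q) K')
  letI := (inclOE A h).toAlgebra
  intro x hx
  exact (chart_u4_iff M q A hq hodd hqM h4 hA h z hz hzK ϖ hϖ e he hqe b hspanO hres hindL
    hspanL x).mp hx

end Arithmetic

/-! ### Uniqueness of the coordinates -/

section Unique

variable (M : ℕ) [NeZero M] (A : ValuationSubring Qb) {K K' : IntermediateField ℚ Qb}
  (h : K ≤ K')

/-- Uniqueness of the coordinates: the `b j` are linearly independent over `lvl (LE M K)`. -/
theorem coords_unique {r : ℕ} (b : Fin r → OE A K')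
    (hindL : ∀ c : Fin r → LaurentSeries K,
      ∑ j, algebraMap K' (LaurentSeries K') ((b j : OE A K') : K') *
        coeffMap (IntermediateField.inclusion h : K →+* K') (c j) = 0 → ∀ j, c j = 0) :
    letI := algebraOL (OE A K') K' (LE M K')
    ∀ c : Fin r → LE M K,
      ∑ j, algebraMap (OE A K') (LE M K') (b j) * lvl M h (c j) = 0 → ∀ j, c j = 0 := by
  letI := algebraOL (OE A K') K' (LE M K')
  haveI := isScalarTower_OL (OE A K') K' (LE M K')
  intro c hc j
  have hcoe : ((∑ j, algebraMap (OE A K') (LE M K') (b j) * lvl M h (c j) : LE M K') :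
      LaurentSeries K')
        = ∑ j, algebraMap K' (LaurentSeries K') ((b j : OE A K') : K') *
          coeffMap (IntermediateField.inclusion h : K →+* K')
            ((c j : LE M K) : LaurentSeries K) := by
    rw [AddSubmonoidClass.coe_finsetSum]
    rfl
  have h1 := hindL (fun j => ((c j : LE M K) : LaurentSeries K)) (by rw [← hcoe, hc]; rfl) j
  exact Subtype.ext h1

end Unique

end Fermat.Agent.S44.L.AltChartBC
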