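import Mathlib
import Fermat.Agent.S36.SqChart.Coord4
import Fermat.Agent.S44.L.AltChartBC

/-!
# PROGRAM MR (S44), strand L: the special fibre of the C1 charts is reduced over ANY base
(helper270)

`Qb = AlgebraicClosure ℚ`, levels `(M, M q)` with `4 ∣ M`, `q` an odd prime, `q ∤ M`, `O` a
discrete valuation ring of residue characteristic `q` with fraction field `E ⊆ Qb`, `2 ∈ Oˣ`,
`π` ANY uniformiser of `O`.  NO unramifiedness hypothesis: `S36/ThickGauss.inf_eq`
(`p_∞ ⊓ p_0 = (π)`) does not use one.  Hence the special fibre of both level-`M q` chart rings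
(coordinates `α u₄` and `(α u₄)⁻¹`) is reduced over every `O = OE A K`, `K` any number field
containing a primitive `M`-th root of unity — in particular over the ramified base
`Os = OE A K(b)` at its own uniformiser.

* `inf_eq_u4`, `inf_eq_s4` : `p_∞ ⊓ p_0 = (π)` on the two charts, generic base.
* `hrad_u4_gen`, `hrad_s4_gen` : reducedness in the elementwise form `hrad` of
  `Lib/ChartBaseChange`.
* `hred_of_hrad` : the division form of `S44/L/PthRootRam` from `hrad`.
* `hrad_u4_OE`, `hrad_s4_OE`, `hred0_OE`, `hredinf_OE` : the arithmetic instances; the last two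
  are the binders `hred0`, `hredinf` of `PthRootRam.exists_pow_eq_of_pointwise_ram` verbatim at
  `O := OE A K`, `F := LE (M q) K`, `u := α u₄`.
-/

set_option autoImplicit false
set_option linter.unusedSectionVars false
set_option linter.unusedVariables false
set_option linter.style.haveILetI false
set_option synthInstance.maxHeartbeats 400000
set_option maxHeartbeats 1000000

open ModularCurve Polynomial

noncomputable section

namespace Fermat.Agent.S44.L.AltChartRed

open Fermat.Agent.S18.K1Defs Fermat.Agent.S18.K1Main Fermat.Agent.S30 Fermat.Agent.S30.Model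
open Fermat.Agent.S34 Fermat.Agent.S34.TwoPrimesGauss Fermat.Agent.S34.TwoPrimesRank
open Fermat.Agent.S34.HauptU.Plug Fermat.Agent.S34.HauptU.LevelMAux
open Fermat.Agent.S36.Haupt4 Fermat.Agent.S36.C1Inst4Alt

local notation "Qb" => AlgebraicClosure ℚ

/-! ### Level-free: the division form of reducedness -/

/-- The division form of reducedness (`hred0`, `hredinf` of `S44/L/PthRootRam`) from the
elementwise form `hrad`. -/
theorem hred_of_hrad {O L : Type*} [CommRing O] [Field L] [Algebra O L] (S : Subalgebra O L)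
    (π : O) (hπ0 : algebraMap O L π ≠ 0)
    (hrad : ∀ x : L, IsIntegral S x → ∀ (n : ℕ) (y : L), IsIntegral S y →
      x ^ n = algebraMap O L π * y → ∃ z : L, IsIntegral S z ∧ x = algebraMap O L π * z)
    (n : ℕ) (x : L) (hx : IsIntegral S x) (hxn : IsIntegral S (x ^ n / algebraMap O L π)) :
    IsIntegral S (x / algebraMap O L π) := by
  have h1 : x ^ n = algebraMap O L π * (x ^ n / algebraMap O L π) := by
    field_simp
  obtain ⟨z, hz, hxz⟩ := hrad x hx n _ hxn h1
  have h2 : x / algebraMap O L π = z := by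
    rw [hxz]
    field_simp
  rw [h2]
  exact hz

/-! ### Generic base -/

section Generic

variable (M q : ℕ) [NeZero M] [NeZero q] (E : IntermediateField ℚ Qb)
  {O : Type} [CommRing O] [IsDomain O] [IsDiscreteValuationRing O]
  [Algebra O E] [IsFractionRing O E]

/-- **`p_∞ ⊓ p_0 = (π)` on the chart of `α u₄`**, any discrete valuation ring `O` of residue
characteristic `q` (`S36/C1Inst4Alt.fibre_u4_core` without the unramifiedness binders). -/
theorem inf_eq_u4 (hq : q.Prime) (hodd : q ≠ 2) (hqM : ¬ q ∣ M) (h4 : 4 ∣ M)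
    (h2 : IsUnit (2 : O)) (hFG : FinGaussC M O E) (π : O) (hπ : Irreducible π)
    (hchar : CharP (IsLocalRing.ResidueField O) q)
    (hσfrac : ∀ x : LE (M * q) E, sigmaHom (M * q) E x ∈ GaussDVR.fracField O E) :
    letI := algebraOL O E (LE M E)
    haveI := isScalarTower_OL O E (LE M E)
    letI := algebraOL O E (LE (M * q) E)
    haveI := isScalarTower_OL O E (LE (M * q) E)
    RingHom.ker (redInf π hπ (alphaHom M q E) (sigmaHom (M * q) E)
          (sigmaHom_algebraMap (M * q) E) hσfrac (u4E M E h4) (u4 O) (hσu_u4 M q E h4)) ⊓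
        RingHom.ker (redZero π hπ (alphaHom M q E) (sigmaHom (M * q) E)
          (sigmaHom_algebraMap (M * q) E) hσfrac (u4E M E h4) (u4 O) (hσu_u4 M q E h4)
          (wHom M q E hq hqM) (wHom_algebraMap M q E hq hqM) q
          (sigmaHom_wHom_alpha M q E hq hqM)) =
        Ideal.span {piC (alphaHom M q E (u4E M E h4)) π} := by
  classical
  letI := algebraOL O E (LE M E)
  haveI := isScalarTower_OL O E (LE M E)
  letI := algebraOL O E (LE (M * q) E)
  haveI := isScalarTower_OL O E (LE (M * q) E)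
  haveI : Fact q.Prime := ⟨hq⟩
  haveI := hchar
  have hfg := u4_fin_gauss M E h4 hFG
  obtain ⟨hFD, -⟩ := hfg
  haveI := hFD
  have hF : ChartFacts E π (u4E M E h4) (u4E M E h4)⁻¹ :=
    Fibre.chartFacts_u4 M E h4 h2 hFG π hπ
  exact Fermat.Agent.S36.ThickGauss.inf_eq π hπ (alphaHom M q E)
    (alphaHom_algebraMap M q E) (sigmaHom (M * q) E) (sigmaHom_algebraMap (M * q) E) hσfrac
    (u4E M E h4) (u4 O) (hσu_u4 M q E h4) (wHom M q E hq hqM) (wHom_algebraMap M q E hq hqM) q
    (sigmaHom_wHom_alpha M q E hq hqM) (wHom_wHom M q E hq hqM) hF.prime_zero (hcop_u4 q)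
    hord_u4 hq.two_le (hfrob_u4 q hq) (Hwu.hwu_u4E M q E h2 hq hodd hqM h4)
    (hrank_modular_of_finite M q E hq hqM (u4E M E h4))

/-- **`p_∞ ⊓ p_0 = (π)` on the chart at infinity** (coordinate `(α u₄)⁻¹ = α (u₄⁻¹)`), any
discrete valuation ring `O` of residue characteristic `q`. -/
theorem inf_eq_s4 (hq : q.Prime) (hodd : q ≠ 2) (hqM : ¬ q ∣ M) (h4 : 4 ∣ M)
    (h2 : IsUnit (2 : O)) (hFG : FinGaussC M O E) (π : O) (hπ : Irreducible π)
    (hchar : CharP (IsLocalRing.ResidueField O) q)
    (hσfrac : ∀ x : LE (M * q) E, sigmaHom (M * q) E x ∈ GaussDVR.fracField O E) :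
    letI := algebraOL O E (LE M E)
    haveI := isScalarTower_OL O E (LE M E)
    letI := algebraOL O E (LE (M * q) E)
    haveI := isScalarTower_OL O E (LE (M * q) E)
    RingHom.ker (redInf π hπ (alphaHom M q E) (sigmaHom (M * q) E)
          (sigmaHom_algebraMap (M * q) E) hσfrac (u4E M E h4)⁻¹
          (HauptU.E.posO O Fermat.Agent.S36.SqChart.Coord4.s4Z)
          (Fermat.Agent.S36.SqChart.Coord4.hσ1u_s4 M E q h4)) ⊓
        RingHom.ker (redZero π hπ (alphaHom M q E) (sigmaHom (M * q) E)
          (sigmaHom_algebraMap (M * q) E) hσfrac (u4E M E h4)⁻¹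
          (HauptU.E.posO O Fermat.Agent.S36.SqChart.Coord4.s4Z)
          (Fermat.Agent.S36.SqChart.Coord4.hσ1u_s4 M E q h4)
          (wHom M q E hq hqM) (wHom_algebraMap M q E hq hqM) q
          (sigmaHom_wHom_alpha M q E hq hqM)) =
        Ideal.span {piC (alphaHom M q E (u4E M E h4)⁻¹) π} := by
  classical
  letI := algebraOL O E (LE M E)
  haveI := isScalarTower_OL O E (LE M E)
  letI := algebraOL O E (LE (M * q) E)
  haveI := isScalarTower_OL O E (LE (M * q) E)
  haveI : Fact q.Prime := ⟨hq⟩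
  haveI := hchar
  have hfg := u4_fin_gauss M E h4 hFG
  obtain ⟨hFD, -⟩ := hfg
  haveI := hFD
  haveI hfin' : FiniteDimensional (IntermediateField.adjoin E {(u4E M E h4)⁻¹}) (LE M E) :=
    Fermat.Agent.S36.SqChart.Coord4.finite_u4E_inv M E h4
  have hF : ChartFacts E π (u4E M E h4) (u4E M E h4)⁻¹ :=
    Fibre.chartFacts_u4 M E h4 h2 hFG π hπ
  exact Fermat.Agent.S36.ThickGauss.inf_eq π hπ (alphaHom M q E)
    (alphaHom_algebraMap M q E) (sigmaHom (M * q) E) (sigmaHom_algebraMap (M * q) E) hσfrac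
    (u4E M E h4)⁻¹ (HauptU.E.posO O Fermat.Agent.S36.SqChart.Coord4.s4Z)
    (Fermat.Agent.S36.SqChart.Coord4.hσ1u_s4 M E q h4)
    (wHom M q E hq hqM) (wHom_algebraMap M q E hq hqM) q
    (sigmaHom_wHom_alpha M q E hq hqM) (wHom_wHom M q E hq hqM) hF.prime_inf
    (Fermat.Agent.S36.SqChart.Coord4.hcop_s4 q) Fermat.Agent.S36.SqChart.Coord4.hord_s4
    hq.two_le (Fermat.Agent.S36.SqChart.Coord4.qExpand_rho_s4 q hq)
    (Hwu.hwu_u4E_inv M q E h2 hq hodd hqM h4)
    (hrank_modular_of_finite M q E hq hqM (u4E M E h4)⁻¹)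

/-- **Reducedness of the special fibre of the chart of `α u₄`**, generic base (form `hrad`). -/
theorem hrad_u4_gen (hq : q.Prime) (hodd : q ≠ 2) (hqM : ¬ q ∣ M) (h4 : 4 ∣ M)
    (h2 : IsUnit (2 : O)) (hFG : FinGaussC M O E) (π : O) (hπ : Irreducible π)
    (hchar : CharP (IsLocalRing.ResidueField O) q)
    (hσfrac : ∀ x : LE (M * q) E, sigmaHom (M * q) E x ∈ GaussDVR.fracField O E) :
    letI := algebraOL O E (LE (M * q) E)
    ∀ x : LE (M * q) E,
      IsIntegral (Algebra.adjoin O
        ({alphaHom M q E (u4E M E h4)} : Set (LE (M * q) E))) x →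
      ∀ (n : ℕ) (y : LE (M * q) E),
        IsIntegral (Algebra.adjoin O
          ({alphaHom M q E (u4E M E h4)} : Set (LE (M * q) E))) y →
        x ^ n = algebraMap O (LE (M * q) E) π * y →
        ∃ z' : LE (M * q) E,
          IsIntegral (Algebra.adjoin O
            ({alphaHom M q E (u4E M E h4)} : Set (LE (M * q) E))) z' ∧
            x = algebraMap O (LE (M * q) E) π * z' := by
  letI := algebraOL O E (LE M E)
  haveI := isScalarTower_OL O E (LE M E)
  letI := algebraOL O E (LE (M * q) E)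
  haveI := isScalarTower_OL O E (LE (M * q) E)
  have hf := inf_eq_u4 M q E hq hodd hqM h4 h2 hFG π hπ hchar hσfrac
  exact Fermat.Agent.S44.L.AltChartBC.hrad_of_inf_ker (Algebra.adjoin O
      ({alphaHom M q E (u4E M E h4)} : Set (LE (M * q) E))) π
    (piC (alphaHom M q E (u4E M E h4)) π) (coe_piC _ _) _ _ hf

/-- **Reducedness of the special fibre of the chart at infinity**, generic base (form
`hrad`). -/
theorem hrad_s4_gen (hq : q.Prime) (hodd : q ≠ 2) (hqM : ¬ q ∣ M) (h4 : 4 ∣ M)
    (h2 : IsUnit (2 : O)) (hFG : FinGaussC M O E) (π : O) (hπ : Irreducible π)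
    (hchar : CharP (IsLocalRing.ResidueField O) q)
    (hσfrac : ∀ x : LE (M * q) E, sigmaHom (M * q) E x ∈ GaussDVR.fracField O E) :
    letI := algebraOL O E (LE (M * q) E)
    ∀ x : LE (M * q) E,
      IsIntegral (Algebra.adjoin O
        ({alphaHom M q E (u4E M E h4)⁻¹} : Set (LE (M * q) E))) x →
      ∀ (n : ℕ) (y : LE (M * q) E),
        IsIntegral (Algebra.adjoin O
          ({alphaHom M q E (u4E M E h4)⁻¹} : Set (LE (M * q) E))) y →
        x ^ n = algebraMap O (LE (M * q) E) π * y →
        ∃ z' : LE (M * q) E,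
          IsIntegral (Algebra.adjoin O
            ({alphaHom M q E (u4E M E h4)⁻¹} : Set (LE (M * q) E))) z' ∧
            x = algebraMap O (LE (M * q) E) π * z' := by
  letI := algebraOL O E (LE M E)
  haveI := isScalarTower_OL O E (LE M E)
  letI := algebraOL O E (LE (M * q) E)
  haveI := isScalarTower_OL O E (LE (M * q) E)
  have hf := inf_eq_s4 M q E hq hodd hqM h4 h2 hFG π hπ hchar hσfrac
  exact Fermat.Agent.S44.L.AltChartBC.hrad_of_inf_ker (Algebra.adjoin O
      ({alphaHom M q E (u4E M E h4)⁻¹} : Set (LE (M * q) E))) π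
    (piC (alphaHom M q E (u4E M E h4)⁻¹) π) (coe_piC _ _) _ _ hf

end Generic

/-! ### The arithmetic instances `O = OE A K`, `K` ANY number field containing `ζ_M` -/

section Arithmetic

variable (A : ValuationSubring Qb) (M q : ℕ) [NeZero M] [NeZero q]

/-- The residue field of `OE A K` has characteristic `q`. -/
theorem charP_residue_OE (hq : q.Prime) (hA : A.LiesOverPrime q)
    (K : IntermediateField ℚ Qb) [IsDiscreteValuationRing (OE A K)]
    (π : OE A K) (hπ : Irreducible π) : CharP (IsLocalRing.ResidueField (OE A K)) q := by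
  haveI : Fact q.Prime := ⟨hq⟩
  refine Fermat.Agent.S36.DerUnram.charP_residue π hπ q ?_
  have hq1 : A.valuation ((q : ℕ) : Qb) < 1 := A.mem_nonunits_iff.mp hA
  have hnu : ¬ IsUnit (((q : ℕ) : OE A K)) := by
    intro hu
    have h1 := (Fermat.Agent.S36.UnramBase.isUnit_OE_iff A K _).mp hu
    have hcoe : ((((q : ℕ) : OE A K) : K) : Qb) = ((q : ℕ) : Qb) := by simp
    rw [hcoe] at h1
    exact (ne_of_lt hq1) h1
  have hmem : ((q : ℕ) : OE A K) ∈ IsLocalRing.maximalIdeal (OE A K) := by
    rwa [IsLocalRing.mem_maximalIdeal, mem_nonunits_iff]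
  rw [hπ.maximalIdeal_eq, Ideal.mem_span_singleton] at hmem
  exact hmem

/-- The uniformiser is not zero in the function field. -/
theorem algebraMap_ne_zero_OE (K : IntermediateField ℚ Qb) (N : ℕ) [NeZero N]
    (π : OE A K) (hπ0 : π ≠ 0) :
    letI := algebraOL (OE A K) K (LE N K)
    algebraMap (OE A K) (LE N K) π ≠ 0 := by
  letI := algebraOL (OE A K) K (LE N K)
  haveI := isScalarTower_OL (OE A K) K (LE N K)
  rw [IsScalarTower.algebraMap_apply (OE A K) K (LE N K)]
  intro h
  have h1 : algebraMap (OE A K) K π = 0 :=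
    (map_eq_zero (algebraMap K (LE N K))).mp h
  exact hπ0 (Subtype.ext h1)

/-- **Reducedness of the special fibre of the chart of `α u₄` over `OE A K`** (form `hrad`),
`K` any number field containing a primitive `M`-th root of unity, `π` any uniformiser. -/
theorem hrad_u4_OE (hq : q.Prime) (hodd : q ≠ 2) (hqM : ¬ q ∣ M) (h4 : 4 ∣ M)
    (hA : A.LiesOverPrime q) (K : IntermediateField ℚ Qb) [FiniteDimensional ℚ K]
    [IsDiscreteValuationRing (OE A K)] (z : Qb) (hz : IsPrimitiveRoot z M) (hzK : z ∈ K)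
    (π : OE A K) (hπ : Irreducible π) :
    letI := algebraOL (OE A K) K (LE (M * q) K)
    ∀ x : LE (M * q) K,
      IsIntegral (Algebra.adjoin (OE A K)
        ({alphaHom M q K (u4E M K h4)} : Set (LE (M * q) K))) x →
      ∀ (n : ℕ) (y : LE (M * q) K),
        IsIntegral (Algebra.adjoin (OE A K)
          ({alphaHom M q K (u4E M K h4)} : Set (LE (M * q) K))) y →
        x ^ n = algebraMap (OE A K) (LE (M * q) K) π * y →
        ∃ z' : LE (M * q) K,
          IsIntegral (Algebra.adjoin (OE A K)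
            ({alphaHom M q K (u4E M K h4)} : Set (LE (M * q) K))) z' ∧
            x = algebraMap (OE A K) (LE (M * q) K) π * z' := by
  haveI : Fact q.Prime := ⟨hq⟩
  exact hrad_u4_gen M q K hq hodd hqM h4 (isUnit_two_OE A hA hodd K)
    (Fibre.finGaussC_OE A M hqM hA K z hz hzK) π hπ (charP_residue_OE A q hq hA K π hπ)
    (sigmaHom_mem_fracField (M * q) K A)

/-- **Reducedness of the special fibre of the chart at infinity over `OE A K`** (form
`hrad`). -/
theorem hrad_s4_OE (hq : q.Prime) (hodd : q ≠ 2) (hqM : ¬ q ∣ M) (h4 : 4 ∣ M)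
    (hA : A.LiesOverPrime q) (K : IntermediateField ℚ Qb) [FiniteDimensional ℚ K]
    [IsDiscreteValuationRing (OE A K)] (z : Qb) (hz : IsPrimitiveRoot z M) (hzK : z ∈ K)
    (π : OE A K) (hπ : Irreducible π) :
    letI := algebraOL (OE A K) K (LE (M * q) K)
    ∀ x : LE (M * q) K,
      IsIntegral (Algebra.adjoin (OE A K)
        ({alphaHom M q K (u4E M K h4)⁻¹} : Set (LE (M * q) K))) x →
      ∀ (n : ℕ) (y : LE (M * q) K),
        IsIntegral (Algebra.adjoin (OE A K)
          ({alphaHom M q K (u4E M K h4)⁻¹} : Set (LE (M * q) K))) y →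
        x ^ n = algebraMap (OE A K) (LE (M * q) K) π * y →
        ∃ z' : LE (M * q) K,
          IsIntegral (Algebra.adjoin (OE A K)
            ({alphaHom M q K (u4E M K h4)⁻¹} : Set (LE (M * q) K))) z' ∧
            x = algebraMap (OE A K) (LE (M * q) K) π * z' := by
  haveI : Fact q.Prime := ⟨hq⟩
  exact hrad_s4_gen M q K hq hodd hqM h4 (isUnit_two_OE A hA hodd K)
    (Fibre.finGaussC_OE A M hqM hA K z hz hzK) π hπ (charP_residue_OE A q hq hA K π hπ)
    (sigmaHom_mem_fracField (M * q) K A)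

/-- **`hred0` of `PthRootRam.exists_pow_eq_of_pointwise_ram` over `OE A K`**: the special fibre
of the chart of `u = α u₄` at the uniformiser `π` is reduced, division form. -/
theorem hred0_OE (hq : q.Prime) (hodd : q ≠ 2) (hqM : ¬ q ∣ M) (h4 : 4 ∣ M)
    (hA : A.LiesOverPrime q) (K : IntermediateField ℚ Qb) [FiniteDimensional ℚ K]
    [IsDiscreteValuationRing (OE A K)] (z : Qb) (hz : IsPrimitiveRoot z M) (hzK : z ∈ K)
    (π : OE A K) (hπ : Irreducible π) (n : ℕ) :
    letI := algebraOL (OE A K) K (LE (M * q) K)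
    ∀ x : LE (M * q) K,
      IsIntegral (Algebra.adjoin (OE A K)
        ({alphaHom M q K (u4E M K h4)} : Set (LE (M * q) K))) x →
      IsIntegral (Algebra.adjoin (OE A K)
        ({alphaHom M q K (u4E M K h4)} : Set (LE (M * q) K)))
          (x ^ n / algebraMap (OE A K) (LE (M * q) K) π) →
      IsIntegral (Algebra.adjoin (OE A K)
        ({alphaHom M q K (u4E M K h4)} : Set (LE (M * q) K)))
          (x / algebraMap (OE A K) (LE (M * q) K) π) := by
  letI := algebraOL (OE A K) K (LE (M * q) K)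
  intro x hx hxn
  exact hred_of_hrad _ π (algebraMap_ne_zero_OE A K (M * q) π hπ.ne_zero)
    (hrad_u4_OE A M q hq hodd hqM h4 hA K z hz hzK π hπ) n x hx hxn

/-- **`hredinf` of `PthRootRam.exists_pow_eq_of_pointwise_ram` over `OE A K`**: the special
fibre of the chart of `u⁻¹ = (α u₄)⁻¹` at the uniformiser `π` is reduced, division form. -/
theorem hredinf_OE (hq : q.Prime) (hodd : q ≠ 2) (hqM : ¬ q ∣ M) (h4 : 4 ∣ M)
    (hA : A.LiesOverPrime q) (K : IntermediateField ℚ Qb) [FiniteDimensional ℚ K]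
    [IsDiscreteValuationRing (OE A K)] (z : Qb) (hz : IsPrimitiveRoot z M) (hzK : z ∈ K)
    (π : OE A K) (hπ : Irreducible π) (n : ℕ) :
    letI := algebraOL (OE A K) K (LE (M * q) K)
    ∀ x : LE (M * q) K,
      IsIntegral (Algebra.adjoin (OE A K)
        ({(alphaHom M q K (u4E M K h4))⁻¹} : Set (LE (M * q) K))) x →
      IsIntegral (Algebra.adjoin (OE A K)
        ({(alphaHom M q K (u4E M K h4))⁻¹} : Set (LE (M * q) K)))
          (x ^ n / algebraMap (OE A K) (LE (M * q) K) π) →
      IsIntegral (Algebra.adjoin (OE A K)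
        ({(alphaHom M q K (u4E M K h4))⁻¹} : Set (LE (M * q) K)))
          (x / algebraMap (OE A K) (LE (M * q) K) π) := by
  letI := algebraOL (OE A K) K (LE (M * q) K)
  intro x hx hxn
  rw [← map_inv₀ (alphaHom M q K) (u4E M K h4)] at hx hxn ⊢
  exact hred_of_hrad _ π (algebraMap_ne_zero_OE A K (M * q) π hπ.ne_zero)
    (hrad_s4_OE A M q hq hodd hqM h4 hA K z hz hzK π hπ) n x hx hxn

end Arithmetic

end Fermat.Agent.S44.L.AltChartRed
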