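import Mathlib

/-!
# S44 / strand L, row (L.R3): the split / Hensel datum beyond the depth threshold (level-free)

`R` a commutative ring, `p` a prime number with `(p : R) = ϖ ^ e * u`.  For `1 ≤ a` and
`e + 1 ≤ (p - 1) * a` put `d = a + e` (so `d > p e / (p - 1)`: the Hensel threshold).  The
substitution `T = 1 + ϖ ^ a Z` turns `T ^ p = 1 + ϖ ^ d h` into the equation

  `u Z - h + ϖ Q(Z) = 0`

with `Q ∈ R[Z]` independent of `h`: a polynomial which is LINEAR with leading coefficient `u`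
modulo `ϖ`.  So wherever `u` is a unit, the Kummer equation `T ^ p = 1 + ϖ ^ d h` has a
"degree-one sheet" `R[Z] / (u Z - h + ϖ Q)` along `ϖ = 0` (standard étale, no completion).

* `exists_one_add_pow_prime` (S0) : `(1 + y) ^ p = 1 + p y + p y² r + y ^ p`.
* `exists_split_poly` (S1) : `(1 + ϖ ^ a X) ^ p = 1 + ϖ ^ d (u X + ϖ Q)`.
* `exists_split_poly_sub` (S1h) : the form with `h`.
* `root_of_pow_eq` (S2) : a `p`-th root `t = 1 + ϖ ^ a z` of `1 + ϖ ^ d h` gives a root `z` of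
  the sheet polynomial (when `ϖ ^ d` is a non-zero-divisor).
* `pow_eq_of_root` (S2c) : a root `z` of the sheet polynomial gives the `p`-th root
  `1 + ϖ ^ a z` of `1 + ϖ ^ d h`.
* `derivative_sheet` (S2d) : the derivative of the sheet polynomial is `u + ϖ Q'`.
-/

set_option autoImplicit false

open Polynomial

namespace Fermat.Agent.S44.L.DepthSplit

/-- **(S0)** For a prime `p`: `(1 + y) ^ p = 1 + p y + p y² r + y ^ p`. -/
theorem exists_one_add_pow_prime {S : Type*} [CommRing S] {p : ℕ} (hp : p.Prime) (y : S) :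
    ∃ r : S, (1 + y) ^ p = 1 + p * y + p * y ^ 2 * r + y ^ p := by
  have h := (Commute.all y (1 : S)).add_pow_prime_eq' hp
  have h2 : 2 ≤ p := hp.two_le
  have hIoo : Finset.Ioo 0 p = insert 1 (Finset.Ioo 1 p) := by
    ext k
    simp only [Finset.mem_Ioo, Finset.mem_insert]
    omega
  have h1 : (1 : ℕ) ∉ Finset.Ioo 1 p := by simp
  rw [hIoo, Finset.sum_insert h1] at h
  refine ⟨∑ k ∈ Finset.Ioo 1 p, y ^ (k - 2) * ((p.choose k / p : ℕ) : S), ?_⟩
  have hsum : ∑ k ∈ Finset.Ioo 1 p, y ^ k * 1 ^ (p - k) * ((p.choose k / p : ℕ) : S) =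
      y ^ 2 * ∑ k ∈ Finset.Ioo 1 p, y ^ (k - 2) * ((p.choose k / p : ℕ) : S) := by
    rw [Finset.mul_sum]
    refine Finset.sum_congr rfl fun k hk => ?_
    have hk2 : 2 ≤ k := by
      have := (Finset.mem_Ioo.1 hk).1
      omega
    rw [one_pow, mul_one, ← mul_assoc, ← pow_add, Nat.add_sub_cancel' hk2]
  have hc1 : ((p.choose 1 / p : ℕ) : S) = 1 := by
    rw [Nat.choose_one_right, Nat.div_self hp.pos, Nat.cast_one]
  rw [hsum, hc1, add_comm y 1] at h
  rw [h]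
  ring

section Split

variable {R : Type*} [CommRing R]

/-- **(S1) The split polynomial.**  If `(p : R) = ϖ ^ e * u`, `1 ≤ a`, `e + 1 ≤ (p - 1) * a`
and `d = a + e`, then `(1 + ϖ ^ a X) ^ p = 1 + ϖ ^ d (u X + ϖ Q)` for some `Q ∈ R[X]`. -/
theorem exists_split_poly {p : ℕ} (hp : p.Prime) (ϖ u : R) (e a d : ℕ)
    (hpu : (p : R) = ϖ ^ e * u) (ha : 1 ≤ a) (hea : e + 1 ≤ (p - 1) * a) (hd : d = a + e) :
    ∃ Q : R[X], (1 + C (ϖ ^ a) * X) ^ p = 1 + C (ϖ ^ d) * (C u * X + C ϖ * Q) := by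
  obtain ⟨r, hr⟩ := exists_one_add_pow_prime hp (C (ϖ ^ a) * X : R[X])
  obtain ⟨a', rfl⟩ : ∃ a', a = a' + 1 := ⟨a - 1, by omega⟩
  obtain ⟨p', rfl⟩ : ∃ p', p = p' + 1 := ⟨p - 1, by have := hp.pos; omega⟩
  have hap : ∃ m, (a' + 1) * (p' + 1) = d + 1 + m := by
    refine ⟨(a' + 1) * (p' + 1) - (d + 1), ?_⟩
    have h1 : d + 1 ≤ (a' + 1) * (p' + 1) := by
      rw [hd]
      have h2 : (p' + 1 - 1) * (a' + 1) = (a' + 1) * p' := by
        rw [Nat.add_sub_cancel, Nat.mul_comm]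
      rw [h2] at hea
      calc a' + 1 + e + 1 = (a' + 1) + (e + 1) := by ring
        _ ≤ (a' + 1) + (a' + 1) * p' := Nat.add_le_add_left hea _
        _ = (a' + 1) * (p' + 1) := by ring
    omega
  obtain ⟨m, hm⟩ := hap
  have hpC : ((p' + 1 : ℕ) : R[X]) = C (ϖ ^ e) * C u := by
    rw [← C_mul, ← hpu, map_natCast]
  refine ⟨C (u * ϖ ^ a') * X ^ 2 * r + C (ϖ ^ m) * X ^ (p' + 1), ?_⟩
  rw [hr, hpC]
  have hpow : (C (ϖ ^ (a' + 1)) * X : R[X]) ^ (p' + 1) = C (ϖ ^ (d + 1 + m)) * X ^ (p' + 1) := by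
    rw [mul_pow, ← C_pow, ← pow_mul, hm]
  rw [hpow, hd]
  simp only [C_mul, C_pow]
  ring

/-- **(S1h)** The same with `h`: `(1 + ϖ ^ a X) ^ p - 1 - ϖ ^ d h = ϖ ^ d (u X - h + ϖ Q)`. -/
theorem exists_split_poly_sub {p : ℕ} (hp : p.Prime) (ϖ u : R) (e a d : ℕ)
    (hpu : (p : R) = ϖ ^ e * u) (ha : 1 ≤ a) (hea : e + 1 ≤ (p - 1) * a) (hd : d = a + e) :
    ∃ Q : R[X], ∀ h : R, (1 + C (ϖ ^ a) * X) ^ p - 1 - C (ϖ ^ d * h) =
      C (ϖ ^ d) * (C u * X - C h + C ϖ * Q) := by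
  obtain ⟨Q, hQ⟩ := exists_split_poly hp ϖ u e a d hpu ha hea hd
  refine ⟨Q, fun h => ?_⟩
  rw [hQ, C_mul]
  ring

variable {S : Type*} [CommRing S] [Algebra R S]

/-- **(S2c) The degree-one sheet.**  A root `z` of the sheet polynomial `u Z - h + ϖ Q` gives the
`p`-th root `1 + ϖ ^ a z` of `1 + ϖ ^ d h`. -/
theorem pow_eq_of_root {p : ℕ} {ϖ u : R} {a d : ℕ} {Q : R[X]}
    (hQ : (1 + C (ϖ ^ a) * X) ^ p = 1 + C (ϖ ^ d) * (C u * X + C ϖ * Q)) (h : R) (z : S)
    (hz : algebraMap R S u * z - algebraMap R S h + algebraMap R S ϖ * aeval z Q = 0) :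
    (1 + algebraMap R S (ϖ ^ a) * z) ^ p = 1 + algebraMap R S (ϖ ^ d * h) := by
  have h1 := congrArg (aeval z) hQ
  simp only [map_pow, map_add, map_one, map_mul, aeval_C, aeval_X] at h1
  rw [map_pow, h1, map_mul, map_pow]
  linear_combination (algebraMap R S ϖ) ^ d * hz

/-- **(S2) The root from a `p`-th root.**  If `t = 1 + ϖ ^ a z` and `t ^ p = 1 + ϖ ^ d h`, and
`ϖ ^ d` is a non-zero-divisor of `S`, then `z` is a root of the sheet polynomial. -/
theorem root_of_pow_eq {p : ℕ} {ϖ u : R} {a d : ℕ} {Q : R[X]}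
    (hQ : (1 + C (ϖ ^ a) * X) ^ p = 1 + C (ϖ ^ d) * (C u * X + C ϖ * Q)) (h : R) (t z : S)
    (ht : t ^ p = 1 + algebraMap R S (ϖ ^ d * h)) (hz : t = 1 + algebraMap R S (ϖ ^ a) * z)
    (hreg : ∀ x : S, algebraMap R S (ϖ ^ d) * x = 0 → x = 0) :
    algebraMap R S u * z - algebraMap R S h + algebraMap R S ϖ * aeval z Q = 0 := by
  apply hreg
  have h1 := congrArg (aeval z) hQ
  simp only [map_pow, map_add, map_one, map_mul, aeval_C, aeval_X] at h1
  rw [hz, map_pow] at ht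
  rw [map_mul, map_pow] at ht
  rw [map_pow]
  linear_combination ht - h1

/-- **(S2d)** The derivative of the sheet polynomial is `u + ϖ Q'` (a unit modulo `ϖ` when `u`
is). -/
theorem derivative_sheet (ϖ u h : R) (Q : R[X]) :
    derivative (C u * X - C h + C ϖ * Q) = C u + C ϖ * derivative Q := by
  simp

/-- The sheet polynomial reduces to `u Z - h` modulo `ϖ`: its value at `z` is congruent to
`u z - h`. -/
theorem aeval_sheet (ϖ u h : R) (Q : R[X]) (z : S) :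
    aeval z (C u * X - C h + C ϖ * Q) =
      algebraMap R S u * z - algebraMap R S h + algebraMap R S ϖ * aeval z Q := by
  simp

end Split

end Fermat.Agent.S44.L.DepthSplit
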