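import Mathlib
import Fermat.Agent.S30.GaussDVR
import Fermat.Agent.S44.L.DepthSplit

/-!
# S44 (Mazur–Ribet), strand L, cover-free ALT, brick (A2): the first-order derivation

`S` a ring with a distinguished element `ϖ` (in the application the ring of integers `O_*` of the
wildly ramified base `E_* = E(b)`, `ϖ = b / c - 1`), `r : S →+* k` the reduction modulo `ϖ`,
`k` a perfect field of characteristic `p`, and `p ∈ ϖ² S`.  Then `S / ϖ²` is canonically the ring
of dual numbers `k[ε]`, `ε = ϖ` (Teichmüller splitting `x̄ ↦ y ^ p`, `ȳ ^ p = x̄`), i.e. there is a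
map `D : S → k` with

  `D (x + y) = D x + D y`,  `D (x * y) = r x * D y + D x * r y`,  `D ϖ = 1`.

`ρ(g) = D g / r g` is the first-order invariant `ρ_v` of the ALT: it is additive on units, kills
`p`-th powers, kills every subring all of whose elements are `p`-th powers modulo `ϖ²` (the
unramified base), and `ρ(p / ϖ ^ p) = 1 / w̄` when `(1 + ϖ) ^ p = 1 + p w` (peu ramifié: `w` a
unit).

* `IsFirstOrder r ϖ D` : the three identities;  `IsFirstOrder.map_pow_char`,
  `map_unif_sq_mul`, `map_eq_zero_of_eq`, `div_mul`.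
* `exists_isFirstOrder` : existence.
* `dHat` : the coefficientwise lift `S((q)) → k((q))`, `dHat_mul`.
* `dV` : the lift to the Gauss ring `GaussDVR.V O E` (quotient rule), `dV_add`, `dV_mul`,
  `dV_mul_rho`.
* `eis` : `p = η ϖ ^ p` with `D η * r w = r η`.
-/

set_option autoImplicit false

open ModularCurve

noncomputable section

namespace Fermat.Agent.S44.L.FirstOrder

/-! ### First-order derivations -/

section Abstract

variable {S k : Type*} [CommRing S] [CommRing k]

/-- `D : S → k` is a derivation along the ring homomorphism `r`, normalised by `D ϖ = 1`. -/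
structure IsFirstOrder (r : S →+* k) (ϖ : S) (D : S → k) : Prop where
  map_add : ∀ x y, D (x + y) = D x + D y
  leibniz : ∀ x y, D (x * y) = r x * D y + D x * r y
  map_unif : D ϖ = 1

namespace IsFirstOrder

variable {r : S →+* k} {ϖ : S} {D : S → k} (h : IsFirstOrder r ϖ D)

include h

theorem map_zero : D 0 = 0 := by
  have h1 := h.map_add 0 0
  rw [add_zero] at h1
  linear_combination (-1 : k) * h1

theorem map_one : D 1 = 0 := by
  have h1 := h.leibniz 1 1
  rw [mul_one, _root_.map_one, one_mul, mul_one] at h1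
  linear_combination (-1 : k) * h1

theorem map_neg (x : S) : D (-x) = -D x := by
  have h1 := h.map_add x (-x)
  rw [add_neg_cancel, h.map_zero] at h1
  linear_combination (-1 : k) * h1

theorem map_sub (x y : S) : D (x - y) = D x - D y := by
  rw [sub_eq_add_neg, h.map_add, h.map_neg, sub_eq_add_neg]

/-- `D` as an additive homomorphism. -/
def toAddMonoidHom : S →+ k where
  toFun := D
  map_zero' := h.map_zero
  map_add' := h.map_add

theorem map_sum {ι : Type*} (s : Finset ι) (f : ι → S) :
    D (∑ i ∈ s, f i) = ∑ i ∈ s, D (f i) :=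
  _root_.map_sum h.toAddMonoidHom f s

theorem map_pow (x : S) (n : ℕ) : D (x ^ n) = n * r x ^ (n - 1) * D x := by
  induction n with
  | zero => rw [pow_zero, h.map_one, Nat.cast_zero, zero_mul, zero_mul]
  | succ n ih =>
    rw [pow_succ, h.leibniz, ih, _root_.map_pow, Nat.add_sub_cancel, Nat.cast_succ]
    rcases Nat.eq_zero_or_pos n with rfl | hn
    · simp
    · obtain ⟨m, rfl⟩ : ∃ m, n = m + 1 := ⟨n - 1, by omega⟩
      rw [Nat.add_sub_cancel, pow_succ]
      ring

/-- `D` kills `p`-th powers when the target has characteristic `p`. -/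
theorem map_pow_char (p : ℕ) [CharP k p] (x : S) : D (x ^ p) = 0 := by
  rw [h.map_pow, CharP.cast_eq_zero, zero_mul, zero_mul]

theorem map_natCast (n : ℕ) : D (n : S) = 0 := by
  induction n with
  | zero => rw [Nat.cast_zero, h.map_zero]
  | succ n ih => rw [Nat.cast_succ, h.map_add, ih, h.map_one, add_zero]

theorem map_unif_mul (hr : r ϖ = 0) (x : S) : D (ϖ * x) = r x := by
  rw [h.leibniz, hr, zero_mul, h.map_unif, one_mul, zero_add]

theorem map_unif_sq_mul (hr : r ϖ = 0) (x : S) : D (ϖ ^ 2 * x) = 0 := by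
  have e : ϖ ^ 2 * x = ϖ * (ϖ * x) := by ring
  rw [e, h.map_unif_mul hr, _root_.map_mul, hr, zero_mul]

/-- `D` kills everything that is a `p`-th power modulo `ϖ²`: the unramified base. -/
theorem map_eq_zero_of_eq (p : ℕ) [CharP k p] (hr : r ϖ = 0) {a y z : S}
    (ha : a = y ^ p + ϖ ^ 2 * z) : D a = 0 := by
  rw [ha, h.map_add, h.map_pow_char p, h.map_unif_sq_mul hr, add_zero]

theorem map_eq_zero_of_dvd (p : ℕ) [CharP k p] (hr : r ϖ = 0) {a y : S}
    (ha : ϖ ^ 2 ∣ a - y ^ p) : D a = 0 := by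
  obtain ⟨z, hz⟩ := ha
  exact h.map_eq_zero_of_eq p hr (y := y) (z := z) (by rw [← hz]; ring)

/-- The product rule for a unit and its inverse. -/
theorem map_mul_eq_one {x y : S} (hxy : x * y = 1) : r x * D y + D x * r y = 0 := by
  rw [← h.leibniz, hxy, h.map_one]

end IsFirstOrder

/-- The logarithmic form `ρ = D / r` is additive. -/
theorem IsFirstOrder.div_mul {S k : Type*} [CommRing S] [Field k] {r : S →+* k} {ϖ : S}
    {D : S → k} (h : IsFirstOrder r ϖ D) {x y : S} (hx : r x ≠ 0) (hy : r y ≠ 0) :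
    D (x * y) / r (x * y) = D x / r x + D y / r y := by
  rw [h.leibniz, _root_.map_mul]
  field_simp
  ring

end Abstract

/-! ### Existence -/

section Exists

variable {S k : Type*} [CommRing S] [Field k]

/-- `(y + ϖ z) ^ p ≡ y ^ p` modulo `ϖ²` when `p ∈ ϖ² S`. -/
theorem sq_dvd_add_pow_sub {p : ℕ} (hp : p.Prime) (ϖ : S) (hp2 : ϖ ^ 2 ∣ (p : S)) (y z : S) :
    ϖ ^ 2 ∣ (y + ϖ * z) ^ p - y ^ p := by
  obtain ⟨c, hc⟩ := exists_add_pow_prime_eq hp y (ϖ * z)
  obtain ⟨d, hd⟩ := hp2
  obtain ⟨m, rfl⟩ : ∃ m, p = m + 2 := ⟨p - 2, by have := hp.two_le; omega⟩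
  refine ⟨ϖ ^ m * z ^ (m + 2) + d * y * (ϖ * z) * c, ?_⟩
  rw [hc, hd]
  ring

/-- **Existence of the first-order derivation.** -/
theorem exists_isFirstOrder (p : ℕ) [hp : Fact p.Prime] [CharP k p] (r : S →+* k) (ϖ : S)
    (hreg : ∀ x : S, ϖ * x = 0 → x = 0) (hker : ∀ x : S, r x = 0 ↔ ϖ ∣ x)
    (hp2 : ϖ ^ 2 ∣ (p : S)) (hperf : ∀ s : S, ∃ y : S, ϖ ∣ s - y ^ p) :
    ∃ D : S → k, IsFirstOrder r ϖ D := by
  classical
  have hrϖ : r ϖ = 0 := (hker ϖ).mpr dvd_rfl
  -- the choice
  choose Y hY using hperf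
  choose T hT using hY
  -- `ϖ ∣ y ^ p - y' ^ p` implies `ϖ² ∣ y ^ p - y' ^ p`
  have hK2 : ∀ y y' : S, ϖ ∣ y ^ p - y' ^ p → ϖ ^ 2 ∣ y ^ p - y' ^ p := by
    intro y y' hd
    have h1 : r y ^ p = r y' ^ p := by
      have := (hker _).mpr hd
      rw [map_sub, map_pow, map_pow, sub_eq_zero] at this
      exact this
    have h2 : r y = r y' := by
      have := frobenius_inj k p
      exact this (by simpa [frobenius_def] using h1)
    obtain ⟨z, hz⟩ : ϖ ∣ y - y' := (hker _).mp (by rw [map_sub, h2, sub_self])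
    have e : y = y' + ϖ * z := by rw [← hz]; ring
    rw [e]
    exact sq_dvd_add_pow_sub hp.out ϖ hp2 y' z
  -- the characterisation
  have hC : ∀ s y t : S, s = y ^ p + ϖ * t → r (T s) = r t := by
    intro s y t hs
    have h1 : y ^ p - Y s ^ p = ϖ * (T s - t) := by
      have := hT s
      rw [mul_sub, ← this, hs]
      ring
    obtain ⟨c, hc⟩ := hK2 y (Y s) ⟨_, h1⟩
    have h2 : ϖ * (ϖ * c - (T s - t)) = 0 := by
      rw [mul_sub, ← h1, hc]
      ring
    have h3 := hreg _ h2
    have h4 : T s = t + ϖ * c := by linear_combination (-1 : S) * h3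
    rw [h4, map_add, map_mul, hrϖ, zero_mul, add_zero]
  have hS : ∀ s : S, s = Y s ^ p + ϖ * T s := by
    intro s
    rw [← hT s]
    ring
  refine ⟨fun s => r (T s), ?_, ?_, ?_⟩
  · intro x y
    obtain ⟨c, hc⟩ := exists_add_pow_prime_eq hp.out (Y x) (Y y)
    obtain ⟨d, hd⟩ := hp2
    have e : x + y = (Y x + Y y) ^ p + ϖ * (T x + T y - ϖ * (d * Y x * Y y * c)) := by
      rw [hc, hd]
      linear_combination hS x + hS y
    rw [hC _ _ _ e, map_sub, map_add, map_mul, hrϖ, zero_mul, sub_zero]
  · intro x y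
    have e : x * y = (Y x * Y y) ^ p
        + ϖ * (Y x ^ p * T y + T x * Y y ^ p + ϖ * (T x * T y)) := by
      rw [mul_pow]
      linear_combination (Y y ^ p + ϖ * T y) * hS x + x * hS y
    have hx : r x = r (Y x) ^ p := by
      conv_lhs => rw [hS x]
      rw [map_add, map_mul, hrϖ, zero_mul, add_zero, map_pow]
    have hy : r y = r (Y y) ^ p := by
      conv_lhs => rw [hS y]
      rw [map_add, map_mul, hrϖ, zero_mul, add_zero, map_pow]
    show r (T (x * y)) = r x * r (T y) + r (T x) * r y
    rw [hC _ _ _ e, map_add, map_add, map_mul, map_mul, map_mul, hrϖ, zero_mul, add_zero,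
      map_pow, map_pow, hx, hy]
  · have e : ϖ = (0 : S) ^ p + ϖ * 1 := by
      rw [zero_pow hp.out.ne_zero, zero_add, mul_one]
    show r (T ϖ) = 1
    rw [hC _ _ _ e, map_one]

end Exists

/-! ### The coefficientwise lift to Laurent series -/

section Laurent

variable {S k : Type*} [CommRing S] [CommRing k] {r : S →+* k} {ϖ : S} {D : S → k}

/-- The coefficientwise lift of `D` to Laurent series. -/
def dHat (h : IsFirstOrder r ϖ D) (x : LaurentSeries S) : LaurentSeries k :=
  x.map (⟨D, h.map_zero⟩ : ZeroHom S k)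

@[simp]
theorem dHat_coeff (h : IsFirstOrder r ϖ D) (x : LaurentSeries S) (n : ℤ) :
    (dHat h x).coeff n = D (x.coeff n) :=
  rfl

theorem dHat_zero (h : IsFirstOrder r ϖ D) : dHat h 0 = 0 := by
  ext n
  rw [dHat_coeff, HahnSeries.coeff_zero, HahnSeries.coeff_zero, h.map_zero]

theorem dHat_add (h : IsFirstOrder r ϖ D) (x y : LaurentSeries S) :
    dHat h (x + y) = dHat h x + dHat h y := by
  ext n
  rw [dHat_coeff, HahnSeries.coeff_add, HahnSeries.coeff_add, dHat_coeff, dHat_coeff, h.map_add]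

theorem dHat_neg (h : IsFirstOrder r ϖ D) (x : LaurentSeries S) : dHat h (-x) = -dHat h x := by
  ext n
  rw [dHat_coeff, HahnSeries.coeff_neg, HahnSeries.coeff_neg, dHat_coeff, h.map_neg]

theorem dHat_sub (h : IsFirstOrder r ϖ D) (x y : LaurentSeries S) :
    dHat h (x - y) = dHat h x - dHat h y := by
  rw [sub_eq_add_neg, dHat_add, dHat_neg, sub_eq_add_neg]

theorem dHat_C (h : IsFirstOrder r ϖ D) (a : S) :
    dHat h (HahnSeries.C a) = HahnSeries.C (D a) := by
  ext n
  rw [dHat_coeff, HahnSeries.C_apply, HahnSeries.C_apply]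
  by_cases hn : n = 0
  · subst hn
    rw [HahnSeries.coeff_single_same, HahnSeries.coeff_single_same]
  · rw [HahnSeries.coeff_single_of_ne hn, HahnSeries.coeff_single_of_ne hn, h.map_zero]

/-- A series all of whose coefficients are killed by `D` is killed by `dHat`. -/
theorem dHat_eq_zero (h : IsFirstOrder r ϖ D) (x : LaurentSeries S)
    (hx : ∀ n : ℤ, D (x.coeff n) = 0) : dHat h x = 0 := by
  ext n
  rw [dHat_coeff, hx n, HahnSeries.coeff_zero]

/-- Series coming from a subring killed by `D` are killed by `dHat`. -/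
theorem dHat_coeffMap (h : IsFirstOrder r ϖ D) {S₀ : Type*} [CommRing S₀] (φ : S₀ →+* S)
    (hφ : ∀ a : S₀, D (φ a) = 0) (x : LaurentSeries S₀) : dHat h (coeffMap φ x) = 0 :=
  dHat_eq_zero h _ fun n => by rw [coeffMap_coeff]; exact hφ _

/-- **The Leibniz rule for the coefficientwise lift.** -/
theorem dHat_mul (h : IsFirstOrder r ϖ D) (x y : LaurentSeries S) :
    dHat h (x * y) = coeffMap r x * dHat h y + dHat h x * coeffMap r y := by
  ext n
  have h1 : (coeffMap r x * dHat h y).coeff n =
      ∑ ij ∈ Finset.antidiagonal x.isPWO_support y.isPWO_support n,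
        r (x.coeff ij.1) * D (y.coeff ij.2) := by
    rw [HahnSeries.coeff_mul]
    refine Finset.sum_subset (fun ij hij => ?_) (fun ij hij hz => ?_)
    · rw [Finset.mem_antidiagonal] at hij ⊢
      refine ⟨?_, ?_, hij.2.2⟩
      · have h0 := hij.1
        rw [HahnSeries.mem_support] at h0 ⊢
        intro hx0
        apply h0
        rw [coeffMap_coeff, hx0, map_zero]
      · have h0 := hij.2.1
        rw [HahnSeries.mem_support] at h0 ⊢
        intro hy0
        apply h0
        rw [dHat_coeff, hy0, h.map_zero]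
    · rw [Finset.mem_antidiagonal] at hij hz
      by_cases h0 : r (x.coeff ij.1) = 0
      · rw [coeffMap_coeff, h0, zero_mul]
      · have h2 : D (y.coeff ij.2) = 0 := by
          by_contra h3
          exact hz ⟨(HahnSeries.mem_support _ _).mpr (by rw [coeffMap_coeff]; exact h0),
            (HahnSeries.mem_support _ _).mpr (by rw [dHat_coeff]; exact h3), hij.2.2⟩
        rw [dHat_coeff, h2, mul_zero]
  have h2 : (dHat h x * coeffMap r y).coeff n =
      ∑ ij ∈ Finset.antidiagonal x.isPWO_support y.isPWO_support n,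
        D (x.coeff ij.1) * r (y.coeff ij.2) := by
    rw [HahnSeries.coeff_mul]
    refine Finset.sum_subset (fun ij hij => ?_) (fun ij hij hz => ?_)
    · rw [Finset.mem_antidiagonal] at hij ⊢
      refine ⟨?_, ?_, hij.2.2⟩
      · have h0 := hij.1
        rw [HahnSeries.mem_support] at h0 ⊢
        intro hx0
        apply h0
        rw [dHat_coeff, hx0, h.map_zero]
      · have h0 := hij.2.1
        rw [HahnSeries.mem_support] at h0 ⊢
        intro hy0
        apply h0
        rw [coeffMap_coeff, hy0, map_zero]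
    · rw [Finset.mem_antidiagonal] at hij hz
      by_cases h0 : D (x.coeff ij.1) = 0
      · rw [dHat_coeff, h0, zero_mul]
      · have h2 : r (y.coeff ij.2) = 0 := by
          by_contra h3
          exact hz ⟨(HahnSeries.mem_support _ _).mpr (by rw [dHat_coeff]; exact h0),
            (HahnSeries.mem_support _ _).mpr (by rw [coeffMap_coeff]; exact h3), hij.2.2⟩
        rw [coeffMap_coeff, h2, mul_zero]
  rw [HahnSeries.coeff_add, dHat_coeff, HahnSeries.coeff_mul, h.map_sum, h1, h2,
    ← Finset.sum_add_distrib]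
  exact Finset.sum_congr rfl fun ij _ => h.leibniz _ _

end Laurent

/-! ### The lift to the Gauss ring -/

section Gauss

open Fermat.Agent.S30

variable (O E : Type*) [CommRing O] [IsDomain O] [IsDiscreteValuationRing O] [Field E]
  [Algebra O E] [FaithfulSMul O E]
  {ϖ : O} {D : O → IsLocalRing.ResidueField O}

/-- The lift of `D` to the Gauss ring `V` (quotient rule on a representation `x = ι a / ι b`). -/
def dV (h : IsFirstOrder (IsLocalRing.residue O) ϖ D) (x : GaussDVR.V O E) :
    LaurentSeries (IsLocalRing.ResidueField O) :=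
  (dHat h (Classical.choose x.2)
      - GaussDVR.red O E x * dHat h (Classical.choose (Classical.choose_spec x.2)))
    / GaussDVR.rho O (Classical.choose (Classical.choose_spec x.2))

/-- **Quotient rule**, for any representation `x * ι b = ι a` with `ρ b ≠ 0`. -/
theorem dV_eq (h : IsFirstOrder (IsLocalRing.residue O) ϖ D) (x : GaussDVR.V O E)
    (a b : LaurentSeries O) (hb : GaussDVR.rho O b ≠ 0)
    (hx : (x : LaurentSeries E) * GaussDVR.iota O E b = GaussDVR.iota O E a) :
    dV O E h x = (dHat h a - GaussDVR.red O E x * dHat h b) / GaussDVR.rho O b := by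
  obtain ⟨hb₀, h₀⟩ := Classical.choose_spec (Classical.choose_spec x.2)
  set a₀ := Classical.choose x.2
  set b₀ := Classical.choose (Classical.choose_spec x.2)
  have key : a₀ * b = a * b₀ := by
    apply GaussDVR.iota_injective O E
    rw [map_mul, map_mul, ← h₀, ← hx]
    ring
  have key' := congrArg (dHat h) key
  rw [dHat_mul, dHat_mul] at key'
  have hR₀ := GaussDVR.red_mul_rho O E x a₀ b₀ h₀
  have hR := GaussDVR.red_mul_rho O E x a b hx
  show (dHat h a₀ - GaussDVR.red O E x * dHat h b₀) / GaussDVR.rho O b₀ = _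
  rw [div_eq_div_iff hb₀ hb]
  rw [← hR₀, ← hR] at key'
  linear_combination key'

/-- Multiplicative form of the quotient rule (no division). -/
theorem dV_mul_rho (h : IsFirstOrder (IsLocalRing.residue O) ϖ D) (x : GaussDVR.V O E)
    (a b : LaurentSeries O) (hb : GaussDVR.rho O b ≠ 0)
    (hx : (x : LaurentSeries E) * GaussDVR.iota O E b = GaussDVR.iota O E a) :
    dV O E h x * GaussDVR.rho O b = dHat h a - GaussDVR.red O E x * dHat h b := by
  rw [dV_eq O E h x a b hb hx, div_mul_cancel₀ _ hb]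

/-- On integral series `dV` is the coefficientwise lift. -/
theorem dV_ofInt (h : IsFirstOrder (IsLocalRing.residue O) ϖ D) (a : LaurentSeries O) :
    dV O E h (GaussDVR.ofInt O E a) = dHat h a := by
  rw [dV_eq O E h _ a 1 (by rw [map_one]; exact one_ne_zero) (by simp)]
  have h1 : dHat h (1 : LaurentSeries O) = 0 := by
    have := dHat_C h (1 : O)
    rw [h.map_one, map_one, map_zero] at this
    exact this
  rw [h1, mul_zero, sub_zero, map_one, div_one]

theorem dV_add (h : IsFirstOrder (IsLocalRing.residue O) ϖ D) (x y : GaussDVR.V O E) :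
    dV O E h (x + y) = dV O E h x + dV O E h y := by
  obtain ⟨a, b, hb, hx⟩ := (GaussDVR.mem_V O E).mp x.2
  obtain ⟨a', b', hb', hy⟩ := (GaussDVR.mem_V O E).mp y.2
  have hbb : GaussDVR.rho O (b * b') ≠ 0 := by rw [map_mul]; exact mul_ne_zero hb hb'
  have hxy : ((x + y : GaussDVR.V O E) : LaurentSeries E) * GaussDVR.iota O E (b * b')
      = GaussDVR.iota O E (a * b' + a' * b) := by
    rw [Subring.coe_add, map_add, map_mul, map_mul, map_mul, ← hx, ← hy]
    ring
  have hRx := GaussDVR.red_mul_rho O E x a b hx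
  have hRy := GaussDVR.red_mul_rho O E y a' b' hy
  rw [dV_eq O E h x a b hb hx, dV_eq O E h y a' b' hb' hy, dV_eq O E h (x + y) _ _ hbb hxy,
    dHat_add, dHat_mul, dHat_mul, dHat_mul, map_mul, map_add, ← hRx, ← hRy]
  field_simp
  ring

/-- **The Leibniz rule on the Gauss ring.** -/
theorem dV_mul (h : IsFirstOrder (IsLocalRing.residue O) ϖ D) (x y : GaussDVR.V O E) :
    dV O E h (x * y) = GaussDVR.red O E x * dV O E h y + dV O E h x * GaussDVR.red O E y := by
  obtain ⟨a, b, hb, hx⟩ := (GaussDVR.mem_V O E).mp x.2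
  obtain ⟨a', b', hb', hy⟩ := (GaussDVR.mem_V O E).mp y.2
  have hbb : GaussDVR.rho O (b * b') ≠ 0 := by rw [map_mul]; exact mul_ne_zero hb hb'
  have hxy : ((x * y : GaussDVR.V O E) : LaurentSeries E) * GaussDVR.iota O E (b * b')
      = GaussDVR.iota O E (a * a') := by
    rw [Subring.coe_mul, map_mul, map_mul, ← hx, ← hy]
    ring
  have hRx := GaussDVR.red_mul_rho O E x a b hx
  have hRy := GaussDVR.red_mul_rho O E y a' b' hy
  rw [dV_eq O E h x a b hb hx, dV_eq O E h y a' b' hb' hy, dV_eq O E h (x * y) _ _ hbb hxy,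
    dHat_mul, dHat_mul, map_mul, map_mul, ← hRx, ← hRy]
  field_simp
  ring

/-- `dV` kills everything defined over a subring killed by `D` (the unramified base): if
`x = ι (φ a) / ι (φ b)` with `a`, `b` series over `S₀`. -/
theorem dV_eq_zero_of_base (h : IsFirstOrder (IsLocalRing.residue O) ϖ D) {S₀ : Type*}
    [CommRing S₀] (φ : S₀ →+* O) (hφ : ∀ a : S₀, D (φ a) = 0) (x : GaussDVR.V O E)
    (a b : LaurentSeries S₀) (hb : GaussDVR.rho O (coeffMap φ b) ≠ 0)
    (hx : (x : LaurentSeries E) * GaussDVR.iota O E (coeffMap φ b)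
      = GaussDVR.iota O E (coeffMap φ a)) :
    dV O E h x = 0 := by
  rw [dV_eq O E h x _ _ hb hx, dHat_coeffMap h φ hφ, dHat_coeffMap h φ hφ, mul_zero, sub_zero,
    zero_div]

/-- The logarithmic form `ρ = dV / red` is additive on elements with nonzero reduction. -/
theorem dV_div_mul (h : IsFirstOrder (IsLocalRing.residue O) ϖ D) (x y : GaussDVR.V O E)
    (hx : GaussDVR.red O E x ≠ 0) (hy : GaussDVR.red O E y ≠ 0) :
    dV O E h (x * y) / GaussDVR.red O E (x * y)
      = dV O E h x / GaussDVR.red O E x + dV O E h y / GaussDVR.red O E y := by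
  rw [dV_mul, map_mul]
  field_simp
  ring

end Gauss

/-! ### The Eisenstein constant -/

section Eis

variable {S k : Type*} [CommRing S] [CommRing k]

/-- **The constant `e₁`.**  If `(1 + ϖ) ^ p = 1 + p w` with `w` a unit (`r w ≠ 0`) killed by `D`
(e.g. `w` in the unramified base), then `p = η ϖ ^ p` with `η` a unit and `D η * r w = r η`,
i.e. `ρ(p / ϖ ^ p) = 1 / w̄`. -/
theorem eis {p : ℕ} (hp : p.Prime) {r : S →+* k} {ϖ : S} {D : S → k} (h : IsFirstOrder r ϖ D)
    (hr : r ϖ = 0) (hunit : ∀ x : S, r x ≠ 0 → IsUnit x) (w : S)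
    (hw : (1 + ϖ) ^ p = 1 + p * w) (hw0 : r w ≠ 0) (hDw : D w = 0) :
    ∃ η : S, IsUnit η ∧ (p : S) = η * ϖ ^ p ∧ D η * r w = r η := by
  obtain ⟨c, hc⟩ := Fermat.Agent.S44.L.DepthSplit.exists_one_add_pow_prime hp ϖ
  have hv : r (w - ϖ - ϖ ^ 2 * c) = r w := by
    rw [map_sub, map_sub, map_mul, map_pow, hr]
    ring
  obtain ⟨u, hu⟩ := hunit (w - ϖ - ϖ ^ 2 * c) (by rw [hv]; exact hw0)
  have hmul : (u : S) * ((u⁻¹ : Sˣ) : S) = 1 := Units.mul_inv u
  refine ⟨((u⁻¹ : Sˣ) : S), (u⁻¹).isUnit, ?_, ?_⟩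
  · have h1 : ϖ ^ p = p * (u : S) := by
      rw [hu]
      linear_combination hw - hc
    rw [h1]
    linear_combination (-(p : S)) * hmul
  · have h2 := h.map_mul_eq_one hmul
    have hDu : D (u : S) = -1 := by
      rw [hu, h.map_sub, h.map_sub, hDw, h.map_unif, h.map_unif_sq_mul hr]
      ring
    rw [hDu, hu, hv] at h2
    linear_combination h2

end Eis

end Fermat.Agent.S44.L.FirstOrder
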