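import Mathlib
import Fermat.Agent.S36.CycloBase
import Fermat.Agent.S44.L.CycloPerf
import Fermat.Agent.S44.L.FirstOrder

/-!
# S44 (Mazur–Ribet), strand L, cover-free ALT: the number-field junction of the Eisenstein case

`Qb = AlgebraicClosure ℚ`, `A` a valuation subring of `Qb` over the prime `p`, `K ⊆ Qb` a number
field inside the inertia field of `A` (so `p` is a uniformiser of `OE A K = A ∩ K`), and `π ∈ Qb`
with `|π| ^ p = |p|`.  Let `E'` be a field with `K ≤ E'`, `π ∈ E'`, every element of which is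
`∑_{i < p} c_i π ^ i` with `c_i ∈ K` (`hexp`; e.g. `E' = K(π)` when `π` is a root of a monic
polynomial of degree `p` over `K`: `exists_expansion`; in the Kummer case `π = b / c - 1`,
`(b / c) ^ p = 1 + p w`, `c, w ∈ K`, `E' = K(b)`: `exists_expansion_kummer`).  Then, with
`piO = π` as an element of `OE A E'`:

* `irreducible_piO`, `maximalIdeal_eq_span_piO`, `piO_dvd_iff` : `π` is a uniformiser of the
  discrete valuation ring `OE A E'`;
* `exists_unit_mul_piO_pow` : `p = η π ^ p` with `η` a unit;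
* `exists_sub_inclOE`, `exists_expansion_OE` : the residue field does not grow, and
  `OE A E' = ⊕_{i < p} (OE A K) π ^ i`;
* `exists_theta` : `π ^ p = p θ(π)` with `θ ∈ (OE A K)[X]`, `deg θ < p`, `θ(0) = w` a unit;
* `exists_isFirstOrder_OE`, `exists_isFirstOrder_eis` : **the junction** — the first-order
  derivation `D` of `OE A E'` (`FirstOrder.IsFirstOrder`), `D = 0` on `OE A K`, `D π = 1`,
  `D η * w̄ = η̄`;
* `exists_firstOrder_OE` : everything at `E' = K(b)` in the vocabulary of `EisDich.eisDich`.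

The proof of the uniformiser statement is the one of `S36/CycloBase` (`ζ - 1`, exponent `q - 1`)
with the exponent `p`: the nonzero terms `c_i π ^ i` have pairwise distinct valuations.
-/

set_option autoImplicit false

open scoped IntermediateField
open Polynomial

noncomputable section

namespace Fermat.Agent.S44.L.KummerBase

local notation "Qb" => AlgebraicClosure ℚ

open Fermat.Agent.S18.K1Defs Fermat.Agent.S36.UnramBase Fermat.Agent.S30
open Fermat.Agent.S36

/-! ### The valuation of `π` -/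

section Val

variable (A : ValuationSubring Qb) {p : ℕ} (hp : p.Prime) (hA : A.LiesOverPrime p)
  {π : Qb} (hval : A.valuation π ^ p = A.valuation (p : Qb))

include hA hval in
theorem valuation_pi_lt_one : A.valuation π < 1 := by
  have hp1 : A.valuation (p : Qb) < 1 := A.mem_nonunits_iff.mp hA
  by_contra hge
  rw [not_lt] at hge
  have h1 : 1 ≤ A.valuation π ^ p := one_le_pow_of_one_le' hge p
  rw [hval] at h1
  exact absurd hp1 (not_lt.mpr h1)

include hp hval in
theorem valuation_pi_pos : 0 < A.valuation π := by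
  rw [zero_lt_iff]
  intro h0
  rw [h0, zero_pow hp.ne_zero] at hval
  have h1 : (p : Qb) = 0 := (map_eq_zero A.valuation).mp hval.symm
  exact hp.ne_zero (by exact_mod_cast h1)

include hp hval in
theorem pi_ne_zero : π ≠ 0 := by
  intro h
  have h1 := valuation_pi_pos A hp hval
  rw [h, map_zero] at h1
  exact lt_irrefl _ h1

include hA hval in
theorem pi_mem : π ∈ A :=
  (A.valuation_le_one_iff π).mp (valuation_pi_lt_one A hA hval).le

end Val

/-! ### Expansions -/

/-- Every element of `K(π)` is a `K`-combination of `π ^ i`, `i < p`, if `π` is a root of a monic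
polynomial of degree `p` over `K`. -/
theorem exists_expansion (K : IntermediateField ℚ Qb) {p : ℕ} (hp0 : p ≠ 0) {π : Qb} (F : K[X])
    (hF : F.Monic) (hdeg : F.natDegree = p) (hroot : aeval π F = 0) (y : Qb)
    (hy : y ∈ CycloBase.cyclo K π) :
    ∃ c : ℕ → K, y = ∑ i ∈ Finset.range p, ((c i : K) : Qb) * π ^ i := by
  rw [CycloBase.mem_cyclo_iff] at hy
  have halgQ : Algebra.IsAlgebraic ℚ Qb := GaussDescent.isAlgebraic_rat_Qb
  have halgK : Algebra.IsAlgebraic K Qb := Algebra.IsAlgebraic.tower_top (K := ℚ) K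
  have halg : IsAlgebraic K π := halgK.isAlgebraic π
  have hy' : y ∈ (K⟮π⟯).toSubalgebra := hy
  rw [IntermediateField.adjoin_simple_toSubalgebra_of_isAlgebraic halg,
    Algebra.adjoin_singleton_eq_range_aeval] at hy'
  obtain ⟨g, hg⟩ := hy'
  have hF1 : F ≠ 1 := by
    intro h1
    rw [h1, natDegree_one] at hdeg
    exact hp0 hdeg.symm
  set r : K[X] := g %ₘ F with hr
  have hrdeg : r.natDegree < p := by
    rw [← hdeg]
    exact natDegree_modByMonic_lt _ hF hF1
  have hry : aeval π r = y := by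
    rw [hr, aeval_modByMonic_eq_self_of_root hroot]
    exact hg
  refine ⟨fun i => r.coeff i, ?_⟩
  rw [← hry, aeval_eq_sum_range' hrdeg]
  refine Finset.sum_congr rfl fun i _ => ?_
  rw [Algebra.smul_def]
  rfl

/-- The shape `P.eval π = y` with `P` a polynomial of degree `< p` with coefficients in `K`. -/
theorem exists_expansion_of_poly (K : IntermediateField ℚ Qb) {p : ℕ} {π y : Qb} (P : Qb[X])
    (hP : ∀ i, P.coeff i ∈ K) (hd : P.natDegree < p) (hy : P.eval π = y) :
    ∃ c : ℕ → K, y = ∑ i ∈ Finset.range p, ((c i : K) : Qb) * π ^ i :=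
  ⟨fun i => ⟨P.coeff i, hP i⟩, by rw [← hy, eval_eq_sum_range' hd]⟩

/-- The Kummer case: `(1 + π) ^ p = 1 + p w` with `w ∈ K`. -/
theorem exists_monic_of_kummer (K : IntermediateField ℚ Qb) {p : ℕ} (hp0 : p ≠ 0) {π : Qb}
    (w : K) (hw : (1 + π) ^ p = 1 + (p : Qb) * (w : Qb)) :
    ∃ F : K[X], F.Monic ∧ F.natDegree = p ∧ aeval π F = 0 := by
  have hm : ((X + C 1 : K[X]) ^ p).Monic := (monic_X_add_C 1).pow p
  have hd : ((X + C 1 : K[X]) ^ p).natDegree = p := by
    rw [(monic_X_add_C (1 : K)).natDegree_pow, natDegree_X_add_C, mul_one]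
  have hlt : (C (1 + (p : K) * w) : K[X]).degree < ((X + C 1 : K[X]) ^ p).degree := by
    rw [degree_eq_natDegree hm.ne_zero, hd]
    exact lt_of_le_of_lt degree_C_le (by exact_mod_cast Nat.pos_of_ne_zero hp0)
  refine ⟨(X + C 1) ^ p - C (1 + (p : K) * w), hm.sub_of_left hlt, ?_, ?_⟩
  · rw [natDegree_sub_eq_left_of_natDegree_lt, hd]
    rw [natDegree_C, hd]
    exact Nat.pos_of_ne_zero hp0
  · have e : algebraMap K Qb (1 + (p : K) * w) = 1 + (p : Qb) * (w : Qb) := by
      rw [map_add, map_one, map_mul, map_natCast]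
      rfl
    rw [map_sub, map_pow, map_add, aeval_X, aeval_C, aeval_C, map_one, e, add_comm π 1, hw,
      sub_self]

/-- The Kummer case at `E' = K(b)`: every element of `K(b)` is a `K`-combination of
`(b / c - 1) ^ i`, `i < p`. -/
theorem exists_expansion_kummer (K : IntermediateField ℚ Qb) {p : ℕ} (hp0 : p ≠ 0) {b c : Qb}
    (hcK : c ∈ K) (hc0 : c ≠ 0) (w : K) (hbc : (b / c) ^ p = 1 + (p : Qb) * (w : Qb)) (y : Qb)
    (hy : y ∈ CycloBase.cyclo K b) :
    ∃ a : ℕ → K, y = ∑ i ∈ Finset.range p, ((a i : K) : Qb) * (b / c - 1) ^ i := by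
  have hw : (1 + (b / c - 1)) ^ p = 1 + (p : Qb) * (w : Qb) := by
    rw [add_sub_cancel]
    exact hbc
  obtain ⟨F, hF, hdeg, hroot⟩ := exists_monic_of_kummer K hp0 w hw
  refine exists_expansion K hp0 F hF hdeg hroot y ?_
  have hb : b ∈ CycloBase.cyclo K (b / c - 1) := by
    have e : b = c * ((b / c - 1) + 1) := by
      field_simp
      ring
    have h1 : c * ((b / c - 1) + 1) ∈ CycloBase.cyclo K (b / c - 1) :=
      mul_mem (CycloBase.le_cyclo K _ hcK)
        (add_mem (CycloBase.zeta_mem_cyclo K _) (one_mem _))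
    rw [← e] at h1
    exact h1
  have hle : CycloBase.cyclo K b ≤ CycloBase.cyclo K (b / c - 1) := by
    refine sup_le (CycloBase.le_cyclo K _) ?_
    rw [IntermediateField.adjoin_simple_le_iff]
    exact hb
  exact hle hy

/-! ### Valuations of `K`-combinations of powers of `π` -/

section ValKummer

variable (A : ValuationSubring Qb) {p : ℕ} (hp : p.Prime) (hA : A.LiesOverPrime p)
  (K : IntermediateField ℚ Qb) [FiniteDimensional ℚ K]
  (hK : A.inertiaSubgroupIn ℚ ≤ K.fixingSubgroup) {π : Qb}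
  (hval : A.valuation π ^ p = A.valuation (p : Qb))

include hp hA hK hval

/-- A term `c π ^ i`, `c ∈ K`, of nonzero valuation has valuation `|π| ^ (p n + i)`, where
`|c| = |p| ^ n`. -/
theorem exists_valuation_term (c : K) (i : ℕ) (hc0 : (c : Qb) ≠ 0) :
    ∃ n : ℤ, A.valuation (c : Qb) = A.valuation (p : Qb) ^ n ∧
      A.valuation ((c : Qb) * π ^ i) = A.valuation π ^ ((p : ℤ) * n + (i : ℤ)) := by
  obtain ⟨n, hn⟩ := CycloBase.exists_valuation_eq_zpow A hp hA K hK (c : Qb) c.2 hc0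
  refine ⟨n, hn, ?_⟩
  have hpos := valuation_pi_pos A hp hval
  rw [map_mul, map_pow, hn, ← hval, zpow_add₀ hpos.ne', zpow_mul, zpow_natCast, zpow_natCast]

theorem term_index_eq (c c' : K) (i j : ℕ) (hi : i < p) (hj : j < p)
    (h0 : A.valuation ((c : Qb) * π ^ i) ≠ 0)
    (h : A.valuation ((c : Qb) * π ^ i) = A.valuation ((c' : Qb) * π ^ j)) :
    i = j := by
  have hc0 : (c : Qb) ≠ 0 := by
    rintro h1
    apply h0
    rw [h1, zero_mul, map_zero]
  have hc0' : (c' : Qb) ≠ 0 := by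
    rintro h1
    apply h0
    rw [h, h1, zero_mul, map_zero]
  obtain ⟨n, -, hn⟩ := exists_valuation_term A hp hA K hK hval c i hc0
  obtain ⟨n', -, hn'⟩ := exists_valuation_term A hp hA K hK hval c' j hc0'
  have hpos := valuation_pi_pos A hp hval
  have hlt := valuation_pi_lt_one A hA hval
  have hinj := zpow_right_injective₀ hpos hlt.ne
  have he : (p : ℤ) * n + (i : ℤ) = (p : ℤ) * n' + (j : ℤ) :=
    hinj (hn.symm.trans (h.trans hn'))
  have hd : (p : ℤ) ∣ (i : ℤ) - (j : ℤ) := ⟨n' - n, by linarith⟩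
  have habs : |(i : ℤ) - (j : ℤ)| < (p : ℤ) := by
    rw [abs_lt]
    constructor <;> omega
  have h0' := Int.eq_zero_of_abs_lt_dvd hd habs
  omega

theorem val_sum_distinct (c : ℕ → K) :
    (∀ j ∈ Finset.range p, A.valuation (((c j : K) : Qb) * π ^ j) ≤
        A.valuation (∑ i ∈ Finset.range p, ((c i : K) : Qb) * π ^ i)) ∧
      (A.valuation (∑ i ∈ Finset.range p, ((c i : K) : Qb) * π ^ i) ≠ 0 →
        ∃ i ∈ Finset.range p, A.valuation (∑ i ∈ Finset.range p, ((c i : K) : Qb) * π ^ i) =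
          A.valuation (((c i : K) : Qb) * π ^ i)) :=
  CycloBase.val_sum_of_distinct A.valuation (Finset.range p)
    (fun i => ((c i : K) : Qb) * π ^ i) (fun i hi j hj h0 h =>
      term_index_eq A hp hA K hK hval (c i) (c j) i j (Finset.mem_range.mp hi)
        (Finset.mem_range.mp hj) h0 h)

/-- Nonzero `K`-combinations of `π ^ i`, `i < p`, have valuation a power of `|π|`. -/
theorem exists_valuation_eq_zpow_pi (y : Qb) (c : ℕ → K)
    (hc : y = ∑ i ∈ Finset.range p, ((c i : K) : Qb) * π ^ i) (hy0 : y ≠ 0) :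
    ∃ m : ℤ, A.valuation y = A.valuation π ^ m := by
  have hv0 : A.valuation y ≠ 0 := by rwa [Ne, map_eq_zero]
  have hdist := val_sum_distinct A hp hA K hK hval c
  rw [← hc] at hdist
  obtain ⟨i, _, hi⟩ := hdist.2 hv0
  have hc0 : ((c i : K) : Qb) ≠ 0 := by
    rintro h1
    apply hv0
    rw [hi, h1, zero_mul, map_zero]
  obtain ⟨n, -, hn⟩ := exists_valuation_term A hp hA K hK hval (c i) i hc0
  exact ⟨_, hi.trans hn⟩

/-- **`π` is a uniformiser**: non-units have valuation at most `|π|`. -/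
theorem valuation_le_pi (y : Qb) (c : ℕ → K)
    (hc : y = ∑ i ∈ Finset.range p, ((c i : K) : Qb) * π ^ i) (hv : A.valuation y < 1) :
    A.valuation y ≤ A.valuation π := by
  by_cases hy0 : y = 0
  · rw [hy0, map_zero]
    exact zero_le
  obtain ⟨m, hm⟩ := exists_valuation_eq_zpow_pi A hp hA K hK hval y c hc hy0
  have hpos := valuation_pi_pos A hp hval
  have hlt := valuation_pi_lt_one A hA hval
  rw [hm] at hv ⊢
  have hm1 : 0 < m := (zpow_lt_one_iff_right_of_lt_one₀ hpos hlt).mp hv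
  have h := zpow_le_zpow_right_of_le_one₀ hpos hlt.le (show (1 : ℤ) ≤ m by omega)
  rwa [zpow_one] at h

/-- **The coefficients of an integral element are integral.** -/
theorem coeff_le_one (y : Qb) (c : ℕ → K)
    (hc : y = ∑ i ∈ Finset.range p, ((c i : K) : Qb) * π ^ i) (hv : A.valuation y ≤ 1)
    (i : ℕ) (hi : i < p) : A.valuation ((c i : K) : Qb) ≤ 1 := by
  by_cases hc0 : ((c i : K) : Qb) = 0
  · rw [hc0, map_zero]
    exact zero_le_one
  have hdist := val_sum_distinct A hp hA K hK hval c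
  rw [← hc] at hdist
  have hterm : A.valuation (((c i : K) : Qb) * π ^ i) ≤ 1 :=
    (hdist.1 i (Finset.mem_range.mpr hi)).trans hv
  obtain ⟨n, hn, hn'⟩ := exists_valuation_term A hp hA K hK hval (c i) i hc0
  have hpos := valuation_pi_pos A hp hval
  have hlt := valuation_pi_lt_one A hA hval
  rw [hn'] at hterm
  have h0 : 0 ≤ (p : ℤ) * n + (i : ℤ) := by
    by_contra hneg
    rw [not_le] at hneg
    have h1 : 1 < A.valuation π ^ ((p : ℤ) * n + (i : ℤ)) := by
      by_contra hle
      rw [not_lt] at hle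
      rcases lt_or_eq_of_le hle with h2 | h2
      · have := (zpow_lt_one_iff_right_of_lt_one₀ hpos hlt).mp h2
        omega
      · have h3 : A.valuation π ^ ((p : ℤ) * n + (i : ℤ)) = A.valuation π ^ (0 : ℤ) := by
          rw [h2, zpow_zero]
        have := zpow_right_injective₀ hpos hlt.ne h3
        omega
    exact absurd hterm (not_le.mpr h1)
  have hn0 : 0 ≤ n := by
    by_contra hneg
    have h1 : n ≤ -1 := by omega
    have h2 : (p : ℤ) * n ≤ (p : ℤ) * (-1) :=
      mul_le_mul_of_nonneg_left h1 (Int.natCast_nonneg p)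
    have h3 : (i : ℤ) < (p : ℤ) := by exact_mod_cast hi
    linarith
  obtain ⟨m, rfl⟩ := Int.eq_ofNat_of_zero_le hn0
  rw [hn, zpow_natCast]
  exact pow_le_one' (A.mem_nonunits_iff.mp hA).le m

/-- **Residue degree one.** -/
theorem exists_sub_mem (y : Qb) (c : ℕ → K)
    (hc : y = ∑ i ∈ Finset.range p, ((c i : K) : Qb) * π ^ i) (hv : A.valuation y ≤ 1) :
    A.valuation ((c 0 : K) : Qb) ≤ 1 ∧ A.valuation (y - ((c 0 : K) : Qb)) < 1 := by
  have hc0 := coeff_le_one A hp hA K hK hval y c hc hv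
  refine ⟨hc0 0 hp.pos, ?_⟩
  have hlt := valuation_pi_lt_one A hA hval
  have hy' : y - ((c 0 : K) : Qb)
      = ∑ i ∈ Finset.range p, (if i = 0 then 0 else ((c i : K) : Qb) * π ^ i) := by
    rw [hc, ← Finset.sum_erase_add _ _ (Finset.mem_range.mpr hp.pos), pow_zero, mul_one,
      add_sub_cancel_right, ← Finset.sum_erase_add _ _ (Finset.mem_range.mpr hp.pos), if_pos rfl,
      add_zero]
    refine Finset.sum_congr rfl fun i hi => ?_
    rw [if_neg (Finset.ne_of_mem_erase hi)]
  rw [hy']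
  refine A.valuation.map_sum_lt one_ne_zero fun i hi => ?_
  by_cases hi0 : i = 0
  · rw [if_pos hi0, map_zero]
    exact zero_lt_one
  · rw [if_neg hi0, map_mul, map_pow]
    have h1 : A.valuation π ^ i < 1 := pow_lt_one₀ zero_le hlt hi0
    exact lt_of_le_of_lt (mul_le_of_le_one_left' (hc0 i (Finset.mem_range.mp hi))) h1

end ValKummer

/-! ### The vocabulary of `OE A E'` -/

section OEForm

variable (A : ValuationSubring Qb) {p : ℕ} (hp : p.Prime) (hA : A.LiesOverPrime p)
  {π : Qb} (hval : A.valuation π ^ p = A.valuation (p : Qb))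
  (E' : IntermediateField ℚ Qb) (hπE : π ∈ E')

/-- `π` as an element of `A ∩ E'`: the uniformiser. -/
def piO : OE A E' := ⟨⟨π, hπE⟩, pi_mem A hA hval⟩

@[simp]
theorem coe_piO : (((piO A hA hval E' hπE : OE A E') : E') : Qb) = π := rfl

/-- The embedding `A ∩ E' → Qb`. -/
def toQb : OE A E' →+* Qb := (algebraMap E' Qb).comp (OE A E').subtype

theorem toQb_apply (x : OE A E') : toQb A E' x = (((x : E')) : Qb) := rfl

theorem toQb_injective : Function.Injective (toQb A E') := by
  intro x y hxy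
  exact Subtype.ext (Subtype.ext hxy)

theorem toQb_piO : toQb A E' (piO A hA hval E' hπE) = π := rfl

theorem toQb_inclOE {K : IntermediateField ℚ Qb} (hKE : K ≤ E') (x : OE A K) :
    toQb A E' (CycloBase.inclOE A hKE x) = (((x : K)) : Qb) := rfl

include hp in
theorem piO_ne_zero : piO A hA hval E' hπE ≠ 0 := by
  intro h
  have h1 := congrArg (toQb A E') h
  rw [toQb_piO, map_zero] at h1
  exact pi_ne_zero A hp hval h1

include hp in
/-- Divisibility by `π` in `A ∩ E'` is a valuation inequality. -/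
theorem piO_pow_dvd_iff (n : ℕ) (y : OE A E') :
    piO A hA hval E' hπE ^ n ∣ y ↔ A.valuation (((y : E')) : Qb) ≤ A.valuation π ^ n := by
  have hpos := valuation_pi_pos A hp hval
  constructor
  · rintro ⟨z, rfl⟩
    have e : ((((piO A hA hval E' hπE ^ n * z : OE A E') : E')) : Qb)
        = π ^ n * (((z : E')) : Qb) := by
      simp
    rw [e, map_mul, map_pow]
    exact mul_le_of_le_one_right' (valuation_coe_le_one_OE A _ z)
  · intro hle
    have hl0 : ((piO A hA hval E' hπE : OE A E') : E') ≠ 0 := by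
      intro h
      apply piO_ne_zero A hp hA hval E' hπE
      exact Subtype.ext h
    have hmem : (y : E') / ((piO A hA hval E' hπE : OE A E') : E') ^ n ∈ OE A E' := by
      change ((((y : E') / ((piO A hA hval E' hπE : OE A E') : E') ^ n : E')) : Qb) ∈ A
      rw [← A.valuation_le_one_iff]
      have e : ((((y : E') / ((piO A hA hval E' hπE : OE A E') : E') ^ n : E')) : Qb)
          = (((y : E')) : Qb) / π ^ n := by
        simp
      rw [e, map_div₀, map_pow]
      exact (div_le_one₀ (pow_pos hpos n)).mpr hle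
    refine ⟨⟨_, hmem⟩, ?_⟩
    apply Subtype.ext
    change (y : E') = ((piO A hA hval E' hπE : OE A E') : E') ^ n *
      ((y : E') / ((piO A hA hval E' hπE : OE A E') : E') ^ n)
    rw [mul_div_cancel₀ _ (pow_ne_zero n hl0)]

include hp in
/-- **`p = η π ^ p` with `η` a unit.** -/
theorem exists_unit_mul_piO_pow :
    ∃ η : (OE A E')ˣ, ((p : ℕ) : OE A E') = η * piO A hA hval E' hπE ^ p := by
  have hpos := valuation_pi_pos A hp hval
  have hcoe : ((((p : ℕ) : OE A E') : E') : Qb) = (p : Qb) := by simp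
  obtain ⟨z, hz⟩ := (piO_pow_dvd_iff A hp hA hval E' hπE p ((p : ℕ) : OE A E')).mpr
    (by rw [hcoe, hval])
  have hzu : IsUnit z := by
    rw [isUnit_OE_iff]
    have h1 := congrArg (fun y : OE A E' => A.valuation (toQb A E' y)) hz
    simp only [map_mul, map_pow, toQb_piO, map_natCast, hval] at h1
    have hp0 : A.valuation (p : Qb) ≠ 0 := by
      rw [← hval]
      exact (pow_pos hpos p).ne'
    have h2 : A.valuation (p : Qb) * A.valuation (toQb A E' z) = A.valuation (p : Qb) * 1 := by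
      rw [mul_one]
      exact h1.symm
    exact mul_left_cancel₀ hp0 h2
  obtain ⟨u, rfl⟩ := hzu
  exact ⟨u, by rw [hz]; ring⟩

include hp in
theorem sq_dvd_natCast : piO A hA hval E' hπE ^ 2 ∣ ((p : ℕ) : OE A E') := by
  obtain ⟨η, hη⟩ := exists_unit_mul_piO_pow A hp hA hval E' hπE
  rw [hη]
  exact (pow_dvd_pow _ hp.two_le).mul_left _

include hp hA in
/-- The residue field of `A ∩ E'` has characteristic `p`. -/
theorem charP_residue_OE : CharP (IsLocalRing.ResidueField (OE A E')) p := by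
  rw [CharP.charP_iff_prime_eq_zero hp]
  obtain ⟨hmem, hmax⟩ := ((OE A E').mem_nonunits_iff_exists_mem_maximalIdeal).1
    (GaussDescent.natCast_mem_nonunits_OE A E' hA)
  have h1 : (⟨((p : ℕ) : E'), hmem⟩ : OE A E') = ((p : ℕ) : OE A E') := Subtype.ext (by simp)
  rw [h1] at hmax
  have h2 := (IsLocalRing.residue_eq_zero_iff ((p : ℕ) : OE A E')).2 hmax
  rwa [map_natCast] at h2

variable (K : IntermediateField ℚ Qb) [FiniteDimensional ℚ K]
  (hK : A.inertiaSubgroupIn ℚ ≤ K.fixingSubgroup) (hKE : K ≤ E')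
  (hexp : ∀ y ∈ E', ∃ c : ℕ → K, y = ∑ i ∈ Finset.range p, ((c i : K) : Qb) * π ^ i)

include hp hK hexp in
/-- Non-units of `A ∩ E'` are divisible by `π`. -/
theorem piO_dvd_iff (y : OE A E') : piO A hA hval E' hπE ∣ y ↔ ¬ IsUnit y := by
  have h := piO_pow_dvd_iff A hp hA hval E' hπE 1 y
  rw [pow_one, pow_one] at h
  rw [h, isUnit_OE_iff]
  constructor
  · intro hle h1
    rw [h1] at hle
    exact absurd (valuation_pi_lt_one A hA hval) (not_lt.mpr hle)
  · intro hne
    obtain ⟨c, hc⟩ := hexp (((y : E')) : Qb) (y : E').2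
    exact valuation_le_pi A hp hA K hK hval _ c hc
      (lt_of_le_of_ne (valuation_coe_le_one_OE A _ y) hne)

include hp hK hexp in
/-- **`π` is irreducible in `A ∩ E'`.** -/
theorem irreducible_piO : Irreducible (piO A hA hval E' hπE) := by
  refine ⟨?_, fun a b hab => ?_⟩
  · exact (piO_dvd_iff A hp hA hval E' hπE K hK hexp _).mp dvd_rfl
  · by_contra hcon
    rw [not_or] at hcon
    obtain ⟨a', rfl⟩ := (piO_dvd_iff A hp hA hval E' hπE K hK hexp a).mpr hcon.1
    have h1 : piO A hA hval E' hπE * 1 = piO A hA hval E' hπE * (a' * b) := by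
      rw [mul_one, ← mul_assoc]
      exact hab
    have h2 := mul_left_cancel₀ (piO_ne_zero A hp hA hval E' hπE) h1
    exact hcon.2 (IsUnit.of_mul_eq_one (a := b) (b := a') (by rw [mul_comm]; exact h2.symm))

include hp hK hexp in
theorem maximalIdeal_eq_span_piO :
    IsLocalRing.maximalIdeal (OE A E') = Ideal.span {piO A hA hval E' hπE} := by
  ext y
  rw [IsLocalRing.mem_maximalIdeal, mem_nonunits_iff, Ideal.mem_span_singleton,
    piO_dvd_iff A hp hA hval E' hπE K hK hexp]

include hp hK hexp in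
theorem residue_eq_zero_iff_piO_dvd (x : OE A E') :
    IsLocalRing.residue (OE A E') x = 0 ↔ piO A hA hval E' hπE ∣ x := by
  rw [IsLocalRing.residue_eq_zero_iff, maximalIdeal_eq_span_piO A hp hA hval E' hπE K hK hexp,
    Ideal.mem_span_singleton]

include hp hK hexp in
/-- **Residue degree one**: every element of `A ∩ E'` is congruent mod `π` to an element of
`A ∩ K`. -/
theorem exists_sub_inclOE (y : OE A E') :
    ∃ c : OE A K, piO A hA hval E' hπE ∣ y - CycloBase.inclOE A hKE c := by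
  obtain ⟨c, hc⟩ := hexp (((y : E')) : Qb) (y : E').2
  obtain ⟨hc1, hc2⟩ := exists_sub_mem A hp hA K hK hval _ c hc (valuation_coe_le_one_OE A _ y)
  have hcA : c 0 ∈ OE A K := (A.valuation_le_one_iff _).mp hc1
  refine ⟨⟨c 0, hcA⟩, ?_⟩
  rw [piO_dvd_iff A hp hA hval E' hπE K hK hexp, isUnit_OE_iff]
  exact hc2.ne

include hp hK hexp in
/-- **`A ∩ E' = ⊕_{i < p} (A ∩ K) π ^ i`.** -/
theorem exists_expansion_OE (y : OE A E') :
    ∃ c : ℕ → OE A K, y = ∑ i ∈ Finset.range p,
      CycloBase.inclOE A hKE (c i) * piO A hA hval E' hπE ^ i := by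
  classical
  obtain ⟨c, hc⟩ := hexp (((y : E')) : Qb) (y : E').2
  have hcA : ∀ i, i < p → A.valuation ((c i : K) : Qb) ≤ 1 :=
    fun i hi => coeff_le_one A hp hA K hK hval _ c hc (valuation_coe_le_one_OE A _ y) i hi
  refine ⟨fun i => if h : i < p then ⟨c i, (A.valuation_le_one_iff _).mp (hcA i h)⟩ else 0, ?_⟩
  apply toQb_injective A E'
  rw [map_sum]
  have hy : toQb A E' y = ∑ i ∈ Finset.range p, ((c i : K) : Qb) * π ^ i := hc
  rw [hy]
  refine Finset.sum_congr rfl fun i hi => ?_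
  rw [map_mul, map_pow]
  simp only [dif_pos (Finset.mem_range.mp hi)]
  rfl

include hp hK hexp in
/-- **`hperf` of `FirstOrder.exists_isFirstOrder` at `A ∩ E'`.** -/
theorem exists_pow_sub_dvd_piO (y : OE A E') :
    ∃ b : OE A E', piO A hA hval E' hπE ∣ y - b ^ p := by
  obtain ⟨f, hf, hv⟩ := CycloPerf.exists_valuation_pow_sub_lt A hp hA (((y : E')) : Qb)
    (coe_mem_of_OE A _ y)
  refine ⟨y ^ (p ^ (f - 1)), ?_⟩
  have e : (y ^ (p ^ (f - 1))) ^ p = y ^ (p ^ f) := by
    rw [← pow_mul, ← pow_succ, Nat.sub_add_cancel hf]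
  rw [e, piO_dvd_iff A hp hA hval E' hπE K hK hexp, isUnit_OE_iff]
  intro h1
  have h2 : (((y - y ^ (p ^ f) : OE A E') : E') : Qb)
      = -((((y : E')) : Qb) ^ (p ^ f) - (((y : E')) : Qb)) := by
    push_cast
    ring
  rw [h2, Valuation.map_neg] at h1
  rw [h1] at hv
  exact lt_irrefl _ hv

include hp hK in
/-- The unramified base consists of `p`-th powers modulo `π²`. -/
theorem exists_sq_dvd_inclOE_sub_pow (x : OE A K) :
    ∃ b : OE A E', piO A hA hval E' hπE ^ 2 ∣ CycloBase.inclOE A hKE x - b ^ p := by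
  obtain ⟨b, d, hd⟩ := CycloPerf.exists_pow_sub_dvd_natCast A hp hA K hK x
  refine ⟨CycloBase.inclOE A hKE b, ?_⟩
  have h1 : CycloBase.inclOE A hKE x - CycloBase.inclOE A hKE b ^ p
      = ((p : ℕ) : OE A E') * CycloBase.inclOE A hKE d := by
    rw [← map_pow, ← map_sub, hd, map_mul, map_natCast]
  rw [h1]
  exact (sq_dvd_natCast A hp hA hval E' hπE).mul_right _

/-! ### The junction -/

include hp hK hexp in
/-- **The first-order derivation of `A ∩ E'`**: `D π = 1`, `D = 0` on `A ∩ K`. -/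
theorem exists_isFirstOrder_OE :
    ∃ D : OE A E' → IsLocalRing.ResidueField (OE A E'),
      FirstOrder.IsFirstOrder (IsLocalRing.residue (OE A E')) (piO A hA hval E' hπE) D ∧
        ∀ x : OE A K, D (CycloBase.inclOE A hKE x) = 0 := by
  haveI : Fact p.Prime := ⟨hp⟩
  haveI : CharP (IsLocalRing.ResidueField (OE A E')) p := charP_residue_OE A hp hA E'
  have hker := residue_eq_zero_iff_piO_dvd A hp hA hval E' hπE K hK hexp
  obtain ⟨D, hD⟩ := FirstOrder.exists_isFirstOrder p (IsLocalRing.residue (OE A E'))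
    (piO A hA hval E' hπE)
    (fun x hx => (mul_eq_zero.mp hx).resolve_left (piO_ne_zero A hp hA hval E' hπE))
    hker (sq_dvd_natCast A hp hA hval E' hπE)
    (exists_pow_sub_dvd_piO A hp hA hval E' hπE K hK hexp)
  refine ⟨D, hD, fun x => ?_⟩
  obtain ⟨b, hb⟩ := exists_sq_dvd_inclOE_sub_pow A hp hA hval E' hπE K hK hKE x
  exact hD.map_eq_zero_of_dvd p ((hker _).mpr dvd_rfl) hb

omit [FiniteDimensional ℚ K] in
/-- The integral form of `(1 + π) ^ p = 1 + p w`. -/
theorem one_add_piO_pow (wK : OE A K)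
    (hw : (1 + π) ^ p = 1 + (p : Qb) * (((wK : K)) : Qb)) :
    (1 + piO A hA hval E' hπE) ^ p = 1 + ((p : ℕ) : OE A E') * CycloBase.inclOE A hKE wK := by
  apply toQb_injective A E'
  rw [map_pow, map_add, map_add, map_one, map_mul, map_natCast, toQb_piO, toQb_inclOE]
  exact hw

include hp hK hexp in
/-- **The junction with the Eisenstein constant**: `p = η π ^ p`, `D η * w̄ = η̄`. -/
theorem exists_isFirstOrder_eis (wK : OE A K) (hwu : IsUnit wK)
    (hw : (1 + π) ^ p = 1 + (p : Qb) * (((wK : K)) : Qb)) :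
    ∃ (D : OE A E' → IsLocalRing.ResidueField (OE A E')) (η : OE A E'),
      FirstOrder.IsFirstOrder (IsLocalRing.residue (OE A E')) (piO A hA hval E' hπE) D ∧
        (∀ x : OE A K, D (CycloBase.inclOE A hKE x) = 0) ∧ IsUnit η ∧
        ((p : ℕ) : OE A E') = η * piO A hA hval E' hπE ^ p ∧
        D η * IsLocalRing.residue (OE A E') (CycloBase.inclOE A hKE wK) =
          IsLocalRing.residue (OE A E') η := by
  obtain ⟨D, hD, hD0⟩ := exists_isFirstOrder_OE A hp hA hval E' hπE K hK hKE hexp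
  have hr : IsLocalRing.residue (OE A E') (piO A hA hval E' hπE) = 0 :=
    (residue_eq_zero_iff_piO_dvd A hp hA hval E' hπE K hK hexp _).mpr dvd_rfl
  have hunit : ∀ x : OE A E', IsLocalRing.residue (OE A E') x ≠ 0 → IsUnit x := by
    intro x hx
    by_contra hnu
    exact hx ((IsLocalRing.residue_eq_zero_iff x).mpr
      ((IsLocalRing.mem_maximalIdeal x).mpr (mem_nonunits_iff.mpr hnu)))
  have hw0 : IsLocalRing.residue (OE A E') (CycloBase.inclOE A hKE wK) ≠ 0 := by
    intro h0
    rw [IsLocalRing.residue_eq_zero_iff, IsLocalRing.mem_maximalIdeal, mem_nonunits_iff] at h0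
    exact h0 ((CycloBase.isUnit_inclOE_iff A hKE wK).mpr hwu)
  obtain ⟨η, hη1, hη2, hη3⟩ := FirstOrder.eis hp hD hr hunit (CycloBase.inclOE A hKE wK)
    (one_add_piO_pow A hA hval E' hπE K hKE wK hw) hw0 (hD0 wK)
  exact ⟨D, η, hD, hD0, hη1, hη2, hη3⟩

end OEForm

/-! ### The polynomial `θ` -/

/-- `(1 + X) ^ p = 1 + X ^ p + p X Θ` with `deg Θ < p - 1`. -/
theorem exists_theta_int {p : ℕ} (hp : p.Prime) :
    ∃ Θ : ℤ[X], Θ.natDegree < p - 1 ∧
      (1 + X : ℤ[X]) ^ p = 1 + X ^ p + (p : ℤ[X]) * X * Θ := by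
  obtain ⟨r, hr⟩ := exists_add_pow_prime_eq hp (1 : ℤ[X]) X
  have hr' : (1 + X : ℤ[X]) ^ p = 1 + X ^ p + (p : ℤ[X]) * X * r := by
    rw [hr, one_pow, mul_one]
  refine ⟨r, ?_, hr'⟩
  by_cases hr0 : r = 0
  · rw [hr0, natDegree_zero]
    have := hp.two_le
    omega
  have hpC : (p : ℤ[X]) = C (p : ℤ) := (map_natCast C p).symm
  have hG : (C (p : ℤ) * X * r : ℤ[X]) = (X + 1) ^ p - X ^ p - 1 := by
    rw [add_comm (X : ℤ[X]) 1, hr', hpC]
    ring
  have hle : (C (p : ℤ) * X * r : ℤ[X]).natDegree ≤ p - 1 := by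
    rw [hG, natDegree_le_iff_coeff_eq_zero]
    intro N hN
    have hNp : p ≤ N := by omega
    rw [coeff_sub, coeff_sub, coeff_X_add_one_pow, coeff_X_pow, coeff_one]
    rcases eq_or_lt_of_le hNp with h1 | h1
    · subst h1
      simp [hp.ne_zero]
    · have h2 : N ≠ p := h1.ne'
      have h3 : N ≠ 0 := by omega
      simp [Nat.choose_eq_zero_of_lt h1, h2, h3]
  have hp0 : (p : ℤ) ≠ 0 := by exact_mod_cast hp.ne_zero
  have hpX : (C (p : ℤ) * X : ℤ[X]) ≠ 0 := by
    intro h
    have h1 := congrArg natDegree h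
    rw [natDegree_C_mul_X _ hp0, natDegree_zero] at h1
    exact one_ne_zero h1
  rw [natDegree_mul hpX hr0, natDegree_C_mul_X _ hp0] at hle
  omega

section Theta

variable (A : ValuationSubring Qb) {p : ℕ} (hp : p.Prime) (hA : A.LiesOverPrime p)
  {π : Qb} (hval : A.valuation π ^ p = A.valuation (p : Qb))
  (E' : IntermediateField ℚ Qb) (hπE : π ∈ E')
  (K : IntermediateField ℚ Qb) (hKE : K ≤ E')

include hp in
/-- **`π ^ p = p θ(π)`** with `θ ∈ (A ∩ K)[X]`, `deg θ < p`, `θ(0) = w`. -/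
theorem exists_theta (wK : OE A K)
    (hw : (1 + π) ^ p = 1 + (p : Qb) * (((wK : K)) : Qb)) :
    ∃ θ : (OE A K)[X], θ.natDegree < p ∧ θ.eval 0 = wK ∧
      piO A hA hval E' hπE ^ p =
        ((p : ℕ) : OE A E') * θ.eval₂ (CycloBase.inclOE A hKE) (piO A hA hval E' hπE) := by
  obtain ⟨Θ, hΘd, hΘ⟩ := exists_theta_int hp
  refine ⟨C wK - X * Θ.map (Int.castRingHom (OE A K)), ?_, ?_, ?_⟩
  · refine lt_of_le_of_lt (natDegree_sub_le _ _) ?_
    rw [natDegree_C]
    refine max_lt hp.pos ?_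
    have h1 : (X * Θ.map (Int.castRingHom (OE A K))).natDegree
        ≤ 1 + (Θ.map (Int.castRingHom (OE A K))).natDegree := by
      refine natDegree_mul_le.trans ?_
      rw [natDegree_X]
    have h2 : (Θ.map (Int.castRingHom (OE A K))).natDegree ≤ Θ.natDegree := natDegree_map_le
    omega
  · simp
  · have h1 := one_add_piO_pow A hA hval E' hπE K hKE wK hw
    have h2 : (1 + piO A hA hval E' hπE) ^ p = 1 + piO A hA hval E' hπE ^ p
        + ((p : ℕ) : OE A E') * piO A hA hval E' hπE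
          * Θ.eval₂ (Int.castRingHom (OE A E')) (piO A hA hval E' hπE) := by
      have h3 := congrArg (eval₂ (Int.castRingHom (OE A E')) (piO A hA hval E' hπE)) hΘ
      simpa [eval₂_add, eval₂_mul, eval₂_pow, eval₂_X, eval₂_one] using h3
    have hcomp : (CycloBase.inclOE A hKE).comp (Int.castRingHom (OE A K))
        = Int.castRingHom (OE A E') := RingHom.ext_int _ _
    rw [eval₂_sub, eval₂_C, eval₂_mul, eval₂_X, eval₂_map, hcomp]
    linear_combination h1 - h2

end Theta

/-! ### The exit in the vocabulary of `EisDich.eisDich` -/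

/-- **The junction at `E' = K(b)`.**  `A` over `p`, `K` a number field inside the inertia field
of `A` containing `c` and `w`, `(b / c) ^ p = 1 + p w` with `c`, `w` units of `A`, and
`|b / c - 1| ^ p = |p|` (the Eisenstein disjunct of `EisDich.eisDich`).  Then `ϖ = b / c - 1` is a
uniformiser of `O' = A ∩ K(b)`, `p = η ϖ ^ p`, `ϖ ^ p = p θ(ϖ)`, `O' = ⊕_{i<p} (A ∩ K) ϖ ^ i`,
and `O'` carries the first-order derivation `D` with `D ϖ = 1`, `D = 0` on `A ∩ K` and
`D η * w̄ = η̄`. -/
theorem exists_firstOrder_OE (A : ValuationSubring Qb) {p : ℕ} (hp : p.Prime)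
    (hA : A.LiesOverPrime p) (K : IntermediateField ℚ Qb) [FiniteDimensional ℚ K]
    (hK : A.inertiaSubgroupIn ℚ ≤ K.fixingSubgroup) {b c w : Qb} (hcK : c ∈ K)
    (hc : A.valuation c = 1) (hwK : w ∈ K) (hw : A.valuation w = 1)
    (hbc : (b / c) ^ p = 1 + (p : Qb) * w)
    (hval : A.valuation (b / c - 1) ^ p = A.valuation (p : Qb)) :
    ∃ (ϖ : OE A (CycloBase.cyclo K b)) (wK : OE A K)
      (D : OE A (CycloBase.cyclo K b) → IsLocalRing.ResidueField (OE A (CycloBase.cyclo K b)))
      (η : OE A (CycloBase.cyclo K b)) (θ : (OE A K)[X]),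
      (((ϖ : CycloBase.cyclo K b) : Qb) = b / c - 1) ∧ (((wK : K) : Qb) = w) ∧ IsUnit wK ∧
      Irreducible ϖ ∧
      IsLocalRing.maximalIdeal (OE A (CycloBase.cyclo K b)) = Ideal.span {ϖ} ∧
      FirstOrder.IsFirstOrder (IsLocalRing.residue (OE A (CycloBase.cyclo K b))) ϖ D ∧
      (∀ x : OE A K, D (CycloBase.inclOE A (CycloBase.le_cyclo K b) x) = 0) ∧
      IsUnit η ∧ ((p : ℕ) : OE A (CycloBase.cyclo K b)) = η * ϖ ^ p ∧
      D η * IsLocalRing.residue (OE A (CycloBase.cyclo K b))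
          (CycloBase.inclOE A (CycloBase.le_cyclo K b) wK) =
        IsLocalRing.residue (OE A (CycloBase.cyclo K b)) η ∧
      θ.natDegree < p ∧ θ.eval 0 = wK ∧
      ϖ ^ p = ((p : ℕ) : OE A (CycloBase.cyclo K b)) *
        θ.eval₂ (CycloBase.inclOE A (CycloBase.le_cyclo K b)) ϖ ∧
      (∀ y : OE A (CycloBase.cyclo K b), ∃ a : ℕ → OE A K, y = ∑ i ∈ Finset.range p,
        CycloBase.inclOE A (CycloBase.le_cyclo K b) (a i) * ϖ ^ i) := by
  have hc0 : c ≠ 0 := by
    intro h0
    rw [h0, map_zero] at hc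
    exact zero_ne_one hc
  have hπE : b / c - 1 ∈ CycloBase.cyclo K b :=
    sub_mem (div_mem (CycloBase.zeta_mem_cyclo K b) (CycloBase.le_cyclo K b hcK)) (one_mem _)
  have hwA : (⟨w, hwK⟩ : K) ∈ OE A K := (A.valuation_le_one_iff w).mp hw.le
  set wK : OE A K := ⟨⟨w, hwK⟩, hwA⟩ with hwKdef
  have hwu : IsUnit wK := by
    rw [isUnit_OE_iff]
    exact hw
  have hbc' : (b / c) ^ p = 1 + (p : Qb) * (((⟨w, hwK⟩ : K)) : Qb) := hbc
  have hexp : ∀ y ∈ CycloBase.cyclo K b, ∃ a : ℕ → K,
      y = ∑ i ∈ Finset.range p, ((a i : K) : Qb) * (b / c - 1) ^ i :=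
    fun y hy => exists_expansion_kummer K hp.ne_zero hcK hc0 ⟨w, hwK⟩ hbc' y hy
  have hw' : (1 + (b / c - 1)) ^ p = 1 + (p : Qb) * (((wK : K)) : Qb) := by
    rw [add_sub_cancel]
    exact hbc
  obtain ⟨D, η, hD, hD0, hη1, hη2, hη3⟩ := exists_isFirstOrder_eis A hp hA hval
    (CycloBase.cyclo K b) hπE K hK (CycloBase.le_cyclo K b) hexp wK hwu hw'
  obtain ⟨θ, hθ1, hθ2, hθ3⟩ := exists_theta A hp hA hval (CycloBase.cyclo K b) hπE K
    (CycloBase.le_cyclo K b) wK hw'
  exact ⟨piO A hA hval (CycloBase.cyclo K b) hπE, wK, D, η, θ, rfl, rfl, hwu,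
    irreducible_piO A hp hA hval (CycloBase.cyclo K b) hπE K hK hexp,
    maximalIdeal_eq_span_piO A hp hA hval (CycloBase.cyclo K b) hπE K hK hexp,
    hD, hD0, hη1, hη2, hη3, hθ1, hθ2, hθ3,
    exists_expansion_OE A hp hA hval (CycloBase.cyclo K b) hπE K hK (CycloBase.le_cyclo K b) hexp⟩

end Fermat.Agent.S44.L.KummerBase
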