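import Mathlib
import Fermat.Agent.S44.L.KummerBase

/-!
# S44 (Mazur–Ribet), strand L: the residue field of `A ∩ E` is perfect

`A` a valuation subring of `Qb = AlgebraicClosure ℚ` over the prime `p`, `E ⊆ Qb` ANY intermediate
field (no finiteness, no ramification hypothesis).  Then every element of `OE A E = A ∩ E` is a
`p`-th power modulo the maximal ideal:

* `exists_not_isUnit_sub_pow` : `∀ a : OE A E, ∃ b, ¬ IsUnit (a - b ^ p)`;
* `exists_residue_pow_eq_OE`  : `∀ x : ResidueField (OE A E), ∃ y, y ^ p = x`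
  (the binder `hperf` of the closed-point lift at `Os = OE A Ks`);
* `exists_pow_sub_dvd` : `∀ a : OE A E, ∃ b, ϖ ∣ a - b ^ p` for every generator `ϖ` of the maximal
  ideal (the binder `hperf` of `Node.node_lemma` / `FirstOrder.exists_isFirstOrder`).
-/

set_option autoImplicit false

noncomputable section

namespace Fermat.Agent.S44.L.KummerPerf

local notation "Qb" => AlgebraicClosure ℚ

open Fermat.Agent.S18.K1Defs Fermat.Agent.S36.UnramBase Fermat.Agent.S30
open Fermat.Agent.S36 Fermat.Agent.S44.L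

variable (A : ValuationSubring Qb) {p : ℕ} (hp : p.Prime) (hA : A.LiesOverPrime p)
  (E : IntermediateField ℚ Qb)

include hp hA in
/-- Every element of `A ∩ E` is a `p`-th power modulo the maximal ideal. -/
theorem exists_not_isUnit_sub_pow (a : OE A E) : ∃ b : OE A E, ¬ IsUnit (a - b ^ p) := by
  obtain ⟨f, hf, hv⟩ := CycloPerf.exists_valuation_pow_sub_lt A hp hA (((a : E)) : Qb)
    (coe_mem_of_OE A _ a)
  refine ⟨a ^ (p ^ (f - 1)), ?_⟩
  have e : (a ^ (p ^ (f - 1))) ^ p = a ^ (p ^ f) := by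
    rw [← pow_mul, ← pow_succ, Nat.sub_add_cancel hf]
  rw [e, isUnit_OE_iff]
  intro h1
  have h2 : (((a - a ^ (p ^ f) : OE A E) : E) : Qb)
      = -((((a : E)) : Qb) ^ (p ^ f) - (((a : E)) : Qb)) := by
    push_cast
    ring
  rw [h2, Valuation.map_neg] at h1
  rw [h1] at hv
  exact lt_irrefl _ hv

include hp hA in
/-- **The residue field of `A ∩ E` is perfect.** -/
theorem exists_residue_pow_eq_OE (x : IsLocalRing.ResidueField (OE A E)) :
    ∃ y : IsLocalRing.ResidueField (OE A E), y ^ p = x := by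
  obtain ⟨a, rfl⟩ := IsLocalRing.residue_surjective x
  obtain ⟨b, hb⟩ := exists_not_isUnit_sub_pow A hp hA E a
  refine ⟨IsLocalRing.residue (OE A E) b, ?_⟩
  have h0 : IsLocalRing.residue (OE A E) (a - b ^ p) = 0 :=
    (IsLocalRing.residue_eq_zero_iff _).mpr
      ((IsLocalRing.mem_maximalIdeal _).mpr (mem_nonunits_iff.mpr hb))
  rw [map_sub, map_pow, sub_eq_zero] at h0
  exact h0.symm

include hp hA in
/-- The divisibility form, for every generator `ϖ` of the maximal ideal. -/
theorem exists_pow_sub_dvd {ϖ : OE A E}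
    (hϖ : IsLocalRing.maximalIdeal (OE A E) = Ideal.span {ϖ}) (a : OE A E) :
    ∃ b : OE A E, ϖ ∣ a - b ^ p := by
  obtain ⟨b, hb⟩ := exists_not_isUnit_sub_pow A hp hA E a
  refine ⟨b, ?_⟩
  rw [← Ideal.mem_span_singleton, ← hϖ, IsLocalRing.mem_maximalIdeal, mem_nonunits_iff]
  exact hb

end Fermat.Agent.S44.L.KummerPerf
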