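import Mathlib
import Fermat.Agent.S44.L.CocycleRoot

/-!
# Program MR (S44), strand L: `n`-th roots of leading-coefficient-one Laurent series

Level-free, for the cover field of the route D2 (the cover lives inside `E((q))`): over a
field `E` of characteristic zero, a Laurent series `t` with leading coefficient `1` and order
divisible by `n ≠ 0` has an `n`-th root `z` with leading coefficient `1`, and this root is
UNIQUE.  Consequently every ring homomorphism `φ : E((q)) → E'((q))` preserving "leading
coefficient one" maps the normalised root of `t` to the normalised root of `φ t`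
(coefficientwise Galois action: `σ z` is the normalised root of `σ t`).

* `exists_powerSeries_root` : `u ∈ E[[X]]`, `u(0) = 1` ⟹ `∃ v, v ^ n = u ∧ v(0) = 1`
  (binomial series `(1 + X)^(1/n)` substituted at `u - 1`).
* `exists_root`             : the Laurent form, with `n * ord z = ord t`.
* `eq_of_pow_eq`            : uniqueness of the leading-coefficient-one root.
* `existsUnique_root`       : both together.
* `map_root`                : transport along a ring homomorphism preserving normalisation.
-/

set_option autoImplicit false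

open HahnSeries

namespace Fermat.Agent.S44.L.RootLS

variable {E : Type*} [Field E] [CharZero E]

theorem binomialSeries_pow (r : ℚ) (n : ℕ) :
    (PowerSeries.binomialSeries E r) ^ n = PowerSeries.binomialSeries E ((n : ℚ) * r) := by
  induction n with
  | zero => simp
  | succ k ih =>
    rw [pow_succ, ih, ← PowerSeries.binomialSeries_add]
    congr 1
    push_cast
    ring

theorem binomialSeries_inv_pow {n : ℕ} (hn : n ≠ 0) :
    (PowerSeries.binomialSeries E ((n : ℚ)⁻¹)) ^ n = 1 + PowerSeries.X := by
  rw [binomialSeries_pow, mul_inv_cancel₀ (Nat.cast_ne_zero.mpr hn)]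
  have := PowerSeries.binomialSeries_nat (R := ℚ) (A := E) 1
  simpa using this

/-- An `n`-th root of a power series with constant coefficient `1`, with constant
coefficient `1`. -/
theorem exists_powerSeries_root {n : ℕ} (hn : n ≠ 0) (u : PowerSeries E)
    (hu : PowerSeries.constantCoeff u = 1) :
    ∃ v : PowerSeries E, v ^ n = u ∧ PowerSeries.constantCoeff v = 1 := by
  have hg0 : PowerSeries.constantCoeff (u - 1) = 0 := by simp [hu]
  have hs : PowerSeries.HasSubst (u - 1) := PowerSeries.HasSubst.of_constantCoeff_zero' hg0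
  set w : PowerSeries E := PowerSeries.substAlgHom hs (PowerSeries.binomialSeries E ((n : ℚ)⁻¹))
    with hw
  have hwn : w ^ n = u := by
    rw [hw, ← map_pow, binomialSeries_inv_pow hn, map_add, map_one,
      PowerSeries.coe_substAlgHom, PowerSeries.subst_X hs]
    ring
  set c : E := PowerSeries.constantCoeff w with hc
  have hcn : c ^ n = 1 := by
    rw [hc, ← map_pow, hwn, hu]
  have hc0 : c ≠ 0 := by
    intro h
    rw [h, zero_pow hn] at hcn
    exact zero_ne_one hcn
  refine ⟨PowerSeries.C c⁻¹ * w, ?_, ?_⟩
  · rw [mul_pow, hwn, ← map_pow, inv_pow, hcn, inv_one, map_one, one_mul]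
  · rw [map_mul, PowerSeries.constantCoeff_C, ← hc, inv_mul_cancel₀ hc0]

/-- A power series with constant coefficient `1`, seen as a Laurent series, has order `0` and
leading coefficient `1`. -/
theorem order_leadingCoeff_ofPowerSeries {v : PowerSeries E}
    (hv : PowerSeries.constantCoeff v = 1) :
    (HahnSeries.ofPowerSeries ℤ E v).order = 0 ∧
      (HahnSeries.ofPowerSeries ℤ E v).leadingCoeff = 1 := by
  have h0 : (HahnSeries.ofPowerSeries ℤ E v).coeff 0 = 1 := by
    have h := HahnSeries.ofPowerSeries_apply_coeff (Γ := ℤ) v 0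
    rw [Nat.cast_zero, PowerSeries.coeff_zero_eq_constantCoeff_apply, hv] at h
    exact h
  have h01 : (HahnSeries.ofPowerSeries ℤ E v).coeff 0 ≠ 0 := by rw [h0]; exact one_ne_zero
  have hne : HahnSeries.ofPowerSeries ℤ E v ≠ 0 := HahnSeries.ne_zero_of_coeff_ne_zero h01
  have hle : (HahnSeries.ofPowerSeries ℤ E v).order ≤ 0 :=
    HahnSeries.order_le_of_coeff_ne_zero h01
  have hge : 0 ≤ (HahnSeries.ofPowerSeries ℤ E v).order := by
    rw [HahnSeries.le_order_iff_forall hne]
    intro i hi
    have := PowerSeries.coeff_coe (f := v) i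
    rw [if_pos hi] at this
    exact this
  have ho : (HahnSeries.ofPowerSeries ℤ E v).order = 0 := le_antisymm hle hge
  exact ⟨ho, by rw [HahnSeries.leadingCoeff_eq, ho, h0]⟩

/-- **Existence of the normalised root.** -/
theorem exists_root {n : ℕ} (hn : n ≠ 0) (t : LaurentSeries E) (hord : (n : ℤ) ∣ t.order)
    (hlc : t.leadingCoeff = 1) :
    ∃ z : LaurentSeries E, z ^ n = t ∧ z.leadingCoeff = 1 ∧ (n : ℤ) * z.order = t.order := by
  obtain ⟨m, hm⟩ := hord
  have hcc : PowerSeries.constantCoeff t.powerSeriesPart = 1 := by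
    rw [← PowerSeries.coeff_zero_eq_constantCoeff_apply, LaurentSeries.powerSeriesPart_coeff,
      Nat.cast_zero, add_zero, ← HahnSeries.leadingCoeff_eq, hlc]
  obtain ⟨v, hv, hv1⟩ := exists_powerSeries_root hn _ hcc
  obtain ⟨ho, hl⟩ := order_leadingCoeff_ofPowerSeries hv1
  have hvne : HahnSeries.ofPowerSeries ℤ E v ≠ 0 := by
    intro h
    rw [h, HahnSeries.leadingCoeff_zero] at hl
    exact zero_ne_one hl
  refine ⟨HahnSeries.single m 1 * HahnSeries.ofPowerSeries ℤ E v, ?_, ?_, ?_⟩
  · have h1 : (HahnSeries.ofPowerSeries ℤ E v) ^ n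
        = HahnSeries.ofPowerSeries ℤ E t.powerSeriesPart := by
      rw [← map_pow, hv]
    rw [mul_pow, h1, HahnSeries.single_pow, one_pow, nsmul_eq_mul, ← hm]
    exact LaurentSeries.single_order_mul_powerSeriesPart t
  · rw [HahnSeries.leadingCoeff_mul, HahnSeries.leadingCoeff_of_single, hl, one_mul]
  · rw [HahnSeries.order_single_mul_of_isRegular isRegular_one hvne, ho, add_zero, hm]

/-- **Uniqueness of the normalised root.** -/
theorem eq_of_pow_eq {n : ℕ} (hn : n ≠ 0) {z z' : LaurentSeries E} (h : z ^ n = z' ^ n)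
    (hz : z.leadingCoeff = 1) (hz' : z'.leadingCoeff = 1) : z = z' := by
  have hz'0 : z' ≠ 0 := by
    rintro rfl
    rw [HahnSeries.leadingCoeff_zero] at hz'
    exact zero_ne_one hz'
  have he : (z / z') ^ n = HahnSeries.C (1 : E) := by
    rw [div_pow, h, div_self (pow_ne_zero n hz'0), map_one]
  have hC := CocycleRoot.eq_C_of_pow_eq_C hn one_ne_zero he
  have hzz : z = HahnSeries.C ((z / z').coeff 0) * z' := by
    rw [← hC, div_mul_cancel₀ z hz'0]
  have hlc := congrArg HahnSeries.leadingCoeff hzz
  rw [HahnSeries.leadingCoeff_mul, hz, hz', mul_one, HahnSeries.C_apply,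
    HahnSeries.leadingCoeff_of_single] at hlc
  rw [hzz, ← hlc, map_one, one_mul]

/-- Existence and uniqueness of the normalised `n`-th root. -/
theorem existsUnique_root {n : ℕ} (hn : n ≠ 0) (t : LaurentSeries E) (hord : (n : ℤ) ∣ t.order)
    (hlc : t.leadingCoeff = 1) :
    ∃! z : LaurentSeries E, z ^ n = t ∧ z.leadingCoeff = 1 := by
  obtain ⟨z, hz, hz1, -⟩ := exists_root hn t hord hlc
  exact ⟨z, ⟨hz, hz1⟩, fun y hy => eq_of_pow_eq hn (hy.1.trans hz.symm) hy.2 hz1⟩

omit [CharZero E] in
/-- Transport of the normalised root: if `φ` maps the normalised root `z` of `t` to a series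
with leading coefficient one, then `φ z` is THE normalised root of `φ t`. -/
theorem map_root {E' : Type*} [Field E'] [CharZero E'] {n : ℕ} (hn : n ≠ 0)
    (φ : LaurentSeries E →+* LaurentSeries E') {t z : LaurentSeries E} (hz : z ^ n = t)
    (hφz : (φ z).leadingCoeff = 1) {y : LaurentSeries E'} (hy : y ^ n = φ t)
    (hy1 : y.leadingCoeff = 1) : y = φ z :=
  eq_of_pow_eq hn (by rw [hy, ← hz, map_pow]) hy1 hφz

/-- Two roots of the same series differ by a constant `n`-th root of unity. -/
theorem exists_C_mul_of_pow_eq {n : ℕ} (hn : n ≠ 0) {z z' : LaurentSeries E} (hz' : z' ≠ 0)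
    (h : z ^ n = z' ^ n) : ∃ c : E, c ^ n = 1 ∧ z = HahnSeries.C c * z' := by
  have he : (z / z') ^ n = HahnSeries.C (1 : E) := by
    rw [div_pow, h, div_self (pow_ne_zero n hz'), map_one]
  have hC := CocycleRoot.eq_C_of_pow_eq_C hn one_ne_zero he
  refine ⟨(z / z').coeff 0, ?_, by rw [← hC, div_mul_cancel₀ z hz']⟩
  have h1 : HahnSeries.C ((z / z').coeff 0 ^ n) = (HahnSeries.C (1 : E) : LaurentSeries E) := by
    rw [map_pow, ← hC, he]
  exact HahnSeries.C_injective h1

end Fermat.Agent.S44.L.RootLS
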