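import Mathlib
import Fermat.Agent.S34.Nodal.Defs

/-!
# Program MR (S44), strand L: existence of a crossing point (level-free)

Vocabulary of `S34/Nodal/Defs`: `O` a noetherian ring with a prime element `π`, `L` a field over
`O` in which `O` is integrally closed, `u : L` nonzero; `Chart O u`, `Chart O u⁻¹`, `Overlap O u`
are the integral closures of `O[u]`, `O[u⁻¹]`, `O[u, u⁻¹]` in `L`.

`P₁`, `P₂` are two proper ideals of the overlap chart containing `π` (the two components of the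
special fibre).  The special fibre is reduced on the chart `u` (`hred`: `P₁ ∩ P₂ ∩ Chart u = (π)`)
and `u⁻¹` is a non-zero-divisor modulo `π` on the chart `u⁻¹` (`hnzd`: no component of the
special fibre inside `u⁻¹ = 0`).

* `overlap_dvd_of_mem_inf` : the special fibre is reduced on the overlap;
* `inf_dvd_of_mem_inf` : the special fibre is reduced on the chart `u⁻¹`;
* `exists_crossing` : **the two components meet** on the chart `u` or on the chart `u⁻¹`
  (otherwise the CRT idempotents contradict the connectedness of the special fibre,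
  `GlueChart.conn_integralClosure`);
* `sup_ne_top_of_crossing_inf` : a crossing point of the chart `u⁻¹` outside the fibre
  `u⁻¹ = 0` is a crossing point of the overlap;
* `exists_crossing_zero` : if the components are separated on the fibre `u⁻¹ = 0` (`hsep`),
  they meet on the chart `u`.
-/

set_option autoImplicit false

namespace Fermat.Agent.S44.L.Crossing

open Fermat.Agent.S30.Model Fermat.Agent.S30.Model.GlueChart Fermat.Agent.S34.Nodal

variable {O L : Type*} [CommRing O] [Field L] [Algebra O L]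

/-- `π`, as an element of a chart ring, maps to `π` in the overlap. -/
theorem toOverlapZero_piElt (π : O) (u : L) :
    toOverlapZero O u (piElt (Algebra.adjoin O ({u} : Set L)) π)
      = piElt (Algebra.adjoin O ({u, u⁻¹} : Set L)) π := rfl

theorem toOverlapInf_piElt (π : O) (u : L) :
    toOverlapInf O u (piElt (Algebra.adjoin O ({u⁻¹} : Set L)) π)
      = piElt (Algebra.adjoin O ({u, u⁻¹} : Set L)) π := rfl

/-- **The special fibre is reduced on the overlap**: an element of `P₁ ∩ P₂` is divisible by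
`π` in the overlap chart. -/
theorem overlap_dvd_of_mem_inf (π : O) (u : L) (hu : u ≠ 0)
    (P₁ P₂ : Ideal (Overlap O u))
    (hred : P₁.comap (toOverlapZero O u) ⊓ P₂.comap (toOverlapZero O u)
      ≤ Ideal.span {piElt (Algebra.adjoin O ({u} : Set L)) π})
    (z : Overlap O u) (hz₁ : z ∈ P₁) (hz₂ : z ∈ P₂) :
    piElt (Algebra.adjoin O ({u, u⁻¹} : Set L)) π ∣ z := by
  obtain ⟨n, hn⟩ := CechP1.exists_pow_mul_isIntegral u hu (z : L) z.2
  have hu01 : IsIntegral (Algebra.adjoin O ({u, u⁻¹} : Set L)) u :=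
    CechP1.isIntegral_adjoin_of_mem (Algebra.subset_adjoin (by simp))
  have hui01 : IsIntegral (Algebra.adjoin O ({u, u⁻¹} : Set L)) u⁻¹ :=
    CechP1.isIntegral_adjoin_of_mem (Algebra.subset_adjoin (by simp))
  set a : Chart O u := ⟨u ^ n * (z : L), hn⟩ with ha
  have hza : toOverlapZero O u a = (⟨u, hu01⟩ : Overlap O u) ^ n * z := Subtype.ext rfl
  have ha₁ : a ∈ P₁.comap (toOverlapZero O u) := by
    rw [Ideal.mem_comap, hza]
    exact Ideal.mul_mem_left _ _ hz₁
  have ha₂ : a ∈ P₂.comap (toOverlapZero O u) := by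
    rw [Ideal.mem_comap, hza]
    exact Ideal.mul_mem_left _ _ hz₂
  have hdvd : piElt (Algebra.adjoin O ({u} : Set L)) π ∣ a :=
    Ideal.mem_span_singleton.mp (hred ⟨ha₁, ha₂⟩)
  rw [piElt_dvd_iff] at hdvd ⊢
  obtain ⟨w, hw, haw⟩ := hdvd
  refine ⟨u⁻¹ ^ n * w, (hui01.pow n).mul (CechP1.isIntegral_mono (adjoin_le_overlap O u) hw), ?_⟩
  have h1 : u ^ n * (z : L) = algebraMap O L π * w := haw
  have h2 : u⁻¹ ^ n * u ^ n = 1 := by rw [← mul_pow, inv_mul_cancel₀ hu, one_pow]
  calc (z : L) = (u⁻¹ ^ n * u ^ n) * (z : L) := by rw [h2, one_mul]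
    _ = u⁻¹ ^ n * (u ^ n * (z : L)) := by ring
    _ = algebraMap O L π * (u⁻¹ ^ n * w) := by rw [h1]; ring

/-- **The special fibre is reduced on the chart `u⁻¹`**: an element of the chart `u⁻¹` lying in
`P₁ ∩ P₂` is divisible by `π` in the chart `u⁻¹`. -/
theorem inf_dvd_of_mem_inf (π : O) (hπL : algebraMap O L π ≠ 0) (u : L) (hu : u ≠ 0)
    (P₁ P₂ : Ideal (Overlap O u))
    (hred : P₁.comap (toOverlapZero O u) ⊓ P₂.comap (toOverlapZero O u)
      ≤ Ideal.span {piElt (Algebra.adjoin O ({u} : Set L)) π})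
    (hnzd : ∀ x : L, IsIntegral (Algebra.adjoin O ({u⁻¹} : Set L)) x →
      IsIntegral (Algebra.adjoin O ({u⁻¹} : Set L)) (u⁻¹ * x / algebraMap O L π) →
      IsIntegral (Algebra.adjoin O ({u⁻¹} : Set L)) (x / algebraMap O L π))
    (x : Chart O u⁻¹) (hx₁ : x ∈ P₁.comap (toOverlapInf O u))
    (hx₂ : x ∈ P₂.comap (toOverlapInf O u)) :
    piElt (Algebra.adjoin O ({u⁻¹} : Set L)) π ∣ x := by
  have h := overlap_dvd_of_mem_inf π u hu P₁ P₂ hred (toOverlapInf O u x)
    (Ideal.mem_comap.mp hx₁) (Ideal.mem_comap.mp hx₂)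
  rw [← toOverlapInf_piElt π u] at h
  exact piElt_dvd_of_dvd_inclHom π hπL u hu (adjoin_inv_le_overlap O u) hnzd x h

/-- **Existence of a crossing point.**  Two proper ideals `P₁`, `P₂ ∋ π` of the overlap chart
with `P₁ ∩ P₂ ∩ Chart u = (π)`: there is a maximal ideal of the chart `u`, or of the chart
`u⁻¹`, containing both contractions. -/
theorem exists_crossing [IsNoetherianRing O] (π : O) (hπ : Prime π)
    (hinj : Function.Injective (algebraMap O L))
    (hOL : ∀ x : L, IsIntegral O x → ∃ a : O, algebraMap O L a = x)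
    (u : L) (hu : u ≠ 0)
    [Module.Finite (Algebra.adjoin O ({u} : Set L))
      (integralClosure (Algebra.adjoin O ({u} : Set L)) L)]
    (P₁ P₂ : Ideal (Overlap O u)) (h₁ : P₁ ≠ ⊤) (h₂ : P₂ ≠ ⊤)
    (hπ₁ : piElt (Algebra.adjoin O ({u, u⁻¹} : Set L)) π ∈ P₁)
    (hπ₂ : piElt (Algebra.adjoin O ({u, u⁻¹} : Set L)) π ∈ P₂)
    (hred : P₁.comap (toOverlapZero O u) ⊓ P₂.comap (toOverlapZero O u)
      ≤ Ideal.span {piElt (Algebra.adjoin O ({u} : Set L)) π})
    (hnzd : ∀ x : L, IsIntegral (Algebra.adjoin O ({u⁻¹} : Set L)) x →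
      IsIntegral (Algebra.adjoin O ({u⁻¹} : Set L)) (u⁻¹ * x / algebraMap O L π) →
      IsIntegral (Algebra.adjoin O ({u⁻¹} : Set L)) (x / algebraMap O L π)) :
    (∃ y : Ideal (Chart O u), y.IsMaximal ∧ P₁.comap (toOverlapZero O u) ≤ y ∧
        P₂.comap (toOverlapZero O u) ≤ y) ∨
      ∃ M : Ideal (Chart O u⁻¹), M.IsMaximal ∧ P₁.comap (toOverlapInf O u) ≤ M ∧
        P₂.comap (toOverlapInf O u) ≤ M := by
  by_contra hcon
  rw [not_or] at hcon
  obtain ⟨hc0, hcinf⟩ := hcon
  have hπL : algebraMap O L π ≠ 0 := fun h => hπ.ne_zero (hinj (by rw [h, map_zero]))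
  -- comaximality on both charts
  have htop0 : P₁.comap (toOverlapZero O u) ⊔ P₂.comap (toOverlapZero O u) = ⊤ := by
    by_contra hne
    obtain ⟨y, hy, hle⟩ := Ideal.exists_le_maximal _ hne
    exact hc0 ⟨y, hy, le_sup_left.trans hle, le_sup_right.trans hle⟩
  have htopinf : P₁.comap (toOverlapInf O u) ⊔ P₂.comap (toOverlapInf O u) = ⊤ := by
    by_contra hne
    obtain ⟨M, hM, hle⟩ := Ideal.exists_le_maximal _ hne
    exact hcinf ⟨M, hM, le_sup_left.trans hle, le_sup_right.trans hle⟩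
  obtain ⟨e0, he0, f0, hf0, hef0⟩ := Submodule.mem_sup.mp
    (htop0 ▸ Submodule.mem_top : (1 : Chart O u) ∈ _)
  obtain ⟨e1, he1, f1, hf1, hef1⟩ := Submodule.mem_sup.mp
    (htopinf ▸ Submodule.mem_top : (1 : Chart O u⁻¹) ∈ _)
  -- idempotents modulo `π`
  have hid0 : piElt (Algebra.adjoin O ({u} : Set L)) π ∣ e0 ^ 2 - e0 := by
    have h1 : e0 * f0 ∈ P₁.comap (toOverlapZero O u) ⊓ P₂.comap (toOverlapZero O u) :=
      ⟨Ideal.mul_mem_right _ _ he0, Ideal.mul_mem_left _ _ hf0⟩
    have h2 := Ideal.mem_span_singleton.mp (hred h1)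
    have e : e0 ^ 2 - e0 = -(e0 * f0) := by
      have hf : f0 = 1 - e0 := by rw [← hef0]; ring
      rw [hf]; ring
    rw [e]
    exact (dvd_neg).mpr h2
  have hid1 : piElt (Algebra.adjoin O ({u⁻¹} : Set L)) π ∣ e1 ^ 2 - e1 := by
    have h2 := inf_dvd_of_mem_inf π hπL u hu P₁ P₂ hred hnzd (e1 * f1)
      (Ideal.mul_mem_right _ _ he1) (Ideal.mul_mem_left _ _ hf1)
    have e : e1 ^ 2 - e1 = -(e1 * f1) := by
      have hf : f1 = 1 - e1 := by rw [← hef1]; ring
      rw [hf]; ring
    rw [e]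
    exact (dvd_neg).mpr h2
  -- agreement modulo `π` on the overlap
  have hglue : inclHom (adjoin_inv_le_overlap O u) (piElt _ π)
      ∣ inclHom (adjoin_le_overlap O u) e0 - inclHom (adjoin_inv_le_overlap O u) e1 := by
    refine overlap_dvd_of_mem_inf π u hu P₁ P₂ hred _ ?_ ?_
    · exact P₁.sub_mem (Ideal.mem_comap.mp he0) (Ideal.mem_comap.mp he1)
    · have e : toOverlapZero O u e0 - toOverlapInf O u e1
          = toOverlapInf O u f1 - toOverlapZero O u f0 := by
        have h0 : toOverlapZero O u e0 + toOverlapZero O u f0 = 1 := by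
          rw [← map_add, hef0, map_one]
        have h1 : toOverlapInf O u e1 + toOverlapInf O u f1 = 1 := by
          rw [← map_add, hef1, map_one]
        linear_combination h0 - h1
      show toOverlapZero O u e0 - toOverlapInf O u e1 ∈ P₂
      rw [e]
      exact P₂.sub_mem (Ideal.mem_comap.mp hf1) (Ideal.mem_comap.mp hf0)
  rcases conn_integralClosure π hπ hinj hOL u hu (adjoin_le_overlap O u)
      (adjoin_inv_le_overlap O u) e0 e1 hid0 hid1 hglue with ⟨hA, -⟩ | ⟨hB, -⟩
  · -- `e0 ≡ 0`: then `1 = e0 + f0 ∈ P₂`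
    apply h₂
    rw [Ideal.eq_top_iff_one]
    obtain ⟨w, hw⟩ := hA
    have h1 : toOverlapZero O u e0 ∈ P₂ := by
      rw [hw, map_mul, toOverlapZero_piElt]
      exact Ideal.mul_mem_right _ _ hπ₂
    have h2 : toOverlapZero O u e0 + toOverlapZero O u f0 = 1 := by
      rw [← map_add, hef0, map_one]
    rw [← h2]
    exact P₂.add_mem h1 (Ideal.mem_comap.mp hf0)
  · -- `e0 ≡ 1`: then `1 = e0 + f0 ∈ P₁`
    apply h₁
    rw [Ideal.eq_top_iff_one]
    obtain ⟨w, hw⟩ := hB
    have hf : f0 = -(e0 - 1) := by rw [← hef0]; ring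
    have h1 : toOverlapZero O u f0 ∈ P₁ := by
      rw [hf, hw, map_neg, map_mul, toOverlapZero_piElt]
      exact P₁.neg_mem (Ideal.mul_mem_right _ _ hπ₁)
    have h2 : toOverlapZero O u e0 + toOverlapZero O u f0 = 1 := by
      rw [← map_add, hef0, map_one]
    rw [← h2]
    exact P₁.add_mem (Ideal.mem_comap.mp he0) h1

/-- A prime of the chart `u⁻¹` containing both contractions but not `u⁻¹` gives a crossing point
of the overlap: `P₁ ⊔ P₂ ≠ ⊤`. -/
theorem sup_ne_top_of_crossing_inf (u : L) (hu : u ≠ 0) (P₁ P₂ : Ideal (Overlap O u))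
    (M : Ideal (Chart O u⁻¹)) [hM : M.IsPrime] (g : Chart O u⁻¹) (hg : (g : L) = u⁻¹)
    (hgM : g ∉ M) (hM₁ : P₁.comap (toOverlapInf O u) ≤ M)
    (hM₂ : P₂.comap (toOverlapInf O u) ≤ M) : P₁ ⊔ P₂ ≠ ⊤ := by
  intro htop
  obtain ⟨a, ha, b, hb, hab⟩ := Submodule.mem_sup.mp
    (htop ▸ Submodule.mem_top : (1 : Overlap O u) ∈ _)
  obtain ⟨n, a', ha'⟩ := exists_pow_mul_inclHom u hu g hg (adjoin_inv_le_overlap O u) a
  obtain ⟨m, b', hb'⟩ := exists_pow_mul_inclHom u hu g hg (adjoin_inv_le_overlap O u) b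
  have h1 : g ^ m * a' ∈ M := by
    apply hM₁
    rw [Ideal.mem_comap, map_mul]
    refine Ideal.mul_mem_left _ _ ?_
    show inclHom (adjoin_inv_le_overlap O u) a' ∈ P₁
    rw [← ha']
    exact Ideal.mul_mem_left _ _ ha
  have h2 : g ^ n * b' ∈ M := by
    apply hM₂
    rw [Ideal.mem_comap, map_mul]
    refine Ideal.mul_mem_left _ _ ?_
    show inclHom (adjoin_inv_le_overlap O u) b' ∈ P₂
    rw [← hb']
    exact Ideal.mul_mem_left _ _ hb
  have h3 : g ^ (n + m) ∈ M := by
    have e : g ^ (n + m) = g ^ m * a' + g ^ n * b' := by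
      have e1 : (g : L) ^ n * (a : L) = (a' : L) := by
        have := congrArg Subtype.val ha'
        rw [Subalgebra.coe_mul, Subalgebra.coe_pow, coe_inclHom, coe_inclHom] at this
        exact this
      have e2 : (g : L) ^ m * (b : L) = (b' : L) := by
        have := congrArg Subtype.val hb'
        rw [Subalgebra.coe_mul, Subalgebra.coe_pow, coe_inclHom, coe_inclHom] at this
        exact this
      have e3 : (a : L) + (b : L) = 1 := by
        have := congrArg Subtype.val hab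
        rw [Subalgebra.coe_add, Subalgebra.coe_one] at this
        exact this
      apply Subtype.ext
      rw [Subalgebra.coe_add, Subalgebra.coe_mul, Subalgebra.coe_mul, Subalgebra.coe_pow,
        Subalgebra.coe_pow, Subalgebra.coe_pow, ← e1, ← e2]
      have e4 : (g : L) ^ (n + m) = (g : L) ^ m * (g : L) ^ n * ((a : L) + (b : L)) := by
        rw [e3, mul_one, pow_add, mul_comm]
      rw [e4]
      ring
    rw [e]
    exact M.add_mem h1 h2
  exact hgM (hM.mem_of_pow_mem _ h3)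

/-- **Existence of a crossing point on the chart `u`**, when the two components are separated
on the fibre `u⁻¹ = 0` of the chart `u⁻¹`. -/
theorem exists_crossing_zero [IsNoetherianRing O] (π : O) (hπ : Prime π)
    (hinj : Function.Injective (algebraMap O L))
    (hOL : ∀ x : L, IsIntegral O x → ∃ a : O, algebraMap O L a = x)
    (u : L) (hu : u ≠ 0)
    [Module.Finite (Algebra.adjoin O ({u} : Set L))
      (integralClosure (Algebra.adjoin O ({u} : Set L)) L)]
    (P₁ P₂ : Ideal (Overlap O u)) (h₁ : P₁ ≠ ⊤) (h₂ : P₂ ≠ ⊤)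
    (hπ₁ : piElt (Algebra.adjoin O ({u, u⁻¹} : Set L)) π ∈ P₁)
    (hπ₂ : piElt (Algebra.adjoin O ({u, u⁻¹} : Set L)) π ∈ P₂)
    (hred : P₁.comap (toOverlapZero O u) ⊓ P₂.comap (toOverlapZero O u)
      ≤ Ideal.span {piElt (Algebra.adjoin O ({u} : Set L)) π})
    (hnzd : ∀ x : L, IsIntegral (Algebra.adjoin O ({u⁻¹} : Set L)) x →
      IsIntegral (Algebra.adjoin O ({u⁻¹} : Set L)) (u⁻¹ * x / algebraMap O L π) →
      IsIntegral (Algebra.adjoin O ({u⁻¹} : Set L)) (x / algebraMap O L π))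
    (hsep : ∀ (M : Ideal (Chart O u⁻¹)) (g : Chart O u⁻¹), (g : L) = u⁻¹ → M.IsMaximal →
      g ∈ M → P₁.comap (toOverlapInf O u) ≤ M → P₂.comap (toOverlapInf O u) ≤ M → False) :
    ∃ y : Ideal (Chart O u), y.IsMaximal ∧ P₁.comap (toOverlapZero O u) ≤ y ∧
      P₂.comap (toOverlapZero O u) ≤ y := by
  rcases exists_crossing π hπ hinj hOL u hu P₁ P₂ h₁ h₂ hπ₁ hπ₂ hred hnzd with h | ⟨M, hM, hM₁, hM₂⟩
  · exact h
  · set g : Chart O u⁻¹ := ⟨u⁻¹, CechP1.isIntegral_adjoin_of_mem
      (Algebra.subset_adjoin (Set.mem_singleton _))⟩ with hg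
    have hgM : g ∉ M := fun hgM => hsep M g rfl hM hgM hM₁ hM₂
    have hMp := hM.isPrime
    have hne := sup_ne_top_of_crossing_inf u hu P₁ P₂ M g rfl hgM hM₁ hM₂
    obtain ⟨𝔫, h𝔫, hle⟩ := Ideal.exists_le_maximal _ hne
    have h𝔫p := h𝔫.isPrime
    have hne0 : 𝔫.comap (toOverlapZero O u) ≠ ⊤ := (Ideal.comap_isPrime _ 𝔫).ne_top
    obtain ⟨y, hy, hley⟩ := Ideal.exists_le_maximal _ hne0
    exact ⟨y, hy, (Ideal.comap_mono (le_sup_left.trans hle)).trans hley,
      (Ideal.comap_mono (le_sup_right.trans hle)).trans hley⟩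

end Fermat.Agent.S44.L.Crossing
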