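import Mathlib
import Fermat.Agent.S34.Modular.Datum
import Fermat.Agent.S36.ThickPoint
import Fermat.Agent.S36.CuspFibre
import Fermat.Agent.S44.L.Crossing

/-!
# Program MR (S44), strand L: the crossing point of the two Gauss primes (level-free)

Setting of `S34/Modular/ChartZero.lean` / `S36/ThickPoint.lean`, section `Main`, verbatim:
`C = Chart O (α u')` the level-`ℓM'` chart ring, `p_∞ = ker redInf`, `p_0 = ker redZero` its two
vertical primes.

* `inv_congr` : ring theory.  In a commutative ring with two primes `P₁`, `P₂` and units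
  `a`, `b` (inverses `t`, `tq`) such that `a^ℓ ≡ b (P₁)`, `a ≡ b^ℓ (P₂)`, `a ∉ P₁`, `b ∉ P₂`:
  the Kronecker congruences of the inverses, `tq ≡ t^ℓ (P₁)`, `t ≡ tq^ℓ (P₂)`, `t ∉ P₁`,
  `tq ∉ P₂`.
* `sep_inf` : **the two components do not meet on the fibre `u⁻¹ = 0`** of the chart at infinity,
  given the two integrality exits (I2), (I3) at `t = u⁻¹` (`Haupt4/Hwu.exits_level`):
  literally the hypothesis `hsep` of `Crossing.exists_crossing_zero` for the overlap primes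
  `Datum.P₁`, `Datum.P₂`.
* `exists_crossing_gauss` : **there is a maximal ideal `y` of `C` with `p_∞ ≤ y` and `p_0 ≤ y`**
  (the special fibre of the level-`ℓM'` chart has a crossing point on the chart `u`).
-/

set_option autoImplicit false
set_option linter.unusedSectionVars false
set_option linter.unusedVariables false
set_option linter.style.haveILetI false

noncomputable section

namespace Fermat.Agent.S44.L.CrossingGauss

open ModularCurve Polynomial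
open Fermat.Agent.S30 Fermat.Agent.S30.Model.GlueChart Fermat.Agent.S34 Fermat.Agent.S36
  Fermat.Agent.S34.TwoPrimesGauss
open Fermat.Agent.S34.Modular.ChartZero

/-! ### Ring theory -/

/-- **Kronecker congruences of the inverses.** -/
theorem inv_congr {R : Type*} [CommRing R] (P₁ P₂ : Ideal R) [h₁ : P₁.IsPrime]
    [h₂ : P₂.IsPrime] (ℓ : ℕ) (a b t tq : R) (hat : a * t = 1) (hbtq : b * tq = 1)
    (k1 : a ^ ℓ - b ∈ P₁) (k2 : a - b ^ ℓ ∈ P₂) (ha : a ∉ P₁) (hb : b ∉ P₂) :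
    tq - t ^ ℓ ∈ P₁ ∧ t ∉ P₁ ∧ t - tq ^ ℓ ∈ P₂ ∧ tq ∉ P₂ := by
  have hone₁ : (1 : R) ∉ P₁ := fun h => h₁.ne_top ((Ideal.eq_top_iff_one P₁).mpr h)
  have hone₂ : (1 : R) ∉ P₂ := fun h => h₂.ne_top ((Ideal.eq_top_iff_one P₂).mpr h)
  have hb₁ : b ∉ P₁ := by
    intro hb₁
    apply ha
    apply h₁.mem_of_pow_mem ℓ
    have e : a ^ ℓ = (a ^ ℓ - b) + b := by ring
    rw [e]
    exact P₁.add_mem k1 hb₁
  have ha₂ : a ∉ P₂ := by
    intro ha₂
    apply hb
    apply h₂.mem_of_pow_mem ℓ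
    have e : b ^ ℓ = a - (a - b ^ ℓ) := by ring
    rw [e]
    exact P₂.sub_mem ha₂ k2
  refine ⟨?_, ?_, ?_, ?_⟩
  · have e : a ^ ℓ * b * (tq - t ^ ℓ) = a ^ ℓ - b := by
      have e1 : a ^ ℓ * b * (tq - t ^ ℓ) = a ^ ℓ * (b * tq) - b * (a * t) ^ ℓ := by ring
      rw [e1, hat, hbtq, one_pow, mul_one, mul_one]
    have h : a ^ ℓ * b * (tq - t ^ ℓ) ∈ P₁ := by rw [e]; exact k1
    rcases h₁.mem_or_mem h with h | h
    · rcases h₁.mem_or_mem h with h | h
      · exact absurd (h₁.mem_of_pow_mem ℓ h) ha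
      · exact absurd h hb₁
    · exact h
  · intro ht
    apply hone₁
    rw [← hat]
    exact P₁.mul_mem_left _ ht
  · have e : a * b ^ ℓ * (t - tq ^ ℓ) = -(a - b ^ ℓ) := by
      have e1 : a * b ^ ℓ * (t - tq ^ ℓ) = b ^ ℓ * (a * t) - a * (b * tq) ^ ℓ := by ring
      rw [e1, hat, hbtq, one_pow, mul_one, mul_one]
      ring
    have h : a * b ^ ℓ * (t - tq ^ ℓ) ∈ P₂ := by rw [e]; exact P₂.neg_mem k2
    rcases h₂.mem_or_mem h with h | h
    · rcases h₂.mem_or_mem h with h | h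
      · exact absurd h ha₂
      · exact absurd (h₂.mem_of_pow_mem ℓ h) hb
    · exact h
  · intro ht
    apply hone₂
    rw [← hbtq]
    exact P₂.mul_mem_left _ ht

section Main

variable {O E : Type*} [CommRing O] [IsDomain O] [IsDiscreteValuationRing O] [Field E]
  [Algebra O E] [FaithfulSMul O E]
  {L' L : Type*} [Field L'] [Field L] [Algebra O L'] [Algebra O L]
  (ϖ : O) (hϖ : Irreducible ϖ)
  (α : L' →+* L) (hαO : ∀ r : O, α (algebraMap O L' r) = algebraMap O L r)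
  (σ : L →+* LaurentSeries E)
  (hσO : ∀ r : O, σ (algebraMap O L r) = HahnSeries.C (algebraMap O E r))
  (hσfrac : ∀ x : L, σ x ∈ GaussDVR.fracField O E)
  (u' : L') (U : LaurentSeries O) (hσu : σ (α u') = GaussDVR.iota O E U)
  (w : L ≃+* L) (hwO : ∀ r : O, w (algebraMap O L r) = algebraMap O L r)
  (ℓ : ℕ) [NeZero ℓ]
  (hwα : ∀ x : L', σ (w (α x)) = qExpand E ℓ (σ (α x)))
  (hww : ∀ z : L, w (w z) = z)
  (hprime : Prime (piC u' ϖ))
  (hcop : IsCoprime (GaussDVR.rho O U).order (ℓ : ℤ)) (hord : (GaussDVR.rho O U).order ≠ 0)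
  (hℓ : 2 ≤ ℓ)
  (hfrob : qExpand (IsLocalRing.ResidueField O) ℓ (GaussDVR.rho O U) = GaussDVR.rho O U ^ ℓ)
  (hwu : IsIntegral (Algebra.adjoin O {α u'}) (w (α u')))
  (hrank : ∀ v : Option (Fin 1 ⊕ Fin ℓ) → Chart O (α u'),
    ∃ c : Option (Fin 1 ⊕ Fin ℓ) → Chart O u', c ≠ 0 ∧ ∑ i, incl α hαO u' (c i) * v i = 0)
  (hρ : GaussDVR.rho O U ≠ 0)

local notation "rI" => redInf ϖ hϖ α σ hσO hσfrac u' U hσu
local notation "rZ" => redZero ϖ hϖ α σ hσO hσfrac u' U hσu w hwO ℓ hwα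
local notation "ρU" => GaussDVR.rho O U
local notation "W" => wChart α u' w hwO hww hwu
local notation "uC" => incl α hαO u' (polyChart u' X)
local notation "p₁" => Modular.Datum.P₁ ϖ hϖ α σ hσO hσfrac u' U hσu hρ
local notation "p₂" => Modular.Datum.P₂ ϖ hϖ α σ hσO hσfrac u' U hσu w hwO ℓ hwα hρ

/-- The coordinate `uC` of the chart ring is `α u'` in the field. -/
theorem coe_uC : ((uC : Chart O (α u')) : L) = α u' := by
  show α (aeval u' (X : O[X])) = α u'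
  rw [aeval_X]

/-- `W uC` is `w (α u')` in the field. -/
theorem coe_wChart_uC : ((W uC : Chart O (α u')) : L) = w (α u') := by
  show w (α (aeval u' (X : O[X]))) = w (α u')
  rw [aeval_X]

include hαO hℓ hfrob hww hwu in
/-- **No crossing on the fibre `u⁻¹ = 0` of the chart at infinity**: literally the hypothesis
`hsep` of `Crossing.exists_crossing_zero` for the overlap primes `Datum.P₁`, `Datum.P₂`, from
the integrality exits (I2) `(w u)⁻¹ ∈ Chart u⁻¹` and (I3) `(u⁻¹)^ℓ / (w u)⁻¹ ∈ Chart u⁻¹`. -/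
theorem sep_inf (hu : α u' ≠ 0)
    (hwuInv : IsIntegral (Algebra.adjoin O ({(α u')⁻¹} : Set L)) (w (α u'))⁻¹)
    (hθ : IsIntegral (Algebra.adjoin O ({(α u')⁻¹} : Set L))
      ((α u')⁻¹ ^ ℓ / (w (α u'))⁻¹))
    (M : Ideal (Nodal.Chart O (α u')⁻¹)) (g : Nodal.Chart O (α u')⁻¹)
    (hg : (g : L) = (α u')⁻¹) (hM : M.IsMaximal) (hgM : g ∈ M)
    (hM₁ : (p₁).comap (Nodal.toOverlapInf O (α u')) ≤ M)
    (hM₂ : (p₂).comap (Nodal.toOverlapInf O (α u')) ≤ M) : False := by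
  haveI hMp : M.IsPrime := hM.isPrime
  haveI hP₁ : (p₁).IsPrime := Modular.Datum.isPrime_P₁ ϖ hϖ α σ hσO hσfrac u' U hσu hρ
  haveI hP₂ : (p₂).IsPrime := Modular.Datum.isPrime_P₂ ϖ hϖ α σ hσO hσfrac u' U hσu w hwO ℓ hwα hρ
  haveI hc₁ : ((p₁).comap (Nodal.toOverlapInf O (α u'))).IsPrime := Ideal.comap_isPrime _ _
  haveI hc₂ : ((p₂).comap (Nodal.toOverlapInf O (α u'))).IsPrime := Ideal.comap_isPrime _ _
  have hwu0 : w (α u') ≠ 0 := fun h0 => hu (w.injective (by rw [h0, map_zero]))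
  -- the four elements of the overlap ring
  set a : Nodal.Overlap O (α u') := Nodal.toOverlapZero O (α u') uC with ha_def
  set b : Nodal.Overlap O (α u') := Nodal.toOverlapZero O (α u') (W uC) with hb_def
  set tq : Nodal.Chart O (α u')⁻¹ := ⟨(w (α u'))⁻¹, hwuInv⟩ with htq_def
  set θ : Nodal.Chart O (α u')⁻¹ := ⟨(α u')⁻¹ ^ ℓ / (w (α u'))⁻¹, hθ⟩ with hθ_def
  have hat : a * Nodal.toOverlapInf O (α u') g = 1 := by
    apply Subtype.ext
    rw [Subalgebra.coe_mul, Subalgebra.coe_one, coe_inclHom, coe_inclHom, hg,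
      coe_uC α hαO u']
    exact mul_inv_cancel₀ hu
  have hbtq : b * Nodal.toOverlapInf O (α u') tq = 1 := by
    apply Subtype.ext
    rw [Subalgebra.coe_mul, Subalgebra.coe_one, coe_inclHom, coe_inclHom,
      coe_wChart_uC α hαO u' w hwO hww hwu]
    exact mul_inv_cancel₀ hwu0
  have k1 : a ^ ℓ - b ∈ p₁ := by
    have h := ThickPoint.t1_mem ϖ hϖ α hαO σ hσO hσfrac u' U hσu w hwO ℓ hwα hww hfrob hwu
    rw [← Modular.Datum.comap_zero_P₁ ϖ hϖ α σ hσO hσfrac u' U hσu hρ, Ideal.mem_comap,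
      map_sub, map_pow] at h
    exact h
  have k2 : a - b ^ ℓ ∈ p₂ := by
    have h := ThickPoint.t2_mem ϖ hϖ α hαO σ hσO hσfrac u' U hσu w hwO ℓ hwα hww hfrob hwu
    rw [← Modular.Datum.comap_zero_P₂ ϖ hϖ α σ hσO hσfrac u' U hσu w hwO ℓ hwα hρ,
      Ideal.mem_comap, map_sub, map_pow] at h
    exact h
  have ha : a ∉ p₁ := by
    intro h
    have h' : uC ∈ (p₁).comap (Nodal.toOverlapZero O (α u')) := Ideal.mem_comap.mpr h
    rw [Modular.Datum.comap_zero_P₁ ϖ hϖ α σ hσO hσfrac u' U hσu hρ, RingHom.mem_ker,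
      ThickPoint.redInf_uC ϖ hϖ α hαO σ hσO hσfrac u' U hσu] at h'
    exact hρ h'
  have hb : b ∉ p₂ := by
    intro h
    have h' : W uC ∈ (p₂).comap (Nodal.toOverlapZero O (α u')) := Ideal.mem_comap.mpr h
    rw [Modular.Datum.comap_zero_P₂ ϖ hϖ α σ hσO hσfrac u' U hσu w hwO ℓ hwα hρ,
      RingHom.mem_ker, redZero_wChart ϖ hϖ α σ hσO hσfrac u' U hσu w hwO ℓ hwα hww hwu,
      ThickPoint.redInf_uC ϖ hϖ α hαO σ hσO hσfrac u' U hσu] at h'
    exact hρ h'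
  obtain ⟨c1, c2, c3, c4⟩ := inv_congr (p₁) (p₂) ℓ a b (Nodal.toOverlapInf O (α u') g)
    (Nodal.toOverlapInf O (α u') tq) hat hbtq k1 k2 ha hb
  have a1 : tq * θ = g ^ ℓ := by
    apply Subtype.ext
    rw [Subalgebra.coe_mul, Subalgebra.coe_pow, hg]
    exact mul_div_cancel₀ _ (inv_ne_zero hwu0)
  refine CuspFibre.no_crossing_two M ((p₁).comap (Nodal.toOverlapInf O (α u')))
    ((p₂).comap (Nodal.toOverlapInf O (α u'))) hM₁ hM₂ ℓ hℓ g tq θ hgM a1 ?_ ?_ ?_ ?_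
  · rw [Ideal.mem_comap, map_sub, map_pow]; exact c1
  · rw [Ideal.mem_comap]; exact c2
  · rw [Ideal.mem_comap, map_sub, map_pow]; exact c3
  · rw [Ideal.mem_comap]; exact c4

include hαO hww hprime hcop hord hℓ hfrob hwu hrank hρ in
/-- The crossing point, with the auxiliary hypothesis `ρ U ≠ 0` (a consequence of `hord`). -/
theorem exists_crossing_gauss_aux
    (hinj : Function.Injective (algebraMap O L))
    (hOL : ∀ x : L, IsIntegral O x → ∃ a : O, algebraMap O L a = x)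
    (hu : α u' ≠ 0)
    [Module.Finite (Algebra.adjoin O ({α u'} : Set L))
      (integralClosure (Algebra.adjoin O ({α u'} : Set L)) L)]
    (hnzd : ∀ x : L, IsIntegral (Algebra.adjoin O ({(α u')⁻¹} : Set L)) x →
      IsIntegral (Algebra.adjoin O ({(α u')⁻¹} : Set L)) ((α u')⁻¹ * x / algebraMap O L ϖ) →
      IsIntegral (Algebra.adjoin O ({(α u')⁻¹} : Set L)) (x / algebraMap O L ϖ))
    (hwuInv : IsIntegral (Algebra.adjoin O ({(α u')⁻¹} : Set L)) (w (α u'))⁻¹)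
    (hθ : IsIntegral (Algebra.adjoin O ({(α u')⁻¹} : Set L))
      ((α u')⁻¹ ^ ℓ / (w (α u'))⁻¹)) :
    ∃ y : Ideal (Chart O (α u')), y.IsMaximal ∧ RingHom.ker rI ≤ y ∧ RingHom.ker rZ ≤ y := by
  haveI hP₁ : (p₁).IsPrime := Modular.Datum.isPrime_P₁ ϖ hϖ α σ hσO hσfrac u' U hσu hρ
  haveI hP₂ : (p₂).IsPrime := Modular.Datum.isPrime_P₂ ϖ hϖ α σ hσO hσfrac u' U hσu w hwO ℓ hwα hρ
  have hred : (p₁).comap (Nodal.toOverlapZero O (α u')) ⊓
      (p₂).comap (Nodal.toOverlapZero O (α u')) ≤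
      Ideal.span {piElt (Algebra.adjoin O ({α u'} : Set L)) ϖ} := by
    rw [Modular.Datum.comap_zero_P₁ ϖ hϖ α σ hσO hσfrac u' U hσu hρ,
      Modular.Datum.comap_zero_P₂ ϖ hϖ α σ hσO hσfrac u' U hσu w hwO ℓ hwα hρ]
    rintro c ⟨hI, hZ⟩
    exact Ideal.mem_span_singleton.mpr
      (dvd_of_redInf_redZero ϖ hϖ α hαO σ hσO hσfrac u' U hσu w hwO ℓ hwα hww hprime hcop hord hℓ
        hfrob hwu hrank c hI hZ)
  obtain ⟨y, hy, hy₁, hy₂⟩ := Crossing.exists_crossing_zero ϖ hϖ.prime hinj hOL (α u') hu (p₁)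
    (p₂) hP₁.ne_top hP₂.ne_top
    (Modular.Datum.piElt_mem_P₁ ϖ hϖ α σ hσO hσfrac u' U hσu hρ)
    (Modular.Datum.piElt_mem_P₂ ϖ hϖ α σ hσO hσfrac u' U hσu w hwO ℓ hwα hρ) hred hnzd
    (fun M g hg hM hgM hM₁ hM₂ =>
      sep_inf ϖ hϖ α hαO σ hσO hσfrac u' U hσu w hwO ℓ hwα hww hℓ hfrob hwu hρ hu hwuInv hθ M g hg
        hM hgM hM₁ hM₂)
  rw [Modular.Datum.comap_zero_P₁ ϖ hϖ α σ hσO hσfrac u' U hσu hρ] at hy₁
  rw [Modular.Datum.comap_zero_P₂ ϖ hϖ α σ hσO hσfrac u' U hσu w hwO ℓ hwα hρ] at hy₂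
  exact ⟨y, hy, hy₁, hy₂⟩

include hαO hww hprime hcop hord hℓ hfrob hwu hrank in
/-- **The crossing point of the level-`ℓM'` chart.**  `O` integrally closed in `L` (`hinj`,
`hOL`), the chart ring finite over `O[u]`, `u⁻¹` a non-zero-divisor modulo `ϖ` on the chart at
infinity (`hnzd`, `Assembly.chart_nzd`) and the two integrality exits at `t = u⁻¹`
(`Haupt4/Hwu.exits_level`): there is a maximal ideal of the chart ring `Chart O (α u')`
containing both vertical primes `ker redInf`, `ker redZero`. -/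
theorem exists_crossing_gauss
    (hinj : Function.Injective (algebraMap O L))
    (hOL : ∀ x : L, IsIntegral O x → ∃ a : O, algebraMap O L a = x)
    (hu : α u' ≠ 0)
    [Module.Finite (Algebra.adjoin O ({α u'} : Set L))
      (integralClosure (Algebra.adjoin O ({α u'} : Set L)) L)]
    (hnzd : ∀ x : L, IsIntegral (Algebra.adjoin O ({(α u')⁻¹} : Set L)) x →
      IsIntegral (Algebra.adjoin O ({(α u')⁻¹} : Set L)) ((α u')⁻¹ * x / algebraMap O L ϖ) →
      IsIntegral (Algebra.adjoin O ({(α u')⁻¹} : Set L)) (x / algebraMap O L ϖ))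
    (hwuInv : IsIntegral (Algebra.adjoin O ({(α u')⁻¹} : Set L)) (w (α u'))⁻¹)
    (hθ : IsIntegral (Algebra.adjoin O ({(α u')⁻¹} : Set L))
      ((α u')⁻¹ ^ ℓ / (w (α u'))⁻¹)) :
    ∃ y : Ideal (Chart O (α u')), y.IsMaximal ∧ RingHom.ker rI ≤ y ∧ RingHom.ker rZ ≤ y :=
  exists_crossing_gauss_aux ϖ hϖ α hαO σ hσO hσfrac u' U hσu w hwO ℓ hwα hww hprime hcop hord hℓ
    hfrob hwu hrank (fun h => hord (by rw [h, HahnSeries.order_zero])) hinj hOL hu hnzd hwuInv hθ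

end Main

end Fermat.Agent.S44.L.CrossingGauss
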