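import Mathlib
import Fermat.Agent.S44.L.CrossingGauss
import Fermat.Agent.S36.C1Inst

/-!
# Program MR (S44), strand L: the crossing point at `u₄`, E-level instance

`S44/L/CrossingGauss.exists_crossing_gauss` at the objects of `S36/C1Inst` (binders of
`C1Inst.gen_u4` / `C1Inst.gen_u4_OE`, verbatim): levels `(M, M q)`, `q` an odd prime, `q ∤ M`,
`4 ∣ M`, base an unramified discrete valuation ring `O` of residue characteristic `q` with
fraction field `E ⊆ ℚ̄` (`q = π * unit`), `C = Chart O (α u₄)` the chart ring of level `M q` at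
the coordinate `α u₄`, `p_∞ = ker redInf`, `p_0 = ker redZero`.  No hypothesis left.

* `exists_crossing_u4` : **there is a maximal ideal `y` of `C` with `p_∞ ≤ y` and `p_0 ≤ y`**
  (generic unramified base `O`).
* `exists_crossing_u4_OE` : the same over `O = OE A K`, `π` any uniformiser.

Inputs: `Haupt4/Hwu.exits_level` (the integrality exits at `t = u₄⁻¹`: no crossing on the fibre
`u₄ = ∞`), `Assembly.chart_finite`, `Assembly.chart_nzd`, `K1Main.algClosedIn_laurent`
(`O` integrally closed in `LE (M q) E`: connectedness of the special fibre), and the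
`TwoPrimesGauss` block at `u₄` (`LevelQInstAlt`, `Haupt4/Fibre`).
-/

set_option autoImplicit false
set_option linter.unusedSectionVars false
set_option linter.unusedVariables false
set_option linter.style.haveILetI false
set_option synthInstance.maxHeartbeats 400000
set_option maxHeartbeats 1000000

open ModularCurve Polynomial IntermediateField

noncomputable section

namespace Fermat.Agent.S44.L.CrossingInst

open Fermat.Agent.S30 Fermat.Agent.S34 Fermat.Agent.S34.TwoPrimesGauss
open Fermat.Agent.S30.Model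
open Fermat.Agent.S18.K1Defs Fermat.Agent.S18.K1Main
open Fermat.Agent.S34.TwoPrimesRank Fermat.Agent.S34.HauptU.Plug
open Fermat.Agent.S34.HauptU.LevelMAux
open Fermat.Agent.S36.Haupt4 Fermat.Agent.S36.LevelQInstAlt

local notation "Qb" => AlgebraicClosure ℚ

/-- The inverse of a transcendental element is transcendental. -/
theorem transcendental_inv_of {K F : Type*} [Field K] [Field F] [Algebra K F] {x : F}
    (hx : Transcendental K x) : Transcendental K x⁻¹ := by
  intro h
  exact hx (by simpa using h.inv)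

/-! ### Generic unramified base -/

section Generic

variable (M q : ℕ) [NeZero M] [NeZero q] (E : IntermediateField ℚ Qb)
  {O : Type} [CommRing O] [IsDomain O] [IsDiscreteValuationRing O]
  [Algebra O E] [IsFractionRing O E]

/-- **The crossing point at `u₄`**: the level-`q` chart ring at `u₄` has a maximal ideal
containing both vertical primes `p_∞ = ker redInf` and `p_0 = ker redZero`. -/
theorem exists_crossing_u4 (hq : q.Prime) (hodd : q ≠ 2) (hqM : ¬ q ∣ M) (h4 : 4 ∣ M)
    (h2 : IsUnit (2 : O)) (hFG : FinGaussC M O E) (π : O) (hπ : Irreducible π)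
    (e : O) (he : IsUnit e) (hqe : ((q : ℕ) : O) = π * e)
    (hσfrac : ∀ x : LE (M * q) E, sigmaHom (M * q) E x ∈ GaussDVR.fracField O E) :
    letI := algebraOL O E (LE M E)
    letI := algebraOL O E (LE (M * q) E)
    haveI := isScalarTower_OL O E (LE M E)
    haveI := isScalarTower_OL O E (LE (M * q) E)
    ∃ y : Ideal (Chart O (alphaHom M q E (u4E M E h4))), y.IsMaximal ∧
      RingHom.ker (redInf π hπ (alphaHom M q E) (sigmaHom (M * q) E)
        (sigmaHom_algebraMap (M * q) E) hσfrac (u4E M E h4) (u4 O) (hσu_u4 M q E h4)) ≤ y ∧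
      RingHom.ker (redZero π hπ (alphaHom M q E) (sigmaHom (M * q) E)
        (sigmaHom_algebraMap (M * q) E) hσfrac (u4E M E h4) (u4 O) (hσu_u4 M q E h4)
        (wHom M q E hq hqM) (wHom_algebraMap M q E hq hqM) q
        (sigmaHom_wHom_alpha M q E hq hqM)) ≤ y := by
  classical
  letI := algebraOL O E (LE M E)
  letI := algebraOL O E (LE (M * q) E)
  haveI := isScalarTower_OL O E (LE M E)
  haveI := isScalarTower_OL O E (LE (M * q) E)
  have hfg := u4_fin_gauss M E h4 hFG
  have hfin : FiniteDimensional (IntermediateField.adjoin E {u4E M E h4}) (LE M E) := hfg.1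
  haveI := hfin
  have hcf := Fermat.Agent.S36.Haupt4.Fibre.chartFacts_u4 M E h4 h2 hFG π hπ
  have hwu := hwu_u4 M q E (O := O) h2 hq hodd hqM h4
  haveI : Fact q.Prime := ⟨hq⟩
  haveI : CharP (IsLocalRing.ResidueField O) q :=
    Fermat.Agent.S36.DerUnram.charP_residue π hπ q ⟨e, hqe⟩
  -- level `M q`
  haveI := Fermat.Agent.S36.Haupt4.LevelQ.finiteDimensional_alpha_u4E M q E h4
  have hT : Transcendental E (alphaHom M q E (u4E M E h4)) :=
    Fermat.Agent.S36.Haupt4.LevelQ.transcendental_alpha_u4E M q E h4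
  have hu : alphaHom M q E (u4E M E h4) ≠ 0 := fun h0 => hT (by rw [h0]; exact isAlgebraic_zero)
  have hTinv : Transcendental E (alphaHom M q E (u4E M E h4))⁻¹ := transcendental_inv_of hT
  haveI : Module.Finite (Algebra.adjoin O ({alphaHom M q E (u4E M E h4)} : Set (LE (M * q) E)))
      (integralClosure (Algebra.adjoin O ({alphaHom M q E (u4E M E h4)} : Set (LE (M * q) E)))
        (LE (M * q) E)) :=
    Assembly.chart_finite (E := E) _ hT
  have hinj : Function.Injective (algebraMap O (LE (M * q) E)) := by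
    rw [IsScalarTower.algebraMap_eq O E (LE (M * q) E)]
    exact (algebraMap E (LE (M * q) E)).injective.comp (IsFractionRing.injective O E)
  have hOL : ∀ x : LE (M * q) E, IsIntegral O x → ∃ a : O, algebraMap O (LE (M * q) E) a = x :=
    Assembly.exists_of_isIntegral_of_algClosedIn (algClosedIn_laurent (LE (M * q) E))
  have hnzd : ∀ x : LE (M * q) E,
      IsIntegral (Algebra.adjoin O ({(alphaHom M q E (u4E M E h4))⁻¹} : Set (LE (M * q) E))) x →
      IsIntegral (Algebra.adjoin O ({(alphaHom M q E (u4E M E h4))⁻¹} : Set (LE (M * q) E)))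
        ((alphaHom M q E (u4E M E h4))⁻¹ * x / algebraMap O (LE (M * q) E) π) →
      IsIntegral (Algebra.adjoin O ({(alphaHom M q E (u4E M E h4))⁻¹} : Set (LE (M * q) E)))
        (x / algebraMap O (LE (M * q) E) π) :=
    fun x hx h => Assembly.chart_nzd (E := E) π hπ _ hTinv x hx h
  have hex := Fermat.Agent.S36.Haupt4.Hwu.exits_level M q E (O := O) h2 hq hodd hqM h4
  exact Fermat.Agent.S44.L.CrossingGauss.exists_crossing_gauss π hπ (alphaHom M q E)
    (alphaHom_algebraMap M q E) (sigmaHom (M * q) E) (sigmaHom_algebraMap (M * q) E) hσfrac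
    (u4E M E h4) (u4 O) (hσu_u4 M q E h4) (wHom M q E hq hqM) (wHom_algebraMap M q E hq hqM) q
    (sigmaHom_wHom_alpha M q E hq hqM) (wHom_wHom M q E hq hqM) hcf.prime_zero (hcop_u4 q)
    hord_u4 hq.two_le (hfrob_u4 q hq) hwu (hrank_u4 M q E hq hqM h4) hinj hOL hu hnzd
    hex.2.1.1 hex.2.2.2.2.1

end Generic

/-! ### The arithmetic instance `O = A ∩ K` -/

section Arithmetic

/-- **The crossing point at `u₄` over `O = A ∩ K`**: `A` a valuation ring of `ℚ̄` over the odd
prime `q ∤ M`, `4 ∣ M`, `K` a number field inside the inertia field of `A` containing a primitive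
`M`-th root of unity, `π` any uniformiser of `A ∩ K`. -/
theorem exists_crossing_u4_OE (A : ValuationSubring Qb) (M q : ℕ) [NeZero M] [NeZero q]
    (hq : q.Prime) (hodd : q ≠ 2) (hqM : ¬ q ∣ M) (h4 : 4 ∣ M) (hA : A.LiesOverPrime q)
    (K : IntermediateField ℚ Qb) [FiniteDimensional ℚ K] [IsDiscreteValuationRing (OE A K)]
    (hK : A.inertiaSubgroupIn ℚ ≤ K.fixingSubgroup)
    (z : Qb) (hz : IsPrimitiveRoot z M) (hzK : z ∈ K) (π : OE A K) (hπ : Irreducible π) :
    letI := algebraOL (OE A K) K (LE M K)
    letI := algebraOL (OE A K) K (LE (M * q) K)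
    haveI := isScalarTower_OL (OE A K) K (LE M K)
    haveI := isScalarTower_OL (OE A K) K (LE (M * q) K)
    ∃ y : Ideal (Chart (OE A K) (alphaHom M q K (u4E M K h4))), y.IsMaximal ∧
      RingHom.ker (redInf π hπ (alphaHom M q K) (sigmaHom (M * q) K)
        (sigmaHom_algebraMap (M * q) K) (sigmaHom_mem_fracField (M * q) K A) (u4E M K h4)
        (u4 (OE A K)) (hσu_u4 M q K h4)) ≤ y ∧
      RingHom.ker (redZero π hπ (alphaHom M q K) (sigmaHom (M * q) K)
        (sigmaHom_algebraMap (M * q) K) (sigmaHom_mem_fracField (M * q) K A) (u4E M K h4)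
        (u4 (OE A K)) (hσu_u4 M q K h4) (wHom M q K hq hqM) (wHom_algebraMap M q K hq hqM) q
        (sigmaHom_wHom_alpha M q K hq hqM)) ≤ y := by
  haveI : Fact q.Prime := ⟨hq⟩
  have hex := exists_unit_natCast_eq A K hq hA hK π hπ
  have h2 : IsUnit (2 : OE A K) := isUnit_two_OE A hA hodd K
  have hFG : FinGaussC M (OE A K) K :=
    Fermat.Agent.S36.Haupt4.Fibre.finGaussC_OE A M hqM hA K z hz hzK
  have h := fun (e : OE A K) (he : IsUnit e ∧ ((q : ℕ) : OE A K) = π * e) =>
    exists_crossing_u4 (O := OE A K) M q K hq hodd hqM h4 h2 hFG π hπ e he.1 he.2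
      (sigmaHom_mem_fracField (M * q) K A)
  exact hex.elim h

end Arithmetic

end Fermat.Agent.S44.L.CrossingInst
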