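import Mathlib
import Fermat.Agent.S36.A2.PoleExit

/-!
# S44 (Mazur–Ribet), strand L, link C1: the explicit node of the level `ℓ M` chart

Program C's brick C1 (`S36/ThickGauss`, `S36/ThickUnram`, `S36/A2/PoleExit`) in the form consumed
by strand L: `ℓ` is the residue characteristic of the discrete valuation ring `O`, the base is
unramified (`ℓ = ϖ * unit`), `C = Chart O (α u')` is the chart ring of level `ℓ M`,
`p_∞ = ker redInf`, `p_0 = ker redZero` its two vertical primes (`p_∞ ⊓ p_0 = (ϖ)`),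
`u = α u'`, `v = w u` (`= V_ℓ u`), `t₁ = v - u ^ ℓ ∈ p_∞`, `t₂ = u - v ^ ℓ ∈ p_0`.

Binder block of `S36/A2/PoleExit` VERBATIM.

* `gen_of_der` (level-free): on a curve-like ring with a derivation, an element of `y` whose
  derivative is a unit generates `y` locally (transversality criterion).
* `node_of_pole` : at a crossing point `y` (under the hypotheses of
  `ThickGauss.exists_not_mem_mul_eq`): `t₁ * t₂ = ϖ * g` with `g ∉ y`, `p_∞ = (t₁)` and
  `p_0 = (t₂)` locally at `y`, AND `y = (t₁, t₂)` locally at `y`: the point is regular and the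
  two branches are TRANSVERSAL.
* `node_of_unram_pole` : the same with every hypothesis discharged by the Model-theorem inputs
  (binders of `A2.prinAt_of_unram_pole`).
* `smooth_inf_of_unram`, `smooth_zero_of_unram` : at a closed point of the special fibre on one
  component only, `ϖ` generates that component and `y = (ϖ, z)` locally
  (`RegNB.RegAt (piC (α u') ϖ) y`): "the local ring modulo `ϖ` is a discrete valuation ring".
* `mem_or_mem_of_piC_mem` : every prime containing `ϖ` contains `p_∞` or `p_0`.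
-/

set_option autoImplicit false
set_option linter.unusedSectionVars false
set_option linter.style.haveILetI false

noncomputable section

namespace Fermat.Agent.S44.L.NodeC1

open ModularCurve Polynomial IntermediateField
open Fermat.Agent.S30 Fermat.Agent.S34 Fermat.Agent.S34.TwoPrimesGauss
open Fermat.Agent.S36 Fermat.Agent.S36.PrinAt Fermat.Agent.S30.Model Fermat.Agent.S36.ThickAt

/-! ### The level-free transversality criterion -/

section Core

variable {A E : Type*} [CommRing A] [Field E]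

/-- **Transversality criterion.**  `ι : A → E` with `ker ι ⊆ y`, `θ` a derivation of `E` such that
`d/dh` preserves the local ring at `y` (`DerAt`), `y` locally principal modulo `ker ι`.  An element
`t ∈ y` with `θ (ι t) = θ (ι h)` generates `y` locally modulo `ker ι`. -/
theorem gen_of_der (ι : A →+* E) (θ : E → E) (hθ : IsDer θ)
    (y : Ideal A) [hy : y.IsPrime] (hker : ∀ a b : A, ι a = ι b → a - b ∈ y)
    (hb : A) (h0 : θ (ι hb) ≠ 0) (hder : DerAt ι θ y hb)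
    (hpr : ∃ z ∈ y, ∀ m ∈ y, ∃ s c : A, s ∉ y ∧ ι (s * m) = ι (c * z))
    (t : A) (ht : t ∈ y) (hθt : θ (ι t) = θ (ι hb)) :
    ∀ m ∈ y, ∃ s c : A, s ∉ y ∧ ι (s * m) = ι (c * t) := by
  obtain ⟨z, hz, hgen⟩ := hpr
  obtain ⟨s₀, c₀, hs₀, e₀⟩ := hgen t ht
  have hc₀ : c₀ ∉ y := by
    intro hc
    obtain ⟨sz, gz, hsz, ez⟩ := hder z
    obtain ⟨sc, gc, hsc, ec⟩ := hder c₀
    obtain ⟨ss, gs, hss, es⟩ := hder s₀
    have e1 : θ (ι (s₀ * t)) = θ (ι (c₀ * z)) := by rw [e₀]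
    rw [map_mul, map_mul, hθ.mul, hθ.mul, hθt] at e1
    have e2 : ι (sz * sc * ss * s₀) * θ (ι hb) =
        ι (c₀ * sc * ss * gz + z * sz * ss * gc - t * sz * sc * gs) * θ (ι hb) := by
      simp only [map_mul, map_sub, map_add]
      linear_combination (ι sz * ι sc * ι ss) * e1 - (ι t * ι sz * ι sc) * es
        + (ι c₀ * ι sc * ι ss) * ez + (ι z * ι sz * ι ss) * ec
    have e3 := hker _ _ (mul_right_cancel₀ h0 e2)
    have hmem : sz * sc * ss * s₀ ∈ y := by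
      have hsplit : sz * sc * ss * s₀ = (sz * sc * ss * s₀ -
          (c₀ * sc * ss * gz + z * sz * ss * gc - t * sz * sc * gs)) +
          (c₀ * sc * ss * gz + z * sz * ss * gc - t * sz * sc * gs) := by ring
      rw [hsplit]
      refine y.add_mem e3 ?_
      refine y.sub_mem (y.add_mem ?_ ?_) ?_
      · have : c₀ * sc * ss * gz = c₀ * (sc * ss * gz) := by ring
        rw [this]; exact y.mul_mem_right _ hc
      · have : z * sz * ss * gc = z * (sz * ss * gc) := by ring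
        rw [this]; exact y.mul_mem_right _ hz
      · have : t * sz * sc * gs = t * (sz * sc * gs) := by ring
        rw [this]; exact y.mul_mem_right _ ht
    rcases hy.mem_or_mem hmem with h | h
    · rcases hy.mem_or_mem h with h | h
      · rcases hy.mem_or_mem h with h | h
        · exact hsz h
        · exact hsc h
      · exact hss h
    · exact hs₀ h
  intro m hm
  obtain ⟨s, c, hs, e⟩ := hgen m hm
  refine ⟨c₀ * s, c * s₀, fun h => (hy.mem_or_mem h).elim hc₀ hs, ?_⟩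
  simp only [map_mul] at e e₀ ⊢
  linear_combination (ι c₀) * e - (ι c) * e₀

end Core

/-! ### The chart -/

section Exit

variable {O E : Type*} [CommRing O] [IsDomain O] [IsDiscreteValuationRing O] [Field E]
  [CharZero E] [Algebra O E] [IsFractionRing O E]
  {L' L : Type*} [Field L'] [Field L] [Algebra E L'] [Algebra O L'] [IsScalarTower O E L']
  [Algebra O L] [Algebra E L] [IsScalarTower O E L]
  (ϖ : O) (hϖ : Irreducible ϖ)
  (α : L' →+* L) (hαO : ∀ r : O, α (algebraMap O L' r) = algebraMap O L r)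
  (σ : L →+* LaurentSeries E)
  (hσO : ∀ r : O, σ (algebraMap O L r) = HahnSeries.C (algebraMap O E r))
  (hσfrac : ∀ x : L, σ x ∈ GaussDVR.fracField O E)
  (u' : L') (U : LaurentSeries O) (hσu : σ (α u') = GaussDVR.iota O E U)
  (w : L ≃+* L) (hwO : ∀ r : O, w (algebraMap O L r) = algebraMap O L r)
  (ℓ : ℕ) [NeZero ℓ]
  (hwα : ∀ x : L', σ (w (α x)) = qExpand E ℓ (σ (α x)))
  (hww : ∀ z : L, w (w z) = z)
  (hprime : Prime (piC u' ϖ))
  (hcop : IsCoprime (GaussDVR.rho O U).order (ℓ : ℤ)) (hord : (GaussDVR.rho O U).order ≠ 0)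
  (hℓ : 2 ≤ ℓ)
  (hfrob : qExpand (IsLocalRing.ResidueField O) ℓ (GaussDVR.rho O U) = GaussDVR.rho O U ^ ℓ)
  (hwu : IsIntegral (Algebra.adjoin O {α u'}) (w (α u')))
  (hrank : ∀ v : Option (Fin 1 ⊕ Fin ℓ) → Chart O (α u'),
    ∃ c : Option (Fin 1 ⊕ Fin ℓ) → Chart O u', c ≠ 0 ∧ ∑ i, incl α hαO u' (c i) * v i = 0)

local notation "rI" => redInf ϖ hϖ α σ hσO hσfrac u' U hσu
local notation "rZ" => redZero ϖ hϖ α σ hσO hσfrac u' U hσu w hwO ℓ hwα
local notation "ι" => incl α hαO u'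
local notation "ρU" => GaussDVR.rho O U
local notation "W" => Fermat.Agent.S34.Modular.ChartZero.wChart α u' w hwO hww hwu
local notation "uC" => incl α hαO u' (polyChart u' X)
local notation "vC" =>
  Fermat.Agent.S34.Modular.ChartZero.wChart α u' w hwO hww hwu (incl α hαO u' (polyChart u' X))

include hϖ hαO hσO hσfrac hσu hwO hwα hww hprime hcop hord hℓ hfrob hwu hrank in
/-- Every prime of the chart ring containing `ϖ` contains one of the two vertical primes. -/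
theorem mem_or_mem_of_piC_mem (y : Ideal (Chart O (α u'))) [hy : y.IsPrime]
    (hπy : piC (α u') ϖ ∈ y) : RingHom.ker rI ≤ y ∨ RingHom.ker rZ ≤ y := by
  by_contra hcon
  rw [not_or] at hcon
  obtain ⟨a, haI, hay⟩ := SetLike.not_le_iff_exists.mp hcon.1
  obtain ⟨b, hbZ, hby⟩ := SetLike.not_le_iff_exists.mp hcon.2
  have hab : a * b ∈ RingHom.ker rI ⊓ RingHom.ker rZ :=
    ⟨Ideal.mul_mem_right _ _ haI, Ideal.mul_mem_left _ _ hbZ⟩
  rw [Fermat.Agent.S36.ThickGauss.inf_eq ϖ hϖ α hαO σ hσO hσfrac u' U hσu w hwO ℓ hwα hww hprime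
    hcop hord hℓ hfrob hwu hrank] at hab
  have h1 : a * b ∈ y := (Ideal.span_singleton_le_iff_mem y).mpr hπy hab
  exact (hy.mem_or_mem h1).elim hay hby

include hϖ hαO hσO hσfrac hσu hwO hwα hww hprime hcop hord hℓ hfrob hwu hrank in
/-- **The node at a crossing point** (hypotheses of `ThickGauss.exists_not_mem_mul_eq`):
`t₁ * t₂ = ϖ * g`, `g ∉ y`; `p_∞ = (t₁)`, `p_0 = (t₂)` and `y = (t₁, t₂)` locally at `y`. -/
theorem node_of_pole [hℓp : Fact ℓ.Prime]
    (e : O) (he : IsUnit e) (hℓe : (ℓ : O) = ϖ * e)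
    (y : Ideal (Chart O (α u'))) [hy : y.IsPrime] (hIy : RingHom.ker rI ≤ y)
    (hZy : RingHom.ker rZ ≤ y)
    (hder : DerAt rI QFormalB.theta y uC)
    (hpr : ∃ z ∈ y, ∀ m ∈ y, ∃ s c : Chart O (α u'), s ∉ y ∧ rI (s * m) = rI (c * z))
    (a b : Chart O (α u')) (ha : a ∈ y) (hb : b ∉ y)
    (hab : rI a * QFormalB.theta ρU ^ (ℓ - 1) = rI b) :
    ∃ g : Chart O (α u'), g ∉ y ∧ (vC - uC ^ ℓ) * (uC - vC ^ ℓ) = piC (α u') ϖ * g ∧
      PrinAt y (RingHom.ker rI) (vC - uC ^ ℓ) ∧ PrinAt y (RingHom.ker rZ) (uC - vC ^ ℓ) ∧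
      ∀ m ∈ y, ∃ s, s ∉ y ∧ s * m ∈ Ideal.span {vC - uC ^ ℓ, uC - vC ^ ℓ} := by
  classical
  obtain ⟨g, hg, hmul⟩ := Fermat.Agent.S36.ThickGauss.exists_not_mem_mul_eq ϖ hϖ α hαO σ hσO
    hσfrac u' U hσu w hwO ℓ hwα hww hprime hcop hord hℓ hfrob hwu hrank e he hℓe y hIy hder hpr
    a b ha hb hab
  have hprin := Fermat.Agent.S36.ThickGauss.prin_of_pole ϖ hϖ α hαO σ hσO hσfrac u' U hσu w hwO
    ℓ hwα hww hprime hcop hord hℓ hfrob hwu hrank e he hℓe y hIy hder hpr a b ha hb hab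
  have ht1 : vC - uC ^ ℓ ∈ RingHom.ker rI :=
    Fermat.Agent.S36.ThickGauss.t1_mem ϖ hϖ α hαO σ hσO hσfrac u' U hσu w hwO ℓ hwα hww hfrob hwu
  have ht2 : uC - vC ^ ℓ ∈ RingHom.ker rZ :=
    Fermat.Agent.S36.ThickGauss.t2_mem ϖ hϖ α hαO σ hσO hσfrac u' U hσu w hwO ℓ hwα hww hfrob hwu
  refine ⟨g, hg, hmul, ⟨ht1, hprin.1⟩, ⟨ht2, hprin.2⟩, ?_⟩
  -- transversality
  haveI hκ : CharP (IsLocalRing.ResidueField O) ℓ :=
    Fermat.Agent.S36.DerUnram.charP_residue ϖ hϖ ℓ ⟨e, hℓe⟩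
  haveI hκL : CharP (LaurentSeries (IsLocalRing.ResidueField O)) ℓ :=
    Fermat.Agent.S36.DerUnram.charP_laurent_residue ϖ hϖ ℓ ⟨e, hℓe⟩
  have huI : rI uC = ρU := Fermat.Agent.S36.ThickGauss.redInf_uC ϖ hϖ α hαO σ hσO hσfrac u' U hσu
  have hvI : rI vC = ρU ^ ℓ := by
    rw [Fermat.Agent.S36.ThickGauss.redInf_vC ϖ hϖ α hαO σ hσO hσfrac u' U hσu w hwO ℓ hwα hww
      hwu, hfrob]
  have hθ : IsDer (QFormalB.theta (R := IsLocalRing.ResidueField O)) :=
    Fermat.Agent.S36.ThickGauss.isDer_theta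
  have h0 : QFormalB.theta (rI uC) ≠ 0 := by
    rw [huI]
    exact Fermat.Agent.S36.A2.theta_rho_ne_zero U ℓ hcop hord
  have hker : ∀ c d : Chart O (α u'), rI c = rI d → c - d ∈ y := fun c d hcd =>
    hIy (by rw [RingHom.mem_ker, map_sub, hcd, sub_self])
  have hθt : QFormalB.theta (rI (uC - vC ^ ℓ)) = QFormalB.theta (rI uC) := by
    rw [map_sub, map_pow, hvI, hθ.sub, hθ.pow_char ℓ, sub_zero]
  have hgen := gen_of_der (rI) QFormalB.theta hθ y hker uC h0 hder hpr (uC - vC ^ ℓ)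
    (hZy ht2) hθt
  intro m hm
  obtain ⟨s, c, hs, hsc⟩ := hgen m hm
  have hk : s * m - c * (uC - vC ^ ℓ) ∈ RingHom.ker rI := by
    rw [RingHom.mem_ker, map_sub, hsc, sub_self]
  obtain ⟨s', hs', hmem⟩ := hprin.1 _ hk
  obtain ⟨d, hd⟩ := Ideal.mem_span_singleton'.mp hmem
  refine ⟨s' * s, fun h => (hy.mem_or_mem h).elim hs' hs, ?_⟩
  rw [Ideal.mem_span_pair]
  exact ⟨d, s' * c, by linear_combination hd⟩

include hϖ hαO hσO hσfrac hσu hwO hwα hww hprime hcop hord hℓ hfrob hwu hrank in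
/-- **The node at a crossing point, all inputs discharged** (binders of
`A2.prinAt_of_unram_pole`): at a maximal ideal `y` on both components, lying over a non-branch
point of level `M` (`hnb`), the chart ring is regular with transversal branches `t₁`, `t₂` and
`t₁ * t₂ = ϖ * unit`. -/
theorem node_of_unram_pole [Fact ℓ.Prime] [CharP (IsLocalRing.ResidueField O) ℓ]
    (e : O) (he : IsUnit e) (hℓe : (ℓ : O) = ϖ * e)
    (hu : Transcendental E u') [FiniteDimensional E⟮u'⟯ L']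
    (hi : GaussUnram (E := E) ϖ u') (S : Finset O) (hii : HorizUnram (E := E) S u')
    (hnormal : IsIntegrallyClosed (Chart O u' ⧸ Ideal.span {piC u' ϖ}))
    (hreg : ∀ Q : Ideal (Chart O u'), Q.IsMaximal → piC u' ϖ ∈ Q → RegNB.RegAt (piC u' ϖ) Q)
    [FiniteDimensional E⟮α u'⟯ L] (hHL : HorizUnram (E := E) S (α u')) (h0S : (0 : O) ∈ S)
    (hSfrob : ∀ c ∈ S, ∃ c' ∈ S, IsLocalRing.residue O c' ^ ℓ = IsLocalRing.residue O c)
    (y : Ideal (Chart O (α u'))) (hy : y.IsMaximal) (hI : RingHom.ker rI ≤ y)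
    (hZ : RingHom.ker rZ ≤ y)
    (hnb : ∀ c ∈ S, ∀ m : Chart O u', ι m ∈ y → (m : L') ≠ u' - algebraMap O L' c) :
    ∃ g : Chart O (α u'), g ∉ y ∧ (vC - uC ^ ℓ) * (uC - vC ^ ℓ) = piC (α u') ϖ * g ∧
      PrinAt y (RingHom.ker rI) (vC - uC ^ ℓ) ∧ PrinAt y (RingHom.ker rZ) (uC - vC ^ ℓ) ∧
      ∀ m ∈ y, ∃ s, s ∉ y ∧ s * m ∈ Ideal.span {vC - uC ^ ℓ, uC - vC ^ ℓ} := by
  classical
  haveI hyp : y.IsPrime := hy.isPrime
  haveI := hy
  have hM : (y.comap ι).IsMaximal :=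
    Ideal.isMaximal_comap_of_isIntegral_of_isMaximal' ι
      (Fermat.Agent.S36.ThickUnram.incl_isIntegral α hαO u') y
  have hπI : piC (α u') ϖ ∈ RingHom.ker rI := redHom_piC σ hσO ϖ hϖ hσfrac (α u') U hσu
  have hπy : piC (α u') ϖ ∈ y := hI hπI
  have hπM : piC u' ϖ ∈ y.comap ι := by
    rw [Ideal.mem_comap, incl_piC]
    exact hπy
  obtain ⟨a, b, haZ, hb, hab⟩ := Fermat.Agent.S36.A2.hpole_of_hnb ϖ hϖ α hαO σ hσO hσfrac u' U hσu
    w hwO ℓ hwα hww hprime hcop hord hℓ hfrob hwu hrank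
    (Fermat.Agent.S36.A2.transcendental_alpha α hαO u' hu) S hHL h0S hSfrob y hy.isPrime hI hnb
  have honto : ∀ c : Chart O (α u'), ∃ a : Chart O u', rI (c - ι a) = 0 :=
    exists_redInf_sub_eq_zero ϖ hϖ α hαO σ hσO hσfrac u' U hσu w hwO ℓ hwα hww hprime hcop hord
      hℓ hfrob hwu hrank hnormal
  have hder : DerAt rI QFormalB.theta y uC :=
    Fermat.Agent.S36.DerUnram.derAt_redInf_unram ϖ hϖ α hαO σ hσO hσfrac u' U hσu hu hi S hii y
      hM hπy hnb ℓ ⟨e, hℓe⟩ QFormalB.theta Fermat.Agent.S36.ThickGauss.isDer_theta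
      QFormalB.theta_C honto
  obtain ⟨z, hz, hgen⟩ := hreg (y.comap ι) hM hπM
  have hpr : ∃ z' ∈ y, ∀ m ∈ y, ∃ s c : Chart O (α u'), s ∉ y ∧ rI (s * m) = rI (c * z') :=
    Fermat.Agent.S36.ThickGauss.princ_mod_ker_of_gen ϖ hϖ α hαO σ hσO hσfrac u' U hσu y hI honto
      z (Ideal.mem_comap.mp hz)
      (fun m hm => by
        obtain ⟨s, hs, h⟩ := hgen m (Ideal.mem_comap.mpr hm)
        exact ⟨s, fun h' => hs (Ideal.mem_comap.mpr h'), h⟩)
  exact node_of_pole ϖ hϖ α hαO σ hσO hσfrac u' U hσu w hwO ℓ hwα hww hprime hcop hord hℓ hfrob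
    hwu hrank e he hℓe y hI hZ hder hpr a b (hZ haZ) hb (by rw [mul_comm]; exact hab)

include hϖ hαO hσO hσfrac hσu hwO hwα hww hprime hcop hord hℓ hfrob hwu hrank in
/-- **Smooth points of the `∞`-component.**  At a maximal ideal `y ⊇ p_∞` off the `0`-component:
`p_∞ = (ϖ)` and `y = (ϖ, z)` locally at `y`. -/
theorem smooth_inf_of_unram
    (hnormal : IsIntegrallyClosed (Chart O u' ⧸ Ideal.span {piC u' ϖ}))
    (hreg : ∀ Q : Ideal (Chart O u'), Q.IsMaximal → piC u' ϖ ∈ Q → RegNB.RegAt (piC u' ϖ) Q)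
    (y : Ideal (Chart O (α u'))) (hy : y.IsMaximal) (hI : RingHom.ker rI ≤ y)
    (hZ : ¬ RingHom.ker rZ ≤ y) :
    PrinAt y (RingHom.ker rI) (piC (α u') ϖ) ∧ RegNB.RegAt (piC (α u') ϖ) y := by
  classical
  haveI hyp : y.IsPrime := hy.isPrime
  haveI := hy
  have hM : (y.comap ι).IsMaximal :=
    Ideal.isMaximal_comap_of_isIntegral_of_isMaximal' ι
      (Fermat.Agent.S36.ThickUnram.incl_isIntegral α hαO u') y
  have hπI : piC (α u') ϖ ∈ RingHom.ker rI := redHom_piC σ hσO ϖ hϖ hσfrac (α u') U hσu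
  have hπM : piC u' ϖ ∈ y.comap ι := by
    rw [Ideal.mem_comap, incl_piC]
    exact hI hπI
  have honto : ∀ c : Chart O (α u'), ∃ a : Chart O u', rI (c - ι a) = 0 :=
    exists_redInf_sub_eq_zero ϖ hϖ α hαO σ hσO hσfrac u' U hσu w hwO ℓ hwα hww hprime hcop hord
      hℓ hfrob hwu hrank hnormal
  have hprin := Fermat.Agent.S36.ThickGauss.prin_inf_of_not_le ϖ hϖ α hαO σ hσO hσfrac u' U hσu
    w hwO ℓ hwα hww hprime hcop hord hℓ hfrob hwu hrank y hZ
  obtain ⟨z, hz, hgen⟩ := hreg (y.comap ι) hM hπM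
  obtain ⟨z', hz', hgen'⟩ :=
    Fermat.Agent.S36.ThickGauss.princ_mod_ker_of_gen ϖ hϖ α hαO σ hσO hσfrac u' U hσu y hI honto
      z (Ideal.mem_comap.mp hz)
      (fun m hm => by
        obtain ⟨s, hs, h⟩ := hgen m (Ideal.mem_comap.mpr hm)
        exact ⟨s, fun h' => hs (Ideal.mem_comap.mpr h'), h⟩)
  refine ⟨⟨hπI, hprin⟩, z', hz', fun m hm => ?_⟩
  obtain ⟨s, c, hs, hsc⟩ := hgen' m hm
  have hk : s * m - c * z' ∈ RingHom.ker rI := by
    rw [RingHom.mem_ker, map_sub, hsc, sub_self]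
  obtain ⟨s', hs', hmem⟩ := hprin _ hk
  obtain ⟨d, hd⟩ := Ideal.mem_span_singleton'.mp hmem
  refine ⟨s' * s, fun h => (hyp.mem_or_mem h).elim hs' hs, ?_⟩
  rw [Ideal.mem_span_pair]
  exact ⟨d, s' * c, by linear_combination hd⟩

include hϖ hαO hσO hσfrac hσu hwO hwα hww hprime hcop hord hℓ hfrob hwu hrank in
/-- **Smooth points of the `0`-component.**  At a maximal ideal `y ⊇ p_0` off the `∞`-component:
`p_0 = (ϖ)` and `y = (ϖ, z)` locally at `y` (through the Atkin–Lehner automorphism of the chart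
ring). -/
theorem smooth_zero_of_unram
    (hnormal : IsIntegrallyClosed (Chart O u' ⧸ Ideal.span {piC u' ϖ}))
    (hreg : ∀ Q : Ideal (Chart O u'), Q.IsMaximal → piC u' ϖ ∈ Q → RegNB.RegAt (piC u' ϖ) Q)
    (y : Ideal (Chart O (α u'))) (hy : y.IsMaximal) (hZ : RingHom.ker rZ ≤ y)
    (hI : ¬ RingHom.ker rI ≤ y) :
    PrinAt y (RingHom.ker rZ) (piC (α u') ϖ) ∧ RegNB.RegAt (piC (α u') ϖ) y := by
  classical
  haveI := hy
  have hπZ : piC (α u') ϖ ∈ RingHom.ker rZ :=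
    redHom_piC (σ.comp (w : L →+* L)) (sigmaW_O σ hσO w hwO) ϖ hϖ (fun x => hσfrac (w x))
      (α u') (qExpand O ℓ U) (sigmaW_u α σ u' U hσu w ℓ hwα)
  have hprin := Fermat.Agent.S36.ThickGauss.prin_zero_of_not_le ϖ hϖ α hαO σ hσO hσfrac u' U hσu
    w hwO ℓ hwα hww hprime hcop hord hℓ hfrob hwu hrank y hI
  refine ⟨⟨hπZ, hprin⟩, ?_⟩
  -- transport along `W`
  set y' : Ideal (Chart O (α u')) := y.comap (W : Chart O (α u') →+* Chart O (α u')) with hy'
  have hWW : ∀ c : Chart O (α u'), W (W c) = c :=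
    Fermat.Agent.S34.Modular.ChartZero.wChart_wChart α u' w hwO hww hwu
  have hmem' : ∀ c : Chart O (α u'), c ∈ y' ↔ W c ∈ y := fun c => Iff.rfl
  have hy'max : y'.IsMaximal :=
    Ideal.comap_isMaximal_of_surjective (W : Chart O (α u') →+* Chart O (α u'))
      (W).surjective
  have hI' : RingHom.ker rI ≤ y' := by
    intro c hc
    rw [hmem']
    exact hZ ((Fermat.Agent.S34.Modular.ChartZero.wChart_mem_ker_redZero ϖ hϖ α σ hσO hσfrac u' U
      hσu w hwO ℓ hwα hww hwu c).mpr hc)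
  have hZ' : ¬ RingHom.ker rZ ≤ y' := by
    intro hle
    apply hI
    intro c hc
    have h1 : W c ∈ RingHom.ker rZ :=
      (Fermat.Agent.S34.Modular.ChartZero.wChart_mem_ker_redZero ϖ hϖ α σ hσO hσfrac u' U
        hσu w hwO ℓ hwα hww hwu c).mpr hc
    have h2 : W (W c) ∈ y := (hmem' (W c)).mp (hle h1)
    rwa [hWW] at h2
  obtain ⟨-, z', hz', hgen'⟩ := smooth_inf_of_unram ϖ hϖ α hαO σ hσO hσfrac u' U hσu w hwO ℓ hwα
    hww hprime hcop hord hℓ hfrob hwu hrank hnormal hreg y' hy'max hI' hZ'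
  have hWπ : W (piC (α u') ϖ) = piC (α u') ϖ :=
    Subtype.ext (by
      rw [Fermat.Agent.S34.Modular.ChartZero.coe_wChart, coe_piC]
      exact hwO ϖ)
  refine ⟨W z', (hmem' z').mp hz', fun m hm => ?_⟩
  have hm' : W m ∈ y' := by
    rw [hmem', hWW]
    exact hm
  obtain ⟨s, hs, hspan⟩ := hgen' (W m) hm'
  obtain ⟨c, d, hcd⟩ := Ideal.mem_span_pair.mp hspan
  refine ⟨W s, fun h => hs ((hmem' s).mpr h), ?_⟩
  rw [Ideal.mem_span_pair]
  refine ⟨W c, W d, ?_⟩
  have h3 := congrArg (W) hcd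
  rw [map_add, map_mul, map_mul, map_mul, hWW, hWπ] at h3
  exact h3

end Exit

end Fermat.Agent.S44.L.NodeC1
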