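import Mathlib
import Fermat.Agent.S44.L.NodeC1
import Fermat.Agent.S36.C1Inst
import Fermat.Agent.S36.SqChart.Coord4

/-!
# S44 (Mazur–Ribet), strand L, link C1: the points over `u₄ = ∞` (chart at infinity), and the
smooth points over an arbitrary (possibly ramified) base

`S44/L/NodeC1Inst` describes the closed points of `Chart O (α u₄)`: the cusps over `u₄ = 0, -16`
are there, the points over `u₄ = ∞` are NOT.  This file applies the coordinate-generic theorems of
`S44/L/NodeC1` (`smooth_inf_of_unram`, `smooth_zero_of_unram`, `mem_or_mem_of_piC_mem`) and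
`S36/ThickCusp.not_mem_of_crossing_of_isIntegral` at the coordinate `s = u₄⁻¹` of level `M`
(`q`-expansion `posO O s4Z`, `S36/SqChart/Coord4`), levels `(M, M q)`, `4 ∣ M`, `q` an odd prime,
`q ∤ M`, `O` a discrete valuation ring of residue characteristic `q` with fraction field `E ⊆ ℚ̄`,
`2 ∈ Oˣ`.  NO unramifiedness hypothesis: the base may be ramified.

`C∞ = Chart O (α s)`, `p_∞ = ker redInf`, `p_0 = ker redZero`, `x = incl (polyChart s X)` the
coordinate `u₄⁻¹` as an element of `C∞`, `ϖ = piC (α s) π`.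

* `smooth_inf_s4`, `smooth_zero_s4` : at a maximal `y` of `C∞` on exactly one component, that
  component is `(ϖ)` and `y = (ϖ, z)` locally at `y`.
* `no_crossing_s4` : a prime containing `p_∞` and `p_0` does not contain `x`
  (no crossing point over `u₄ = ∞`).
* `mem_or_mem_s4` : every prime containing `ϖ` contains `p_∞` or `p_0`.
* `cusp_s4` : **the points over `u₄ = ∞`**: a maximal `y ∋ ϖ, x` lies on exactly one component,
  which is `(ϖ)` locally at `y`, and `y = (ϖ, z)` locally at `y`.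
* `smooth_inf_u4_gen`, `smooth_zero_u4_gen`, `mem_or_mem_u4_gen` : the statements of
  `NodeC1Inst.smooth_inf_u4` / `smooth_zero_u4` / `mem_or_mem_u4` on `Chart O (α u₄)` WITHOUT the
  unramifiedness binders `(e he hqe)` (only `CharP (ResidueField O) q` is used).

`O = OE A K` (`K` ANY number field containing a primitive `M`-th root of unity, `A ∩ K` a
discrete valuation ring): the `_OE` forms.
-/

set_option autoImplicit false
set_option linter.unusedSectionVars false
set_option linter.unusedVariables false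
set_option linter.style.haveILetI false
set_option synthInstance.maxHeartbeats 400000
set_option maxHeartbeats 1000000

open ModularCurve Polynomial IntermediateField

noncomputable section

namespace Fermat.Agent.S44.L.NodeC1InstInf

open Fermat.Agent.S30 Fermat.Agent.S34 Fermat.Agent.S34.TwoPrimesGauss
open Fermat.Agent.S36.PrinAt Fermat.Agent.S30.Model
open Fermat.Agent.S18.K1Defs Fermat.Agent.S18.K1Main
open Fermat.Agent.S34.TwoPrimesRank Fermat.Agent.S34.HauptU.Plug
open Fermat.Agent.S34.HauptU.LevelMAux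
open Fermat.Agent.S36.Haupt4 Fermat.Agent.S36.LevelQInstAlt

local notation "Qb" => AlgebraicClosure ℚ

/-! ### Generic base -/

section Generic

variable (M q : ℕ) [NeZero M] [NeZero q] (E : IntermediateField ℚ Qb)
  {O : Type} [CommRing O] [IsDomain O] [IsDiscreteValuationRing O]
  [Algebra O E] [IsFractionRing O E]

/-- Every prime of the level-`q` chart ring at `u₄⁻¹` containing `π` contains `p_∞` or `p_0`. -/
theorem mem_or_mem_s4 (hq : q.Prime) (hodd : q ≠ 2) (hqM : ¬ q ∣ M) (h4 : 4 ∣ M)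
    (h2 : IsUnit (2 : O)) (hFG : FinGaussC M O E) (π : O) (hπ : Irreducible π)
    (hchar : CharP (IsLocalRing.ResidueField O) q)
    (hσfrac : ∀ x : LE (M * q) E, sigmaHom (M * q) E x ∈ GaussDVR.fracField O E) :
    letI := algebraOL O E (LE M E)
    letI := algebraOL O E (LE (M * q) E)
    haveI := isScalarTower_OL O E (LE M E)
    haveI := isScalarTower_OL O E (LE (M * q) E)
    ∀ y : Ideal (Chart O (alphaHom M q E (u4E M E h4)⁻¹)), y.IsPrime →
      (piC (alphaHom M q E (u4E M E h4)⁻¹) π) ∈ y →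
      RingHom.ker (redInf π hπ (alphaHom M q E) (sigmaHom (M * q) E)
        (sigmaHom_algebraMap (M * q) E) hσfrac (u4E M E h4)⁻¹
        (HauptU.E.posO O Fermat.Agent.S36.SqChart.Coord4.s4Z) (Fermat.Agent.S36.SqChart.Coord4.hσ1u_s4 M E q h4)) ≤ y ∨
      RingHom.ker (redZero π hπ (alphaHom M q E) (sigmaHom (M * q) E)
        (sigmaHom_algebraMap (M * q) E) hσfrac (u4E M E h4)⁻¹
        (HauptU.E.posO O Fermat.Agent.S36.SqChart.Coord4.s4Z) (Fermat.Agent.S36.SqChart.Coord4.hσ1u_s4 M E q h4)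
        (wHom M q E hq hqM) (wHom_algebraMap M q E hq hqM) q
        (sigmaHom_wHom_alpha M q E hq hqM)) ≤ y := by
  classical
  letI := algebraOL O E (LE M E)
  letI := algebraOL O E (LE (M * q) E)
  haveI := isScalarTower_OL O E (LE M E)
  haveI := isScalarTower_OL O E (LE (M * q) E)
  have hfg := u4_fin_gauss M E h4 hFG
  have hfin : FiniteDimensional (IntermediateField.adjoin E {u4E M E h4}) (LE M E) := hfg.1
  haveI := hfin
  haveI hfin' : FiniteDimensional (IntermediateField.adjoin E {(u4E M E h4)⁻¹}) (LE M E) :=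
    Fermat.Agent.S36.SqChart.Coord4.finite_u4E_inv M E h4
  have hcf := Fermat.Agent.S36.Haupt4.Fibre.chartFacts_u4 M E h4 h2 hFG π hπ
  have hwu := Fermat.Agent.S36.Haupt4.Hwu.hwu_u4E_inv M q E (O := O) h2 hq hodd hqM h4
  haveI : Fact q.Prime := ⟨hq⟩
  haveI := hchar
  intro y hy hπy
  haveI := hy
  exact Fermat.Agent.S44.L.NodeC1.mem_or_mem_of_piC_mem π hπ (alphaHom M q E) (alphaHom_algebraMap M q E)
    (sigmaHom (M * q) E) (sigmaHom_algebraMap (M * q) E) hσfrac (u4E M E h4)⁻¹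
    (HauptU.E.posO O Fermat.Agent.S36.SqChart.Coord4.s4Z) (Fermat.Agent.S36.SqChart.Coord4.hσ1u_s4 M E q h4)
    (wHom M q E hq hqM) (wHom_algebraMap M q E hq hqM) q
    (sigmaHom_wHom_alpha M q E hq hqM) (wHom_wHom M q E hq hqM) hcf.prime_inf
    (Fermat.Agent.S36.SqChart.Coord4.hcop_s4 q) Fermat.Agent.S36.SqChart.Coord4.hord_s4 hq.two_le
    (Fermat.Agent.S36.SqChart.Coord4.qExpand_rho_s4 q hq) hwu
    (fun v => hrank_modular_of_finite M q E hq hqM _ v) y hπy

/-- **Smooth points of the `∞`-component at `u₄⁻¹`**: at a maximal `y ⊇ p_∞` off `p_0`,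
`p_∞ = (π)` and `y = (π, z)` locally at `y`. -/
theorem smooth_inf_s4 (hq : q.Prime) (hodd : q ≠ 2) (hqM : ¬ q ∣ M) (h4 : 4 ∣ M)
    (h2 : IsUnit (2 : O)) (hFG : FinGaussC M O E) (π : O) (hπ : Irreducible π)
    (hchar : CharP (IsLocalRing.ResidueField O) q)
    (hσfrac : ∀ x : LE (M * q) E, sigmaHom (M * q) E x ∈ GaussDVR.fracField O E) :
    letI := algebraOL O E (LE M E)
    letI := algebraOL O E (LE (M * q) E)
    haveI := isScalarTower_OL O E (LE M E)
    haveI := isScalarTower_OL O E (LE (M * q) E)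
    ∀ y : Ideal (Chart O (alphaHom M q E (u4E M E h4)⁻¹)), y.IsMaximal →
      RingHom.ker (redInf π hπ (alphaHom M q E) (sigmaHom (M * q) E)
        (sigmaHom_algebraMap (M * q) E) hσfrac (u4E M E h4)⁻¹
        (HauptU.E.posO O Fermat.Agent.S36.SqChart.Coord4.s4Z) (Fermat.Agent.S36.SqChart.Coord4.hσ1u_s4 M E q h4)) ≤ y →
      ¬ RingHom.ker (redZero π hπ (alphaHom M q E) (sigmaHom (M * q) E)
        (sigmaHom_algebraMap (M * q) E) hσfrac (u4E M E h4)⁻¹
        (HauptU.E.posO O Fermat.Agent.S36.SqChart.Coord4.s4Z) (Fermat.Agent.S36.SqChart.Coord4.hσ1u_s4 M E q h4)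
        (wHom M q E hq hqM) (wHom_algebraMap M q E hq hqM) q
        (sigmaHom_wHom_alpha M q E hq hqM)) ≤ y →
      PrinAt y (RingHom.ker (redInf π hπ (alphaHom M q E) (sigmaHom (M * q) E)
        (sigmaHom_algebraMap (M * q) E) hσfrac (u4E M E h4)⁻¹
        (HauptU.E.posO O Fermat.Agent.S36.SqChart.Coord4.s4Z) (Fermat.Agent.S36.SqChart.Coord4.hσ1u_s4 M E q h4)))
        (piC (alphaHom M q E (u4E M E h4)⁻¹) π) ∧
      RegNB.RegAt (piC (alphaHom M q E (u4E M E h4)⁻¹) π) y := by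
  classical
  letI := algebraOL O E (LE M E)
  letI := algebraOL O E (LE (M * q) E)
  haveI := isScalarTower_OL O E (LE M E)
  haveI := isScalarTower_OL O E (LE (M * q) E)
  have hfg := u4_fin_gauss M E h4 hFG
  have hfin : FiniteDimensional (IntermediateField.adjoin E {u4E M E h4}) (LE M E) := hfg.1
  haveI := hfin
  haveI hfin' : FiniteDimensional (IntermediateField.adjoin E {(u4E M E h4)⁻¹}) (LE M E) :=
    Fermat.Agent.S36.SqChart.Coord4.finite_u4E_inv M E h4
  have hcf := Fermat.Agent.S36.Haupt4.Fibre.chartFacts_u4 M E h4 h2 hFG π hπ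
  have hwu := Fermat.Agent.S36.Haupt4.Hwu.hwu_u4E_inv M q E (O := O) h2 hq hodd hqM h4
  haveI : Fact q.Prime := ⟨hq⟩
  haveI := hchar
  intro y hy hI hZ
  exact Fermat.Agent.S44.L.NodeC1.smooth_inf_of_unram π hπ (alphaHom M q E) (alphaHom_algebraMap M q E)
    (sigmaHom (M * q) E) (sigmaHom_algebraMap (M * q) E) hσfrac (u4E M E h4)⁻¹
    (HauptU.E.posO O Fermat.Agent.S36.SqChart.Coord4.s4Z) (Fermat.Agent.S36.SqChart.Coord4.hσ1u_s4 M E q h4)
    (wHom M q E hq hqM) (wHom_algebraMap M q E hq hqM) q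
    (sigmaHom_wHom_alpha M q E hq hqM) (wHom_wHom M q E hq hqM) hcf.prime_inf
    (Fermat.Agent.S36.SqChart.Coord4.hcop_s4 q) Fermat.Agent.S36.SqChart.Coord4.hord_s4 hq.two_le
    (Fermat.Agent.S36.SqChart.Coord4.qExpand_rho_s4 q hq) hwu
    (fun v => hrank_modular_of_finite M q E hq hqM _ v)
    hcf.normal_inf hcf.regAt_inf y hy hI hZ

/-- **Smooth points of the `0`-component at `u₄⁻¹`**: at a maximal `y ⊇ p_0` off `p_∞`,
`p_0 = (π)` and `y = (π, z)` locally at `y`. -/
theorem smooth_zero_s4 (hq : q.Prime) (hodd : q ≠ 2) (hqM : ¬ q ∣ M) (h4 : 4 ∣ M)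
    (h2 : IsUnit (2 : O)) (hFG : FinGaussC M O E) (π : O) (hπ : Irreducible π)
    (hchar : CharP (IsLocalRing.ResidueField O) q)
    (hσfrac : ∀ x : LE (M * q) E, sigmaHom (M * q) E x ∈ GaussDVR.fracField O E) :
    letI := algebraOL O E (LE M E)
    letI := algebraOL O E (LE (M * q) E)
    haveI := isScalarTower_OL O E (LE M E)
    haveI := isScalarTower_OL O E (LE (M * q) E)
    ∀ y : Ideal (Chart O (alphaHom M q E (u4E M E h4)⁻¹)), y.IsMaximal →
      RingHom.ker (redZero π hπ (alphaHom M q E) (sigmaHom (M * q) E)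
        (sigmaHom_algebraMap (M * q) E) hσfrac (u4E M E h4)⁻¹
        (HauptU.E.posO O Fermat.Agent.S36.SqChart.Coord4.s4Z) (Fermat.Agent.S36.SqChart.Coord4.hσ1u_s4 M E q h4)
        (wHom M q E hq hqM) (wHom_algebraMap M q E hq hqM) q
        (sigmaHom_wHom_alpha M q E hq hqM)) ≤ y →
      ¬ RingHom.ker (redInf π hπ (alphaHom M q E) (sigmaHom (M * q) E)
        (sigmaHom_algebraMap (M * q) E) hσfrac (u4E M E h4)⁻¹
        (HauptU.E.posO O Fermat.Agent.S36.SqChart.Coord4.s4Z) (Fermat.Agent.S36.SqChart.Coord4.hσ1u_s4 M E q h4)) ≤ y →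
      PrinAt y (RingHom.ker (redZero π hπ (alphaHom M q E) (sigmaHom (M * q) E)
        (sigmaHom_algebraMap (M * q) E) hσfrac (u4E M E h4)⁻¹
        (HauptU.E.posO O Fermat.Agent.S36.SqChart.Coord4.s4Z) (Fermat.Agent.S36.SqChart.Coord4.hσ1u_s4 M E q h4)
        (wHom M q E hq hqM) (wHom_algebraMap M q E hq hqM) q
        (sigmaHom_wHom_alpha M q E hq hqM)))
        (piC (alphaHom M q E (u4E M E h4)⁻¹) π) ∧
      RegNB.RegAt (piC (alphaHom M q E (u4E M E h4)⁻¹) π) y := by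
  classical
  letI := algebraOL O E (LE M E)
  letI := algebraOL O E (LE (M * q) E)
  haveI := isScalarTower_OL O E (LE M E)
  haveI := isScalarTower_OL O E (LE (M * q) E)
  have hfg := u4_fin_gauss M E h4 hFG
  have hfin : FiniteDimensional (IntermediateField.adjoin E {u4E M E h4}) (LE M E) := hfg.1
  haveI := hfin
  haveI hfin' : FiniteDimensional (IntermediateField.adjoin E {(u4E M E h4)⁻¹}) (LE M E) :=
    Fermat.Agent.S36.SqChart.Coord4.finite_u4E_inv M E h4
  have hcf := Fermat.Agent.S36.Haupt4.Fibre.chartFacts_u4 M E h4 h2 hFG π hπ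
  have hwu := Fermat.Agent.S36.Haupt4.Hwu.hwu_u4E_inv M q E (O := O) h2 hq hodd hqM h4
  haveI : Fact q.Prime := ⟨hq⟩
  haveI := hchar
  intro y hy hZ hI
  exact Fermat.Agent.S44.L.NodeC1.smooth_zero_of_unram π hπ (alphaHom M q E) (alphaHom_algebraMap M q E)
    (sigmaHom (M * q) E) (sigmaHom_algebraMap (M * q) E) hσfrac (u4E M E h4)⁻¹
    (HauptU.E.posO O Fermat.Agent.S36.SqChart.Coord4.s4Z) (Fermat.Agent.S36.SqChart.Coord4.hσ1u_s4 M E q h4)
    (wHom M q E hq hqM) (wHom_algebraMap M q E hq hqM) q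
    (sigmaHom_wHom_alpha M q E hq hqM) (wHom_wHom M q E hq hqM) hcf.prime_inf
    (Fermat.Agent.S36.SqChart.Coord4.hcop_s4 q) Fermat.Agent.S36.SqChart.Coord4.hord_s4 hq.two_le
    (Fermat.Agent.S36.SqChart.Coord4.qExpand_rho_s4 q hq) hwu
    (fun v => hrank_modular_of_finite M q E hq hqM _ v)
    hcf.normal_inf hcf.regAt_inf y hy hZ hI

/-- **No crossing point over `u₄ = ∞`**: a prime of the chart ring at `u₄⁻¹` on both components
does not contain the coordinate `u₄⁻¹`. -/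
theorem no_crossing_s4 (hq : q.Prime) (hodd : q ≠ 2) (hqM : ¬ q ∣ M) (h4 : 4 ∣ M)
    (h2 : IsUnit (2 : O)) (hFG : FinGaussC M O E) (π : O) (hπ : Irreducible π)
    (hchar : CharP (IsLocalRing.ResidueField O) q)
    (hσfrac : ∀ x : LE (M * q) E, sigmaHom (M * q) E x ∈ GaussDVR.fracField O E) :
    letI := algebraOL O E (LE M E)
    letI := algebraOL O E (LE (M * q) E)
    haveI := isScalarTower_OL O E (LE M E)
    haveI := isScalarTower_OL O E (LE (M * q) E)
    ∀ y : Ideal (Chart O (alphaHom M q E (u4E M E h4)⁻¹)), y.IsPrime →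
      RingHom.ker (redInf π hπ (alphaHom M q E) (sigmaHom (M * q) E)
        (sigmaHom_algebraMap (M * q) E) hσfrac (u4E M E h4)⁻¹
        (HauptU.E.posO O Fermat.Agent.S36.SqChart.Coord4.s4Z) (Fermat.Agent.S36.SqChart.Coord4.hσ1u_s4 M E q h4)) ≤ y →
      RingHom.ker (redZero π hπ (alphaHom M q E) (sigmaHom (M * q) E)
        (sigmaHom_algebraMap (M * q) E) hσfrac (u4E M E h4)⁻¹
        (HauptU.E.posO O Fermat.Agent.S36.SqChart.Coord4.s4Z) (Fermat.Agent.S36.SqChart.Coord4.hσ1u_s4 M E q h4)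
        (wHom M q E hq hqM) (wHom_algebraMap M q E hq hqM) q
        (sigmaHom_wHom_alpha M q E hq hqM)) ≤ y →
      (incl (alphaHom M q E) (alphaHom_algebraMap M q E) (u4E M E h4)⁻¹
        (polyChart (u4E M E h4)⁻¹ X)) ∉ y := by
  classical
  letI := algebraOL O E (LE M E)
  letI := algebraOL O E (LE (M * q) E)
  haveI := isScalarTower_OL O E (LE M E)
  haveI := isScalarTower_OL O E (LE (M * q) E)
  have hfg := u4_fin_gauss M E h4 hFG
  have hfin : FiniteDimensional (IntermediateField.adjoin E {u4E M E h4}) (LE M E) := hfg.1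
  haveI := hfin
  haveI hfin' : FiniteDimensional (IntermediateField.adjoin E {(u4E M E h4)⁻¹}) (LE M E) :=
    Fermat.Agent.S36.SqChart.Coord4.finite_u4E_inv M E h4
  have hcf := Fermat.Agent.S36.Haupt4.Fibre.chartFacts_u4 M E h4 h2 hFG π hπ
  have hwu := Fermat.Agent.S36.Haupt4.Hwu.hwu_u4E_inv M q E (O := O) h2 hq hodd hqM h4
  haveI : Fact q.Prime := ⟨hq⟩
  haveI := hchar
  intro y hy hI hZ
  haveI := hy
  have hint0 : IsIntegral (Algebra.adjoin O {alphaHom M q E (u4E M E h4)⁻¹})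
      (alphaHom M q E (u4E M E h4)⁻¹ ^ q /
        wHom M q E hq hqM (alphaHom M q E (u4E M E h4)⁻¹)) := by
    have h := (Fermat.Agent.S36.Haupt4.Hwu.exits_level M q E (O := O) h2 hq hodd hqM h4).2.2.2.2.1
    rw [map_inv₀, map_inv₀]
    exact h
  exact (Fermat.Agent.S36.ThickCusp.noncusp_of_isIntegral π hπ (alphaHom M q E)
    (alphaHom_algebraMap M q E) (sigmaHom (M * q) E) (sigmaHom_algebraMap (M * q) E) hσfrac
    (u4E M E h4)⁻¹ (HauptU.E.posO O Fermat.Agent.S36.SqChart.Coord4.s4Z) (Fermat.Agent.S36.SqChart.Coord4.hσ1u_s4 M E q h4)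
    (wHom M q E hq hqM) (wHom_algebraMap M q E hq hqM) q
    (sigmaHom_wHom_alpha M q E hq hqM) (wHom_wHom M q E hq hqM) Fermat.Agent.S36.SqChart.Coord4.hord_s4 hq.two_le
    (Fermat.Agent.S36.SqChart.Coord4.qExpand_rho_s4 q hq) hwu ∅ (fun c hc => absurd hc (Finset.notMem_empty c))
    hint0 (fun c hc => absurd hc (Finset.notMem_empty c)) y hI hZ).1

/-- **The points over `u₄ = ∞`**: a maximal ideal `y` of the chart ring at `u₄⁻¹` containing `π`
and the coordinate `u₄⁻¹` lies on exactly one component; that component is `(π)` locally at `y`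
and `y = (π, z)` locally at `y`. -/
theorem cusp_s4 (hq : q.Prime) (hodd : q ≠ 2) (hqM : ¬ q ∣ M) (h4 : 4 ∣ M)
    (h2 : IsUnit (2 : O)) (hFG : FinGaussC M O E) (π : O) (hπ : Irreducible π)
    (hchar : CharP (IsLocalRing.ResidueField O) q)
    (hσfrac : ∀ x : LE (M * q) E, sigmaHom (M * q) E x ∈ GaussDVR.fracField O E) :
    letI := algebraOL O E (LE M E)
    letI := algebraOL O E (LE (M * q) E)
    haveI := isScalarTower_OL O E (LE M E)
    haveI := isScalarTower_OL O E (LE (M * q) E)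
    ∀ y : Ideal (Chart O (alphaHom M q E (u4E M E h4)⁻¹)), y.IsMaximal →
      (piC (alphaHom M q E (u4E M E h4)⁻¹) π) ∈ y →
      (incl (alphaHom M q E) (alphaHom_algebraMap M q E) (u4E M E h4)⁻¹
        (polyChart (u4E M E h4)⁻¹ X)) ∈ y →
      (RingHom.ker (redInf π hπ (alphaHom M q E) (sigmaHom (M * q) E)
        (sigmaHom_algebraMap (M * q) E) hσfrac (u4E M E h4)⁻¹
        (HauptU.E.posO O Fermat.Agent.S36.SqChart.Coord4.s4Z) (Fermat.Agent.S36.SqChart.Coord4.hσ1u_s4 M E q h4)) ≤ y ∧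
        ¬ RingHom.ker (redZero π hπ (alphaHom M q E) (sigmaHom (M * q) E)
        (sigmaHom_algebraMap (M * q) E) hσfrac (u4E M E h4)⁻¹
        (HauptU.E.posO O Fermat.Agent.S36.SqChart.Coord4.s4Z) (Fermat.Agent.S36.SqChart.Coord4.hσ1u_s4 M E q h4)
        (wHom M q E hq hqM) (wHom_algebraMap M q E hq hqM) q
        (sigmaHom_wHom_alpha M q E hq hqM)) ≤ y ∧
        PrinAt y (RingHom.ker (redInf π hπ (alphaHom M q E) (sigmaHom (M * q) E)
        (sigmaHom_algebraMap (M * q) E) hσfrac (u4E M E h4)⁻¹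
        (HauptU.E.posO O Fermat.Agent.S36.SqChart.Coord4.s4Z) (Fermat.Agent.S36.SqChart.Coord4.hσ1u_s4 M E q h4)))
        (piC (alphaHom M q E (u4E M E h4)⁻¹) π) ∧
        RegNB.RegAt (piC (alphaHom M q E (u4E M E h4)⁻¹) π) y) ∨
      (RingHom.ker (redZero π hπ (alphaHom M q E) (sigmaHom (M * q) E)
        (sigmaHom_algebraMap (M * q) E) hσfrac (u4E M E h4)⁻¹
        (HauptU.E.posO O Fermat.Agent.S36.SqChart.Coord4.s4Z) (Fermat.Agent.S36.SqChart.Coord4.hσ1u_s4 M E q h4)
        (wHom M q E hq hqM) (wHom_algebraMap M q E hq hqM) q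
        (sigmaHom_wHom_alpha M q E hq hqM)) ≤ y ∧
        ¬ RingHom.ker (redInf π hπ (alphaHom M q E) (sigmaHom (M * q) E)
        (sigmaHom_algebraMap (M * q) E) hσfrac (u4E M E h4)⁻¹
        (HauptU.E.posO O Fermat.Agent.S36.SqChart.Coord4.s4Z) (Fermat.Agent.S36.SqChart.Coord4.hσ1u_s4 M E q h4)) ≤ y ∧
        PrinAt y (RingHom.ker (redZero π hπ (alphaHom M q E) (sigmaHom (M * q) E)
        (sigmaHom_algebraMap (M * q) E) hσfrac (u4E M E h4)⁻¹
        (HauptU.E.posO O Fermat.Agent.S36.SqChart.Coord4.s4Z) (Fermat.Agent.S36.SqChart.Coord4.hσ1u_s4 M E q h4)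
        (wHom M q E hq hqM) (wHom_algebraMap M q E hq hqM) q
        (sigmaHom_wHom_alpha M q E hq hqM)))
        (piC (alphaHom M q E (u4E M E h4)⁻¹) π) ∧
        RegNB.RegAt (piC (alphaHom M q E (u4E M E h4)⁻¹) π) y) := by
  letI := algebraOL O E (LE M E)
  letI := algebraOL O E (LE (M * q) E)
  haveI := isScalarTower_OL O E (LE M E)
  haveI := isScalarTower_OL O E (LE (M * q) E)
  intro y hy hπy hxy
  haveI hyp : y.IsPrime := hy.isPrime
  have hmm := mem_or_mem_s4 M q E hq hodd hqM h4 h2 hFG π hπ hchar hσfrac y hyp hπy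
  have hnc := no_crossing_s4 M q E hq hodd hqM h4 h2 hFG π hπ hchar hσfrac y hyp
  rcases hmm with hI | hZ
  · have hZ' : ¬ _ ≤ y := fun hZ => hnc hI hZ hxy
    exact Or.inl ⟨hI, hZ',
      smooth_inf_s4 M q E hq hodd hqM h4 h2 hFG π hπ hchar hσfrac y hy hI hZ'⟩
  · have hI' : ¬ _ ≤ y := fun hI => hnc hI hZ hxy
    exact Or.inr ⟨hZ, hI',
      smooth_zero_s4 M q E hq hodd hqM h4 h2 hFG π hπ hchar hσfrac y hy hZ hI'⟩

/-- `NodeC1Inst.mem_or_mem_u4` without the unramifiedness binders. -/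
theorem mem_or_mem_u4_gen (hq : q.Prime) (hodd : q ≠ 2) (hqM : ¬ q ∣ M) (h4 : 4 ∣ M)
    (h2 : IsUnit (2 : O)) (hFG : FinGaussC M O E) (π : O) (hπ : Irreducible π)
    (hchar : CharP (IsLocalRing.ResidueField O) q)
    (hσfrac : ∀ x : LE (M * q) E, sigmaHom (M * q) E x ∈ GaussDVR.fracField O E) :
    letI := algebraOL O E (LE M E)
    letI := algebraOL O E (LE (M * q) E)
    haveI := isScalarTower_OL O E (LE M E)
    haveI := isScalarTower_OL O E (LE (M * q) E)
    ∀ y : Ideal (Chart O (alphaHom M q E (u4E M E h4))), y.IsPrime →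
      (piC (alphaHom M q E (u4E M E h4)) π) ∈ y →
      RingHom.ker (redInf π hπ (alphaHom M q E) (sigmaHom (M * q) E)
        (sigmaHom_algebraMap (M * q) E) hσfrac (u4E M E h4)
        (u4 O) (hσu_u4 M q E h4)) ≤ y ∨
      RingHom.ker (redZero π hπ (alphaHom M q E) (sigmaHom (M * q) E)
        (sigmaHom_algebraMap (M * q) E) hσfrac (u4E M E h4)
        (u4 O) (hσu_u4 M q E h4)
        (wHom M q E hq hqM) (wHom_algebraMap M q E hq hqM) q
        (sigmaHom_wHom_alpha M q E hq hqM)) ≤ y := by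
  classical
  letI := algebraOL O E (LE M E)
  letI := algebraOL O E (LE (M * q) E)
  haveI := isScalarTower_OL O E (LE M E)
  haveI := isScalarTower_OL O E (LE (M * q) E)
  have hfg := u4_fin_gauss M E h4 hFG
  have hfin : FiniteDimensional (IntermediateField.adjoin E {u4E M E h4}) (LE M E) := hfg.1
  haveI := hfin
  have hcf := Fermat.Agent.S36.Haupt4.Fibre.chartFacts_u4 M E h4 h2 hFG π hπ
  have hwu := hwu_u4 M q E (O := O) h2 hq hodd hqM h4
  haveI : Fact q.Prime := ⟨hq⟩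
  haveI := hchar
  intro y hy hπy
  haveI := hy
  exact Fermat.Agent.S44.L.NodeC1.mem_or_mem_of_piC_mem π hπ (alphaHom M q E) (alphaHom_algebraMap M q E)
    (sigmaHom (M * q) E) (sigmaHom_algebraMap (M * q) E) hσfrac (u4E M E h4) (u4 O)
    (hσu_u4 M q E h4) (wHom M q E hq hqM) (wHom_algebraMap M q E hq hqM) q
    (sigmaHom_wHom_alpha M q E hq hqM) (wHom_wHom M q E hq hqM) hcf.prime_zero (hcop_u4 q)
    hord_u4 hq.two_le (hfrob_u4 q hq) hwu (hrank_u4 M q E hq hqM h4) y hπy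

/-- `NodeC1Inst.smooth_inf_u4` without the unramifiedness binders: the smooth points of the
`∞`-component on `Chart O (α u₄)` over any base. -/
theorem smooth_inf_u4_gen (hq : q.Prime) (hodd : q ≠ 2) (hqM : ¬ q ∣ M) (h4 : 4 ∣ M)
    (h2 : IsUnit (2 : O)) (hFG : FinGaussC M O E) (π : O) (hπ : Irreducible π)
    (hchar : CharP (IsLocalRing.ResidueField O) q)
    (hσfrac : ∀ x : LE (M * q) E, sigmaHom (M * q) E x ∈ GaussDVR.fracField O E) :
    letI := algebraOL O E (LE M E)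
    letI := algebraOL O E (LE (M * q) E)
    haveI := isScalarTower_OL O E (LE M E)
    haveI := isScalarTower_OL O E (LE (M * q) E)
    ∀ y : Ideal (Chart O (alphaHom M q E (u4E M E h4))), y.IsMaximal →
      RingHom.ker (redInf π hπ (alphaHom M q E) (sigmaHom (M * q) E)
        (sigmaHom_algebraMap (M * q) E) hσfrac (u4E M E h4)
        (u4 O) (hσu_u4 M q E h4)) ≤ y →
      ¬ RingHom.ker (redZero π hπ (alphaHom M q E) (sigmaHom (M * q) E)
        (sigmaHom_algebraMap (M * q) E) hσfrac (u4E M E h4)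
        (u4 O) (hσu_u4 M q E h4)
        (wHom M q E hq hqM) (wHom_algebraMap M q E hq hqM) q
        (sigmaHom_wHom_alpha M q E hq hqM)) ≤ y →
      PrinAt y (RingHom.ker (redInf π hπ (alphaHom M q E) (sigmaHom (M * q) E)
        (sigmaHom_algebraMap (M * q) E) hσfrac (u4E M E h4)
        (u4 O) (hσu_u4 M q E h4)))
        (piC (alphaHom M q E (u4E M E h4)) π) ∧
      RegNB.RegAt (piC (alphaHom M q E (u4E M E h4)) π) y := by
  classical
  letI := algebraOL O E (LE M E)
  letI := algebraOL O E (LE (M * q) E)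
  haveI := isScalarTower_OL O E (LE M E)
  haveI := isScalarTower_OL O E (LE (M * q) E)
  have hfg := u4_fin_gauss M E h4 hFG
  have hfin : FiniteDimensional (IntermediateField.adjoin E {u4E M E h4}) (LE M E) := hfg.1
  haveI := hfin
  have hcf := Fermat.Agent.S36.Haupt4.Fibre.chartFacts_u4 M E h4 h2 hFG π hπ
  have hwu := hwu_u4 M q E (O := O) h2 hq hodd hqM h4
  haveI : Fact q.Prime := ⟨hq⟩
  haveI := hchar
  intro y hy hI hZ
  exact Fermat.Agent.S44.L.NodeC1.smooth_inf_of_unram π hπ (alphaHom M q E) (alphaHom_algebraMap M q E)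
    (sigmaHom (M * q) E) (sigmaHom_algebraMap (M * q) E) hσfrac (u4E M E h4) (u4 O)
    (hσu_u4 M q E h4) (wHom M q E hq hqM) (wHom_algebraMap M q E hq hqM) q
    (sigmaHom_wHom_alpha M q E hq hqM) (wHom_wHom M q E hq hqM) hcf.prime_zero (hcop_u4 q)
    hord_u4 hq.two_le (hfrob_u4 q hq) hwu (hrank_u4 M q E hq hqM h4)
    hcf.normal_zero hcf.regAt_zero y hy hI hZ

/-- `NodeC1Inst.smooth_zero_u4` without the unramifiedness binders: the smooth points of the
`0`-component on `Chart O (α u₄)` over any base. -/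
theorem smooth_zero_u4_gen (hq : q.Prime) (hodd : q ≠ 2) (hqM : ¬ q ∣ M) (h4 : 4 ∣ M)
    (h2 : IsUnit (2 : O)) (hFG : FinGaussC M O E) (π : O) (hπ : Irreducible π)
    (hchar : CharP (IsLocalRing.ResidueField O) q)
    (hσfrac : ∀ x : LE (M * q) E, sigmaHom (M * q) E x ∈ GaussDVR.fracField O E) :
    letI := algebraOL O E (LE M E)
    letI := algebraOL O E (LE (M * q) E)
    haveI := isScalarTower_OL O E (LE M E)
    haveI := isScalarTower_OL O E (LE (M * q) E)
    ∀ y : Ideal (Chart O (alphaHom M q E (u4E M E h4))), y.IsMaximal →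
      RingHom.ker (redZero π hπ (alphaHom M q E) (sigmaHom (M * q) E)
        (sigmaHom_algebraMap (M * q) E) hσfrac (u4E M E h4)
        (u4 O) (hσu_u4 M q E h4)
        (wHom M q E hq hqM) (wHom_algebraMap M q E hq hqM) q
        (sigmaHom_wHom_alpha M q E hq hqM)) ≤ y →
      ¬ RingHom.ker (redInf π hπ (alphaHom M q E) (sigmaHom (M * q) E)
        (sigmaHom_algebraMap (M * q) E) hσfrac (u4E M E h4)
        (u4 O) (hσu_u4 M q E h4)) ≤ y →
      PrinAt y (RingHom.ker (redZero π hπ (alphaHom M q E) (sigmaHom (M * q) E)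
        (sigmaHom_algebraMap (M * q) E) hσfrac (u4E M E h4)
        (u4 O) (hσu_u4 M q E h4)
        (wHom M q E hq hqM) (wHom_algebraMap M q E hq hqM) q
        (sigmaHom_wHom_alpha M q E hq hqM)))
        (piC (alphaHom M q E (u4E M E h4)) π) ∧
      RegNB.RegAt (piC (alphaHom M q E (u4E M E h4)) π) y := by
  classical
  letI := algebraOL O E (LE M E)
  letI := algebraOL O E (LE (M * q) E)
  haveI := isScalarTower_OL O E (LE M E)
  haveI := isScalarTower_OL O E (LE (M * q) E)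
  have hfg := u4_fin_gauss M E h4 hFG
  have hfin : FiniteDimensional (IntermediateField.adjoin E {u4E M E h4}) (LE M E) := hfg.1
  haveI := hfin
  have hcf := Fermat.Agent.S36.Haupt4.Fibre.chartFacts_u4 M E h4 h2 hFG π hπ
  have hwu := hwu_u4 M q E (O := O) h2 hq hodd hqM h4
  haveI : Fact q.Prime := ⟨hq⟩
  haveI := hchar
  intro y hy hZ hI
  exact Fermat.Agent.S44.L.NodeC1.smooth_zero_of_unram π hπ (alphaHom M q E) (alphaHom_algebraMap M q E)
    (sigmaHom (M * q) E) (sigmaHom_algebraMap (M * q) E) hσfrac (u4E M E h4) (u4 O)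
    (hσu_u4 M q E h4) (wHom M q E hq hqM) (wHom_algebraMap M q E hq hqM) q
    (sigmaHom_wHom_alpha M q E hq hqM) (wHom_wHom M q E hq hqM) hcf.prime_zero (hcop_u4 q)
    hord_u4 hq.two_le (hfrob_u4 q hq) hwu (hrank_u4 M q E hq hqM h4)
    hcf.normal_zero hcf.regAt_zero y hy hZ hI

end Generic

/-! ### The arithmetic instances `O = OE A K` -/

section Arithmetic

variable (A : ValuationSubring Qb) (M q : ℕ) [NeZero M] [NeZero q]

/-- `mem_or_mem_s4` over `O = A ∩ K`. -/
theorem mem_or_mem_s4_OE (hq : q.Prime) (hodd : q ≠ 2) (hqM : ¬ q ∣ M) (h4 : 4 ∣ M)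
    (hA : A.LiesOverPrime q) (K : IntermediateField ℚ Qb) [FiniteDimensional ℚ K]
    [IsDiscreteValuationRing (OE A K)] (z : Qb) (hz : IsPrimitiveRoot z M) (hzK : z ∈ K)
    (h2 : IsUnit (2 : OE A K)) (π : OE A K) (hπ : Irreducible π) :
    letI := algebraOL (OE A K) K (LE M K)
    letI := algebraOL (OE A K) K (LE (M * q) K)
    haveI := isScalarTower_OL (OE A K) K (LE M K)
    haveI := isScalarTower_OL (OE A K) K (LE (M * q) K)
    ∀ y : Ideal (Chart (OE A K) (alphaHom M q K (u4E M K h4)⁻¹)), y.IsPrime →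
      (piC (alphaHom M q K (u4E M K h4)⁻¹) π) ∈ y →
      RingHom.ker (redInf π hπ (alphaHom M q K) (sigmaHom (M * q) K)
        (sigmaHom_algebraMap (M * q) K) (sigmaHom_mem_fracField (M * q) K A) (u4E M K h4)⁻¹
        (HauptU.E.posO (OE A K) Fermat.Agent.S36.SqChart.Coord4.s4Z) (Fermat.Agent.S36.SqChart.Coord4.hσ1u_s4 M K q h4)) ≤ y ∨
      RingHom.ker (redZero π hπ (alphaHom M q K) (sigmaHom (M * q) K)
        (sigmaHom_algebraMap (M * q) K) (sigmaHom_mem_fracField (M * q) K A) (u4E M K h4)⁻¹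
        (HauptU.E.posO (OE A K) Fermat.Agent.S36.SqChart.Coord4.s4Z) (Fermat.Agent.S36.SqChart.Coord4.hσ1u_s4 M K q h4)
        (wHom M q K hq hqM) (wHom_algebraMap M q K hq hqM) q
        (sigmaHom_wHom_alpha M q K hq hqM)) ≤ y := by
  haveI : Fact q.Prime := ⟨hq⟩
  exact mem_or_mem_s4 (O := OE A K) M q K hq hodd hqM h4 h2
    (Fermat.Agent.S36.Haupt4.Fibre.finGaussC_OE A M hqM hA K z hz hzK) π hπ
    (Fermat.Agent.S34.Sat.charP_residue_OE' A K hq hA)
    (sigmaHom_mem_fracField (M * q) K A)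

/-- `smooth_inf_s4` over `O = A ∩ K`. -/
theorem smooth_inf_s4_OE (hq : q.Prime) (hodd : q ≠ 2) (hqM : ¬ q ∣ M) (h4 : 4 ∣ M)
    (hA : A.LiesOverPrime q) (K : IntermediateField ℚ Qb) [FiniteDimensional ℚ K]
    [IsDiscreteValuationRing (OE A K)] (z : Qb) (hz : IsPrimitiveRoot z M) (hzK : z ∈ K)
    (h2 : IsUnit (2 : OE A K)) (π : OE A K) (hπ : Irreducible π) :
    letI := algebraOL (OE A K) K (LE M K)
    letI := algebraOL (OE A K) K (LE (M * q) K)
    haveI := isScalarTower_OL (OE A K) K (LE M K)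
    haveI := isScalarTower_OL (OE A K) K (LE (M * q) K)
    ∀ y : Ideal (Chart (OE A K) (alphaHom M q K (u4E M K h4)⁻¹)), y.IsMaximal →
      RingHom.ker (redInf π hπ (alphaHom M q K) (sigmaHom (M * q) K)
        (sigmaHom_algebraMap (M * q) K) (sigmaHom_mem_fracField (M * q) K A) (u4E M K h4)⁻¹
        (HauptU.E.posO (OE A K) Fermat.Agent.S36.SqChart.Coord4.s4Z) (Fermat.Agent.S36.SqChart.Coord4.hσ1u_s4 M K q h4)) ≤ y →
      ¬ RingHom.ker (redZero π hπ (alphaHom M q K) (sigmaHom (M * q) K)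
        (sigmaHom_algebraMap (M * q) K) (sigmaHom_mem_fracField (M * q) K A) (u4E M K h4)⁻¹
        (HauptU.E.posO (OE A K) Fermat.Agent.S36.SqChart.Coord4.s4Z) (Fermat.Agent.S36.SqChart.Coord4.hσ1u_s4 M K q h4)
        (wHom M q K hq hqM) (wHom_algebraMap M q K hq hqM) q
        (sigmaHom_wHom_alpha M q K hq hqM)) ≤ y →
      PrinAt y (RingHom.ker (redInf π hπ (alphaHom M q K) (sigmaHom (M * q) K)
        (sigmaHom_algebraMap (M * q) K) (sigmaHom_mem_fracField (M * q) K A) (u4E M K h4)⁻¹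
        (HauptU.E.posO (OE A K) Fermat.Agent.S36.SqChart.Coord4.s4Z) (Fermat.Agent.S36.SqChart.Coord4.hσ1u_s4 M K q h4)))
        (piC (alphaHom M q K (u4E M K h4)⁻¹) π) ∧
      RegNB.RegAt (piC (alphaHom M q K (u4E M K h4)⁻¹) π) y := by
  haveI : Fact q.Prime := ⟨hq⟩
  exact smooth_inf_s4 (O := OE A K) M q K hq hodd hqM h4 h2
    (Fermat.Agent.S36.Haupt4.Fibre.finGaussC_OE A M hqM hA K z hz hzK) π hπ
    (Fermat.Agent.S34.Sat.charP_residue_OE' A K hq hA)
    (sigmaHom_mem_fracField (M * q) K A)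

/-- `smooth_zero_s4` over `O = A ∩ K`. -/
theorem smooth_zero_s4_OE (hq : q.Prime) (hodd : q ≠ 2) (hqM : ¬ q ∣ M) (h4 : 4 ∣ M)
    (hA : A.LiesOverPrime q) (K : IntermediateField ℚ Qb) [FiniteDimensional ℚ K]
    [IsDiscreteValuationRing (OE A K)] (z : Qb) (hz : IsPrimitiveRoot z M) (hzK : z ∈ K)
    (h2 : IsUnit (2 : OE A K)) (π : OE A K) (hπ : Irreducible π) :
    letI := algebraOL (OE A K) K (LE M K)
    letI := algebraOL (OE A K) K (LE (M * q) K)
    haveI := isScalarTower_OL (OE A K) K (LE M K)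
    haveI := isScalarTower_OL (OE A K) K (LE (M * q) K)
    ∀ y : Ideal (Chart (OE A K) (alphaHom M q K (u4E M K h4)⁻¹)), y.IsMaximal →
      RingHom.ker (redZero π hπ (alphaHom M q K) (sigmaHom (M * q) K)
        (sigmaHom_algebraMap (M * q) K) (sigmaHom_mem_fracField (M * q) K A) (u4E M K h4)⁻¹
        (HauptU.E.posO (OE A K) Fermat.Agent.S36.SqChart.Coord4.s4Z) (Fermat.Agent.S36.SqChart.Coord4.hσ1u_s4 M K q h4)
        (wHom M q K hq hqM) (wHom_algebraMap M q K hq hqM) q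
        (sigmaHom_wHom_alpha M q K hq hqM)) ≤ y →
      ¬ RingHom.ker (redInf π hπ (alphaHom M q K) (sigmaHom (M * q) K)
        (sigmaHom_algebraMap (M * q) K) (sigmaHom_mem_fracField (M * q) K A) (u4E M K h4)⁻¹
        (HauptU.E.posO (OE A K) Fermat.Agent.S36.SqChart.Coord4.s4Z) (Fermat.Agent.S36.SqChart.Coord4.hσ1u_s4 M K q h4)) ≤ y →
      PrinAt y (RingHom.ker (redZero π hπ (alphaHom M q K) (sigmaHom (M * q) K)
        (sigmaHom_algebraMap (M * q) K) (sigmaHom_mem_fracField (M * q) K A) (u4E M K h4)⁻¹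
        (HauptU.E.posO (OE A K) Fermat.Agent.S36.SqChart.Coord4.s4Z) (Fermat.Agent.S36.SqChart.Coord4.hσ1u_s4 M K q h4)
        (wHom M q K hq hqM) (wHom_algebraMap M q K hq hqM) q
        (sigmaHom_wHom_alpha M q K hq hqM)))
        (piC (alphaHom M q K (u4E M K h4)⁻¹) π) ∧
      RegNB.RegAt (piC (alphaHom M q K (u4E M K h4)⁻¹) π) y := by
  haveI : Fact q.Prime := ⟨hq⟩
  exact smooth_zero_s4 (O := OE A K) M q K hq hodd hqM h4 h2
    (Fermat.Agent.S36.Haupt4.Fibre.finGaussC_OE A M hqM hA K z hz hzK) π hπ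
    (Fermat.Agent.S34.Sat.charP_residue_OE' A K hq hA)
    (sigmaHom_mem_fracField (M * q) K A)

/-- `no_crossing_s4` over `O = A ∩ K`: no crossing point over `u₄ = ∞`. -/
theorem no_crossing_s4_OE (hq : q.Prime) (hodd : q ≠ 2) (hqM : ¬ q ∣ M) (h4 : 4 ∣ M)
    (hA : A.LiesOverPrime q) (K : IntermediateField ℚ Qb) [FiniteDimensional ℚ K]
    [IsDiscreteValuationRing (OE A K)] (z : Qb) (hz : IsPrimitiveRoot z M) (hzK : z ∈ K)
    (h2 : IsUnit (2 : OE A K)) (π : OE A K) (hπ : Irreducible π) :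
    letI := algebraOL (OE A K) K (LE M K)
    letI := algebraOL (OE A K) K (LE (M * q) K)
    haveI := isScalarTower_OL (OE A K) K (LE M K)
    haveI := isScalarTower_OL (OE A K) K (LE (M * q) K)
    ∀ y : Ideal (Chart (OE A K) (alphaHom M q K (u4E M K h4)⁻¹)), y.IsPrime →
      RingHom.ker (redInf π hπ (alphaHom M q K) (sigmaHom (M * q) K)
        (sigmaHom_algebraMap (M * q) K) (sigmaHom_mem_fracField (M * q) K A) (u4E M K h4)⁻¹
        (HauptU.E.posO (OE A K) Fermat.Agent.S36.SqChart.Coord4.s4Z) (Fermat.Agent.S36.SqChart.Coord4.hσ1u_s4 M K q h4)) ≤ y →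
      RingHom.ker (redZero π hπ (alphaHom M q K) (sigmaHom (M * q) K)
        (sigmaHom_algebraMap (M * q) K) (sigmaHom_mem_fracField (M * q) K A) (u4E M K h4)⁻¹
        (HauptU.E.posO (OE A K) Fermat.Agent.S36.SqChart.Coord4.s4Z) (Fermat.Agent.S36.SqChart.Coord4.hσ1u_s4 M K q h4)
        (wHom M q K hq hqM) (wHom_algebraMap M q K hq hqM) q
        (sigmaHom_wHom_alpha M q K hq hqM)) ≤ y →
      (incl (alphaHom M q K) (alphaHom_algebraMap M q K) (u4E M K h4)⁻¹
        (polyChart (u4E M K h4)⁻¹ X)) ∉ y := by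
  haveI : Fact q.Prime := ⟨hq⟩
  exact no_crossing_s4 (O := OE A K) M q K hq hodd hqM h4 h2
    (Fermat.Agent.S36.Haupt4.Fibre.finGaussC_OE A M hqM hA K z hz hzK) π hπ
    (Fermat.Agent.S34.Sat.charP_residue_OE' A K hq hA)
    (sigmaHom_mem_fracField (M * q) K A)

/-- **The points over `u₄ = ∞`, over `O = A ∩ K`** (`K` any number field containing a primitive
`M`-th root of unity; the base may be ramified). -/
theorem cusp_s4_OE (hq : q.Prime) (hodd : q ≠ 2) (hqM : ¬ q ∣ M) (h4 : 4 ∣ M)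
    (hA : A.LiesOverPrime q) (K : IntermediateField ℚ Qb) [FiniteDimensional ℚ K]
    [IsDiscreteValuationRing (OE A K)] (z : Qb) (hz : IsPrimitiveRoot z M) (hzK : z ∈ K)
    (h2 : IsUnit (2 : OE A K)) (π : OE A K) (hπ : Irreducible π) :
    letI := algebraOL (OE A K) K (LE M K)
    letI := algebraOL (OE A K) K (LE (M * q) K)
    haveI := isScalarTower_OL (OE A K) K (LE M K)
    haveI := isScalarTower_OL (OE A K) K (LE (M * q) K)
    ∀ y : Ideal (Chart (OE A K) (alphaHom M q K (u4E M K h4)⁻¹)), y.IsMaximal →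
      (piC (alphaHom M q K (u4E M K h4)⁻¹) π) ∈ y →
      (incl (alphaHom M q K) (alphaHom_algebraMap M q K) (u4E M K h4)⁻¹
        (polyChart (u4E M K h4)⁻¹ X)) ∈ y →
      (RingHom.ker (redInf π hπ (alphaHom M q K) (sigmaHom (M * q) K)
        (sigmaHom_algebraMap (M * q) K) (sigmaHom_mem_fracField (M * q) K A) (u4E M K h4)⁻¹
        (HauptU.E.posO (OE A K) Fermat.Agent.S36.SqChart.Coord4.s4Z) (Fermat.Agent.S36.SqChart.Coord4.hσ1u_s4 M K q h4)) ≤ y ∧
        ¬ RingHom.ker (redZero π hπ (alphaHom M q K) (sigmaHom (M * q) K)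
        (sigmaHom_algebraMap (M * q) K) (sigmaHom_mem_fracField (M * q) K A) (u4E M K h4)⁻¹
        (HauptU.E.posO (OE A K) Fermat.Agent.S36.SqChart.Coord4.s4Z) (Fermat.Agent.S36.SqChart.Coord4.hσ1u_s4 M K q h4)
        (wHom M q K hq hqM) (wHom_algebraMap M q K hq hqM) q
        (sigmaHom_wHom_alpha M q K hq hqM)) ≤ y ∧
        PrinAt y (RingHom.ker (redInf π hπ (alphaHom M q K) (sigmaHom (M * q) K)
        (sigmaHom_algebraMap (M * q) K) (sigmaHom_mem_fracField (M * q) K A) (u4E M K h4)⁻¹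
        (HauptU.E.posO (OE A K) Fermat.Agent.S36.SqChart.Coord4.s4Z) (Fermat.Agent.S36.SqChart.Coord4.hσ1u_s4 M K q h4)))
        (piC (alphaHom M q K (u4E M K h4)⁻¹) π) ∧
        RegNB.RegAt (piC (alphaHom M q K (u4E M K h4)⁻¹) π) y) ∨
      (RingHom.ker (redZero π hπ (alphaHom M q K) (sigmaHom (M * q) K)
        (sigmaHom_algebraMap (M * q) K) (sigmaHom_mem_fracField (M * q) K A) (u4E M K h4)⁻¹
        (HauptU.E.posO (OE A K) Fermat.Agent.S36.SqChart.Coord4.s4Z) (Fermat.Agent.S36.SqChart.Coord4.hσ1u_s4 M K q h4)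
        (wHom M q K hq hqM) (wHom_algebraMap M q K hq hqM) q
        (sigmaHom_wHom_alpha M q K hq hqM)) ≤ y ∧
        ¬ RingHom.ker (redInf π hπ (alphaHom M q K) (sigmaHom (M * q) K)
        (sigmaHom_algebraMap (M * q) K) (sigmaHom_mem_fracField (M * q) K A) (u4E M K h4)⁻¹
        (HauptU.E.posO (OE A K) Fermat.Agent.S36.SqChart.Coord4.s4Z) (Fermat.Agent.S36.SqChart.Coord4.hσ1u_s4 M K q h4)) ≤ y ∧
        PrinAt y (RingHom.ker (redZero π hπ (alphaHom M q K) (sigmaHom (M * q) K)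
        (sigmaHom_algebraMap (M * q) K) (sigmaHom_mem_fracField (M * q) K A) (u4E M K h4)⁻¹
        (HauptU.E.posO (OE A K) Fermat.Agent.S36.SqChart.Coord4.s4Z) (Fermat.Agent.S36.SqChart.Coord4.hσ1u_s4 M K q h4)
        (wHom M q K hq hqM) (wHom_algebraMap M q K hq hqM) q
        (sigmaHom_wHom_alpha M q K hq hqM)))
        (piC (alphaHom M q K (u4E M K h4)⁻¹) π) ∧
        RegNB.RegAt (piC (alphaHom M q K (u4E M K h4)⁻¹) π) y) := by
  haveI : Fact q.Prime := ⟨hq⟩
  exact cusp_s4 (O := OE A K) M q K hq hodd hqM h4 h2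
    (Fermat.Agent.S36.Haupt4.Fibre.finGaussC_OE A M hqM hA K z hz hzK) π hπ
    (Fermat.Agent.S34.Sat.charP_residue_OE' A K hq hA)
    (sigmaHom_mem_fracField (M * q) K A)

/-- `mem_or_mem_u4_gen` over `O = A ∩ K`. -/
theorem mem_or_mem_u4_OE_gen (hq : q.Prime) (hodd : q ≠ 2) (hqM : ¬ q ∣ M) (h4 : 4 ∣ M)
    (hA : A.LiesOverPrime q) (K : IntermediateField ℚ Qb) [FiniteDimensional ℚ K]
    [IsDiscreteValuationRing (OE A K)] (z : Qb) (hz : IsPrimitiveRoot z M) (hzK : z ∈ K)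
    (h2 : IsUnit (2 : OE A K)) (π : OE A K) (hπ : Irreducible π) :
    letI := algebraOL (OE A K) K (LE M K)
    letI := algebraOL (OE A K) K (LE (M * q) K)
    haveI := isScalarTower_OL (OE A K) K (LE M K)
    haveI := isScalarTower_OL (OE A K) K (LE (M * q) K)
    ∀ y : Ideal (Chart (OE A K) (alphaHom M q K (u4E M K h4))), y.IsPrime →
      (piC (alphaHom M q K (u4E M K h4)) π) ∈ y →
      RingHom.ker (redInf π hπ (alphaHom M q K) (sigmaHom (M * q) K)
        (sigmaHom_algebraMap (M * q) K) (sigmaHom_mem_fracField (M * q) K A) (u4E M K h4)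
        (u4 (OE A K)) (hσu_u4 M q K h4)) ≤ y ∨
      RingHom.ker (redZero π hπ (alphaHom M q K) (sigmaHom (M * q) K)
        (sigmaHom_algebraMap (M * q) K) (sigmaHom_mem_fracField (M * q) K A) (u4E M K h4)
        (u4 (OE A K)) (hσu_u4 M q K h4)
        (wHom M q K hq hqM) (wHom_algebraMap M q K hq hqM) q
        (sigmaHom_wHom_alpha M q K hq hqM)) ≤ y := by
  haveI : Fact q.Prime := ⟨hq⟩
  exact mem_or_mem_u4_gen (O := OE A K) M q K hq hodd hqM h4 h2
    (Fermat.Agent.S36.Haupt4.Fibre.finGaussC_OE A M hqM hA K z hz hzK) π hπ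
    (Fermat.Agent.S34.Sat.charP_residue_OE' A K hq hA)
    (sigmaHom_mem_fracField (M * q) K A)

/-- `smooth_inf_u4_gen` over `O = A ∩ K` (the base may be ramified). -/
theorem smooth_inf_u4_OE_gen (hq : q.Prime) (hodd : q ≠ 2) (hqM : ¬ q ∣ M) (h4 : 4 ∣ M)
    (hA : A.LiesOverPrime q) (K : IntermediateField ℚ Qb) [FiniteDimensional ℚ K]
    [IsDiscreteValuationRing (OE A K)] (z : Qb) (hz : IsPrimitiveRoot z M) (hzK : z ∈ K)
    (h2 : IsUnit (2 : OE A K)) (π : OE A K) (hπ : Irreducible π) :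
    letI := algebraOL (OE A K) K (LE M K)
    letI := algebraOL (OE A K) K (LE (M * q) K)
    haveI := isScalarTower_OL (OE A K) K (LE M K)
    haveI := isScalarTower_OL (OE A K) K (LE (M * q) K)
    ∀ y : Ideal (Chart (OE A K) (alphaHom M q K (u4E M K h4))), y.IsMaximal →
      RingHom.ker (redInf π hπ (alphaHom M q K) (sigmaHom (M * q) K)
        (sigmaHom_algebraMap (M * q) K) (sigmaHom_mem_fracField (M * q) K A) (u4E M K h4)
        (u4 (OE A K)) (hσu_u4 M q K h4)) ≤ y →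
      ¬ RingHom.ker (redZero π hπ (alphaHom M q K) (sigmaHom (M * q) K)
        (sigmaHom_algebraMap (M * q) K) (sigmaHom_mem_fracField (M * q) K A) (u4E M K h4)
        (u4 (OE A K)) (hσu_u4 M q K h4)
        (wHom M q K hq hqM) (wHom_algebraMap M q K hq hqM) q
        (sigmaHom_wHom_alpha M q K hq hqM)) ≤ y →
      PrinAt y (RingHom.ker (redInf π hπ (alphaHom M q K) (sigmaHom (M * q) K)
        (sigmaHom_algebraMap (M * q) K) (sigmaHom_mem_fracField (M * q) K A) (u4E M K h4)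
        (u4 (OE A K)) (hσu_u4 M q K h4)))
        (piC (alphaHom M q K (u4E M K h4)) π) ∧
      RegNB.RegAt (piC (alphaHom M q K (u4E M K h4)) π) y := by
  haveI : Fact q.Prime := ⟨hq⟩
  exact smooth_inf_u4_gen (O := OE A K) M q K hq hodd hqM h4 h2
    (Fermat.Agent.S36.Haupt4.Fibre.finGaussC_OE A M hqM hA K z hz hzK) π hπ
    (Fermat.Agent.S34.Sat.charP_residue_OE' A K hq hA)
    (sigmaHom_mem_fracField (M * q) K A)

/-- `smooth_zero_u4_gen` over `O = A ∩ K` (the base may be ramified). -/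
theorem smooth_zero_u4_OE_gen (hq : q.Prime) (hodd : q ≠ 2) (hqM : ¬ q ∣ M) (h4 : 4 ∣ M)
    (hA : A.LiesOverPrime q) (K : IntermediateField ℚ Qb) [FiniteDimensional ℚ K]
    [IsDiscreteValuationRing (OE A K)] (z : Qb) (hz : IsPrimitiveRoot z M) (hzK : z ∈ K)
    (h2 : IsUnit (2 : OE A K)) (π : OE A K) (hπ : Irreducible π) :
    letI := algebraOL (OE A K) K (LE M K)
    letI := algebraOL (OE A K) K (LE (M * q) K)
    haveI := isScalarTower_OL (OE A K) K (LE M K)
    haveI := isScalarTower_OL (OE A K) K (LE (M * q) K)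
    ∀ y : Ideal (Chart (OE A K) (alphaHom M q K (u4E M K h4))), y.IsMaximal →
      RingHom.ker (redZero π hπ (alphaHom M q K) (sigmaHom (M * q) K)
        (sigmaHom_algebraMap (M * q) K) (sigmaHom_mem_fracField (M * q) K A) (u4E M K h4)
        (u4 (OE A K)) (hσu_u4 M q K h4)
        (wHom M q K hq hqM) (wHom_algebraMap M q K hq hqM) q
        (sigmaHom_wHom_alpha M q K hq hqM)) ≤ y →
      ¬ RingHom.ker (redInf π hπ (alphaHom M q K) (sigmaHom (M * q) K)
        (sigmaHom_algebraMap (M * q) K) (sigmaHom_mem_fracField (M * q) K A) (u4E M K h4)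
        (u4 (OE A K)) (hσu_u4 M q K h4)) ≤ y →
      PrinAt y (RingHom.ker (redZero π hπ (alphaHom M q K) (sigmaHom (M * q) K)
        (sigmaHom_algebraMap (M * q) K) (sigmaHom_mem_fracField (M * q) K A) (u4E M K h4)
        (u4 (OE A K)) (hσu_u4 M q K h4)
        (wHom M q K hq hqM) (wHom_algebraMap M q K hq hqM) q
        (sigmaHom_wHom_alpha M q K hq hqM)))
        (piC (alphaHom M q K (u4E M K h4)) π) ∧
      RegNB.RegAt (piC (alphaHom M q K (u4E M K h4)) π) y := by
  haveI : Fact q.Prime := ⟨hq⟩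
  exact smooth_zero_u4_gen (O := OE A K) M q K hq hodd hqM h4 h2
    (Fermat.Agent.S36.Haupt4.Fibre.finGaussC_OE A M hqM hA K z hz hzK) π hπ
    (Fermat.Agent.S34.Sat.charP_residue_OE' A K hq hA)
    (sigmaHom_mem_fracField (M * q) K A)

end Arithmetic

end Fermat.Agent.S44.L.NodeC1InstInf
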