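import Mathlib
import Fermat.Agent.S44.L.NodeC1
import Fermat.Agent.S36.C1Inst

/-!
# S44 (Mazur–Ribet), strand L, link C1: the node at `u₄`, E-level instance

`S44/L/NodeC1` (helper60) at the objects of `S36/C1Inst` (binders of `C1Inst.gen_u4`):
levels `(M, M q)`, `q` an odd prime, `q ∤ M`, `4 ∣ M`, base an unramified discrete valuation ring
`O` of residue characteristic `q` with fraction field `E ⊆ ℚ̄` (`q = π * unit`),
`C = Chart O (α u₄)` the chart ring of level `M q` at the coordinate `U = α u₄`,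
`V = W U = β u₄`, `p_∞ = ker redInf`, `p_0 = ker redZero`, `t₁ = V - U ^ q`, `t₂ = U - V ^ q`.
No hypothesis left.  For strand L: `q := p`, `M := N''`.

Generic unramified base `O` (`{O : Type}`, `[Algebra O E] [IsFractionRing O E]`):

* `mem_or_mem_u4` : every prime of `C` containing `π` contains `p_∞` or `p_0`.
* `node_u4` : at every maximal `y ⊇ p_∞ + p_0`: `t₁ * t₂ = π * g`, `g ∉ y`, `p_∞ = (t₁)`,
  `p_0 = (t₂)`, `y = (t₁, t₂)` locally at `y` (regular point, transversal branches).
* `smooth_inf_u4`, `smooth_zero_u4` : at a maximal `y` on exactly one component, that component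
  is `(π)` and `y = (π, z)` locally at `y`.

`O = OE A K` (`sigmaHom_mem_fracField` for `hσfrac`, `Fibre.finGaussC_OE` for `hFG`):
`mem_or_mem_u4_OE`, `node_u4_OE`, `smooth_inf_u4_OE`, `smooth_zero_u4_OE`.
-/

set_option autoImplicit false
set_option linter.unusedSectionVars false
set_option linter.unusedVariables false
set_option linter.style.haveILetI false
set_option synthInstance.maxHeartbeats 400000
set_option maxHeartbeats 1000000

open ModularCurve Polynomial IntermediateField

noncomputable section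

namespace Fermat.Agent.S44.L.NodeC1Inst

open Fermat.Agent.S30 Fermat.Agent.S34 Fermat.Agent.S34.TwoPrimesGauss
open Fermat.Agent.S36.PrinAt Fermat.Agent.S30.Model
open Fermat.Agent.S18.K1Defs Fermat.Agent.S18.K1Main
open Fermat.Agent.S34.TwoPrimesRank Fermat.Agent.S34.HauptU.Plug
open Fermat.Agent.S34.HauptU.LevelMAux
open Fermat.Agent.S36.Haupt4 Fermat.Agent.S36.LevelQInstAlt

local notation "Qb" => AlgebraicClosure ℚ

/-! ### Generic unramified base -/

section Generic

variable (M q : ℕ) [NeZero M] [NeZero q] (E : IntermediateField ℚ Qb)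
  {O : Type} [CommRing O] [IsDomain O] [IsDiscreteValuationRing O]
  [Algebra O E] [IsFractionRing O E]

/-- Every prime of the level-`q` chart ring at `u₄` containing `π` contains `p_∞` or `p_0`. -/
theorem mem_or_mem_u4 (hq : q.Prime) (hodd : q ≠ 2) (hqM : ¬ q ∣ M) (h4 : 4 ∣ M)
    (h2 : IsUnit (2 : O)) (hFG : FinGaussC M O E) (π : O) (hπ : Irreducible π)
    (e : O) (he : IsUnit e) (hqe : ((q : ℕ) : O) = π * e)
    (hσfrac : ∀ x : LE (M * q) E, sigmaHom (M * q) E x ∈ GaussDVR.fracField O E) :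
    letI := algebraOL O E (LE M E)
    letI := algebraOL O E (LE (M * q) E)
    haveI := isScalarTower_OL O E (LE M E)
    haveI := isScalarTower_OL O E (LE (M * q) E)
    ∀ y : Ideal (Chart O (alphaHom M q E (u4E M E h4))), y.IsPrime → piC (alphaHom M q E (u4E M E h4)) π ∈ y →
      RingHom.ker (redInf π hπ (alphaHom M q E) (sigmaHom (M * q) E)
        (sigmaHom_algebraMap (M * q) E) hσfrac (u4E M E h4) (u4 O) (hσu_u4 M q E h4)) ≤ y ∨
      RingHom.ker (redZero π hπ (alphaHom M q E) (sigmaHom (M * q) E)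
        (sigmaHom_algebraMap (M * q) E) hσfrac (u4E M E h4) (u4 O) (hσu_u4 M q E h4)
        (wHom M q E hq hqM) (wHom_algebraMap M q E hq hqM) q
        (sigmaHom_wHom_alpha M q E hq hqM)) ≤ y := by
  classical
  letI := algebraOL O E (LE M E)
  letI := algebraOL O E (LE (M * q) E)
  haveI := isScalarTower_OL O E (LE M E)
  haveI := isScalarTower_OL O E (LE (M * q) E)
  have hfg := u4_fin_gauss M E h4 hFG
  have hfin : FiniteDimensional (IntermediateField.adjoin E {u4E M E h4}) (LE M E) := hfg.1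
  haveI := hfin
  have hcf := Fermat.Agent.S36.Haupt4.Fibre.chartFacts_u4 M E h4 h2 hFG π hπ
  have hwu := hwu_u4 M q E (O := O) h2 hq hodd hqM h4
  haveI : Fact q.Prime := ⟨hq⟩
  haveI : CharP (IsLocalRing.ResidueField O) q :=
    Fermat.Agent.S36.DerUnram.charP_residue π hπ q ⟨e, hqe⟩
  intro y hy hπy
  haveI := hy
  exact Fermat.Agent.S44.L.NodeC1.mem_or_mem_of_piC_mem π hπ (alphaHom M q E) (alphaHom_algebraMap M q E)
    (sigmaHom (M * q) E) (sigmaHom_algebraMap (M * q) E) hσfrac (u4E M E h4) (u4 O)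
    (hσu_u4 M q E h4) (wHom M q E hq hqM) (wHom_algebraMap M q E hq hqM) q
    (sigmaHom_wHom_alpha M q E hq hqM) (wHom_wHom M q E hq hqM) hcf.prime_zero (hcop_u4 q)
    hord_u4 hq.two_le (hfrob_u4 q hq) hwu (hrank_u4 M q E hq hqM h4) y hπy

/-- **The node at `u₄`**: at every maximal ideal `y` of the level-`q` chart ring on both
components, `t₁ * t₂ = π * g` with `g ∉ y`, `p_∞ = (t₁)`, `p_0 = (t₂)` and `y = (t₁, t₂)` locally
at `y`, where `t₁ = V - U ^ q`, `t₂ = U - V ^ q`. -/
theorem node_u4 (hq : q.Prime) (hodd : q ≠ 2) (hqM : ¬ q ∣ M) (h4 : 4 ∣ M)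
    (h2 : IsUnit (2 : O)) (hFG : FinGaussC M O E) (π : O) (hπ : Irreducible π)
    (e : O) (he : IsUnit e) (hqe : ((q : ℕ) : O) = π * e)
    (hσfrac : ∀ x : LE (M * q) E, sigmaHom (M * q) E x ∈ GaussDVR.fracField O E) :
    letI := algebraOL O E (LE M E)
    letI := algebraOL O E (LE (M * q) E)
    haveI := isScalarTower_OL O E (LE M E)
    haveI := isScalarTower_OL O E (LE (M * q) E)
    ∀ y : Ideal (Chart O (alphaHom M q E (u4E M E h4))), y.IsMaximal →
      RingHom.ker (redInf π hπ (alphaHom M q E) (sigmaHom (M * q) E)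
        (sigmaHom_algebraMap (M * q) E) hσfrac (u4E M E h4) (u4 O) (hσu_u4 M q E h4)) ≤ y →
      RingHom.ker (redZero π hπ (alphaHom M q E) (sigmaHom (M * q) E)
        (sigmaHom_algebraMap (M * q) E) hσfrac (u4E M E h4) (u4 O) (hσu_u4 M q E h4)
        (wHom M q E hq hqM) (wHom_algebraMap M q E hq hqM) q
        (sigmaHom_wHom_alpha M q E hq hqM)) ≤ y →
      ∃ g : Chart O (alphaHom M q E (u4E M E h4)), g ∉ y ∧
        ((Fermat.Agent.S34.Modular.ChartZero.wChart (alphaHom M q E) (u4E M E h4)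
          (wHom M q E hq hqM) (wHom_algebraMap M q E hq hqM) (wHom_wHom M q E hq hqM)
          (hwu_u4 M q E h2 hq hodd hqM h4)
          (incl (alphaHom M q E) (alphaHom_algebraMap M q E) (u4E M E h4)
          (polyChart (u4E M E h4) X))) -
        (incl (alphaHom M q E) (alphaHom_algebraMap M q E) (u4E M E h4)
          (polyChart (u4E M E h4) X)) ^ q) *
        ((incl (alphaHom M q E) (alphaHom_algebraMap M q E) (u4E M E h4)
          (polyChart (u4E M E h4) X)) -
        (Fermat.Agent.S34.Modular.ChartZero.wChart (alphaHom M q E) (u4E M E h4)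
          (wHom M q E hq hqM) (wHom_algebraMap M q E hq hqM) (wHom_wHom M q E hq hqM)
          (hwu_u4 M q E h2 hq hodd hqM h4)
          (incl (alphaHom M q E) (alphaHom_algebraMap M q E) (u4E M E h4)
          (polyChart (u4E M E h4) X))) ^ q) =
          piC (alphaHom M q E (u4E M E h4)) π * g ∧
      PrinAt y (RingHom.ker (redInf π hπ (alphaHom M q E) (sigmaHom (M * q) E)
        (sigmaHom_algebraMap (M * q) E) hσfrac (u4E M E h4) (u4 O) (hσu_u4 M q E h4)))
        ((Fermat.Agent.S34.Modular.ChartZero.wChart (alphaHom M q E) (u4E M E h4)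
          (wHom M q E hq hqM) (wHom_algebraMap M q E hq hqM) (wHom_wHom M q E hq hqM)
          (hwu_u4 M q E h2 hq hodd hqM h4)
          (incl (alphaHom M q E) (alphaHom_algebraMap M q E) (u4E M E h4)
          (polyChart (u4E M E h4) X))) -
        (incl (alphaHom M q E) (alphaHom_algebraMap M q E) (u4E M E h4)
          (polyChart (u4E M E h4) X)) ^ q) ∧
      PrinAt y (RingHom.ker (redZero π hπ (alphaHom M q E) (sigmaHom (M * q) E)
        (sigmaHom_algebraMap (M * q) E) hσfrac (u4E M E h4) (u4 O) (hσu_u4 M q E h4)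
        (wHom M q E hq hqM) (wHom_algebraMap M q E hq hqM) q
        (sigmaHom_wHom_alpha M q E hq hqM)))
        ((incl (alphaHom M q E) (alphaHom_algebraMap M q E) (u4E M E h4)
          (polyChart (u4E M E h4) X)) -
        (Fermat.Agent.S34.Modular.ChartZero.wChart (alphaHom M q E) (u4E M E h4)
          (wHom M q E hq hqM) (wHom_algebraMap M q E hq hqM) (wHom_wHom M q E hq hqM)
          (hwu_u4 M q E h2 hq hodd hqM h4)
          (incl (alphaHom M q E) (alphaHom_algebraMap M q E) (u4E M E h4)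
          (polyChart (u4E M E h4) X))) ^ q) ∧
      ∀ m ∈ y, ∃ s, s ∉ y ∧ s * m ∈ Ideal.span
        {((Fermat.Agent.S34.Modular.ChartZero.wChart (alphaHom M q E) (u4E M E h4)
          (wHom M q E hq hqM) (wHom_algebraMap M q E hq hqM) (wHom_wHom M q E hq hqM)
          (hwu_u4 M q E h2 hq hodd hqM h4)
          (incl (alphaHom M q E) (alphaHom_algebraMap M q E) (u4E M E h4)
          (polyChart (u4E M E h4) X))) -
        (incl (alphaHom M q E) (alphaHom_algebraMap M q E) (u4E M E h4)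
          (polyChart (u4E M E h4) X)) ^ q),
        ((incl (alphaHom M q E) (alphaHom_algebraMap M q E) (u4E M E h4)
          (polyChart (u4E M E h4) X)) -
        (Fermat.Agent.S34.Modular.ChartZero.wChart (alphaHom M q E) (u4E M E h4)
          (wHom M q E hq hqM) (wHom_algebraMap M q E hq hqM) (wHom_wHom M q E hq hqM)
          (hwu_u4 M q E h2 hq hodd hqM h4)
          (incl (alphaHom M q E) (alphaHom_algebraMap M q E) (u4E M E h4)
          (polyChart (u4E M E h4) X))) ^ q)} := by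
  classical
  letI := algebraOL O E (LE M E)
  letI := algebraOL O E (LE (M * q) E)
  haveI := isScalarTower_OL O E (LE M E)
  haveI := isScalarTower_OL O E (LE (M * q) E)
  have hfg := u4_fin_gauss M E h4 hFG
  have hfin : FiniteDimensional (IntermediateField.adjoin E {u4E M E h4}) (LE M E) := hfg.1
  haveI := hfin
  have hcf := Fermat.Agent.S36.Haupt4.Fibre.chartFacts_u4 M E h4 h2 hFG π hπ
  have hwu := hwu_u4 M q E (O := O) h2 hq hodd hqM h4
  haveI : Fact q.Prime := ⟨hq⟩
  haveI : CharP (IsLocalRing.ResidueField O) q :=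
    Fermat.Agent.S36.DerUnram.charP_residue π hπ q ⟨e, hqe⟩
  have hG : ∀ π : O, Irreducible π → GaussUnram (E := E) π (u4E M E h4) := hfg.2
  have hT : Transcendental E (u4E M E h4) := transcendental_u4E M E h4
  -- the cusp values
  have h0S : (0 : O) ∈ ({0, -16} : Finset O) := by simp
  have h16S : (-16 : O) ∈ ({0, -16} : Finset O) := by simp
  have hSint : ∀ c ∈ ({0, -16} : Finset O), ∃ z : ℤ, c = (z : O) := by
    intro c hc
    simp only [Finset.mem_insert, Finset.mem_singleton] at hc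
    rcases hc with rfl | rfl
    · exact ⟨0, by simp⟩
    · exact ⟨-16, by simp⟩
  have hSres : ∀ c ∈ ({0, -16} : Finset O),
      IsLocalRing.residue O c ^ q = IsLocalRing.residue O c := by
    intro c hc
    obtain ⟨z, rfl⟩ := hSint c hc
    exact Fermat.Agent.S36.A2.residue_intCast_pow q z
  have hH : HorizUnram (E := E) ({0, -16} : Finset O) (u4E M E h4) :=
    u4_horiz M E h4 _ h0S h16S
  -- level `M q`
  haveI := Fermat.Agent.S36.Haupt4.LevelQ.finiteDimensional_alpha_u4E M q E h4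
  have hHL : HorizUnram (E := E) ({0, -16} : Finset O) (alphaHom M q E (u4E M E h4)) :=
    Fermat.Agent.S36.Haupt4.LevelQ.horizUnram_alpha_u4E M q E h4 _ h0S h16S
  have hnb := Fermat.Agent.S36.ThickCusp.hnb_of_isIntegral π hπ (alphaHom M q E)
    (alphaHom_algebraMap M q E) (sigmaHom (M * q) E) (sigmaHom_algebraMap (M * q) E) hσfrac
    (u4E M E h4) (u4 O) (hσu_u4 M q E h4) (wHom M q E hq hqM) (wHom_algebraMap M q E hq hqM) q
    (sigmaHom_wHom_alpha M q E hq hqM) (wHom_wHom M q E hq hqM) hord_u4 hq.two_le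
    (hfrob_u4 q hq) hwu ({0, -16} : Finset O) hSres
    (Fermat.Agent.S36.Haupt4.LevelQ.hint_u4E M q E h2 hq hodd hqM h4)
  intro y hy hI hZ
  exact Fermat.Agent.S44.L.NodeC1.node_of_unram_pole π hπ (alphaHom M q E) (alphaHom_algebraMap M q E)
    (sigmaHom (M * q) E) (sigmaHom_algebraMap (M * q) E) hσfrac (u4E M E h4) (u4 O)
    (hσu_u4 M q E h4) (wHom M q E hq hqM) (wHom_algebraMap M q E hq hqM) q
    (sigmaHom_wHom_alpha M q E hq hqM) (wHom_wHom M q E hq hqM) hcf.prime_zero (hcop_u4 q)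
    hord_u4 hq.two_le (hfrob_u4 q hq) hwu (hrank_u4 M q E hq hqM h4) e he hqe hT (hG π hπ)
    ({0, -16} : Finset O) hH hcf.normal_zero hcf.regAt_zero hHL h0S
    (Fermat.Agent.S36.A2.frobStable_of_intCast q _ hSint) y hy hI hZ (hnb y hy hI hZ)

/-- **Smooth points of the `∞`-component at `u₄`**: at a maximal `y ⊇ p_∞` off `p_0`,
`p_∞ = (π)` and `y = (π, z)` locally at `y`. -/
theorem smooth_inf_u4 (hq : q.Prime) (hodd : q ≠ 2) (hqM : ¬ q ∣ M) (h4 : 4 ∣ M)
    (h2 : IsUnit (2 : O)) (hFG : FinGaussC M O E) (π : O) (hπ : Irreducible π)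
    (e : O) (he : IsUnit e) (hqe : ((q : ℕ) : O) = π * e)
    (hσfrac : ∀ x : LE (M * q) E, sigmaHom (M * q) E x ∈ GaussDVR.fracField O E) :
    letI := algebraOL O E (LE M E)
    letI := algebraOL O E (LE (M * q) E)
    haveI := isScalarTower_OL O E (LE M E)
    haveI := isScalarTower_OL O E (LE (M * q) E)
    ∀ y : Ideal (Chart O (alphaHom M q E (u4E M E h4))), y.IsMaximal →
      RingHom.ker (redInf π hπ (alphaHom M q E) (sigmaHom (M * q) E)
        (sigmaHom_algebraMap (M * q) E) hσfrac (u4E M E h4) (u4 O) (hσu_u4 M q E h4)) ≤ y →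
      ¬ RingHom.ker (redZero π hπ (alphaHom M q E) (sigmaHom (M * q) E)
        (sigmaHom_algebraMap (M * q) E) hσfrac (u4E M E h4) (u4 O) (hσu_u4 M q E h4)
        (wHom M q E hq hqM) (wHom_algebraMap M q E hq hqM) q
        (sigmaHom_wHom_alpha M q E hq hqM)) ≤ y →
      PrinAt y (RingHom.ker (redInf π hπ (alphaHom M q E) (sigmaHom (M * q) E)
        (sigmaHom_algebraMap (M * q) E) hσfrac (u4E M E h4) (u4 O) (hσu_u4 M q E h4)))
        (piC (alphaHom M q E (u4E M E h4)) π) ∧
      RegNB.RegAt (piC (alphaHom M q E (u4E M E h4)) π) y := by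
  classical
  letI := algebraOL O E (LE M E)
  letI := algebraOL O E (LE (M * q) E)
  haveI := isScalarTower_OL O E (LE M E)
  haveI := isScalarTower_OL O E (LE (M * q) E)
  have hfg := u4_fin_gauss M E h4 hFG
  have hfin : FiniteDimensional (IntermediateField.adjoin E {u4E M E h4}) (LE M E) := hfg.1
  haveI := hfin
  have hcf := Fermat.Agent.S36.Haupt4.Fibre.chartFacts_u4 M E h4 h2 hFG π hπ
  have hwu := hwu_u4 M q E (O := O) h2 hq hodd hqM h4
  haveI : Fact q.Prime := ⟨hq⟩
  haveI : CharP (IsLocalRing.ResidueField O) q :=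
    Fermat.Agent.S36.DerUnram.charP_residue π hπ q ⟨e, hqe⟩
  intro y hy hI hZ
  exact Fermat.Agent.S44.L.NodeC1.smooth_inf_of_unram π hπ (alphaHom M q E) (alphaHom_algebraMap M q E)
    (sigmaHom (M * q) E) (sigmaHom_algebraMap (M * q) E) hσfrac (u4E M E h4) (u4 O)
    (hσu_u4 M q E h4) (wHom M q E hq hqM) (wHom_algebraMap M q E hq hqM) q
    (sigmaHom_wHom_alpha M q E hq hqM) (wHom_wHom M q E hq hqM) hcf.prime_zero (hcop_u4 q)
    hord_u4 hq.two_le (hfrob_u4 q hq) hwu (hrank_u4 M q E hq hqM h4)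
    hcf.normal_zero hcf.regAt_zero y hy hI hZ

/-- **Smooth points of the `0`-component at `u₄`**: at a maximal `y ⊇ p_0` off `p_∞`,
`p_0 = (π)` and `y = (π, z)` locally at `y`. -/
theorem smooth_zero_u4 (hq : q.Prime) (hodd : q ≠ 2) (hqM : ¬ q ∣ M) (h4 : 4 ∣ M)
    (h2 : IsUnit (2 : O)) (hFG : FinGaussC M O E) (π : O) (hπ : Irreducible π)
    (e : O) (he : IsUnit e) (hqe : ((q : ℕ) : O) = π * e)
    (hσfrac : ∀ x : LE (M * q) E, sigmaHom (M * q) E x ∈ GaussDVR.fracField O E) :
    letI := algebraOL O E (LE M E)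
    letI := algebraOL O E (LE (M * q) E)
    haveI := isScalarTower_OL O E (LE M E)
    haveI := isScalarTower_OL O E (LE (M * q) E)
    ∀ y : Ideal (Chart O (alphaHom M q E (u4E M E h4))), y.IsMaximal →
      RingHom.ker (redZero π hπ (alphaHom M q E) (sigmaHom (M * q) E)
        (sigmaHom_algebraMap (M * q) E) hσfrac (u4E M E h4) (u4 O) (hσu_u4 M q E h4)
        (wHom M q E hq hqM) (wHom_algebraMap M q E hq hqM) q
        (sigmaHom_wHom_alpha M q E hq hqM)) ≤ y →
      ¬ RingHom.ker (redInf π hπ (alphaHom M q E) (sigmaHom (M * q) E)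
        (sigmaHom_algebraMap (M * q) E) hσfrac (u4E M E h4) (u4 O) (hσu_u4 M q E h4)) ≤ y →
      PrinAt y (RingHom.ker (redZero π hπ (alphaHom M q E) (sigmaHom (M * q) E)
        (sigmaHom_algebraMap (M * q) E) hσfrac (u4E M E h4) (u4 O) (hσu_u4 M q E h4)
        (wHom M q E hq hqM) (wHom_algebraMap M q E hq hqM) q
        (sigmaHom_wHom_alpha M q E hq hqM)))
        (piC (alphaHom M q E (u4E M E h4)) π) ∧
      RegNB.RegAt (piC (alphaHom M q E (u4E M E h4)) π) y := by
  classical
  letI := algebraOL O E (LE M E)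
  letI := algebraOL O E (LE (M * q) E)
  haveI := isScalarTower_OL O E (LE M E)
  haveI := isScalarTower_OL O E (LE (M * q) E)
  have hfg := u4_fin_gauss M E h4 hFG
  have hfin : FiniteDimensional (IntermediateField.adjoin E {u4E M E h4}) (LE M E) := hfg.1
  haveI := hfin
  have hcf := Fermat.Agent.S36.Haupt4.Fibre.chartFacts_u4 M E h4 h2 hFG π hπ
  have hwu := hwu_u4 M q E (O := O) h2 hq hodd hqM h4
  haveI : Fact q.Prime := ⟨hq⟩
  haveI : CharP (IsLocalRing.ResidueField O) q :=
    Fermat.Agent.S36.DerUnram.charP_residue π hπ q ⟨e, hqe⟩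
  intro y hy hZ hI
  exact Fermat.Agent.S44.L.NodeC1.smooth_zero_of_unram π hπ (alphaHom M q E) (alphaHom_algebraMap M q E)
    (sigmaHom (M * q) E) (sigmaHom_algebraMap (M * q) E) hσfrac (u4E M E h4) (u4 O)
    (hσu_u4 M q E h4) (wHom M q E hq hqM) (wHom_algebraMap M q E hq hqM) q
    (sigmaHom_wHom_alpha M q E hq hqM) (wHom_wHom M q E hq hqM) hcf.prime_zero (hcop_u4 q)
    hord_u4 hq.two_le (hfrob_u4 q hq) hwu (hrank_u4 M q E hq hqM h4)
    hcf.normal_zero hcf.regAt_zero y hy hZ hI

end Generic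

/-! ### The arithmetic instances `O = OE A K` -/

section Arithmetic

variable (A : ValuationSubring Qb) (M q : ℕ) [NeZero M] [NeZero q]

/-- Every prime of the level-`q` chart ring at `u₄` containing `π` contains `p_∞` or `p_0`. -/
theorem mem_or_mem_u4_OE (hq : q.Prime) (hodd : q ≠ 2) (hqM : ¬ q ∣ M) (h4 : 4 ∣ M)
    (hA : A.LiesOverPrime q) (K : IntermediateField ℚ Qb) [FiniteDimensional ℚ K]
    [IsDiscreteValuationRing (OE A K)] (z : Qb) (hz : IsPrimitiveRoot z M) (hzK : z ∈ K)
    (h2 : IsUnit (2 : OE A K)) (π : OE A K) (hπ : Irreducible π)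
    (e : OE A K) (he : IsUnit e) (hqe : ((q : ℕ) : OE A K) = π * e) :
    letI := algebraOL (OE A K) K (LE M K)
    letI := algebraOL (OE A K) K (LE (M * q) K)
    haveI := isScalarTower_OL (OE A K) K (LE M K)
    haveI := isScalarTower_OL (OE A K) K (LE (M * q) K)
    ∀ y : Ideal (Chart (OE A K) (alphaHom M q K (u4E M K h4))), y.IsPrime → piC (alphaHom M q K (u4E M K h4)) π ∈ y →
      RingHom.ker (redInf π hπ (alphaHom M q K) (sigmaHom (M * q) K)
        (sigmaHom_algebraMap (M * q) K) (sigmaHom_mem_fracField (M * q) K A) (u4E M K h4) (u4 (OE A K)) (hσu_u4 M q K h4)) ≤ y ∨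
      RingHom.ker (redZero π hπ (alphaHom M q K) (sigmaHom (M * q) K)
        (sigmaHom_algebraMap (M * q) K) (sigmaHom_mem_fracField (M * q) K A) (u4E M K h4) (u4 (OE A K)) (hσu_u4 M q K h4)
        (wHom M q K hq hqM) (wHom_algebraMap M q K hq hqM) q
        (sigmaHom_wHom_alpha M q K hq hqM)) ≤ y := by
  haveI : Fact q.Prime := ⟨hq⟩
  exact mem_or_mem_u4 (O := OE A K) M q K hq hodd hqM h4 h2
    (Fermat.Agent.S36.Haupt4.Fibre.finGaussC_OE A M hqM hA K z hz hzK) π hπ e he hqe
    (sigmaHom_mem_fracField (M * q) K A)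

/-- **The node at `u₄`**: at every maximal ideal `y` of the level-`q` chart ring on both
components, `t₁ * t₂ = π * g` with `g ∉ y`, `p_∞ = (t₁)`, `p_0 = (t₂)` and `y = (t₁, t₂)` locally
at `y`, where `t₁ = V - U ^ q`, `t₂ = U - V ^ q`. -/
theorem node_u4_OE (hq : q.Prime) (hodd : q ≠ 2) (hqM : ¬ q ∣ M) (h4 : 4 ∣ M)
    (hA : A.LiesOverPrime q) (K : IntermediateField ℚ Qb) [FiniteDimensional ℚ K]
    [IsDiscreteValuationRing (OE A K)] (z : Qb) (hz : IsPrimitiveRoot z M) (hzK : z ∈ K)
    (h2 : IsUnit (2 : OE A K)) (π : OE A K) (hπ : Irreducible π)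
    (e : OE A K) (he : IsUnit e) (hqe : ((q : ℕ) : OE A K) = π * e) :
    letI := algebraOL (OE A K) K (LE M K)
    letI := algebraOL (OE A K) K (LE (M * q) K)
    haveI := isScalarTower_OL (OE A K) K (LE M K)
    haveI := isScalarTower_OL (OE A K) K (LE (M * q) K)
    ∀ y : Ideal (Chart (OE A K) (alphaHom M q K (u4E M K h4))), y.IsMaximal →
      RingHom.ker (redInf π hπ (alphaHom M q K) (sigmaHom (M * q) K)
        (sigmaHom_algebraMap (M * q) K) (sigmaHom_mem_fracField (M * q) K A) (u4E M K h4) (u4 (OE A K)) (hσu_u4 M q K h4)) ≤ y →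
      RingHom.ker (redZero π hπ (alphaHom M q K) (sigmaHom (M * q) K)
        (sigmaHom_algebraMap (M * q) K) (sigmaHom_mem_fracField (M * q) K A) (u4E M K h4) (u4 (OE A K)) (hσu_u4 M q K h4)
        (wHom M q K hq hqM) (wHom_algebraMap M q K hq hqM) q
        (sigmaHom_wHom_alpha M q K hq hqM)) ≤ y →
      ∃ g : Chart (OE A K) (alphaHom M q K (u4E M K h4)), g ∉ y ∧
        ((Fermat.Agent.S34.Modular.ChartZero.wChart (alphaHom M q K) (u4E M K h4)
          (wHom M q K hq hqM) (wHom_algebraMap M q K hq hqM) (wHom_wHom M q K hq hqM)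
          (hwu_u4 M q K h2 hq hodd hqM h4)
          (incl (alphaHom M q K) (alphaHom_algebraMap M q K) (u4E M K h4)
          (polyChart (u4E M K h4) X))) -
        (incl (alphaHom M q K) (alphaHom_algebraMap M q K) (u4E M K h4)
          (polyChart (u4E M K h4) X)) ^ q) *
        ((incl (alphaHom M q K) (alphaHom_algebraMap M q K) (u4E M K h4)
          (polyChart (u4E M K h4) X)) -
        (Fermat.Agent.S34.Modular.ChartZero.wChart (alphaHom M q K) (u4E M K h4)
          (wHom M q K hq hqM) (wHom_algebraMap M q K hq hqM) (wHom_wHom M q K hq hqM)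
          (hwu_u4 M q K h2 hq hodd hqM h4)
          (incl (alphaHom M q K) (alphaHom_algebraMap M q K) (u4E M K h4)
          (polyChart (u4E M K h4) X))) ^ q) =
          piC (alphaHom M q K (u4E M K h4)) π * g ∧
      PrinAt y (RingHom.ker (redInf π hπ (alphaHom M q K) (sigmaHom (M * q) K)
        (sigmaHom_algebraMap (M * q) K) (sigmaHom_mem_fracField (M * q) K A) (u4E M K h4) (u4 (OE A K)) (hσu_u4 M q K h4)))
        ((Fermat.Agent.S34.Modular.ChartZero.wChart (alphaHom M q K) (u4E M K h4)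
          (wHom M q K hq hqM) (wHom_algebraMap M q K hq hqM) (wHom_wHom M q K hq hqM)
          (hwu_u4 M q K h2 hq hodd hqM h4)
          (incl (alphaHom M q K) (alphaHom_algebraMap M q K) (u4E M K h4)
          (polyChart (u4E M K h4) X))) -
        (incl (alphaHom M q K) (alphaHom_algebraMap M q K) (u4E M K h4)
          (polyChart (u4E M K h4) X)) ^ q) ∧
      PrinAt y (RingHom.ker (redZero π hπ (alphaHom M q K) (sigmaHom (M * q) K)
        (sigmaHom_algebraMap (M * q) K) (sigmaHom_mem_fracField (M * q) K A) (u4E M K h4) (u4 (OE A K)) (hσu_u4 M q K h4)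
        (wHom M q K hq hqM) (wHom_algebraMap M q K hq hqM) q
        (sigmaHom_wHom_alpha M q K hq hqM)))
        ((incl (alphaHom M q K) (alphaHom_algebraMap M q K) (u4E M K h4)
          (polyChart (u4E M K h4) X)) -
        (Fermat.Agent.S34.Modular.ChartZero.wChart (alphaHom M q K) (u4E M K h4)
          (wHom M q K hq hqM) (wHom_algebraMap M q K hq hqM) (wHom_wHom M q K hq hqM)
          (hwu_u4 M q K h2 hq hodd hqM h4)
          (incl (alphaHom M q K) (alphaHom_algebraMap M q K) (u4E M K h4)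
          (polyChart (u4E M K h4) X))) ^ q) ∧
      ∀ m ∈ y, ∃ s, s ∉ y ∧ s * m ∈ Ideal.span
        {((Fermat.Agent.S34.Modular.ChartZero.wChart (alphaHom M q K) (u4E M K h4)
          (wHom M q K hq hqM) (wHom_algebraMap M q K hq hqM) (wHom_wHom M q K hq hqM)
          (hwu_u4 M q K h2 hq hodd hqM h4)
          (incl (alphaHom M q K) (alphaHom_algebraMap M q K) (u4E M K h4)
          (polyChart (u4E M K h4) X))) -
        (incl (alphaHom M q K) (alphaHom_algebraMap M q K) (u4E M K h4)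
          (polyChart (u4E M K h4) X)) ^ q),
        ((incl (alphaHom M q K) (alphaHom_algebraMap M q K) (u4E M K h4)
          (polyChart (u4E M K h4) X)) -
        (Fermat.Agent.S34.Modular.ChartZero.wChart (alphaHom M q K) (u4E M K h4)
          (wHom M q K hq hqM) (wHom_algebraMap M q K hq hqM) (wHom_wHom M q K hq hqM)
          (hwu_u4 M q K h2 hq hodd hqM h4)
          (incl (alphaHom M q K) (alphaHom_algebraMap M q K) (u4E M K h4)
          (polyChart (u4E M K h4) X))) ^ q)} := by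
  haveI : Fact q.Prime := ⟨hq⟩
  exact node_u4 (O := OE A K) M q K hq hodd hqM h4 h2
    (Fermat.Agent.S36.Haupt4.Fibre.finGaussC_OE A M hqM hA K z hz hzK) π hπ e he hqe
    (sigmaHom_mem_fracField (M * q) K A)

/-- **Smooth points of the `∞`-component at `u₄`**: at a maximal `y ⊇ p_∞` off `p_0`,
`p_∞ = (π)` and `y = (π, z)` locally at `y`. -/
theorem smooth_inf_u4_OE (hq : q.Prime) (hodd : q ≠ 2) (hqM : ¬ q ∣ M) (h4 : 4 ∣ M)
    (hA : A.LiesOverPrime q) (K : IntermediateField ℚ Qb) [FiniteDimensional ℚ K]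
    [IsDiscreteValuationRing (OE A K)] (z : Qb) (hz : IsPrimitiveRoot z M) (hzK : z ∈ K)
    (h2 : IsUnit (2 : OE A K)) (π : OE A K) (hπ : Irreducible π)
    (e : OE A K) (he : IsUnit e) (hqe : ((q : ℕ) : OE A K) = π * e) :
    letI := algebraOL (OE A K) K (LE M K)
    letI := algebraOL (OE A K) K (LE (M * q) K)
    haveI := isScalarTower_OL (OE A K) K (LE M K)
    haveI := isScalarTower_OL (OE A K) K (LE (M * q) K)
    ∀ y : Ideal (Chart (OE A K) (alphaHom M q K (u4E M K h4))), y.IsMaximal →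
      RingHom.ker (redInf π hπ (alphaHom M q K) (sigmaHom (M * q) K)
        (sigmaHom_algebraMap (M * q) K) (sigmaHom_mem_fracField (M * q) K A) (u4E M K h4) (u4 (OE A K)) (hσu_u4 M q K h4)) ≤ y →
      ¬ RingHom.ker (redZero π hπ (alphaHom M q K) (sigmaHom (M * q) K)
        (sigmaHom_algebraMap (M * q) K) (sigmaHom_mem_fracField (M * q) K A) (u4E M K h4) (u4 (OE A K)) (hσu_u4 M q K h4)
        (wHom M q K hq hqM) (wHom_algebraMap M q K hq hqM) q
        (sigmaHom_wHom_alpha M q K hq hqM)) ≤ y →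
      PrinAt y (RingHom.ker (redInf π hπ (alphaHom M q K) (sigmaHom (M * q) K)
        (sigmaHom_algebraMap (M * q) K) (sigmaHom_mem_fracField (M * q) K A) (u4E M K h4) (u4 (OE A K)) (hσu_u4 M q K h4)))
        (piC (alphaHom M q K (u4E M K h4)) π) ∧
      RegNB.RegAt (piC (alphaHom M q K (u4E M K h4)) π) y := by
  haveI : Fact q.Prime := ⟨hq⟩
  exact smooth_inf_u4 (O := OE A K) M q K hq hodd hqM h4 h2
    (Fermat.Agent.S36.Haupt4.Fibre.finGaussC_OE A M hqM hA K z hz hzK) π hπ e he hqe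
    (sigmaHom_mem_fracField (M * q) K A)

/-- **Smooth points of the `0`-component at `u₄`**: at a maximal `y ⊇ p_0` off `p_∞`,
`p_0 = (π)` and `y = (π, z)` locally at `y`. -/
theorem smooth_zero_u4_OE (hq : q.Prime) (hodd : q ≠ 2) (hqM : ¬ q ∣ M) (h4 : 4 ∣ M)
    (hA : A.LiesOverPrime q) (K : IntermediateField ℚ Qb) [FiniteDimensional ℚ K]
    [IsDiscreteValuationRing (OE A K)] (z : Qb) (hz : IsPrimitiveRoot z M) (hzK : z ∈ K)
    (h2 : IsUnit (2 : OE A K)) (π : OE A K) (hπ : Irreducible π)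
    (e : OE A K) (he : IsUnit e) (hqe : ((q : ℕ) : OE A K) = π * e) :
    letI := algebraOL (OE A K) K (LE M K)
    letI := algebraOL (OE A K) K (LE (M * q) K)
    haveI := isScalarTower_OL (OE A K) K (LE M K)
    haveI := isScalarTower_OL (OE A K) K (LE (M * q) K)
    ∀ y : Ideal (Chart (OE A K) (alphaHom M q K (u4E M K h4))), y.IsMaximal →
      RingHom.ker (redZero π hπ (alphaHom M q K) (sigmaHom (M * q) K)
        (sigmaHom_algebraMap (M * q) K) (sigmaHom_mem_fracField (M * q) K A) (u4E M K h4) (u4 (OE A K)) (hσu_u4 M q K h4)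
        (wHom M q K hq hqM) (wHom_algebraMap M q K hq hqM) q
        (sigmaHom_wHom_alpha M q K hq hqM)) ≤ y →
      ¬ RingHom.ker (redInf π hπ (alphaHom M q K) (sigmaHom (M * q) K)
        (sigmaHom_algebraMap (M * q) K) (sigmaHom_mem_fracField (M * q) K A) (u4E M K h4) (u4 (OE A K)) (hσu_u4 M q K h4)) ≤ y →
      PrinAt y (RingHom.ker (redZero π hπ (alphaHom M q K) (sigmaHom (M * q) K)
        (sigmaHom_algebraMap (M * q) K) (sigmaHom_mem_fracField (M * q) K A) (u4E M K h4) (u4 (OE A K)) (hσu_u4 M q K h4)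
        (wHom M q K hq hqM) (wHom_algebraMap M q K hq hqM) q
        (sigmaHom_wHom_alpha M q K hq hqM)))
        (piC (alphaHom M q K (u4E M K h4)) π) ∧
      RegNB.RegAt (piC (alphaHom M q K (u4E M K h4)) π) y := by
  haveI : Fact q.Prime := ⟨hq⟩
  exact smooth_zero_u4 (O := OE A K) M q K hq hodd hqM h4 h2
    (Fermat.Agent.S36.Haupt4.Fibre.finGaussC_OE A M hqM hA K z hz hzK) π hπ e he hqe
    (sigmaHom_mem_fracField (M * q) K A)

end Arithmetic

end Fermat.Agent.S44.L.NodeC1Inst
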