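import Mathlib
import Fermat.Agent.S44.L.NodeLoc
import Fermat.Agent.S44.L.NodeC1Inst

/-!
# S44 (Mazur–Ribet), strand L: the local rings of the C1 chart

`S44/L/NodeLoc` applied to `S44/L/NodeC1` (level-free, binder block of `NodeC1`) and to
`S44/L/NodeC1Inst` (the `u₄` objects).  For every closed point `y` of the special fibre of the
level-`ℓ M` chart `C = Chart O (α u')` the local ring `R₀ = Localization.AtPrime y` is a
noetherian, integrally closed local domain and

* `node_loc_of_unram_pole` / `node_loc_u4` (crossing points): there is `x ~ a t₁` with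
  `x * a t₂ = ℓ`, `x` and `a t₂` non-associated primes, `𝔪 = (x, a t₂)` — the hypotheses of
  `NodeCover.exists_node_cover` and the node block of `Node.node_lemma`;
* `smooth_inf_loc_of_unram`, `smooth_zero_loc_of_unram` / `smooth_inf_loc_u4`,
  `smooth_zero_loc_u4` (points on one component): `ℓ` is a prime element of `R₀` and
  `𝔪 = (ℓ, θ)`.

Level-free helpers: `algebraLoc`, `isScalarTower_loc`, `isFractionRing_loc` (the local ring
inside the fraction field), `smooth_localization_nat`, `isNoetherianRing_chart'`,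
`t1_notMem_ker_redZero`; `isFractionRing_chart_u4` (`Frac C = LE (M q) E`).
For `O = OE A K` instantiate the generic statements (`(O := OE A K)`, `hFG :=
`Fibre.finGaussC_OE ..`, `hσfrac := sigmaHom_mem_fracField ..`); keep `O` generic as long as
possible: statements on `Localization.AtPrime y` elaborate slowly over the concrete `OE A K`.
-/

set_option autoImplicit false
set_option linter.unusedSectionVars false
set_option linter.unusedVariables false
set_option linter.style.haveILetI false
set_option synthInstance.maxHeartbeats 400000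
set_option maxHeartbeats 1000000

open ModularCurve Polynomial IntermediateField

noncomputable section

namespace Fermat.Agent.S44.L.NodeLocInst

open Fermat.Agent.S30 Fermat.Agent.S34 Fermat.Agent.S34.TwoPrimesGauss
open Fermat.Agent.S36.PrinAt Fermat.Agent.S30.Model

/-! ### Level-free: the local ring inside the fraction field -/

section Frac

variable {C : Type*} [CommRing C] [IsDomain C] (L : Type*) [Field L] [Algebra C L]
  [IsFractionRing C L] (y : Ideal C) [y.IsPrime]

theorem isUnit_algebraMap_primeCompl (s : y.primeCompl) : IsUnit (algebraMap C L (s : C)) := by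
  have hs0 : (s : C) ≠ 0 := fun h => s.2 (h ▸ y.zero_mem)
  exact (IsFractionRing.to_map_ne_zero_of_mem_nonZeroDivisors
    (mem_nonZeroDivisors_of_ne_zero hs0)).isUnit

/-- The local ring `C_y` as a subring of the fraction field `L` of `C`. -/
def algebraLoc : Algebra (Localization.AtPrime y) L :=
  (IsLocalization.lift (M := y.primeCompl) (g := algebraMap C L)
    (isUnit_algebraMap_primeCompl L y)).toAlgebra

theorem isScalarTower_loc :
    letI := algebraLoc L y
    IsScalarTower C (Localization.AtPrime y) L := by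
  letI := algebraLoc L y
  exact IsScalarTower.of_algebraMap_eq fun x =>
    (IsLocalization.lift_eq (isUnit_algebraMap_primeCompl L y) x).symm

theorem isFractionRing_loc :
    letI := algebraLoc L y
    IsFractionRing (Localization.AtPrime y) L := by
  letI := algebraLoc L y
  haveI := isScalarTower_loc L y
  exact IsFractionRing.isFractionRing_of_isDomain_of_isLocalization y.primeCompl
    (Localization.AtPrime y) L

end Frac

section SmoothNat

variable {C : Type*} [CommRing C] [IsDomain C] (y : Ideal C) [y.IsPrime]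

/-- **The local ring at a smooth point, normalised** (`p = ϖ * e`, `e ∉ y`): `p` is a prime
element of `C_y` and `𝔪 = (p, a z)`. -/
theorem smooth_localization_nat (P : Ideal C) [P.IsPrime] (hP : P ≤ y) (ϖ : C) (hϖ0 : ϖ ≠ 0)
    (hϖP : ϖ ∈ P) (hgen : ∀ x ∈ P, ∃ s, s ∉ y ∧ s * x ∈ Ideal.span {ϖ})
    (z : C) (hz : z ∈ y) (hm : ∀ m ∈ y, ∃ s, s ∉ y ∧ s * m ∈ Ideal.span {ϖ, z})
    (p : ℕ) (e : C) (he : e ∉ y) (hp : (p : C) = ϖ * e) :
    Prime ((p : ℕ) : Localization.AtPrime y) ∧
      IsLocalRing.maximalIdeal (Localization.AtPrime y) =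
        Ideal.span {((p : ℕ) : Localization.AtPrime y),
          algebraMap C (Localization.AtPrime y) z} := by
  obtain ⟨hprime, hmax⟩ := Fermat.Agent.S44.L.NodeLoc.smooth_localization y P hP ϖ hϖ0 hϖP hgen
    z hz hm
  obtain ⟨ue, hue⟩ := Fermat.Agent.S44.L.NodeLoc.isUnit_algebraMap_of_notMem y he
  have h2 : ((p : ℕ) : Localization.AtPrime y) =
      algebraMap C (Localization.AtPrime y) ϖ * ↑ue := by
    rw [hue, ← map_mul, ← hp, map_natCast]
  have hass : Associated (algebraMap C (Localization.AtPrime y) ϖ)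
      ((p : ℕ) : Localization.AtPrime y) := ⟨ue, h2.symm⟩
  refine ⟨hass.prime hprime, ?_⟩
  rw [hmax, h2, Ideal.span_insert,
    Ideal.span_insert (algebraMap C (Localization.AtPrime y) ϖ * ↑ue),
    Ideal.span_singleton_mul_right_unit ue.isUnit]

end SmoothNat

/-! ### Level-free: chart facts -/

section Chart

variable {O E L : Type*} [CommRing O] [IsDomain O] [IsDiscreteValuationRing O] [Field E]
  [CharZero E] [Algebra O E] [IsFractionRing O E] [Field L] [Algebra E L] [Algebra O L]
  [IsScalarTower O E L]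

/-- A chart ring is noetherian. -/
theorem isNoetherianRing_chart' (t : L) (ht : Transcendental E t)
    [FiniteDimensional (IntermediateField.adjoin E {t}) L] : IsNoetherianRing (Chart O t) := by
  have htO : Transcendental O t := ChartProv.transcendental_base t ht
  have noethP : IsNoetherianRing (Algebra.adjoin O ({t} : Set L)) :=
    ChartInst.isNoetherianRing_adjoin O t htO
  have finB : Module.Finite (Algebra.adjoin O ({t} : Set L))
      (integralClosure (Algebra.adjoin O ({t} : Set L)) L) := ChartProv.chart_finite t ht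
  exact IsNoetherianRing.of_finite (Algebra.adjoin O ({t} : Set L)) _

omit [IsDomain O] [IsDiscreteValuationRing O] [CharZero E] [IsFractionRing O E] [Algebra E L]
  [IsScalarTower O E L] [Field E] [Algebra O E] in
theorem natCast_eq_piC_mul (t : L) (p : ℕ) (π e : O) (hp : ((p : ℕ) : O) = π * e) :
    ((p : ℕ) : Chart O t) = piC t π * piC t e := by
  have h1 : piC t (π * e) = piC t π * piC t e := by
    simp only [piC, map_mul]
  rw [← h1, ← hp]
  simp only [piC, map_natCast]

omit [IsDomain O] [IsDiscreteValuationRing O] [CharZero E] [IsFractionRing O E] [Algebra E L]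
  [IsScalarTower O E L] [Field E] [Algebra O E] in
theorem isUnit_piC (t : L) (e : O) (he : IsUnit e) : IsUnit (piC t e) :=
  (he.map (algebraMap O (Algebra.adjoin O ({t} : Set L)))).map
    (algebraMap (Algebra.adjoin O ({t} : Set L)) (Chart O t))

theorem piC_ne_zero' (t : L) (π : O) (hπ : π ≠ 0)
    (hinj : Function.Injective (algebraMap O L)) : piC t π ≠ 0 := by
  intro h
  have h1 : algebraMap O L π = 0 := by
    rw [← coe_piC t π, h]
    rfl
  exact hπ (hinj (h1.trans (map_zero _).symm))

end Chart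

/-! ### Level-free: the local rings of the level-`ℓ M` chart -/

section Main

variable {O E : Type*} [CommRing O] [IsDomain O] [IsDiscreteValuationRing O] [Field E]
  [CharZero E] [Algebra O E] [IsFractionRing O E]
  {L' L : Type*} [Field L'] [Field L] [Algebra E L'] [Algebra O L'] [IsScalarTower O E L']
  [Algebra O L] [Algebra E L] [IsScalarTower O E L]
  (ϖ : O) (hϖ : Irreducible ϖ)
  (α : L' →+* L) (hαO : ∀ r : O, α (algebraMap O L' r) = algebraMap O L r)
  (σ : L →+* LaurentSeries E)
  (hσO : ∀ r : O, σ (algebraMap O L r) = HahnSeries.C (algebraMap O E r))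
  (hσfrac : ∀ x : L, σ x ∈ GaussDVR.fracField O E)
  (u' : L') (U : LaurentSeries O) (hσu : σ (α u') = GaussDVR.iota O E U)
  (w : L ≃+* L) (hwO : ∀ r : O, w (algebraMap O L r) = algebraMap O L r)
  (ℓ : ℕ) [NeZero ℓ]
  (hwα : ∀ x : L', σ (w (α x)) = qExpand E ℓ (σ (α x)))
  (hww : ∀ z : L, w (w z) = z)
  (hprime : Prime (piC u' ϖ))
  (hcop : IsCoprime (GaussDVR.rho O U).order (ℓ : ℤ)) (hord : (GaussDVR.rho O U).order ≠ 0)
  (hℓ : 2 ≤ ℓ)
  (hfrob : qExpand (IsLocalRing.ResidueField O) ℓ (GaussDVR.rho O U) = GaussDVR.rho O U ^ ℓ)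
  (hwu : IsIntegral (Algebra.adjoin O {α u'}) (w (α u')))
  (hrank : ∀ v : Option (Fin 1 ⊕ Fin ℓ) → Chart O (α u'),
    ∃ c : Option (Fin 1 ⊕ Fin ℓ) → Chart O u', c ≠ 0 ∧ ∑ i, incl α hαO u' (c i) * v i = 0)

local notation "rI" => redInf ϖ hϖ α σ hσO hσfrac u' U hσu
local notation "rZ" => redZero ϖ hϖ α σ hσO hσfrac u' U hσu w hwO ℓ hwα
local notation "ι" => incl α hαO u'
local notation "uC" => incl α hαO u' (polyChart u' X)
local notation "vC" =>
  Fermat.Agent.S34.Modular.ChartZero.wChart α u' w hwO hww hwu (incl α hαO u' (polyChart u' X))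
local notation "aL" y => algebraMap (Chart O (α u')) (Localization.AtPrime y)

include hϖ hσO hσfrac hσu hwα hww hfrob hord hℓ in
/-- `t₁ = vC - uC ^ ℓ` does not vanish on the `0`-component. -/
theorem t1_notMem_ker_redZero : vC - uC ^ ℓ ∉ RingHom.ker rZ := by
  intro hmem
  rw [RingHom.mem_ker, map_sub, map_pow,
    Fermat.Agent.S36.ThickGauss.redZero_vC ϖ hϖ α hαO σ hσO hσfrac u' U hσu w hwO ℓ hwα hww hwu,
    Fermat.Agent.S36.ThickGauss.redZero_uC ϖ hϖ α hαO σ hσO hσfrac u' U hσu w hwO ℓ hwα,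
    hfrob] at hmem
  exact Fermat.Agent.S36.ThickGauss.rho_sub_pow_ne_zero U ℓ hord hℓ hmem

include hϖ hαO hσO hσfrac hσu hwO hwα hww hprime hcop hord hℓ hfrob hwu hrank in
/-- **The local ring at a crossing point** (binders of `NodeC1.node_of_unram_pole`):
`R₀ = C_y` is noetherian and integrally closed, and there is `x ~ a t₁` with `x * a t₂ = ℓ`;
`x`, `a t₂` are non-associated primes generating the maximal ideal of `R₀`. -/
theorem node_loc_of_unram_pole [Fact ℓ.Prime] [CharP (IsLocalRing.ResidueField O) ℓ]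
    (e : O) (he : IsUnit e) (hℓe : (ℓ : O) = ϖ * e)
    (hu : Transcendental E u') [FiniteDimensional E⟮u'⟯ L']
    (hi : GaussUnram (E := E) ϖ u') (S : Finset O) (hii : HorizUnram (E := E) S u')
    (hnormal : IsIntegrallyClosed (Chart O u' ⧸ Ideal.span {piC u' ϖ}))
    (hreg : ∀ Q : Ideal (Chart O u'), Q.IsMaximal → piC u' ϖ ∈ Q → RegNB.RegAt (piC u' ϖ) Q)
    [FiniteDimensional E⟮α u'⟯ L] (hHL : HorizUnram (E := E) S (α u')) (h0S : (0 : O) ∈ S)
    (hSfrob : ∀ c ∈ S, ∃ c' ∈ S, IsLocalRing.residue O c' ^ ℓ = IsLocalRing.residue O c)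
    (y : Ideal (Chart O (α u'))) [hy : y.IsMaximal] (hI : RingHom.ker rI ≤ y)
    (hZ : RingHom.ker rZ ≤ y)
    (hnb : ∀ c ∈ S, ∀ m : Chart O u', ι m ∈ y → (m : L') ≠ u' - algebraMap O L' c) :
    IsNoetherianRing (Localization.AtPrime y) ∧ IsIntegrallyClosed (Localization.AtPrime y) ∧
      ∃ x : Localization.AtPrime y,
        Associated x ((aL y) (vC - uC ^ ℓ)) ∧ Prime x ∧ Prime ((aL y) (uC - vC ^ ℓ)) ∧
        ¬ Associated x ((aL y) (uC - vC ^ ℓ)) ∧
        IsLocalRing.maximalIdeal (Localization.AtPrime y) =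
          Ideal.span {x, (aL y) (uC - vC ^ ℓ)} ∧
        x * (aL y) (uC - vC ^ ℓ) = ((ℓ : ℕ) : Localization.AtPrime y) := by
  classical
  haveI hNoeth : IsNoetherianRing (Chart O (α u')) :=
    isNoetherianRing_chart' (O := O) (E := E) (α u')
      (Fermat.Agent.S36.A2.transcendental_alpha α hαO u' hu)
  haveI hIC : IsIntegrallyClosed (Chart O (α u')) :=
    IsIntegrallyClosed.of_isIntegrallyClosedIn _ L
  haveI : (RingHom.ker rI).IsPrime := RingHom.ker_isPrime _
  haveI : (RingHom.ker rZ).IsPrime := RingHom.ker_isPrime _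
  have hπ0 : piC (α u') ϖ ≠ 0 := piC_ne_zero' (α u') ϖ hϖ.ne_zero
    (ChartProv.algebraMap_injective_base O E L)
  have hpq : ((ℓ : ℕ) : Chart O (α u')) = piC (α u') ϖ * piC (α u') e :=
    natCast_eq_piC_mul (α u') ℓ ϖ e hℓe
  have he' : piC (α u') e ∉ y := fun h =>
    hy.ne_top (Ideal.eq_top_of_isUnit_mem _ h (isUnit_piC (α u') e he))
  have hne := t1_notMem_ker_redZero ϖ hϖ α hαO σ hσO hσfrac u' U hσu w hwO ℓ hwα hww hord hℓ
    hfrob hwu
  obtain ⟨g, hg, hmul, hp1, hp2, hm⟩ := Fermat.Agent.S44.L.NodeC1.node_of_unram_pole ϖ hϖ α hαO σ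
    hσO hσfrac u' U hσu w hwO ℓ hwα hww hprime hcop hord hℓ hfrob hwu hrank e he hℓe hu hi S hii
    hnormal hreg hHL h0S hSfrob y hy hI hZ hnb
  exact ⟨Fermat.Agent.S44.L.NodeLoc.isNoetherianRing_localization y,
    Fermat.Agent.S44.L.NodeLoc.isIntegrallyClosed_localization y,
    Fermat.Agent.S44.L.NodeLoc.node_localization_nat y _ _ hI hZ _ _ _ g hπ0 hg hmul
      hp1.1 hp1.2 hp2.1 hp2.2 hne hm ℓ _ he' hpq⟩

include hϖ hαO hσO hσfrac hσu hwO hwα hww hprime hcop hord hℓ hfrob hwu hrank in
/-- **The local ring at a point of the `∞`-component off the `0`-component**: `R₀ = C_y` is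
noetherian and integrally closed, `ℓ` is a prime element of `R₀` and `𝔪 = (ℓ, θ)`. -/
theorem smooth_inf_loc_of_unram (e : O) (he : IsUnit e) (hℓe : (ℓ : O) = ϖ * e)
    (hu : Transcendental E u') [FiniteDimensional E⟮α u'⟯ L]
    (hnormal : IsIntegrallyClosed (Chart O u' ⧸ Ideal.span {piC u' ϖ}))
    (hreg : ∀ Q : Ideal (Chart O u'), Q.IsMaximal → piC u' ϖ ∈ Q → RegNB.RegAt (piC u' ϖ) Q)
    (y : Ideal (Chart O (α u'))) [hy : y.IsMaximal] (hI : RingHom.ker rI ≤ y)
    (hZ : ¬ RingHom.ker rZ ≤ y) :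
    IsNoetherianRing (Localization.AtPrime y) ∧ IsIntegrallyClosed (Localization.AtPrime y) ∧
      Prime ((ℓ : ℕ) : Localization.AtPrime y) ∧
      ∃ θ : Localization.AtPrime y, IsLocalRing.maximalIdeal (Localization.AtPrime y) =
        Ideal.span {((ℓ : ℕ) : Localization.AtPrime y), θ} := by
  classical
  haveI hNoeth : IsNoetherianRing (Chart O (α u')) :=
    isNoetherianRing_chart' (O := O) (E := E) (α u')
      (Fermat.Agent.S36.A2.transcendental_alpha α hαO u' hu)
  haveI hIC : IsIntegrallyClosed (Chart O (α u')) :=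
    IsIntegrallyClosed.of_isIntegrallyClosedIn _ L
  haveI : (RingHom.ker rI).IsPrime := RingHom.ker_isPrime _
  have hπ0 : piC (α u') ϖ ≠ 0 := piC_ne_zero' (α u') ϖ hϖ.ne_zero
    (ChartProv.algebraMap_injective_base O E L)
  have hpq : ((ℓ : ℕ) : Chart O (α u')) = piC (α u') ϖ * piC (α u') e :=
    natCast_eq_piC_mul (α u') ℓ ϖ e hℓe
  have he' : piC (α u') e ∉ y := fun h =>
    hy.ne_top (Ideal.eq_top_of_isUnit_mem _ h (isUnit_piC (α u') e he))
  obtain ⟨hprin, z, hz, hm⟩ := Fermat.Agent.S44.L.NodeC1.smooth_inf_of_unram ϖ hϖ α hαO σ hσO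
    hσfrac u' U hσu w hwO ℓ hwα hww hprime hcop hord hℓ hfrob hwu hrank hnormal hreg y hy hI hZ
  have h := smooth_localization_nat y _ hI _ hπ0 hprin.1 hprin.2 z hz hm ℓ _ he' hpq
  exact ⟨Fermat.Agent.S44.L.NodeLoc.isNoetherianRing_localization y,
    Fermat.Agent.S44.L.NodeLoc.isIntegrallyClosed_localization y, h.1, _, h.2⟩

include hϖ hαO hσO hσfrac hσu hwO hwα hww hprime hcop hord hℓ hfrob hwu hrank in
/-- **The local ring at a point of the `0`-component off the `∞`-component**: `R₀ = C_y` is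
noetherian and integrally closed, `ℓ` is a prime element of `R₀` and `𝔪 = (ℓ, θ)`. -/
theorem smooth_zero_loc_of_unram (e : O) (he : IsUnit e) (hℓe : (ℓ : O) = ϖ * e)
    (hu : Transcendental E u') [FiniteDimensional E⟮α u'⟯ L]
    (hnormal : IsIntegrallyClosed (Chart O u' ⧸ Ideal.span {piC u' ϖ}))
    (hreg : ∀ Q : Ideal (Chart O u'), Q.IsMaximal → piC u' ϖ ∈ Q → RegNB.RegAt (piC u' ϖ) Q)
    (y : Ideal (Chart O (α u'))) [hy : y.IsMaximal] (hZ : RingHom.ker rZ ≤ y)
    (hI : ¬ RingHom.ker rI ≤ y) :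
    IsNoetherianRing (Localization.AtPrime y) ∧ IsIntegrallyClosed (Localization.AtPrime y) ∧
      Prime ((ℓ : ℕ) : Localization.AtPrime y) ∧
      ∃ θ : Localization.AtPrime y, IsLocalRing.maximalIdeal (Localization.AtPrime y) =
        Ideal.span {((ℓ : ℕ) : Localization.AtPrime y), θ} := by
  classical
  haveI hNoeth : IsNoetherianRing (Chart O (α u')) :=
    isNoetherianRing_chart' (O := O) (E := E) (α u')
      (Fermat.Agent.S36.A2.transcendental_alpha α hαO u' hu)
  haveI hIC : IsIntegrallyClosed (Chart O (α u')) :=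
    IsIntegrallyClosed.of_isIntegrallyClosedIn _ L
  haveI : (RingHom.ker rZ).IsPrime := RingHom.ker_isPrime _
  have hπ0 : piC (α u') ϖ ≠ 0 := piC_ne_zero' (α u') ϖ hϖ.ne_zero
    (ChartProv.algebraMap_injective_base O E L)
  have hpq : ((ℓ : ℕ) : Chart O (α u')) = piC (α u') ϖ * piC (α u') e :=
    natCast_eq_piC_mul (α u') ℓ ϖ e hℓe
  have he' : piC (α u') e ∉ y := fun h =>
    hy.ne_top (Ideal.eq_top_of_isUnit_mem _ h (isUnit_piC (α u') e he))
  obtain ⟨hprin, z, hz, hm⟩ := Fermat.Agent.S44.L.NodeC1.smooth_zero_of_unram ϖ hϖ α hαO σ hσO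
    hσfrac u' U hσu w hwO ℓ hwα hww hprime hcop hord hℓ hfrob hwu hrank hnormal hreg y hy hZ hI
  have h := smooth_localization_nat y _ hZ _ hπ0 hprin.1 hprin.2 z hz hm ℓ _ he' hpq
  exact ⟨Fermat.Agent.S44.L.NodeLoc.isNoetherianRing_localization y,
    Fermat.Agent.S44.L.NodeLoc.isIntegrallyClosed_localization y, h.1, _, h.2⟩

end Main

/-! ### The instance at `u₄`, generic unramified base -/

section Generic

open Fermat.Agent.S18.K1Defs Fermat.Agent.S18.K1Main
open Fermat.Agent.S34.TwoPrimesRank Fermat.Agent.S34.HauptU.Plug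
open Fermat.Agent.S34.HauptU.LevelMAux
open Fermat.Agent.S36.Haupt4 Fermat.Agent.S36.LevelQInstAlt

local notation "Qb" => AlgebraicClosure ℚ

variable (M q : ℕ) [NeZero M] [NeZero q] (E : IntermediateField ℚ Qb)
  {O : Type} [CommRing O] [IsDomain O] [IsDiscreteValuationRing O]
  [Algebra O E] [IsFractionRing O E]

/-- `LE (M q) E` is the fraction field of the level-`M q` chart ring at `u₄`. -/
theorem isFractionRing_chart_u4 (h4 : 4 ∣ M) :
    letI := algebraOL O E (LE (M * q) E)
    haveI := isScalarTower_OL O E (LE (M * q) E)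
    IsFractionRing (Chart O (alphaHom M q E (u4E M E h4))) (LE (M * q) E) := by
  letI := algebraOL O E (LE (M * q) E)
  haveI := isScalarTower_OL O E (LE (M * q) E)
  haveI := Fermat.Agent.S36.Haupt4.LevelQ.finiteDimensional_alpha_u4E M q E h4
  exact isFractionRing_chart_of_finite (E := E) (alphaHom M q E (u4E M E h4))

/-- **The local ring at a crossing point of the `u₄` chart**: `R₀ = C_y` is noetherian and
integrally closed, and there is `x ~ a t₁` with `x * a t₂ = q`; `x`, `a t₂` are non-associated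
primes generating the maximal ideal of `R₀` (`t₁ = V - U ^ q`, `t₂ = U - V ^ q`). -/
theorem node_loc_u4 (hq : q.Prime) (hodd : q ≠ 2) (hqM : ¬ q ∣ M) (h4 : 4 ∣ M)
    (h2 : IsUnit (2 : O)) (hFG : FinGaussC M O E) (π : O) (hπ : Irreducible π)
    (e : O) (he : IsUnit e) (hqe : ((q : ℕ) : O) = π * e)
    (hσfrac : ∀ x : LE (M * q) E, sigmaHom (M * q) E x ∈ GaussDVR.fracField O E) :
    letI := algebraOL O E (LE M E)
    letI := algebraOL O E (LE (M * q) E)
    haveI := isScalarTower_OL O E (LE M E)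
    haveI := isScalarTower_OL O E (LE (M * q) E)
    ∀ (y : Ideal (Chart O (alphaHom M q E (u4E M E h4)))) [y.IsMaximal],
      RingHom.ker (redInf π hπ (alphaHom M q E) (sigmaHom (M * q) E)
        (sigmaHom_algebraMap (M * q) E) hσfrac (u4E M E h4) (u4 O) (hσu_u4 M q E h4)) ≤ y →
      RingHom.ker (redZero π hπ (alphaHom M q E) (sigmaHom (M * q) E)
        (sigmaHom_algebraMap (M * q) E) hσfrac (u4E M E h4) (u4 O) (hσu_u4 M q E h4)
        (wHom M q E hq hqM) (wHom_algebraMap M q E hq hqM) q
        (sigmaHom_wHom_alpha M q E hq hqM)) ≤ y →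
      IsNoetherianRing (Localization.AtPrime y) ∧ IsIntegrallyClosed (Localization.AtPrime y) ∧
      ∃ x : Localization.AtPrime y,
        Associated x (algebraMap (Chart O (alphaHom M q E (u4E M E h4))) (Localization.AtPrime y)
        ((Fermat.Agent.S34.Modular.ChartZero.wChart (alphaHom M q E) (u4E M E h4)
          (wHom M q E hq hqM) (wHom_algebraMap M q E hq hqM) (wHom_wHom M q E hq hqM)
          (hwu_u4 M q E h2 hq hodd hqM h4)
          (incl (alphaHom M q E) (alphaHom_algebraMap M q E) (u4E M E h4)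
          (polyChart (u4E M E h4) X))) -
        (incl (alphaHom M q E) (alphaHom_algebraMap M q E) (u4E M E h4)
          (polyChart (u4E M E h4) X)) ^ q)) ∧
        Prime x ∧
        Prime (algebraMap (Chart O (alphaHom M q E (u4E M E h4))) (Localization.AtPrime y)
        ((incl (alphaHom M q E) (alphaHom_algebraMap M q E) (u4E M E h4)
          (polyChart (u4E M E h4) X)) -
        (Fermat.Agent.S34.Modular.ChartZero.wChart (alphaHom M q E) (u4E M E h4)
          (wHom M q E hq hqM) (wHom_algebraMap M q E hq hqM) (wHom_wHom M q E hq hqM)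
          (hwu_u4 M q E h2 hq hodd hqM h4)
          (incl (alphaHom M q E) (alphaHom_algebraMap M q E) (u4E M E h4)
          (polyChart (u4E M E h4) X))) ^ q)) ∧
        ¬ Associated x (algebraMap (Chart O (alphaHom M q E (u4E M E h4))) (Localization.AtPrime y)
        ((incl (alphaHom M q E) (alphaHom_algebraMap M q E) (u4E M E h4)
          (polyChart (u4E M E h4) X)) -
        (Fermat.Agent.S34.Modular.ChartZero.wChart (alphaHom M q E) (u4E M E h4)
          (wHom M q E hq hqM) (wHom_algebraMap M q E hq hqM) (wHom_wHom M q E hq hqM)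
          (hwu_u4 M q E h2 hq hodd hqM h4)
          (incl (alphaHom M q E) (alphaHom_algebraMap M q E) (u4E M E h4)
          (polyChart (u4E M E h4) X))) ^ q)) ∧
        IsLocalRing.maximalIdeal (Localization.AtPrime y) = Ideal.span {x,
          (algebraMap (Chart O (alphaHom M q E (u4E M E h4))) (Localization.AtPrime y)
        ((incl (alphaHom M q E) (alphaHom_algebraMap M q E) (u4E M E h4)
          (polyChart (u4E M E h4) X)) -
        (Fermat.Agent.S34.Modular.ChartZero.wChart (alphaHom M q E) (u4E M E h4)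
          (wHom M q E hq hqM) (wHom_algebraMap M q E hq hqM) (wHom_wHom M q E hq hqM)
          (hwu_u4 M q E h2 hq hodd hqM h4)
          (incl (alphaHom M q E) (alphaHom_algebraMap M q E) (u4E M E h4)
          (polyChart (u4E M E h4) X))) ^ q))} ∧
        x * (algebraMap (Chart O (alphaHom M q E (u4E M E h4))) (Localization.AtPrime y)
        ((incl (alphaHom M q E) (alphaHom_algebraMap M q E) (u4E M E h4)
          (polyChart (u4E M E h4) X)) -
        (Fermat.Agent.S34.Modular.ChartZero.wChart (alphaHom M q E) (u4E M E h4)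
          (wHom M q E hq hqM) (wHom_algebraMap M q E hq hqM) (wHom_wHom M q E hq hqM)
          (hwu_u4 M q E h2 hq hodd hqM h4)
          (incl (alphaHom M q E) (alphaHom_algebraMap M q E) (u4E M E h4)
          (polyChart (u4E M E h4) X))) ^ q)) =
          ((q : ℕ) : Localization.AtPrime y) := by
  classical
  letI := algebraOL O E (LE M E)
  letI := algebraOL O E (LE (M * q) E)
  haveI := isScalarTower_OL O E (LE M E)
  haveI := isScalarTower_OL O E (LE (M * q) E)
  have hfg := u4_fin_gauss M E h4 hFG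
  have hfin : FiniteDimensional (IntermediateField.adjoin E {u4E M E h4}) (LE M E) := hfg.1
  haveI := hfin
  have hcf := Fermat.Agent.S36.Haupt4.Fibre.chartFacts_u4 M E h4 h2 hFG π hπ
  have hwu := hwu_u4 M q E (O := O) h2 hq hodd hqM h4
  haveI : Fact q.Prime := ⟨hq⟩
  haveI : CharP (IsLocalRing.ResidueField O) q :=
    Fermat.Agent.S36.DerUnram.charP_residue π hπ q ⟨e, hqe⟩
  have hT : Transcendental E (u4E M E h4) := transcendental_u4E M E h4
  haveI := Fermat.Agent.S36.Haupt4.LevelQ.finiteDimensional_alpha_u4E M q E h4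
  have hG : ∀ π : O, Irreducible π → GaussUnram (E := E) π (u4E M E h4) := hfg.2
  -- the cusp values
  have h0S : (0 : O) ∈ ({0, -16} : Finset O) := by simp
  have h16S : (-16 : O) ∈ ({0, -16} : Finset O) := by simp
  have hSint : ∀ c ∈ ({0, -16} : Finset O), ∃ z : ℤ, c = (z : O) := by
    intro c hc
    simp only [Finset.mem_insert, Finset.mem_singleton] at hc
    rcases hc with rfl | rfl
    · exact ⟨0, by simp⟩
    · exact ⟨-16, by simp⟩
  have hSres : ∀ c ∈ ({0, -16} : Finset O),
      IsLocalRing.residue O c ^ q = IsLocalRing.residue O c := by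
    intro c hc
    obtain ⟨z, rfl⟩ := hSint c hc
    exact Fermat.Agent.S36.A2.residue_intCast_pow q z
  have hH : HorizUnram (E := E) ({0, -16} : Finset O) (u4E M E h4) :=
    u4_horiz M E h4 _ h0S h16S
  have hHL : HorizUnram (E := E) ({0, -16} : Finset O) (alphaHom M q E (u4E M E h4)) :=
    Fermat.Agent.S36.Haupt4.LevelQ.horizUnram_alpha_u4E M q E h4 _ h0S h16S
  have hnb := Fermat.Agent.S36.ThickCusp.hnb_of_isIntegral π hπ (alphaHom M q E)
    (alphaHom_algebraMap M q E) (sigmaHom (M * q) E) (sigmaHom_algebraMap (M * q) E) hσfrac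
    (u4E M E h4) (u4 O) (hσu_u4 M q E h4) (wHom M q E hq hqM) (wHom_algebraMap M q E hq hqM) q
    (sigmaHom_wHom_alpha M q E hq hqM) (wHom_wHom M q E hq hqM) hord_u4 hq.two_le
    (hfrob_u4 q hq) hwu ({0, -16} : Finset O) hSres
    (Fermat.Agent.S36.Haupt4.LevelQ.hint_u4E M q E h2 hq hodd hqM h4)
  intro y hy hI hZ
  exact node_loc_of_unram_pole π hπ (alphaHom M q E) (alphaHom_algebraMap M q E)
    (sigmaHom (M * q) E) (sigmaHom_algebraMap (M * q) E) hσfrac (u4E M E h4) (u4 O)
    (hσu_u4 M q E h4) (wHom M q E hq hqM) (wHom_algebraMap M q E hq hqM) q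
    (sigmaHom_wHom_alpha M q E hq hqM) (wHom_wHom M q E hq hqM) hcf.prime_zero (hcop_u4 q)
    hord_u4 hq.two_le (hfrob_u4 q hq) hwu (hrank_u4 M q E hq hqM h4) e he hqe hT (hG π hπ)
    ({0, -16} : Finset O) hH hcf.normal_zero hcf.regAt_zero hHL h0S
    (Fermat.Agent.S36.A2.frobStable_of_intCast q _ hSint) y hI hZ (hnb y hy hI hZ)

/-- **The local ring at a point of the `u₄` chart on the `∞`-component only**: `R₀ = C_y`
is noetherian and integrally closed, `q` is a prime element of `R₀` and `𝔪 = (q, θ)`. -/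
theorem smooth_inf_loc_u4 (hq : q.Prime) (hodd : q ≠ 2) (hqM : ¬ q ∣ M) (h4 : 4 ∣ M)
    (h2 : IsUnit (2 : O)) (hFG : FinGaussC M O E) (π : O) (hπ : Irreducible π)
    (e : O) (he : IsUnit e) (hqe : ((q : ℕ) : O) = π * e)
    (hσfrac : ∀ x : LE (M * q) E, sigmaHom (M * q) E x ∈ GaussDVR.fracField O E) :
    letI := algebraOL O E (LE M E)
    letI := algebraOL O E (LE (M * q) E)
    haveI := isScalarTower_OL O E (LE M E)
    haveI := isScalarTower_OL O E (LE (M * q) E)
    ∀ (y : Ideal (Chart O (alphaHom M q E (u4E M E h4)))) [y.IsMaximal],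
      RingHom.ker (redInf π hπ (alphaHom M q E) (sigmaHom (M * q) E)
        (sigmaHom_algebraMap (M * q) E) hσfrac (u4E M E h4) (u4 O) (hσu_u4 M q E h4)) ≤ y →
      ¬ RingHom.ker (redZero π hπ (alphaHom M q E) (sigmaHom (M * q) E)
        (sigmaHom_algebraMap (M * q) E) hσfrac (u4E M E h4) (u4 O) (hσu_u4 M q E h4)
        (wHom M q E hq hqM) (wHom_algebraMap M q E hq hqM) q
        (sigmaHom_wHom_alpha M q E hq hqM)) ≤ y →
      IsNoetherianRing (Localization.AtPrime y) ∧ IsIntegrallyClosed (Localization.AtPrime y) ∧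
      Prime ((q : ℕ) : Localization.AtPrime y) ∧
      ∃ θ : Localization.AtPrime y, IsLocalRing.maximalIdeal (Localization.AtPrime y) =
        Ideal.span {((q : ℕ) : Localization.AtPrime y), θ} := by
  classical
  letI := algebraOL O E (LE M E)
  letI := algebraOL O E (LE (M * q) E)
  haveI := isScalarTower_OL O E (LE M E)
  haveI := isScalarTower_OL O E (LE (M * q) E)
  have hfg := u4_fin_gauss M E h4 hFG
  have hfin : FiniteDimensional (IntermediateField.adjoin E {u4E M E h4}) (LE M E) := hfg.1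
  haveI := hfin
  have hcf := Fermat.Agent.S36.Haupt4.Fibre.chartFacts_u4 M E h4 h2 hFG π hπ
  have hwu := hwu_u4 M q E (O := O) h2 hq hodd hqM h4
  haveI : Fact q.Prime := ⟨hq⟩
  haveI : CharP (IsLocalRing.ResidueField O) q :=
    Fermat.Agent.S36.DerUnram.charP_residue π hπ q ⟨e, hqe⟩
  have hT : Transcendental E (u4E M E h4) := transcendental_u4E M E h4
  haveI := Fermat.Agent.S36.Haupt4.LevelQ.finiteDimensional_alpha_u4E M q E h4
  intro y hy hA hB
  exact smooth_inf_loc_of_unram π hπ (alphaHom M q E) (alphaHom_algebraMap M q E)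
    (sigmaHom (M * q) E) (sigmaHom_algebraMap (M * q) E) hσfrac (u4E M E h4) (u4 O)
    (hσu_u4 M q E h4) (wHom M q E hq hqM) (wHom_algebraMap M q E hq hqM) q
    (sigmaHom_wHom_alpha M q E hq hqM) (wHom_wHom M q E hq hqM) hcf.prime_zero (hcop_u4 q)
    hord_u4 hq.two_le (hfrob_u4 q hq) hwu (hrank_u4 M q E hq hqM h4) e he hqe hT
    hcf.normal_zero hcf.regAt_zero y hA hB

/-- **The local ring at a point of the `u₄` chart on the `0`-component only**: `R₀ = C_y`
is noetherian and integrally closed, `q` is a prime element of `R₀` and `𝔪 = (q, θ)`. -/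
theorem smooth_zero_loc_u4 (hq : q.Prime) (hodd : q ≠ 2) (hqM : ¬ q ∣ M) (h4 : 4 ∣ M)
    (h2 : IsUnit (2 : O)) (hFG : FinGaussC M O E) (π : O) (hπ : Irreducible π)
    (e : O) (he : IsUnit e) (hqe : ((q : ℕ) : O) = π * e)
    (hσfrac : ∀ x : LE (M * q) E, sigmaHom (M * q) E x ∈ GaussDVR.fracField O E) :
    letI := algebraOL O E (LE M E)
    letI := algebraOL O E (LE (M * q) E)
    haveI := isScalarTower_OL O E (LE M E)
    haveI := isScalarTower_OL O E (LE (M * q) E)
    ∀ (y : Ideal (Chart O (alphaHom M q E (u4E M E h4)))) [y.IsMaximal],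
      RingHom.ker (redZero π hπ (alphaHom M q E) (sigmaHom (M * q) E)
        (sigmaHom_algebraMap (M * q) E) hσfrac (u4E M E h4) (u4 O) (hσu_u4 M q E h4)
        (wHom M q E hq hqM) (wHom_algebraMap M q E hq hqM) q
        (sigmaHom_wHom_alpha M q E hq hqM)) ≤ y →
      ¬ RingHom.ker (redInf π hπ (alphaHom M q E) (sigmaHom (M * q) E)
        (sigmaHom_algebraMap (M * q) E) hσfrac (u4E M E h4) (u4 O) (hσu_u4 M q E h4)) ≤ y →
      IsNoetherianRing (Localization.AtPrime y) ∧ IsIntegrallyClosed (Localization.AtPrime y) ∧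
      Prime ((q : ℕ) : Localization.AtPrime y) ∧
      ∃ θ : Localization.AtPrime y, IsLocalRing.maximalIdeal (Localization.AtPrime y) =
        Ideal.span {((q : ℕ) : Localization.AtPrime y), θ} := by
  classical
  letI := algebraOL O E (LE M E)
  letI := algebraOL O E (LE (M * q) E)
  haveI := isScalarTower_OL O E (LE M E)
  haveI := isScalarTower_OL O E (LE (M * q) E)
  have hfg := u4_fin_gauss M E h4 hFG
  have hfin : FiniteDimensional (IntermediateField.adjoin E {u4E M E h4}) (LE M E) := hfg.1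
  haveI := hfin
  have hcf := Fermat.Agent.S36.Haupt4.Fibre.chartFacts_u4 M E h4 h2 hFG π hπ
  have hwu := hwu_u4 M q E (O := O) h2 hq hodd hqM h4
  haveI : Fact q.Prime := ⟨hq⟩
  haveI : CharP (IsLocalRing.ResidueField O) q :=
    Fermat.Agent.S36.DerUnram.charP_residue π hπ q ⟨e, hqe⟩
  have hT : Transcendental E (u4E M E h4) := transcendental_u4E M E h4
  haveI := Fermat.Agent.S36.Haupt4.LevelQ.finiteDimensional_alpha_u4E M q E h4
  intro y hy hA hB
  exact smooth_zero_loc_of_unram π hπ (alphaHom M q E) (alphaHom_algebraMap M q E)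
    (sigmaHom (M * q) E) (sigmaHom_algebraMap (M * q) E) hσfrac (u4E M E h4) (u4 O)
    (hσu_u4 M q E h4) (wHom M q E hq hqM) (wHom_algebraMap M q E hq hqM) q
    (sigmaHom_wHom_alpha M q E hq hqM) (wHom_wHom M q E hq hqM) hcf.prime_zero (hcop_u4 q)
    hord_u4 hq.two_le (hfrob_u4 q hq) hwu (hrank_u4 M q E hq hqM h4) e he hqe hT
    hcf.normal_zero hcf.regAt_zero y hA hB

end Generic

end Fermat.Agent.S44.L.NodeLocInst
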