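import Mathlib
import Fermat.Agent.S44.L.NodeLocInst
import Fermat.Agent.S44.L.NodeC1InstInf

/-!
# S44 (Mazur–Ribet), strand L, link C1: the local rings at the points over `u₄ = ∞`

`S44/L/NodeLocInst` (helper214) gives the local rings `Localization.AtPrime y` at the closed
points `y` of `Chart O (α u₄)`.  This file gives them at the closed points of the chart at
infinity `C∞ = Chart O (α u₄⁻¹)`, by the coordinate-generic theorems
`NodeLocInst.smooth_inf_loc_of_unram` / `smooth_zero_loc_of_unram` at the coordinate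
`s = u₄⁻¹` (binder block of `NodeLocInst.smooth_inf_loc_u4` VERBATIM: generic unramified base
`{O : Type}`, `q = π * unit`).

* `finiteDimensional_alpha_s4`, `isFractionRing_chart_s4` : `LE (M q) E` is finite over
  `E(α u₄⁻¹)` and is the fraction field of `C∞`.
* `smooth_inf_loc_s4`, `smooth_zero_loc_s4` : at a maximal `y` of `C∞` on exactly one component,
  `R₀ = C∞_y` is noetherian and integrally closed, `q` is a prime element of `R₀`, `𝔪 = (q, θ)`.
* `cusp_loc_s4` : **the points over `u₄ = ∞`**: the same conclusion at EVERY maximal `y` of `C∞`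
  containing `π` and the coordinate `u₄⁻¹` (no case distinction: `NodeC1InstInf.cusp_s4`).

Consumers: keep `O` generic (see the warning in the report of `NodeLocInst`: statements about
`Localization.AtPrime y` over the concrete base `OE A K` elaborate slowly; instantiate with
`(O := OE A K)` in a `have`).
-/

set_option autoImplicit false
set_option linter.unusedSectionVars false
set_option linter.unusedVariables false
set_option linter.style.haveILetI false
set_option synthInstance.maxHeartbeats 400000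
set_option maxHeartbeats 1000000

open ModularCurve Polynomial IntermediateField

noncomputable section

namespace Fermat.Agent.S44.L.NodeLocInstInf

open Fermat.Agent.S30 Fermat.Agent.S34 Fermat.Agent.S34.TwoPrimesGauss
open Fermat.Agent.S36.PrinAt Fermat.Agent.S30.Model
open Fermat.Agent.S18.K1Defs Fermat.Agent.S18.K1Main
open Fermat.Agent.S34.TwoPrimesRank Fermat.Agent.S34.HauptU.Plug
open Fermat.Agent.S34.HauptU.LevelMAux
open Fermat.Agent.S36.Haupt4 Fermat.Agent.S36.LevelQInstAlt
open Fermat.Agent.S44.L.NodeLocInst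

local notation "Qb" => AlgebraicClosure ℚ

section Generic

variable (M q : ℕ) [NeZero M] [NeZero q] (E : IntermediateField ℚ Qb)
  {O : Type} [CommRing O] [IsDomain O] [IsDiscreteValuationRing O]
  [Algebra O E] [IsFractionRing O E]

/-- `LE (M q) E` is finite over `E(α u₄⁻¹)`. -/
theorem finiteDimensional_alpha_s4 (h4 : 4 ∣ M) :
    FiniteDimensional (IntermediateField.adjoin E {alphaHom M q E (u4E M E h4)⁻¹})
      (LE (M * q) E) := by
  haveI := Fermat.Agent.S36.Haupt4.LevelQ.finiteDimensional_alpha_u4E M q E h4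
  rw [map_inv₀]
  exact finite_adjoin_inv (E := E) (alphaHom M q E (u4E M E h4))

/-- `LE (M q) E` is the fraction field of the level-`M q` chart ring at `u₄⁻¹`. -/
theorem isFractionRing_chart_s4 (h4 : 4 ∣ M) :
    letI := algebraOL O E (LE (M * q) E)
    haveI := isScalarTower_OL O E (LE (M * q) E)
    IsFractionRing (Chart O (alphaHom M q E (u4E M E h4)⁻¹)) (LE (M * q) E) := by
  letI := algebraOL O E (LE (M * q) E)
  haveI := isScalarTower_OL O E (LE (M * q) E)
  haveI := finiteDimensional_alpha_s4 M q E h4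
  exact isFractionRing_chart_of_finite (E := E) (alphaHom M q E (u4E M E h4)⁻¹)

/-- **The local ring at a point of the chart at infinity on the `∞`-component only**:
`R₀ = C∞_y` is noetherian and integrally closed, `q` is a prime element of `R₀`, `𝔪 = (q, θ)`. -/
theorem smooth_inf_loc_s4 (hq : q.Prime) (hodd : q ≠ 2) (hqM : ¬ q ∣ M) (h4 : 4 ∣ M)
    (h2 : IsUnit (2 : O)) (hFG : FinGaussC M O E) (π : O) (hπ : Irreducible π)
    (e : O) (he : IsUnit e) (hqe : ((q : ℕ) : O) = π * e)
    (hσfrac : ∀ x : LE (M * q) E, sigmaHom (M * q) E x ∈ GaussDVR.fracField O E) :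
    letI := algebraOL O E (LE M E)
    letI := algebraOL O E (LE (M * q) E)
    haveI := isScalarTower_OL O E (LE M E)
    haveI := isScalarTower_OL O E (LE (M * q) E)
    ∀ (y : Ideal (Chart O (alphaHom M q E (u4E M E h4)⁻¹))) [y.IsMaximal],
      RingHom.ker (redInf π hπ (alphaHom M q E) (sigmaHom (M * q) E)
        (sigmaHom_algebraMap (M * q) E) hσfrac (u4E M E h4)⁻¹
        (HauptU.E.posO O Fermat.Agent.S36.SqChart.Coord4.s4Z) (Fermat.Agent.S36.SqChart.Coord4.hσ1u_s4 M E q h4)) ≤ y →
      ¬ RingHom.ker (redZero π hπ (alphaHom M q E) (sigmaHom (M * q) E)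
        (sigmaHom_algebraMap (M * q) E) hσfrac (u4E M E h4)⁻¹
        (HauptU.E.posO O Fermat.Agent.S36.SqChart.Coord4.s4Z) (Fermat.Agent.S36.SqChart.Coord4.hσ1u_s4 M E q h4)
        (wHom M q E hq hqM) (wHom_algebraMap M q E hq hqM) q
        (sigmaHom_wHom_alpha M q E hq hqM)) ≤ y →
      IsNoetherianRing (Localization.AtPrime y) ∧ IsIntegrallyClosed (Localization.AtPrime y) ∧
      Prime ((q : ℕ) : Localization.AtPrime y) ∧
      ∃ θ : Localization.AtPrime y, IsLocalRing.maximalIdeal (Localization.AtPrime y) =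
        Ideal.span {((q : ℕ) : Localization.AtPrime y), θ} := by
  classical
  letI := algebraOL O E (LE M E)
  letI := algebraOL O E (LE (M * q) E)
  haveI := isScalarTower_OL O E (LE M E)
  haveI := isScalarTower_OL O E (LE (M * q) E)
  have hfg := u4_fin_gauss M E h4 hFG
  have hfin : FiniteDimensional (IntermediateField.adjoin E {u4E M E h4}) (LE M E) := hfg.1
  haveI := hfin
  haveI hfin' : FiniteDimensional (IntermediateField.adjoin E {(u4E M E h4)⁻¹}) (LE M E) :=
    Fermat.Agent.S36.SqChart.Coord4.finite_u4E_inv M E h4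
  have hcf := Fermat.Agent.S36.Haupt4.Fibre.chartFacts_u4 M E h4 h2 hFG π hπ
  have hwu := Fermat.Agent.S36.Haupt4.Hwu.hwu_u4E_inv M q E (O := O) h2 hq hodd hqM h4
  haveI : Fact q.Prime := ⟨hq⟩
  haveI : CharP (IsLocalRing.ResidueField O) q :=
    Fermat.Agent.S36.DerUnram.charP_residue π hπ q ⟨e, hqe⟩
  have hT : Transcendental E (u4E M E h4)⁻¹ := hcf.transcendental_inv
  haveI := finiteDimensional_alpha_s4 M q E h4
  intro y hy hA hB
  exact smooth_inf_loc_of_unram π hπ (alphaHom M q E) (alphaHom_algebraMap M q E)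
    (sigmaHom (M * q) E) (sigmaHom_algebraMap (M * q) E) hσfrac (u4E M E h4)⁻¹
    (HauptU.E.posO O Fermat.Agent.S36.SqChart.Coord4.s4Z) (Fermat.Agent.S36.SqChart.Coord4.hσ1u_s4 M E q h4)
    (wHom M q E hq hqM) (wHom_algebraMap M q E hq hqM) q
    (sigmaHom_wHom_alpha M q E hq hqM) (wHom_wHom M q E hq hqM) hcf.prime_inf
    (Fermat.Agent.S36.SqChart.Coord4.hcop_s4 q) Fermat.Agent.S36.SqChart.Coord4.hord_s4 hq.two_le
    (Fermat.Agent.S36.SqChart.Coord4.qExpand_rho_s4 q hq) hwu
    (fun v => hrank_modular_of_finite M q E hq hqM _ v) e he hqe hT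
    hcf.normal_inf hcf.regAt_inf y hA hB

/-- **The local ring at a point of the chart at infinity on the `0`-component only**:
`R₀ = C∞_y` is noetherian and integrally closed, `q` is a prime element of `R₀`, `𝔪 = (q, θ)`. -/
theorem smooth_zero_loc_s4 (hq : q.Prime) (hodd : q ≠ 2) (hqM : ¬ q ∣ M) (h4 : 4 ∣ M)
    (h2 : IsUnit (2 : O)) (hFG : FinGaussC M O E) (π : O) (hπ : Irreducible π)
    (e : O) (he : IsUnit e) (hqe : ((q : ℕ) : O) = π * e)
    (hσfrac : ∀ x : LE (M * q) E, sigmaHom (M * q) E x ∈ GaussDVR.fracField O E) :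
    letI := algebraOL O E (LE M E)
    letI := algebraOL O E (LE (M * q) E)
    haveI := isScalarTower_OL O E (LE M E)
    haveI := isScalarTower_OL O E (LE (M * q) E)
    ∀ (y : Ideal (Chart O (alphaHom M q E (u4E M E h4)⁻¹))) [y.IsMaximal],
      RingHom.ker (redZero π hπ (alphaHom M q E) (sigmaHom (M * q) E)
        (sigmaHom_algebraMap (M * q) E) hσfrac (u4E M E h4)⁻¹
        (HauptU.E.posO O Fermat.Agent.S36.SqChart.Coord4.s4Z) (Fermat.Agent.S36.SqChart.Coord4.hσ1u_s4 M E q h4)
        (wHom M q E hq hqM) (wHom_algebraMap M q E hq hqM) q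
        (sigmaHom_wHom_alpha M q E hq hqM)) ≤ y →
      ¬ RingHom.ker (redInf π hπ (alphaHom M q E) (sigmaHom (M * q) E)
        (sigmaHom_algebraMap (M * q) E) hσfrac (u4E M E h4)⁻¹
        (HauptU.E.posO O Fermat.Agent.S36.SqChart.Coord4.s4Z) (Fermat.Agent.S36.SqChart.Coord4.hσ1u_s4 M E q h4)) ≤ y →
      IsNoetherianRing (Localization.AtPrime y) ∧ IsIntegrallyClosed (Localization.AtPrime y) ∧
      Prime ((q : ℕ) : Localization.AtPrime y) ∧
      ∃ θ : Localization.AtPrime y, IsLocalRing.maximalIdeal (Localization.AtPrime y) =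
        Ideal.span {((q : ℕ) : Localization.AtPrime y), θ} := by
  classical
  letI := algebraOL O E (LE M E)
  letI := algebraOL O E (LE (M * q) E)
  haveI := isScalarTower_OL O E (LE M E)
  haveI := isScalarTower_OL O E (LE (M * q) E)
  have hfg := u4_fin_gauss M E h4 hFG
  have hfin : FiniteDimensional (IntermediateField.adjoin E {u4E M E h4}) (LE M E) := hfg.1
  haveI := hfin
  haveI hfin' : FiniteDimensional (IntermediateField.adjoin E {(u4E M E h4)⁻¹}) (LE M E) :=
    Fermat.Agent.S36.SqChart.Coord4.finite_u4E_inv M E h4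
  have hcf := Fermat.Agent.S36.Haupt4.Fibre.chartFacts_u4 M E h4 h2 hFG π hπ
  have hwu := Fermat.Agent.S36.Haupt4.Hwu.hwu_u4E_inv M q E (O := O) h2 hq hodd hqM h4
  haveI : Fact q.Prime := ⟨hq⟩
  haveI : CharP (IsLocalRing.ResidueField O) q :=
    Fermat.Agent.S36.DerUnram.charP_residue π hπ q ⟨e, hqe⟩
  have hT : Transcendental E (u4E M E h4)⁻¹ := hcf.transcendental_inv
  haveI := finiteDimensional_alpha_s4 M q E h4
  intro y hy hA hB
  exact smooth_zero_loc_of_unram π hπ (alphaHom M q E) (alphaHom_algebraMap M q E)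
    (sigmaHom (M * q) E) (sigmaHom_algebraMap (M * q) E) hσfrac (u4E M E h4)⁻¹
    (HauptU.E.posO O Fermat.Agent.S36.SqChart.Coord4.s4Z) (Fermat.Agent.S36.SqChart.Coord4.hσ1u_s4 M E q h4)
    (wHom M q E hq hqM) (wHom_algebraMap M q E hq hqM) q
    (sigmaHom_wHom_alpha M q E hq hqM) (wHom_wHom M q E hq hqM) hcf.prime_inf
    (Fermat.Agent.S36.SqChart.Coord4.hcop_s4 q) Fermat.Agent.S36.SqChart.Coord4.hord_s4 hq.two_le
    (Fermat.Agent.S36.SqChart.Coord4.qExpand_rho_s4 q hq) hwu
    (fun v => hrank_modular_of_finite M q E hq hqM _ v) e he hqe hT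
    hcf.normal_inf hcf.regAt_inf y hA hB

/-- **The local rings at the points over `u₄ = ∞`**: at every maximal ideal `y` of the chart ring
at `u₄⁻¹` containing `π` and the coordinate `u₄⁻¹`, `R₀ = C∞_y` is noetherian and integrally
closed, `q` is a prime element of `R₀` and `𝔪 = (q, θ)`. -/
theorem cusp_loc_s4 (hq : q.Prime) (hodd : q ≠ 2) (hqM : ¬ q ∣ M) (h4 : 4 ∣ M)
    (h2 : IsUnit (2 : O)) (hFG : FinGaussC M O E) (π : O) (hπ : Irreducible π)
    (e : O) (he : IsUnit e) (hqe : ((q : ℕ) : O) = π * e)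
    (hσfrac : ∀ x : LE (M * q) E, sigmaHom (M * q) E x ∈ GaussDVR.fracField O E) :
    letI := algebraOL O E (LE M E)
    letI := algebraOL O E (LE (M * q) E)
    haveI := isScalarTower_OL O E (LE M E)
    haveI := isScalarTower_OL O E (LE (M * q) E)
    ∀ (y : Ideal (Chart O (alphaHom M q E (u4E M E h4)⁻¹))) [y.IsMaximal],
      (piC (alphaHom M q E (u4E M E h4)⁻¹) π) ∈ y →
      (incl (alphaHom M q E) (alphaHom_algebraMap M q E) (u4E M E h4)⁻¹
        (polyChart (u4E M E h4)⁻¹ X)) ∈ y →
      IsNoetherianRing (Localization.AtPrime y) ∧ IsIntegrallyClosed (Localization.AtPrime y) ∧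
      Prime ((q : ℕ) : Localization.AtPrime y) ∧
      ∃ θ : Localization.AtPrime y, IsLocalRing.maximalIdeal (Localization.AtPrime y) =
        Ideal.span {((q : ℕ) : Localization.AtPrime y), θ} := by
  letI := algebraOL O E (LE M E)
  letI := algebraOL O E (LE (M * q) E)
  haveI := isScalarTower_OL O E (LE M E)
  haveI := isScalarTower_OL O E (LE (M * q) E)
  haveI : Fact q.Prime := ⟨hq⟩
  have hchar : CharP (IsLocalRing.ResidueField O) q :=
    Fermat.Agent.S36.DerUnram.charP_residue π hπ q ⟨e, hqe⟩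
  intro y hy hπy hxy
  have hc := Fermat.Agent.S44.L.NodeC1InstInf.cusp_s4 M q E hq hodd hqM h4 h2 hFG π hπ hchar hσfrac
    y hy hπy hxy
  rcases hc with h1 | h1
  · have hI := h1.1
    have hZ := h1.2.1
    exact smooth_inf_loc_s4 M q E hq hodd hqM h4 h2 hFG π hπ e he hqe hσfrac y hI hZ
  · have hZ := h1.1
    have hI := h1.2.1
    exact smooth_zero_loc_s4 M q E hq hodd hqM h4 h2 hFG π hπ e he hqe hσfrac y hZ hI

end Generic

end Fermat.Agent.S44.L.NodeLocInstInf
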