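import Mathlib
import Fermat.Agent.S34.TwoPrimesGauss

/-!
# PROGRAM MR (S44), strand L, row (L.RED): the level-free core

Setting of `S34/TwoPrimesGauss.lean`, section `Package`, verbatim: `O` a discrete valuation ring
with uniformiser `ϖ`, `α : L' → L` the inclusion of the function field of level `M` into that of
level `M ℓ`, `σ` the `q`-expansion embedding of `L`, `u'` the level-`M` coordinate,
`R = Chart O u'`, `C = Chart O (α u')`, `rI`, `rZ` the reductions of `C` at the two components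
of the special fibre, `rM` the reduction of `R`.

* `exists_frac_redInf_ne_zero` : every `x : L` whose `q`-expansion lies in the Gauss ring is a
  fraction `c / s` of elements of `C` with `rI s ≠ 0` (the localisation of `C` at the prime
  `ker rI` is the Gauss valuation ring of `L`): starting from any fraction, multiply numerator
  and denominator by a separator `t₀` (`rZ t₀ = 0`, `rI t₀ ≠ 0`) and divide both by `ϖ` (SAT).
* `exists_levelM_red` : **the residue field of the Gauss valuation of level `M ℓ` at infinity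
  is that of level `M`** (`f = 1`): if moreover the special fibre of `R` is normal, the
  reduction of such an `x` is `rM a / rM b` with `a, b ∈ R` (ONTO).
* `exists_levelM_red'` : the same with no chart type in the conclusion.
-/

set_option autoImplicit false
set_option linter.unusedSectionVars false
set_option linter.style.haveILetI false

noncomputable section

namespace Fermat.Agent.S44.L.RedCore

open ModularCurve Polynomial
open Fermat.Agent.S30 Fermat.Agent.S34 Fermat.Agent.S34.TwoPrimesGauss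

section Core

variable {O E : Type*} [CommRing O] [IsDomain O] [IsDiscreteValuationRing O] [Field E]
  [Algebra O E] [FaithfulSMul O E]
  {L' L : Type*} [Field L'] [Field L] [Algebra O L'] [Algebra O L]
  (ϖ : O) (hϖ : Irreducible ϖ)
  (α : L' →+* L) (hαO : ∀ r : O, α (algebraMap O L' r) = algebraMap O L r)
  (σ : L →+* LaurentSeries E)
  (hσO : ∀ r : O, σ (algebraMap O L r) = HahnSeries.C (algebraMap O E r))
  (hσfrac : ∀ x : L, σ x ∈ GaussDVR.fracField O E)
  (u' : L') (U : LaurentSeries O) (hσu : σ (α u') = GaussDVR.iota O E U)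
  (w : L ≃+* L) (hwO : ∀ r : O, w (algebraMap O L r) = algebraMap O L r)
  (ℓ : ℕ) [NeZero ℓ]
  (hwα : ∀ x : L', σ (w (α x)) = qExpand E ℓ (σ (α x)))
  (hww : ∀ z : L, w (w z) = z)
  (hprime : Prime (piC u' ϖ))
  (hcop : IsCoprime (GaussDVR.rho O U).order (ℓ : ℤ)) (hord : (GaussDVR.rho O U).order ≠ 0)
  (hℓ : 2 ≤ ℓ)
  (hfrob : qExpand (IsLocalRing.ResidueField O) ℓ (GaussDVR.rho O U) = GaussDVR.rho O U ^ ℓ)
  (hwu : IsIntegral (Algebra.adjoin O {α u'}) (w (α u')))
  (hrank : ∀ v : Option (Fin 1 ⊕ Fin ℓ) → Chart O (α u'),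
    ∃ c : Option (Fin 1 ⊕ Fin ℓ) → Chart O u', c ≠ 0 ∧ ∑ i, incl α hαO u' (c i) * v i = 0)

local notation "rI" => redInf ϖ hϖ α σ hσO hσfrac u' U hσu
local notation "rZ" => redZero ϖ hϖ α σ hσO hσfrac u' U hσu w hwO ℓ hwα
local notation "rM" => redM ϖ hϖ α hαO σ hσO hσfrac u' U hσu
local notation "ι" => incl α hαO u'
local notation "tV" => toV σ hσO ϖ hϖ hσfrac (α u') U hσu

/-- `rI` is the Gauss reduction of the `q`-expansion. -/
theorem redInf_eq (c : Chart O (α u')) : rI c = GaussDVR.red O E (tV c) := rfl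

/-- The image of `ϖ` in the Gauss ring is the uniformiser. -/
theorem toV_piC : tV (piC (α u') ϖ) = GaussDVR.unif E ϖ := by
  apply Subtype.ext
  rw [GaussDVR.coe_unif]
  exact hσO ϖ

/-- Compatibility of the reductions with a fraction `x = c / s`. -/
theorem red_mul_redInf (x : L) (hx : σ x ∈ GaussDVR.V O E) (c s : Chart O (α u'))
    (hxs : x * (s : L) = (c : L)) :
    GaussDVR.red O E ⟨σ x, hx⟩ * rI s = rI c := by
  have h : tV c = ⟨σ x, hx⟩ * tV s := by
    apply Subtype.ext
    show σ (c : L) = σ x * σ (s : L)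
    rw [← hxs, map_mul]
  rw [redInf_eq, redInf_eq, h, map_mul]

/-- An element of the chart ring with nonzero reduction at infinity is a unit of the Gauss
ring. -/
theorem isUnit_toV (t : Chart O (α u')) (ht : rI t ≠ 0) : IsUnit (tV t) := by
  have ht' : GaussDVR.red O E (tV t) ≠ 0 := ht
  have h0 : ((tV t : GaussDVR.V O E) : LaurentSeries E) ≠ 0 := by
    intro h
    apply ht'
    have : tV t = 0 := Subtype.ext h
    rw [this, map_zero]
  refine IsUnit.of_mul_eq_one (⟨((tV t : GaussDVR.V O E) : LaurentSeries E)⁻¹,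
    GaussDVR.inv_mem O E (tV t) ht'⟩ : GaussDVR.V O E) ?_
  apply Subtype.ext
  show ((tV t : GaussDVR.V O E) : LaurentSeries E) *
    ((tV t : GaussDVR.V O E) : LaurentSeries E)⁻¹ = 1
  exact mul_inv_cancel₀ h0

include hϖ hαO hσO hσfrac hσu hwO hwα hww hprime hcop hord hℓ hfrob hwu hrank in
/-- **The localisation of the chart ring at `ker rI` is the Gauss valuation ring.**  Every
`x : L` whose `q`-expansion is Gauss-integral is a fraction `c / s` of chart elements with
`rI s ≠ 0`. -/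
theorem exists_frac_redInf_ne_zero [IsFractionRing (Chart O (α u')) L]
    (x : L) (hx : σ x ∈ GaussDVR.V O E) :
    ∃ c s : Chart O (α u'), rI s ≠ 0 ∧ x * (s : L) = (c : L) := by
  obtain ⟨t₀, ht₀Z, ht₀I⟩ := exists_sep_zero ϖ hϖ α hαO σ hσO hσfrac u' U hσu w hwO ℓ hwα hww
    hprime hcop hord hℓ hfrob hwu hrank
  have ht₀0 : t₀ ≠ 0 := fun h => ht₀I (by rw [h, map_zero])
  have hunit : IsUnit (tV t₀) := isUnit_toV ϖ hϖ α σ hσO hσfrac u' U hσu t₀ ht₀I
  obtain ⟨tinv, htinv⟩ := hunit.exists_right_inv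
  have hπL : algebraMap O L ϖ ≠ 0 := by
    intro h0
    have h1 := hσO ϖ
    rw [h0, map_zero] at h1
    have h2 : algebraMap O E ϖ = 0 := by
      by_contra hne
      exact HahnSeries.C_ne_zero hne h1.symm
    exact hϖ.ne_zero (FaithfulSMul.algebraMap_injective O E (by rw [h2, map_zero]))
  have key : ∀ k : ℕ, ∀ c s : Chart O (α u'), s ≠ 0 → x * (s : L) = (c : L) →
      ¬ GaussDVR.unif E ϖ ^ k ∣ tV s →
      ∃ c' s' : Chart O (α u'), rI s' ≠ 0 ∧ x * (s' : L) = (c' : L) := by
    intro k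
    induction k with
    | zero =>
      intro c s _ _ hk
      exact absurd (by rw [pow_zero]; exact one_dvd _) hk
    | succ k ih =>
      intro c s hs hxs hk
      by_cases hsI : rI s = 0
      · have hcI : rI c = 0 := by
          rw [← red_mul_redInf ϖ hϖ α σ hσO hσfrac u' U hσu x hx c s hxs, hsI, mul_zero]
        have hsZ' : rZ (s * t₀) = 0 := by rw [map_mul, ht₀Z, mul_zero]
        have hsI' : rI (s * t₀) = 0 := by rw [map_mul, hsI, zero_mul]
        have hcZ' : rZ (c * t₀) = 0 := by rw [map_mul, ht₀Z, mul_zero]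
        have hcI' : rI (c * t₀) = 0 := by rw [map_mul, hcI, zero_mul]
        obtain ⟨s₁, hs₁⟩ := dvd_of_redInf_redZero ϖ hϖ α hαO σ hσO hσfrac u' U hσu w hwO ℓ hwα
          hww hprime hcop hord hℓ hfrob hwu hrank (s * t₀) hsI' hsZ'
        obtain ⟨c₁, hc₁⟩ := dvd_of_redInf_redZero ϖ hϖ α hαO σ hσO hσfrac u' U hσu w hwO ℓ hwα
          hww hprime hcop hord hℓ hfrob hwu hrank (c * t₀) hcI' hcZ'
        have hs₁0 : s₁ ≠ 0 := by
          rintro rfl
          rw [mul_zero] at hs₁
          exact (mul_ne_zero hs ht₀0) hs₁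
        have e1 : (s : L) * (t₀ : L) = algebraMap O L ϖ * (s₁ : L) :=
          congrArg (fun z : Chart O (α u') => (z : L)) hs₁
        have e2 : (c : L) * (t₀ : L) = algebraMap O L ϖ * (c₁ : L) :=
          congrArg (fun z : Chart O (α u') => (z : L)) hc₁
        have hxs₁ : x * (s₁ : L) = (c₁ : L) := by
          apply mul_left_cancel₀ hπL
          calc algebraMap O L ϖ * (x * (s₁ : L)) = x * (algebraMap O L ϖ * (s₁ : L)) := by ring
            _ = x * ((s : L) * (t₀ : L)) := by rw [e1]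
            _ = (c : L) * (t₀ : L) := by rw [← mul_assoc, hxs]
            _ = algebraMap O L ϖ * (c₁ : L) := e2
        refine ih c₁ s₁ hs₁0 hxs₁ ?_
        intro hdvd
        apply hk
        have e3 : tV s * tV t₀ = GaussDVR.unif E ϖ * tV s₁ := by
          rw [← map_mul, hs₁, map_mul, toV_piC ϖ hϖ α σ hσO hσfrac u' U hσu]
        obtain ⟨v, hv⟩ := hdvd
        refine ⟨v * tinv, ?_⟩
        calc tV s = tV s * (tV t₀ * tinv) := by rw [htinv, mul_one]
          _ = (tV s * tV t₀) * tinv := by ring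
          _ = GaussDVR.unif E ϖ * (GaussDVR.unif E ϖ ^ k * v) * tinv := by rw [e3, hv]
          _ = GaussDVR.unif E ϖ ^ (k + 1) * (v * tinv) := by ring
      · exact ⟨c, s, hsI, hxs⟩
  obtain ⟨⟨c₀, s₀⟩, h₀⟩ := IsLocalization.surj (nonZeroDivisors (Chart O (α u'))) x
  have hs₀ : (s₀ : Chart O (α u')) ≠ 0 := nonZeroDivisors.ne_zero s₀.2
  have hts₀ : tV (s₀ : Chart O (α u')) ≠ 0 := by
    intro h0
    apply hs₀
    apply Subtype.ext
    have h1 : σ ((s₀ : Chart O (α u')) : L) = 0 :=
      congrArg (fun v : GaussDVR.V O E => (v : LaurentSeries E)) h0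
    exact (map_eq_zero_iff _ σ.injective).mp h1
  obtain ⟨n, hn⟩ := GaussDVR.exists_not_pow_dvd E ϖ hϖ _ hts₀
  exact key n c₀ s₀ hs₀ h₀ hn

include hϖ hαO hσO hσfrac hσu hwO hwα hww hprime hcop hord hℓ hfrob hwu hrank in
/-- **`f(v_∞ | v) = 1`.**  If the special fibre of the level-`M` chart is normal, the reduction
of every Gauss-integral `x : L` is a quotient `rM a / rM b` of reductions of elements of the
level-`M` chart ring. -/
theorem exists_levelM_red [IsFractionRing (Chart O (α u')) L]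
    (hnormal : IsIntegrallyClosed (Chart O u' ⧸ Ideal.span {piC u' ϖ}))
    (x : L) (hx : σ x ∈ GaussDVR.V O E) :
    ∃ a b : Chart O u', rM b ≠ 0 ∧ GaussDVR.red O E ⟨σ x, hx⟩ * rM b = rM a := by
  obtain ⟨c, s, hs, hxs⟩ := exists_frac_redInf_ne_zero ϖ hϖ α hαO σ hσO hσfrac u' U hσu w hwO ℓ
    hwα hww hprime hcop hord hℓ hfrob hwu hrank x hx
  obtain ⟨a, ha⟩ := exists_redInf_sub_eq_zero ϖ hϖ α hαO σ hσO hσfrac u' U hσu w hwO ℓ hwα hww
    hprime hcop hord hℓ hfrob hwu hrank hnormal c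
  obtain ⟨b, hb⟩ := exists_redInf_sub_eq_zero ϖ hϖ α hαO σ hσO hσfrac u' U hσu w hwO ℓ hwα hww
    hprime hcop hord hℓ hfrob hwu hrank hnormal s
  rw [map_sub, sub_eq_zero, redInf_incl] at ha hb
  refine ⟨a, b, ?_, ?_⟩
  · rw [← hb]; exact hs
  · rw [← ha, ← hb]
    exact red_mul_redInf ϖ hϖ α σ hσO hσfrac u' U hσu x hx c s hxs

include hϖ hαO hσO hσfrac hσu hwO hwα hww hprime hcop hord hℓ hfrob hwu hrank in
/-- The same, with no chart type in the conclusion: `a, b : L'` with Gauss-integral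
`q`-expansions `σ (α a)`, `σ (α b)`. -/
theorem exists_levelM_red' [IsFractionRing (Chart O (α u')) L]
    (hnormal : IsIntegrallyClosed (Chart O u' ⧸ Ideal.span {piC u' ϖ}))
    (x : L) (hx : σ x ∈ GaussDVR.V O E) :
    ∃ (a b : L') (ha : σ (α a) ∈ GaussDVR.V O E) (hb : σ (α b) ∈ GaussDVR.V O E),
      GaussDVR.red O E ⟨σ (α b), hb⟩ ≠ 0 ∧
      GaussDVR.red O E ⟨σ x, hx⟩ * GaussDVR.red O E ⟨σ (α b), hb⟩ =
        GaussDVR.red O E ⟨σ (α a), ha⟩ := by
  obtain ⟨a, b, hb, hab⟩ := exists_levelM_red ϖ hϖ α hαO σ hσO hσfrac u' U hσu w hwO ℓ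
    hwα hww hprime hcop hord hℓ hfrob hwu hrank hnormal x hx
  exact ⟨(a : L'), (b : L'),
    (toV (σ.comp α) (sigmaM_O α hαO σ hσO) ϖ hϖ (fun x => hσfrac (α x)) u' U hσu a).2,
    (toV (σ.comp α) (sigmaM_O α hαO σ hσO) ϖ hϖ (fun x => hσfrac (α x)) u' U hσu b).2, hb, hab⟩

end Core

end Fermat.Agent.S44.L.RedCore
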