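import Mathlib

/-!
# Unramified closed fibre ⇒ unit discriminant, over a local base (level-free)

PROGRAM MR (S44), strand L, brick (L.PUR), direction (U2) (helper209).  Mathlib only.

`S` a local ring with maximal ideal `𝔪` and residue field `k = S ⧸ 𝔪`, `C` an `S`-algebra with a
finite basis `b`.  Suppose every maximal ideal `P` of `C` is locally generated by `𝔪`
(`hunr : ∀ x ∈ P, ∃ s ∉ P, s * x ∈ 𝔪 C`) and the residue fields of the closed fibre are separable
over `k`.  Then `Algebra.discr S b` is a unit.  (The converse, unit discriminant ⇒ `hunr`, is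
`S44/L/PurityUnr.unr_of_isUnit_discr`.)

Exits (all with conclusion `IsUnit (Algebra.discr S b)`):

* `isUnit_discr_of_unr_of_isSeparable`     : separability stated on the residue fields of `C ⧸ 𝔪C`;
* `isUnit_discr_of_unr`                    : separability stated elementwise (every element of `C`
  is, modulo `P`, a simple root of a polynomial over `S`);
* `isUnit_discr_of_unr_of_residue_trivial` : every element of `C` is congruent mod `P` to an
  element of `S` (residue degree one);
* `isUnit_discr_of_unr_of_charZero`        : the nonzero natural numbers are units of `S`.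

Field-level core: `traceForm_nondegenerate_of_isReduced` (a finite reduced commutative algebra
over a field with separable residue fields has nondegenerate trace form).
-/

set_option autoImplicit false

namespace Fermat.Agent.S44.L.DiscrUnr

open IsLocalRing Module

attribute [local instance] Ideal.Quotient.field

section FieldLevel

variable {k A : Type*} [Field k] [CommRing A] [Algebra k A] [Module.Finite k A]

/-- In a reduced Artinian ring every maximal ideal is annihilated by an element outside it. -/
theorem exists_annihilator_notMem {A : Type*} [CommRing A] [IsArtinianRing A] [IsReduced A]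
    (m : Ideal A) [hm : m.IsMaximal] : ∃ e : A, e ∉ m ∧ ∀ x ∈ m, e * x = 0 := by
  classical
  let M : MaximalSpectrum A := ⟨m, hm⟩
  let φ := IsArtinianRing.equivPi A
  refine ⟨φ.symm (Pi.single M 1), ?_, ?_⟩
  · intro he
    have h1 : φ (φ.symm (Pi.single M 1)) M = 0 := by
      rw [IsArtinianRing.equivPi_apply]
      exact Ideal.Quotient.eq_zero_iff_mem.mpr he
    rw [AlgEquiv.apply_symm_apply, Pi.single_eq_same] at h1
    have : Nontrivial (A ⧸ M.asIdeal) := Ideal.Quotient.nontrivial_iff.mpr hm.ne_top
    exact one_ne_zero h1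
  · intro x hx
    apply φ.injective
    rw [map_mul, AlgEquiv.apply_symm_apply, map_zero]
    ext n
    by_cases h : n = M
    · subst h
      have h0 : φ x M = 0 := by
        rw [IsArtinianRing.equivPi_apply]
        exact Ideal.Quotient.eq_zero_iff_mem.mpr hx
      simp [h0]
    · simp [Pi.single_eq_of_ne h]

/-- A finite reduced commutative algebra over a field all of whose residue fields are separable
has nondegenerate trace form. -/
theorem traceForm_nondegenerate_of_isReduced [IsReduced A]
    (hsep : ∀ (M : Ideal A) [M.IsMaximal], Algebra.IsSeparable k (A ⧸ M)) :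
    (Algebra.traceForm k A).Nondegenerate := by
  have hart : IsArtinianRing A := IsArtinianRing.of_finite k A
  apply LinearMap.BilinForm.Nondegenerate.ofSeparatingLeft
  intro x hx
  by_contra hx0
  obtain ⟨M, hxM⟩ : ∃ M : MaximalSpectrum A, x ∉ M.asIdeal := by
    by_contra h
    push Not at h
    apply hx0
    apply (IsArtinianRing.equivPi A).injective
    ext M
    rw [IsArtinianRing.equivPi_apply, map_zero, Pi.zero_apply]
    exact Ideal.Quotient.eq_zero_iff_mem.mpr (h M)
  have hMmax : M.asIdeal.IsMaximal := M.isMaximal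
  obtain ⟨e, heM, hann⟩ := exists_annihilator_notMem M.asIdeal
  let ψ : A →ₐ[k] (A ⧸ M.asIdeal) × (A ⧸ Ideal.span {e}) :=
    AlgHom.prod (Ideal.Quotient.mkₐ k M.asIdeal) (Ideal.Quotient.mkₐ k (Ideal.span {e}))
  have hinj : Function.Injective ψ := by
    rw [injective_iff_map_eq_zero]
    intro a ha
    have h1 : a ∈ M.asIdeal := by
      have := congrArg Prod.fst ha
      exact Ideal.Quotient.eq_zero_iff_mem.mp this
    have h2 : a ∈ Ideal.span {e} := by
      have := congrArg Prod.snd ha
      exact Ideal.Quotient.eq_zero_iff_mem.mp this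
    obtain ⟨c, rfl⟩ := Ideal.mem_span_singleton'.mp h2
    have h3 : e * (c * e) = 0 := hann _ h1
    have h4 : IsNilpotent (c * e) := ⟨2, by rw [pow_two]; linear_combination c * h3⟩
    exact h4.eq_zero
  have hsurj : Function.Surjective ψ := by
    rintro ⟨u, v⟩
    obtain ⟨a, rfl⟩ := Ideal.Quotient.mk_surjective u
    obtain ⟨b, rfl⟩ := Ideal.Quotient.mk_surjective v
    have htop : M.asIdeal ⊔ Ideal.span {e} = ⊤ := by
      by_contra h
      have h1 : M.asIdeal = M.asIdeal ⊔ Ideal.span {e} := hMmax.eq_of_le h le_sup_left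
      apply heM
      rw [h1]
      exact Ideal.mem_sup_right (Ideal.mem_span_singleton_self e)
    have h1 : (1 : A) ∈ M.asIdeal ⊔ Ideal.span {e} := by rw [htop]; trivial
    obtain ⟨m, hm, n, hn, hmn⟩ := Submodule.mem_sup.mp h1
    refine ⟨a * n + b * m, ?_⟩
    have hm0 : Ideal.Quotient.mk M.asIdeal m = 0 := Ideal.Quotient.eq_zero_iff_mem.mpr hm
    have hn0 : Ideal.Quotient.mk (Ideal.span {e}) n = 0 := Ideal.Quotient.eq_zero_iff_mem.mpr hn
    have hn1 : Ideal.Quotient.mk M.asIdeal n = 1 := by
      have h2 := congrArg (Ideal.Quotient.mk M.asIdeal) hmn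
      rwa [map_add, hm0, zero_add, map_one] at h2
    have hm1 : Ideal.Quotient.mk (Ideal.span {e}) m = 1 := by
      have h2 := congrArg (Ideal.Quotient.mk (Ideal.span {e})) hmn
      rwa [map_add, hn0, add_zero, map_one] at h2
    refine Prod.ext ?_ ?_
    · show Ideal.Quotient.mk M.asIdeal (a * n + b * m) = _
      rw [map_add, map_mul, map_mul, hm0, hn1, mul_one, mul_zero, add_zero]
    · show Ideal.Quotient.mk (Ideal.span {e}) (a * n + b * m) = _
      rw [map_add, map_mul, map_mul, hm1, hn0, mul_one, mul_zero, zero_add]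
  let Ψ : A ≃ₐ[k] (A ⧸ M.asIdeal) × (A ⧸ Ideal.span {e}) := AlgEquiv.ofBijective ψ ⟨hinj, hsurj⟩
  have hsepM : Algebra.IsSeparable k (A ⧸ M.asIdeal) := hsep M.asIdeal
  have hnd := traceForm_nondegenerate k (A ⧸ M.asIdeal)
  have hxbar : Ideal.Quotient.mk M.asIdeal x ≠ 0 := fun h => hxM (Ideal.Quotient.eq_zero_iff_mem.mp h)
  obtain ⟨z, hz⟩ : ∃ z, Algebra.trace k (A ⧸ M.asIdeal) (Ideal.Quotient.mk M.asIdeal x * z) ≠ 0 := by
    by_contra h
    push Not at h
    exact hxbar (hnd.1 _ h)
  obtain ⟨y, hy⟩ := hsurj (z, 0)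
  have h0 := hx y
  rw [Algebra.traceForm_apply, ← Algebra.trace_eq_of_algEquiv Ψ] at h0
  have hΨ : Ψ (x * y) = (Ideal.Quotient.mk M.asIdeal x * z, 0) := by
    show ψ (x * y) = _
    rw [map_mul, hy]
    refine Prod.ext rfl ?_
    show _ * (0 : A ⧸ Ideal.span {e}) = 0
    rw [mul_zero]
  rw [hΨ, Algebra.trace_prod_apply] at h0
  simp only [map_zero, add_zero] at h0
  exact hz h0

/-- A root of a polynomial whose derivative does not vanish at it is a separable element. -/
theorem isSeparable_of_aeval_derivative_ne_zero {k K : Type*} [Field k] [Field K] [Algebra k K]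
    (y : K) (hy : IsIntegral k y) (f : Polynomial k) (h0 : Polynomial.aeval y f = 0)
    (h1 : Polynomial.aeval y (Polynomial.derivative f) ≠ 0) : IsSeparable k y := by
  obtain ⟨g, hg⟩ := minpoly.dvd k y h0
  have hirr : Irreducible (minpoly k y) := minpoly.irreducible hy
  rw [IsSeparable, Polynomial.separable_iff_derivative_ne_zero hirr]
  intro hd
  apply h1
  rw [hg, Polynomial.derivative_mul, hd, zero_mul, zero_add, map_mul, minpoly.aeval, zero_mul]

end FieldLevel

section LocalLevel

variable {S C : Type*} [CommRing S] [IsLocalRing S] [CommRing C] [Algebra S C]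
  {ι : Type*} [Fintype ι] [DecidableEq ι]

local notation "p" => maximalIdeal S
local notation "pC" => Ideal.map (algebraMap S C) (maximalIdeal S)

section

variable [Module.Finite S C] [Module.Free S C]

/-- The discriminant of the reduced basis is the reduction of the discriminant. -/
theorem discr_basisQuotient (b : Basis ι S C) :
    Algebra.discr (S ⧸ p) (basisQuotient b) = Ideal.Quotient.mk p (Algebra.discr S b) := by
  rw [Algebra.discr_def, Algebra.discr_def, RingHom.map_det]
  congr 1
  ext i j
  simp only [Algebra.traceMatrix_apply, Algebra.traceForm_apply, RingHom.mapMatrix_apply,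
    Matrix.map_apply, basisQuotient_apply, ← map_mul, Algebra.trace_quotient_mk]

/-- The trace form of the closed fibre is nondegenerate iff the discriminant is a unit. -/
theorem traceForm_nondegenerate_iff (b : Basis ι S C) :
    (Algebra.traceForm (S ⧸ p) (C ⧸ pC)).Nondegenerate ↔ IsUnit (Algebra.discr S b) := by
  rw [LinearMap.BilinForm.nondegenerate_iff_det_ne_zero (basisQuotient b),
    ← Algebra.traceMatrix_of_basis, ← Algebra.discr_def, discr_basisQuotient, Ne,
    Ideal.Quotient.eq_zero_iff_mem, mem_maximalIdeal, mem_nonunits_iff, not_not]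

end

/-- The closed fibre is reduced as soon as every maximal ideal of `C` is locally generated by
the maximal ideal of `S`. -/
theorem isReduced_quotient_of_unr
    (hunr : ∀ P : Ideal C, P.IsMaximal → ∀ x ∈ P, ∃ s : C, s ∉ P ∧ s * x ∈ pC) :
    IsReduced (C ⧸ pC) := by
  refine ⟨fun x hx => ?_⟩
  by_contra hx0
  obtain ⟨x, rfl⟩ := Ideal.Quotient.mk_surjective x
  let I : Ideal (C ⧸ pC) := LinearMap.ker (LinearMap.toSpanSingleton (C ⧸ pC) (C ⧸ pC)
    (Ideal.Quotient.mk pC x))
  have hI : I ≠ ⊤ := by
    intro h
    have h1 : (1 : C ⧸ pC) ∈ I := by rw [h]; trivial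
    rw [LinearMap.mem_ker, LinearMap.toSpanSingleton_apply, one_smul] at h1
    exact hx0 h1
  obtain ⟨M, hM, hIM⟩ := Ideal.exists_le_maximal I hI
  have hP : (M.comap (Ideal.Quotient.mk pC)).IsMaximal :=
    Ideal.comap_isMaximal_of_surjective _ Ideal.Quotient.mk_surjective
  have hxP : x ∈ M.comap (Ideal.Quotient.mk pC) := by
    rw [Ideal.mem_comap]
    obtain ⟨n, hn⟩ := hx
    exact hM.isPrime.mem_of_pow_mem n (by rw [hn]; exact M.zero_mem)
  obtain ⟨s, hs, hsx⟩ := hunr _ hP x hxP
  apply hs
  rw [Ideal.mem_comap]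
  apply hIM
  rw [LinearMap.mem_ker, LinearMap.toSpanSingleton_apply, smul_eq_mul, ← map_mul]
  exact Ideal.Quotient.eq_zero_iff_mem.mpr hsx

/-- **(U2), residue-field form.**  `S` local, `C` finite free over `S` with basis `b`.  If every
maximal ideal `P` of `C` is locally generated by the maximal ideal of `S` and every residue field
of the closed fibre `C ⧸ 𝔪_S C` is separable over `S ⧸ 𝔪_S`, then `Algebra.discr S b` is a unit. -/
theorem isUnit_discr_of_unr_of_isSeparable (b : Basis ι S C)
    (hunr : ∀ P : Ideal C, P.IsMaximal → ∀ x ∈ P, ∃ s : C, s ∉ P ∧ s * x ∈ pC)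
    (hsep : ∀ (M : Ideal (C ⧸ pC)) [M.IsMaximal], Algebra.IsSeparable (S ⧸ p) ((C ⧸ pC) ⧸ M)) :
    IsUnit (Algebra.discr S b) := by
  have : Module.Finite S C := Module.Finite.of_basis b
  have : Module.Free S C := Module.Free.of_basis b
  rw [← traceForm_nondegenerate_iff b]
  have : Module.Finite (S ⧸ p) (C ⧸ pC) := Module.Finite.of_restrictScalars_finite S _ _
  have hred : IsReduced (C ⧸ pC) := isReduced_quotient_of_unr hunr
  exact traceForm_nondegenerate_of_isReduced hsep

/-- **(U2) Unramified with separable residue fields ⇒ unit discriminant**, elementwise form.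
`S` local, `C` finite free over `S` with basis `b`.  If every maximal ideal `P` of `C` is locally
generated by the maximal ideal of `S` (`hunr`) and every element of `C` is, modulo `P`, a simple
root of a polynomial over `S` (`hsep`: the residue field of `P` is separable over that of `S`),
then `Algebra.discr S b` is a unit. -/
theorem isUnit_discr_of_unr (b : Basis ι S C)
    (hunr : ∀ P : Ideal C, P.IsMaximal → ∀ x ∈ P, ∃ s : C, s ∉ P ∧ s * x ∈ pC)
    (hsep : ∀ P : Ideal C, P.IsMaximal → ∀ c : C, ∃ f : Polynomial S,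
      Polynomial.aeval c f ∈ P ∧ Polynomial.aeval c (Polynomial.derivative f) ∉ P) :
    IsUnit (Algebra.discr S b) := by
  have : Module.Finite S C := Module.Finite.of_basis b
  have : Module.Finite (S ⧸ p) (C ⧸ pC) := Module.Finite.of_restrictScalars_finite S _ _
  refine isUnit_discr_of_unr_of_isSeparable b hunr fun M hM => ?_
  have hP : (M.comap (Ideal.Quotient.mk pC)).IsMaximal :=
    Ideal.comap_isMaximal_of_surjective _ Ideal.Quotient.mk_surjective
  have hfin : Module.Finite (S ⧸ p) ((C ⧸ pC) ⧸ M) :=
    Module.Finite.of_surjective (Ideal.Quotient.mkₐ (S ⧸ p) M).toLinearMap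
      Ideal.Quotient.mk_surjective
  refine ⟨fun y => ?_⟩
  obtain ⟨y, rfl⟩ := Ideal.Quotient.mk_surjective y
  obtain ⟨c, rfl⟩ := Ideal.Quotient.mk_surjective y
  obtain ⟨f, hf0, hf1⟩ := hsep _ hP c
  let π : C →ₐ[S] (C ⧸ pC) ⧸ M :=
    (Ideal.Quotient.mkₐ S M).comp (Ideal.Quotient.mkₐ S pC)
  have hπ : ∀ z : C, π z = 0 ↔ z ∈ M.comap (Ideal.Quotient.mk pC) := fun z => by
    rw [Ideal.mem_comap]
    exact Ideal.Quotient.eq_zero_iff_mem
  refine isSeparable_of_aeval_derivative_ne_zero _ (IsIntegral.of_finite _ _)
    (f.map (algebraMap S (S ⧸ p))) ?_ ?_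
  · rw [Polynomial.aeval_map_algebraMap]
    show Polynomial.aeval (π c) f = 0
    rw [Polynomial.aeval_algHom_apply, hπ]
    exact hf0
  · rw [Polynomial.derivative_map, Polynomial.aeval_map_algebraMap]
    show Polynomial.aeval (π c) (Polynomial.derivative f) ≠ 0
    rw [Polynomial.aeval_algHom_apply, Ne, hπ]
    exact hf1

/-- **(U2) when the residue extensions are trivial** (`f = 1`): every element of `C` is
congruent modulo `P` to an element of `S`. -/
theorem isUnit_discr_of_unr_of_residue_trivial (b : Basis ι S C)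
    (hunr : ∀ P : Ideal C, P.IsMaximal → ∀ x ∈ P, ∃ s : C, s ∉ P ∧ s * x ∈ pC)
    (htriv : ∀ P : Ideal C, P.IsMaximal → ∀ c : C, ∃ r : S, c - algebraMap S C r ∈ P) :
    IsUnit (Algebra.discr S b) := by
  refine isUnit_discr_of_unr b hunr fun P hP c => ?_
  obtain ⟨r, hr⟩ := htriv P hP c
  refine ⟨Polynomial.X - Polynomial.C r, ?_, ?_⟩
  · simpa using hr
  · rw [Polynomial.derivative_sub, Polynomial.derivative_X, Polynomial.derivative_C, sub_zero,
      map_one]
    exact fun h => hP.ne_top ((Ideal.eq_top_iff_one P).mpr h)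

/-- **(U2) in residue characteristic zero**: every nonzero natural number is a unit of `S`. -/
theorem isUnit_discr_of_unr_of_charZero (b : Basis ι S C)
    (hunr : ∀ P : Ideal C, P.IsMaximal → ∀ x ∈ P, ∃ s : C, s ∉ P ∧ s * x ∈ pC)
    (hchar : ∀ n : ℕ, n ≠ 0 → IsUnit (n : S)) :
    IsUnit (Algebra.discr S b) := by
  have : Module.Finite S C := Module.Finite.of_basis b
  have : Module.Finite (S ⧸ p) (C ⧸ pC) := Module.Finite.of_restrictScalars_finite S _ _
  have hcz : CharZero (S ⧸ p) := by
    refine charZero_of_inj_zero fun n hn => ?_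
    by_contra hn0
    have h1 : IsUnit ((n : S ⧸ p)) := by
      have := (hchar n hn0).map (Ideal.Quotient.mk p)
      rwa [map_natCast] at this
    exact h1.ne_zero hn
  refine isUnit_discr_of_unr_of_isSeparable b hunr fun M hM => ?_
  have hfin : Module.Finite (S ⧸ p) ((C ⧸ pC) ⧸ M) :=
    Module.Finite.of_surjective (Ideal.Quotient.mkₐ (S ⧸ p) M).toLinearMap
      Ideal.Quotient.mk_surjective
  infer_instance

end LocalLevel

end Fermat.Agent.S44.L.DiscrUnr
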