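import Mathlib
import Fermat.Agent.S44.L.DiscrUnr

/-!
# Discriminant criteria at a prime element, by localisation (level-free)

PROGRAM MR (S44), strand L, brick (L.PUR), codimension-one criteria (helper209).  `R` a
commutative ring, `g` a prime element, `b` an `R`-basis of the `R`-algebra `S`.  Localising at
`(g)` (`Algebra.discr_localizationLocalization`) and applying `DiscrUnr` over the local ring
`R_(g)`:

* `not_dvd_discr_of_residue_trivial` (C5) : every prime `Q` of `S` over `(g)` locally generated
  by `g` with trivial residue extension ⟹ `¬ g ∣ Algebra.discr R b`;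
* `not_dvd_discr_of_separable` (C6) : every prime `Q` of `S` over `(g)` locally generated by `g`
  and every element of `S` a simple root modulo `Q` of a polynomial over `R` (separable residue
  extension, elementwise) ⟹ `¬ g ∣ Algebra.discr R b`;
* `not_dvd_discr_of_isUnit_localization` : the adapter itself.
-/

set_option autoImplicit false

namespace Fermat.Agent.S44.L.DiscrLoc

open Fermat.Agent.S44.L.DiscrUnr

open IsLocalRing Module

section Loc

variable {R C : Type*} [CommRing R] [CommRing C] [Algebra R C] (q : Ideal R) [q.IsPrime]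

local notation "Rq" => Localization.AtPrime q
local notation "Cq" => Localization (Algebra.algebraMapSubmonoid C q.primeCompl)

/-- A maximal ideal of the localisation `C_q` of an integral `R`-algebra lies over `q`. -/
theorem comap_comap_eq_of_isMaximal [Algebra.IsIntegral Rq Cq] (P : Ideal Cq) [P.IsMaximal] :
    (P.comap (algebraMap C Cq)).comap (algebraMap R C) = q := by
  have hmax : (P.comap (algebraMap Rq Cq)).IsMaximal :=
    Ideal.isMaximal_comap_of_isIntegral_of_isMaximal P
  have h1 : P.comap (algebraMap Rq Cq) = maximalIdeal Rq := IsLocalRing.eq_maximalIdeal hmax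
  calc (P.comap (algebraMap C Cq)).comap (algebraMap R C)
      = P.comap (algebraMap R Cq) := by
        rw [Ideal.comap_comap, ← IsScalarTower.algebraMap_eq]
    _ = (P.comap (algebraMap Rq Cq)).comap (algebraMap R Rq) := by
        rw [Ideal.comap_comap, ← IsScalarTower.algebraMap_eq]
    _ = q := by rw [h1]; exact IsLocalization.AtPrime.under_maximalIdeal Rq q

/-- `UNR` at the primes of `C` over `q` gives `UNR` for the localisation `C_q` over the local
ring `R_q`. -/
theorem unr_localization [Algebra.IsIntegral Rq Cq]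
    (hU : ∀ Q : Ideal C, Q.IsPrime → Q.comap (algebraMap R C) = q →
      ∀ x ∈ Q, ∃ s : C, s ∉ Q ∧ s * x ∈ q.map (algebraMap R C))
    (P : Ideal Cq) (hP : P.IsMaximal) (x : Cq) (hx : x ∈ P) :
    ∃ s : Cq, s ∉ P ∧ s * x ∈ (maximalIdeal Rq).map (algebraMap Rq Cq) := by
  obtain ⟨⟨a, t⟩, hat⟩ := IsLocalization.surj (Algebra.algebraMapSubmonoid C q.primeCompl) x
  have haQ : a ∈ P.comap (algebraMap C Cq) := by
    rw [Ideal.mem_comap, ← hat]
    exact P.mul_mem_right _ hx
  obtain ⟨s, hs, hsa⟩ := hU _ (Ideal.comap_isPrime _ _) (comap_comap_eq_of_isMaximal q P) a haQ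
  refine ⟨algebraMap C Cq s, hs, ?_⟩
  have ht : IsUnit (algebraMap C Cq t) := IsLocalization.map_units Cq t
  have h1 : algebraMap C Cq (s * a) ∈ (maximalIdeal Rq).map (algebraMap Rq Cq) := by
    have hle : (q.map (algebraMap R C)).map (algebraMap C Cq) ≤
        (maximalIdeal Rq).map (algebraMap Rq Cq) := by
      rw [Ideal.map_map, ← IsScalarTower.algebraMap_eq, IsScalarTower.algebraMap_eq R Rq Cq,
        ← Ideal.map_map, IsLocalization.AtPrime.map_eq_maximalIdeal q Rq]
    exact hle (Ideal.mem_map_of_mem _ hsa)
  obtain ⟨u, hu⟩ := ht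
  have h2 : algebraMap C Cq s * x = algebraMap C Cq (s * a) * ↑u⁻¹ := by
    rw [map_mul, ← hat, ← hu, mul_assoc, mul_assoc, Units.mul_inv, mul_one]
  rw [h2]
  exact Ideal.mul_mem_right _ _ h1

/-- Trivial residue extensions at the primes of `C` over `q` give trivial residue extensions
for the localisation `C_q` over the local ring `R_q`. -/
theorem residue_trivial_localization [Algebra.IsIntegral Rq Cq]
    (htriv : ∀ Q : Ideal C, Q.IsPrime → Q.comap (algebraMap R C) = q →
      ∀ c : C, ∃ r σ : R, σ ∉ q ∧ algebraMap R C σ * c - algebraMap R C r ∈ Q)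
    (P : Ideal Cq) (hP : P.IsMaximal) (c : Cq) :
    ∃ ρ : Rq, c - algebraMap Rq Cq ρ ∈ P := by
  obtain ⟨⟨a, t⟩, hat⟩ := IsLocalization.surj (Algebra.algebraMapSubmonoid C q.primeCompl) c
  obtain ⟨τ, hτ, hτt⟩ := t.2
  obtain ⟨r, σ, hσ, hrσ⟩ := htriv _ (Ideal.comap_isPrime _ _) (comap_comap_eq_of_isMaximal q P) a
  have hστ : σ * τ ∈ q.primeCompl := q.primeCompl.mul_mem hσ hτ
  have hu : IsUnit (algebraMap R Cq (σ * τ)) := by
    rw [IsScalarTower.algebraMap_apply R Rq Cq]
    exact (IsLocalization.map_units Rq (⟨σ * τ, hστ⟩ : q.primeCompl)).map _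
  refine ⟨IsLocalization.mk' Rq r (⟨σ * τ, hστ⟩ : q.primeCompl), ?_⟩
  have h2 : algebraMap Rq Cq (IsLocalization.mk' Rq r (⟨σ * τ, hστ⟩ : q.primeCompl)) *
      algebraMap R Cq (σ * τ) = algebraMap R Cq r := by
    rw [IsScalarTower.algebraMap_apply R Rq Cq (σ * τ), ← map_mul]
    have h3 := IsLocalization.mk'_spec Rq r (⟨σ * τ, hστ⟩ : q.primeCompl)
    rw [h3, ← IsScalarTower.algebraMap_apply]
  have h4 : c * algebraMap R Cq (σ * τ) = algebraMap C Cq (algebraMap R C σ * a) := by
    rw [IsScalarTower.algebraMap_apply R C Cq (σ * τ), map_mul (algebraMap R C), hτt,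
      map_mul (algebraMap C Cq), map_mul (algebraMap C Cq), ← hat]
    ring
  have h1 : (c - algebraMap Rq Cq (IsLocalization.mk' Rq r (⟨σ * τ, hστ⟩ : q.primeCompl))) *
      algebraMap R Cq (σ * τ) = algebraMap C Cq (algebraMap R C σ * a - algebraMap R C r) := by
    rw [sub_mul, h2, h4, map_sub, ← IsScalarTower.algebraMap_apply R C Cq r]
  have h5 : (c - algebraMap Rq Cq (IsLocalization.mk' Rq r (⟨σ * τ, hστ⟩ : q.primeCompl))) *
      algebraMap R Cq (σ * τ) ∈ P := by
    rw [h1]
    exact hrσ
  obtain ⟨u, hu'⟩ := hu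
  have h6 : c - algebraMap Rq Cq (IsLocalization.mk' Rq r (⟨σ * τ, hστ⟩ : q.primeCompl)) =
      (c - algebraMap Rq Cq (IsLocalization.mk' Rq r (⟨σ * τ, hστ⟩ : q.primeCompl))) *
        algebraMap R Cq (σ * τ) * ↑u⁻¹ := by
    rw [← hu', mul_assoc, Units.mul_inv, mul_one]
  rw [h6]
  exact Ideal.mul_mem_right _ _ h5

/-- Elementwise separability at the primes of `C` over `q` gives elementwise separability for
the localisation `C_q` over the local ring `R_q`. -/
theorem separable_localization [Algebra.IsIntegral Rq Cq]
    (hsep : ∀ Q : Ideal C, Q.IsPrime → Q.comap (algebraMap R C) = q →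
      ∀ c : C, ∃ f : Polynomial R, Polynomial.aeval c f ∈ Q ∧
        Polynomial.aeval c (Polynomial.derivative f) ∉ Q)
    (P : Ideal Cq) (hP : P.IsMaximal) (c : Cq) :
    ∃ F : Polynomial Rq, Polynomial.aeval c F ∈ P ∧
      Polynomial.aeval c (Polynomial.derivative F) ∉ P := by
  obtain ⟨⟨a, t⟩, hat⟩ := IsLocalization.surj (Algebra.algebraMapSubmonoid C q.primeCompl) c
  obtain ⟨τ, hτ, hτt⟩ := t.2
  obtain ⟨f, hf0, hf1⟩ := hsep _ (Ideal.comap_isPrime _ _) (comap_comap_eq_of_isMaximal q P) a
  have hu : IsUnit (algebraMap R Cq τ) := by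
    rw [IsScalarTower.algebraMap_apply R Rq Cq]
    exact (IsLocalization.map_units Rq (⟨τ, hτ⟩ : q.primeCompl)).map _
  have hca : Polynomial.aeval c (Polynomial.C τ * Polynomial.X : Polynomial R) =
      algebraMap C Cq a := by
    rw [map_mul, Polynomial.aeval_C, Polynomial.aeval_X, IsScalarTower.algebraMap_apply R C Cq,
      hτt, ← hat, mul_comm]
  refine ⟨(f.comp (Polynomial.C τ * Polynomial.X)).map (algebraMap R Rq), ?_, ?_⟩
  · rw [Polynomial.aeval_map_algebraMap, Polynomial.aeval_comp, hca,
      Polynomial.aeval_algebraMap_apply]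
    exact hf0
  · rw [Polynomial.derivative_map, Polynomial.aeval_map_algebraMap, Polynomial.derivative_comp,
      map_mul, Polynomial.aeval_comp, hca, Polynomial.aeval_algebraMap_apply,
      Polynomial.derivative_mul, Polynomial.derivative_C, zero_mul, zero_add,
      Polynomial.derivative_X, mul_one, Polynomial.aeval_C]
    intro hmem
    rcases hP.isPrime.mem_or_mem hmem with h | h
    · exact hP.ne_top (Ideal.eq_top_of_isUnit_mem _ h hu)
    · exact hf1 h

end Loc

section Global

variable {R C : Type*} [CommRing R] [CommRing C] [Algebra R C]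
  {ι : Type*} [Fintype ι] [DecidableEq ι]

/-- **Localisation adapter.**  To show that the prime element `g` does not divide the
discriminant of the `R`-basis `b` of `C` it suffices to show that the discriminant of the
localised basis over `R_(g)` is a unit. -/
theorem not_dvd_discr_of_isUnit_localization (b : Basis ι R C) {g : R} (hg : Prime g)
    (h : haveI : (Ideal.span {g}).IsPrime := (Ideal.span_singleton_prime hg.ne_zero).mpr hg
      IsUnit (Algebra.discr (Localization.AtPrime (Ideal.span {g}))
        (b.localizationLocalization (Localization.AtPrime (Ideal.span {g}))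
          (Ideal.span {g}).primeCompl
          (Localization (Algebra.algebraMapSubmonoid C (Ideal.span {g}).primeCompl))))) :
    ¬ g ∣ Algebra.discr R b := by
  have hq : (Ideal.span {g}).IsPrime := (Ideal.span_singleton_prime hg.ne_zero).mpr hg
  intro hdvd
  rw [Algebra.discr_localizationLocalization R (Ideal.span {g}).primeCompl] at h
  have hmem : Algebra.discr R b ∈ Ideal.span {g} := Ideal.mem_span_singleton.mpr hdvd
  have h2 : algebraMap R (Localization.AtPrime (Ideal.span {g})) (Algebra.discr R b) ∈
      maximalIdeal (Localization.AtPrime (Ideal.span {g})) :=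
    (IsLocalization.AtPrime.to_map_mem_maximal_iff _ (Ideal.span {g}) _).mpr hmem
  exact h2 h

end Global

/-- **(C5) Unramified with trivial residue extensions.**  `g` a prime element of `R`, `b` an
`R`-basis of `S`.  If every prime `Q` of `S` over `(g)` is locally generated by `g` and every
element of `S` is congruent modulo `Q` to a fraction `r / σ` of `R` with `σ ∉ (g)`, then `g`
does not divide the discriminant of `b`. -/
theorem not_dvd_discr_of_residue_trivial {R S : Type*} [CommRing R] [IsDomain R] [CommRing S]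
    [Algebra R S] {ι : Type*} [Fintype ι] [DecidableEq ι] (b : Module.Basis ι R S) {g : R}
    (hg : Prime g)
    (hU : ∀ Q : Ideal S, Q.IsPrime → Q.comap (algebraMap R S) = Ideal.span {g} →
      ∀ x ∈ Q, ∃ s : S, s ∉ Q ∧ s * x ∈ (Ideal.span {g}).map (algebraMap R S))
    (htriv : ∀ Q : Ideal S, Q.IsPrime → Q.comap (algebraMap R S) = Ideal.span {g} →
      ∀ c : S, ∃ r σ : R, σ ∉ Ideal.span {g} ∧ algebraMap R S σ * c - algebraMap R S r ∈ Q) :
    ¬ g ∣ Algebra.discr R b := by
  have hq : (Ideal.span {g}).IsPrime := (Ideal.span_singleton_prime hg.ne_zero).mpr hg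
  apply not_dvd_discr_of_isUnit_localization b hg
  have hfin : Module.Finite (Localization.AtPrime (Ideal.span {g}))
      (Localization (Algebra.algebraMapSubmonoid S (Ideal.span {g}).primeCompl)) :=
    Module.Finite.of_basis (b.localizationLocalization _ (Ideal.span {g}).primeCompl _)
  exact isUnit_discr_of_unr_of_residue_trivial _
    (fun P hP x hx => unr_localization (Ideal.span {g}) hU P hP x hx)
    (fun P hP c => residue_trivial_localization (Ideal.span {g}) htriv P hP c)

/-- **(C6) Unramified with separable residue extensions**, elementwise form.  `g` a prime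
element of `R`, `b` an `R`-basis of `S`.  If every prime `Q` of `S` over `(g)` is locally
generated by `g` and every element of `S` is, modulo `Q`, a simple root of a polynomial over `R`,
then `g` does not divide the discriminant of `b`. -/
theorem not_dvd_discr_of_separable {R S : Type*} [CommRing R] [IsDomain R] [CommRing S]
    [Algebra R S] {ι : Type*} [Fintype ι] [DecidableEq ι] (b : Module.Basis ι R S) {g : R}
    (hg : Prime g)
    (hU : ∀ Q : Ideal S, Q.IsPrime → Q.comap (algebraMap R S) = Ideal.span {g} →
      ∀ x ∈ Q, ∃ s : S, s ∉ Q ∧ s * x ∈ (Ideal.span {g}).map (algebraMap R S))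
    (hsep : ∀ Q : Ideal S, Q.IsPrime → Q.comap (algebraMap R S) = Ideal.span {g} →
      ∀ c : S, ∃ f : Polynomial R, Polynomial.aeval c f ∈ Q ∧
        Polynomial.aeval c (Polynomial.derivative f) ∉ Q) :
    ¬ g ∣ Algebra.discr R b := by
  have hq : (Ideal.span {g}).IsPrime := (Ideal.span_singleton_prime hg.ne_zero).mpr hg
  apply not_dvd_discr_of_isUnit_localization b hg
  have hfin : Module.Finite (Localization.AtPrime (Ideal.span {g}))
      (Localization (Algebra.algebraMapSubmonoid S (Ideal.span {g}).primeCompl)) :=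
    Module.Finite.of_basis (b.localizationLocalization _ (Ideal.span {g}).primeCompl _)
  exact isUnit_discr_of_unr _
    (fun P hP x hx => unr_localization (Ideal.span {g}) hU P hP x hx)
    (fun P hP c => separable_localization (Ideal.span {g}) hsep P hP c)

end Fermat.Agent.S44.L.DiscrLoc
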