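import Mathlib

/-!
# (L.KUM) Kummer constants

`E₀ ⊆ E₁ = E₀(ζ) ⊆ E₁(b)`, `ζ` a primitive `p`-th root of unity, `b ^ p = u ∈ E₀`.  If `c ∈ E₀`
is a `p`-th power in `E₀(ζ, b)` then `c = u ^ i * d ^ p` with `d ∈ E₀`.

* `pow_descent`: an element of `E₀` that is a `p`-th power in `E₀(ζ)` is a `p`-th power in `E₀`
  (otherwise `X ^ p - a` is irreducible, of degree `p > p - 1 ≥ [E₀(ζ) : E₀]`).
* `kummer_step`: over a field `K ∋ ζ`, an element `c ∈ K` that is a `p`-th power in `K(b)`,
  `b ^ p = u ∈ K`, is `u ^ i * k ^ p` with `k ∈ K` (trace argument: otherwise every `e * b ^ i`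
  has minimal polynomial `X ^ p - c * u ^ i`, hence trace zero, and the trace form of the
  separable extension `K(b) / K` would kill `e`).
* `kummer_const`, `kummer_const_subfield`: the two combined.
-/

namespace Fermat.Agent.S44.L.KummerConst

open Polynomial IntermediateField

/-- An element of `E₀` that is a `p`-th power in `E₀(ζ)`, `ζ` a primitive `p`-th root of unity,
is a `p`-th power in `E₀`. -/
theorem pow_descent {E₀ E' : Type*} [Field E₀] [Field E'] [Algebra E₀ E'] {p : ℕ} (hp : p.Prime)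
    {ζ : E'} (hζ : IsPrimitiveRoot ζ p) {a : E₀} {k : E'}
    (hk : k ∈ IntermediateField.adjoin E₀ {ζ}) (hak : algebraMap E₀ E' a = k ^ p) :
    ∃ d : E₀, a = d ^ p := by
  by_contra hcon
  push Not at hcon
  have hirr : Irreducible (X ^ p - C a : E₀[X]) :=
    X_pow_sub_C_irreducible_of_prime hp (fun d hd => hcon d hd.symm)
  have hmon : (X ^ p - C a : E₀[X]).Monic := monic_X_pow_sub_C a hp.ne_zero
  have hroot : aeval k (X ^ p - C a : E₀[X]) = 0 := by
    simp [hak]
  have hmin : X ^ p - C a = minpoly E₀ k := minpoly.eq_of_irreducible_of_monic hirr hroot hmon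
  have hdeg : (minpoly E₀ k).natDegree = p := by
    rw [← hmin, natDegree_X_pow_sub_C]
  have hζroot : aeval ζ (cyclotomic p E₀) = 0 := by
    rw [aeval_def, eval₂_eq_eval_map, map_cyclotomic]
    exact hζ.isRoot_cyclotomic hp.pos
  have hζint : IsIntegral E₀ ζ := ⟨cyclotomic p E₀, cyclotomic.monic p E₀, hζroot⟩
  have : FiniteDimensional E₀ E₀⟮ζ⟯ := adjoin.finiteDimensional hζint
  have h1 : (minpoly E₀ k).natDegree ≤ Module.finrank E₀ E₀⟮ζ⟯ := by
    have := minpoly.natDegree_le (A := E₀) (⟨k, hk⟩ : E₀⟮ζ⟯)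
    rwa [IntermediateField.minpoly_eq] at this
  have h2 : Module.finrank E₀ E₀⟮ζ⟯ ≤ p - 1 := by
    rw [adjoin.finrank hζint]
    have hdvd : minpoly E₀ ζ ∣ cyclotomic p E₀ := minpoly.dvd E₀ ζ hζroot
    have := natDegree_le_of_dvd hdvd (cyclotomic_ne_zero p E₀)
    rwa [natDegree_cyclotomic, Nat.totient_prime hp] at this
  have := hp.pos
  omega

/-- **Kummer step.**  Over a field `K` containing a primitive `p`-th root of unity, an element
`c ∈ K` that is a `p`-th power in `K(b)`, where `b ^ p = u ∈ K`, is `u ^ i * k ^ p` with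
`k ∈ K`. -/
theorem kummer_step {K L : Type*} [Field K] [Field L] [Algebra K L] {p : ℕ} (hp : p.Prime)
    {ζ : K} (hζ : IsPrimitiveRoot ζ p) {b : L} {u c : K} (hbu : b ^ p = algebraMap K L u)
    {e : L} (he : e ∈ IntermediateField.adjoin K {b}) (hce : algebraMap K L c = e ^ p) :
    ∃ (i : ℕ) (k : K), c = u ^ i * k ^ p := by
  have : NeZero p := ⟨hp.ne_zero⟩
  by_cases hu : ∃ k : K, k ^ p = u
  · -- `b ∈ K`, so `e ∈ K`
    obtain ⟨k, hk⟩ := hu
    have hb : b ∈ (⊥ : IntermediateField K L) := by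
      by_cases hk0 : k = 0
      · have hb0 : b = 0 := by
          have : b ^ p = 0 := by rw [hbu, ← hk, hk0, zero_pow hp.ne_zero, map_zero]
          exact pow_eq_zero_iff hp.ne_zero |>.1 this
        rw [hb0]; exact zero_mem _
      · have hk0' : algebraMap K L k ≠ 0 := by simpa using hk0
        have h1 : (b / algebraMap K L k) ^ p = 1 := by
          rw [div_pow, hbu, ← hk, map_pow]
          exact div_self (pow_ne_zero _ hk0')
        obtain ⟨j, -, hj⟩ :=
          (hζ.map_of_injective (algebraMap K L).injective).eq_pow_of_pow_eq_one h1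
        have hbeq : b = algebraMap K L (ζ ^ j * k) := by
          rw [map_mul, map_pow, hj, div_mul_cancel₀ _ hk0']
        rw [hbeq]; exact IntermediateField.algebraMap_mem _ _
    have he' : e ∈ (⊥ : IntermediateField K L) := by
      have hbot : IntermediateField.adjoin K {b} = ⊥ := adjoin_simple_eq_bot_iff.2 hb
      rwa [hbot] at he
    obtain ⟨k', rfl⟩ := IntermediateField.mem_bot.1 he'
    refine ⟨0, k', ?_⟩
    apply (algebraMap K L).injective
    simp [hce]
  · push Not at hu
    have hirr : Irreducible (X ^ p - C u : K[X]) := X_pow_sub_C_irreducible_of_prime hp hu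
    have hu0 : u ≠ 0 := by
      rintro rfl
      exact hu 0 (zero_pow hp.ne_zero)
    have hmin : X ^ p - C u = minpoly K b :=
      minpoly.eq_of_irreducible_of_monic hirr (by simp [hbu]) (monic_X_pow_sub_C u hp.ne_zero)
    have hbint : IsIntegral K b :=
      ⟨X ^ p - C u, monic_X_pow_sub_C u hp.ne_zero, by simp [hbu]⟩
    have : FiniteDimensional K K⟮b⟯ := adjoin.finiteDimensional hbint
    have hpK : (p : K) ≠ 0 := (hζ.neZero').out
    have : Algebra.IsSeparable K K⟮b⟯ := by
      rw [isSeparable_adjoin_simple_iff_isSeparable]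
      rw [IsSeparable, ← hmin]
      exact separable_X_pow_sub_C u hpK hu0
    by_contra hcon
    push Not at hcon
    -- no `c * u ^ i` is a `p`-th power in `K`
    have hnp : ∀ i : ℕ, ∀ k : K, k ^ p ≠ c * u ^ i := by
      intro i k hk
      apply hcon (p * i - i) (k / u ^ i)
      have hui : u ^ i ≠ 0 := pow_ne_zero _ hu0
      have hle : i ≤ p * i := Nat.le_mul_of_pos_left i hp.pos
      rw [div_pow, hk, ← pow_mul, mul_comm i p]
      have : u ^ (p * i) = u ^ (p * i - i) * u ^ i := by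
        rw [← pow_add, Nat.sub_add_cancel hle]
      rw [this]
      field_simp
    -- the elements of `K(b)`
    set e' : K⟮b⟯ := ⟨e, he⟩ with he'
    set b' : K⟮b⟯ := AdjoinSimple.gen K b with hb'
    have hb'p : b' ^ p = algebraMap K K⟮b⟯ u := by
      apply Subtype.ext
      simpa [hb'] using hbu
    have he'p : e' ^ p = algebraMap K K⟮b⟯ c := by
      apply Subtype.ext
      simpa [he'] using hce.symm
    -- traces vanish
    have htr : ∀ i : ℕ, Algebra.trace K K⟮b⟯ (e' * b' ^ i) = 0 := by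
      intro i
      have hirr_i := X_pow_sub_C_irreducible_of_prime hp (hnp i)
      have hmin_i : X ^ p - C (c * u ^ i) = minpoly K (e' * b' ^ i) := by
        refine minpoly.eq_of_irreducible_of_monic hirr_i ?_ (monic_X_pow_sub_C _ hp.ne_zero)
        simp only [map_sub, map_pow, aeval_X, aeval_C, map_mul]
        rw [mul_pow, he'p, ← pow_mul, mul_comm i p, pow_mul, hb'p, sub_self]
      rw [trace_eq_finrank_mul_minpoly_nextCoeff, ← hmin_i]
      have hnext : (X ^ p - C (c * u ^ i) : K[X]).nextCoeff = 0 := by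
        have hnd : (X ^ p - C (c * u ^ i) : K[X]).natDegree = p := natDegree_X_pow_sub_C
        rw [nextCoeff, hnd, if_neg hp.ne_zero]
        have h2 : p - 1 ≠ p := by have := hp.pos; omega
        have h3 : p - 1 ≠ 0 := by have := hp.two_le; omega
        rw [coeff_sub, coeff_X_pow, coeff_C, if_neg h2, if_neg h3, sub_zero]
      rw [hnext]; simp
    -- the powers of `b'` span `K(b)`
    have hall : ∀ y : K⟮b⟯, Algebra.trace K K⟮b⟯ (e' * y) = 0 := by
      intro y
      have hy : y ∈ Submodule.span K (Set.range fun i : Fin (adjoin.powerBasis hbint).dim =>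
          b' ^ (i : ℕ)) := by
        have := (adjoin.powerBasis hbint).basis.mem_span y
        have hrange : Set.range (adjoin.powerBasis hbint).basis =
            Set.range fun i : Fin (adjoin.powerBasis hbint).dim => b' ^ (i : ℕ) := by
          congr 1
          ext i
          simp [hb']
        rwa [hrange] at this
      refine Submodule.span_induction (p := fun y _ => Algebra.trace K K⟮b⟯ (e' * y) = 0)
        ?_ ?_ ?_ ?_ hy
      · rintro _ ⟨i, rfl⟩
        exact htr i
      · simp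
      · intro x y _ _ hx hy
        rw [mul_add, map_add, hx, hy, add_zero]
      · intro a x _ hx
        rw [mul_smul_comm, map_smul, hx, smul_zero]
    have he0 : e' = 0 := (traceForm_nondegenerate K K⟮b⟯).1 e' hall
    have hc0 : c = 0 := by
      apply (algebraMap K K⟮b⟯).injective
      rw [← he'p, he0, zero_pow hp.ne_zero, map_zero]
    exact hnp 0 0 (by simp [hc0, zero_pow hp.ne_zero])

/-- **(L.KUM), type-level form.**  `ζ` a primitive `p`-th root of unity, `b ^ p = u ∈ E₀`.  If
`c ∈ E₀` is a `p`-th power in `E₀(ζ, b)`, then `c = u ^ i * d ^ p` with `d ∈ E₀`. -/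
theorem kummer_const {E₀ E' : Type*} [Field E₀] [Field E'] [Algebra E₀ E'] {p : ℕ}
    (hp : p.Prime) {ζ b : E'} (hζ : IsPrimitiveRoot ζ p) {u c : E₀}
    (hbu : b ^ p = algebraMap E₀ E' u) {e : E'}
    (he : e ∈ IntermediateField.adjoin E₀ {ζ, b}) (hce : algebraMap E₀ E' c = e ^ p) :
    ∃ (i : ℕ) (d : E₀), c = u ^ i * d ^ p := by
  -- the Kummer step over `K = E₀(ζ)`
  let ζK : E₀⟮ζ⟯ := AdjoinSimple.gen E₀ ζ
  have hζK : IsPrimitiveRoot ζK p := by
    refine IsPrimitiveRoot.of_map_of_injective (f := algebraMap E₀⟮ζ⟯ E') ?_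
      (algebraMap E₀⟮ζ⟯ E').injective
    exact hζ
  have he' : e ∈ IntermediateField.adjoin E₀⟮ζ⟯ {b} := by
    have h := adjoin_adjoin_left E₀ ({ζ} : Set E') ({b} : Set E')
    have h2 : e ∈ (IntermediateField.adjoin E₀⟮ζ⟯ ({b} : Set E')).restrictScalars E₀ := by
      rw [h]
      have : ({ζ} ∪ {b} : Set E') = {ζ, b} := Set.singleton_union
      rwa [this]
    exact h2
  obtain ⟨i, k, hk⟩ := kummer_step (K := E₀⟮ζ⟯) (L := E') hp hζK
    (u := algebraMap E₀ E₀⟮ζ⟯ u) (c := algebraMap E₀ E₀⟮ζ⟯ c) (b := b) (e := e)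
    (by rw [hbu]; rfl) he' (by rw [← hce]; rfl)
  by_cases hu0 : u = 0
  · rcases Nat.eq_zero_or_pos i with hi | hi
    · subst hi
      have hak : algebraMap E₀ E' c = (k : E') ^ p := by
        have := congrArg (algebraMap E₀⟮ζ⟯ E') hk
        simpa using this
      obtain ⟨d, hd⟩ := pow_descent hp hζ k.2 hak
      exact ⟨0, d, by simpa using hd⟩
    · refine ⟨1, 0, ?_⟩
      have : algebraMap E₀ E₀⟮ζ⟯ c = 0 := by
        rw [hk, hu0, map_zero, zero_pow hi.ne', zero_mul]
      have hc0 : c = 0 := (algebraMap E₀ E₀⟮ζ⟯).injective (by rw [this, map_zero])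
      rw [hc0, hu0]; simp [hp.ne_zero]
  · have hak : algebraMap E₀ E' (c / u ^ i) = (k : E') ^ p := by
      have := congrArg (algebraMap E₀⟮ζ⟯ E') hk
      have hui : algebraMap E₀ E' (u ^ i) ≠ 0 := by simpa using pow_ne_zero i hu0
      rw [map_div₀, div_eq_iff hui]
      simp only [map_mul, map_pow] at this ⊢
      have h3 : algebraMap E₀⟮ζ⟯ E' (algebraMap E₀ E₀⟮ζ⟯ c) = algebraMap E₀ E' c := rfl
      have h4 : algebraMap E₀⟮ζ⟯ E' (algebraMap E₀ E₀⟮ζ⟯ u) = algebraMap E₀ E' u := rfl
      rw [h3, h4] at this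
      rw [this, mul_comm]
      rfl
    obtain ⟨d, hd⟩ := pow_descent hp hζ k.2 hak
    refine ⟨i, d, ?_⟩
    rw [← hd]
    field_simp

/-- **(L.KUM), subfield form.**  Inside one ambient field `Ω`: `E₀` a subfield, `ζ` a primitive
`p`-th root of unity, `b ^ p = u ∈ E₀`.  If `c ∈ E₀` is the `p`-th power of an element of the
subfield generated by `E₀`, `ζ` and `b`, then `c = u ^ i * d ^ p` with `d ∈ E₀`. -/
theorem kummer_const_subfield {Ω : Type*} [Field Ω] (E₀ : Subfield Ω) {p : ℕ} (hp : p.Prime)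
    {ζ b u c e : Ω} (hζ : IsPrimitiveRoot ζ p) (hu : u ∈ E₀) (hbu : b ^ p = u) (hc : c ∈ E₀)
    (he : e ∈ Subfield.closure ((E₀ : Set Ω) ∪ {ζ, b})) (hce : c = e ^ p) :
    ∃ (i : ℕ) (d : Ω), d ∈ E₀ ∧ c = u ^ i * d ^ p := by
  have he' : e ∈ IntermediateField.adjoin E₀ ({ζ, b} : Set Ω) := by
    have h : (IntermediateField.adjoin E₀ ({ζ, b} : Set Ω)).toSubfield =
        Subfield.closure (Set.range (algebraMap E₀ Ω) ∪ {ζ, b}) := adjoin_toSubfield _ _
    have hr : Set.range (algebraMap E₀ Ω) = (E₀ : Set Ω) := by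
      ext x
      constructor
      · rintro ⟨y, rfl⟩; exact y.2
      · intro hx; exact ⟨⟨x, hx⟩, rfl⟩
    rw [hr] at h
    change e ∈ (IntermediateField.adjoin E₀ ({ζ, b} : Set Ω)).toSubfield
    rw [h]; exact he
  obtain ⟨i, d, hd⟩ := kummer_const (E₀ := E₀) (E' := Ω) hp hζ (u := ⟨u, hu⟩) (c := ⟨c, hc⟩)
    (b := b) hbu he' hce
  refine ⟨i, d, d.2, ?_⟩
  have := congrArg (Subtype.val) hd
  simpa using this

end Fermat.Agent.S44.L.KummerConst
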