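import Mathlib

/-!
# PROGRAM MR (S44), strand L: no new constants in a Kummer extension, or a root over the constants

(helper197)  The exits `PthRoot.exists_pow_eq_of_pointwise` / `PthRootRam.exists_pow_eq_of_pointwise_ram`
ask for a field `L ⊇ F` containing a `p`-th root `z` of `H ∈ F` and having NO NEW CONSTANTS
(`hOL`).  This is not automatic; the dichotomy is field theory:

* `forall_mem_range_or_exists_mem_adjoin` : let `k` be algebraically closed in `F` and
  `z ^ p = H ∈ F` in an extension `Ω`.  EITHER every element of `F(z)` algebraic over `k` lies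
  in `k`, OR `z ∈ F(x)` for some `x ∈ Ω` algebraic over `k` (so `H` is a `p`-th power after a
  constant field extension).
* `exists_algebraMap_eq_of_isIntegral` : an element of `k` integral over an integrally closed
  `O` with fraction field `k` comes from `O`.
* `hOL_or_exists_mem_adjoin` : the two combined, in the shape of the binder `hOL`.
-/

set_option autoImplicit false

namespace Fermat.Agent.S44.L.NoNewConst

open Polynomial IntermediateField

/-- **No new constants, or a root over the constants.**  `k` algebraically closed in `F`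
(`hconst`), `p` prime, `z ^ p = H ∈ F` in an extension `Ω` of `F`.  Either every element of
`F(z)` which is algebraic over `k` lies in `k`, or `z ∈ F(x)` for some `x ∈ Ω` algebraic over
`k`. -/
theorem forall_mem_range_or_exists_mem_adjoin {k F Ω : Type*} [Field k] [Field F] [Field Ω]
    [Algebra k F] [Algebra F Ω] [Algebra k Ω] [IsScalarTower k F Ω] {p : ℕ} (hp : p.Prime)
    (H : F) (z : Ω) (hz : z ^ p = algebraMap F Ω H)
    (hconst : ∀ y : F, IsAlgebraic k y → y ∈ (algebraMap k F).range) :
    (∀ x ∈ IntermediateField.adjoin F {z}, IsAlgebraic k x → x ∈ (algebraMap k Ω).range) ∨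
      ∃ x : Ω, IsAlgebraic k x ∧ z ∈ IntermediateField.adjoin F {x} := by
  by_cases hA : ∀ x ∈ IntermediateField.adjoin F {z}, IsAlgebraic k x →
      x ∈ (algebraMap k Ω).range
  · exact Or.inl hA
  right
  push Not at hA
  obtain ⟨x, hxz, hxalg, hxk⟩ := hA
  -- `x ∉ F`
  have hxF : x ∉ (⊥ : IntermediateField F Ω) := by
    intro hx
    obtain ⟨y, rfl⟩ := IntermediateField.mem_bot.1 hx
    have hy : IsAlgebraic k y :=
      (isAlgebraic_algebraMap_iff (algebraMap F Ω).injective).1 hxalg
    obtain ⟨c, rfl⟩ := hconst y hy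
    exact hxk ⟨c, IsScalarTower.algebraMap_apply k F Ω c⟩
  by_cases hH : ∃ g : F, g ^ p = H
  · obtain ⟨g, rfl⟩ := hH
    by_cases hg : g = 0
    · refine ⟨0, isAlgebraic_zero, ?_⟩
      have hz0 : z = 0 := by
        have h0 : z ^ p = 0 := by rw [hz, hg, zero_pow hp.ne_zero, map_zero]
        exact (pow_eq_zero_iff hp.ne_zero).1 h0
      rw [hz0]
      exact zero_mem _
    · have hg' : algebraMap F Ω g ≠ 0 := by simpa using hg
      refine ⟨z / algebraMap F Ω g, ?_, ?_⟩
      · have h1 : (z / algebraMap F Ω g) ^ p = 1 := by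
          rw [div_pow, hz, map_pow, div_self (pow_ne_zero _ hg')]
        exact IsAlgebraic.of_pow hp.pos (by rw [h1]; exact isAlgebraic_one)
      · have hmem : algebraMap F Ω g * (z / algebraMap F Ω g) ∈
            IntermediateField.adjoin F {z / algebraMap F Ω g} :=
          mul_mem (IntermediateField.algebraMap_mem _ g)
            (IntermediateField.mem_adjoin_simple_self F (z / algebraMap F Ω g))
        rwa [mul_div_cancel₀ z hg'] at hmem
  · push Not at hH
    have hirr : Irreducible (X ^ p - C H : F[X]) := X_pow_sub_C_irreducible_of_prime hp hH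
    have hroot : aeval z (X ^ p - C H : F[X]) = 0 := by simp [hz]
    have hmin : X ^ p - C H = minpoly F z :=
      minpoly.eq_of_irreducible_of_monic hirr hroot (monic_X_pow_sub_C H hp.ne_zero)
    have hzint : IsIntegral F z := ⟨X ^ p - C H, monic_X_pow_sub_C H hp.ne_zero, hroot⟩
    have hfin : FiniteDimensional F F⟮z⟯ := adjoin.finiteDimensional hzint
    have hrank : Module.finrank F F⟮z⟯ = p := by
      rw [adjoin.finrank hzint, ← hmin, natDegree_X_pow_sub_C]
    have hle : F⟮x⟯ ≤ F⟮z⟯ := adjoin_simple_le_iff.2 hxz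
    have hdvd : Module.finrank F F⟮x⟯ ∣ Module.finrank F F⟮z⟯ :=
      IntermediateField.finrank_dvd_of_le_right hle
    rw [hrank] at hdvd
    have hne1 : Module.finrank F F⟮x⟯ ≠ 1 := fun h1 =>
      hxF (finrank_adjoin_simple_eq_one_iff.1 h1)
    have hrx : Module.finrank F F⟮x⟯ = p := ((Nat.dvd_prime hp).1 hdvd).resolve_left hne1
    have heq : F⟮x⟯ = F⟮z⟯ :=
      IntermediateField.eq_of_le_of_finrank_eq hle (by rw [hrx, hrank])
    exact ⟨x, hxalg, by rw [heq]; exact mem_adjoin_simple_self F z⟩

/-- An element of `k` (inside `Ω`) which is integral over an integrally closed domain `O` with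
fraction field `k` comes from `O`. -/
theorem exists_algebraMap_eq_of_isIntegral {O k Ω : Type*} [CommRing O] [IsDomain O]
    [IsIntegrallyClosed O] [Field k] [Algebra O k] [IsFractionRing O k] [Field Ω] [Algebra O Ω]
    [Algebra k Ω] [IsScalarTower O k Ω] {x : Ω} (hx : IsIntegral O x)
    (hk : x ∈ (algebraMap k Ω).range) : ∃ a : O, algebraMap O Ω a = x := by
  obtain ⟨c, rfl⟩ := hk
  have hc : IsIntegral O c := (isIntegral_algebraMap_iff (algebraMap k Ω).injective).1 hx
  obtain ⟨a, rfl⟩ := (IsIntegrallyClosed.isIntegral_iff (K := k)).1 hc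
  exact ⟨a, IsScalarTower.algebraMap_apply O k Ω a⟩

/-- **`hOL`, or a root over the constants.**  `O` integrally closed with fraction field `k`,
`k` algebraically closed in `F`, `z ^ p = H ∈ F` in `Ω`.  Either every element of `F(z)`
integral over `O` comes from `O`, or `z ∈ F(x)` for some `x ∈ Ω` algebraic over `k`. -/
theorem hOL_or_exists_mem_adjoin {O k F Ω : Type*} [CommRing O] [IsDomain O]
    [IsIntegrallyClosed O] [Field k] [Algebra O k] [IsFractionRing O k] [Field F] [Field Ω]
    [Algebra k F] [Algebra F Ω] [Algebra k Ω] [IsScalarTower k F Ω] [Algebra O Ω]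
    [IsScalarTower O k Ω] {p : ℕ} (hp : p.Prime) (H : F) (z : Ω)
    (hz : z ^ p = algebraMap F Ω H)
    (hconst : ∀ y : F, IsAlgebraic k y → y ∈ (algebraMap k F).range) :
    (∀ x ∈ IntermediateField.adjoin F {z}, IsIntegral O x → ∃ a : O, algebraMap O Ω a = x) ∨
      ∃ x : Ω, IsAlgebraic k x ∧ z ∈ IntermediateField.adjoin F {x} := by
  rcases forall_mem_range_or_exists_mem_adjoin hp H z hz hconst with h | h
  · left
    intro x hx hint
    have hintk : IsIntegral k x := hint.tower_top
    exact exists_algebraMap_eq_of_isIntegral hint (h x hx hintk.isAlgebraic)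
  · exact Or.inr h

end Fermat.Agent.S44.L.NoNewConst
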