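import Fermat.Agent.S44.L.Depth

/-!
# S44 / strand L, row (L.R3): the base step of the ping-pong (level-free)

`B` a chart ring with `B → L`, `r : B →+* K` a reduction map to a domain (`P = ker r` a
component of the special fibre), `ϖ : B` with `P` generated by `ϖ` at its generic point
(`hloc`).  If the reduction of `f = c₁ / c₂` is a constant times an `l`-th power,

  `r c₁ * r g₂ ^ l = r a * r c₂ * r g₁ ^ l`      (`a` a constant, `g₁ / g₂` the `l`-th root),

then `f` has `l`-th-power depth `≥ 1` at `P` (`Depth.DepthGE`), with the constant `a`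
(`Depth.DepthC`).  Conversely depth `≥ 1` gives the congruence of the reductions.
-/

set_option autoImplicit false

namespace Fermat.Agent.S44.L.DepthBase

open Fermat.Agent.S44.L.Depth

variable {E L B K : Type*} [Field E] [Field L] [CommRing B] [Algebra E L] [Algebra B L]
  [CommRing K] [IsDomain K]

/-- `MemPow ϖ (ker r) 1 y` from a numerator that reduces to zero: if `y * d = n` with `r d ≠ 0`
and `r n = 0`, then `y ∈ ϖ B_P`. -/
theorem memPow_one_of_red (r : B →+* K) (ϖ : B)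
    (hloc : ∀ c : B, r c = 0 → ∃ t : B, r t ≠ 0 ∧ ϖ ∣ t * c)
    (y : L) (n d : B) (hd : r d ≠ 0) (hn : r n = 0)
    (hy : y * algebraMap B L d = algebraMap B L n) : MemPow ϖ (RingHom.ker r) 1 y := by
  obtain ⟨t, ht, e, hte⟩ := hloc n hn
  refine ⟨t * d, e, ?_, ?_⟩
  · rw [RingHom.mem_ker, map_mul]
    exact mul_ne_zero ht hd
  · rw [pow_one, ← hte, map_mul, map_mul, ← hy]
    ring

/-- **Base step with the constant.**  If `f = c₁ / c₂` and the reduction of `f` is
`r a * (r g₁ / r g₂) ^ l` with `a : B` the constant `c : E`, then `f = c * g ^ l * (1 + y)` with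
`g = g₁ / g₂` and `y ∈ ϖ B_P`. -/
theorem depthC_one_of_red (hinj : Function.Injective (algebraMap B L)) (r : B →+* K) (ϖ : B)
    (hloc : ∀ c : B, r c = 0 → ∃ t : B, r t ≠ 0 ∧ ϖ ∣ t * c)
    {l : ℕ} (f : L) (c : E) (a c₁ c₂ g₁ g₂ : B) (ha : algebraMap B L a = algebraMap E L c)
    (hra : r a ≠ 0) (hc₂ : r c₂ ≠ 0) (hg₁ : r g₁ ≠ 0) (hg₂ : r g₂ ≠ 0)
    (hf : f * algebraMap B L c₂ = algebraMap B L c₁)
    (hred : r c₁ * r g₂ ^ l = r a * r c₂ * r g₁ ^ l) :
    DepthC l ϖ (RingHom.ker r) 1 c f := by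
  have hne : ∀ x : B, r x ≠ 0 → algebraMap B L x ≠ 0 := by
    intro x hx h0
    apply hx
    have : x = 0 := hinj (by rw [h0, map_zero])
    rw [this, map_zero]
  have hg₁' := hne g₁ hg₁
  have hg₂' := hne g₂ hg₂
  have ha' := hne a hra
  have hc₂' := hne c₂ hc₂
  set g : L := algebraMap B L g₁ / algebraMap B L g₂ with hg
  have hg0 : g ≠ 0 := div_ne_zero hg₁' hg₂'
  have hcg : algebraMap E L c * g ^ l ≠ 0 := by
    rw [← ha]
    exact mul_ne_zero ha' (pow_ne_zero l hg0)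
  refine ⟨g, f / (algebraMap E L c * g ^ l) - 1, hg0, ?_, ?_⟩
  · rw [add_sub_cancel, mul_div_cancel₀ _ hcg]
  · refine memPow_one_of_red r ϖ hloc _ (c₁ * g₂ ^ l - a * c₂ * g₁ ^ l) (a * c₂ * g₁ ^ l)
      ?_ ?_ ?_
    · rw [map_mul, map_mul, map_pow]
      exact mul_ne_zero (mul_ne_zero hra hc₂) (pow_ne_zero l hg₁)
    · rw [map_sub, map_mul, map_mul, map_mul, map_pow, map_pow, hred, sub_self]
    · rw [hg, ← ha]
      simp only [map_sub, map_mul, map_pow]
      rw [← hf, div_pow]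
      have h1 : algebraMap B L g₁ ^ l ≠ 0 := pow_ne_zero l hg₁'
      have h2 : algebraMap B L g₂ ^ l ≠ 0 := pow_ne_zero l hg₂'
      field_simp

/-- **Base step.**  The same, as `DepthGE` (the constant forgotten). -/
theorem depthGE_one_of_red (hinj : Function.Injective (algebraMap B L)) (r : B →+* K) (ϖ : B)
    (hloc : ∀ c : B, r c = 0 → ∃ t : B, r t ≠ 0 ∧ ϖ ∣ t * c)
    {l : ℕ} (f : L) (c : E) (a c₁ c₂ g₁ g₂ : B) (ha : algebraMap B L a = algebraMap E L c)
    (hra : r a ≠ 0) (hc₂ : r c₂ ≠ 0) (hg₁ : r g₁ ≠ 0) (hg₂ : r g₂ ≠ 0)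
    (hf : f * algebraMap B L c₂ = algebraMap B L c₁)
    (hred : r c₁ * r g₂ ^ l = r a * r c₂ * r g₁ ^ l) :
    DepthGE E l ϖ (RingHom.ker r) 1 f := by
  refine (depthC_one_of_red hinj r ϖ hloc f c a c₁ c₂ g₁ g₂ ha hra hc₂ hg₁ hg₂ hf hred).depthGE ?_
  rintro rfl
  rw [map_zero] at ha
  have : a = 0 := hinj (by rw [ha, map_zero])
  exact hra (by rw [this, map_zero])

end Fermat.Agent.S44.L.DepthBase
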