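import Mathlib
import Fermat.Agent.Lib.NormBC
import Fermat.Agent.S30.E4.HeckeNorm
import Fermat.Agent.S34.HauptU.Plug
import Fermat.Agent.S44.Contract

/-!
# S44 / strand L, row (L.R3): the two degeneracy norms at `E`-level

`E ⊆ ℚ̄` an intermediate field, `LE N E ⊆ E((q))` the function field of level `N` over `E`,
`upE N E : LE N E → FN N` the extension of constants (`S34/Modular/SwapE`), level `N' p` with
`p` prime, `p ∤ N'`, `α_E = alphaHom N' p E`, `w_E = wHom N' p E` the `E`-level Atkin–Lehner swap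
and `β_E = w_E ∘ α_E`.

* `upE_norm_alpha`, `upE_norm_beta` : **the norms along `α_E`, `β_E` commute with the extension
  of constants**: `upE (N_{α_E} f) = N_α (upE f)`, `upE (N_{β_E} f) = N_β (upE f)`
  (`Lib/NormBC.norm_map_of_adjoin`: the degrees are `p + 1` on both sides and `FN (N' p)` is
  generated over `FN N'` by the image of `upE`).
* `exists_finset_upE` : an element of `FN N` comes from `LE N E` as soon as `E` contains a
  finite set of algebraic numbers.
* `exists_const_mul_pow` : descent of an equation `y = c * g ^ n`.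
* `exists_norm_E` : if `N_α x = c * g ^ p` and `N_β x = c' * g' ^ p` over `ℚ̄`, then over every
  `E` containing a finite set, for every `f : LE (N' p) E` with `upE f = x`:
  `N_{α_E} f = ca * ka ^ p`, `N_{β_E} f = cb * kb ^ p` with `ca cb : E`, `ka kb : LE N' E`.
  These are literally the hypotheses `hNa`, `hNb` of `R3Chart.r3_chart` at `α := alphaHom N' p E`,
  `w := wHom N' p E hp hpN`, `K := E`, `ℓ := p`.
* `exists_norm_E_of_isNewEmb` : the same for `x = ι Q`, `ι` an `IsNewEmb` embedding.
-/

set_option autoImplicit false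
set_option linter.unusedSectionVars false
set_option linter.style.haveILetI false
set_option synthInstance.maxHeartbeats 400000
set_option maxHeartbeats 400000

open WeierstrassCurve WeierstrassCurve.Affine WeierstrassCurve.Affine.Point
open ModularCurve AlgebraicCurve HahnSeries

noncomputable section

namespace Fermat.Agent.S44.L.R3Norm

open Fermat.Agent.S30 Fermat.Agent.S30.Producer Fermat.Agent.S18.K1Defs
open Fermat.Agent.S34 Fermat.Agent.S34.TwoPrimesRank Fermat.Agent.S34.Modular.SwapE
open Fermat.Agent.S34.HauptU.Plug Fermat.Agent.S44.Contract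

/-! ### Generic: the degree along `w ∘ α` -/

section Generic

variable {L' L : Type*} [Field L'] [Field L]

/-- The degree of `L` over `L'` along `w ∘ α` is the degree along `α` (`w` an automorphism). -/
theorem finrank_comp_equiv (α : L' →+* L) (w : L ≃+* L) :
    (letI := ((w : L →+* L).comp α).toAlgebra; Module.finrank L' L)
      = (letI := α.toAlgebra; Module.finrank L' L) :=
  (@Algebra.finrank_eq_of_equiv_equiv L' L _ _ α.toAlgebra L' L _ _
    ((w : L →+* L).comp α).toAlgebra (RingEquiv.refl L') w (RingHom.ext fun _ => rfl)).symm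

/-- **Norm base change along ring homomorphisms** (`Lib/NormBC.norm_map_of_adjoin` with the
algebra structures given by ring homomorphisms `a : L' → L`, `b : F' → F`). -/
theorem norm_map_of_ringHom {F' F : Type*} [Field F'] [Field F]
    (a : L' →+* L) (b : F' →+* F) (j' : L' →+* F') (j : L →+* F)
    (hsq : ∀ x : L', j (a x) = b (j' x)) {n : ℕ} (hn : 0 < n)
    (hL : (letI := a.toAlgebra; Module.finrank L' L) = n)
    (hF : (letI := b.toAlgebra; Module.finrank F' F) = n)
    (hgen : letI := b.toAlgebra; IntermediateField.adjoin F' (Set.range j) = ⊤) (f : L) :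
    j' (letI := a.toAlgebra; Algebra.norm L' f) = (letI := b.toAlgebra; Algebra.norm F' (j f)) := by
  letI := a.toAlgebra
  letI := b.toAlgebra
  haveI : FiniteDimensional L' L := FiniteDimensional.of_finrank_pos (by rw [hL]; exact hn)
  haveI : FiniteDimensional F' F := FiniteDimensional.of_finrank_pos (by rw [hF]; exact hn)
  exact (Fermat.Agent.Lib.NormBC.norm_map_of_adjoin j' j hsq (hF.trans hL.symm) hgen f).symm

end Generic

/-! ### Finite sets of algebraic numbers -/

/-- A number field inside `ℚ̄` is contained in every intermediate field containing a suitable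
finite set. -/
theorem exists_finset_le (E₀ : IntermediateField ℚ Qb) [FiniteDimensional ℚ E₀] :
    ∃ S : Finset Qb, ∀ E : IntermediateField ℚ Qb, (∀ s ∈ S, s ∈ E) → E₀ ≤ E := by
  classical
  let b := Module.finBasis ℚ E₀
  refine ⟨Finset.univ.image (fun i => ((b i : E₀) : Qb)), fun E hE x hx => ?_⟩
  have h1 : (⟨x, hx⟩ : E₀) = ∑ i, (b.repr ⟨x, hx⟩ i) • b i := (b.sum_repr _).symm
  have h2 : x = ∑ i, E₀.val ((b.repr ⟨x, hx⟩ i) • b i) := by
    have h2' := congrArg (fun y : E₀ => E₀.val y) h1
    simp only [map_sum] at h2'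
    exact h2'
  rw [h2]
  refine sum_mem fun i _ => ?_
  rw [map_rat_smul]
  exact IntermediateField.smul_mem E (hE _ (Finset.mem_image.mpr ⟨i, Finset.mem_univ i, rfl⟩))

/-- **Descent of elements, finite-set form.**  Every element of `FN N` comes from `LE N E` for
every intermediate field `E` containing a suitable finite set. -/
theorem exists_finset_upE (N : ℕ) (x : FN N) :
    ∃ S : Finset Qb, ∀ E : IntermediateField ℚ Qb, (∀ s ∈ S, s ∈ E) →
      ∃ y : LE N E, upE N E y = x := by
  obtain ⟨E₀, hE₀, h⟩ := GaussDescent.exists_descent (modularFunctionFieldFull N) x.2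
  haveI := hE₀
  obtain ⟨S, hS⟩ := exists_finset_le E₀
  refine ⟨S, fun E hE => ?_⟩
  obtain ⟨y, hy, hyx⟩ := h E (hS E hE)
  exact ⟨⟨y, hy⟩, Subtype.ext hyx⟩

/-- Descent of an equation `y = c * g ^ n` (`c` a constant). -/
theorem exists_const_mul_pow (N n : ℕ) (c : Qb) (g : FN N) :
    ∃ S : Finset Qb, ∀ E : IntermediateField ℚ Qb, (∀ s ∈ S, s ∈ E) → ∀ y : LE N E,
      upE N E y = algebraMap Qb (FN N) c * g ^ n →
      ∃ (c' : E) (k : LE N E), y = algebraMap E (LE N E) c' * k ^ n := by
  classical
  obtain ⟨S, hS⟩ := exists_finset_upE N g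
  refine ⟨insert c S, fun E hE y hy => ?_⟩
  have hc : c ∈ E := hE c (Finset.mem_insert_self c S)
  obtain ⟨k, hk⟩ := hS E (fun s hs => hE s (Finset.mem_insert_of_mem hs))
  refine ⟨⟨c, hc⟩, k, ?_⟩
  apply upE_injective N E
  rw [hy, map_mul, map_pow, hk, upE_algebraMap]

/-! ### Generation of `FN M` by the image of `upE` -/

/-- `FN M` is generated by the image of `LE M E` over any field `F'` of functions containing
the constants `ℚ̄`. -/
theorem adjoin_range_upE {F' : Type*} [Field F'] [Algebra Qb F'] (M : ℕ)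
    (E : IntermediateField ℚ Qb) [Algebra F' (FN M)] [IsScalarTower Qb F' (FN M)] :
    IntermediateField.adjoin F' (Set.range (upE M E)) = ⊤ := by
  rw [eq_top_iff]
  intro x _
  let K' : IntermediateField Qb (FN M) :=
    (IntermediateField.adjoin F' (Set.range (upE M E))).restrictScalars Qb
  have hle : IntermediateField.adjoin Qb (⇑(coeffEmb Qb) ''
      ((modularFunctionFieldFull M : IntermediateField ℚ (LaurentSeries ℚ)) :
        Set (LaurentSeries ℚ))) ≤ K'.map (modularFunctionFieldBar M).val := by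
    rw [IntermediateField.adjoin_le_iff]
    rintro _ ⟨z, hz, rfl⟩
    refine (IntermediateField.mem_map _).mpr
      ⟨upE M E ⟨coeffEmb E z, coeffEmb_mem_laurentBaseChange E hz⟩, ?_, ?_⟩
    · exact IntermediateField.subset_adjoin F' _ ⟨_, rfl⟩
    · exact GaussDescent.up_coeffEmb E z
  obtain ⟨y, hy, hyx⟩ := (IntermediateField.mem_map _).mp (hle x.2)
  have hyx' : y = x := Subtype.ext hyx
  rw [← hyx']
  exact hy

/-! ### The degrees -/

section Degrees

variable (N' p : ℕ) [NeZero N'] [NeZero p]

/-- `[FN (N' p) : β (FN N')] = p + 1` for a prime `p ∤ N'` (transport of the degree along `α`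
by the Atkin–Lehner swap). -/
theorem finrank_beta_bar (hp : p.Prime) (hpN : ¬ p ∣ N') :
    (letI := algebraAlong (heckeBetaBar Qb N' p); Module.finrank (FN N') (FN (N' * p))) = p + 1 := by
  have h1 : (letI := algebraAlong (heckeAlphaBar Qb N' p); Module.finrank (FN N') (FN (N' * p)))
      = p + 1 := E4.HeckeNorm.finrankAlong_alpha N' p hp hpN
  rw [← h1]
  exact (@Algebra.finrank_eq_of_equiv_equiv (FN N') (FN (N' * p)) _ _
    (algebraAlong (heckeAlphaBar Qb N' p)) (FN N') (FN (N' * p)) _ _
    (algebraAlong (heckeBetaBar Qb N' p)) (RingEquiv.refl (FN N'))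
    (ToricSwap.wAL N' p hp hpN).toRingEquiv
    (RingHom.ext fun x => (ToricSwap.wAL_alpha hp hpN x).symm)).symm

/-- `[LE (N' p) E : β_E (LE N' E)] = p + 1`, `β_E = w_E ∘ α_E`. -/
theorem finrank_beta_E (hp : p.Prime) (hpN : ¬ p ∣ N') (E : IntermediateField ℚ Qb) :
    (letI := ((wHom N' p E hp hpN : LE (N' * p) E →+* LE (N' * p) E).comp
        (alphaHom N' p E)).toAlgebra;
      Module.finrank (LE N' E) (LE (N' * p) E)) = p + 1 :=
  (finrank_comp_equiv (alphaHom N' p E) (wHom N' p E hp hpN)).trans
    (finrank_alpha N' p E hp hpN)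

end Degrees

/-! ### The norms commute with the extension of constants -/

section Norms

variable (N' p : ℕ) [NeZero N'] [NeZero p]

/-- **`upE (N_{α_E} f) = N_α (upE f)`.** -/
theorem upE_norm_alpha (hp : p.Prime) (hpN : ¬ p ∣ N') (E : IntermediateField ℚ Qb)
    (f : LE (N' * p) E) :
    upE N' E (letI := (alphaHom N' p E).toAlgebra; Algebra.norm (LE N' E) f)
      = (letI := algebraAlong (heckeAlphaBar Qb N' p);
          Algebra.norm (FN N') (upE (N' * p) E f)) :=
  norm_map_of_ringHom (alphaHom N' p E) (heckeAlphaBar Qb N' p).toRingHom (upE N' E)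
    (upE (N' * p) E) (fun a => upE_alpha N' p E a) (Nat.succ_pos p)
    (finrank_alpha N' p E hp hpN) (E4.HeckeNorm.finrankAlong_alpha N' p hp hpN)
    (@adjoin_range_upE (FN N') _ _ (N' * p) E (algebraAlong (heckeAlphaBar Qb N' p))
      (isScalarTower_along (heckeAlphaBar Qb N' p))) f

/-- **`upE (N_{β_E} f) = N_β (upE f)`**, `β_E = w_E ∘ α_E`. -/
theorem upE_norm_beta (hp : p.Prime) (hpN : ¬ p ∣ N') (E : IntermediateField ℚ Qb)
    (f : LE (N' * p) E) :
    upE N' E (letI := ((wHom N' p E hp hpN : LE (N' * p) E →+* LE (N' * p) E).comp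
        (alphaHom N' p E)).toAlgebra; Algebra.norm (LE N' E) f)
      = (letI := algebraAlong (heckeBetaBar Qb N' p);
          Algebra.norm (FN N') (upE (N' * p) E f)) :=
  norm_map_of_ringHom ((wHom N' p E hp hpN : LE (N' * p) E →+* LE (N' * p) E).comp
      (alphaHom N' p E)) (heckeBetaBar Qb N' p).toRingHom (upE N' E) (upE (N' * p) E)
    (fun a => (congrArg (upE (N' * p) E) (wHom_alpha N' p E hp hpN a)).trans
      (upE_beta N' p E a)) (Nat.succ_pos p)
    (finrank_beta_E N' p hp hpN E) (finrank_beta_bar N' p hp hpN)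
    (@adjoin_range_upE (FN N') _ _ (N' * p) E (algebraAlong (heckeBetaBar Qb N' p))
      (isScalarTower_along (heckeBetaBar Qb N' p))) f

/-- **The `E`-level norm equations** (`hNa`, `hNb` of `R3Chart.r3_chart`) from the `ℚ̄`-level
ones, over every `E` containing a suitable finite set. -/
theorem exists_norm_E (hp : p.Prime) (hpN : ¬ p ∣ N') (x : FN (N' * p)) (c c' : Qb)
    (g g' : FN N')
    (hNa : (letI := algebraAlong (heckeAlphaBar Qb N' p); Algebra.norm (FN N') x)
      = algebraMap Qb (FN N') c * g ^ p)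
    (hNb : (letI := algebraAlong (heckeBetaBar Qb N' p); Algebra.norm (FN N') x)
      = algebraMap Qb (FN N') c' * g' ^ p) :
    ∃ S : Finset Qb, ∀ E : IntermediateField ℚ Qb, (∀ s ∈ S, s ∈ E) →
      ∀ f : LE (N' * p) E, upE (N' * p) E f = x →
        ∃ (ca cb : E) (ka kb : LE N' E),
          (letI := (alphaHom N' p E).toAlgebra; Algebra.norm (LE N' E) f)
            = algebraMap E (LE N' E) ca * ka ^ p ∧
          (letI := ((wHom N' p E hp hpN : LE (N' * p) E →+* LE (N' * p) E).comp
              (alphaHom N' p E)).toAlgebra; Algebra.norm (LE N' E) f)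
            = algebraMap E (LE N' E) cb * kb ^ p := by
  classical
  obtain ⟨S₁, hS₁⟩ := exists_const_mul_pow N' p c g
  obtain ⟨S₂, hS₂⟩ := exists_const_mul_pow N' p c' g'
  refine ⟨S₁ ∪ S₂, fun E hE f hf => ?_⟩
  have h1 := upE_norm_alpha N' p hp hpN E f
  rw [hf] at h1
  have h2 := upE_norm_beta N' p hp hpN E f
  rw [hf] at h2
  obtain ⟨ca, ka, ha⟩ := hS₁ E (fun s hs => hE s (Finset.mem_union_left _ hs)) _ (h1.trans hNa)
  obtain ⟨cb, kb, hb⟩ := hS₂ E (fun s hs => hE s (Finset.mem_union_right _ hs)) _ (h2.trans hNb)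
  exact ⟨ca, cb, ka, kb, ha, hb⟩

end Norms

/-- **The `E`-level norm equations for a `p`-new embedding.** -/
theorem exists_norm_E_of_isNewEmb (P : FreyPackage) (N' : ℕ) [NeZero N'] [NeZero P.p]
    (W : WeierstrassCurve ℤ) (hpN : ¬ P.p ∣ N')
    (ι : (P.freyCurve⁄Qb).Point → FN (N' * P.p)) (hι : IsNewEmb P N' W ι)
    (Q : (P.freyCurve⁄Qb).Point) (hQ : P.p • Q = 0) :
    ∃ S : Finset Qb, ∀ E : IntermediateField ℚ Qb, (∀ s ∈ S, s ∈ E) →
      ∀ f : LE (N' * P.p) E, upE (N' * P.p) E f = ι Q →
        ∃ (ca cb : E) (ka kb : LE N' E),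
          (letI := (alphaHom N' P.p E).toAlgebra; Algebra.norm (LE N' E) f)
            = algebraMap E (LE N' E) ca * ka ^ P.p ∧
          (letI := ((wHom N' P.p E P.pp hpN : LE (N' * P.p) E →+* LE (N' * P.p) E).comp
              (alphaHom N' P.p E)).toAlgebra; Algebra.norm (LE N' E) f)
            = algebraMap E (LE N' E) cb * kb ^ P.p := by
  obtain ⟨c, g, hNa⟩ := hι.normAlpha Q hQ
  obtain ⟨c', g', hNb⟩ := hι.normBeta Q hQ
  exact exists_norm_E N' P.p P.pp hpN (ι Q) c c' g g' hNa hNb

end Fermat.Agent.S44.L.R3Norm
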