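import Mathlib
import Fermat.Agent.S34.Sat
import Fermat.Agent.S44.L.RedCore
import Fermat.Agent.S44.L.RedTransfer
import Fermat.Agent.S44.L.DepthBase
import Fermat.Agent.S44.L.Top
import Fermat.Agent.S44.L.R3Norm

/-!
# S44 / strand L, row (L.R3): the base of the ping-pong at chart level and at `E`-level

* `hloc_inf` : in the variable block of `S34/TwoPrimesGauss` (package hypotheses), the prime
  `p_∞ = ker rI` of the chart ring is generated by `ϖ` at its generic point.
* `depthC_one_of_gauss` : if `f, g : L` are Gauss-integral, `red g ≠ 0` and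
  `red f = red g ^ l`, then `f = g₁ ^ l * (1 + y)` with `y ∈ ϖ C_{p_∞}`
  (`Depth.DepthC l ϖ (ker rI) 1 1 f`).
* `depthC_one_jE` : the same at the objects of `S34/Sat.sat_j` (level `M ℓ`, coordinate `j`,
  `O = OE A E`).
* `mem_V_of_up` : Gauss-integrality over `A ∩ E` of a series whose extension to `ℚ̄` is a
  fraction of `A`-integral series with nonzero reductions, with the comparison of reductions.
* `exists_depthGE_one` : **the hypothesis `h1` of `R3Chart.r3_chart` from the `ℚ̄`-level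
  reduction.**  If `x ∈ FN (N' p)` has a reduction `fb` (`Top.RedAt`) which is a constant times
  the `p`-th power of an element of the reduced function field (`Contract.redSet`), then over
  every `E` containing a suitable finite set, every `f : LE (N' p) E` with `upE f = x` has
  `p`-th-power depth `≥ 1` at `p_∞`.
-/

set_option autoImplicit false
set_option linter.unusedSectionVars false
set_option linter.unusedVariables false
set_option linter.style.haveILetI false
set_option synthInstance.maxHeartbeats 400000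

open ModularCurve Polynomial

noncomputable section

namespace Fermat.Agent.S44.L.R3Base

open Fermat.Agent.S18.K1Defs Fermat.Agent.S18.K1Top Fermat.Agent.S30 Fermat.Agent.S30.E2Deg
open Fermat.Agent.S30.Producer
open Fermat.Agent.S34 Fermat.Agent.S34.Sat Fermat.Agent.S34.Modular.SwapE
open Fermat.Agent.S34.TwoPrimesRank Fermat.Agent.S34.HauptU.Plug Fermat.Agent.S34.TwoPrimesGauss
open Fermat.Agent.S44.Contract Fermat.Agent.S44.L.Top Fermat.Agent.S44.L.Depth
open Fermat.Agent.S44.L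

/-! ### Chart level -/

section Core

variable {O E : Type*} [CommRing O] [IsDomain O] [IsDiscreteValuationRing O] [Field E]
  [Algebra O E] [FaithfulSMul O E]
  {L' L : Type*} [Field L'] [Field L] [Algebra O L'] [Algebra O L]
  (ϖ : O) (hϖ : Irreducible ϖ)
  (α : L' →+* L) (hαO : ∀ r : O, α (algebraMap O L' r) = algebraMap O L r)
  (σ : L →+* LaurentSeries E)
  (hσO : ∀ r : O, σ (algebraMap O L r) = HahnSeries.C (algebraMap O E r))
  (hσfrac : ∀ x : L, σ x ∈ GaussDVR.fracField O E)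
  (u' : L') (U : LaurentSeries O) (hσu : σ (α u') = GaussDVR.iota O E U)
  (w : L ≃+* L) (hwO : ∀ r : O, w (algebraMap O L r) = algebraMap O L r)
  (ℓ : ℕ) [NeZero ℓ]
  (hwα : ∀ x : L', σ (w (α x)) = qExpand E ℓ (σ (α x)))
  (hww : ∀ z : L, w (w z) = z)
  (hprime : Prime (piC u' ϖ))
  (hcop : IsCoprime (GaussDVR.rho O U).order (ℓ : ℤ)) (hord : (GaussDVR.rho O U).order ≠ 0)
  (hℓ : 2 ≤ ℓ)
  (hfrob : qExpand (IsLocalRing.ResidueField O) ℓ (GaussDVR.rho O U) = GaussDVR.rho O U ^ ℓ)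
  (hwu : IsIntegral (Algebra.adjoin O {α u'}) (w (α u')))
  (hrank : ∀ v : Option (Fin 1 ⊕ Fin ℓ) → Chart O (α u'),
    ∃ c : Option (Fin 1 ⊕ Fin ℓ) → Chart O u', c ≠ 0 ∧ ∑ i, incl α hαO u' (c i) * v i = 0)

local notation "rI" => redInf ϖ hϖ α σ hσO hσfrac u' U hσu
local notation "rZ" => redZero ϖ hϖ α σ hσO hσfrac u' U hσu w hwO ℓ hwα

include hϖ hαO hσO hσfrac hσu hwO hwα hww hprime hcop hord hℓ hfrob hwu hrank in
/-- The prime `p_∞ = ker rI` is generated by `ϖ` at its generic point. -/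
theorem hloc_inf (c : Chart O (α u')) (hc : rI c = 0) :
    ∃ t : Chart O (α u'), rI t ≠ 0 ∧ piC (α u') ϖ ∣ t * c := by
  obtain ⟨t₀, ht₀Z, ht₀I⟩ := exists_sep_zero ϖ hϖ α hαO σ hσO hσfrac u' U hσu w hwO ℓ hwα hww
    hprime hcop hord hℓ hfrob hwu hrank
  refine ⟨t₀, ht₀I, ?_⟩
  have hI : rI (t₀ * c) = 0 := by rw [map_mul, hc, mul_zero]
  have hZ : rZ (t₀ * c) = 0 := by rw [map_mul, ht₀Z, zero_mul]
  exact dvd_of_redInf_redZero ϖ hϖ α hαO σ hσO hσfrac u' U hσu w hwO ℓ hwα hww hprime hcop hord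
    hℓ hfrob hwu hrank (t₀ * c) hI hZ

include hϖ hαO hσO hσfrac hσu hwO hwα hww hprime hcop hord hℓ hfrob hwu hrank in
/-- **Base step from the Gauss reductions.**  If `f, g : L` are Gauss-integral, `red g ≠ 0` and
`red f = red g ^ l`, then `f` has `l`-th-power depth `≥ 1` at `p_∞`, with constant `1`. -/
theorem depthC_one_of_gauss [IsFractionRing (Chart O (α u')) L] {K : Type*} [Field K]
    [Algebra K L] {l : ℕ} (f g : L) (hf : σ f ∈ GaussDVR.V O E) (hg : σ g ∈ GaussDVR.V O E)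
    (hg0 : GaussDVR.red O E ⟨σ g, hg⟩ ≠ 0)
    (hred : GaussDVR.red O E ⟨σ f, hf⟩ = GaussDVR.red O E ⟨σ g, hg⟩ ^ l) :
    DepthC l (piC (α u') ϖ) (RingHom.ker rI) 1 (1 : K) f := by
  obtain ⟨c₁, c₂, hc₂, hfc⟩ := RedCore.exists_frac_redInf_ne_zero ϖ hϖ α hαO σ hσO hσfrac u' U
    hσu w hwO ℓ hwα hww hprime hcop hord hℓ hfrob hwu hrank f hf
  obtain ⟨g₁, g₂, hg₂, hgg⟩ := RedCore.exists_frac_redInf_ne_zero ϖ hϖ α hαO σ hσO hσfrac u' U
    hσu w hwO ℓ hwα hww hprime hcop hord hℓ hfrob hwu hrank g hg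
  have e1 := RedCore.red_mul_redInf ϖ hϖ α σ hσO hσfrac u' U hσu f hf c₁ c₂ hfc
  have e2 := RedCore.red_mul_redInf ϖ hϖ α σ hσO hσfrac u' U hσu g hg g₁ g₂ hgg
  have hg₁ : rI g₁ ≠ 0 := by
    rw [← e2]
    exact mul_ne_zero hg0 hg₂
  refine DepthBase.depthC_one_of_red (IsFractionRing.injective (Chart O (α u')) L) rI
    (piC (α u') ϖ)
    (hloc_inf ϖ hϖ α hαO σ hσO hσfrac u' U hσu w hwO ℓ hwα hww hprime hcop hord hℓ hfrob hwu
      hrank)
    f (1 : K) 1 c₁ c₂ g₁ g₂ (by rw [map_one, map_one]) (by rw [map_one]; exact one_ne_zero)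
    hc₂ hg₁ hg₂ hfc ?_
  rw [map_one, one_mul, ← e1, ← e2, hred, mul_pow]
  ring

end Core

/-! ### `E`-level, the objects of `Sat.sat_j` -/

local notation "Qb" => AlgebraicClosure ℚ

set_option maxHeartbeats 1600000 in
/-- **Base step at the objects of `Sat.sat_j`.** -/
theorem depthC_one_jE (M ℓ : ℕ) [NeZero M] [NeZero ℓ] (hℓ : ℓ.Prime) (hℓM : ¬ ℓ ∣ M)
    (A : ValuationSubring Qb) (hA : A.LiesOverPrime ℓ) (E : IntermediateField ℚ Qb)
    [IsDiscreteValuationRing (OE A E)]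
    [Algebra (OE A E) (LE M E)] [IsScalarTower (OE A E) E (LE M E)]
    [Algebra (OE A E) (LE (M * ℓ) E)] [IsScalarTower (OE A E) E (LE (M * ℓ) E)]
    (π : OE A E) (hπ : Irreducible π) (hprime : Prime (piC (jE M E) π))
    {l : ℕ} (f g : LE (M * ℓ) E)
    (hf : (f : LaurentSeries E) ∈ GaussDVR.V (OE A E) E)
    (hg : (g : LaurentSeries E) ∈ GaussDVR.V (OE A E) E)
    (hg0 : GaussDVR.red (OE A E) E ⟨(g : LaurentSeries E), hg⟩ ≠ 0)
    (hred : GaussDVR.red (OE A E) E ⟨(f : LaurentSeries E), hf⟩ =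
      GaussDVR.red (OE A E) E ⟨(g : LaurentSeries E), hg⟩ ^ l) :
    DepthC l (piC (alphaHom M ℓ E (jE M E)) π)
      (RingHom.ker (redInf π hπ (alphaHom M ℓ E) (sigmaHom (M * ℓ) E)
        (sigmaHom_algebraMap (M * ℓ) E) (sigmaHom_mem_fracField (M * ℓ) E A) (jE M E)
        (jqModC (OE A E)) (hσu_j M ℓ E)) :
        Ideal (Chart (OE A E) (alphaHom M ℓ E (jE M E)))) 1 (1 : E) f := by
  haveI := charP_residue_OE' A E hℓ hA
  have hαj : alphaHom M ℓ E (jE M E) = jE (M * ℓ) E := Subtype.ext rfl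
  haveI : FiniteDimensional (IntermediateField.adjoin E {alphaHom M ℓ E (jE M E)})
      (LE (M * ℓ) E) := by
    rw [hαj]
    exact E2Deg.finite_LE (M * ℓ) E
  haveI : IsFractionRing (Chart (OE A E) (alphaHom M ℓ E (jE M E))) (LE (M * ℓ) E) :=
    isFractionRing_chart_of_finite (O := OE A E) (E := E) (alphaHom M ℓ E (jE M E))
  exact depthC_one_of_gauss π hπ (alphaHom M ℓ E) (alphaHom_algebraMap M ℓ E)
    (sigmaHom (M * ℓ) E) (sigmaHom_algebraMap (M * ℓ) E) (sigmaHom_mem_fracField (M * ℓ) E A)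
    (jE M E) (jqModC (OE A E)) (hσu_j M ℓ E) (wHom M ℓ E hℓ hℓM)
    (wHom_algebraMap M ℓ E hℓ hℓM) ℓ (sigmaHom_wHom_alpha M ℓ E hℓ hℓM)
    (wHom_wHom M ℓ E hℓ hℓM) hprime (hcop_j _ ℓ) (hord_j _) hℓ.two_le (hfrob_j _ ℓ hℓ)
    (hwu_j M ℓ E hℓ hℓM) (hrank_j M ℓ E hℓ hℓM) f g hf hg hg0 hred

/-! ### From `ℚ̄` to `E` -/

/-- **Gauss-integrality over `A ∩ E` from a fraction over `A`.**  If `z ∈ E((q))` lies in the
fraction field of `O((q))`, `O = A ∩ E`, and its extension to `ℚ̄` is `U / V` with `U, V`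
`A`-integral series with nonzero reductions, then `z` is Gauss-integral over `O` and
`kmap (red z) * red V = red U`. -/
theorem mem_V_of_up (A : ValuationSubring Qb) (E : IntermediateField ℚ Qb)
    [IsDiscreteValuationRing (OE A E)] (z : LaurentSeries E)
    (hz : z ∈ GaussDVR.fracField (OE A E) E) (U V : LaurentSeries A)
    (hU : Congr.red A U ≠ 0) (hV : Congr.red A V ≠ 0)
    (h : GaussDescent.up E z * Congr.incl A V = Congr.incl A U) :
    ∃ hzV : z ∈ GaussDVR.V (OE A E) E,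
      RedTransfer.kmap A E (GaussDVR.red (OE A E) E ⟨z, hzV⟩) * Congr.red A V
        = Congr.red A U := by
  obtain ⟨π, hπ⟩ := IsDiscreteValuationRing.exists_irreducible (OE A E)
  have hinclU : Congr.incl A U ≠ 0 := by
    intro h0
    apply hU
    have : U = 0 := Congr.incl_injective A (by rw [h0, map_zero])
    rw [this, map_zero]
  have hupz : GaussDescent.up E z ≠ 0 := by
    intro h0
    rw [h0, zero_mul] at h
    exact hinclU h.symm
  have key : z ∈ GaussDVR.V (OE A E) E := by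
    rcases GaussDVR.mem_or_inv_mem E π hπ z hz with h1 | h1
    · exact h1
    · have h2 : GaussDescent.up E z⁻¹ * Congr.incl A U = Congr.incl A V := by
        rw [← h, map_inv₀, ← mul_assoc, inv_mul_cancel₀ hupz, one_mul]
      have h3 := RedTransfer.kmap_red_mul A E z⁻¹ h1 V U h2
      have h4 : GaussDVR.red (OE A E) E ⟨z⁻¹, h1⟩ ≠ 0 := by
        intro h0
        rw [h0, map_zero, zero_mul] at h3
        exact hV h3.symm
      have h5 := GaussDVR.inv_mem (OE A E) E ⟨z⁻¹, h1⟩ h4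
      rw [inv_inv] at h5
      exact h5
  exact ⟨key, RedTransfer.kmap_red_mul A E z key U V h⟩

/-- The reduced function field of level `N'` lies in that of level `N' p`. -/
theorem redSet_mono (N' p : ℕ) [NeZero N'] [NeZero p] (A : ValuationSubring Qb) :
    redSet N' A ⊆ redSet (N' * p) A := by
  have hmono : ∀ y : LaurentSeries Qb, y ∈ E4.Fb N' → y ∈ E4.Fb (N' * p) := by
    intro y hy
    have h1 := (heckeAlphaBar Qb N' p ⟨y, hy⟩).2
    rw [coe_heckeAlphaBar] at h1
    exact h1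
  rintro φ ⟨U, V, hU, hV, hV0, hφ⟩
  exact ⟨U, V, hmono _ hU, hmono _ hV, hV0, hφ⟩

set_option maxHeartbeats 1600000 in
/-- **The `ℚ̄`-level reduction, transported to `E`.**  `x ∈ FN N` with a reduction
`fb = ē · h ^ p`, `h` in the reduced function field of level `N`: over every `E` containing a
suitable finite set (with `A ∩ E` a discrete valuation ring), every `f : LE N E` with
`upE f = x` is `d · z` with `d : E` a nonzero constant, `z` Gauss-integral, and
`red z = red g ^ p` for a Gauss unit `g : LE N E`. -/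
theorem exists_gauss_pow (N p : ℕ) [NeZero N] (hp : p ≠ 0)
    (A : ValuationSubring Qb) (x : FN N)
    (fb h : LaurentSeries (IsLocalRing.ResidueField A)) (e : IsLocalRing.ResidueField A)
    (hx : RedAt N A x fb) (hh : h ∈ redSet N A) (hpow : fb = HahnSeries.C e * h ^ p) :
    ∃ S : Finset Qb, ∀ (E : IntermediateField ℚ Qb) [IsDiscreteValuationRing (OE A E)],
      (∀ s ∈ S, s ∈ E) → ∀ f : LE N E, upE N E f = x →
        ∃ (d : E) (z g : LE N E) (hz : (z : LaurentSeries E) ∈ GaussDVR.V (OE A E) E)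
          (hg : (g : LaurentSeries E) ∈ GaussDVR.V (OE A E) E),
          d ≠ 0 ∧ f = algebraMap E (LE N E) d * z ∧
          GaussDVR.red (OE A E) E ⟨(g : LaurentSeries E), hg⟩ ≠ 0 ∧
          GaussDVR.red (OE A E) E ⟨(z : LaurentSeries E), hz⟩ =
            GaussDVR.red (OE A E) E ⟨(g : LaurentSeries E), hg⟩ ^ p := by
  classical
  obtain ⟨c, U, V, hc, hU, hV, hxUV, hfb⟩ := hx
  obtain ⟨U₁, V₁, hU₁F, hV₁F, hV₁, hhUV⟩ := hh
  have hfb0 : fb ≠ 0 := fun h0 => hU (by rw [← hfb, h0, zero_mul])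
  have he : e ≠ 0 := by
    rintro rfl
    exact hfb0 (by rw [hpow, map_zero, zero_mul])
  have hh0 : h ≠ 0 := by
    rintro rfl
    exact hfb0 (by rw [hpow, zero_pow hp, mul_zero])
  have hU₁ : Congr.red A U₁ ≠ 0 := by
    rw [← hhUV]
    exact mul_ne_zero hh0 hV₁
  obtain ⟨a, rfl⟩ := IsLocalRing.residue_surjective e
  have ha0 : (a : Qb) ≠ 0 := by
    intro h0
    apply he
    have : a = 0 := Subtype.ext h0
    rw [this, map_zero]
  obtain ⟨E₁, hE₁, h₁⟩ := RedTransfer.exists_descent_int A N U₁ hU₁F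
  obtain ⟨E₂, hE₂, h₂⟩ := RedTransfer.exists_descent_int A N V₁ hV₁F
  haveI := hE₁
  haveI := hE₂
  obtain ⟨S₁, hS₁⟩ := R3Norm.exists_finset_le E₁
  obtain ⟨S₂, hS₂⟩ := R3Norm.exists_finset_le E₂
  refine ⟨insert c (insert (a : Qb) (S₁ ∪ S₂)), ?_⟩
  intro E _ hE f hf
  have hcE : c ∈ E := hE c (Finset.mem_insert_self _ _)
  have haE : (a : Qb) ∈ E := hE _ (Finset.mem_insert_of_mem (Finset.mem_insert_self _ _))
  obtain ⟨a₁, ha₁L, ha₁⟩ := h₁ E (hS₁ E fun s hs => hE s
    (Finset.mem_insert_of_mem (Finset.mem_insert_of_mem (Finset.mem_union_left _ hs))))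
  obtain ⟨b₁, hb₁L, hb₁⟩ := h₂ E (hS₂ E fun s hs => hE s
    (Finset.mem_insert_of_mem (Finset.mem_insert_of_mem (Finset.mem_union_right _ hs))))
  -- the constant `c * a` in `E`
  obtain ⟨d, hdc⟩ : ∃ d : E, (d : Qb) = c * (a : Qb) :=
    ⟨⟨c * (a : Qb), mul_mem hcE haE⟩, rfl⟩
  have hd0 : d ≠ 0 := by
    intro h0
    have h1 : c * (a : Qb) = 0 := by
      rw [← hdc, h0]
      rfl
    exact (mul_ne_zero hc ha0) h1
  obtain ⟨k, hkd⟩ : ∃ k : LE N E, k = algebraMap E (LE N E) d := ⟨_, rfl⟩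
  have hk0 : k ≠ 0 := by
    rw [hkd]
    exact (_root_.map_ne_zero _).mpr hd0
  obtain ⟨z, hzk⟩ : ∃ z : LE N E, z * k = f :=
    ⟨f * k⁻¹, by rw [mul_assoc, inv_mul_cancel₀ hk0, mul_one]⟩
  -- push to `ℚ̄`
  have hfx : GaussDescent.up E (f : LaurentSeries E) = (x : LaurentSeries Qb) :=
    congrArg Subtype.val hf
  have hkup : GaussDescent.up E (k : LaurentSeries E)
      = HahnSeries.C c * HahnSeries.C (a : Qb) := by
    have h1 : (k : LaurentSeries E) = algebraMap E (LaurentSeries E) d := by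
      rw [hkd]
      rfl
    rw [h1, GaussDescent.up_algebraMap, hdc, ← Fermat.Agent.S18.Wiring.C_eq_algebraMap,
      ← map_mul]
  have hstar : GaussDescent.up E (z : LaurentSeries E) *
      (HahnSeries.C c * HahnSeries.C (a : Qb)) = (x : LaurentSeries Qb) := by
    rw [← hkup, ← map_mul, ← hfx]
    exact congrArg (fun t : LE N E => GaussDescent.up E (t : LaurentSeries E)) hzk
  have hCc : (HahnSeries.C c : LaurentSeries Qb) ≠ 0 := HahnSeries.C_ne_zero hc
  have hupz : GaussDescent.up E (z : LaurentSeries E) * Congr.incl A (HahnSeries.C a * V)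
      = Congr.incl A U := by
    apply mul_left_cancel₀ hCc
    rw [map_mul, RedTransfer.incl_C, ← hxUV, ← hstar]
    ring
  have hzfrac : (z : LaurentSeries E) ∈ GaussDVR.fracField (OE A E) E :=
    sigmaHom_mem_fracField N E A z
  have hCe : (HahnSeries.C (IsLocalRing.residue A a) :
      LaurentSeries (IsLocalRing.ResidueField A)) ≠ 0 := HahnSeries.C_ne_zero he
  have hredCaV : Congr.red A (HahnSeries.C a * V) ≠ 0 := by
    rw [map_mul, RedTransfer.red_C]
    exact mul_ne_zero hCe hV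
  obtain ⟨hzV, hzred⟩ := mem_V_of_up A E (z : LaurentSeries E) hzfrac U (HahnSeries.C a * V) hU
    hredCaV hupz
  have hk1 : RedTransfer.kmap A E (GaussDVR.red (OE A E) E ⟨(z : LaurentSeries E), hzV⟩)
      = h ^ p := by
    apply mul_right_cancel₀ (mul_ne_zero hCe hV)
    rw [map_mul, RedTransfer.red_C] at hzred
    rw [hzred, ← hfb, hpow]
    ring
  -- the `p`-th root over `E`
  have hρb : GaussDVR.rho (OE A E) b₁ ≠ 0 := by
    intro h0
    apply hV₁
    rw [← hb₁, ← RedTransfer.kmap_rho, h0, map_zero]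
  obtain ⟨g, hgcoe⟩ : ∃ g : LE N E, (g : LaurentSeries E)
      = GaussDVR.iota (OE A E) E a₁ / GaussDVR.iota (OE A E) E b₁ :=
    ⟨⟨_, div_mem ha₁L hb₁L⟩, rfl⟩
  have hgV : (g : LaurentSeries E) ∈ GaussDVR.V (OE A E) E := by
    rw [hgcoe]
    exact GaussDVR.div_mem (OE A E) E a₁ b₁ hρb
  have hgred : GaussDVR.red (OE A E) E ⟨(g : LaurentSeries E), hgV⟩
      = GaussDVR.rho (OE A E) a₁ / GaussDVR.rho (OE A E) b₁ := by
    have e1 : (⟨(g : LaurentSeries E), hgV⟩ : GaussDVR.V (OE A E) E)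
        = ⟨GaussDVR.iota (OE A E) E a₁ / GaussDVR.iota (OE A E) E b₁,
          GaussDVR.div_mem (OE A E) E a₁ b₁ hρb⟩ := Subtype.ext hgcoe
    rw [e1]
    exact GaussDVR.red_div (OE A E) E a₁ b₁ hρb
  have hkg : RedTransfer.kmap A E (GaussDVR.red (OE A E) E ⟨(g : LaurentSeries E), hgV⟩)
      = h := by
    rw [hgred, map_div₀, RedTransfer.kmap_rho, RedTransfer.kmap_rho, ha₁, hb₁, eq_comm,
      eq_div_iff hV₁]
    exact hhUV
  have hg0 : GaussDVR.red (OE A E) E ⟨(g : LaurentSeries E), hgV⟩ ≠ 0 := by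
    intro h0
    apply hh0
    rw [← hkg, h0, map_zero]
  have hred : GaussDVR.red (OE A E) E ⟨(z : LaurentSeries E), hzV⟩
      = GaussDVR.red (OE A E) E ⟨(g : LaurentSeries E), hgV⟩ ^ p := by
    apply RedTransfer.kmap_injective A E
    rw [map_pow, hkg, hk1]
  have hfz : f = algebraMap E (LE N E) d * z := by
    rw [← hzk, hkd, mul_comm]
  exact ⟨d, z, g, hzV, hgV, hd0, hfz, hg0, hred⟩

set_option maxHeartbeats 1600000 in
/-- **`h1` of `R3Chart.r3_chart` from the `ℚ̄`-level reduction.**  `x ∈ FN (N' p)` with a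
reduction `fb = ē · h ^ p`, `h` in the reduced function field of level `N' p`: over every `E`
containing a suitable finite set (with `A ∩ E` a discrete valuation ring and the level-`N'`
chart of `j` having `π` prime), every `f : LE (N' p) E` with `upE f = x` has `p`-th-power depth
`≥ 1` at the prime `p_∞` of the chart of `α j`. -/
theorem exists_depthGE_one (N' p : ℕ) [NeZero N'] [NeZero p] (hp : p.Prime) (hpN : ¬ p ∣ N')
    (A : ValuationSubring Qb) (hA : A.LiesOverPrime p) (x : FN (N' * p))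
    (fb h : LaurentSeries (IsLocalRing.ResidueField A)) (e : IsLocalRing.ResidueField A)
    (hx : RedAt (N' * p) A x fb) (hh : h ∈ redSet (N' * p) A)
    (hpow : fb = HahnSeries.C e * h ^ p) :
    ∃ S : Finset Qb, ∀ (E : IntermediateField ℚ Qb) [IsDiscreteValuationRing (OE A E)]
      [Algebra (OE A E) (LE N' E)] [IsScalarTower (OE A E) E (LE N' E)]
      [Algebra (OE A E) (LE (N' * p) E)] [IsScalarTower (OE A E) E (LE (N' * p) E)],
      (∀ s ∈ S, s ∈ E) → ∀ (π : OE A E) (hπ : Irreducible π), Prime (piC (jE N' E) π) →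
      ∀ f : LE (N' * p) E, upE (N' * p) E f = x →
        DepthGE E p (piC (alphaHom N' p E (jE N' E)) π)
          (RingHom.ker (redInf π hπ (alphaHom N' p E) (sigmaHom (N' * p) E)
            (sigmaHom_algebraMap (N' * p) E) (sigmaHom_mem_fracField (N' * p) E A) (jE N' E)
            (jqModC (OE A E)) (hσu_j N' p E)) :
            Ideal (Chart (OE A E) (alphaHom N' p E (jE N' E)))) 1 f := by
  obtain ⟨S, hS⟩ := exists_gauss_pow (N' * p) p hp.ne_zero A x fb h e hx hh hpow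
  refine ⟨S, ?_⟩
  intro E _ _ _ _ _ hE π hπ hprime f hf
  obtain ⟨d, z, g, hzV, hgV, hd0, hfz, hg0, hred⟩ := hS E hE f hf
  obtain ⟨g', y, hg', hzy, hy⟩ := depthC_one_jE N' p hp hpN A hA E π hπ hprime (l := p) z g
    hzV hgV hg0 hred
  refine ⟨d, g', y, hd0, hg', ?_, hy⟩
  rw [hfz, hzy, map_one, one_mul, mul_assoc]

end Fermat.Agent.S44.L.R3Base
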