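import Mathlib

/-!
# PROGRAM MR (S44), strand L, cover-free twin of SLOPE: an Eisenstein root is a uniformiser

Level-free, Mathlib only (helper51; the core of "`π = b / c - 1` is a uniformiser of `O_*`").

`K ⊆ L` fields with `[L : K] ≤ n`, `v` a valuation of `L`, `γ` a generator of `v (Kˣ)`
(`γ = v p`), and `π : L` with `v π < 1`, `v π ^ n = γ`.  Then

* `exists_zpow_eq`   : `v x ∈ (v π) ^ ℤ` for every `x ≠ 0` of `L` (`e = n`, `f = 1`);
* `le_of_lt_one`     : `v x < 1 → v x ≤ v π` (every non-unit is divisible by `π`);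
* `irreducible_of`   : `π` is irreducible in a valuation subring `B` of `L` (`v = B.valuation`);
* `exists_expansion` : every `x : L` is `∑_{i < n} aᵢ π ^ i` with `aᵢ ∈ K`;
* `coeff_le_one`     : if `v (∑_{i < n} aᵢ π ^ i) ≤ 1` then `v aᵢ ≤ 1` for all `i`
  (so the valuation ring of `L` is `⊕_{i < n} O_K π ^ i`).

Proof: elements whose valuations lie in distinct cosets of `v (Kˣ)` are `K`-linearly independent
(`map_sum_eq_of_distinct`, `linearIndependent_of_distinct`); `1, π, …, π ^ (n - 1)` lie in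
distinct cosets.  No `e`-`f` calculus, no completion.
-/

set_option autoImplicit false

noncomputable section

namespace Fermat.Agent.S44.L.EisUnif

variable {K L Γ₀ : Type*} [Field K] [Field L] [Algebra K L] [LinearOrderedCommGroupWithZero Γ₀]
  (v : Valuation L Γ₀)

/-! ### Sums with pairwise distinct valuations -/

/-- A finite sum whose nonzero terms have pairwise distinct valuations has the valuation of
its biggest term. -/
theorem map_sum_eq_of_distinct {ι : Type*} (s : Finset ι) (t : ι → L)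
    (hne : ∃ i ∈ s, t i ≠ 0)
    (hinj : ∀ i ∈ s, ∀ j ∈ s, t i ≠ 0 → t j ≠ 0 → v (t i) = v (t j) → i = j) :
    ∃ i₀ ∈ s, t i₀ ≠ 0 ∧ v (∑ i ∈ s, t i) = v (t i₀) ∧ ∀ j ∈ s, v (t j) ≤ v (t i₀) := by
  classical
  obtain ⟨i, hi, hti⟩ := hne
  obtain ⟨i₀, hi₀, hmax⟩ := Finset.exists_max_image s (fun j => v (t j)) ⟨i, hi⟩
  have hmax' : ∀ j ∈ s, v (t j) ≤ v (t i₀) := hmax
  have hpos : v (t i₀) ≠ 0 := by
    intro h0
    have h1 : v (t i) ≤ v (t i₀) := hmax' i hi
    rw [h0] at h1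
    exact hti ((v.zero_iff).mp (le_zero_iff.mp h1))
  have hti₀ : t i₀ ≠ 0 := fun h => hpos (by rw [h, map_zero])
  refine ⟨i₀, hi₀, hti₀, ?_, hmax'⟩
  rw [← Finset.add_sum_erase s t hi₀]
  apply Valuation.map_add_eq_of_lt_left
  apply Valuation.map_sum_lt v hpos
  intro j hj
  rw [Finset.mem_erase] at hj
  rcases eq_or_ne (t j) 0 with h0 | h0
  · rw [h0, map_zero]; exact zero_lt_iff.mpr hpos
  · exact lt_of_le_of_ne (hmax' j hj.2) (fun he => hj.1 (hinj j hj.2 i₀ hi₀ h0 hti₀ he))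

/-- Elements whose valuations lie in pairwise distinct cosets of `v (Kˣ)` are linearly
independent over `K`. -/
theorem linearIndependent_of_distinct {ι : Type*} (F : ι → L) (hF0 : ∀ i, F i ≠ 0)
    (hF : ∀ i j (a b : K), a ≠ 0 → b ≠ 0 →
      v (algebraMap K L a * F i) = v (algebraMap K L b * F j) → i = j) :
    LinearIndependent K F := by
  rw [linearIndependent_iff']
  intro s g hsum i hi
  by_contra hgi
  have hinj : ∀ j ∈ s, ∀ j' ∈ s, algebraMap K L (g j) * F j ≠ 0 →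
      algebraMap K L (g j') * F j' ≠ 0 →
      v (algebraMap K L (g j) * F j) = v (algebraMap K L (g j') * F j') → j = j' := by
    intro j _ j' _ h1 h2 he
    have hgj : g j ≠ 0 := fun h0 => h1 (by rw [h0, map_zero, zero_mul])
    have hgj' : g j' ≠ 0 := fun h0 => h2 (by rw [h0, map_zero, zero_mul])
    exact hF j j' (g j) (g j') hgj hgj' he
  have key : ∃ i₀ ∈ s, algebraMap K L (g i₀) * F i₀ ≠ 0 ∧
      v (∑ j ∈ s, algebraMap K L (g j) * F j) = v (algebraMap K L (g i₀) * F i₀) ∧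
      ∀ j ∈ s, v (algebraMap K L (g j) * F j) ≤ v (algebraMap K L (g i₀) * F i₀) :=
    map_sum_eq_of_distinct v s (fun j => algebraMap K L (g j) * F j)
      ⟨i, hi, mul_ne_zero ((map_ne_zero (algebraMap K L)).mpr hgi) (hF0 i)⟩ hinj
  obtain ⟨i₀, -, hne, hval, -⟩ := key
  apply hne
  have h0 : ∑ j ∈ s, algebraMap K L (g j) * F j = 0 := by
    rw [← hsum]
    exact Finset.sum_congr rfl (fun j _ => (Algebra.smul_def _ _).symm)
  rw [h0, map_zero] at hval
  exact (v.zero_iff).mp hval.symm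

/-! ### The Eisenstein situation -/

section Core

variable {n : ℕ} {γ : Γ₀} {π : L}

theorem aux_mod {m i j : ℕ} (hi : i < m) (hj : j < m) {a b : ℤ}
    (h : (m : ℤ) * a + i = m * b + j) : i = j := by
  have h1 : ((m : ℤ) * a + i) % m = i := by
    rw [add_comm, Int.add_mul_emod_self_left]
    exact Int.emod_eq_of_lt (by positivity) (by exact_mod_cast hi)
  have h2 : ((m : ℤ) * b + j) % m = j := by
    rw [add_comm, Int.add_mul_emod_self_left]
    exact Int.emod_eq_of_lt (by positivity) (by exact_mod_cast hj)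
  rw [h, h2] at h1
  exact_mod_cast h1.symm

/-- Valuations of nonzero elements of `K` are powers of `v π ^ n`. -/
theorem val_algebraMap (hγ : ∀ a : K, a ≠ 0 → ∃ m : ℤ, v (algebraMap K L a) = γ ^ m)
    (hπ : v π ^ n = γ) {a : K} (ha : a ≠ 0) :
    ∃ m : ℤ, v (algebraMap K L a) = v π ^ ((n : ℤ) * m) := by
  obtain ⟨m, hm⟩ := hγ a ha
  exact ⟨m, by rw [hm, ← hπ, ← zpow_natCast, ← zpow_mul]⟩

/-- `1, π, …, π ^ (n - 1)` lie in distinct cosets of `v (Kˣ)`. -/
theorem pow_coset_inj (hγ : ∀ a : K, a ≠ 0 → ∃ m : ℤ, v (algebraMap K L a) = γ ^ m)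
    (hπ0 : π ≠ 0) (hπ1 : v π < 1) (hπ : v π ^ n = γ) {i j : ℕ} (hi : i < n) (hj : j < n)
    {a b : K} (ha : a ≠ 0) (hb : b ≠ 0)
    (h : v (algebraMap K L a * π ^ i) = v (algebraMap K L b * π ^ j)) : i = j := by
  have hc0 : v π ≠ 0 := (v.ne_zero_iff).mpr hπ0
  have hcpos : 0 < v π := zero_lt_iff.mpr hc0
  obtain ⟨ma, hma⟩ := val_algebraMap v hγ hπ ha
  obtain ⟨mb, hmb⟩ := val_algebraMap v hγ hπ hb
  rw [map_mul, map_mul, map_pow, map_pow, hma, hmb, ← zpow_natCast (v π) i,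
    ← zpow_natCast (v π) j, ← zpow_add₀ hc0, ← zpow_add₀ hc0] at h
  exact aux_mod hi hj ((zpow_right_inj₀ hcpos hπ1.ne).mp h)

/-- An element in the coset of some `π ^ j` has valuation a power of `v π`. -/
theorem val_eq_zpow_of_coset (hγ : ∀ a : K, a ≠ 0 → ∃ m : ℤ, v (algebraMap K L a) = γ ^ m)
    (hπ0 : π ≠ 0) (hπ : v π ^ n = γ) {x : L} {j : ℕ} {a b : K} (ha : a ≠ 0) (hb : b ≠ 0)
    (h : v (algebraMap K L a * x) = v (algebraMap K L b * π ^ j)) :
    ∃ m : ℤ, v x = v π ^ m := by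
  have hc0 : v π ≠ 0 := (v.ne_zero_iff).mpr hπ0
  obtain ⟨ma, hma⟩ := val_algebraMap v hγ hπ ha
  obtain ⟨mb, hmb⟩ := val_algebraMap v hγ hπ hb
  rw [map_mul, map_mul, map_pow, hma, hmb, ← zpow_natCast (v π) j, ← zpow_add₀ hc0] at h
  refine ⟨-((n : ℤ) * ma) + ((n : ℤ) * mb + j), ?_⟩
  rw [zpow_add₀ hc0, ← h, zpow_neg, inv_mul_cancel_left₀ (zpow_ne_zero _ hc0)]

/-- The test family `x, 1, π, …, π ^ (n - 1)`. -/
def fam (x π : L) (n : ℕ) : Option (Fin n) → L
  | none => x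
  | some i => π ^ (i : ℕ)

/-- **The value group of `L` is generated by `v π`.** -/
theorem exists_zpow_eq [FiniteDimensional K L] (hdim : Module.finrank K L ≤ n)
    (hγ : ∀ a : K, a ≠ 0 → ∃ m : ℤ, v (algebraMap K L a) = γ ^ m)
    (hπ0 : π ≠ 0) (hπ1 : v π < 1) (hπ : v π ^ n = γ) {x : L} (hx : x ≠ 0) :
    ∃ m : ℤ, v x = v π ^ m := by
  by_contra hcon
  have hF0 : ∀ o, fam x π n o ≠ 0 := by
    rintro (_ | i)
    · exact hx
    · exact pow_ne_zero _ hπ0
  have hF : ∀ o o' (a b : K), a ≠ 0 → b ≠ 0 →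
      v (algebraMap K L a * fam x π n o) = v (algebraMap K L b * fam x π n o') → o = o' := by
    rintro (_ | i) (_ | j) a b ha hb h
    · rfl
    · exact (hcon (val_eq_zpow_of_coset v hγ hπ0 hπ ha hb h)).elim
    · exact (hcon (val_eq_zpow_of_coset v hγ hπ0 hπ hb ha h.symm)).elim
    · exact congrArg some (Fin.ext (pow_coset_inj v hγ hπ0 hπ1 hπ i.2 j.2 ha hb h))
  have hli := linearIndependent_of_distinct v (fam x π n) hF0 hF
  have hcard := hli.fintype_card_le_finrank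
  rw [Fintype.card_option, Fintype.card_fin] at hcard
  omega

/-- **Every non-unit is divisible by `π`.** -/
theorem le_of_lt_one [FiniteDimensional K L] (hdim : Module.finrank K L ≤ n)
    (hγ : ∀ a : K, a ≠ 0 → ∃ m : ℤ, v (algebraMap K L a) = γ ^ m)
    (hπ0 : π ≠ 0) (hπ1 : v π < 1) (hπ : v π ^ n = γ) {x : L} (hx : v x < 1) :
    v x ≤ v π := by
  have hc0 : v π ≠ 0 := (v.ne_zero_iff).mpr hπ0
  have hcpos : 0 < v π := zero_lt_iff.mpr hc0
  rcases eq_or_ne x 0 with rfl | hx0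
  · rw [map_zero]; exact zero_le'
  obtain ⟨m, hm⟩ := exists_zpow_eq v hdim hγ hπ0 hπ1 hπ hx0
  rw [hm] at hx ⊢
  have hm1 : 1 ≤ m := by
    by_contra hlt
    have hm0 : m ≤ 0 := by omega
    have h1 : v π ^ (0 : ℤ) ≤ v π ^ m := zpow_le_zpow_right_of_le_one₀ hcpos hπ1.le hm0
    rw [zpow_zero] at h1
    exact absurd hx (not_lt.mpr h1)
  have h2 := zpow_le_zpow_right_of_le_one₀ hcpos hπ1.le hm1
  rwa [zpow_one] at h2

/-- **Every element of `L` is a `K`-combination of `1, π, …, π ^ (n - 1)`.** -/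
theorem exists_expansion [FiniteDimensional K L] (hdim : Module.finrank K L ≤ n)
    (hγ : ∀ a : K, a ≠ 0 → ∃ m : ℤ, v (algebraMap K L a) = γ ^ m)
    (hπ0 : π ≠ 0) (hπ1 : v π < 1) (hπ : v π ^ n = γ) (x : L) :
    ∃ a : Fin n → K, x = ∑ i : Fin n, algebraMap K L (a i) * π ^ (i : ℕ) := by
  have hli : LinearIndependent K (fun i : Fin n => π ^ (i : ℕ)) :=
    linearIndependent_of_distinct v _ (fun i => pow_ne_zero _ hπ0)
      (fun i j a b ha hb h => Fin.ext (pow_coset_inj v hγ hπ0 hπ1 hπ i.2 j.2 ha hb h))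
  have hcard : Fintype.card (Fin n) = Module.finrank K L := by
    have h1 := hli.fintype_card_le_finrank
    rw [Fintype.card_fin] at h1 ⊢
    omega
  have hspan := hli.span_eq_top_of_card_eq_finrank' hcard
  have hx : x ∈ Submodule.span K (Set.range (fun i : Fin n => π ^ (i : ℕ))) := by
    rw [hspan]; exact Submodule.mem_top
  obtain ⟨c, hc⟩ := (Submodule.mem_span_range_iff_exists_fun K).mp hx
  exact ⟨c, by rw [← hc]; exact Finset.sum_congr rfl (fun i _ => Algebra.smul_def _ _)⟩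

/-- **Integrality of the coefficients**: `v (∑ aᵢ π ^ i) ≤ 1` forces `v aᵢ ≤ 1`. -/
theorem coeff_le_one (hγ : ∀ a : K, a ≠ 0 → ∃ m : ℤ, v (algebraMap K L a) = γ ^ m)
    (hπ0 : π ≠ 0) (hπ1 : v π < 1) (hπ : v π ^ n = γ) (a : Fin n → K)
    (hx : v (∑ i : Fin n, algebraMap K L (a i) * π ^ (i : ℕ)) ≤ 1) (i : Fin n) :
    v (algebraMap K L (a i)) ≤ 1 := by
  rcases eq_or_ne (a i) 0 with h0 | h0
  · rw [h0, map_zero, map_zero]; exact zero_le_one
  have hc0 : v π ≠ 0 := (v.ne_zero_iff).mpr hπ0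
  have hcpos : 0 < v π := zero_lt_iff.mpr hc0
  have hti : algebraMap K L (a i) * π ^ (i : ℕ) ≠ 0 :=
    mul_ne_zero ((map_ne_zero (algebraMap K L)).mpr h0) (pow_ne_zero _ hπ0)
  have hinj : ∀ j ∈ (Finset.univ : Finset (Fin n)), ∀ j' ∈ (Finset.univ : Finset (Fin n)),
      algebraMap K L (a j) * π ^ (j : ℕ) ≠ 0 → algebraMap K L (a j') * π ^ (j' : ℕ) ≠ 0 →
      v (algebraMap K L (a j) * π ^ (j : ℕ)) = v (algebraMap K L (a j') * π ^ (j' : ℕ)) →
      j = j' := by
    intro j _ j' _ h1 h2 he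
    have hj : a j ≠ 0 := fun h => h1 (by rw [h, map_zero, zero_mul])
    have hj' : a j' ≠ 0 := fun h => h2 (by rw [h, map_zero, zero_mul])
    exact Fin.ext (pow_coset_inj v hγ hπ0 hπ1 hπ j.2 j'.2 hj hj' he)
  have key : ∃ i₀ ∈ (Finset.univ : Finset (Fin n)), algebraMap K L (a i₀) * π ^ (i₀ : ℕ) ≠ 0 ∧
      v (∑ j : Fin n, algebraMap K L (a j) * π ^ (j : ℕ))
        = v (algebraMap K L (a i₀) * π ^ (i₀ : ℕ)) ∧
      ∀ j ∈ (Finset.univ : Finset (Fin n)), v (algebraMap K L (a j) * π ^ (j : ℕ))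
        ≤ v (algebraMap K L (a i₀) * π ^ (i₀ : ℕ)) :=
    map_sum_eq_of_distinct v Finset.univ
      (fun j : Fin n => algebraMap K L (a j) * π ^ (j : ℕ)) ⟨i, Finset.mem_univ i, hti⟩ hinj
  obtain ⟨i₀, -, -, hval, hmax⟩ := key
  have h1 : v (algebraMap K L (a i) * π ^ (i : ℕ)) ≤ 1 := by
    refine le_trans (hmax i (Finset.mem_univ i)) ?_
    rw [← hval]; exact hx
  obtain ⟨m, hm⟩ := hγ (a i) h0
  have hm' : v (algebraMap K L (a i)) = v π ^ ((n : ℤ) * m) := by
    rw [hm, ← hπ, ← zpow_natCast, ← zpow_mul]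
  rw [map_mul, map_pow, hm', ← zpow_natCast (v π) (i : ℕ), ← zpow_add₀ hc0] at h1
  have hexp : 0 ≤ (n : ℤ) * m + (i : ℕ) := by
    by_contra hlt
    have h2 := zpow_lt_zpow_right_of_lt_one₀ hcpos hπ1 (not_le.mp hlt)
    rw [zpow_zero] at h2
    exact absurd h1 (not_le.mpr h2)
  have hm0 : 0 ≤ m := by
    by_contra hlt
    have h3 : m ≤ -1 := by omega
    have h4 : (n : ℤ) * m ≤ (n : ℤ) * (-1) :=
      mul_le_mul_of_nonneg_left h3 (by positivity)
    have h5 : ((i : ℕ) : ℤ) < n := by exact_mod_cast i.2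
    linarith
  rw [hm]
  have hγpos : 0 < γ := by rw [← hπ]; exact pow_pos hcpos n
  have hγle : γ ≤ 1 := by rw [← hπ]; exact pow_le_one₀ hcpos.le hπ1.le
  exact zpow_le_one₀ hγpos hγle hm0

/-- **`π` is irreducible** in a valuation subring `B` of `L` (`[L : K] ≤ n`,
`B.valuation π ^ n` a generator of the value group of `K`). -/
theorem irreducible_of (B : ValuationSubring L) [FiniteDimensional K L]
    (hdim : Module.finrank K L ≤ n) {γ : B.ValueGroup}
    (hγ : ∀ a : K, a ≠ 0 → ∃ m : ℤ, B.valuation (algebraMap K L a) = γ ^ m)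
    (hπ0 : π ≠ 0) (hπ1 : B.valuation π < 1) (hπ : B.valuation π ^ n = γ) (hπB : π ∈ B) :
    Irreducible (⟨π, hπB⟩ : B) := by
  have hc0 : B.valuation π ≠ 0 := (B.valuation.ne_zero_iff).mpr hπ0
  have hcpos : 0 < B.valuation π := zero_lt_iff.mpr hc0
  rw [irreducible_iff]
  refine ⟨?_, ?_⟩
  · rw [ValuationSubring.valuation_eq_one_iff]
    exact hπ1.ne
  · intro a b hab
    have habL : (a : L) * (b : L) = π := (congrArg Subtype.val hab).symm
    have ha0 : (a : L) ≠ 0 := by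
      intro h; rw [h, zero_mul] at habL; exact hπ0 habL.symm
    have hb0 : (b : L) ≠ 0 := by
      intro h; rw [h, mul_zero] at habL; exact hπ0 habL.symm
    obtain ⟨i, hi⟩ := exists_zpow_eq B.valuation hdim hγ hπ0 hπ1 hπ ha0
    obtain ⟨j, hj⟩ := exists_zpow_eq B.valuation hdim hγ hπ0 hπ1 hπ hb0
    have hnonneg : ∀ (c : B) (k : ℤ), B.valuation (c : L) = B.valuation π ^ k → 0 ≤ k := by
      intro c k hk
      by_contra hlt
      have h2 := zpow_lt_zpow_right_of_lt_one₀ hcpos hπ1 (show k < 0 by omega)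
      rw [zpow_zero, ← hk] at h2
      exact absurd (B.valuation_le_one c) (not_le.mpr h2)
    have hi0 := hnonneg a i hi
    have hj0 := hnonneg b j hj
    have hij : i + j = 1 := by
      have h1 : B.valuation π ^ (i + j) = B.valuation π ^ (1 : ℤ) := by
        rw [zpow_add₀ hc0, ← hi, ← hj, ← map_mul, habL, zpow_one]
      exact (zpow_right_inj₀ hcpos hπ1.ne).mp h1
    rcases (show i = 0 ∨ j = 0 by omega) with h | h
    · left
      rw [ValuationSubring.valuation_eq_one_iff, hi, h, zpow_zero]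
    · right
      rw [ValuationSubring.valuation_eq_one_iff, hj, h, zpow_zero]

end Core

end Fermat.Agent.S44.L.EisUnif
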