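import Mathlib
import Fermat.Agent.S44.L.NodeCover

/-!
# Program MR (S44), strand L: the graded regular cover of a wild thickness-one node (NNF (a)+(b))

Level-free commutative algebra (helper27), on top of `S44/L/NodeCover` (Eisenstein steps).

`B` a noetherian local domain with `𝔪 = (t1, t2)`, `t1`, `t2` non-associated primes, `ν` a unit,
`θ ∈ B[X]` of degree `< p` with `θ(0)` a unit.  We build the ring
`R = B[S, Y] / (S ^ p - t2, ν Y ^ p - t1 θ(S Y))` by two Eisenstein steps: it is a noetherian local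
domain with `𝔪_R = (r, s)`, `r`, `s` non-associated primes, `s ^ p = t2`, `ν r ^ p = t1 θ(r s)`.
Moreover `R` carries a `ℤ/p`-grading with `deg s = 1`, `deg r = -1`, constructed WITHOUT a basis:
the relations are homogeneous of degree `0`, so there is a coaction
`δ : R →+* R[ℤ/p]`, `s ↦ s [1]`, `r ↦ r [-1]`, and the components are the coefficients of `δ`.
-/

set_option autoImplicit false

open Polynomial

namespace Fermat.Agent.S44.L.NodeNFCover

open Fermat.Agent.S44.L.NodeCover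

universe u

/-- A subring of `AdjoinRoot f` containing the base ring and the root is everything. -/
theorem mem_subring_of_of_mem_of_root_mem {A : Type*} [CommRing A] (f : A[X])
    (S : Subring (AdjoinRoot f)) (hof : ∀ a, AdjoinRoot.of f a ∈ S)
    (hroot : AdjoinRoot.root f ∈ S) (y : AdjoinRoot f) : y ∈ S := by
  induction y using AdjoinRoot.induction_on with
  | ih q =>
    induction q using Polynomial.induction_on' with
    | add p q hp hq =>
      rw [map_add]
      exact S.add_mem hp hq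
    | monomial n a =>
      rw [← Polynomial.C_mul_X_pow_eq_monomial, map_mul, map_pow, AdjoinRoot.mk_C,
        AdjoinRoot.mk_X]
      exact S.mul_mem (hof a) (S.pow_mem hroot n)

/-! ### The two polynomials -/

section Defs

variable {B : Type u} [CommRing B] (p : ℕ) (t1 t2 νi : B) (θ : B[X])

/-- The first Eisenstein polynomial `X ^ p - t2`. -/
noncomputable def h1 : B[X] := X ^ p + C t2 * (-1)

/-- The cofactor `- νi θ(s X)` of the second Eisenstein polynomial. -/
noncomputable def k2 : (AdjoinRoot (h1 p t2))[X] :=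
  C (AdjoinRoot.of (h1 p t2) (-νi)) *
    (θ.map (AdjoinRoot.of (h1 p t2))).comp (C (AdjoinRoot.root (h1 p t2)) * X)

/-- The second Eisenstein polynomial `X ^ p - t1 νi θ(s X)`. -/
noncomputable def h2 : (AdjoinRoot (h1 p t2))[X] :=
  X ^ p + C (AdjoinRoot.of (h1 p t2) t1) * k2 p t2 νi θ

/-- The cover ring `B[S, Y] / (S ^ p - t2, Y ^ p - t1 νi θ(S Y))`. -/
abbrev Cov : Type u := AdjoinRoot (h2 p t1 t2 νi θ)

/-- The element `s` (`s ^ p = t2`). -/
noncomputable def sElt : Cov p t1 t2 νi θ :=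
  AdjoinRoot.of (h2 p t1 t2 νi θ) (AdjoinRoot.root (h1 p t2))

/-- The element `r` (`r ^ p = t1 νi θ(r s)`). -/
noncomputable def rElt : Cov p t1 t2 νi θ := AdjoinRoot.root (h2 p t1 t2 νi θ)

/-- The structure map `B → Cov`. -/
noncomputable def bHom : B →+* Cov p t1 t2 νi θ :=
  (AdjoinRoot.of (h2 p t1 t2 νi θ)).comp (AdjoinRoot.of (h1 p t2))

theorem algebraMap_eq_bHom : algebraMap B (Cov p t1 t2 νi θ) = bHom p t1 t2 νi θ := rfl

theorem root1_pow : AdjoinRoot.root (h1 p t2) ^ p = AdjoinRoot.of (h1 p t2) t2 := by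
  rw [eis_root_pow (h := h1 p t2) (π := t2) (k := -1) rfl, map_neg, map_one]
  ring

theorem sElt_pow : sElt p t1 t2 νi θ ^ p = bHom p t1 t2 νi θ t2 := by
  rw [sElt, ← map_pow, root1_pow]
  rfl

theorem mk_k2 : AdjoinRoot.mk (h2 p t1 t2 νi θ) (k2 p t2 νi θ) =
    bHom p t1 t2 νi θ (-νi) *
      θ.eval₂ (bHom p t1 t2 νi θ) (sElt p t1 t2 νi θ * rElt p t1 t2 νi θ) := by
  rw [← AdjoinRoot.aeval_eq, aeval_def, k2, eval₂_mul, eval₂_C, eval₂_comp, eval₂_mul, eval₂_C,
    eval₂_X, eval₂_map, AdjoinRoot.algebraMap_eq]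
  rfl

theorem rElt_pow : rElt p t1 t2 νi θ ^ p = bHom p t1 t2 νi θ (t1 * νi) *
    θ.eval₂ (bHom p t1 t2 νi θ) (sElt p t1 t2 νi θ * rElt p t1 t2 νi θ) := by
  have h := eis_root_pow (h := h2 p t1 t2 νi θ) (π := AdjoinRoot.of (h1 p t2) t1)
    (k := k2 p t2 νi θ) rfl
  rw [mk_k2] at h
  change rElt p t1 t2 νi θ ^ p = -(bHom p t1 t2 νi θ t1 * _) at h
  rw [h, map_mul, map_neg]
  ring

end Defs

/-! ### The coaction `δ : R →+* R[ℤ/p]` and the grading -/

section Coaction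

variable {B : Type u} [CommRing B] (p : ℕ) (t1 t2 νi : B) (θ : B[X])

/-- The first stage of the coaction: `B[s] → R[ℤ/p]`, `s ↦ s [1]`. -/
noncomputable def delta1 :
    AdjoinRoot (h1 p t2) →+* AddMonoidAlgebra (Cov p t1 t2 νi θ) (ZMod p) :=
  AdjoinRoot.lift (AddMonoidAlgebra.singleZeroRingHom.comp (bHom p t1 t2 νi θ))
    (AddMonoidAlgebra.single (1 : ZMod p) (sElt p t1 t2 νi θ)) (by
      change eval₂ _ _ (X ^ p + C t2 * (-1)) = 0
      rw [eval₂_add, eval₂_pow, eval₂_X, eval₂_mul, eval₂_C, eval₂_neg, eval₂_one,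
        AddMonoidAlgebra.single_pow, sElt_pow, nsmul_one, ZMod.natCast_self]
      simp)

theorem delta1_of (b : B) : delta1 p t1 t2 νi θ (AdjoinRoot.of (h1 p t2) b) =
    AddMonoidAlgebra.single 0 (bHom p t1 t2 νi θ b) := by
  rw [delta1, AdjoinRoot.lift_of]
  rfl

theorem delta1_root : delta1 p t1 t2 νi θ (AdjoinRoot.root (h1 p t2)) =
    AddMonoidAlgebra.single 1 (sElt p t1 t2 νi θ) := by
  rw [delta1, AdjoinRoot.lift_root]

theorem delta1_comp_of : (delta1 p t1 t2 νi θ).comp (AdjoinRoot.of (h1 p t2)) =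
    AddMonoidAlgebra.singleZeroRingHom.comp (bHom p t1 t2 νi θ) := by
  rw [delta1, AdjoinRoot.lift_comp_of]

theorem eval₂_delta1_k2 :
    eval₂ (delta1 p t1 t2 νi θ) (AddMonoidAlgebra.single (-1 : ZMod p) (rElt p t1 t2 νi θ))
      (k2 p t2 νi θ) =
    AddMonoidAlgebra.single 0 (bHom p t1 t2 νi θ (-νi) *
      θ.eval₂ (bHom p t1 t2 νi θ) (sElt p t1 t2 νi θ * rElt p t1 t2 νi θ)) := by
  rw [k2, eval₂_mul, eval₂_C, eval₂_comp, eval₂_mul, eval₂_C, eval₂_X, eval₂_map, delta1_of,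
    delta1_root, AddMonoidAlgebra.single_mul_single, delta1_comp_of, add_neg_cancel]
  have h := hom_eval₂ θ (bHom p t1 t2 νi θ)
    (AddMonoidAlgebra.singleZeroRingHom (R := Cov p t1 t2 νi θ) (M := ZMod p))
    (sElt p t1 t2 νi θ * rElt p t1 t2 νi θ)
  change AddMonoidAlgebra.single 0 _ = eval₂ _ (AddMonoidAlgebra.single 0 _) θ at h
  rw [← h, AddMonoidAlgebra.single_mul_single, add_zero]

/-- The coaction `δ : R →+* R[ℤ/p]`, `s ↦ s [1]`, `r ↦ r [-1]`. -/
noncomputable def delta :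
    Cov p t1 t2 νi θ →+* AddMonoidAlgebra (Cov p t1 t2 νi θ) (ZMod p) :=
  AdjoinRoot.lift (delta1 p t1 t2 νi θ)
    (AddMonoidAlgebra.single (-1 : ZMod p) (rElt p t1 t2 νi θ)) (by
      change eval₂ _ _ (X ^ p + C (AdjoinRoot.of (h1 p t2) t1) * k2 p t2 νi θ) = 0
      rw [eval₂_add, eval₂_pow, eval₂_X, eval₂_mul, eval₂_C, eval₂_delta1_k2, delta1_of,
        AddMonoidAlgebra.single_pow, AddMonoidAlgebra.single_mul_single, rElt_pow, smul_neg,
        nsmul_one, ZMod.natCast_self, neg_zero, add_zero, ← AddMonoidAlgebra.single_add,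
        map_mul, map_neg]
      have h0 : bHom p t1 t2 νi θ t1 * bHom p t1 t2 νi θ νi *
          eval₂ (bHom p t1 t2 νi θ) (sElt p t1 t2 νi θ * rElt p t1 t2 νi θ) θ +
          bHom p t1 t2 νi θ t1 * (-bHom p t1 t2 νi θ νi *
            eval₂ (bHom p t1 t2 νi θ) (sElt p t1 t2 νi θ * rElt p t1 t2 νi θ) θ) = 0 := by
        ring
      rw [h0, AddMonoidAlgebra.single_zero])

theorem delta_of (b : AdjoinRoot (h1 p t2)) :
    delta p t1 t2 νi θ (AdjoinRoot.of (h2 p t1 t2 νi θ) b) = delta1 p t1 t2 νi θ b := by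
  rw [delta, AdjoinRoot.lift_of]

theorem delta_bHom (b : B) : delta p t1 t2 νi θ (bHom p t1 t2 νi θ b) =
    AddMonoidAlgebra.single 0 (bHom p t1 t2 νi θ b) := by
  rw [bHom, RingHom.comp_apply, delta_of, delta1_of]
  rfl

theorem delta_sElt : delta p t1 t2 νi θ (sElt p t1 t2 νi θ) =
    AddMonoidAlgebra.single 1 (sElt p t1 t2 νi θ) := by
  rw [sElt, delta_of, delta1_root]
  rfl

theorem delta_rElt : delta p t1 t2 νi θ (rElt p t1 t2 νi θ) =
    AddMonoidAlgebra.single (-1) (rElt p t1 t2 νi θ) := by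
  change delta p t1 t2 νi θ (AdjoinRoot.root _) = _
  rw [delta, AdjoinRoot.lift_root]

/-- A subring of the cover containing `B`, `s` and `r` is everything. -/
theorem mem_subring_of_gens (S : Subring (Cov p t1 t2 νi θ))
    (hb : ∀ b, bHom p t1 t2 νi θ b ∈ S) (hs : sElt p t1 t2 νi θ ∈ S)
    (hr : rElt p t1 t2 νi θ ∈ S) (y : Cov p t1 t2 νi θ) : y ∈ S :=
  mem_subring_of_of_mem_of_root_mem _ S
    (fun a => mem_subring_of_of_mem_of_root_mem _ (S.comap (AdjoinRoot.of (h2 p t1 t2 νi θ)))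
      (fun b => hb b) hs a) hr y

end Coaction

/-! ### The components of the grading -/

section Components

variable {B : Type u} [CommRing B] (p : ℕ) (t1 t2 νi : B) (θ : B[X])

/-- The degree-`d` component of an element of the cover. -/
noncomputable def gr (d : ZMod p) : Cov p t1 t2 νi θ →+ Cov p t1 t2 νi θ where
  toFun y := (delta p t1 t2 νi θ y).coeff d
  map_zero' := by simp
  map_add' x y := by simp

theorem gr_apply (d : ZMod p) (y : Cov p t1 t2 νi θ) :
    gr p t1 t2 νi θ d y = (delta p t1 t2 νi θ y).coeff d := rfl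

/-- Components of a homogeneous element. -/
theorem gr_of_delta_eq {e : ZMod p} {y : Cov p t1 t2 νi θ}
    (h : delta p t1 t2 νi θ y = AddMonoidAlgebra.single e y) (d : ZMod p) :
    gr p t1 t2 νi θ d y = if d = e then y else 0 := by
  rw [gr_apply, h, AddMonoidAlgebra.coeff_single, Finsupp.single_apply]
  simp only [eq_comm]

theorem gr_one (d : ZMod p) :
    gr p t1 t2 νi θ d (1 : Cov p t1 t2 νi θ) = if d = 0 then 1 else 0 :=
  gr_of_delta_eq p t1 t2 νi θ (by rw [map_one]; rfl) d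

theorem gr_bHom (d : ZMod p) (b : B) :
    gr p t1 t2 νi θ d (bHom p t1 t2 νi θ b) = if d = 0 then bHom p t1 t2 νi θ b else 0 :=
  gr_of_delta_eq p t1 t2 νi θ (delta_bHom p t1 t2 νi θ b) d

theorem gr_sElt (d : ZMod p) :
    gr p t1 t2 νi θ d (sElt p t1 t2 νi θ) = if d = 1 then sElt p t1 t2 νi θ else 0 :=
  gr_of_delta_eq p t1 t2 νi θ (delta_sElt p t1 t2 νi θ) d

theorem gr_rElt (d : ZMod p) :
    gr p t1 t2 νi θ d (rElt p t1 t2 νi θ) = if d = -1 then rElt p t1 t2 νi θ else 0 :=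
  gr_of_delta_eq p t1 t2 νi θ (delta_rElt p t1 t2 νi θ) d

/-- Induction principle: every element of the cover is a sum of monomials `b s ^ i r ^ j`. -/
theorem cov_induction {P : Cov p t1 t2 νi θ → Prop} (hadd : ∀ x y, P x → P y → P (x + y))
    (hmon : ∀ (b : B) (i j : ℕ),
      P (bHom p t1 t2 νi θ b * sElt p t1 t2 νi θ ^ i * rElt p t1 t2 νi θ ^ j))
    (y : Cov p t1 t2 νi θ) : P y := by
  induction y using AdjoinRoot.induction_on with
  | ih q =>
    induction q using Polynomial.induction_on' with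
    | add q₁ q₂ h₁ h₂ =>
      rw [map_add]
      exact hadd _ _ h₁ h₂
    | monomial j a =>
      rw [← Polynomial.C_mul_X_pow_eq_monomial, map_mul, map_pow, AdjoinRoot.mk_C,
        AdjoinRoot.mk_X]
      induction a using AdjoinRoot.induction_on with
      | ih q' =>
        induction q' using Polynomial.induction_on' with
        | add q₁ q₂ h₁ h₂ =>
          rw [map_add, map_add, add_mul]
          exact hadd _ _ h₁ h₂
        | monomial i b =>
          rw [← Polynomial.C_mul_X_pow_eq_monomial, map_mul, map_pow, AdjoinRoot.mk_C,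
            AdjoinRoot.mk_X, map_mul, map_pow]
          exact hmon b i j

/-- The coaction on a monomial. -/
theorem delta_monomial (b : B) (i j : ℕ) :
    delta p t1 t2 νi θ (bHom p t1 t2 νi θ b * sElt p t1 t2 νi θ ^ i * rElt p t1 t2 νi θ ^ j) =
      AddMonoidAlgebra.single ((i : ZMod p) - (j : ZMod p))
        (bHom p t1 t2 νi θ b * sElt p t1 t2 νi θ ^ i * rElt p t1 t2 νi θ ^ j) := by
  rw [map_mul, map_mul, map_pow, map_pow, delta_bHom, delta_sElt, delta_rElt,
    AddMonoidAlgebra.single_pow, AddMonoidAlgebra.single_pow,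
    AddMonoidAlgebra.single_mul_single, AddMonoidAlgebra.single_mul_single]
  congr 1
  simp [sub_eq_add_neg]

theorem gr_monomial (d : ZMod p) (b : B) (i j : ℕ) :
    gr p t1 t2 νi θ d (bHom p t1 t2 νi θ b * sElt p t1 t2 νi θ ^ i * rElt p t1 t2 νi θ ^ j) =
      if d = (i : ZMod p) - (j : ZMod p) then
        bHom p t1 t2 νi θ b * sElt p t1 t2 νi θ ^ i * rElt p t1 t2 νi θ ^ j else 0 :=
  gr_of_delta_eq p t1 t2 νi θ (delta_monomial p t1 t2 νi θ b i j) d

variable [NeZero p]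

/-- **Multiplicativity of the grading.** -/
theorem gr_mul (d : ZMod p) (y z : Cov p t1 t2 νi θ) :
    gr p t1 t2 νi θ d (y * z) = ∑ e, gr p t1 t2 νi θ e y * gr p t1 t2 νi θ (d - e) z := by
  rw [gr_apply, map_mul, AddMonoidAlgebra.coeff_mul_apply_left, Finsupp.sum_fintype]
  · refine Finset.sum_congr rfl fun e _ => ?_
    rw [neg_add_eq_sub]
    rfl
  · intro i
    exact zero_mul _

/-- **The components sum to the element.** -/
theorem sum_gr (y : Cov p t1 t2 νi θ) : ∑ d, gr p t1 t2 νi θ d y = y := by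
  induction y using cov_induction with
  | hadd x y hx hy =>
    simp_rw [map_add]
    rw [Finset.sum_add_distrib, hx, hy]
  | hmon b i j =>
    simp [gr_monomial]

omit [NeZero p] in
/-- **Every component is homogeneous.** -/
theorem delta_gr (d : ZMod p) (y : Cov p t1 t2 νi θ) :
    delta p t1 t2 νi θ (gr p t1 t2 νi θ d y) =
      AddMonoidAlgebra.single d (gr p t1 t2 νi θ d y) := by
  induction y using cov_induction with
  | hadd x y hx hy =>
    rw [map_add, map_add, hx, hy, AddMonoidAlgebra.single_add]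
  | hmon b i j =>
    rw [gr_monomial]
    split_ifs with h
    · rw [delta_monomial, h]
    · rw [map_zero, AddMonoidAlgebra.single_zero]

omit [NeZero p] in
theorem gr_gr (d e : ZMod p) (y : Cov p t1 t2 νi θ) :
    gr p t1 t2 νi θ e (gr p t1 t2 νi θ d y) = if e = d then gr p t1 t2 νi θ d y else 0 :=
  gr_of_delta_eq p t1 t2 νi θ (delta_gr p t1 t2 νi θ d y) e

omit [NeZero p] in
/-- Components of nonzero degree lie in `(r, s)`. -/
theorem gr_mem_span (d : ZMod p) (hd : d ≠ 0) (y : Cov p t1 t2 νi θ) :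
    gr p t1 t2 νi θ d y ∈ Ideal.span {rElt p t1 t2 νi θ, sElt p t1 t2 νi θ} := by
  induction y using cov_induction with
  | hadd x y hx hy =>
    rw [map_add]
    exact Ideal.add_mem _ hx hy
  | hmon b i j =>
    rw [gr_monomial]
    split_ifs with h
    · have hij : i ≠ 0 ∨ j ≠ 0 := by
        by_contra hcon
        rw [not_or, not_not, not_not] at hcon
        apply hd
        rw [h, hcon.1, hcon.2]
        simp
      rcases hij with hi | hj
      · obtain ⟨i', rfl⟩ := Nat.exists_eq_succ_of_ne_zero hi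
        have hs : sElt p t1 t2 νi θ ∈ Ideal.span {rElt p t1 t2 νi θ, sElt p t1 t2 νi θ} :=
          Ideal.subset_span (by simp)
        rw [pow_succ]
        have h3 : bHom p t1 t2 νi θ b * (sElt p t1 t2 νi θ ^ i' * sElt p t1 t2 νi θ) *
            rElt p t1 t2 νi θ ^ j = (bHom p t1 t2 νi θ b * sElt p t1 t2 νi θ ^ i' *
            rElt p t1 t2 νi θ ^ j) * sElt p t1 t2 νi θ := by ring
        rw [h3]
        exact Ideal.mul_mem_left _ _ hs
      · obtain ⟨j', rfl⟩ := Nat.exists_eq_succ_of_ne_zero hj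
        have hr : rElt p t1 t2 νi θ ∈ Ideal.span {rElt p t1 t2 νi θ, sElt p t1 t2 νi θ} :=
          Ideal.subset_span (by simp)
        rw [pow_succ, ← mul_assoc]
        exact Ideal.mul_mem_left _ _ hr
    · exact Ideal.zero_mem _

end Components

/-! ### The degree-zero part is `B[π]`, `π = r s` -/

section DegreeZero

variable {B : Type u} [CommRing B] (p : ℕ) (t1 t2 νi : B) (θ : B[X])

/-- The element `π = r s`. -/
noncomputable def piElt : Cov p t1 t2 νi θ := rElt p t1 t2 νi θ * sElt p t1 t2 νi θ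

theorem piElt_pow : piElt p t1 t2 νi θ ^ p = bHom p t1 t2 νi θ (t1 * νi * t2) *
    θ.eval₂ (bHom p t1 t2 νi θ) (piElt p t1 t2 νi θ) := by
  rw [piElt, mul_pow, rElt_pow, sElt_pow, mul_comm (sElt p t1 t2 νi θ) (rElt p t1 t2 νi θ),
    map_mul (bHom p t1 t2 νi θ) (t1 * νi) t2]
  ring

/-- The subring `B[π]` of the cover. -/
noncomputable def piRange : Subring (Cov p t1 t2 νi θ) :=
  (eval₂RingHom (bHom p t1 t2 νi θ) (piElt p t1 t2 νi θ)).range

theorem mem_piRange_iff (y : Cov p t1 t2 νi θ) :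
    y ∈ piRange p t1 t2 νi θ ↔ ∃ q : B[X], q.eval₂ (bHom p t1 t2 νi θ) (piElt p t1 t2 νi θ) = y :=
  Iff.rfl

theorem bHom_mem_piRange (b : B) : bHom p t1 t2 νi θ b ∈ piRange p t1 t2 νi θ :=
  ⟨C b, by simp⟩

theorem piElt_mem_piRange : piElt p t1 t2 νi θ ∈ piRange p t1 t2 νi θ :=
  ⟨X, by simp⟩

theorem sElt_pow_mem_piRange : sElt p t1 t2 νi θ ^ p ∈ piRange p t1 t2 νi θ := by
  rw [sElt_pow]
  exact bHom_mem_piRange p t1 t2 νi θ t2

theorem rElt_pow_mem_piRange : rElt p t1 t2 νi θ ^ p ∈ piRange p t1 t2 νi θ := by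
  rw [rElt_pow, mul_comm (sElt p t1 t2 νi θ) (rElt p t1 t2 νi θ)]
  exact Subring.mul_mem _ (bHom_mem_piRange p t1 t2 νi θ _) ⟨θ, rfl⟩

/-- Monomials of degree `0` lie in `B[π]`. -/
theorem monomial_mem_piRange (b : B) (i j : ℕ) (h : (i : ZMod p) = (j : ZMod p)) :
    bHom p t1 t2 νi θ b * sElt p t1 t2 νi θ ^ i * rElt p t1 t2 νi θ ^ j ∈
      piRange p t1 t2 νi θ := by
  have hmod : i ≡ j [MOD p] := (ZMod.natCast_eq_natCast_iff i j p).mp h
  rcases le_total i j with hij | hji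
  · obtain ⟨k, hk⟩ := (Nat.modEq_iff_dvd' hij).mp hmod
    have hj : j = i + p * k := by omega
    have he : bHom p t1 t2 νi θ b * sElt p t1 t2 νi θ ^ i * rElt p t1 t2 νi θ ^ j =
        bHom p t1 t2 νi θ b * piElt p t1 t2 νi θ ^ i * (rElt p t1 t2 νi θ ^ p) ^ k := by
      rw [hj, piElt]
      ring
    rw [he]
    exact Subring.mul_mem _ (Subring.mul_mem _ (bHom_mem_piRange p t1 t2 νi θ b)
      (Subring.pow_mem _ (piElt_mem_piRange p t1 t2 νi θ) i))
      (Subring.pow_mem _ (rElt_pow_mem_piRange p t1 t2 νi θ) k)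
  · obtain ⟨k, hk⟩ := (Nat.modEq_iff_dvd' hji).mp hmod.symm
    have hi : i = j + p * k := by omega
    have he : bHom p t1 t2 νi θ b * sElt p t1 t2 νi θ ^ i * rElt p t1 t2 νi θ ^ j =
        bHom p t1 t2 νi θ b * piElt p t1 t2 νi θ ^ j * (sElt p t1 t2 νi θ ^ p) ^ k := by
      rw [hi, piElt]
      ring
    rw [he]
    exact Subring.mul_mem _ (Subring.mul_mem _ (bHom_mem_piRange p t1 t2 νi θ b)
      (Subring.pow_mem _ (piElt_mem_piRange p t1 t2 νi θ) j))
      (Subring.pow_mem _ (sElt_pow_mem_piRange p t1 t2 νi θ) k)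

/-- The degree-`0` component of any element lies in `B[π]`. -/
theorem gr_zero_mem_piRange (y : Cov p t1 t2 νi θ) :
    gr p t1 t2 νi θ 0 y ∈ piRange p t1 t2 νi θ := by
  induction y using cov_induction with
  | hadd x y hx hy =>
    rw [map_add]
    exact Subring.add_mem _ hx hy
  | hmon b i j =>
    rw [gr_monomial]
    split_ifs with h
    · exact monomial_mem_piRange p t1 t2 νi θ b i j (sub_eq_zero.mp h.symm)
    · exact Subring.zero_mem _

/-- The monic polynomial `X ^ p - t1 νi t2 θ` satisfied by `π`. -/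
noncomputable def gPoly : B[X] := X ^ p + C (-(t1 * νi * t2)) * θ

theorem eval₂_gPoly : (gPoly p t1 t2 νi θ).eval₂ (bHom p t1 t2 νi θ) (piElt p t1 t2 νi θ) = 0 := by
  rw [gPoly, eval₂_add, eval₂_pow, eval₂_X, eval₂_mul, eval₂_C, piElt_pow, map_neg]
  ring

/-- Elements of `B[π]` are polynomials of degree `< p` in `π`. -/
theorem exists_natDegree_lt_of_mem_piRange [Nontrivial B] (hp : p ≠ 0) (hθ : θ.natDegree < p)
    {y : Cov p t1 t2 νi θ} (hy : y ∈ piRange p t1 t2 νi θ) :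
    ∃ q : B[X], q.natDegree < p ∧
      y = q.eval₂ (bHom p t1 t2 νi θ) (piElt p t1 t2 νi θ) := by
  obtain ⟨q₀, rfl⟩ := hy
  have hg : (gPoly p t1 t2 νi θ).Monic := eis_monic (h := gPoly p t1 t2 νi θ) rfl hθ
  have hgd : (gPoly p t1 t2 νi θ).natDegree = p := eis_natDegree (h := gPoly p t1 t2 νi θ) rfl hθ
  have hg1 : gPoly p t1 t2 νi θ ≠ 1 := by
    intro h1
    rw [h1, natDegree_one] at hgd
    exact hp hgd.symm
  refine ⟨q₀ %ₘ gPoly p t1 t2 νi θ, ?_, ?_⟩
  · have := natDegree_modByMonic_lt q₀ hg hg1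
    rwa [hgd] at this
  · have h := congrArg (eval₂ (bHom p t1 t2 νi θ) (piElt p t1 t2 νi θ))
      (modByMonic_add_div q₀ (gPoly p t1 t2 νi θ))
    rw [eval₂_add, eval₂_mul, eval₂_gPoly, zero_mul, add_zero] at h
    rw [coe_eval₂RingHom]
    exact h.symm

theorem natDegree_k2_lt (hθ : θ.natDegree < p) : (k2 p t2 νi θ).natDegree < p := by
  refine lt_of_le_of_lt ?_ hθ
  rw [k2]
  refine (natDegree_C_mul_le _ _).trans (natDegree_comp_le.trans ?_)
  calc (θ.map (AdjoinRoot.of (h1 p t2))).natDegree *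
        (C (AdjoinRoot.root (h1 p t2)) * X).natDegree
      ≤ θ.natDegree * 1 :=
        Nat.mul_le_mul natDegree_map_le ((natDegree_C_mul_le _ _).trans natDegree_X_le)
    _ = θ.natDegree := mul_one _

/-- `1, π, …, π ^ (p - 1)` are linearly independent over `B`. -/
theorem eq_zero_of_eval₂_piElt_eq_zero [Nontrivial B] [Nontrivial (AdjoinRoot (h1 p t2))]
    (hp : p ≠ 0) (hθ : θ.natDegree < p) (q : B[X]) (hq : q.natDegree < p)
    (h : q.eval₂ (bHom p t1 t2 νi θ) (piElt p t1 t2 νi θ) = 0) : q = 0 := by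
  have hk1 : (-1 : B[X]).natDegree < p := by
    rw [natDegree_neg, natDegree_one]
    exact Nat.pos_of_ne_zero hp
  have hm1 : (h1 p t2).Monic := eis_monic (h := h1 p t2) rfl hk1
  have hd1 : (h1 p t2).natDegree = p := eis_natDegree (h := h1 p t2) rfl hk1
  have hk2 := natDegree_k2_lt p t2 νi θ hθ
  have hm2 : (h2 p t1 t2 νi θ).Monic := eis_monic (h := h2 p t1 t2 νi θ) rfl hk2
  have hd2 : (h2 p t1 t2 νi θ).natDegree = p := eis_natDegree (h := h2 p t1 t2 νi θ) rfl hk2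
  -- the polynomial `q(s X)` over `B[s]`
  set Q : (AdjoinRoot (h1 p t2))[X] :=
    (q.map (AdjoinRoot.of (h1 p t2))).comp (C (AdjoinRoot.root (h1 p t2)) * X) with hQ
  have hQd : Q.natDegree < p := by
    refine lt_of_le_of_lt (natDegree_comp_le.trans ?_) hq
    calc (q.map (AdjoinRoot.of (h1 p t2))).natDegree *
          (C (AdjoinRoot.root (h1 p t2)) * X).natDegree
        ≤ q.natDegree * 1 :=
          Nat.mul_le_mul natDegree_map_le ((natDegree_C_mul_le _ _).trans natDegree_X_le)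
      _ = q.natDegree := mul_one _
  have hmk : AdjoinRoot.mk (h2 p t1 t2 νi θ) Q =
      q.eval₂ (bHom p t1 t2 νi θ) (piElt p t1 t2 νi θ) := by
    rw [← AdjoinRoot.aeval_eq, aeval_def, hQ, eval₂_comp, eval₂_mul, eval₂_C, eval₂_X, eval₂_map,
      AdjoinRoot.algebraMap_eq, piElt, mul_comm (rElt p t1 t2 νi θ)]
    rfl
  rw [← hmk, AdjoinRoot.mk_eq_zero] at h
  have hQ0 : Q = 0 := by
    by_contra hne
    exact hm2.not_dvd_of_natDegree_lt hne (by rw [hd2]; exact hQd) h
  ext a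
  rw [coeff_zero]
  have hc := congrArg (fun P => P.coeff a) hQ0
  simp only [hQ, comp_C_mul_X_coeff, coeff_map, coeff_zero] at hc
  have hmk1 : AdjoinRoot.mk (h1 p t2) (C (q.coeff a) * X ^ a) = 0 := by
    rw [map_mul, map_pow, AdjoinRoot.mk_C, AdjoinRoot.mk_X]
    exact hc
  rw [AdjoinRoot.mk_eq_zero] at hmk1
  by_contra hne
  have hlt : (C (q.coeff a) * X ^ a).natDegree < (h1 p t2).natDegree := by
    rw [natDegree_C_mul_X_pow a _ hne, hd1]
    exact lt_of_le_of_lt (le_natDegree_of_ne_zero hne) hq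
  refine hm1.not_dvd_of_natDegree_lt ?_ hlt hmk1
  intro h0
  have := congrArg natDegree h0
  rw [natDegree_C_mul_X_pow a _ hne, natDegree_zero] at this
  have h00 : C (q.coeff a) * X ^ a = C (q.coeff a) := by rw [this, pow_zero, mul_one]
  rw [h00] at h0
  exact hne (C_eq_zero.mp h0)

end DegreeZero

/-! ### Ring-theoretic properties of the cover -/

section Props

theorem isUnit_k2_eval_zero {B : Type u} [CommRing B] (p : ℕ) (t2 νi : B) (θ : B[X])
    (hνi : IsUnit νi) (hθ0 : IsUnit (θ.eval 0)) : IsUnit ((k2 p t2 νi θ).eval 0) := by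
  rw [k2, eval_mul, eval_C, eval_comp, eval_mul, eval_C, eval_X, mul_zero, eval_zero_map,
    ← map_mul]
  exact (hνi.neg.mul hθ0).map _

variable {B : Type u} [CommRing B] [IsDomain B] [IsLocalRing B] [IsNoetherianRing B]

/-- The cover is a local domain with maximal ideal `(r, s)`, `r` and `s` non-associated primes
lying over `t1` and `t2`. -/
theorem cov_props (p : ℕ) (hp : p ≠ 0) (t1 t2 νi : B) (θ : B[X]) (ht1 : Prime t1)
    (ht2 : Prime t2) (hne : ¬ Associated t1 t2)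
    (hm : IsLocalRing.maximalIdeal B = Ideal.span {t1, t2}) (hνi : IsUnit νi)
    (hθ : θ.natDegree < p) (hθ0 : IsUnit (θ.eval 0)) :
    ∃ (_ : IsDomain (AdjoinRoot (h1 p t2))) (_ : IsDomain (Cov p t1 t2 νi θ))
      (_ : IsLocalRing (Cov p t1 t2 νi θ)),
      Function.Injective (bHom p t1 t2 νi θ) ∧ Prime (rElt p t1 t2 νi θ) ∧
      Prime (sElt p t1 t2 νi θ) ∧ ¬ Associated (rElt p t1 t2 νi θ) (sElt p t1 t2 νi θ) ∧
      IsLocalRing.maximalIdeal (Cov p t1 t2 νi θ) =
        Ideal.span {rElt p t1 t2 νi θ, sElt p t1 t2 νi θ} ∧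
      (∀ b : B, sElt p t1 t2 νi θ ∣ bHom p t1 t2 νi θ b → t2 ∣ b) ∧
      (∀ b : B, rElt p t1 t2 νi θ ∣ bHom p t1 t2 νi θ b → t1 ∣ b) := by
  have h12 : ¬ t1 ∣ t2 := fun hd => hne (ht1.associated_of_dvd ht2 hd)
  have h21 : ¬ t2 ∣ t1 := fun hd => hne (ht2.associated_of_dvd ht1 hd).symm
  have hk₁ : (-1 : B[X]).natDegree < p := by
    rw [natDegree_neg, natDegree_one]
    exact Nat.pos_of_ne_zero hp
  have hk0₁ : IsUnit ((-1 : B[X]).eval 0) := by
    rw [eval_neg, eval_one]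
    exact isUnit_one.neg
  have hh₁ : h1 p t2 = X ^ p + C t2 * (-1) := rfl
  have hdom₁ : IsDomain (AdjoinRoot (h1 p t2)) := eis_isDomain hh₁ hk₁ hp ht2 hk0₁
  have hloc₁ : IsLocalRing (AdjoinRoot (h1 p t2)) := eis_isLocalRing hh₁ hk₁ hp ht2
  have hinj₁ := eis_of_injective hh₁ hk₁ hp
  have hs₁ : Prime (AdjoinRoot.root (h1 p t2)) := eis_root_prime hh₁ hk₁ hp ht2 hk0₁
  have hs₁pow := root1_pow p t2
  have hdvd₁ : ∀ b : B, AdjoinRoot.root (h1 p t2) ∣ AdjoinRoot.of (h1 p t2) b → t2 ∣ b :=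
    fun b hb => eis_dvd_of_root_dvd hh₁ hp hb
  have hm₁ : IsLocalRing.maximalIdeal (AdjoinRoot (h1 p t2))
      = Ideal.span {AdjoinRoot.root (h1 p t2), AdjoinRoot.of (h1 p t2) t1} := by
    rw [eis_maximalIdeal hh₁ hk₁ hp ht2, hm, Ideal.map_span, Set.image_pair]
    apply le_antisymm
    · refine sup_le (Ideal.span_le.mpr ?_) (Ideal.span_mono (by simp))
      rintro z (rfl | rfl)
      · exact Ideal.subset_span (by simp)
      · rw [← hs₁pow]
        exact Ideal.pow_mem_of_mem _ (Ideal.subset_span (by simp)) p (Nat.pos_of_ne_zero hp)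
    · refine Ideal.span_le.mpr ?_
      rintro z (rfl | rfl)
      · exact Ideal.mem_sup_right (Ideal.subset_span rfl)
      · exact Ideal.mem_sup_left (Ideal.subset_span (by simp))
  obtain ⟨hT₁, hT₁dvd⟩ := eis_of_prime_of_prime_mk hh₁ hk₁ hp hk0₁ ht1
    (prime_mk_of_maximalIdeal_eq hm h12)
  have hh₂ : h2 p t1 t2 νi θ = X ^ p + C (AdjoinRoot.of (h1 p t2) t1) * k2 p t2 νi θ := rfl
  have hk₂ := natDegree_k2_lt p t2 νi θ hθ
  have hk0₂ := isUnit_k2_eval_zero p t2 νi θ hνi hθ0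
  have hdom₂ : IsDomain (Cov p t1 t2 νi θ) := eis_isDomain hh₂ hk₂ hp hT₁ hk0₂
  have hloc₂ : IsLocalRing (Cov p t1 t2 νi θ) := eis_isLocalRing hh₂ hk₂ hp hT₁
  have hinj₂ := eis_of_injective hh₂ hk₂ hp
  have hr : Prime (rElt p t1 t2 νi θ) := eis_root_prime hh₂ hk₂ hp hT₁ hk0₂
  have hrass : Associated (rElt p t1 t2 νi θ ^ p)
      (AdjoinRoot.of (h2 p t1 t2 νi θ) (AdjoinRoot.of (h1 p t2) t1)) :=
    eis_associated hh₂ hk₂ hT₁ hk0₂
  have hdvd₂ : ∀ b : AdjoinRoot (h1 p t2),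
      rElt p t1 t2 νi θ ∣ AdjoinRoot.of (h2 p t1 t2 νi θ) b → AdjoinRoot.of (h1 p t2) t1 ∣ b :=
    fun b hb => eis_dvd_of_root_dvd hh₂ hp hb
  obtain ⟨hs, hsdvd⟩ := eis_of_prime_of_prime_mk hh₂ hk₂ hp hk0₂ hs₁
    (prime_mk_of_maximalIdeal_eq hm₁ fun hd => h21 (hdvd₁ t1 hd))
  refine ⟨hdom₁, hdom₂, hloc₂, ?_, hr, hs, ?_, ?_, ?_, ?_⟩
  · intro a b hab
    exact hinj₁ (hinj₂ hab)
  · intro hass
    have hst : rElt p t1 t2 νi θ ∣
        AdjoinRoot.of (h2 p t1 t2 νi θ) (AdjoinRoot.of (h1 p t2) t2) := by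
      have hpow : sElt p t1 t2 νi θ ^ p =
          AdjoinRoot.of (h2 p t1 t2 νi θ) (AdjoinRoot.of (h1 p t2) t2) := sElt_pow p t1 t2 νi θ
      rw [← hpow]
      exact hass.dvd.trans (dvd_pow_self _ hp)
    exact h12 (hT₁dvd t2 (hdvd₂ _ hst))
  · rw [eis_maximalIdeal hh₂ hk₂ hp hT₁, hm₁, Ideal.map_span, Set.image_pair]
    apply le_antisymm
    · refine sup_le (Ideal.span_le.mpr ?_)
        (Ideal.span_mono (Set.singleton_subset_iff.mpr (Set.mem_insert _ _)))
      rintro z (rfl | rfl)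
      · exact Ideal.subset_span (Set.mem_insert_of_mem _ (Set.mem_singleton _))
      · have hd : rElt p t1 t2 νi θ ∣
            AdjoinRoot.of (h2 p t1 t2 νi θ) (AdjoinRoot.of (h1 p t2) t1) :=
          (dvd_pow_self _ hp).trans hrass.dvd
        exact Ideal.span_mono (Set.singleton_subset_iff.mpr (Set.mem_insert _ _))
          (Ideal.mem_span_singleton.mpr hd)
    · refine Ideal.span_le.mpr ?_
      rintro z (rfl | rfl)
      · exact Ideal.mem_sup_right (Ideal.subset_span rfl)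
      · exact Ideal.mem_sup_left (Ideal.subset_span (Set.mem_insert _ _))
  · intro b hb
    exact hdvd₁ b (hsdvd _ hb)
  · intro b hb
    exact hT₁dvd b (hdvd₂ _ hb)

end Props

/-! ### The packaged statement -/

section Main

variable {B : Type u} [CommRing B] [IsDomain B] [IsLocalRing B] [IsNoetherianRing B]

/-- **The graded regular cover of a wild thickness-one node** (NNF (a)+(b)).

Over a noetherian local domain `B` with `𝔪 = (t1, t2)`, `t1`, `t2` non-associated primes, a unit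
`ν` and `θ ∈ B[X]` of degree `< p` with `θ(0)` a unit, there is a finite noetherian local domain
`R ⊇ B` with `𝔪_R = (r, s)`, `r`, `s` non-associated primes, `s ^ p = t2`,
`ν r ^ p = t1 θ(r s)`, carrying a `ℤ/p`-grading `c` with `deg s = 1`, `deg r = -1`, whose
nonzero degrees lie in `𝔪_R` and whose degree-`0` part is `B[r s] = ⊕_{a < p} B (r s) ^ a`. -/
theorem exists_graded_node_cover (p : ℕ) [NeZero p] (t1 t2 : B) (ht1 : Prime t1)
    (ht2 : Prime t2) (hne : ¬ Associated t1 t2)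
    (hm : IsLocalRing.maximalIdeal B = Ideal.span {t1, t2}) (ν : B) (hν : IsUnit ν)
    (θ : B[X]) (hθ : θ.natDegree < p) (hθ0 : IsUnit (θ.eval 0)) :
    ∃ (R : Type u) (_ : CommRing R) (_ : IsDomain R) (_ : IsLocalRing R) (_ : IsNoetherianRing R)
      (_ : Algebra B R) (r s : R) (c : ZMod p → R →+ R),
      Function.Injective (algebraMap B R) ∧ Algebra.IsIntegral B R ∧ Prime r ∧ Prime s ∧
      ¬ Associated r s ∧ IsLocalRing.maximalIdeal R = Ideal.span {r, s} ∧
      s ^ p = algebraMap B R t2 ∧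
      algebraMap B R ν * r ^ p = algebraMap B R t1 * Polynomial.aeval (r * s) θ ∧
      (∀ b : B, s ∣ algebraMap B R b → t2 ∣ b) ∧ (∀ b : B, r ∣ algebraMap B R b → t1 ∣ b) ∧
      (∀ y, ∑ d, c d y = y) ∧ (∀ d e y, c e (c d y) = if e = d then c d y else 0) ∧
      (∀ d y z, c d (y * z) = ∑ e, c e y * c (d - e) z) ∧
      (∀ b : B, c 0 (algebraMap B R b) = algebraMap B R b) ∧ c 1 s = s ∧ c (-1) r = r ∧
      (∀ d, d ≠ 0 → ∀ y, c d y ∈ IsLocalRing.maximalIdeal R) ∧
      (∀ y, c 0 y = y → ∃ q : B[X], q.natDegree < p ∧ y = Polynomial.aeval (r * s) q) ∧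
      (∀ q : B[X], q.natDegree < p → Polynomial.aeval (r * s) q = 0 → q = 0) := by
  have hp : p ≠ 0 := NeZero.ne p
  obtain ⟨νi, hνi⟩ := hν.exists_right_inv
  have hνi' : IsUnit νi := IsUnit.of_mul_eq_one ν (by rw [mul_comm]; exact hνi)
  obtain ⟨hdom₁, hdom, hloc, hinj, hr, hs, hrs, hmax, hsdvd, hrdvd⟩ :=
    cov_props p hp t1 t2 νi θ ht1 ht2 hne hm hνi' hθ hθ0
  have hk₁ : (-1 : B[X]).natDegree < p := by
    rw [natDegree_neg, natDegree_one]
    exact Nat.pos_of_ne_zero hp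
  have haeval : ∀ q : B[X], Polynomial.aeval (rElt p t1 t2 νi θ * sElt p t1 t2 νi θ) q =
      q.eval₂ (bHom p t1 t2 νi θ) (piElt p t1 t2 νi θ) := fun q => rfl
  refine ⟨Cov p t1 t2 νi θ, inferInstance, hdom, hloc, inferInstance, inferInstance,
    rElt p t1 t2 νi θ, sElt p t1 t2 νi θ, gr p t1 t2 νi θ, hinj, ?_, hr, hs, hrs, hmax,
    sElt_pow p t1 t2 νi θ, ?_, hsdvd, hrdvd, sum_gr p t1 t2 νi θ,
    fun d e y => gr_gr p t1 t2 νi θ d e y, gr_mul p t1 t2 νi θ, ?_, ?_, ?_, ?_, ?_, ?_⟩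
  · have hfin₁ : Module.Finite B (AdjoinRoot (h1 p t2)) :=
      (eis_monic (h := h1 p t2) rfl hk₁).finite_adjoinRoot
    have hfin₂ : Module.Finite (AdjoinRoot (h1 p t2)) (Cov p t1 t2 νi θ) :=
      (eis_monic (h := h2 p t1 t2 νi θ) rfl (natDegree_k2_lt p t2 νi θ hθ)).finite_adjoinRoot
    have hi₁ : Algebra.IsIntegral B (AdjoinRoot (h1 p t2)) := Algebra.IsIntegral.of_finite _ _
    have hi₂ : Algebra.IsIntegral (AdjoinRoot (h1 p t2)) (Cov p t1 t2 νi θ) :=
      Algebra.IsIntegral.of_finite _ _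
    exact Algebra.IsIntegral.trans (AdjoinRoot (h1 p t2))
  · rw [haeval, piElt, rElt_pow, mul_comm (sElt p t1 t2 νi θ) (rElt p t1 t2 νi θ)]
    change bHom p t1 t2 νi θ ν * _ = bHom p t1 t2 νi θ t1 * _
    rw [← mul_assoc, ← map_mul]
    congr 2
    rw [mul_comm ν, mul_assoc, mul_comm νi, hνi, mul_one]
  · intro b
    change gr p t1 t2 νi θ 0 (bHom p t1 t2 νi θ b) = bHom p t1 t2 νi θ b
    rw [gr_bHom, if_pos rfl]
  · rw [gr_sElt, if_pos rfl]
  · rw [gr_rElt, if_pos rfl]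
  · intro d hd y
    rw [hmax]
    exact gr_mem_span p t1 t2 νi θ d hd y
  · intro y hy
    have hmem : y ∈ piRange p t1 t2 νi θ := hy ▸ gr_zero_mem_piRange p t1 t2 νi θ y
    obtain ⟨q, hq, hyq⟩ := exists_natDegree_lt_of_mem_piRange p t1 t2 νi θ hp hθ hmem
    exact ⟨q, hq, by rw [haeval]; exact hyq⟩
  · intro q hq h0
    rw [haeval] at h0
    exact eq_zero_of_eval₂_piElt_eq_zero p t1 t2 νi θ hp hθ q hq h0

end Main

end Fermat.Agent.S44.L.NodeNFCover
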