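import Mathlib

/-!
# NNF (A1), embedding lemma: `A = B[π]` with `π` Eisenstein embeds in any domain with a root

`B` a factorial domain, `t₁` a prime of `B`, `c` prime to `t₁`, `κ ∈ B[X]` of degree `< p` with
unit constant term.  The polynomial `E = X ^ p - t₁ c κ` is monic and Eisenstein at `(t₁)`, hence
prime in `B[X]`; so a domain `A = B[π]` generated over `B` by a root `π` of `E` is `B[X] / (E)`
and embeds over `B` into every domain `R ⊇ B` containing a root `ϱ` of `E`, with `π ↦ ϱ`.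
-/

set_option autoImplicit false

open Polynomial

namespace Fermat.Agent.S44.L.NodeNFEmb

universe u v w

section Eis

variable {B : Type u} [CommRing B] [IsDomain B]

/-- The polynomial `X ^ p - a κ`. -/
noncomputable def eisPoly (p : ℕ) (a : B) (κ : B[X]) : B[X] := X ^ p - C a * κ

omit [IsDomain B] in
theorem degree_C_mul_lt {p : ℕ} (a : B) {κ : B[X]} (hκ : κ.natDegree < p) :
    (C a * κ).degree < (p : WithBot ℕ) :=
  lt_of_le_of_lt degree_le_natDegree
    (by exact_mod_cast lt_of_le_of_lt (natDegree_C_mul_le a κ) hκ)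

omit [IsDomain B] in
theorem eisPoly_monic {p : ℕ} (a : B) {κ : B[X]} (hκ : κ.natDegree < p) :
    (eisPoly p a κ).Monic :=
  monic_X_pow_sub (degree_C_mul_lt a hκ)

theorem eisPoly_natDegree {p : ℕ} (a : B) {κ : B[X]} (hκ : κ.natDegree < p) :
    (eisPoly p a κ).natDegree = p := by
  unfold eisPoly
  rw [natDegree_sub_eq_left_of_natDegree_lt, natDegree_X_pow]
  rw [natDegree_X_pow]
  exact lt_of_le_of_lt (natDegree_C_mul_le a κ) hκ

omit [IsDomain B] in
theorem eisPoly_coeff {p : ℕ} (a : B) (κ : B[X]) {n : ℕ} (hn : n < p) :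
    (eisPoly p a κ).coeff n = -(a * κ.coeff n) := by
  unfold eisPoly
  rw [coeff_sub, coeff_X_pow, if_neg hn.ne, coeff_C_mul, zero_sub]

omit [IsDomain B] in
theorem aeval_eisPoly {S : Type*} [CommRing S] [Algebra B S] (p : ℕ) (a : B) (κ : B[X])
    (x : S) : aeval x (eisPoly p a κ) = x ^ p - algebraMap B S a * aeval x κ := by
  unfold eisPoly
  rw [map_sub, map_pow, aeval_X, map_mul, aeval_C]

/-- `X ^ p - t₁ c κ` is Eisenstein at `(t₁)`, hence prime. -/
theorem eisPoly_prime [UniqueFactorizationMonoid B] {p : ℕ} (hp : p ≠ 0) {t₁ c : B}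
    (ht₁ : Prime t₁) (hc : ¬ t₁ ∣ c) {κ : B[X]} (hκ : κ.natDegree < p)
    (hκ0 : IsUnit (κ.eval 0)) : Prime (eisPoly p (t₁ * c) κ) := by
  have hmonic := eisPoly_monic (t₁ * c) hκ
  have hdeg := eisPoly_natDegree (t₁ * c) hκ
  have hprime : (Ideal.span {t₁} : Ideal B).IsPrime :=
    (Ideal.span_singleton_prime ht₁.ne_zero).mpr ht₁
  have heis : (eisPoly p (t₁ * c) κ).IsEisensteinAt (Ideal.span {t₁}) := by
    refine ⟨?_, ?_, ?_⟩
    · rw [hmonic.leadingCoeff]
      exact fun h => hprime.ne_top ((Ideal.eq_top_iff_one _).mpr h)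
    · intro n hn
      rw [hdeg] at hn
      rw [eisPoly_coeff _ _ hn, Ideal.mem_span_singleton]
      exact (Dvd.intro _ (mul_assoc t₁ c (κ.coeff n)).symm).neg_right
    · rw [eisPoly_coeff _ _ (Nat.pos_of_ne_zero hp), Ideal.span_singleton_pow,
        Ideal.mem_span_singleton, dvd_neg, coeff_zero_eq_eval_zero]
      intro hd
      have h1 : t₁ ^ 2 ∣ t₁ * (c * κ.eval 0) := by rwa [← mul_assoc]
      rw [pow_two] at h1
      have h2 : t₁ ∣ c * κ.eval 0 := (mul_dvd_mul_iff_left ht₁.ne_zero).mp h1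
      rcases ht₁.dvd_or_dvd h2 with h3 | h3
      · exact hc h3
      · exact ht₁.not_isUnit (isUnit_of_dvd_unit h3 hκ0)
  have hirr : Irreducible (eisPoly p (t₁ * c) κ) :=
    heis.irreducible hprime hmonic.isPrimitive (by rw [hdeg]; exact Nat.pos_of_ne_zero hp)
  exact UniqueFactorizationMonoid.irreducible_iff_prime.mp hirr

end Eis

/-- A `B`-algebra map from `B[X] / (E)` (`E` monic and prime) to a domain containing `B` is
injective. -/
theorem algHom_injective_of_prime {B : Type u} [CommRing B] [IsDomain B] {E : B[X]}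
    (hEprime : Prime E) (hEmonic : E.Monic) {S : Type v} [CommRing S] [IsDomain S] [Algebra B S]
    (hBS : Function.Injective (algebraMap B S)) (φ : AdjoinRoot E →ₐ[B] S) :
    Function.Injective φ := by
  have hdom : IsDomain (AdjoinRoot E) := AdjoinRoot.isDomain_of_prime hEprime
  have hfin : Module.Finite B (AdjoinRoot E) := hEmonic.finite_adjoinRoot
  have hint : Algebra.IsIntegral B (AdjoinRoot E) := Algebra.IsIntegral.of_finite B _
  rw [injective_iff_map_eq_zero]
  intro x hx
  have hker : RingHom.ker (φ : AdjoinRoot E →+* S) = ⊥ := by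
    refine Ideal.eq_bot_of_comap_eq_bot (R := B) ?_
    rw [eq_bot_iff]
    intro b hb
    rw [Ideal.mem_comap, RingHom.mem_ker] at hb
    have h1 : algebraMap B S b = 0 := by
      have := φ.commutes b
      rw [← this]
      exact hb
    rw [Ideal.mem_bot]
    exact hBS (h1.trans (map_zero _).symm)
  have : x ∈ RingHom.ker (φ : AdjoinRoot E →+* S) := hx
  rw [hker, Ideal.mem_bot] at this
  exact this

/-- (III.1) `A = B[π]` with `π ^ p = t₁ c κ(π)` (Eisenstein at `t₁`) embeds in any domain `R ⊇ B`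
containing a root `ϱ` of the same equation. -/
theorem exists_algHom_of_eisenstein {B : Type u} [CommRing B] [IsDomain B]
    [UniqueFactorizationMonoid B] {p : ℕ} (hp : p ≠ 0) {t₁ c : B} (ht₁ : Prime t₁)
    (hc : ¬ t₁ ∣ c) {κ : B[X]} (hκ : κ.natDegree < p) (hκ0 : IsUnit (κ.eval 0))
    {A : Type v} [CommRing A] [IsDomain A] [Algebra B A]
    (hBA : Function.Injective (algebraMap B A)) {π : A}
    (hπ : π ^ p = algebraMap B A (t₁ * c) * aeval π κ) (hgen : Algebra.adjoin B {π} = ⊤)
    {R : Type w} [CommRing R] [IsDomain R] [Algebra B R]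
    (hBR : Function.Injective (algebraMap B R)) {ϱ : R}
    (hϱ : ϱ ^ p = algebraMap B R (t₁ * c) * aeval ϱ κ) :
    ∃ j : A →ₐ[B] R, Function.Injective j ∧ j π = ϱ := by
  obtain ⟨E, hE⟩ : ∃ E : B[X], E = eisPoly p (t₁ * c) κ := ⟨_, rfl⟩
  have hEprime : Prime E := hE ▸ eisPoly_prime hp ht₁ hc hκ hκ0
  have hEmonic : E.Monic := hE ▸ eisPoly_monic (t₁ * c) hκ
  have hdom : IsDomain (AdjoinRoot E) := AdjoinRoot.isDomain_of_prime hEprime
  have hfin : Module.Finite B (AdjoinRoot E) := hEmonic.finite_adjoinRoot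
  have hint : Algebra.IsIntegral B (AdjoinRoot E) := Algebra.IsIntegral.of_finite B _
  have hEA : aeval π E = 0 := by rw [hE, aeval_eisPoly, hπ, sub_self]
  have hER : aeval ϱ E = 0 := by rw [hE, aeval_eisPoly, hϱ, sub_self]
  -- the two lifts
  let φA : AdjoinRoot E →ₐ[B] A := AdjoinRoot.liftAlgHom E (Algebra.ofId B A) π hEA
  let φR : AdjoinRoot E →ₐ[B] R := AdjoinRoot.liftAlgHom E (Algebra.ofId B R) ϱ hER
  have hφA : φA (AdjoinRoot.root E) = π := AdjoinRoot.liftAlgHom_root E _ π hEA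
  have hφR : φR (AdjoinRoot.root E) = ϱ := AdjoinRoot.liftAlgHom_root E _ ϱ hER
  have hφAinj : Function.Injective φA := algHom_injective_of_prime hEprime hEmonic hBA φA
  have hφRinj : Function.Injective φR := algHom_injective_of_prime hEprime hEmonic hBR φR
  have hφAsurj : Function.Surjective φA := by
    rw [← AlgHom.range_eq_top, eq_top_iff, ← hgen]
    refine Algebra.adjoin_le ?_
    rintro x rfl
    exact ⟨AdjoinRoot.root E, hφA⟩
  let e : AdjoinRoot E ≃ₐ[B] A := AlgEquiv.ofBijective φA ⟨hφAinj, hφAsurj⟩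
  refine ⟨φR.comp e.symm.toAlgHom, ?_, ?_⟩
  · exact hφRinj.comp e.symm.injective
  · have h1 : e.symm π = AdjoinRoot.root E := by
      rw [AlgEquiv.symm_apply_eq]
      exact hφA.symm
    show φR (e.symm π) = ϱ
    rw [h1, hφR]

end Fermat.Agent.S44.L.NodeNFEmb
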