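import Mathlib
import Fermat.Agent.S36.QFormal

/-!
# PROGRAM MR (S44), strand L: the `θ`-logarithm on `κ((q))` (formal, level-free)

`κ` is any field, `θ = q d/dq` is `S36.QFormal.theta`, and `dlog f = θ f / f` in the field
`κ((q))`.

* `dlog_mul`, `dlog_inv`, `dlog_div`, `dlog_pow`, `dlog_zpow`, `dlog_prod` : `dlog` is a
  logarithm;
* `dlog_C`, `dlog_C_mul`, `dlog_pow_char` : it kills the constants and (in characteristic `p`)
  the `p`-th powers;
* `dlog_expand`, `dlog_rescale`, `coeff_dlog_normL`, `coeff_dlog_heckeMul` : on `dlog`, the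
  multiplicative Hecke operator `T_ℓ f = f(q^ℓ) ∏_{i<ℓ} f(zⁱ q^{1/ℓ})` (`Congr.heckeMul`) is the
  weight-2 `q`-expansion operator `a_n ↦ a_{ℓ n} + ℓ a_{n/ℓ}`;
* `hecke_step` : if `T_ℓ f = c f^a h^p` in characteristic `p` then `φ = θ f / f` satisfies
  `φ_{ℓ n} + ℓ φ_{n/ℓ} = a φ_n`  (the Hecke clause of `Contract.RegLog`, literal shape).
-/

set_option autoImplicit false

open HahnSeries

namespace Fermat.Agent.S44.L.ThetaLog

open Fermat.Agent.S30 Fermat.Agent.S36.QFormal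

variable {κ : Type*} [Field κ]

/-- A series `g` with `g_n = n f_n` is `θ f`. -/
theorem theta_eq_of_coeff {f g : LaurentSeries κ}
    (h : ∀ n : ℤ, g.coeff n = (n : κ) * f.coeff n) : g = theta f := by
  ext n
  rw [h n, coeff_theta]

/-- The logarithmic derivative `θ f / f`. -/
noncomputable def dlog (f : LaurentSeries κ) : LaurentSeries κ := theta f / f

theorem dlog_zero : dlog (0 : LaurentSeries κ) = 0 := by
  unfold dlog
  rw [div_zero]

theorem dlog_mul_self {f : LaurentSeries κ} (hf : f ≠ 0) : dlog f * f = theta f := by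
  unfold dlog
  exact div_mul_cancel₀ _ hf

theorem eq_dlog_of_mul {f φ : LaurentSeries κ} (hf : f ≠ 0) (h : φ * f = theta f) :
    φ = dlog f := by
  unfold dlog
  rw [eq_div_iff hf]
  exact h

theorem dlog_one : dlog (1 : LaurentSeries κ) = 0 := by
  unfold dlog
  rw [theta_one, zero_div]

theorem dlog_mul {f g : LaurentSeries κ} (hf : f ≠ 0) (hg : g ≠ 0) :
    dlog (f * g) = dlog f + dlog g := by
  unfold dlog
  rw [theta_mul, add_div, mul_div_mul_right _ _ hg, mul_div_mul_left _ _ hf]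

theorem dlog_inv (f : LaurentSeries κ) : dlog f⁻¹ = -dlog f := by
  by_cases hf : f = 0
  · subst hf
    rw [inv_zero, dlog_zero, neg_zero]
  · have h := dlog_mul hf (inv_ne_zero hf)
    rw [mul_inv_cancel₀ hf, dlog_one] at h
    exact eq_neg_of_add_eq_zero_right h.symm

theorem dlog_div {f g : LaurentSeries κ} (hf : f ≠ 0) (hg : g ≠ 0) :
    dlog (f / g) = dlog f - dlog g := by
  rw [div_eq_mul_inv, dlog_mul hf (inv_ne_zero hg), dlog_inv, sub_eq_add_neg]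

theorem dlog_pow (f : LaurentSeries κ) (n : ℕ) : dlog (f ^ n) = (n : κ) • dlog f := by
  by_cases hf : f = 0
  · subst hf
    rcases Nat.eq_zero_or_pos n with rfl | hn
    · rw [pow_zero, dlog_one, dlog_zero, smul_zero]
    · rw [zero_pow hn.ne', dlog_zero, smul_zero]
  · induction n with
    | zero => rw [pow_zero, dlog_one, Nat.cast_zero, zero_smul]
    | succ n ih =>
      rw [pow_succ, dlog_mul (pow_ne_zero n hf) hf, ih, Nat.cast_succ, add_smul, one_smul]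

theorem dlog_zpow (f : LaurentSeries κ) (a : ℤ) : dlog (f ^ a) = (a : κ) • dlog f := by
  cases a with
  | ofNat n => rw [Int.ofNat_eq_natCast, zpow_natCast, dlog_pow, Int.cast_natCast]
  | negSucc n => rw [zpow_negSucc, dlog_inv, dlog_pow, Int.cast_negSucc, neg_smul]

theorem dlog_C (c : κ) : dlog (HahnSeries.C c : LaurentSeries κ) = 0 := by
  unfold dlog
  rw [theta_C, zero_div]

theorem dlog_C_mul {c : κ} (hc : c ≠ 0) (f : LaurentSeries κ) :
    dlog (HahnSeries.C c * f) = dlog f := by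
  by_cases hf : f = 0
  · subst hf
    rw [mul_zero]
  · rw [dlog_mul (HahnSeries.C_ne_zero hc) hf, dlog_C, zero_add]

/-- In characteristic `p`, `dlog` kills the `p`-th powers. -/
theorem dlog_pow_char (p : ℕ) [CharP κ p] (h : LaurentSeries κ) : dlog (h ^ p) = 0 := by
  rw [dlog_pow, CharP.cast_eq_zero, zero_smul]

theorem dlog_prod {ι : Type*} (s : Finset ι) (F : ι → LaurentSeries κ)
    (hF : ∀ i ∈ s, F i ≠ 0) : dlog (∏ i ∈ s, F i) = ∑ i ∈ s, dlog (F i) := by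
  classical
  induction s using Finset.induction_on with
  | empty => rw [Finset.prod_empty, Finset.sum_empty, dlog_one]
  | insert a s ha ih =>
    rw [Finset.prod_insert ha, Finset.sum_insert ha,
      dlog_mul (hF a (Finset.mem_insert_self a s))
        (Finset.prod_ne_zero_iff.2 fun i hi => hF i (Finset.mem_insert_of_mem hi)),
      ih fun i hi => hF i (Finset.mem_insert_of_mem hi)]

/-- `dlog (f(q^ℓ)) = ℓ · (dlog f)(q^ℓ)`. -/
theorem dlog_expand (ℓ : ℕ) (hℓ : 0 < ℓ) (f : LaurentSeries κ) :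
    dlog (Congr.expand ℓ hℓ f) = (ℓ : κ) • Congr.expand ℓ hℓ (dlog f) := by
  have h : ((ℓ : LaurentSeries κ)) = HahnSeries.C (ℓ : κ) := by simp
  unfold dlog
  rw [theta_expand, map_div₀, h, mul_div_assoc, HahnSeries.C_mul_eq_smul]

/-- `dlog (f(z q)) = (dlog f)(z q)`. -/
theorem dlog_rescale (z : κˣ) (f : LaurentSeries κ) :
    dlog (Congr.rescale z f) = Congr.rescale z (dlog f) := by
  unfold dlog
  rw [theta_rescale, map_div₀]

theorem rescale_ne_zero (z : κˣ) {f : LaurentSeries κ} (hf : f ≠ 0) :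
    Congr.rescale z f ≠ 0 :=
  (map_ne_zero (Congr.rescale z : LaurentSeries κ →+* LaurentSeries κ)).2 hf

theorem expand_ne_zero (ℓ : ℕ) (hℓ : 0 < ℓ) {f : LaurentSeries κ} (hf : f ≠ 0) :
    Congr.expand ℓ hℓ f ≠ 0 :=
  (map_ne_zero (Congr.expand ℓ hℓ : LaurentSeries κ →+* LaurentSeries κ)).2 hf

theorem conjProd_ne_zero (ℓ : ℕ) (z : κˣ) {f : LaurentSeries κ} (hf : f ≠ 0) :
    Congr.conjProd ℓ z f ≠ 0 := by
  unfold Congr.conjProd
  exact Finset.prod_ne_zero_iff.2 fun i _ => rescale_ne_zero (z ^ i) hf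

theorem normL_ne_zero (ℓ : ℕ) (hℓ : 0 < ℓ) (z : κˣ) (hz : IsPrimitiveRoot z ℓ)
    {f : LaurentSeries κ} (hf : f ≠ 0) : Congr.normL ℓ hℓ z f ≠ 0 := by
  intro h0
  have h1 := Congr.expand_normL ℓ hℓ z hz f
  rw [h0, map_zero] at h1
  exact conjProd_ne_zero ℓ z hf h1.symm

/-- The multiplicative Hecke operator does not kill a nonzero series. -/
theorem heckeMul_ne_zero (ℓ : ℕ) (hℓ : 0 < ℓ) (z : κˣ) (hz : IsPrimitiveRoot z ℓ)
    {f : LaurentSeries κ} (hf : f ≠ 0) : Congr.heckeMul ℓ hℓ z f ≠ 0 := by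
  unfold Congr.heckeMul
  exact mul_ne_zero (expand_ne_zero ℓ hℓ hf) (normL_ne_zero ℓ hℓ z hz hf)

theorem dlog_conjProd (ℓ : ℕ) (z : κˣ) {f : LaurentSeries κ} (hf : f ≠ 0) :
    dlog (Congr.conjProd ℓ z f) = ∑ i ∈ Finset.range ℓ, Congr.rescale (z ^ i) (dlog f) := by
  unfold Congr.conjProd
  rw [dlog_prod _ _ fun i _ => rescale_ne_zero (z ^ i) hf]
  exact Finset.sum_congr rfl fun i _ => dlog_rescale _ _

/-- On `dlog`, the norm `∏_{i<ℓ} f(zⁱ q^{1/ℓ})` is the operator `U_ℓ : a_n ↦ a_{ℓ n}`. -/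
theorem coeff_dlog_normL (ℓ : ℕ) (hℓ : 0 < ℓ) (hℓκ : (ℓ : κ) ≠ 0) (z : κˣ)
    (hz : IsPrimitiveRoot z ℓ) {f : LaurentSeries κ} (hf : f ≠ 0) (n : ℤ) :
    (dlog (Congr.normL ℓ hℓ z f)).coeff n = (dlog f).coeff ((ℓ : ℤ) * n) := by
  have h1 : dlog (Congr.conjProd ℓ z f) =
      (ℓ : κ) • Congr.expand ℓ hℓ (dlog (Congr.normL ℓ hℓ z f)) := by
    rw [← Congr.expand_normL ℓ hℓ z hz f, dlog_expand]
  have h2 := congrArg (fun x : LaurentSeries κ => x.coeff ((ℓ : ℤ) * n)) h1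
  rw [dlog_conjProd ℓ z hf, HahnSeries.coeff_sum, HahnSeries.coeff_smul, Congr.coeff_expand_mul,
    smul_eq_mul] at h2
  have h3 : ∀ i ∈ Finset.range ℓ,
      (Congr.rescale (z ^ i) (dlog f)).coeff ((ℓ : ℤ) * n) = (dlog f).coeff ((ℓ : ℤ) * n) := by
    intro i _
    rw [Congr.coeff_rescale]
    have h4 : (z ^ i) ^ ((ℓ : ℤ) * n) = 1 := by
      rw [zpow_mul, zpow_natCast, ← pow_mul, mul_comm, pow_mul, hz.pow_eq_one, one_pow, one_zpow]
    rw [h4, Units.val_one, one_mul]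
  rw [Finset.sum_congr rfl h3, Finset.sum_const, Finset.card_range, nsmul_eq_mul] at h2
  exact (mul_left_cancel₀ hℓκ h2).symm

/-- **On `dlog`, the multiplicative Hecke operator is the weight-2 `q`-expansion operator.** -/
theorem coeff_dlog_heckeMul (ℓ : ℕ) (hℓ : 0 < ℓ) (hℓκ : (ℓ : κ) ≠ 0) (z : κˣ)
    (hz : IsPrimitiveRoot z ℓ) {f : LaurentSeries κ} (hf : f ≠ 0) (n : ℤ) :
    (dlog (Congr.heckeMul ℓ hℓ z f)).coeff n =
      (dlog f).coeff ((ℓ : ℤ) * n)
        + (ℓ : κ) * (if (ℓ : ℤ) ∣ n then (dlog f).coeff (n / ℓ) else 0) := by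
  have he : Congr.expand ℓ hℓ f ≠ 0 := expand_ne_zero ℓ hℓ hf
  have hn : Congr.normL ℓ hℓ z f ≠ 0 := normL_ne_zero ℓ hℓ z hz hf
  have hℓ' : (ℓ : ℤ) ≠ 0 := by exact_mod_cast hℓ.ne'
  unfold Congr.heckeMul
  rw [dlog_mul he hn, HahnSeries.coeff_add, coeff_dlog_normL ℓ hℓ hℓκ z hz hf, dlog_expand,
    HahnSeries.coeff_smul, smul_eq_mul, add_comm]
  congr 2
  split_ifs with hd
  · obtain ⟨m, rfl⟩ := hd
    rw [Congr.coeff_expand_mul, Int.mul_ediv_cancel_left _ hℓ']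
  · rw [Congr.coeff_expand_of_not_dvd ℓ hℓ _ hd]

/-- **The Hecke step.**  In characteristic `p`, if `T_ℓ f = c · f ^ a · h ^ p` for the
multiplicative Hecke operator, then `φ = θ f / f` is an eigen-series of the weight-2
`q`-expansion operator `T_ℓ` with eigenvalue `a`. -/
theorem hecke_step (p : ℕ) [CharP κ p] (ℓ : ℕ) (hℓ : 0 < ℓ) (hℓκ : (ℓ : κ) ≠ 0) (z : κˣ)
    (hz : IsPrimitiveRoot z ℓ) {f φ : LaurentSeries κ} (hf : f ≠ 0) (hφ : φ * f = theta f)
    (a : ℤ) {c : κ} (hc : c ≠ 0) {h : LaurentSeries κ} (hh : h ≠ 0)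
    (H : Congr.heckeMul ℓ hℓ z f = HahnSeries.C c * f ^ a * h ^ p) (n : ℤ) :
    φ.coeff ((ℓ : ℤ) * n) + (ℓ : κ) * (if (ℓ : ℤ) ∣ n then φ.coeff (n / ℓ) else 0)
      = (a : κ) * φ.coeff n := by
  have hφ' : φ = dlog f := eq_dlog_of_mul hf hφ
  have h1 : dlog (Congr.heckeMul ℓ hℓ z f) = (a : κ) • dlog f := by
    rw [H, dlog_mul (mul_ne_zero (HahnSeries.C_ne_zero hc) (zpow_ne_zero a hf))
      (pow_ne_zero p hh), dlog_pow_char, add_zero, dlog_C_mul hc, dlog_zpow]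
  have h2 := congrArg (fun x : LaurentSeries κ => x.coeff n) h1
  rw [coeff_dlog_heckeMul ℓ hℓ hℓκ z hz hf, HahnSeries.coeff_smul, smul_eq_mul] at h2
  rw [hφ']
  exact h2

end Fermat.Agent.S44.L.ThetaLog
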