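import Mathlib
import Fermat.Agent.S44.L.Top
import Fermat.Agent.S44.L.ThetaLog
import Fermat.Agent.S30.E4.GaussNorm

/-!
# PROGRAM MR (S44), strand L, brick (L.HECKE): `Top.HeckeStatement`

If `T_ℓ x = c x^a k^p` at function level (level `N' p`, `ℓ ∤ N' p`) and `f` is a reduction of
`x` at the Gauss valuation of `A` (`Top.RedAt`), then `φ = θ f / f` satisfies the weight-2
Hecke relation `φ_{ℓ n} + ℓ φ_{n/ℓ} = a φ_n`.

* `heckeMul_C` : `T_ℓ` of a constant `c` is `c ^ (ℓ + 1)`;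
* `gauss_const` : **Gauss lemma** — if `e₁ · Y₁ = e₂ · Y₂` for two integral `q`-series with
  nonzero reductions (`e₁ ≠ 0`), then `red Y₁ = ē · red Y₂` with `ē ≠ 0` (this is also the
  uniqueness of `RedAt` up to a nonzero constant);
* `isPrimitiveRoot_residue` : a primitive `ℓ`-th root of unity stays primitive in the residue
  field of `A` over `p ≠ ℓ`;
* `red_heckeMul_eq` : **the reduced Hecke identity** `T_ℓ f = ē · f^a · h^p` in `κ((q))`;
* `heckeStatement : Top.HeckeStatement`.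
-/

set_option autoImplicit false

open HahnSeries ModularCurve

namespace Fermat.Agent.S44.L.Hecke

open Fermat.Agent.S30 Fermat.Agent.S30.Producer Fermat.Agent.S36.QFormal
open Fermat.Agent.S44.L.ThetaLog

local notation "Qb" => AlgebraicClosure ℚ

/-! ### Constants under the formal operators -/

section Formal

variable {R : Type*} [CommRing R]

theorem rescale_C (z : Rˣ) (c : R) :
    Congr.rescale z (HahnSeries.C c : LaurentSeries R) = HahnSeries.C c := by
  ext n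
  rw [Congr.coeff_rescale, HahnSeries.C_apply, HahnSeries.coeff_single]
  split_ifs with h
  · subst h
    rw [zpow_zero, Units.val_one, one_mul]
  · rw [mul_zero]

theorem contract_C (ℓ : ℕ) (hℓ : 0 < ℓ) (c : R) :
    Congr.contract ℓ hℓ (HahnSeries.C c : LaurentSeries R) = HahnSeries.C c := by
  ext n
  rw [Congr.coeff_contract, HahnSeries.C_apply, HahnSeries.coeff_single,
    HahnSeries.coeff_single]
  have hℓ' : (ℓ : ℤ) ≠ 0 := by exact_mod_cast hℓ.ne'
  by_cases hn : n = 0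
  · subst hn
    simp
  · rw [if_neg hn, if_neg (mul_ne_zero hℓ' hn)]

theorem expand_C (ℓ : ℕ) (hℓ : 0 < ℓ) (c : R) :
    Congr.expand ℓ hℓ (HahnSeries.C c : LaurentSeries R) = HahnSeries.C c := by
  rw [HahnSeries.C_apply, Congr.expand_single, mul_zero]

/-- The multiplicative Hecke operator on a constant. -/
theorem heckeMul_C (ℓ : ℕ) (hℓ : 0 < ℓ) (z : Rˣ) (c : R) :
    Congr.heckeMul ℓ hℓ z (HahnSeries.C c : LaurentSeries R) = HahnSeries.C (c ^ (ℓ + 1)) := by
  unfold Congr.heckeMul Congr.normL Congr.conjProd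
  rw [expand_C]
  simp only [rescale_C]
  rw [Finset.prod_const, Finset.card_range, ← map_pow, contract_C, ← map_mul, pow_succ']

end Formal

/-! ### The Gauss lemma and roots of unity in the residue field -/

section Gauss

variable (A : ValuationSubring Qb)

theorem incl_C (a : A) :
    Congr.incl A (HahnSeries.C a) = HahnSeries.C ((a : A) : Qb) := by
  unfold Congr.incl
  rw [HahnSeries.C_apply, coeffMap_single, HahnSeries.C_apply]
  rfl

theorem red_C (a : A) :
    Congr.red A (HahnSeries.C a) = HahnSeries.C (IsLocalRing.residue A a) := by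
  unfold Congr.red
  rw [HahnSeries.C_apply, coeffMap_single, HahnSeries.C_apply]

theorem incl_ne_zero_of_red_ne_zero {Y : LaurentSeries A} (h : Congr.red A Y ≠ 0) :
    Congr.incl A Y ≠ 0 := by
  intro h0
  apply h
  have h1 : Y = 0 := Congr.incl_injective A (by rw [h0, map_zero])
  rw [h1, map_zero]

/-- **Gauss lemma.**  Two integral `q`-series with nonzero reductions which are proportional
over `ℚ̄` have proportional reductions. -/
theorem gauss_const {Y₁ Y₂ : LaurentSeries A} {e₁ e₂ : Qb} (he₁ : e₁ ≠ 0)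
    (h : HahnSeries.C e₁ * Congr.incl A Y₁ = HahnSeries.C e₂ * Congr.incl A Y₂)
    (h₁ : Congr.red A Y₁ ≠ 0) (h₂ : Congr.red A Y₂ ≠ 0) :
    ∃ eb : IsLocalRing.ResidueField A, eb ≠ 0 ∧
      Congr.red A Y₁ = HahnSeries.C eb * Congr.red A Y₂ := by
  have hC₁ : (HahnSeries.C e₁ : LaurentSeries Qb) ≠ 0 := HahnSeries.C_ne_zero he₁
  have he₂ : e₂ ≠ 0 := by
    rintro rfl
    rw [map_zero, zero_mul] at h
    exact incl_ne_zero_of_red_ne_zero A h₁ ((mul_eq_zero.1 h).resolve_left hC₁)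
  have he0 : e₂ / e₁ ≠ 0 := div_ne_zero he₂ he₁
  have hY : Congr.incl A Y₁ = HahnSeries.C (e₂ / e₁) * Congr.incl A Y₂ := by
    apply mul_left_cancel₀ hC₁
    rw [h, ← mul_assoc, ← map_mul, mul_div_cancel₀ _ he₁]
  rcases A.mem_or_inv_mem (e₂ / e₁) with hm | hm
  · have h4 : Y₁ = HahnSeries.C (⟨e₂ / e₁, hm⟩ : A) * Y₂ := by
      apply Congr.incl_injective A
      rw [map_mul, incl_C]
      exact hY
    have h5 : Congr.red A Y₁ =
        HahnSeries.C (IsLocalRing.residue A ⟨e₂ / e₁, hm⟩) * Congr.red A Y₂ := by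
      conv_lhs => rw [h4]
      rw [map_mul, red_C]
    refine ⟨IsLocalRing.residue A ⟨e₂ / e₁, hm⟩, ?_, h5⟩
    intro h0
    apply h₁
    rw [h5, h0, map_zero, zero_mul]
  · have h4 : Y₂ = HahnSeries.C (⟨(e₂ / e₁)⁻¹, hm⟩ : A) * Y₁ := by
      apply Congr.incl_injective A
      rw [map_mul, incl_C, hY, ← mul_assoc, ← map_mul]
      have h6 : (((⟨(e₂ / e₁)⁻¹, hm⟩ : A) : Qb)) * (e₂ / e₁) = 1 := inv_mul_cancel₀ he0
      rw [h6, map_one, one_mul]
    have h5 : Congr.red A Y₂ =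
        HahnSeries.C (IsLocalRing.residue A ⟨(e₂ / e₁)⁻¹, hm⟩) * Congr.red A Y₁ := by
      conv_lhs => rw [h4]
      rw [map_mul, red_C]
    have h7 : IsLocalRing.residue A ⟨(e₂ / e₁)⁻¹, hm⟩ ≠ 0 := by
      intro h0
      apply h₂
      rw [h5, h0, map_zero, zero_mul]
    refine ⟨(IsLocalRing.residue A ⟨(e₂ / e₁)⁻¹, hm⟩)⁻¹, inv_ne_zero h7, ?_⟩
    rw [h5, ← mul_assoc, ← map_mul, inv_mul_cancel₀ h7, map_one, one_mul]

/-- A prime `ℓ` different from the residue characteristic is nonzero in the residue field. -/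
theorem natCast_residue_ne_zero {p : ℕ} [Fact p.Prime] (hA : A.LiesOverPrime p) {ℓ : ℕ}
    (hℓ : ℓ.Prime) (hℓp : ℓ ≠ p) : (ℓ : IsLocalRing.ResidueField A) ≠ 0 := by
  have := Congr.charP_residue A hA
  intro h0
  have h1 : p ∣ ℓ := (CharP.cast_eq_zero_iff (IsLocalRing.ResidueField A) p ℓ).1 h0
  exact hℓp ((Nat.prime_dvd_prime_iff_eq (Fact.out : p.Prime) hℓ).1 h1).symm

/-- A primitive `ℓ`-th root of unity of `ℚ̄` stays primitive in the residue field of `A`, for
`ℓ` a prime different from the residue characteristic. -/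
theorem isPrimitiveRoot_residue {p : ℕ} [Fact p.Prime] (hA : A.LiesOverPrime p) {ℓ : ℕ}
    (hℓ : ℓ.Prime) (hℓp : ℓ ≠ p) {ζ : Qb} (hζ : IsPrimitiveRoot ζ ℓ) (h1 : ζ ^ ℓ = 1) :
    IsPrimitiveRoot
      (Units.map ((IsLocalRing.residue A : A →+* IsLocalRing.ResidueField A) :
        A →* IsLocalRing.ResidueField A) (Congr.unitA A hℓ.pos h1)) ℓ := by
  have hℓκ := natCast_residue_ne_zero A hA hℓ hℓp
  set w := Units.map ((IsLocalRing.residue A : A →+* IsLocalRing.ResidueField A) :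
        A →* IsLocalRing.ResidueField A) (Congr.unitA A hℓ.pos h1) with hw
  have hu : (Congr.unitA A hℓ.pos h1) ^ ℓ = 1 := by
    apply Units.ext
    apply Subtype.ext
    show ζ ^ ℓ = 1
    exact h1
  have hwℓ : w ^ ℓ = 1 := by rw [hw, ← map_pow, hu, map_one]
  have hne : w ≠ 1 := by
    intro hw1
    have hsum : ∑ i ∈ Finset.range ℓ, ζ ^ i = 0 := hζ.geom_sum_eq_zero hℓ.one_lt
    have hsumA : ∑ i ∈ Finset.range ℓ, ((Congr.unitA A hℓ.pos h1 : Aˣ) : A) ^ i = 0 := by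
      have h2 : ((∑ i ∈ Finset.range ℓ, ((Congr.unitA A hℓ.pos h1 : Aˣ) : A) ^ i : A) : Qb) =
          ∑ i ∈ Finset.range ℓ, ζ ^ i := by
        rw [← A.subtype_apply, map_sum]
        rfl
      exact Subtype.ext (by rw [h2, hsum]; rfl)
    have hres := congrArg (IsLocalRing.residue A) hsumA
    rw [map_sum, map_zero] at hres
    have hw1' : IsLocalRing.residue A ((Congr.unitA A hℓ.pos h1 : Aˣ) : A) = 1 := by
      have h3 := congrArg Units.val hw1
      rw [hw, Units.coe_map, Units.val_one] at h3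
      exact h3
    simp only [map_pow, hw1', one_pow, Finset.sum_const, Finset.card_range, nsmul_eq_mul,
      mul_one] at hres
    exact hℓκ hres
  have hord : orderOf w = ℓ := by
    have hd := orderOf_dvd_of_pow_eq_one hwℓ
    rcases (Nat.dvd_prime hℓ).1 hd with h | h
    · exact absurd (orderOf_eq_one_iff.1 h) hne
    · exact h
  rw [← hord]
  exact IsPrimitiveRoot.orderOf w

end Gauss

/-! ### The reduced Hecke identity -/

section Main

/-- Coercion of an integer power from the function field to `ℚ̄((q))`. -/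
theorem coe_zpow_FN (N : ℕ) (x : FN N) (a : ℤ) :
    ((x ^ a : FN N) : LaurentSeries Qb) = (x : LaurentSeries Qb) ^ a :=
  map_zpow₀ (modularFunctionFieldBar N).val x a

/-- **The reduced Hecke identity.**  If `T_ℓ x = c x^a k^p` at function level and
`f = Ū / V̄` is a reduction of `x`, then `T_ℓ f = ē · f^a · h^p` in `κ((q))`, with `ē ≠ 0`,
`h ≠ 0`, and `T_ℓ` formed with a primitive `ℓ`-th root of unity of `κ`. -/
theorem red_heckeMul_eq (p N : ℕ) [NeZero N] [Fact p.Prime] (A : ValuationSubring Qb)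
    (hA : A.LiesOverPrime p) (ℓ : ℕ) (hℓ : ℓ.Prime) (hℓN : ¬ ℓ ∣ N) (hℓp : ℓ ≠ p)
    (x k : FN N) (c : Qb) (a : ℤ) (hx : x ≠ 0)
    (hH : E4.heckeFb N ℓ x = algebraMap Qb (FN N) c * x ^ a * k ^ p)
    (f : LaurentSeries (IsLocalRing.ResidueField A)) (hRed : Top.RedAt N A x f) :
    ∃ (zb : (IsLocalRing.ResidueField A)ˣ) (eb : IsLocalRing.ResidueField A)
      (h : LaurentSeries (IsLocalRing.ResidueField A)),
      IsPrimitiveRoot zb ℓ ∧ eb ≠ 0 ∧ h ≠ 0 ∧ f ≠ 0 ∧
        Congr.heckeMul ℓ hℓ.pos zb f = HahnSeries.C eb * f ^ a * h ^ p := by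
  have hp : p.Prime := Fact.out
  -- the roots of unity
  have hz : IsPrimitiveRoot (E4.zetaU ℓ) ℓ := E4.zetaU_spec hℓ.pos
  have hzQ : IsPrimitiveRoot ((E4.zetaU ℓ : Qbˣ) : Qb) ℓ := IsPrimitiveRoot.coe_units_iff.2 hz
  have hz1 : ((E4.zetaU ℓ : Qbˣ) : Qb) ^ ℓ = 1 := hzQ.pow_eq_one
  have hzb := isPrimitiveRoot_residue A hA hℓ hℓp hzQ hz1
  set zb := Units.map ((IsLocalRing.residue A : A →+* IsLocalRing.ResidueField A) :
        A →* IsLocalRing.ResidueField A) (Congr.unitA A hℓ.pos hz1) with hzbdef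
  -- the reduction data
  obtain ⟨c₁, U, V, hc₁, hU, hV, hxUV, hfV⟩ := hRed
  have hf : f ≠ 0 := by
    rintro rfl
    rw [zero_mul] at hfV
    exact hU hfV.symm
  have hX0 : (x : LaurentSeries Qb) ≠ 0 := fun h => hx (Subtype.ext h)
  have hTX0 : Congr.heckeMul ℓ hℓ.pos (E4.zetaU ℓ) (x : LaurentSeries Qb) ≠ 0 :=
    heckeMul_ne_zero ℓ hℓ.pos (E4.zetaU ℓ) hz hX0
  -- the function-level identity in `ℚ̄((q))`
  have hE0 : Congr.heckeMul ℓ hℓ.pos (E4.zetaU ℓ) (x : LaurentSeries Qb) =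
      HahnSeries.C c * (x : LaurentSeries Qb) ^ a * (k : LaurentSeries Qb) ^ p := by
    rw [← E4.coe_heckeFb N hℓ hℓN x, hH, ← coe_zpow_FN, HahnSeries.C_apply,
      ← algebraMap_laurentSeries_eq_single]
    rfl
  have hk : k ≠ 0 := by
    rintro rfl
    apply hTX0
    rw [hE0]
    show HahnSeries.C c * (x : LaurentSeries Qb) ^ a * (0 : LaurentSeries Qb) ^ p = 0
    rw [zero_pow hp.ne_zero, mul_zero]
  have hc : c ≠ 0 := by
    rintro rfl
    apply hTX0
    rw [hE0, map_zero, zero_mul, zero_mul]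
  -- Gauss normalisation of `k`
  obtain ⟨d, P, Q, hPm, hQm, hd, hP, hQ, hkPQ⟩ := E4.hasGaussNorm N p A hA k hk
  have hKQ : (k : LaurentSeries Qb) * Congr.incl A Q = HahnSeries.C d * Congr.incl A P := by
    have h1 : (k : LaurentSeries Qb) * Congr.incl A Q =
        algebraMap Qb (LaurentSeries Qb) d * Congr.incl A P := congrArg Subtype.val hkPQ
    rw [h1, algebraMap_laurentSeries_eq_single, HahnSeries.C_apply]
  -- the sign of `a`
  have ha : (a.toNat : ℤ) - ((-a).toNat : ℤ) = a := Int.toNat_sub_toNat_neg a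
  set ap : ℕ := a.toNat with hap
  set am : ℕ := (-a).toNat with ham
  -- integral Hecke transforms
  set TU : LaurentSeries A := Congr.heckeMul ℓ hℓ.pos (Congr.unitA A hℓ.pos hz1) U with hTU
  set TV : LaurentSeries A := Congr.heckeMul ℓ hℓ.pos (Congr.unitA A hℓ.pos hz1) V with hTV
  have hiTU : Congr.incl A TU = Congr.heckeMul ℓ hℓ.pos (E4.zetaU ℓ) (Congr.incl A U) :=
    Congr.incl_heckeMul A hℓ.pos (E4.zetaU ℓ) hz1 U
  have hiTV : Congr.incl A TV = Congr.heckeMul ℓ hℓ.pos (E4.zetaU ℓ) (Congr.incl A V) :=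
    Congr.incl_heckeMul A hℓ.pos (E4.zetaU ℓ) hz1 V
  have hT : Congr.heckeMul ℓ hℓ.pos (E4.zetaU ℓ) (x : LaurentSeries Qb) * Congr.incl A TV =
      HahnSeries.C c₁ ^ (ℓ + 1) * Congr.incl A TU := by
    rw [hiTV, hiTU, ← Congr.heckeMul_mul ℓ hℓ.pos _ hz, hxUV, Congr.heckeMul_mul ℓ hℓ.pos _ hz,
      heckeMul_C, map_pow]
  have hE1 : Congr.heckeMul ℓ hℓ.pos (E4.zetaU ℓ) (x : LaurentSeries Qb)
        * (x : LaurentSeries Qb) ^ am =
      HahnSeries.C c * (x : LaurentSeries Qb) ^ ap * (k : LaurentSeries Qb) ^ p := by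
    have h2 : (x : LaurentSeries Qb) ^ a * (x : LaurentSeries Qb) ^ am
        = (x : LaurentSeries Qb) ^ ap := by
      rw [← zpow_natCast _ am, ← zpow_add₀ hX0, ← zpow_natCast _ ap]
      congr 1
      omega
    rw [hE0, ← h2]
    ring
  have h1' : (x : LaurentSeries Qb) ^ am * Congr.incl A V ^ am =
      HahnSeries.C c₁ ^ am * Congr.incl A U ^ am := by
    rw [← mul_pow, hxUV, mul_pow]
  have h2' : (x : LaurentSeries Qb) ^ ap * Congr.incl A V ^ ap =
      HahnSeries.C c₁ ^ ap * Congr.incl A U ^ ap := by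
    rw [← mul_pow, hxUV, mul_pow]
  have h3' : (k : LaurentSeries Qb) ^ p * Congr.incl A Q ^ p =
      HahnSeries.C d ^ p * Congr.incl A P ^ p := by
    rw [← mul_pow, hKQ, mul_pow]
  have hM : HahnSeries.C (c₁ ^ (ℓ + 1) * c₁ ^ am) *
        Congr.incl A (TU * U ^ am * V ^ ap * Q ^ p) =
      HahnSeries.C (c * c₁ ^ ap * d ^ p) * Congr.incl A (TV * U ^ ap * V ^ am * P ^ p) := by
    simp only [map_mul, map_pow]
    linear_combination
      (-(HahnSeries.C c₁ ^ am * Congr.incl A U ^ am * Congr.incl A V ^ ap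
          * Congr.incl A Q ^ p)) * hT
      - (Congr.heckeMul ℓ hℓ.pos (E4.zetaU ℓ) (x : LaurentSeries Qb) * Congr.incl A TV
          * Congr.incl A V ^ ap * Congr.incl A Q ^ p) * h1'
      + (Congr.incl A TV * Congr.incl A V ^ am * Congr.incl A V ^ ap
          * Congr.incl A Q ^ p) * hE1
      + (HahnSeries.C c * (k : LaurentSeries Qb) ^ p * Congr.incl A TV * Congr.incl A V ^ am
          * Congr.incl A Q ^ p) * h2'
      + (HahnSeries.C c * HahnSeries.C c₁ ^ ap * Congr.incl A U ^ ap * Congr.incl A TV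
          * Congr.incl A V ^ am) * h3'
  -- reductions
  have hrTU : Congr.red A TU = Congr.heckeMul ℓ hℓ.pos zb (Congr.red A U) :=
    Congr.coeffMap_heckeMul _ ℓ hℓ.pos _ U
  have hrTV : Congr.red A TV = Congr.heckeMul ℓ hℓ.pos zb (Congr.red A V) :=
    Congr.coeffMap_heckeMul _ ℓ hℓ.pos _ V
  have hTu0 : Congr.heckeMul ℓ hℓ.pos zb (Congr.red A U) ≠ 0 :=
    heckeMul_ne_zero ℓ hℓ.pos zb hzb hU
  have hTv0 : Congr.heckeMul ℓ hℓ.pos zb (Congr.red A V) ≠ 0 :=
    heckeMul_ne_zero ℓ hℓ.pos zb hzb hV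
  have hY₁ : Congr.red A (TU * U ^ am * V ^ ap * Q ^ p) ≠ 0 := by
    rw [map_mul, map_mul, map_mul, map_pow, map_pow, map_pow, hrTU]
    exact mul_ne_zero (mul_ne_zero (mul_ne_zero hTu0 (pow_ne_zero _ hU)) (pow_ne_zero _ hV))
      (pow_ne_zero _ hQ)
  have hY₂ : Congr.red A (TV * U ^ ap * V ^ am * P ^ p) ≠ 0 := by
    rw [map_mul, map_mul, map_mul, map_pow, map_pow, map_pow, hrTV]
    exact mul_ne_zero (mul_ne_zero (mul_ne_zero hTv0 (pow_ne_zero _ hU)) (pow_ne_zero _ hV))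
      (pow_ne_zero _ hP)
  have he₁ : c₁ ^ (ℓ + 1) * c₁ ^ am ≠ 0 := mul_ne_zero (pow_ne_zero _ hc₁) (pow_ne_zero _ hc₁)
  obtain ⟨eb, heb, hR⟩ := gauss_const A he₁ hM hY₁ hY₂
  rw [map_mul, map_mul, map_mul, map_pow, map_pow, map_pow, hrTU,
    map_mul, map_mul, map_mul, map_pow, map_pow, map_pow, hrTV] at hR
  -- the identity for `f = Ū / V̄`
  have hTf : Congr.heckeMul ℓ hℓ.pos zb f * Congr.heckeMul ℓ hℓ.pos zb (Congr.red A V) =
      Congr.heckeMul ℓ hℓ.pos zb (Congr.red A U) := by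
    rw [← Congr.heckeMul_mul ℓ hℓ.pos zb hzb, hfV]
  have g1 : f ^ am * Congr.red A V ^ am = Congr.red A U ^ am := by rw [← mul_pow, hfV]
  have g2 : f ^ ap * Congr.red A V ^ ap = Congr.red A U ^ ap := by rw [← mul_pow, hfV]
  have hstar : Congr.heckeMul ℓ hℓ.pos zb f * f ^ am * Congr.red A Q ^ p =
      HahnSeries.C eb * f ^ ap * Congr.red A P ^ p := by
    have hne : Congr.heckeMul ℓ hℓ.pos zb (Congr.red A V) * Congr.red A V ^ ap
        * Congr.red A V ^ am ≠ 0 :=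
      mul_ne_zero (mul_ne_zero hTv0 (pow_ne_zero _ hV)) (pow_ne_zero _ hV)
    apply mul_right_cancel₀ hne
    linear_combination
      (f ^ am * Congr.red A V ^ am * Congr.red A V ^ ap * Congr.red A Q ^ p) * hTf
      + (Congr.heckeMul ℓ hℓ.pos zb (Congr.red A U) * Congr.red A V ^ ap
          * Congr.red A Q ^ p) * g1
      + hR
      - (HahnSeries.C eb * Congr.red A P ^ p * Congr.heckeMul ℓ hℓ.pos zb (Congr.red A V)
          * Congr.red A V ^ am) * g2
  have hfa : f ^ a = f ^ ap / f ^ am := by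
    rw [← zpow_natCast f ap, ← zpow_natCast f am, ← zpow_sub₀ hf, ha]
  refine ⟨zb, eb, Congr.red A P / Congr.red A Q, hzb, heb, div_ne_zero hP hQ, hf, ?_⟩
  have hfam : f ^ am ≠ 0 := pow_ne_zero _ hf
  have hQp : Congr.red A Q ^ p ≠ 0 := pow_ne_zero _ hQ
  have h9 : Congr.heckeMul ℓ hℓ.pos zb f =
      HahnSeries.C eb * f ^ ap * Congr.red A P ^ p / (f ^ am * Congr.red A Q ^ p) := by
    rw [eq_div_iff (mul_ne_zero hfam hQp)]
    linear_combination hstar
  rw [h9, hfa, div_pow]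
  field_simp

/-- **(L.HECKE)** -/
theorem heckeStatement : Top.HeckeStatement := by
  intro p N' _ _ hp _ _ A hA ℓ hℓ hℓN x k c a hx hH f g φ hRed hg hφ n
  have : Fact p.Prime := ⟨hp⟩
  have := Congr.charP_residue A hA
  have hℓp : ℓ ≠ p := by
    rintro rfl
    exact hℓN (Dvd.intro_left N' rfl)
  obtain ⟨zb, eb, h, hzb, heb, hh, hf, hT⟩ :=
    red_heckeMul_eq p (N' * p) A hA ℓ hℓ hℓN hℓp x k c a hx hH f hRed
  rw [theta_eq_of_coeff hg] at hφ
  exact hecke_step p ℓ hℓ.pos (natCast_residue_ne_zero A hA hℓ hℓp) zb hzb hf hφ a heb hh hT n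

end Main

end Fermat.Agent.S44.L.Hecke
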