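import Mathlib
import Fermat.Agent.S44.L.RedCore
import Fermat.Agent.S34.Sat
import Fermat.Agent.S34.HauptU.LevelMAux

/-!
# PROGRAM MR (S44), strand L, row (L.RED): the `E`-level instance

`RedCore.exists_levelM_red'` at the coordinate `u' = j` of level `M`, the levels `M ⊂ M ℓ`
(`ℓ > 3` prime, `ℓ ∤ M`), `O = OE A E = A ∩ E` for `A` a valuation subring of `ℚ̄` over `ℓ`:
all the hypotheses of the `TwoPrimesGauss` package are the landed bricks of Program U
(`S34/Sat.lean`, `S34/HauptU/Plug.lean`, `S34/TwoPrimesRank.lean`), the primality of `π` and the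
normality of the special fibre of the level-`M` chart are `HauptU.LevelMAux.exists_levelM_jE`.

* `exists_red_levelM_E` : one number field `E`, from the level-`M` chart facts.
* `exists_red_levelM` : **for all sufficiently large number fields `E`, the Gauss reduction of
  every Gauss-integral element of `LE (M ℓ) E` is a quotient of Gauss reductions of elements of
  `LE M E`** (the residue field of the Gauss valuation of level `M ℓ` at infinity is that of
  level `M`).  No chart type in the statement.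
-/

set_option autoImplicit false
set_option linter.unusedSectionVars false
set_option linter.unusedVariables false
set_option linter.style.haveILetI false
set_option synthInstance.maxHeartbeats 400000

open ModularCurve Polynomial

noncomputable section

namespace Fermat.Agent.S44.L.RedInst

open Fermat.Agent.S18.K1Defs Fermat.Agent.S30 Fermat.Agent.S30.E2Deg
open Fermat.Agent.S34 Fermat.Agent.S34.Sat
open Fermat.Agent.S34.TwoPrimesRank Fermat.Agent.S34.HauptU.Plug Fermat.Agent.S34.TwoPrimesGauss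

local notation "Qb" => AlgebraicClosure ℚ

/-- `α j = j` at level `M ℓ`. -/
theorem alphaHom_jE (M ℓ : ℕ) [NeZero M] [NeZero ℓ] (E : IntermediateField ℚ Qb) :
    alphaHom M ℓ E (jE M E) = jE (M * ℓ) E := Subtype.ext rfl

set_option maxHeartbeats 1600000 in
/-- **(L.RED) at one number field**, from the level-`M` chart facts for `j`. -/
theorem exists_red_levelM_E (M ℓ : ℕ) [NeZero M] [NeZero ℓ] (hℓ : ℓ.Prime) (hℓM : ¬ ℓ ∣ M)
    (A : ValuationSubring Qb) (hA : A.LiesOverPrime ℓ)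
    (E : IntermediateField ℚ Qb) [IsDiscreteValuationRing (OE A E)]
    (π : OE A E) (hπ : Irreducible π)
    (hfacts : letI := Fermat.Agent.S18.K1Main.algebraOL (OE A E) E (LE M E)
      HauptU.LevelMAux.ChartFacts E π (jE M E) (jE M E)⁻¹)
    (x : LE (M * ℓ) E) (hx : (x : LaurentSeries E) ∈ GaussDVR.V (OE A E) E) :
    ∃ (a b : LE M E) (ha : (a : LaurentSeries E) ∈ GaussDVR.V (OE A E) E)
      (hb : (b : LaurentSeries E) ∈ GaussDVR.V (OE A E) E),
      GaussDVR.red (OE A E) E ⟨(b : LaurentSeries E), hb⟩ ≠ 0 ∧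
      GaussDVR.red (OE A E) E ⟨(x : LaurentSeries E), hx⟩ *
          GaussDVR.red (OE A E) E ⟨(b : LaurentSeries E), hb⟩ =
        GaussDVR.red (OE A E) E ⟨(a : LaurentSeries E), ha⟩ := by
  letI := Fermat.Agent.S18.K1Main.algebraOL (OE A E) E (LE M E)
  haveI := Fermat.Agent.S18.K1Main.isScalarTower_OL (OE A E) E (LE M E)
  letI := Fermat.Agent.S18.K1Main.algebraOL (OE A E) E (LE (M * ℓ) E)
  haveI := Fermat.Agent.S18.K1Main.isScalarTower_OL (OE A E) E (LE (M * ℓ) E)
  haveI := charP_residue_OE' A E hℓ hA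
  haveI : FiniteDimensional (IntermediateField.adjoin E {alphaHom M ℓ E (jE M E)})
      (LE (M * ℓ) E) := by
    rw [alphaHom_jE]
    exact E2Deg.finite_LE (M * ℓ) E
  haveI : IsFractionRing (Chart (OE A E) (alphaHom M ℓ E (jE M E))) (LE (M * ℓ) E) :=
    isFractionRing_chart_of_finite (O := OE A E) (E := E) (alphaHom M ℓ E (jE M E))
  obtain ⟨a, b, ha, hb, hb0, hab⟩ := RedCore.exists_levelM_red' π hπ (alphaHom M ℓ E)
    (alphaHom_algebraMap M ℓ E) (sigmaHom (M * ℓ) E) (sigmaHom_algebraMap (M * ℓ) E)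
    (sigmaHom_mem_fracField (M * ℓ) E A) (jE M E) (jqModC (OE A E)) (hσu_j M ℓ E)
    (wHom M ℓ E hℓ hℓM) (wHom_algebraMap M ℓ E hℓ hℓM) ℓ (sigmaHom_wHom_alpha M ℓ E hℓ hℓM)
    (wHom_wHom M ℓ E hℓ hℓM) hfacts.prime_zero (hcop_j _ ℓ) (hord_j _) hℓ.two_le
    (hfrob_j _ ℓ hℓ) (hwu_j M ℓ E hℓ hℓM) (hrank_j M ℓ E hℓ hℓM) hfacts.normal_zero x hx
  have ea : sigmaHom (M * ℓ) E (alphaHom M ℓ E a) = (a : LaurentSeries E) := sigma_alpha M ℓ E a
  have eb : sigmaHom (M * ℓ) E (alphaHom M ℓ E b) = (b : LaurentSeries E) := sigma_alpha M ℓ E b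
  have ha' : (a : LaurentSeries E) ∈ GaussDVR.V (OE A E) E := ea ▸ ha
  have hb' : (b : LaurentSeries E) ∈ GaussDVR.V (OE A E) E := eb ▸ hb
  have eqa : (⟨sigmaHom (M * ℓ) E (alphaHom M ℓ E a), ha⟩ : GaussDVR.V (OE A E) E) =
      ⟨(a : LaurentSeries E), ha'⟩ := Subtype.ext ea
  have eqb : (⟨sigmaHom (M * ℓ) E (alphaHom M ℓ E b), hb⟩ : GaussDVR.V (OE A E) E) =
      ⟨(b : LaurentSeries E), hb'⟩ := Subtype.ext eb
  rw [eqb] at hb0
  rw [eqa, eqb] at hab
  exact ⟨a, b, ha', hb', hb0, hab⟩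

/-- **(L.RED), `E`-level, uniformly in the number field.**  `A` over a prime `ℓ > 3`, `ℓ ∤ M`:
there is a finite set `S₀ ⊆ ℚ̄` such that over every number field `E ⊇ S₀` (with `A ∩ E` a
discrete valuation ring) the Gauss reduction of every Gauss-integral `x ∈ LE (M ℓ) E` is
`red a / red b` with `a, b ∈ LE M E` Gauss-integral, `red b ≠ 0`. -/
theorem exists_red_levelM (M ℓ : ℕ) [NeZero M] [NeZero ℓ] (hℓ : ℓ.Prime) (hℓM : ¬ ℓ ∣ M)
    (h3 : 3 < ℓ) (A : ValuationSubring Qb) (hA : A.LiesOverPrime ℓ) :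
    ∃ S₀ : Finset Qb, ∀ (E : IntermediateField ℚ Qb) [FiniteDimensional ℚ E]
      [IsDiscreteValuationRing (OE A E)], (∀ s ∈ S₀, s ∈ E) →
      ∀ (x : LE (M * ℓ) E) (hx : (x : LaurentSeries E) ∈ GaussDVR.V (OE A E) E),
      ∃ (a b : LE M E) (ha : (a : LaurentSeries E) ∈ GaussDVR.V (OE A E) E)
        (hb : (b : LaurentSeries E) ∈ GaussDVR.V (OE A E) E),
        GaussDVR.red (OE A E) E ⟨(b : LaurentSeries E), hb⟩ ≠ 0 ∧
        GaussDVR.red (OE A E) E ⟨(x : LaurentSeries E), hx⟩ *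
            GaussDVR.red (OE A E) E ⟨(b : LaurentSeries E), hb⟩ =
          GaussDVR.red (OE A E) E ⟨(a : LaurentSeries E), ha⟩ := by
  haveI : Fact ℓ.Prime := ⟨hℓ⟩
  obtain ⟨S₁, hS₁⟩ := HauptU.LevelMAux.exists_levelM_jE A M hℓM h3 hA
  refine ⟨S₁, fun E _ _ hE x hx => ?_⟩
  obtain ⟨π, hπ⟩ := IsDiscreteValuationRing.exists_irreducible (OE A E)
  exact exists_red_levelM_E M ℓ hℓ hℓM A hA E π hπ (hS₁ E hE π hπ) x hx

end Fermat.Agent.S44.L.RedInst
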