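import Mathlib
import Fermat.Agent.S44.L.Top
import Fermat.Agent.S44.L.RedInst
import Fermat.Agent.S44.L.RedTransfer

/-!
# PROGRAM MR (S44), strand L, row (L.RED): `Top.RedStatement`

`p ≥ 5` prime, `p ∤ N'`, `A` a valuation subring of `ℚ̄` over `p`.  Every nonzero function `x`
of level `N' p` has a reduction at the Gauss valuation of `q`-expansions, and this reduction
lies in the reduced function field of level `N'`.

Proof.  `E4.hasGaussNorm` gives `x Q = c P` with `P, Q` `A`-integral series of `Fb (N' p)` with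
nonzero reductions, so `f₀ = red P / red Q` is a reduction of `x`.  Descend `P`, `Q` to integral
series `a`, `b` over `O = A ∩ E` for a large number field `E` (`RedTransfer.exists_descent_int`);
`y = a / b ∈ LE (N' p) E` is Gauss-integral with reduction `ρ a / ρ b`.  By the `E`-level
statement `RedInst.exists_red_levelM` (the residue field of the Gauss valuation of level `N' p`
at infinity is that of level `N'`: `TwoPrimesGauss` (SAT) + (ONTO) of Program U at `ℓ = p`),
`red y = red a' / red b'` with `a', b' ∈ LE N' E` Gauss-integral, whose reductions, pushed to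
`κ_A((q))`, lie in `Contract.redSet N' A` (`RedTransfer.kmap_red_mem_redSet`).
-/

set_option autoImplicit false
set_option linter.unusedSectionVars false
set_option linter.style.haveILetI false
set_option synthInstance.maxHeartbeats 400000

open ModularCurve HahnSeries

noncomputable section

namespace Fermat.Agent.S44.L.Red

open Fermat.Agent.S30 Fermat.Agent.S30.Producer Fermat.Agent.S18.K1Defs Fermat.Agent.S18.K1Top
open Fermat.Agent.S44.Contract Fermat.Agent.S44.L.RedTransfer

local notation "Qb" => AlgebraicClosure ℚ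

set_option maxHeartbeats 1000000 in
/-- **(L.RED), explicit form.**  For `x ≠ 0` in `FN (N' p)` there are `c ≠ 0` and `A`-integral
series `P`, `Q` of `Fb (N' p)` with nonzero reductions such that `x Q = c P` and
`red P / red Q` lies in the reduced function field of level `N'`. -/
theorem exists_red (p N' : ℕ) [NeZero N'] [NeZero p] (hp : p.Prime) (h5 : 5 ≤ p)
    (hpN : ¬ p ∣ N') (A : ValuationSubring Qb) (hA : A.LiesOverPrime p)
    (x : FN (N' * p)) (hx : x ≠ 0) :
    ∃ (c : Qb) (P Q : LaurentSeries A), c ≠ 0 ∧ Congr.incl A P ∈ E4.Fb (N' * p) ∧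
      Congr.incl A Q ∈ E4.Fb (N' * p) ∧ Congr.red A P ≠ 0 ∧ Congr.red A Q ≠ 0 ∧
      (x : LaurentSeries Qb) * Congr.incl A Q = HahnSeries.C c * Congr.incl A P ∧
      Congr.red A P / Congr.red A Q ∈ redField N' A := by
  classical
  haveI : Fact p.Prime := ⟨hp⟩
  obtain ⟨c, P, Q, hP, hQ, hc, hPr, hQr, hfc⟩ := E4.hasGaussNorm (N' * p) p A hA x hx
  have hfc' : (x : LaurentSeries Qb) * Congr.incl A Q = HahnSeries.C c * Congr.incl A P := by
    have h := congrArg (fun y : E4.Fb (N' * p) => (y : LaurentSeries Qb)) hfc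
    rw [Fermat.Agent.S18.Wiring.C_eq_algebraMap]
    exact h
  refine ⟨c, P, Q, hc, hP, hQ, hPr, hQr, hfc', ?_⟩
  -- the `E`-level statement and the number field
  obtain ⟨S₀, hS₀⟩ := RedInst.exists_red_levelM N' p hp hpN (by omega) A hA
  obtain ⟨E₁, hE₁, h₁⟩ := exists_descent_int A (N' * p) P hP
  obtain ⟨E₂, hE₂, h₂⟩ := exists_descent_int A (N' * p) Q hQ
  let E₃ : IntermediateField ℚ Qb := IntermediateField.adjoin ℚ (S₀ : Set Qb)
  have hE₃ : FiniteDimensional ℚ E₃ :=
    IntermediateField.finiteDimensional_adjoin fun x _ =>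
      ((AlgebraicClosure.isAlgebraic ℚ).isAlgebraic x).isIntegral
  let E : IntermediateField ℚ Qb := E₁ ⊔ E₂ ⊔ E₃
  have hE12 : FiniteDimensional ℚ (E₁ ⊔ E₂ : IntermediateField ℚ Qb) :=
    IntermediateField.finiteDimensional_sup E₁ E₂
  have hE : FiniteDimensional ℚ E := IntermediateField.finiteDimensional_sup (E₁ ⊔ E₂) E₃
  have hSE : ∀ s ∈ S₀, s ∈ E := fun s hs =>
    (le_sup_right : E₃ ≤ E) (IntermediateField.subset_adjoin ℚ _ hs)
  have hDVRE : IsDiscreteValuationRing (OE A E) :=
    GaussDescent.isDiscreteValuationRing_OE A E hp hA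
  obtain ⟨a, haL, haP⟩ := h₁ E ((le_sup_left : E₁ ≤ E₁ ⊔ E₂).trans le_sup_left)
  obtain ⟨b, hbL, hbQ⟩ := h₂ E ((le_sup_right : E₂ ≤ E₁ ⊔ E₂).trans le_sup_left)
  have hrb : GaussDVR.rho (OE A E) b ≠ 0 := by
    intro h0
    have h1 := (red_up_eq_zero_iff A E b).mpr h0
    rw [hbQ] at h1
    exact hQr h1
  -- the function `y = a / b` over `E`
  have hyL : GaussDVR.iota (OE A E) E a / GaussDVR.iota (OE A E) E b ∈ LE (N' * p) E :=
    div_mem haL hbL
  have hyV : GaussDVR.iota (OE A E) E a / GaussDVR.iota (OE A E) E b ∈ GaussDVR.V (OE A E) E :=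
    GaussDVR.div_mem (OE A E) E a b hrb
  have hyred := GaussDVR.red_div (OE A E) E a b hrb
  obtain ⟨a', b', ha', hb', hb0, hab⟩ := hS₀ E hSE ⟨_, hyL⟩ hyV
  -- push to `κ_A((q))`
  have h1 := congrArg (kmap A E) hab
  rw [map_mul] at h1
  have h2 : kmap A E (GaussDVR.red (OE A E) E
      ⟨GaussDVR.iota (OE A E) E a / GaussDVR.iota (OE A E) E b, hyV⟩) =
      Congr.red A P / Congr.red A Q := by
    rw [hyred, map_div₀, kmap_rho, kmap_rho, haP, hbQ]
  have ha'' : kmap A E (GaussDVR.red (OE A E) E ⟨(a' : LaurentSeries E), ha'⟩) ∈ redSet N' A :=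
    kmap_red_mem_redSet A E N' p hA (a' : LaurentSeries E) ha' (coeffMap_mem_bar N' E a'.2)
  have hb'' : kmap A E (GaussDVR.red (OE A E) E ⟨(b' : LaurentSeries E), hb'⟩) ∈ redSet N' A :=
    kmap_red_mem_redSet A E N' p hA (b' : LaurentSeries E) hb' (coeffMap_mem_bar N' E b'.2)
  have hb0' : kmap A E (GaussDVR.red (OE A E) E ⟨(b' : LaurentSeries E), hb'⟩) ≠ 0 :=
    fun h => hb0 (kmap_injective A E (by rw [h, map_zero]))
  have h3 : Congr.red A P / Congr.red A Q =
      kmap A E (GaussDVR.red (OE A E) E ⟨(a' : LaurentSeries E), ha'⟩) /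
        kmap A E (GaussDVR.red (OE A E) E ⟨(b' : LaurentSeries E), hb'⟩) := by
    rw [← h2, eq_div_iff hb0']
    exact h1
  rw [h3]
  exact div_mem (Subfield.subset_closure ha'') (Subfield.subset_closure hb'')

/-- **(L.RED)** : `Top.RedStatement`. -/
theorem redStatement : Top.RedStatement := by
  intro p N' _ _ hp h5 hpN A hA x hx
  obtain ⟨c, P, Q, hc, -, -, hPr, hQr, hfc, hf⟩ := exists_red p N' hp h5 hpN A hA x hx
  exact ⟨⟨_, hf⟩, c, P, Q, hc, hPr, hQr, hfc, div_mul_cancel₀ _ hQr⟩

end Fermat.Agent.S44.L.Red
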