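import Mathlib
import Fermat.Agent.S44.L.RedInst
import Fermat.Agent.S44.L.RedTransfer
import Fermat.Agent.S44.L.Red

/-!
# PROGRAM MR (S44), strand L: the chart side of the seam "places ↔ closed points"

`A` a valuation subring of `ℚ̄` over `p`, `K ⊆ ℚ̄` a number field with `O = OE A K = A ∩ K` a
discrete valuation ring, levels `M ⊂ M p`, `u' : LE M K` ANY coordinate with integral
`q`-expansion `U`, `C = Chart O (α u')` the chart ring of level `M p` at the coordinate `α u'`.

The reduction at infinity `redInf : C → κ_O((q))` of `S34/TwoPrimesGauss`, pushed to `κ_A((q))`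
by `RedTransfer.kmap`, takes its values in the reduced function field `Contract.redField M A` of
level `M` as soon as the `E`-level statement (L.RED) holds at `K` (`HRed`, the conclusion of
`RedInst.exists_red_levelM`).  This gives the ring homomorphism

* `rInf : C →+* redField M A`, `coe_rInf`, `ker_rInf` (`ker rInf = ker redInf = p_∞`),

and the three hypotheses `hκr`, `hur`, `hint` of the level-free centre lemma
(`S44/L/Centre.exists_centre`, helper170) for it:

* `rInf_algebraMap` : constants go to constants;
* `rInf_coord`, `hur` : the coordinate goes to the reduction of `U`;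
* `hκr` : every constant of a subfield of constants coming from `κ_O` is in the image;
* `hint` : `rInf c` is integral over `κ₀[ū]`.

`constSub M A K` is the subfield of constants of `redField M A` coming from the residue field
of `O`.
-/

set_option autoImplicit false
set_option linter.unusedSectionVars false
set_option linter.unusedVariables false
set_option linter.style.haveILetI false
set_option synthInstance.maxHeartbeats 400000
set_option maxHeartbeats 1000000

open ModularCurve Polynomial

noncomputable section

namespace Fermat.Agent.S44.L.CentreChart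

open Fermat.Agent.S18.K1Defs Fermat.Agent.S18.K1Main Fermat.Agent.S18.K1Top
open Fermat.Agent.S18.Wiring Fermat.Agent.S30
open Fermat.Agent.S34 Fermat.Agent.S34.TwoPrimesRank Fermat.Agent.S34.HauptU.Plug
open Fermat.Agent.S34.TwoPrimesGauss
open Fermat.Agent.S44.Contract Fermat.Agent.S44.L.RedTransfer

local notation "Qb" => AlgebraicClosure ℚ

variable (M p : ℕ) [NeZero M] [NeZero p] (A : ValuationSubring Qb)
  (K : IntermediateField ℚ Qb) [IsDiscreteValuationRing (OE A K)]

/-- **The `E`-level statement (L.RED) at the number field `K`**: the conclusion of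
`RedInst.exists_red_levelM`, verbatim. -/
def HRed : Prop :=
  ∀ (x : LE (M * p) K) (hx : (x : LaurentSeries K) ∈ GaussDVR.V (OE A K) K),
    ∃ (a b : LE M K) (ha : (a : LaurentSeries K) ∈ GaussDVR.V (OE A K) K)
      (hb : (b : LaurentSeries K) ∈ GaussDVR.V (OE A K) K),
      GaussDVR.red (OE A K) K ⟨(b : LaurentSeries K), hb⟩ ≠ 0 ∧
      GaussDVR.red (OE A K) K ⟨(x : LaurentSeries K), hx⟩ *
          GaussDVR.red (OE A K) K ⟨(b : LaurentSeries K), hb⟩ =
        GaussDVR.red (OE A K) K ⟨(a : LaurentSeries K), ha⟩

/-- Under (L.RED) at `K`, the reduction of a Gauss-integral function of level `M p`, pushed to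
`κ_A((q))`, lies in the reduced function field of level `M`. -/
theorem kmap_red_mem_redField [Fact p.Prime] (hA : A.LiesOverPrime p) (hred : HRed M p A K)
    (x : LE (M * p) K) (hx : (x : LaurentSeries K) ∈ GaussDVR.V (OE A K) K) :
    kmap A K (GaussDVR.red (OE A K) K ⟨(x : LaurentSeries K), hx⟩) ∈ redField M A := by
  obtain ⟨a, b, ha, hb, hb0, hab⟩ := hred x hx
  have hra : kmap A K (GaussDVR.red (OE A K) K ⟨(a : LaurentSeries K), ha⟩) ∈ redField M A :=
    Subfield.subset_closure
      (kmap_red_mem_redSet A K M p hA (a : LaurentSeries K) ha (coeffMap_mem_bar M K a.2))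
  have hrb : kmap A K (GaussDVR.red (OE A K) K ⟨(b : LaurentSeries K), hb⟩) ∈ redField M A :=
    Subfield.subset_closure
      (kmap_red_mem_redSet A K M p hA (b : LaurentSeries K) hb (coeffMap_mem_bar M K b.2))
  have hb0' : kmap A K (GaussDVR.red (OE A K) K ⟨(b : LaurentSeries K), hb⟩) ≠ 0 := fun h0 =>
    hb0 (kmap_injective A K (by rw [h0, map_zero]))
  have h := congrArg (kmap A K) hab
  rw [map_mul] at h
  have h2 : kmap A K (GaussDVR.red (OE A K) K ⟨(x : LaurentSeries K), hx⟩) =
      kmap A K (GaussDVR.red (OE A K) K ⟨(a : LaurentSeries K), ha⟩) /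
        kmap A K (GaussDVR.red (OE A K) K ⟨(b : LaurentSeries K), hb⟩) := by
    rw [eq_div_iff hb0']
    exact h
  rw [h2]
  exact div_mem hra hrb

/-- Constants of `κ_A` lie in the reduced function field. -/
theorem C_mem_redField (c : IsLocalRing.ResidueField A) :
    (HahnSeries.C c : LaurentSeries (IsLocalRing.ResidueField A)) ∈ redField M A := by
  obtain ⟨a, rfl⟩ := IsLocalRing.residue_surjective (R := A) c
  refine Subfield.subset_closure ⟨HahnSeries.C a, 1, ?_, ?_, ?_, ?_⟩
  · rw [incl_C, Fermat.Agent.S18.Wiring.C_eq_algebraMap]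
    exact (E4.Fb M).algebraMap_mem (a : Qb)
  · rw [map_one]; exact one_mem _
  · rw [map_one]; exact one_ne_zero
  · rw [map_one, mul_one, red_C]

/-- The constants of the reduced function field coming from the residue field of `O = A ∩ K`,
as a ring homomorphism. -/
def constHom : IsLocalRing.ResidueField (OE A K) →+* redField M A :=
  ((HahnSeries.C : IsLocalRing.ResidueField A →+* LaurentSeries (IsLocalRing.ResidueField A)).comp
    (resMap A K)).codRestrict (redField M A) (fun x => C_mem_redField M A (resMap A K x))

theorem coe_constHom (x : IsLocalRing.ResidueField (OE A K)) :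
    ((constHom M A K x : redField M A) : LaurentSeries (IsLocalRing.ResidueField A)) =
      HahnSeries.C (resMap A K x) := rfl

/-- **The subfield of constants of `redField M A` coming from the residue field of `A ∩ K`.** -/
def constSub : Subfield (redField M A) := (constHom M A K).fieldRange

theorem mem_constSub_iff (s : redField M A) :
    s ∈ constSub M A K ↔ ∃ x : IsLocalRing.ResidueField (OE A K),
      ((s : redField M A) : LaurentSeries (IsLocalRing.ResidueField A)) =
        HahnSeries.C (resMap A K x) := by
  constructor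
  · rintro ⟨x, rfl⟩
    exact ⟨x, rfl⟩
  · rintro ⟨x, hx⟩
    exact ⟨x, Subtype.ext hx.symm⟩

/-- `constSub` consists of residues of elements of `O`. -/
theorem constSub_le (s : redField M A) (hs : s ∈ constSub M A K) :
    ∃ x : OE A K, ((s : redField M A) : LaurentSeries (IsLocalRing.ResidueField A)) =
      HahnSeries.C (IsLocalRing.residue A (inclOA A K x)) := by
  obtain ⟨x, hx⟩ := (mem_constSub_iff M A K s).mp hs
  obtain ⟨y, rfl⟩ := IsLocalRing.residue_surjective (R := OE A K) x
  exact ⟨y, by rw [hx, resMap_residue]⟩

/-- `constSub` contains the residues of all elements of `O`. -/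
theorem le_constSub (x : OE A K) :
    ∃ s ∈ constSub M A K, ((s : redField M A) : LaurentSeries (IsLocalRing.ResidueField A)) =
      HahnSeries.C (IsLocalRing.residue A (inclOA A K x)) :=
  ⟨constHom M A K (IsLocalRing.residue (OE A K) x), ⟨_, rfl⟩,
    by rw [coe_constHom, resMap_residue]⟩

/-! ### The reduction map of a level-`M p` chart into the reduced function field -/

section Chart

variable [Fact p.Prime] (hA : A.LiesOverPrime p) (hred : HRed M p A K)
  (π : OE A K) (hπ : Irreducible π) (u' : LE M K) (U : LaurentSeries (OE A K))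
  (hσu : sigmaHom (M * p) K (alphaHom M p K u') = GaussDVR.iota (OE A K) K U)

/-- **The reduction at infinity of the level-`M p` chart at `α u'`, as a map into the reduced
function field of level `M`.** -/
def rInf :
    letI := algebraOL (OE A K) K (LE (M * p) K)
    Chart (OE A K) (alphaHom M p K u') →+* redField M A :=
  letI := algebraOL (OE A K) K (LE (M * p) K)
  haveI := isScalarTower_OL (OE A K) K (LE (M * p) K)
  ((kmap A K).comp (redInf π hπ (alphaHom M p K) (sigmaHom (M * p) K)
    (sigmaHom_algebraMap (M * p) K) (sigmaHom_mem_fracField (M * p) K A) u' U hσu)).codRestrict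
    (redField M A) (fun c => kmap_red_mem_redField M p A K hA hred (c : LE (M * p) K) _)

theorem coe_rInf :
    letI := algebraOL (OE A K) K (LE (M * p) K)
    haveI := isScalarTower_OL (OE A K) K (LE (M * p) K)
    ∀ c : Chart (OE A K) (alphaHom M p K u'),
      ((rInf M p A K hA hred π hπ u' U hσu c : redField M A) :
          LaurentSeries (IsLocalRing.ResidueField A)) =
        kmap A K (redInf π hπ (alphaHom M p K) (sigmaHom (M * p) K)
          (sigmaHom_algebraMap (M * p) K) (sigmaHom_mem_fracField (M * p) K A) u' U hσu c) :=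
  fun _ => rfl

/-- `ker rInf = ker redInf = p_∞`. -/
theorem ker_rInf :
    letI := algebraOL (OE A K) K (LE (M * p) K)
    haveI := isScalarTower_OL (OE A K) K (LE (M * p) K)
    RingHom.ker (rInf M p A K hA hred π hπ u' U hσu) =
      RingHom.ker (redInf π hπ (alphaHom M p K) (sigmaHom (M * p) K)
        (sigmaHom_algebraMap (M * p) K) (sigmaHom_mem_fracField (M * p) K A) u' U hσu) := by
  letI := algebraOL (OE A K) K (LE (M * p) K)
  haveI := isScalarTower_OL (OE A K) K (LE (M * p) K)
  ext c
  rw [RingHom.mem_ker, RingHom.mem_ker]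
  constructor
  · intro h
    have h1 := congrArg (fun s : redField M A =>
      (s : LaurentSeries (IsLocalRing.ResidueField A))) h
    exact kmap_injective A K (by rw [map_zero]; exact h1)
  · intro h
    apply Subtype.ext
    show kmap A K _ = 0
    rw [h, map_zero]

/-- The value of `rInf` at an element with integral `q`-expansion. -/
theorem rInf_of_int :
    letI := algebraOL (OE A K) K (LE (M * p) K)
    haveI := isScalarTower_OL (OE A K) K (LE (M * p) K)
    ∀ (c : Chart (OE A K) (alphaHom M p K u')) (a : LaurentSeries (OE A K)),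
      sigmaHom (M * p) K (c : LE (M * p) K) = GaussDVR.iota (OE A K) K a →
      ((rInf M p A K hA hred π hπ u' U hσu c : redField M A) :
          LaurentSeries (IsLocalRing.ResidueField A)) = Congr.red A (up A K a) := by
  letI := algebraOL (OE A K) K (LE (M * p) K)
  haveI := isScalarTower_OL (OE A K) K (LE (M * p) K)
  intro c a hc
  show kmap A K (redHom (sigmaHom (M * p) K) (sigmaHom_algebraMap (M * p) K) π hπ
    (sigmaHom_mem_fracField (M * p) K A) (alphaHom M p K u') U hσu c) = _
  rw [redHom_of_int (sigmaHom (M * p) K) (sigmaHom_algebraMap (M * p) K) π hπ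
    (sigmaHom_mem_fracField (M * p) K A) (alphaHom M p K u') U hσu c a hc]
  exact kmap_rho A K a

/-- Constants go to constants. -/
theorem rInf_const :
    letI := algebraOL (OE A K) K (LE (M * p) K)
    haveI := isScalarTower_OL (OE A K) K (LE (M * p) K)
    ∀ (c : Chart (OE A K) (alphaHom M p K u')) (x : OE A K),
      (c : LE (M * p) K) = algebraMap (OE A K) (LE (M * p) K) x →
      ((rInf M p A K hA hred π hπ u' U hσu c : redField M A) :
          LaurentSeries (IsLocalRing.ResidueField A)) =
        HahnSeries.C (IsLocalRing.residue A (inclOA A K x)) := by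
  letI := algebraOL (OE A K) K (LE (M * p) K)
  haveI := isScalarTower_OL (OE A K) K (LE (M * p) K)
  intro c x hc
  rw [rInf_of_int M p A K hA hred π hπ u' U hσu c (HahnSeries.C x)
    (by rw [hc, GaussDVR.iota_C]; exact sigmaHom_algebraMap (M * p) K x)]
  show Congr.red A (coeffMap (inclOA A K) (HahnSeries.C x)) = _
  rw [Fermat.Agent.S18.Wiring.coeffMap_C, red_C]

/-- The coordinate goes to the reduction of its `q`-expansion. -/
theorem rInf_coord :
    letI := algebraOL (OE A K) K (LE (M * p) K)
    haveI := isScalarTower_OL (OE A K) K (LE (M * p) K)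
    ∀ c : Chart (OE A K) (alphaHom M p K u'), (c : LE (M * p) K) = alphaHom M p K u' →
      ((rInf M p A K hA hred π hπ u' U hσu c : redField M A) :
          LaurentSeries (IsLocalRing.ResidueField A)) = Congr.red A (up A K U) := by
  letI := algebraOL (OE A K) K (LE (M * p) K)
  haveI := isScalarTower_OL (OE A K) K (LE (M * p) K)
  intro c hc
  exact rInf_of_int M p A K hA hred π hπ u' U hσu c U (by rw [hc, hσu])

/-- The coordinate element of the chart. -/
theorem exists_coord :
    letI := algebraOL (OE A K) K (LE (M * p) K)
    ∃ c : Chart (OE A K) (alphaHom M p K u'), (c : LE (M * p) K) = alphaHom M p K u' := by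
  letI := algebraOL (OE A K) K (LE (M * p) K)
  exact ⟨polyChart (O := OE A K) (alphaHom M p K u') X, by rw [coe_polyChart, aeval_X]⟩

/-- The constants of the chart. -/
theorem exists_const :
    letI := algebraOL (OE A K) K (LE (M * p) K)
    ∀ x : OE A K, ∃ c : Chart (OE A K) (alphaHom M p K u'),
      (c : LE (M * p) K) = algebraMap (OE A K) (LE (M * p) K) x := by
  letI := algebraOL (OE A K) K (LE (M * p) K)
  intro x
  exact ⟨polyChart (O := OE A K) (alphaHom M p K u') (C x), by rw [coe_polyChart, aeval_C]⟩

/-- **`hur`**: the reduction of the coordinate is in the image. -/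
theorem hur (ub : redField M A)
    (hub : ((ub : redField M A) : LaurentSeries (IsLocalRing.ResidueField A)) =
      Congr.red A (up A K U)) :
    letI := algebraOL (OE A K) K (LE (M * p) K)
    ∃ c : Chart (OE A K) (alphaHom M p K u'), rInf M p A K hA hred π hπ u' U hσu c = ub := by
  letI := algebraOL (OE A K) K (LE (M * p) K)
  haveI := isScalarTower_OL (OE A K) K (LE (M * p) K)
  obtain ⟨c, hc⟩ := exists_coord M p A K u'
  exact ⟨c, Subtype.ext ((rInf_coord M p A K hA hred π hπ u' U hσu c hc).trans hub.symm)⟩

/-- **`hκr`**: constants coming from `O` are in the image. -/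
theorem hκr (κ₀ : Subfield (redField M A))
    (h : ∀ s ∈ κ₀, ∃ x : OE A K,
      ((s : redField M A) : LaurentSeries (IsLocalRing.ResidueField A)) =
        HahnSeries.C (IsLocalRing.residue A (inclOA A K x))) :
    letI := algebraOL (OE A K) K (LE (M * p) K)
    ∀ s ∈ κ₀, ∃ c : Chart (OE A K) (alphaHom M p K u'),
      rInf M p A K hA hred π hπ u' U hσu c = s := by
  letI := algebraOL (OE A K) K (LE (M * p) K)
  haveI := isScalarTower_OL (OE A K) K (LE (M * p) K)
  intro s hs
  obtain ⟨x, hx⟩ := h s hs
  obtain ⟨c, hc⟩ := exists_const M p A K u' x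
  exact ⟨c, Subtype.ext ((rInf_const M p A K hA hred π hπ u' U hσu c x hc).trans hx.symm)⟩

/-- The composite `O[X] → C → redField M A`. -/
def polyRed : (OE A K)[X] →+* redField M A :=
  letI := algebraOL (OE A K) K (LE (M * p) K)
  (rInf M p A K hA hred π hπ u' U hσu).comp (polyChart (O := OE A K) (alphaHom M p K u'))

theorem polyRed_apply :
    letI := algebraOL (OE A K) K (LE (M * p) K)
    ∀ q : (OE A K)[X], polyRed M p A K hA hred π hπ u' U hσu q =
      rInf M p A K hA hred π hπ u' U hσu (polyChart (O := OE A K) (alphaHom M p K u') q) :=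
  fun _ => rfl

theorem polyRed_X (ub : redField M A)
    (hub : ((ub : redField M A) : LaurentSeries (IsLocalRing.ResidueField A)) =
      Congr.red A (up A K U)) :
    polyRed M p A K hA hred π hπ u' U hσu X = ub := by
  letI := algebraOL (OE A K) K (LE (M * p) K)
  haveI := isScalarTower_OL (OE A K) K (LE (M * p) K)
  exact Subtype.ext ((rInf_coord M p A K hA hred π hπ u' U hσu _
    (by rw [coe_polyChart, aeval_X])).trans hub.symm)

theorem coe_polyRed_C (x : OE A K) :
    ((polyRed M p A K hA hred π hπ u' U hσu (C x) : redField M A) :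
        LaurentSeries (IsLocalRing.ResidueField A)) =
      HahnSeries.C (IsLocalRing.residue A (inclOA A K x)) := by
  letI := algebraOL (OE A K) K (LE (M * p) K)
  haveI := isScalarTower_OL (OE A K) K (LE (M * p) K)
  exact rInf_const M p A K hA hred π hπ u' U hσu _ x (by rw [coe_polyChart, aeval_C])

theorem polyRed_mem (κ₀ : Subfield (redField M A))
    (h : ∀ x : OE A K, ∃ s ∈ κ₀,
      ((s : redField M A) : LaurentSeries (IsLocalRing.ResidueField A)) =
        HahnSeries.C (IsLocalRing.residue A (inclOA A K x)))
    (ub : redField M A)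
    (hub : ((ub : redField M A) : LaurentSeries (IsLocalRing.ResidueField A)) =
      Congr.red A (up A K U)) (q : (OE A K)[X]) :
    polyRed M p A K hA hred π hπ u' U hσu q ∈
      Algebra.adjoin κ₀ ({ub} : Set (redField M A)) := by
  have hC : ∀ x : OE A K, polyRed M p A K hA hred π hπ u' U hσu (C x) ∈
      Algebra.adjoin κ₀ ({ub} : Set (redField M A)) := by
    intro x
    obtain ⟨s, hs, hsx⟩ := h x
    have h1 : polyRed M p A K hA hred π hπ u' U hσu (C x) = s :=
      Subtype.ext ((coe_polyRed_C M p A K hA hred π hπ u' U hσu x).trans hsx.symm)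
    rw [h1]
    exact Subalgebra.algebraMap_mem (Algebra.adjoin κ₀ ({ub} : Set (redField M A)))
      (⟨s, hs⟩ : κ₀)
  induction q using Polynomial.induction_on with
  | C a => exact hC a
  | add f g hf hg =>
    rw [RingHom.map_add]
    exact add_mem hf hg
  | monomial n a _ =>
    rw [RingHom.map_mul, RingHom.map_pow, polyRed_X M p A K hA hred π hπ u' U hσu ub hub]
    exact mul_mem (hC a) (pow_mem (Algebra.subset_adjoin (Set.mem_singleton ub)) _)

/-- **`hint`**: the image of the chart is integral over `κ₀[ū]`. -/
theorem hint (κ₀ : Subfield (redField M A))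
    (h : ∀ x : OE A K, ∃ s ∈ κ₀,
      ((s : redField M A) : LaurentSeries (IsLocalRing.ResidueField A)) =
        HahnSeries.C (IsLocalRing.residue A (inclOA A K x)))
    (ub : redField M A)
    (hub : ((ub : redField M A) : LaurentSeries (IsLocalRing.ResidueField A)) =
      Congr.red A (up A K U)) :
    letI := algebraOL (OE A K) K (LE (M * p) K)
    ∀ c : Chart (OE A K) (alphaHom M p K u'),
      IsIntegral ↥(Algebra.adjoin κ₀ ({ub} : Set (redField M A)))
        (rInf M p A K hA hred π hπ u' U hσu c) := by
  letI := algebraOL (OE A K) K (LE (M * p) K)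
  haveI := isScalarTower_OL (OE A K) K (LE (M * p) K)
  intro c
  obtain ⟨q, hq, hqc⟩ := polyChart_isIntegralElem (O := OE A K) (alphaHom M p K u') c
  have h0 : q.eval₂ (polyRed M p A K hA hred π hπ u' U hσu)
      (rInf M p A K hA hred π hπ u' U hσu c) = 0 := by
    have h1 := congrArg (rInf M p A K hA hred π hπ u' U hσu) hqc
    rw [hom_eval₂, map_zero] at h1
    exact h1
  refine ⟨q.map ((polyRed M p A K hA hred π hπ u' U hσu).codRestrict
      (Algebra.adjoin κ₀ ({ub} : Set (redField M A)))
      (polyRed_mem M p A K hA hred π hπ u' U hσu κ₀ h ub hub)),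
    hq.map _, ?_⟩
  rw [eval₂_map]
  exact h0

end Chart

end Fermat.Agent.S44.L.CentreChart
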