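import Mathlib
import Fermat.Agent.S44.L.Top
import Fermat.Agent.S44.L.KummerSplit

/-!
# The split / Eisenstein dichotomy on an `EShapeData` (strand L of S44)

Wrapper of `S44/L/KummerSplit.lean` in the vocabulary of `S44/L/Top.lean`.  For an
`EShapeData P A T R ζ b` (so `u = b ^ p` is a unit of `A`, and on the inertia group `I` of `A`:
`σ b = ζ ^ j b`, `σ R = R + j T`):

* SPLIT: `b = ζ ^ i b₀` with `b₀` fixed by `I`; then `R - i T` is fixed by `I` and
  `(T, R - i T, ζ, b₀)` is again an `EShapeData` (with `j = 0` for every `σ ∈ I`);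
* EISENSTEIN: there is a unit `c` of `A` fixed by `I` with `(b / c) ^ p = 1 + p w`, `w` a unit of
  `A` fixed by `I`; then `π = b / c - 1` has `|π| ^ p = |p|`.
-/

set_option autoImplicit false

open WeierstrassCurve WeierstrassCurve.Affine WeierstrassCurve.Affine.Point

namespace Fermat.Agent.S44.L.EisDich

open Fermat.Agent.S30 Fermat.Agent.S30.Producer Fermat.Agent.S44.Contract
open Fermat.Agent.S44.L.Top Fermat.Agent.S44.L

local notation "GQb" => (AlgebraicClosure ℚ ≃ₐ[ℚ] AlgebraicClosure ℚ)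

/-- A shifted point of an `EShapeData` is still outside `⟨T⟩`. -/
theorem sub_nsmul_ne {G : Type*} [AddCommGroup G] {T R : G} (h : ∀ k : ℕ, R ≠ k • T) (i : ℕ) :
    ∀ k : ℕ, R - i • T ≠ k • T := by
  intro k hk
  apply h (k + i)
  rw [add_smul, ← hk]
  abel

/-- **The dichotomy.** -/
theorem eisDich (P : FreyPackage) (A : ValuationSubring Qb) (hA : A.LiesOverPrime P.p)
    (T R : (P.freyCurve⁄Qb).Point) (ζ b : Qb) (h : EShapeData P A T R ζ b) :
    (∃ (i : ℕ) (b₀ : Qb), b = ζ ^ i * b₀ ∧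
        (∀ σ : GQb, σ ∈ A.inertiaSubgroupIn ℚ → σ b₀ = b₀) ∧
        (∀ σ : GQb, σ ∈ A.inertiaSubgroupIn ℚ → σ • (R - i • T) = R - i • T) ∧
        EShapeData P A T (R - i • T) ζ b₀) ∨
    (∃ c w : Qb, (∀ σ : GQb, σ ∈ A.inertiaSubgroupIn ℚ → σ c = c) ∧ A.valuation c = 1 ∧
        (∀ σ : GQb, σ ∈ A.inertiaSubgroupIn ℚ → σ w = w) ∧ A.valuation w = 1 ∧
        (b / c) ^ P.p = 1 + (P.p : Qb) * w ∧
        A.valuation (b / c - 1) ^ P.p = A.valuation (P.p : Qb)) := by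
  obtain ⟨hT, hR, hT0, hRT, hζ, hb0, hbA, hbA', hI⟩ := h
  have hp : P.p.Prime := P.pp
  have hp2 : P.p ≠ 2 := by have := P.hp5; omega
  have hppos : 0 < P.p := hp.pos
  have hvp : A.valuation (P.p : Qb) < 1 := A.mem_nonunits_iff.mp hA
  have hp0 : (P.p : Qb) ≠ 0 := by exact_mod_cast hp.ne_zero
  have hvp0 : A.valuation (P.p : Qb) ≠ 0 := by rwa [Ne, map_eq_zero]
  -- `u = b ^ p` is a unit fixed by inertia
  have hu : A.valuation (b ^ P.p) = 1 := by
    have h1 : A.valuation (b ^ P.p) ≤ 1 := (A.valuation_le_one_iff _).mpr hbA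
    have h2 : A.valuation (b ^ P.p)⁻¹ ≤ 1 := (A.valuation_le_one_iff _).mpr hbA'
    rw [map_inv₀] at h2
    have h3 : A.valuation (b ^ P.p) ≠ 0 := by
      rw [Ne, map_eq_zero]; exact pow_ne_zero _ hb0
    have h4 : 1 ≤ A.valuation (b ^ P.p) := by
      by_contra hlt
      rw [not_le] at hlt
      have : 1 < (A.valuation (b ^ P.p))⁻¹ := (one_lt_inv₀ (zero_lt_iff.mpr h3)).mpr hlt
      exact absurd h2 (not_le.mpr this)
    exact le_antisymm h1 h4
  have hvb : A.valuation b = 1 := by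
    rw [map_pow] at hu
    rcases lt_trichotomy (A.valuation b) 1 with hlt | heq | hgt
    · exact absurd hu (pow_lt_one₀ zero_le hlt hp.ne_zero).ne
    · exact heq
    · exact absurd hu (one_lt_pow₀ hgt hp.ne_zero).ne'
  have hbI : ∀ τ ∈ A.inertiaSubgroupIn ℚ, ∃ j : ℕ, τ b = ζ ^ j * b := by
    intro τ hτ
    obtain ⟨k, j, -, -, hj, -⟩ := hI τ hτ
    exact ⟨j, hj⟩
  have hufix : ∀ τ ∈ A.inertiaSubgroupIn ℚ, τ (b ^ P.p) = b ^ P.p := by
    intro τ hτ
    obtain ⟨j, hj⟩ := hbI τ hτ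
    rw [map_pow, hj, mul_pow, ← pow_mul, mul_comm j, pow_mul, hζ.pow_eq_one, one_pow, one_mul]
  obtain ⟨c, hcfix, hc, hle⟩ := KummerSplit.exists_root_approx A hp hA (b ^ P.p) hu hufix
  have hc0 : c ≠ 0 := by
    intro h0; rw [h0, _root_.map_zero] at hc; exact zero_ne_one hc
  rcases lt_or_eq_of_le hle with hlt | heq
  · -- the split case
    left
    obtain ⟨i, b₀, hb₀fix, hb⟩ :=
      KummerSplit.exists_fixed_of_val_lt A hp hA hp2 hζ b c hc hcfix hbI hlt
    have hb₀0 : b₀ ≠ 0 := by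
      rintro rfl; rw [mul_zero] at hb; exact hb0 hb
    have hb₀p : b₀ ^ P.p = b ^ P.p := by
      rw [hb, mul_pow, ← pow_mul, mul_comm i, pow_mul, hζ.pow_eq_one, one_pow, one_mul]
    have hfixR : ∀ σ : GQb, σ ∈ A.inertiaSubgroupIn ℚ → σ • (R - i • T) = R - i • T := by
      intro σ hσ
      obtain ⟨k, j, hk, hkT, hj, hjR⟩ := hI σ hσ
      exact KummerSplit.smul_sub_eq_of_split hppos hζ hT hb₀0 hb σ (hb₀fix σ hσ)
        (by rw [hb, map_mul, map_pow]) hk hkT hj hjR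
    refine ⟨i, b₀, hb, hb₀fix, hfixR, hT, ?_, hT0, sub_nsmul_ne hRT i, hζ, hb₀0, ?_, ?_, ?_⟩
    · rw [nsmul_sub, hR, smul_comm, hT, nsmul_zero, sub_zero]
    · rw [hb₀p]; exact hbA
    · rw [hb₀p]; exact hbA'
    · intro σ hσ
      obtain ⟨k, j, hk, hkT, -, -⟩ := hI σ hσ
      refine ⟨k, 0, hk, hkT, ?_, ?_⟩
      · rw [pow_zero, one_mul]; exact hb₀fix σ hσ
      · rw [zero_nsmul, add_zero]; exact hfixR σ hσ
  · -- the Eisenstein case
    right
    have hcp0 : c ^ P.p ≠ 0 := pow_ne_zero _ hc0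
    refine ⟨c, (b ^ P.p - c ^ P.p) / ((P.p : Qb) * c ^ P.p), hcfix, hc, ?_, ?_, ?_, ?_⟩
    · intro σ hσ
      rw [map_div₀, map_sub, map_mul, map_pow, map_pow, hcfix σ hσ, map_natCast,
        ← map_pow, hufix σ hσ]
    · rw [map_div₀, heq, map_mul, map_pow, hc, one_pow, mul_one, div_self hvp0]
    · rw [div_pow]
      field_simp
      ring
    · exact KummerSplit.valuation_sub_one_pow_eq A hp hvp b c hvb hc heq

end Fermat.Agent.S44.L.EisDich
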