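import Mathlib
import Fermat.Agent.S44.L.TopLemmas
import Fermat.Agent.S44.L.KummerSplit
import Fermat.Agent.S44.L.EisDich
import Fermat.Agent.Lib.InertiaCycloP

/-!
# Brick (A3) of the cover-free route for L.SLOPE (strand L of S44): reductions under inertia and
the strong form of the Eisenstein case

`P` a Frey package, `p = P.p`, `A` a valuation subring of `ℚ̄` over `p`, `I` its inertia group,
`(T, R, ζ, b)` an `EShapeData` datum: `σ ζ = ζ ^ k`, `σ T = k T`, `σ b = ζ ^ j b`,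
`σ R = R + j T` on `I`, and `b ^ p` a unit of `A`.

* `redAt_galF_of_inertia` : the reduction at the Gauss valuation (`Top.RedAt`) is invariant under
  the coefficientwise action of the inertia group.
* `exists_galF_T_eq`, `red_T_pth` : some `σ ∈ I` has `σ(ι T) = c (ι T)² y ^ p`; hence every
  reduction of `ι T` is a constant times a `p`-th power.
* `iota_add_nsmul`, `red_add_nsmul`, `red_R_split` : `ι (Q + i T) = c · ι Q · (ι T) ^ i · k ^ p`;
  hence the reductions of `ι (Q + i T)` and `ι Q` (of `ι R` and `ι (R - i T)`: the SPLIT case of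
  the dichotomy) differ by a constant and a `p`-th power.
* `theta`, `X_add_one_pow_eq`, `add_one_pow_eq` : the integer polynomial `Θ_p` with
  `(X + 1) ^ p = X ^ p + 1 + p X Θ_p`, `Θ_p(0) = 1`, `deg Θ_p < p - 1`.
* `eisDich` : the dichotomy `EisDich.eisDich` (helper179) with two more clauses in the
  EISENSTEIN case: for `π = b / c - 1`, `(1 + π) ^ p = 1 + p w`, the Eisenstein equation
  `π ^ p = p (w - π Θ_p(π))` (so `p = η π ^ p` with `η = (w - π Θ_p(π))⁻¹ = w⁻¹ (1 + w⁻¹ π + ⋯)`: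
  the first-order constant is `e₁ = 1 / w̄ ≠ 0`), and the stabiliser of `b` in `I` fixes `R`.

The valuation-theoretic inputs are `S44/L/KummerSplit.lean` and `S44/L/EisDich.lean` (helper179).
-/

set_option autoImplicit false

open WeierstrassCurve WeierstrassCurve.Affine WeierstrassCurve.Affine.Point
open HahnSeries ModularCurve AlgebraicCurve

namespace Fermat.Agent.S44.L.EisDichRed

open Fermat.Agent.S30 Fermat.Agent.S30.Producer Fermat.Agent.S44.Contract
open Fermat.Agent.S44.L.Top Fermat.Agent.S44.L.TopLemmas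

local notation "GQb" => (AlgebraicClosure ℚ ≃ₐ[ℚ] AlgebraicClosure ℚ)

/-! ### `RedAt` is invariant under coefficientwise inertia -/

/-- **The reduction at the Gauss valuation is invariant under the coefficientwise action of the
inertia group.** -/
theorem redAt_galF_of_inertia {N : ℕ} {A : ValuationSubring Qb} {σ : GQb}
    (hσ : σ ∈ A.inertiaSubgroupIn ℚ) {x : FN N}
    {f : LaurentSeries (IsLocalRing.ResidueField A)} (h : RedAt N A x f) :
    RedAt N A (galF N σ x) f := by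
  obtain ⟨c, U, V, hc, hU, hV, hx, hf⟩ := h
  obtain ⟨hdec, hred⟩ := Congr.exists_red_actA_inertia A hσ
  refine ⟨σ c, Congr.actA A ⟨σ, hdec⟩ U, Congr.actA A ⟨σ, hdec⟩ V, ?_, ?_, ?_, ?_, ?_⟩
  · intro h0
    apply hc
    have h1 : σ c = σ 0 := by rw [h0, _root_.map_zero]
    exact σ.injective h1
  · rw [hred]; exact hU
  · rw [hred]; exact hV
  · rw [coe_galF, Congr.incl_actA, Congr.incl_actA]
    have h1 := congrArg (coeffMap ((σ : Qb ≃ₐ[ℚ] Qb) : Qb →+* Qb)) hx
    rw [map_mul, map_mul] at h1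
    have h2 : coeffMap ((σ : Qb ≃ₐ[ℚ] Qb) : Qb →+* Qb) (HahnSeries.C c : LaurentSeries Qb)
        = HahnSeries.C (σ c) :=
      coeffMap_single _ 0 c
    rw [h2] at h1
    exact h1
  · rw [hred, hred]; exact hf

/-! ### Function-level identities from `IsNewEmb` -/

section Emb

variable {P : FreyPackage} {N' : ℕ} [NeZero N'] [NeZero P.p] {W : WeierstrassCurve ℤ}
  {ι : (P.freyCurve⁄Qb).Point → FN (N' * P.p)}

/-- `ι (Q + i T) = c · ι Q · (ι T) ^ i · k ^ p` with `c ≠ 0`, `k ≠ 0`. -/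
theorem iota_add_nsmul (hι : IsNewEmb P N' W ι) {Q T : (P.freyCurve⁄Qb).Point}
    (hQ : P.p • Q = 0) (hT : P.p • T = 0) (i : ℕ) :
    ∃ (c : Qb) (k : FN (N' * P.p)), c ≠ 0 ∧ k ≠ 0 ∧
      ι (Q + i • T) = algebraMap Qb (FN (N' * P.p)) c * ι Q * ι T ^ i * k ^ P.p := by
  induction i with
  | zero =>
    refine ⟨1, 1, one_ne_zero, one_ne_zero, ?_⟩
    rw [zero_nsmul, add_zero, map_one, one_mul, pow_zero, mul_one, one_pow, mul_one]
  | succ i ih =>
    obtain ⟨c, k, hc, hk, h⟩ := ih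
    have hQi : P.p • (Q + i • T) = 0 := by
      rw [nsmul_add, hQ, zero_add, smul_comm, hT, nsmul_zero]
    obtain ⟨c', k', h'⟩ := hι.add (Q + i • T) T hQi hT
    have hne : ι (Q + i • T + T) ≠ 0 := by
      apply hι.ne_zero
      rw [nsmul_add, hQi, hT, add_zero]
    have hc' : c' ≠ 0 := by
      rintro rfl
      apply hne
      rw [h', _root_.map_zero, zero_mul, zero_mul, zero_mul]
    have hk' : k' ≠ 0 := by
      rintro rfl
      apply hne
      rw [h', zero_pow P.pp.ne_zero, mul_zero]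
    refine ⟨c' * c, k * k', mul_ne_zero hc' hc, mul_ne_zero hk hk', ?_⟩
    rw [succ_nsmul, ← add_assoc, h', h, map_mul]
    ring

/-- Some element of the inertia group acts on `ι T` by `σ(ι T) = c (ι T)² y ^ p`. -/
theorem exists_galF_T_eq (hι : IsNewEmb P N' W ι) {A : ValuationSubring Qb}
    (hA : A.LiesOverPrime P.p) {T R : (P.freyCurve⁄Qb).Point} {ζ b : Qb}
    (hE : EShapeData P A T R ζ b) :
    ∃ σ ∈ A.inertiaSubgroupIn ℚ, ∃ (c : Qb) (y : FN (N' * P.p)), c ≠ 0 ∧ y ≠ 0 ∧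
      galF (N' * P.p) σ (ι T) = algebraMap Qb (FN (N' * P.p)) c * ι T ^ 2 * y ^ P.p := by
  obtain ⟨hpT, -, -, -, hζ, -, -, -, hI⟩ := hE
  have h5 := P.hp5
  have hk2 : ¬ P.p ∣ 2 := fun h => by
    have := Nat.le_of_dvd (by norm_num) h
    omega
  obtain ⟨σ, hσ, hσζ⟩ :=
    Fermat.Agent.Lib.InertiaCycloP.exists_mem_inertia_pow P.pp A hA hζ hk2
  obtain ⟨k, j, hk, hkT, -, -⟩ := hI σ hσ
  have hT2 : σ • T = T + T := by
    rw [hkT, KummerSplit.nsmul_eq_of_pow_eq P.pp.pos hζ hpT (a := k) (b := 2)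
      (by rw [← hk, hσζ]), two_nsmul]
  have hTT : P.p • (T + T) = 0 := by rw [nsmul_add, hpT, add_zero]
  obtain ⟨c₁, k₁, h₁⟩ := hι.gal σ T hpT
  obtain ⟨c₂, k₂, h₂⟩ := hι.add T T hpT hpT
  rw [hT2] at h₁
  have hne : ι (T + T) ≠ 0 := hι.ne_zero _ hTT
  have hc₁ : c₁ ≠ 0 := by
    rintro rfl
    apply hne
    rw [h₁, _root_.map_zero, zero_mul, zero_mul]
  have hk₁ : k₁ ≠ 0 := by
    rintro rfl
    apply hne
    rw [h₁, zero_pow P.pp.ne_zero, mul_zero]
  have hc₂ : c₂ ≠ 0 := by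
    rintro rfl
    apply hne
    rw [h₂, _root_.map_zero, zero_mul, zero_mul, zero_mul]
  have hk₂ : k₂ ≠ 0 := by
    rintro rfl
    apply hne
    rw [h₂, zero_pow P.pp.ne_zero, mul_zero]
  refine ⟨σ, hσ, c₂ / c₁, k₂ / k₁, div_ne_zero hc₂ hc₁, div_ne_zero hk₂ hk₁, ?_⟩
  have hc₁' : algebraMap Qb (FN (N' * P.p)) c₁ ≠ 0 := fun h =>
    hc₁ ((map_eq_zero_iff _ (algebraMap Qb (FN (N' * P.p))).injective).1 h)
  have hk₁' : k₁ ^ P.p ≠ 0 := pow_ne_zero _ hk₁
  have h3 : algebraMap Qb (FN (N' * P.p)) c₁ * galF (N' * P.p) σ (ι T) * k₁ ^ P.p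
      = algebraMap Qb (FN (N' * P.p)) c₂ * ι T * ι T * k₂ ^ P.p := by rw [← h₁, h₂]
  have h4 : galF (N' * P.p) σ (ι T)
      = algebraMap Qb (FN (N' * P.p)) c₂ * ι T * ι T * k₂ ^ P.p
        / (algebraMap Qb (FN (N' * P.p)) c₁ * k₁ ^ P.p) := by
    rw [eq_div_iff (mul_ne_zero hc₁' hk₁'), ← h3]
    ring
  rw [h4, map_div₀, div_pow]
  first
    | ring
    | (field_simp; ring)
    | field_simp

end Emb

/-! ### Reductions of `ι T` and of `ι (Q + i T)` -/

section RedT

variable {P : FreyPackage} {N' : ℕ} [NeZero N'] [NeZero P.p] {W : WeierstrassCurve ℤ}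
  {ι : (P.freyCurve⁄Qb).Point → FN (N' * P.p)} {A : ValuationSubring Qb}

/-- **Every reduction of `ι T` is a constant times a `p`-th power**, in any subfield `K` of
`κ((q))` which contains a reduction of every nonzero function of level `N' p`. -/
theorem red_T_pth (hι : IsNewEmb P N' W ι) (hA : A.LiesOverPrime P.p)
    {T R : (P.freyCurve⁄Qb).Point} {ζ b : Qb} (hE : EShapeData P A T R ζ b)
    (K : Subfield (LaurentSeries (IsLocalRing.ResidueField A)))
    (hK : ∀ x : FN (N' * P.p), x ≠ 0 → ∃ g : K, RedAt (N' * P.p) A x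
      (g : LaurentSeries (IsLocalRing.ResidueField A)))
    {f : LaurentSeries (IsLocalRing.ResidueField A)} (hf : RedAt (N' * P.p) A (ι T) f) :
    ∃ (e : IsLocalRing.ResidueField A) (h : K), e ≠ 0 ∧
      f = HahnSeries.C e * (h : LaurentSeries (IsLocalRing.ResidueField A)) ^ P.p := by
  obtain ⟨σ, hσ, c, y, hc, hy, hgal⟩ := exists_galF_T_eq hι hA hE
  obtain ⟨g, hg⟩ := hK y hy
  have h1 : RedAt (N' * P.p) A (galF (N' * P.p) σ (ι T)) f := redAt_galF_of_inertia hσ hf
  have h2 : RedAt (N' * P.p) A (galF (N' * P.p) σ (ι T))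
      (f ^ 2 * (g : LaurentSeries (IsLocalRing.ResidueField A)) ^ P.p) := by
    rw [hgal, mul_assoc (algebraMap Qb (FN (N' * P.p)) c) (ι T ^ 2) (y ^ P.p)]
    exact RedAt.const_mul hc (RedAt.mul (RedAt.pow hf 2) (RedAt.pow hg P.p))
  obtain ⟨e, he, hee⟩ := RedAt.unique h1 h2
  have hf0 : f ≠ 0 := RedAt.ne_zero hf
  have hg0 : (g : LaurentSeries (IsLocalRing.ResidueField A)) ≠ 0 := RedAt.ne_zero hg
  have hCe : (HahnSeries.C e : LaurentSeries (IsLocalRing.ResidueField A)) ≠ 0 := fun h =>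
    he ((map_eq_zero_iff _ HahnSeries.C_injective).1 h)
  refine ⟨e⁻¹, g⁻¹, inv_ne_zero he, ?_⟩
  have hCinv : (HahnSeries.C e⁻¹ : LaurentSeries (IsLocalRing.ResidueField A))
      = (HahnSeries.C e)⁻¹ := map_inv₀ _ e
  have hginv : ((g⁻¹ : K) : LaurentSeries (IsLocalRing.ResidueField A))
      = (g : LaurentSeries (IsLocalRing.ResidueField A))⁻¹ := rfl
  rw [hCinv, hginv, inv_pow]
  have hgp : (g : LaurentSeries (IsLocalRing.ResidueField A)) ^ P.p ≠ 0 := pow_ne_zero _ hg0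
  have h3 : f * (HahnSeries.C e * f * (g : LaurentSeries (IsLocalRing.ResidueField A)) ^ P.p)
      = f * 1 := by
    rw [mul_one]
    conv_rhs => rw [hee]
    ring
  have h4 : HahnSeries.C e * f * (g : LaurentSeries (IsLocalRing.ResidueField A)) ^ P.p = 1 :=
    mul_left_cancel₀ hf0 h3
  have h5 : HahnSeries.C e * (g : LaurentSeries (IsLocalRing.ResidueField A)) ^ P.p * f = 1 := by
    rw [← h4]
    ring
  rw [← mul_inv]
  exact eq_inv_of_mul_eq_one_right h5

/-- **The reductions of `ι (Q + i T)` and of `ι Q` differ by a constant and a `p`-th power.** -/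
theorem red_add_nsmul (hι : IsNewEmb P N' W ι) (hA : A.LiesOverPrime P.p)
    {T R : (P.freyCurve⁄Qb).Point} {ζ b : Qb} (hE : EShapeData P A T R ζ b)
    (K : Subfield (LaurentSeries (IsLocalRing.ResidueField A)))
    (hK : ∀ x : FN (N' * P.p), x ≠ 0 → ∃ g : K, RedAt (N' * P.p) A x
      (g : LaurentSeries (IsLocalRing.ResidueField A)))
    {Q : (P.freyCurve⁄Qb).Point} (hQ : P.p • Q = 0) (i : ℕ)
    {f f' : LaurentSeries (IsLocalRing.ResidueField A)}
    (hf : RedAt (N' * P.p) A (ι (Q + i • T)) f) (hf' : RedAt (N' * P.p) A (ι Q) f') :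
    ∃ (e : IsLocalRing.ResidueField A) (h : K), e ≠ 0 ∧
      f = HahnSeries.C e * f' * (h : LaurentSeries (IsLocalRing.ResidueField A)) ^ P.p := by
  have hpT : P.p • T = 0 := hE.1
  obtain ⟨c, k, hc, hk, hck⟩ := iota_add_nsmul hι hQ hpT i
  obtain ⟨gT, hgT⟩ := hK (ι T) (hι.ne_zero T hpT)
  obtain ⟨eT, yT, heT, hTe⟩ := red_T_pth hι hA hE K hK hgT
  obtain ⟨gk, hgk⟩ := hK k hk
  have hX : RedAt (N' * P.p) A (ι Q * ι T ^ i * k ^ P.p)
      (f' * (gT : LaurentSeries (IsLocalRing.ResidueField A)) ^ i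
        * (gk : LaurentSeries (IsLocalRing.ResidueField A)) ^ P.p) :=
    RedAt.mul (RedAt.mul hf' (RedAt.pow hgT i)) (RedAt.pow hgk P.p)
  have hassoc : algebraMap Qb (FN (N' * P.p)) c * ι Q * ι T ^ i * k ^ P.p
      = algebraMap Qb (FN (N' * P.p)) c * (ι Q * ι T ^ i * k ^ P.p) := by ring
  have h1 : RedAt (N' * P.p) A (ι (Q + i • T))
      (f' * (gT : LaurentSeries (IsLocalRing.ResidueField A)) ^ i
        * (gk : LaurentSeries (IsLocalRing.ResidueField A)) ^ P.p) := by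
    rw [hck, hassoc]
    exact RedAt.const_mul hc hX
  obtain ⟨e, he, hee⟩ := RedAt.unique hf h1
  refine ⟨e * eT ^ i, yT ^ i * gk, mul_ne_zero he (pow_ne_zero _ heT), ?_⟩
  have hcoe : ((yT ^ i * gk : K) : LaurentSeries (IsLocalRing.ResidueField A))
      = (yT : LaurentSeries (IsLocalRing.ResidueField A)) ^ i
        * (gk : LaurentSeries (IsLocalRing.ResidueField A)) := rfl
  rw [hee, hTe, hcoe, map_mul, map_pow]
  ring

end RedT

/-! ### The polynomial `Θ_p` -/

/-- The integer polynomial `Θ_p = ∑_{0 < k < p} (C(p,k)/p) X^(k-1)`. -/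
noncomputable def theta (p : ℕ) : Polynomial ℤ :=
  ∑ k ∈ Finset.Ioo 0 p, Polynomial.X ^ (k - 1) * Polynomial.C (((p.choose k / p : ℕ) : ℤ))

/-- `(X + 1) ^ p = X ^ p + 1 + p X Θ_p`. -/
theorem X_add_one_pow_eq {p : ℕ} (hp : p.Prime) :
    (Polynomial.X + 1 : Polynomial ℤ) ^ p
      = Polynomial.X ^ p + 1 + (p : Polynomial ℤ) * Polynomial.X * theta p := by
  have h := add_pow_prime_eq hp (Polynomial.X : Polynomial ℤ) 1
  rw [h, theta, one_pow, mul_one]
  congr 2
  refine Finset.sum_congr rfl fun k _ => ?_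
  rw [one_pow, mul_one, map_natCast]

/-- Evaluation of `Θ_p`. -/
theorem eval₂_theta {S : Type*} [CommRing S] (p : ℕ) (x : S) :
    (theta p).eval₂ (Int.castRingHom S) x
      = ∑ k ∈ Finset.Ioo 0 p, x ^ (k - 1) * ((p.choose k / p : ℕ) : S) := by
  rw [theta, Polynomial.eval₂_finsetSum]
  refine Finset.sum_congr rfl fun k _ => ?_
  rw [Polynomial.eval₂_mul, Polynomial.eval₂_X_pow, Polynomial.eval₂_C, map_natCast]

/-- `(x + 1) ^ p = x ^ p + 1 + p x Θ_p(x)` in every commutative ring (`Θ_p(x)` written as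
`(theta p).eval₂ (Int.castRingHom S) x`). -/
theorem add_one_pow_eq {S : Type*} [CommRing S] {p : ℕ} (hp : p.Prime) (x : S) :
    (x + 1) ^ p = x ^ p + 1 + (p : S) * x * (theta p).eval₂ (Int.castRingHom S) x := by
  have h := add_pow_prime_eq hp x 1
  rw [h, eval₂_theta, one_pow, mul_one]
  congr 2
  refine Finset.sum_congr rfl fun k _ => ?_
  rw [one_pow, mul_one]

/-- **The Eisenstein equation**: if `(x + 1) ^ p = 1 + p w` then `x ^ p = p (w - x Θ_p(x))`. -/
theorem eis_eq {S : Type*} [CommRing S] {p : ℕ} (hp : p.Prime) (x w : S)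
    (h : (x + 1) ^ p = 1 + (p : S) * w) :
    x ^ p = (p : S) * (w - x * (theta p).eval₂ (Int.castRingHom S) x) := by
  have h7 := add_one_pow_eq hp x
  rw [h] at h7
  linear_combination (-1 : S) * h7

/-- `Θ_p(0) = 1`. -/
theorem theta_coeff_zero {p : ℕ} (hp : p.Prime) : (theta p).coeff 0 = 1 := by
  rw [theta, Polynomial.finsetSum_coeff]
  have h1 : (1 : ℕ) ∈ Finset.Ioo 0 p := Finset.mem_Ioo.mpr ⟨Nat.one_pos, hp.one_lt⟩
  rw [Finset.sum_eq_single_of_mem 1 h1]
  · rw [Nat.sub_self, pow_zero, one_mul, Polynomial.coeff_C_zero, Nat.choose_one_right,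
      Nat.div_self hp.pos, Nat.cast_one]
  · intro k hk hk1
    have hk0 : 0 < k := (Finset.mem_Ioo.mp hk).1
    rw [Polynomial.coeff_X_pow_mul', if_neg (by omega)]

/-- `deg Θ_p < p - 1`. -/
theorem theta_natDegree_lt {p : ℕ} (hp : p.Prime) : (theta p).natDegree < p - 1 := by
  have h2 := hp.two_le
  have hle : (theta p).natDegree ≤ p - 2 := by
    rw [theta]
    refine Polynomial.natDegree_sum_le_of_forall_le _ _ fun k hk => ?_
    have hk' := Finset.mem_Ioo.mp hk
    refine (Polynomial.natDegree_mul_C_le _ _).trans ?_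
    rw [Polynomial.natDegree_X_pow]
    omega
  omega

/-! ### The dichotomy, strong Eisenstein form -/

/-- **The split / Eisenstein dichotomy of an `EShapeData` datum**, with the Eisenstein equation
of `π = b / c - 1` and the stabiliser clause.  (The first six clauses of each disjunct are
`EisDich.eisDich`, verbatim.) -/
theorem eisDich (P : FreyPackage) (A : ValuationSubring Qb) (hA : A.LiesOverPrime P.p)
    (T R : (P.freyCurve⁄Qb).Point) (ζ b : Qb) (hE : EShapeData P A T R ζ b) :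
    (∃ (i : ℕ) (b₀ : Qb), b = ζ ^ i * b₀ ∧
        (∀ σ : GQb, σ ∈ A.inertiaSubgroupIn ℚ → σ b₀ = b₀) ∧
        (∀ σ : GQb, σ ∈ A.inertiaSubgroupIn ℚ → σ • (R - i • T) = R - i • T) ∧
        EShapeData P A T (R - i • T) ζ b₀) ∨
    (∃ c w : Qb, (∀ σ : GQb, σ ∈ A.inertiaSubgroupIn ℚ → σ c = c) ∧ A.valuation c = 1 ∧
        (∀ σ : GQb, σ ∈ A.inertiaSubgroupIn ℚ → σ w = w) ∧ A.valuation w = 1 ∧
        (b / c) ^ P.p = 1 + (P.p : Qb) * w ∧
        A.valuation (b / c - 1) ^ P.p = A.valuation (P.p : Qb) ∧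
        (b / c - 1) ^ P.p
          = (P.p : Qb) * (w - (b / c - 1) * (theta P.p).eval₂ (Int.castRingHom Qb) (b / c - 1)) ∧
        ∀ σ : GQb, σ ∈ A.inertiaSubgroupIn ℚ → σ b = b → σ • R = R) := by
  rcases EisDich.eisDich P A hA T R ζ b hE with h | ⟨c, w, h1, h2, h3, h4, h5, h6⟩
  · exact Or.inl h
  · refine Or.inr ⟨c, w, h1, h2, h3, h4, h5, h6, ?_, ?_⟩
    · exact eis_eq P.pp (b / c - 1) w (by rw [sub_add_cancel]; exact h5)
    · intro σ hσ hfix
      obtain ⟨hpT, -, -, -, hζ, hb0, -, -, hI⟩ := hE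
      obtain ⟨k, j, -, -, hj, hjR⟩ := hI σ hσ
      exact KummerSplit.smul_eq_of_fix hζ hpT hb0 σ hj hjR hfix

/-! ### The split case: reductions -/

/-- **Split case.**  If `b = ζ ^ i b₀`, the reductions of `ι R` and of `ι (R - i T)` differ by a
constant and a `p`-th power (in any subfield `K` of `κ((q))` containing a reduction of every
nonzero function of level `N' p`). -/
theorem red_R_split {P : FreyPackage} {N' : ℕ} [NeZero N'] [NeZero P.p] {W : WeierstrassCurve ℤ}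
    {ι : (P.freyCurve⁄Qb).Point → FN (N' * P.p)} {A : ValuationSubring Qb}
    (hι : IsNewEmb P N' W ι) (hA : A.LiesOverPrime P.p)
    {T R : (P.freyCurve⁄Qb).Point} {ζ b : Qb} (hE : EShapeData P A T R ζ b)
    (K : Subfield (LaurentSeries (IsLocalRing.ResidueField A)))
    (hK : ∀ x : FN (N' * P.p), x ≠ 0 → ∃ g : K, RedAt (N' * P.p) A x
      (g : LaurentSeries (IsLocalRing.ResidueField A)))
    (i : ℕ) {f f' : LaurentSeries (IsLocalRing.ResidueField A)}
    (hf : RedAt (N' * P.p) A (ι R) f) (hf' : RedAt (N' * P.p) A (ι (R - i • T)) f') :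
    ∃ (e : IsLocalRing.ResidueField A) (h : K), e ≠ 0 ∧
      f = HahnSeries.C e * f' * (h : LaurentSeries (IsLocalRing.ResidueField A)) ^ P.p := by
  have hpT : P.p • T = 0 := hE.1
  have hpR : P.p • R = 0 := hE.2.1
  have hQ : P.p • (R - i • T) = 0 := by
    rw [nsmul_sub, hpR, smul_comm, hpT, nsmul_zero, sub_zero]
  have hRi : R - i • T + i • T = R := sub_add_cancel _ _
  rw [← hRi] at hf
  exact red_add_nsmul hι hA hE K hK hQ i hf hf'

/-- The subfield hypothesis of `red_T_pth`, `red_add_nsmul`, `red_R_split` for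
`K = redField N' A`, from `Top.RedStatement`. -/
theorem exists_red_of_redStatement (hRed : RedStatement) (P : FreyPackage) (N' : ℕ) [NeZero N']
    [NeZero P.p] (hpN : ¬ P.p ∣ N') (A : ValuationSubring Qb) (hA : A.LiesOverPrime P.p)
    (x : FN (N' * P.p)) (hx : x ≠ 0) :
    ∃ g : redField N' A, RedAt (N' * P.p) A x
      (g : LaurentSeries (IsLocalRing.ResidueField A)) :=
  hRed P.p N' P.pp P.hp5 hpN A hA x hx

end Fermat.Agent.S44.L.EisDichRed
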