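/-
PROGRAM MR (S44), strand L, sub-brick EisFun (MR RULING #2): THE FORMAL HALF (helper51).

Level-free, no modularity.  `etaProd = ∏ (1 - X^(n+1)) : ℤ⟦X⟧` is the Prelude's Euler product.

* `etaR R`, `etaL R`   : `∏ (1 - qⁿ)` over `R` (power series / Laurent series);
* `deltaL R`           : `Δ = q ∏ (1 - qⁿ)²⁴ ∈ R((q))`;
* `prod_rescale_etaR`  : `∏_{i<ℓ} η(zⁱ X) · η(X^(ℓ²)) = η(X^ℓ)^(ℓ+1)` in `R⟦X⟧`
                         (`z` a primitive `ℓ`-th root of unity, `ℓ` prime, `R` a domain);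
* `heckeMul_etaL`      : `T_ℓ η = η^(ℓ+1)` for the multiplicative Hecke operator `Congr.heckeMul`;
* `heckeMul_deltaL`    : `T_ℓ Δ = C (sgn ℓ z) · Δ^(ℓ+1)`, `sgn ℓ z = ∏_{i<ℓ} zⁱ`, `sgn² = 1`;
* `heckeMul_expand`    : `T_ℓ (f(q^p)) = (T_ℓ f)(q^p)` (root of unity `z^p`);
* `eisD K p hp`        : `D = Δ(q)/Δ(q^p)` over a field, `heckeMul_eisD : T_ℓ D = D^(ℓ+1)` EXACTLY
                         (`ℓ ∤ p`);
* `expand_deltaL_of_charP` : `Δ(q^p) = Δ(q)^p` in characteristic `p`;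
* `red_eisD`           : the integral model `U = Δ`, `V = Δ(q^p)` over a valuation subring `A` of
                         `ℚ̄` over `p` and its reduction `Ū = Δ̄`, `V̄ = Δ̄^p`.
-/
import Mathlib
import Fermat.Agent.S30.Congr
import Fermat.Agent.S30.HeckeGood
import Fermat.Prelude.Def_ModularCurve_X0

set_option autoImplicit false
set_option linter.style.haveILetI false

open HahnSeries ModularCurve
open Fermat.Agent.S30

namespace Fermat.Agent.S44.L.EisFormal

section PS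

open PowerSeries
open scoped PowerSeries.WithPiTopology

variable {R S : Type*} [CommRing R] [CommRing S]

/-- Continuity into power series (Pi topology) is checked coefficientwise. -/
theorem continuous_of_coeff {Y : Type*} [TopologicalSpace Y] [TopologicalSpace S]
    (g : Y → S⟦X⟧) (h : ∀ n : ℕ, Continuous fun y => PowerSeries.coeff n (g y)) :
    Continuous g := by
  refine continuous_pi fun d => ?_
  have hd : d = Finsupp.single () (d ()) := by
    ext
    simp
  have := h (d ())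
  rw [hd]
  exact this

theorem continuous_map_of_discrete [TopologicalSpace R] [DiscreteTopology R]
    [TopologicalSpace S] (φ : R →+* S) :
    Continuous (PowerSeries.map φ : R⟦X⟧ → S⟦X⟧) := by
  refine continuous_of_coeff _ fun n => ?_
  simp only [PowerSeries.coeff_map]
  exact (continuous_of_discreteTopology (f := φ)).comp (PowerSeries.WithPiTopology.continuous_coeff R n)

theorem continuous_rescale_of_discrete [TopologicalSpace R] [DiscreteTopology R] (a : R) :
    Continuous (PowerSeries.rescale a : R⟦X⟧ → R⟦X⟧) := by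
  refine continuous_of_coeff _ fun n => ?_
  simp only [PowerSeries.coeff_rescale]
  exact (continuous_of_discreteTopology (f := fun x : R => a ^ n * x)).comp
    (PowerSeries.WithPiTopology.continuous_coeff R n)

theorem continuous_expand_of_discrete [TopologicalSpace R] [DiscreteTopology R] (ℓ : ℕ)
    (hℓ : ℓ ≠ 0) :
    Continuous (PowerSeries.expand ℓ hℓ : R⟦X⟧ → R⟦X⟧) := by
  refine continuous_of_coeff _ fun n => ?_
  by_cases hn : ℓ ∣ n
  · obtain ⟨m, rfl⟩ := hn
    simp only [PowerSeries.coeff_expand_mul]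
    exact PowerSeries.WithPiTopology.continuous_coeff R m
  · simp only [PowerSeries.coeff_expand_of_not_dvd _ _ _ hn]
    exact continuous_const

/-- `∏ (1 - qⁿ)` with coefficients in `R`. -/
noncomputable def etaR (R : Type*) [CommRing R] : PowerSeries R :=
  ModularCurve.etaProd.map (Int.castRingHom R)

theorem etaR_eq_tprod [TopologicalSpace R] [DiscreteTopology R] :
    etaR R = ∏' n : ℕ, ((1 : R⟦X⟧) - X ^ (n + 1)) := by
  unfold etaR ModularCurve.etaProd
  rw [(PowerSeries.WithPiTopology.multipliable_one_sub_X_pow ℤ).map_tprod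
    (PowerSeries.map (Int.castRingHom R)) (continuous_map_of_discrete _)]
  refine tprod_congr fun n => ?_
  simp

/-- The product over the `ℓ`-th roots of unity. -/
theorem prod_one_sub_pow_mul [IsDomain R] {ℓ : ℕ} (hℓ : 0 < ℓ) {w : R} (hw : IsPrimitiveRoot w ℓ)
    (T : R⟦X⟧) :
    ∏ i ∈ Finset.range ℓ, (1 - PowerSeries.C (w ^ i) * T) = 1 - T ^ ℓ := by
  haveI : NeZero ℓ := ⟨hℓ.ne'⟩
  have hw' : IsPrimitiveRoot (PowerSeries.C w : R⟦X⟧) ℓ :=
    hw.map_of_injective (PowerSeries.C_injective)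
  have h := hw'.pow_sub_pow_eq_prod_sub_mul (1 : R⟦X⟧) T hℓ
  rw [one_pow] at h
  rw [h]
  refine Finset.prod_nbij (fun i => (PowerSeries.C w : R⟦X⟧) ^ i) ?_ ?_ ?_ ?_
  · intro i _
    rw [Polynomial.mem_nthRootsFinset hℓ, ← pow_mul, mul_comm, pow_mul, hw'.pow_eq_one, one_pow]
  · intro i hi j hj hij
    exact hw'.pow_inj (Finset.mem_range.1 hi) (Finset.mem_range.1 hj) hij
  · intro ξ hξ
    rw [Finset.mem_coe, Polynomial.mem_nthRootsFinset hℓ] at hξ
    obtain ⟨i, hi, rfl⟩ := hw'.eq_pow_of_pow_eq_one hξ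
    exact ⟨i, Finset.mem_coe.2 (Finset.mem_range.2 hi), rfl⟩
  · intro i _
    rw [map_pow]

/-- The `n`-th factor of `∏_{i<ℓ} η(zⁱ X)`. -/
theorem prod_rescale_factor [IsDomain R] {ℓ : ℕ} (hℓ : ℓ.Prime) {z : R}
    (hz : IsPrimitiveRoot z ℓ) (n : ℕ) :
    ∏ i ∈ Finset.range ℓ, PowerSeries.rescale (z ^ i) ((1 : R⟦X⟧) - X ^ (n + 1)) =
      if ℓ ∣ n + 1 then ((1 : R⟦X⟧) - X ^ (n + 1)) ^ ℓ else 1 - X ^ (ℓ * (n + 1)) := by
  have h1 : ∀ i : ℕ, PowerSeries.rescale (z ^ i) ((1 : R⟦X⟧) - X ^ (n + 1)) =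
      1 - PowerSeries.C ((z ^ (n + 1)) ^ i) * X ^ (n + 1) := by
    intro i
    rw [map_sub, map_one, map_pow, PowerSeries.rescale_X, mul_pow, ← map_pow, ← pow_mul,
      ← pow_mul, mul_comm i]
  simp_rw [h1]
  split_ifs with hd
  · obtain ⟨k, hk⟩ := hd
    have h2 : z ^ (n + 1) = 1 := by rw [hk, pow_mul, hz.pow_eq_one, one_pow]
    simp [h2]
  · have hw : IsPrimitiveRoot (z ^ (n + 1)) ℓ :=
      hz.pow_of_coprime _ ((Nat.Prime.coprime_iff_not_dvd hℓ).2 hd).symm
    rw [prod_one_sub_pow_mul hℓ.pos hw, ← pow_mul, mul_comm]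

/-- **The product identity**: `∏_{i<ℓ} η(zⁱ X) · η(X^(ℓ²)) = η(X^ℓ)^(ℓ+1)`. -/
theorem prod_rescale_etaR [IsDomain R] {ℓ : ℕ} (hℓ : ℓ.Prime) {z : R}
    (hz : IsPrimitiveRoot z ℓ) :
    (∏ i ∈ Finset.range ℓ, PowerSeries.rescale (z ^ i) (etaR R)) *
        PowerSeries.expand ℓ hℓ.ne_zero (PowerSeries.expand ℓ hℓ.ne_zero (etaR R)) =
      PowerSeries.expand ℓ hℓ.ne_zero (etaR R) ^ (ℓ + 1) := by
  letI : TopologicalSpace R := ⊥
  haveI : DiscreteTopology R := ⟨rfl⟩
  haveI : T2Space R⟦X⟧ := PowerSeries.WithPiTopology.instT2Space R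
  haveI : IsTopologicalRing R⟦X⟧ := PowerSeries.WithPiTopology.instIsTopologicalRing R
  have hbase := PowerSeries.WithPiTopology.multipliable_one_sub_X_pow R
  set b : ℕ → R⟦X⟧ := fun n => (1 : R⟦X⟧) - X ^ (n + 1) with hb
  set c : ℕ → R⟦X⟧ := fun n => (1 : R⟦X⟧) - X ^ (ℓ * (n + 1)) with hc
  set a : ℕ → R⟦X⟧ := fun n =>
    if ℓ ∣ n + 1 then ((1 : R⟦X⟧) - X ^ (n + 1)) ^ ℓ else 1 - X ^ (ℓ * (n + 1)) with ha
  set d : ℕ → R⟦X⟧ := fun n => if ℓ ∣ n + 1 then c n else 1 with hd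
  set e : ℕ → R⟦X⟧ := fun n => if ℓ ∣ n + 1 then b n ^ ℓ else 1 with he
  -- `η(X^ℓ) = ∏ c`
  have hexp : ∀ n, PowerSeries.expand ℓ hℓ.ne_zero (b n) = c n := by
    intro n
    simp only [hb, hc, map_sub, map_one, map_pow, PowerSeries.expand_X, ← pow_mul]
  have hcm : Multipliable c := by
    have := hbase.map (PowerSeries.expand ℓ hℓ.ne_zero) (continuous_expand_of_discrete ℓ hℓ.ne_zero)
    exact this.congr fun n => hexp n
  have hc_eq : PowerSeries.expand ℓ hℓ.ne_zero (etaR R) = ∏' n, c n := by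
    rw [etaR_eq_tprod, hbase.map_tprod (PowerSeries.expand ℓ hℓ.ne_zero)
      (continuous_expand_of_discrete ℓ hℓ.ne_zero)]
    exact tprod_congr hexp
  -- the conjugate product
  have h1 : ∀ i ∈ Finset.range ℓ, Multipliable fun n => PowerSeries.rescale (z ^ i) (b n) :=
    fun i _ => hbase.map (PowerSeries.rescale (z ^ i)) (continuous_rescale_of_discrete _)
  have ham : Multipliable a :=
    (multipliable_prod h1).congr fun n => prod_rescale_factor hℓ hz n
  have ha_eq : ∏ i ∈ Finset.range ℓ, PowerSeries.rescale (z ^ i) (etaR R) = ∏' n, a n := by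
    rw [etaR_eq_tprod]
    have h2 : ∀ i ∈ Finset.range ℓ, PowerSeries.rescale (z ^ i) (∏' n, b n) =
        ∏' n, PowerSeries.rescale (z ^ i) (b n) := fun i _ =>
      hbase.map_tprod (PowerSeries.rescale (z ^ i)) (continuous_rescale_of_discrete _)
    rw [Finset.prod_congr rfl h2, ← Multipliable.tprod_finsetProd h1]
    exact tprod_congr fun n => prod_rescale_factor hℓ hz n
  -- reindexing along the multiples of `ℓ`
  set ι : ℕ → ℕ := fun m => ℓ * (m + 1) - 1 with hι
  have hι1 : ∀ m, ι m + 1 = ℓ * (m + 1) := fun m => by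
    have : 0 < ℓ * (m + 1) := Nat.mul_pos hℓ.pos (Nat.succ_pos m)
    simp only [hι]
    omega
  have hιinj : Function.Injective ι := by
    intro m m' h
    have h1 := hι1 m
    have h2 := hι1 m'
    rw [h] at h1
    have h3 : ℓ * (m + 1) = ℓ * (m' + 1) := by omega
    have := Nat.eq_of_mul_eq_mul_left hℓ.pos h3
    omega
  have hrange : ∀ n, n ∉ Set.range ι → ¬ ℓ ∣ n + 1 := by
    rintro n hn ⟨k, hk⟩
    have hk0 : k ≠ 0 := by
      rintro rfl
      simp at hk
    refine hn ⟨k - 1, ?_⟩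
    have h4 := hι1 (k - 1)
    have h5 : k - 1 + 1 = k := by omega
    rw [h5, ← hk] at h4
    omega
  have hd_comp : ∀ m, d (ι m) = PowerSeries.expand ℓ hℓ.ne_zero (c m) := by
    intro m
    simp only [hd, hc]
    rw [if_pos ⟨m + 1, hι1 m⟩, hι1 m]
    simp only [map_sub, map_one, map_pow, PowerSeries.expand_X, ← pow_mul]
  have he_comp : ∀ m, e (ι m) = c m ^ ℓ := by
    intro m
    simp only [he, hb, hc]
    rw [if_pos ⟨m + 1, hι1 m⟩, hι1 m]
  have hdsupp : ∀ n, n ∉ Set.range ι → d n = 1 := fun n hn => by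
    simp only [hd]
    rw [if_neg (hrange n hn)]
  have hesupp : ∀ n, n ∉ Set.range ι → e n = 1 := fun n hn => by
    simp only [he]
    rw [if_neg (hrange n hn)]
  have hdm : Multipliable d := by
    rw [← hιinj.multipliable_iff hdsupp]
    exact (hcm.map (PowerSeries.expand ℓ hℓ.ne_zero)
      (continuous_expand_of_discrete ℓ hℓ.ne_zero)).congr fun m => (hd_comp m).symm
  have hd_eq : PowerSeries.expand ℓ hℓ.ne_zero (PowerSeries.expand ℓ hℓ.ne_zero (etaR R)) =
      ∏' n, d n := by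
    rw [hc_eq, hcm.map_tprod (PowerSeries.expand ℓ hℓ.ne_zero)
      (continuous_expand_of_discrete ℓ hℓ.ne_zero),
      ← hιinj.tprod_eq (f := d) (fun n hn => by
        by_contra h
        exact hn (hdsupp n h))]
    exact tprod_congr fun m => (hd_comp m).symm
  have hcpow : Multipliable fun m => c m ^ ℓ := by
    have := multipliable_prod (s := Finset.range ℓ) (f := fun _ => c) (fun _ _ => hcm)
    exact this.congr fun m => by simp
  have hem : Multipliable e := by
    rw [← hιinj.multipliable_iff hesupp]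
    exact hcpow.congr fun m => (he_comp m).symm
  have he_eq : (∏' n, c n) ^ ℓ = ∏' n, e n := by
    rw [← hιinj.tprod_eq (f := e) (fun n hn => by
        by_contra h
        exact hn (hesupp n h)), ← hcm.tprod_pow]
    exact tprod_congr fun m => (he_comp m).symm
  rw [ha_eq, hd_eq, ← ham.tprod_mul hdm, pow_succ', hc_eq, he_eq, ← hcm.tprod_mul hem]
  refine tprod_congr fun n => ?_
  simp only [ha, hd, he, hb, hc]
  split_ifs <;> ring

end PS

section LS

variable {R S : Type*} [CommRing R] [CommRing S]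

theorem map_etaR (φ : R →+* S) : PowerSeries.map φ (etaR R) = etaR S := by
  unfold etaR
  rw [← RingHom.comp_apply, ← PowerSeries.map_comp]
  congr 1
  exact congrArg _ (RingHom.ext_int _ _)

theorem constantCoeff_etaR : PowerSeries.constantCoeff (etaR R) = 1 := by
  unfold etaR
  rw [← PowerSeries.coeff_zero_eq_constantCoeff_apply, PowerSeries.coeff_map,
    PowerSeries.coeff_zero_eq_constantCoeff_apply, ModularCurve.constantCoeff_etaProd, map_one]

/-- `∏ (1 - qⁿ)` as a Laurent series. -/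
noncomputable def etaL (R : Type*) [CommRing R] : LaurentSeries R :=
  HahnSeries.ofPowerSeries ℤ R (etaR R)

/-- `Δ = q ∏ (1 - qⁿ)²⁴` as a Laurent series over `R`. -/
noncomputable def deltaL (R : Type*) [CommRing R] : LaurentSeries R :=
  HahnSeries.single (1 : ℤ) (1 : R) * etaL R ^ 24

theorem coeffMap_etaL (φ : R →+* S) : coeffMap φ (etaL R) = etaL S := by
  unfold etaL
  rw [Congr.coeffMap_ofPowerSeries, map_etaR]

theorem coeffMap_deltaL (φ : R →+* S) : coeffMap φ (deltaL R) = deltaL S := by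
  unfold deltaL
  rw [map_mul, map_pow, coeffMap_etaL, coeffMap_single, map_one]

theorem rescale_ofPowerSeries (z : Rˣ) (f : PowerSeries R) :
    Congr.rescale z (HahnSeries.ofPowerSeries ℤ R f) =
      HahnSeries.ofPowerSeries ℤ R (PowerSeries.rescale (z : R) f) := by
  ext n
  rw [Congr.coeff_rescale]
  rcases lt_or_ge n 0 with hn | hn
  · rw [ofPowerSeries_coeff_of_neg _ hn, ofPowerSeries_coeff_of_neg _ hn, mul_zero]
  · lift n to ℕ using hn
    rw [HahnSeries.ofPowerSeries_apply_coeff, HahnSeries.ofPowerSeries_apply_coeff,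
      PowerSeries.coeff_rescale, zpow_natCast, Units.val_pow_eq_pow_val]

theorem conjProd_ofPowerSeries (ℓ : ℕ) (z : Rˣ) (f : PowerSeries R) :
    Congr.conjProd ℓ z (HahnSeries.ofPowerSeries ℤ R f) =
      HahnSeries.ofPowerSeries ℤ R (∏ i ∈ Finset.range ℓ, PowerSeries.rescale ((z : R) ^ i) f) := by
  unfold Congr.conjProd
  rw [map_prod]
  refine Finset.prod_congr rfl fun i _ => ?_
  rw [rescale_ofPowerSeries, Units.val_pow_eq_pow_val]

/-- **`T_ℓ η = η^(ℓ+1)`** for the multiplicative Hecke operator. -/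
theorem heckeMul_etaL [IsDomain R] {ℓ : ℕ} (hℓ : ℓ.Prime) (z : Rˣ) (hz : IsPrimitiveRoot z ℓ) :
    Congr.heckeMul ℓ hℓ.pos z (etaL R) = etaL R ^ (ℓ + 1) := by
  apply Congr.expand_injective ℓ hℓ.pos
  unfold Congr.heckeMul
  rw [map_mul, Congr.expand_normL ℓ hℓ.pos z hz, map_pow]
  unfold etaL
  rw [conjProd_ofPowerSeries, Congr.expand_ofPowerSeries, Congr.expand_ofPowerSeries, ← map_mul,
    ← map_pow]
  have hz' : IsPrimitiveRoot (z : R) ℓ := IsPrimitiveRoot.coe_units_iff.2 hz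
  rw [mul_comm]
  exact congrArg _ (prod_rescale_etaR hℓ hz')

/-! ### The factor `q` -/

theorem prod_single_one (ℓ : ℕ) (a : ℕ → R) :
    ∏ i ∈ Finset.range ℓ, (HahnSeries.single (1 : ℤ) (a i) : LaurentSeries R) =
      HahnSeries.single (ℓ : ℤ) (∏ i ∈ Finset.range ℓ, a i) := by
  induction ℓ with
  | zero => simp
  | succ n ih =>
    rw [Finset.prod_range_succ, Finset.prod_range_succ, ih, HahnSeries.single_mul_single]
    push_cast
    rfl

theorem rescale_single (z : Rˣ) (a : ℤ) (r : R) :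
    Congr.rescale z (HahnSeries.single a r : LaurentSeries R) =
      HahnSeries.single a (((z ^ a : Rˣ) : R) * r) := by
  ext n
  rw [Congr.coeff_rescale, HahnSeries.coeff_single, HahnSeries.coeff_single]
  split_ifs with h
  · rw [h]
  · rw [mul_zero]

theorem contract_single_mul (ℓ : ℕ) (hℓ : 0 < ℓ) (a : ℤ) (r : R) :
    Congr.contract ℓ hℓ (HahnSeries.single ((ℓ : ℤ) * a) r : LaurentSeries R) =
      HahnSeries.single a r := by
  ext n
  rw [Congr.coeff_contract, HahnSeries.coeff_single, HahnSeries.coeff_single]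
  have hℓ' : (ℓ : ℤ) ≠ 0 := by exact_mod_cast hℓ.ne'
  by_cases h : n = a
  · rw [if_pos h, if_pos (by rw [h])]
  · rw [if_neg h, if_neg (fun h' => h (mul_left_cancel₀ hℓ' h'))]

/-- The sign `∏_{i<ℓ} zⁱ = z^(ℓ(ℓ-1)/2)`. -/
noncomputable def sgn (ℓ : ℕ) (z : Rˣ) : R := ∏ i ∈ Finset.range ℓ, ((z ^ i : Rˣ) : R)

theorem sgn_mul_self {ℓ : ℕ} (z : Rˣ) (hz : z ^ ℓ = 1) : sgn ℓ z * sgn ℓ z = 1 := by
  unfold sgn
  rw [← Finset.prod_mul_distrib]
  have h1 : ∀ i : ℕ, ((z ^ i : Rˣ) : R) * ((z ^ i : Rˣ) : R) = ((z ^ (i * 2) : Rˣ) : R) := by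
    intro i
    rw [← Units.val_mul, ← _root_.pow_add, mul_two]
  simp_rw [h1]
  rw [← Units.coe_prod, Finset.prod_pow_eq_pow_sum, ← Finset.sum_mul, Finset.sum_range_id_mul_two,
    pow_mul, hz, one_pow, Units.val_one]

theorem heckeMul_single_one {ℓ : ℕ} (hℓ : 0 < ℓ) (z : Rˣ) :
    Congr.heckeMul ℓ hℓ z (HahnSeries.single (1 : ℤ) (1 : R) : LaurentSeries R) =
      HahnSeries.C (sgn ℓ z) * HahnSeries.single (1 : ℤ) (1 : R) ^ (ℓ + 1) := by
  unfold Congr.heckeMul Congr.normL Congr.conjProd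
  simp_rw [rescale_single, mul_one, zpow_one]
  rw [prod_single_one, Congr.expand_single]
  have h1 : (HahnSeries.single (ℓ : ℤ) (∏ i ∈ Finset.range ℓ, ((z ^ i : Rˣ) : R)) :
      LaurentSeries R) = HahnSeries.single ((ℓ : ℤ) * 1) (sgn ℓ z) := by
    rw [mul_one]
    rfl
  rw [h1, contract_single_mul, HahnSeries.single_mul_single, HahnSeries.single_pow, one_pow,
    HahnSeries.C_apply, HahnSeries.single_mul_single, one_mul, mul_one, zero_add]
  congr 1
  simp
  ring

theorem heckeMul_pow' [IsDomain R] (ℓ : ℕ) (hℓ : 0 < ℓ) (z : Rˣ) (hz : IsPrimitiveRoot z ℓ)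
    (f : LaurentSeries R) (n : ℕ) :
    Congr.heckeMul ℓ hℓ z (f ^ n) = Congr.heckeMul ℓ hℓ z f ^ n :=
  map_pow (Congr.heckeMulHom ℓ hℓ z hz) f n

/-- **`T_ℓ Δ = ± Δ^(ℓ+1)`**. -/
theorem heckeMul_deltaL [IsDomain R] {ℓ : ℕ} (hℓ : ℓ.Prime) (z : Rˣ) (hz : IsPrimitiveRoot z ℓ) :
    Congr.heckeMul ℓ hℓ.pos z (deltaL R) = HahnSeries.C (sgn ℓ z) * deltaL R ^ (ℓ + 1) := by
  unfold deltaL
  rw [Congr.heckeMul_mul ℓ hℓ.pos z hz, heckeMul_pow' ℓ hℓ.pos z hz, heckeMul_etaL hℓ z hz,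
    heckeMul_single_one]
  ring

/-! ### `expand` and the Hecke operator -/

theorem expand_congr {a b : ℕ} (h : a = b) (ha : 0 < a) (hb : 0 < b) (g : LaurentSeries R) :
    Congr.expand a ha g = Congr.expand b hb g := by
  subst h
  rfl

theorem expand_expand (a b : ℕ) (ha : 0 < a) (hb : 0 < b) (g : LaurentSeries R) :
    Congr.expand a ha (Congr.expand b hb g) = Congr.expand (a * b) (Nat.mul_pos ha hb) g := by
  ext n
  by_cases h : ((a * b : ℕ) : ℤ) ∣ n
  · obtain ⟨k, rfl⟩ := h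
    have h1 : ((a * b : ℕ) : ℤ) * k = (a : ℤ) * ((b : ℤ) * k) := by
      push_cast
      ring
    rw [Congr.coeff_expand_mul, h1, Congr.coeff_expand_mul, Congr.coeff_expand_mul]
  · rw [Congr.coeff_expand_of_not_dvd _ _ _ h]
    by_cases h2 : (a : ℤ) ∣ n
    · obtain ⟨m, rfl⟩ := h2
      rw [Congr.coeff_expand_mul]
      refine Congr.coeff_expand_of_not_dvd _ _ _ fun h3 => h ?_
      obtain ⟨k, rfl⟩ := h3
      exact ⟨k, by push_cast; ring⟩
    · exact Congr.coeff_expand_of_not_dvd _ _ _ h2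

theorem expand_comm (a b : ℕ) (ha : 0 < a) (hb : 0 < b) (g : LaurentSeries R) :
    Congr.expand a ha (Congr.expand b hb g) = Congr.expand b hb (Congr.expand a ha g) := by
  rw [expand_expand, expand_expand]
  exact expand_congr (mul_comm a b) _ _ g

theorem expand_C (p : ℕ) (hp : 0 < p) (c : R) :
    Congr.expand p hp (HahnSeries.C c : LaurentSeries R) = HahnSeries.C c := by
  rw [HahnSeries.C_apply, Congr.expand_single, mul_zero]

theorem rescale_expand (z : Rˣ) (p : ℕ) (hp : 0 < p) (f : LaurentSeries R) :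
    Congr.rescale z (Congr.expand p hp f) = Congr.expand p hp (Congr.rescale (z ^ p) f) := by
  ext n
  rw [Congr.coeff_rescale]
  by_cases h : (p : ℤ) ∣ n
  · obtain ⟨m, rfl⟩ := h
    rw [Congr.coeff_expand_mul, Congr.coeff_expand_mul, Congr.coeff_rescale, ← zpow_natCast,
      ← zpow_mul]
  · rw [Congr.coeff_expand_of_not_dvd _ _ _ h, Congr.coeff_expand_of_not_dvd _ _ _ h, mul_zero]

theorem conjProd_expand (ℓ : ℕ) (z : Rˣ) (p : ℕ) (hp : 0 < p) (f : LaurentSeries R) :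
    Congr.conjProd ℓ z (Congr.expand p hp f) =
      Congr.expand p hp (Congr.conjProd ℓ (z ^ p) f) := by
  unfold Congr.conjProd
  rw [map_prod]
  refine Finset.prod_congr rfl fun i _ => ?_
  rw [rescale_expand, ← pow_mul, ← pow_mul, mul_comm]

/-- `T_ℓ (f(q^p)) = (T_ℓ f)(q^p)` (with the root of unity `z^p`). -/
theorem heckeMul_expand [IsDomain R] {ℓ p : ℕ} (hℓ : 0 < ℓ) (hp : 0 < p) (z : Rˣ)
    (hz : IsPrimitiveRoot z ℓ) (hzp : IsPrimitiveRoot (z ^ p) ℓ) (f : LaurentSeries R) :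
    Congr.heckeMul ℓ hℓ z (Congr.expand p hp f) =
      Congr.expand p hp (Congr.heckeMul ℓ hℓ (z ^ p) f) := by
  have hn : Congr.normL ℓ hℓ z (Congr.expand p hp f) =
      Congr.expand p hp (Congr.normL ℓ hℓ (z ^ p) f) := by
    apply Congr.expand_injective ℓ hℓ
    rw [Congr.expand_normL ℓ hℓ z hz, conjProd_expand, expand_comm,
      Congr.expand_normL ℓ hℓ (z ^ p) hzp]
  unfold Congr.heckeMul
  rw [hn, map_mul, expand_comm]

/-! ### `Δ` and `D = Δ(q)/Δ(q^p)` -/

theorem coeff_deltaL_one : (deltaL R).coeff 1 = 1 := by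
  unfold deltaL etaL
  rw [← map_pow]
  have h := HahnSeries.coeff_single_mul_add (r := (1 : R))
    (x := HahnSeries.ofPowerSeries ℤ R (etaR R ^ 24)) (a := (0 : ℤ)) (b := (1 : ℤ))
  rw [zero_add, one_mul] at h
  rw [h]
  have h2 := HahnSeries.ofPowerSeries_apply_coeff (Γ := ℤ) (etaR R ^ 24) 0
  rw [Nat.cast_zero] at h2
  rw [h2, PowerSeries.coeff_zero_eq_constantCoeff_apply, map_pow, constantCoeff_etaR, one_pow]

theorem deltaL_ne_zero [Nontrivial R] : deltaL R ≠ 0 := by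
  intro h
  have h1 := coeff_deltaL_one (R := R)
  rw [h] at h1
  simp at h1

theorem heckeMul_inv {K : Type*} [Field K] (ℓ : ℕ) (hℓ : 0 < ℓ) (z : Kˣ)
    (hz : IsPrimitiveRoot z ℓ) (x : LaurentSeries K) (hx : x ≠ 0) :
    Congr.heckeMul ℓ hℓ z x⁻¹ = (Congr.heckeMul ℓ hℓ z x)⁻¹ := by
  apply eq_inv_of_mul_eq_one_right
  rw [← Congr.heckeMul_mul ℓ hℓ z hz, mul_inv_cancel₀ hx]
  exact map_one (Congr.heckeMulHom ℓ hℓ z hz)

/-- `D = Δ(q) / Δ(q^p)`. -/
noncomputable def eisD (K : Type*) [Field K] (p : ℕ) (hp : 0 < p) : LaurentSeries K :=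
  deltaL K / Congr.expand p hp (deltaL K)

theorem expand_deltaL_ne_zero {K : Type*} [Field K] (p : ℕ) (hp : 0 < p) :
    Congr.expand p hp (deltaL K) ≠ 0 := fun h =>
  deltaL_ne_zero (R := K) (Congr.expand_injective p hp (by rw [h, map_zero]))

theorem eisD_ne_zero {K : Type*} [Field K] (p : ℕ) (hp : 0 < p) : eisD K p hp ≠ 0 :=
  div_ne_zero deltaL_ne_zero (expand_deltaL_ne_zero p hp)

/-- **`T_ℓ D = D^(ℓ+1)`** for `D = Δ(q)/Δ(q^p)`, `ℓ ∤ p` (exactly: the sign cancels). -/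
theorem heckeMul_eisD {K : Type} [Field K] {ℓ p : ℕ} (hℓ : ℓ.Prime) (hp : 0 < p)
    (hℓp : ¬ ℓ ∣ p) (z : Kˣ) (hz : IsPrimitiveRoot z ℓ) :
    Congr.heckeMul ℓ hℓ.pos z (eisD K p hp) = eisD K p hp ^ (ℓ + 1) := by
  have hzp : IsPrimitiveRoot (z ^ p) ℓ :=
    hz.pow_of_coprime p ((Nat.Prime.coprime_iff_not_dvd hℓ).2 hℓp).symm
  have hΔ : deltaL K ≠ 0 := deltaL_ne_zero
  have hE : Congr.expand p hp (deltaL K) ≠ 0 := expand_deltaL_ne_zero p hp
  have hs : (HahnSeries.C (sgn ℓ z) : LaurentSeries K) ≠ 0 := by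
    intro h
    have h1 := sgn_mul_self z hz.pow_eq_one
    have h2 : sgn ℓ z = 0 := HahnSeries.C_injective (by rw [h, map_zero])
    rw [h2, mul_zero] at h1
    exact zero_ne_one h1
  unfold eisD
  rw [div_eq_mul_inv, Congr.heckeMul_mul ℓ hℓ.pos z hz, heckeMul_inv ℓ hℓ.pos z hz _ hE,
    heckeMul_expand hℓ.pos hp z hz hzp,
    ← HeckeGood.heckeMul_eq_of_isPrimitiveRoot hℓ.pos hz hzp, heckeMul_deltaL hℓ z hz,
    map_mul, map_pow, expand_C]
  field_simp
  have h3 : Congr.expand p hp (deltaL K) * (deltaL K / Congr.expand p hp (deltaL K)) =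
      deltaL K := by
    field_simp
  rw [← mul_pow, h3]

/-- `Δ(q^p) = Δ(q)^p` in characteristic `p`. -/
theorem expand_deltaL_of_charP (p : ℕ) [Fact p.Prime] [CharP R p] (hp : 0 < p) :
    Congr.expand p hp (deltaL R) = deltaL R ^ p := by
  have h := Congr.expand_coeffMap_frobenius p hp (deltaL R)
  rwa [coeffMap_deltaL] at h

end LS

/-! ### Reduction at a valuation subring of `ℚ̄` -/

section Red

local notation "Qb" => AlgebraicClosure ℚ

/-- The integral model and the reduction of `D = Δ(q)/Δ(q^p)` at a valuation subring over `p`: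
`D · V = U` with `U = Δ`, `V = Δ(q^p)` integral, `Ū = Δ̄`, `V̄ = Δ̄^p`. -/
theorem red_eisD (A : ValuationSubring Qb) (p : ℕ) [Fact p.Prime] (hA : A.LiesOverPrime p)
    (hp : 0 < p) :
    Congr.incl A (deltaL A) = deltaL Qb ∧
    Congr.incl A (Congr.expand p hp (deltaL A)) = Congr.expand p hp (deltaL Qb) ∧
    Congr.red A (deltaL A) = deltaL (IsLocalRing.ResidueField A) ∧
    Congr.red A (Congr.expand p hp (deltaL A)) = deltaL (IsLocalRing.ResidueField A) ^ p ∧
    deltaL (IsLocalRing.ResidueField A) ≠ 0 := by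
  haveI := Congr.charP_residue A hA
  refine ⟨coeffMap_deltaL _, ?_, coeffMap_deltaL _, ?_, deltaL_ne_zero⟩
  · unfold Congr.incl
    rw [Congr.coeffMap_expand, coeffMap_deltaL]
  · unfold Congr.red
    rw [Congr.coeffMap_expand, coeffMap_deltaL, expand_deltaL_of_charP]

end Red

end Fermat.Agent.S44.L.EisFormal
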