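import Mathlib
import Fermat.Agent.S44.L.TopProof

/-!
# PROGRAM MR (S44), strand L: the top assembly WITHOUT the clause (E2)

`Top.SlopeStatement` contains the clause

  `∃ w, IsFinitePl N' A w ∧ ¬ PDivAt P.p w Dbar`      (E2)

("`D̄` has order prime to `p` at some finite place"), which `TopProof.lStatement_of_top` uses to
get `p ∣ δ`.  That clause is not needed: for a non-Eisenstein prime `ℓ` (`e := ℓ + 1 - a_ℓ`
prime to `p`) and a finite place `w`,

* `PDivAt p w (f ^ m * D̄ ^ (-δ))`            (the slope clause),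
* `PDivAt p w (D̄ ^ (δ * e))`                 (`TopProof.pDivAt_eis`, landed),

and `f ^ (m * e) = (f ^ m * D̄ ^ (-δ)) ^ e * D̄ ^ (δ * e)`, so `PDivAt p w (f ^ (m * e))` with
`p ∤ m * e`, hence `PDivAt p w f`.

* `SlopeStatement2` : `Top.SlopeStatement` with the conjunct (E2) deleted.
* `slopeStatement2_of_slopeStatement` : the old statement implies the new one.
* `lStatement_of_top2` : `Red → Hecke → Kappa → HDiv → SlopeStatement2 → NZ → Contract.LStatement`.
-/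

set_option autoImplicit false

open WeierstrassCurve WeierstrassCurve.Affine WeierstrassCurve.Affine.Point
open HahnSeries ModularCurve AlgebraicCurve

namespace Fermat.Agent.S44.L.TopProof2

open Fermat.Agent.S30 Fermat.Agent.S30.Producer Fermat.Agent.S44.Contract
open Fermat.Agent.S44.L.Top Fermat.Agent.S44.L.TopProof

/-- **(L.SLOPE), second form**: `Top.SlopeStatement` without the clause "`D̄` is not `PDivAt` at
some finite place". -/
def SlopeStatement2 : Prop :=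
  ∀ (P : FreyPackage) (N' : ℕ) [NeZero N'] [NeZero P.p] (W : WeierstrassCurve ℤ),
    ¬ P.p ∣ N' → Squarefree N' →
    ∀ A : ValuationSubring Qb, A.LiesOverPrime P.p →
    ∀ ι : (P.freyCurve⁄Qb).Point → FN (N' * P.p), IsNewEmb P N' W ι →
    ∃ (D : FN (N' * P.p)) (Dbar : redField N' A) (m : ℕ),
      D ≠ 0 ∧ 0 < m ∧ ¬ P.p ∣ m ∧
      RedAt (N' * P.p) A D (Dbar : LaurentSeries (IsLocalRing.ResidueField A)) ∧
      (∀ ℓ : ℕ, ℓ.Prime → ¬ ℓ ∣ N' * P.p → ∃ (c : Qb) (k : FN (N' * P.p)),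
        E4.heckeFb (N' * P.p) ℓ D
          = algebraMap Qb (FN (N' * P.p)) c * D ^ (ℓ + 1) * k ^ P.p) ∧
      ∀ (T R : (P.freyCurve⁄Qb).Point) (ζ b : Qb), EShapeData P A T R ζ b →
        ∀ f : redField N' A,
          RedAt (N' * P.p) A (ι R) (f : LaurentSeries (IsLocalRing.ResidueField A)) →
          (∀ w : ValuationSubring (redField N' A), ¬ IsFinitePl N' A w → PDivAt P.p w f) ∧
          ∃ δ : ℤ, ∀ w : ValuationSubring (redField N' A), IsFinitePl N' A w →
            PDivAt P.p w (f ^ m * Dbar ^ (-δ))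

/-- The statement of `S44/L/Top.lean` implies the second form. -/
theorem slopeStatement2_of_slopeStatement (h : SlopeStatement) : SlopeStatement2 := by
  intro P N' _ _ W hpN' hsq A hA ι hι
  obtain ⟨D, Dbar, m, hD0, hm0, hpm, hDred, hDhecke, -, hslope⟩ := h P N' W hpN' hsq A hA ι hι
  exact ⟨D, Dbar, m, hD0, hm0, hpm, hDred, hDhecke, hslope⟩

/-- The exponent identity behind the assembly. -/
theorem zpow_mul_eq {K : Type*} [Field K] {f D : K} (hD : D ≠ 0) (m : ℕ) (δ e : ℤ) :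
    f ^ ((m : ℤ) * e) = (f ^ m * D ^ (-δ)) ^ e * D ^ (δ * e) := by
  rw [mul_zpow, ← zpow_natCast f m, ← zpow_mul, ← zpow_mul, mul_assoc, ← zpow_add₀ hD]
  have h : -δ * e + δ * e = 0 := by ring
  rw [h, zpow_zero, mul_one]

/-- **`Contract.LStatement` from the bricks of `S44/L/Top.lean`, with `SlopeStatement2` in place
of `SlopeStatement`.** -/
theorem lStatement_of_top2 :
    RedStatement → HeckeStatement → KappaStatement → HDivStatement → SlopeStatement2 →
      NZStatement → LStatement := by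
  intro hRed hHecke hKappa hHDiv hSlope hNZ P N' _ _ W hpN' hsq hNE A hA hE ι hι
  obtain ⟨T, R, ζ, b, hdata⟩ := hE
  have hdata' : EShapeData P A T R ζ b := hdata
  have hp : P.p.Prime := P.pp
  have hp5 : 5 ≤ P.p := P.hp5
  have hpR : P.p • R = 0 := hdata.2.1
  have hx0 : ι R ≠ 0 := hι.ne_zero R hpR
  -- the reduction of `ι R`
  obtain ⟨f, hf⟩ := hRed P.p N' hp hp5 hpN' A hA (ι R) hx0
  have hfco : (f : LaurentSeries (IsLocalRing.ResidueField A)) ≠ 0 := redAt_ne_zero hf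
  have hf0 : f ≠ 0 := fun h => hfco (by rw [h]; rfl)
  -- the slope datum
  obtain ⟨D, Dbar, m, hD0, hm0, hpm, hDred, hDhecke, hslope⟩ :=
    hSlope P N' W hpN' hsq A hA ι hι
  obtain ⟨hcusp, δ, hδ⟩ := hslope T R ζ b hdata' f hf
  have hDb0 : Dbar ≠ 0 := fun h => redAt_ne_zero hDred (by rw [h]; rfl)
  -- a non-Eisenstein prime
  obtain ⟨ℓ, hℓ, hℓS, hgood, hnE⟩ := hNE (N' * P.p).primeFactors
  have hℓN : ¬ ℓ ∣ N' * P.p := fun h =>
    hℓS (Nat.mem_primeFactors.2 ⟨hℓ, h, NeZero.ne _⟩)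
  obtain ⟨c, k, hck⟩ := hι.hecke ℓ hℓ hℓN hgood R hpR
  obtain ⟨c', k', hck'⟩ := hDhecke ℓ hℓ hℓN
  have hpi : Prime (P.p : ℤ) := Nat.prime_iff_prime_int.mp hp
  -- the exponent `m * (ℓ + 1 - a_ℓ)` is prime to `p`
  have hne : ¬ (P.p : ℤ) ∣ (m : ℤ) * (((ℓ + 1 : ℕ) : ℤ) - W.apOfModel ℓ) := by
    intro h
    rcases hpi.dvd_or_dvd h with h | h
    · exact hpm (Int.natCast_dvd_natCast.1 h)
    · apply hnE
      have h1 : W.apOfModel ℓ - ((ℓ : ℤ) + 1) = -((((ℓ + 1 : ℕ) : ℤ)) - W.apOfModel ℓ) := by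
        push_cast; ring
      rw [h1]
      exact (dvd_neg).2 h
  -- `PDivAt` at every place
  have hall : ∀ w : ValuationSubring (redField N' A), PDivAt P.p w f := by
    intro w
    by_cases hfin : IsFinitePl N' A w
    · have hA1 : PDivAt P.p w (f ^ m * Dbar ^ (-δ)) := hδ w hfin
      have hB1 : PDivAt P.p w (Dbar ^ (δ * (((ℓ + 1 : ℕ) : ℤ) - W.apOfModel ℓ))) :=
        pDivAt_eis hRed hKappa hHDiv P.p N' hp hp5 hpN' A hA ℓ hℓ hℓN (ι R) D k k' c c'
          (W.apOfModel ℓ) δ m hck hck' f Dbar hf hDred hδ w hfin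
      have h1 : PDivAt P.p w (f ^ ((m : ℤ) * (((ℓ + 1 : ℕ) : ℤ) - W.apOfModel ℓ))) := by
        rw [zpow_mul_eq hDb0 m δ (((ℓ + 1 : ℕ) : ℤ) - W.apOfModel ℓ)]
        exact pDivAt_mul (pDivAt_zpow hA1 _) hB1
      exact pDivAt_of_zpow hf0 hp hne h1
    · exact hcusp w hfin
  -- the logarithmic derivative
  set g : LaurentSeries (IsLocalRing.ResidueField A) :=
    thetaS (f : LaurentSeries (IsLocalRing.ResidueField A)) with hg
  set φ : LaurentSeries (IsLocalRing.ResidueField A) :=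
    g * (f : LaurentSeries (IsLocalRing.ResidueField A))⁻¹ with hφ
  have hgco : ∀ n : ℤ, g.coeff n = (n : IsLocalRing.ResidueField A)
      * (f : LaurentSeries (IsLocalRing.ResidueField A)).coeff n := fun n => rfl
  have hφf : φ * (f : LaurentSeries (IsLocalRing.ResidueField A)) = g := by
    rw [hφ, mul_assoc, inv_mul_cancel₀ hfco, mul_one]
  obtain ⟨n0, hn0⟩ := hNZ P N' W hpN' hsq A hA ι hι T R ζ b hdata' _ hf
  have hg0 : g ≠ 0 := by
    intro h
    apply hn0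
    rw [← hgco n0, h]
    rfl
  have hφ0 : φ ≠ 0 := by
    intro h
    apply hg0
    rw [← hφf, h, zero_mul]
  refine ⟨f, g, φ, hf0, hall, hgco, hφf, hφ0, ?_⟩
  intro ℓ₁ hℓ₁ hgood₁ hℓ₁N n
  obtain ⟨c₁, k₁, hck₁⟩ := hι.hecke ℓ₁ hℓ₁ hℓ₁N hgood₁ R hpR
  exact hHecke P.p N' hp hp5 hpN' A hA ℓ₁ hℓ₁ hℓ₁N (ι R) k₁ c₁ (W.apOfModel ℓ₁) hx0 hck₁
    _ g φ hf hgco hφf n

end Fermat.Agent.S44.L.TopProof2
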