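import Mathlib
import Fermat.Agent.S44.L.Top

/-!
# PROGRAM MR (S44), strand L: the centre of a place on a chart (level-free)

`k` a field (the reduced function field), `κ₀ ⊆ k` a subfield of constants, `u ∈ k` a coordinate
such that `k` is algebraic over `κ₀(u)`; `w` a valuation subring of `k` containing `κ₀` and `u`,
`w ≠ ⊤`.  `C` ANY commutative ring with a "reduction map" `r : C → k` whose image contains `κ₀`
and `u` and is integral over `κ₀[u]` (a chart ring modulo a vertical prime).

* `exists_centre` : `y = r⁻¹(𝔪_w)` is a MAXIMAL ideal of `C` (the centre of `w` on the chart);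
  `r` maps `C` into `w`, the complement of `y` to units of `w`, and `y` to non-units.
* `pDivAt_of_centre` : a local factorisation `f * r b = r a * h ^ p` with `a, b ∉ y` gives
  `Top.PDivAt p w f`; `pDivAt_of_centre_mul` : the same for `f * r b = r a * g`, `PDivAt p w g`.
* `eq_top_of_algebraic` : a valuation subring containing a subfield over which `k` is algebraic
  is `⊤`.
-/

set_option autoImplicit false

namespace Fermat.Agent.S44.L.Centre

open Fermat.Agent.S44.L.Top Polynomial

variable {k : Type*} [Field k]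

/-- Elements integral over a subring contained in a valuation subring lie in it. -/
theorem mem_of_isIntegral_subring (w : ValuationSubring k) (R : Subring k) (hR : R ≤ w.toSubring)
    {x : k} (hx : IsIntegral R x) : x ∈ w := by
  obtain ⟨P, hP, hPx⟩ := hx
  have hint : IsIntegral w x := by
    refine ⟨P.map (Subring.inclusion hR), hP.map _, ?_⟩
    rw [Polynomial.eval₂_map]
    exact hPx
  obtain ⟨y, hy⟩ := (IsIntegrallyClosed.isIntegral_iff (R := w) (K := k)).mp hint
  rw [← hy]
  exact y.2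

/-- A valuation subring containing a subfield over which `k` is algebraic is `⊤`. -/
theorem eq_top_of_algebraic (K₀ : Subfield k) (halg : ∀ x : k, IsAlgebraic K₀ x)
    (w : ValuationSubring k) (h : ∀ s ∈ K₀, s ∈ w) : w = ⊤ := by
  rw [eq_top_iff]
  intro x _
  exact mem_of_isIntegral_subring w K₀.toSubring (fun s hs => h s hs) (halg x).isIntegral

/-- Units of a valuation subring. -/
theorem isUnit_iff_inv_mem (w : ValuationSubring k) (x : w) :
    IsUnit x ↔ (x : k) ≠ 0 ∧ (x : k)⁻¹ ∈ w := by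
  constructor
  · intro hx
    obtain ⟨y, hy⟩ := isUnit_iff_exists_inv.mp hx
    have h1 : (x : k) * (y : k) = 1 := by
      have := congrArg (fun t : w => (t : k)) hy
      simpa using this
    have hx0 : (x : k) ≠ 0 := left_ne_zero_of_mul_eq_one h1
    refine ⟨hx0, ?_⟩
    have h2 : (x : k)⁻¹ = (y : k) := by
      rw [← mul_one (x : k)⁻¹, ← h1, ← mul_assoc, inv_mul_cancel₀ hx0, one_mul]
    rw [h2]
    exact y.2
  · rintro ⟨hx0, hinv⟩
    refine isUnit_iff_exists_inv.mpr ⟨⟨(x : k)⁻¹, hinv⟩, ?_⟩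
    apply Subtype.ext
    show (x : k) * (x : k)⁻¹ = 1
    exact mul_inv_cancel₀ hx0

/-- **The centre of a place on a chart.** -/
theorem exists_centre (κ₀ : Subfield k) (u : k)
    (halg : ∀ x : k, IsAlgebraic ↥(IntermediateField.adjoin κ₀ {u}) x)
    (w : ValuationSubring k) (hκ : ∀ s ∈ κ₀, s ∈ w) (hu : u ∈ w) (hw : w ≠ ⊤)
    {C : Type*} [CommRing C] (r : C →+* k) (hκr : ∀ s ∈ κ₀, ∃ c : C, r c = s)
    (hur : ∃ c : C, r c = u) (hint : ∀ c : C, IsIntegral ↥(Algebra.adjoin κ₀ {u}) (r c)) :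
    ∃ y : Ideal C, y.IsMaximal ∧ RingHom.ker r ≤ y ∧ (∀ c : C, r c ∈ w) ∧
      (∀ c : C, c ∉ y → (r c)⁻¹ ∈ w) ∧ (∀ c : C, c ∈ y → r c = 0 ∨ (r c)⁻¹ ∉ w) := by
  classical
  -- `κ₀[u] ⊆ w`
  have hT : ∀ t ∈ Algebra.adjoin κ₀ {u}, t ∈ w := by
    intro t ht
    induction ht using Algebra.adjoin_induction with
    | mem x hx =>
      rw [Set.mem_singleton_iff] at hx
      rw [hx]; exact hu
    | algebraMap s => exact hκ _ s.2
    | add x y _ _ hx hy => exact w.add_mem _ _ hx hy
    | mul x y _ _ hx hy => exact w.mul_mem _ _ hx hy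
  -- `r` maps into `w`
  have hrw : ∀ c : C, r c ∈ w := by
    intro c
    refine mem_of_isIntegral_subring w (Algebra.adjoin κ₀ {u}).toSubring (fun t ht => hT t ht) ?_
    exact hint c
  -- polynomials in `u` over `κ₀` are in the image of `r`
  have hpoly : ∀ P : Polynomial κ₀, ∃ c : C, r c = Polynomial.aeval u P := by
    intro P
    induction P using Polynomial.induction_on with
    | C a =>
      obtain ⟨c, hc⟩ := hκr a a.2
      exact ⟨c, by rw [hc, Polynomial.aeval_C]; rfl⟩
    | add p q hp hq =>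
      obtain ⟨c, hc⟩ := hp
      obtain ⟨d, hd⟩ := hq
      exact ⟨c + d, by rw [map_add, map_add, hc, hd]⟩
    | monomial n a h =>
      obtain ⟨c, hc⟩ := h
      obtain ⟨d, hd⟩ := hur
      refine ⟨c * d, ?_⟩
      rw [map_mul, hc, hd, pow_succ, ← mul_assoc,
        map_mul (Polynomial.aeval u) (Polynomial.C a * Polynomial.X ^ n) Polynomial.X,
        Polynomial.aeval_X]
  -- the residue map
  let F := IsLocalRing.ResidueField w
  let ψ : C →+* F := (IsLocalRing.residue w).comp (r.codRestrict w.toSubring hrw)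
  have hψ0 : ∀ c : C, ψ c = 0 ↔ (r c = 0 ∨ (r c)⁻¹ ∉ w) := by
    intro c
    show IsLocalRing.residue w (⟨r c, hrw c⟩ : w) = 0 ↔ _
    rw [IsLocalRing.residue_eq_zero_iff, IsLocalRing.mem_maximalIdeal, mem_nonunits_iff,
      isUnit_iff_inv_mem]
    show ¬ (r c ≠ 0 ∧ (r c)⁻¹ ∈ w) ↔ _
    tauto
  -- the base homomorphism `κ₀[X] → ψ.range`
  have hmemrange : ∀ P : Polynomial κ₀,
      IsLocalRing.residue w (⟨Polynomial.aeval u P, hT _ (by
        rw [Algebra.adjoin_singleton_eq_range_aeval]; exact ⟨P, rfl⟩)⟩ : w) ∈ ψ.range := by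
    intro P
    obtain ⟨c, hc⟩ := hpoly P
    refine ⟨c, ?_⟩
    show IsLocalRing.residue w (⟨r c, hrw c⟩ : w) = _
    congr 1
    exact Subtype.ext hc
  let g₀ : Polynomial κ₀ →+* w :=
    ((Polynomial.aeval u : Polynomial κ₀ →ₐ[κ₀] k) : Polynomial κ₀ →+* k).codRestrict w.toSubring
      (fun P => hT _ (by rw [Algebra.adjoin_singleton_eq_range_aeval]; exact ⟨P, rfl⟩))
  let g₁ : Polynomial κ₀ →+* F := (IsLocalRing.residue w).comp g₀
  have hg₁range : ∀ P, g₁ P ∈ ψ.range := fun P => hmemrange P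
  let f : Polynomial κ₀ →+* ψ.range := g₁.codRestrict ψ.range hg₁range
  -- the kernel of `g₁` is not zero
  have hker_ne : RingHom.ker g₁ ≠ ⊥ := by
    intro hbot
    apply hw
    have hunit : ∀ P : Polynomial κ₀, Polynomial.aeval u P ≠ 0 → (Polynomial.aeval u P)⁻¹ ∈ w := by
      intro P hP
      have hP0 : P ≠ 0 := by
        rintro rfl
        exact hP (map_zero _)
      have h1 : g₁ P ≠ 0 := by
        intro h0
        have : P ∈ RingHom.ker g₁ := h0
        rw [hbot] at this
        exact hP0 this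
      have h2 : ¬ (IsLocalRing.residue w (g₀ P) = 0) := h1
      rw [IsLocalRing.residue_eq_zero_iff, IsLocalRing.mem_maximalIdeal, mem_nonunits_iff,
        not_not, isUnit_iff_inv_mem] at h2
      exact h2.2
    apply eq_top_of_algebraic (IntermediateField.adjoin κ₀ {u}).toSubfield halg w
    intro s hs
    have hs' : s ∈ IntermediateField.adjoin κ₀ {u} := hs
    rw [IntermediateField.mem_adjoin_simple_iff] at hs'
    obtain ⟨a, b, hab⟩ := hs'
    rw [hab]
    by_cases hb : Polynomial.aeval u b = 0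
    · rw [hb, div_zero]
      exact w.zero_mem
    · rw [div_eq_mul_inv]
      refine w.mul_mem _ _ (hT _ ?_) (hunit b hb)
      rw [Algebra.adjoin_singleton_eq_range_aeval]
      exact ⟨a, rfl⟩
  have hkerf : RingHom.ker f = RingHom.ker g₁ := by
    ext P
    rw [RingHom.mem_ker, RingHom.mem_ker]
    constructor
    · intro h
      have := congrArg (fun t : ψ.range => (t : F)) h
      exact this
    · intro h
      exact Subtype.ext h
  have hkermax : (RingHom.ker f).IsMaximal := by
    rw [hkerf]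
    exact Ideal.IsPrime.isMaximal (RingHom.ker_isPrime g₁) hker_ne
  -- integrality of `ψ.range` over `κ₀[X]`
  have hfint : f.IsIntegral := by
    rintro ⟨_, c, rfl⟩
    obtain ⟨P, hP, hPc⟩ := hint c
    -- lift `P` to `κ₀[X][X]`
    let e : Polynomial κ₀ →+* ↥(Algebra.adjoin κ₀ {u}) :=
      ((Polynomial.aeval u : Polynomial κ₀ →ₐ[κ₀] k) : Polynomial κ₀ →+* k).codRestrict
        (Algebra.adjoin κ₀ {u}).toSubring
        (fun Q => by
          show Polynomial.aeval u Q ∈ Algebra.adjoin κ₀ {u}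
          rw [Algebra.adjoin_singleton_eq_range_aeval]; exact ⟨Q, rfl⟩)
    have he : Function.Surjective e := by
      rintro ⟨t, ht⟩
      have ht' := ht
      rw [Algebra.adjoin_singleton_eq_range_aeval] at ht'
      obtain ⟨Q, hQ⟩ := ht'
      exact ⟨Q, Subtype.ext hQ⟩
    have hlift : P ∈ Polynomial.lifts e := by
      rw [Polynomial.lifts_iff_coeff_lifts]
      intro n
      exact Set.mem_range.mpr (he _)
    obtain ⟨Q, hQ, -, hQm⟩ := Polynomial.lifts_and_degree_eq_and_monic hlift hP
    refine ⟨Q, hQm, ?_⟩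
    -- evaluate
    apply Subtype.ext
    rw [← Subring.coe_subtype, Polynomial.hom_eval₂]
    show Polynomial.eval₂ _ (ψ c) Q = 0
    have hcomp : (ψ.range.subtype.comp f) = (IsLocalRing.residue w).comp
        ((Subring.inclusion (fun t ht => hT t ht :
          (Algebra.adjoin κ₀ {u}).toSubring ≤ w.toSubring)).comp e) := by
      ext a
      · rfl
      · rfl
    rw [hcomp]
    have hψc : ψ c = IsLocalRing.residue w (⟨r c, hrw c⟩ : w) := rfl
    rw [hψc, ← Polynomial.hom_eval₂, ← Polynomial.eval₂_map, hQ]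
    have h3 : Polynomial.eval₂ (Subring.inclusion (fun t ht => hT t ht :
        (Algebra.adjoin κ₀ {u}).toSubring ≤ w.toSubring)) (⟨r c, hrw c⟩ : w) P = 0 := by
      apply Subtype.ext
      rw [← Subring.coe_subtype, Polynomial.hom_eval₂]
      exact hPc
    rw [h3, map_zero]
  -- `⊥` is maximal in `ψ.range`
  have hbotprime : (⊥ : Ideal ψ.range).IsPrime := Ideal.isPrime_bot
  have hbotmax : (⊥ : Ideal ψ.range).IsMaximal :=
    Ideal.isMaximal_of_isIntegral_of_isMaximal_comap' f hfint ⊥ hkermax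
  have hymax : (RingHom.ker ψ).IsMaximal := by
    have h1 : RingHom.ker ψ = Ideal.comap ψ.rangeRestrict ⊥ := by
      ext c
      rw [RingHom.mem_ker, Ideal.mem_comap, Ideal.mem_bot]
      constructor
      · intro h
        exact Subtype.ext h
      · intro h
        exact congrArg (fun t : ψ.range => (t : F)) h
    rw [h1]
    exact Ideal.comap_isMaximal_of_surjective ψ.rangeRestrict ψ.rangeRestrict_surjective
  refine ⟨RingHom.ker ψ, hymax, ?_, hrw, ?_, ?_⟩
  · intro c hc
    rw [RingHom.mem_ker] at hc ⊢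
    rw [hψ0]
    exact Or.inl hc
  · intro c hc
    rw [RingHom.mem_ker, hψ0] at hc
    exact not_not.mp (not_or.mp hc).2
  · intro c hc
    rw [RingHom.mem_ker, hψ0] at hc
    exact hc

/-- **`PDivAt` from a local factorisation at the centre.**  `y` an ideal of `C` containing
`ker r` whose complement is mapped to units of `w` (the output of `exists_centre`). -/
theorem pDivAt_of_centre {p : ℕ} (w : ValuationSubring k) {C : Type*} [CommRing C] (r : C →+* k)
    (y : Ideal C) (hker : RingHom.ker r ≤ y) (hy : ∀ c : C, r c ∈ w)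
    (hy' : ∀ c : C, c ∉ y → (r c)⁻¹ ∈ w) (f h : k) (a b : C)
    (ha : a ∉ y) (hb : b ∉ y) (hf : f * r b = r a * h ^ p) :
    PDivAt p w f := by
  have hb0 : r b ≠ 0 := fun h0 => hb (hker h0)
  refine ⟨r a * (r b)⁻¹, h, ?_, ?_, ?_⟩
  · field_simp
    rw [hf]
  · exact w.mul_mem _ _ (hy a) (hy' b hb)
  · rw [mul_inv, inv_inv]
    exact w.mul_mem _ _ (hy' a ha) (hy b)

/-- The same with the unit and the `p`-th power separated: `f * r b = r a * g` with
`PDivAt p w g`. -/
theorem pDivAt_of_centre_mul {p : ℕ} (w : ValuationSubring k) {C : Type*} [CommRing C]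
    (r : C →+* k) (y : Ideal C) (hker : RingHom.ker r ≤ y) (hy : ∀ c : C, r c ∈ w)
    (hy' : ∀ c : C, c ∉ y → (r c)⁻¹ ∈ w) (f g : k) (a b : C)
    (ha : a ∉ y) (hb : b ∉ y) (hf : f * r b = r a * g) (hg : PDivAt p w g) :
    PDivAt p w f := by
  have hb0 : r b ≠ 0 := fun h0 => hb (hker h0)
  obtain ⟨u, h, hg, hu, hu'⟩ := hg
  refine ⟨r a * (r b)⁻¹ * u, h, ?_, ?_, ?_⟩
  · have h1 : f = r a * g * (r b)⁻¹ := by
      rw [← hf, mul_assoc, mul_inv_cancel₀ hb0, mul_one]
    rw [h1, hg]
    ring
  · exact w.mul_mem _ _ (w.mul_mem _ _ (hy a) (hy' b hb)) hu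
  · rw [mul_inv, mul_inv, inv_inv]
    exact w.mul_mem _ _ (w.mul_mem _ _ (hy' a ha) (hy b)) hu'

end Fermat.Agent.S44.L.Centre
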