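import Mathlib
import Fermat.Agent.S44.L.Centre
import Fermat.Agent.S44.L.Kappa
import Fermat.Agent.S44.L.ThetaKerFin
import Fermat.Agent.S36.Haupt4.Defs

/-!
# PROGRAM MR (S44), strand L: places of `redField M A` in the coordinate `u₄` (`4 ∣ M`)

`κ` the residue field of `A`, `ū = u₄ mod 𝔪_A ∈ κ((q))`, `j̄ = jqModC κ`; the modular relation
`j̄ · ū⁴ (ū + 16) = (ū² + 256 ū + 4096)³` holds in `redField M A`.

* `u4_mem_redField`, `ub` : `ū` as an element of the reduced function field;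
* `mem_iff_of_rel` (level-free) : for a valuation subring `w` in which `2` is a unit,
  `j ∈ w ↔ u ∈ w ∧ u⁻¹ ∈ w ∧ (u + 16)⁻¹ ∈ w`;
* `isFinitePl_iff` : `w` is a finite place iff `ū`, `ū⁻¹`, `(ū + 16)⁻¹ ∈ w`
  (the cusps of the `u₄`-line are `0`, `-16`, `∞`);
* `isAlgebraic_of_ub_mem`, `halg_ub`, `halg_ub_inv` : `redField M A` is algebraic over every
  subfield containing `ū`, in particular over `κ₀(ū)` and `κ₀(ū⁻¹)` for ANY subfield `κ₀`;
* `const_mem` : constants lie in every valuation subring;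
* `exists_centre_finite`, `exists_centre_cusp`, `exists_centre_inf` : `Centre.exists_centre`
  at `u = ū` (finite places; the cusps `0`, `-16`) and at `u = ū⁻¹` (the cusp `∞`), for ANY chart
  `r : C → redField M A`.
-/

set_option autoImplicit false
set_option linter.unusedSectionVars false

open HahnSeries ModularCurve

namespace Fermat.Agent.S44.L.CentreU4

open Fermat.Agent.S30 Fermat.Agent.S44.Contract Fermat.Agent.S44.L.Top
open Fermat.Agent.S36.Haupt4

local notation "Qb" => AlgebraicClosure ℚ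

/-! ### Level-free: the modular relation and a valuation subring -/

section Rel

variable {k : Type*} [Field k]

theorem inv_mem_of_mul_eq_one (w : ValuationSubring k) {t c : k} (hc : c ∈ w) (h : t * c = 1) :
    t⁻¹ ∈ w := by
  have h1 : t⁻¹ = c := inv_eq_of_mul_eq_one_right h
  rw [h1]
  exact hc

theorem ofNat_mem' (w : ValuationSubring k) (n : ℕ) : (n : k) ∈ w := by
  induction n with
  | zero => rw [Nat.cast_zero]; exact w.zero_mem
  | succ n ih => rw [Nat.cast_succ]; exact add_mem ih w.one_mem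

/-- **The `u₄`-line and the `j`-line have the same finite places.** -/
theorem mem_iff_of_rel (w : ValuationSubring k) (j u : k)
    (hrel : j * u ^ 4 * (u + 16) = (u ^ 2 + 256 * u + 4096) ^ 3)
    (h20 : (2 : k) ≠ 0) (h2 : (2 : k)⁻¹ ∈ w) (hu0 : u ≠ 0) (hu16 : u + 16 ≠ 0) :
    j ∈ w ↔ u ∈ w ∧ u⁻¹ ∈ w ∧ (u + 16)⁻¹ ∈ w := by
  have hn : ∀ n : ℕ, ((n : ℕ) : k) ∈ w := ofNat_mem' w
  have h16 : (16 : k) ∈ w := by exact_mod_cast hn 16
  have h224 : (224 : k) ∈ w := by exact_mod_cast hn 224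
  have h256 : (256 : k) ∈ w := by exact_mod_cast hn 256
  have h768 : (768 : k) ∈ w := by exact_mod_cast hn 768
  have h3 : (3 : k) ∈ w := by exact_mod_cast hn 3
  have h4096 : (4096 : k) ∈ w := by exact_mod_cast hn 4096
  have h12288 : (12288 : k) ∈ w := by exact_mod_cast hn 12288
  have h196608 : (196608 : k) ∈ w := by exact_mod_cast hn 196608
  have h50331648 : (50331648 : k) ∈ w := by exact_mod_cast hn 50331648
  have hpow2 : ∀ n : ℕ, ((2 : k) ^ n)⁻¹ ∈ w := by
    intro n
    rw [← inv_pow]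
    exact pow_mem h2 n
  constructor
  · intro hj
    -- `u ∈ w`
    have hu : u ∈ w := by
      by_contra hu
      have ht : u⁻¹ ∈ w := (w.mem_or_inv_mem u).resolve_left hu
      set t := u⁻¹ with htdef
      have hut : u * t = 1 := mul_inv_cancel₀ hu0
      have h1 : j * (u * t) ^ 4 * (u * t + 16 * t) * t
          = ((u * t) ^ 2 + 256 * (u * t) * t + 4096 * t ^ 2) ^ 3 := by
        calc j * (u * t) ^ 4 * (u * t + 16 * t) * t
            = j * u ^ 4 * (u + 16) * t ^ 6 := by ring
          _ = (u ^ 2 + 256 * u + 4096) ^ 3 * t ^ 6 := by rw [hrel]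
          _ = ((u * t) ^ 2 + 256 * (u * t) * t + 4096 * t ^ 2) ^ 3 := by ring
      rw [hut] at h1
      have hc : j * (1 + 16 * t) - (256 + 4096 * t) * (3 + 3 * (256 * t + 4096 * t ^ 2)
          + (256 * t + 4096 * t ^ 2) ^ 2) ∈ w := by
        have hx : 256 * t + 4096 * t ^ 2 ∈ w :=
          add_mem (mul_mem h256 ht) (mul_mem h4096 (pow_mem ht 2))
        refine sub_mem (mul_mem hj (add_mem w.one_mem (mul_mem h16 ht))) ?_
        refine mul_mem (add_mem h256 (mul_mem h4096 ht)) ?_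
        exact add_mem (add_mem h3 (mul_mem h3 hx)) (pow_mem hx 2)
      have hmul : t * (j * (1 + 16 * t) - (256 + 4096 * t) * (3 + 3 * (256 * t + 4096 * t ^ 2)
          + (256 * t + 4096 * t ^ 2) ^ 2)) = 1 := by
        linear_combination h1
      have := inv_mem_of_mul_eq_one w hc hmul
      rw [htdef, inv_inv] at this
      exact hu this
    -- `u⁻¹ ∈ w`
    have hui : u⁻¹ ∈ w := by
      have hc : (j * u ^ 3 * (u + 16) - (u + 256) * ((u ^ 2 + 256 * u) ^ 2
          + 12288 * (u ^ 2 + 256 * u) + 50331648)) * ((2 : k) ^ 36)⁻¹ ∈ w := by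
        have hX : u ^ 2 + 256 * u ∈ w := add_mem (pow_mem hu 2) (mul_mem h256 hu)
        refine mul_mem (sub_mem ?_ ?_) (hpow2 36)
        · exact mul_mem (mul_mem hj (pow_mem hu 3)) (add_mem hu h16)
        · refine mul_mem (add_mem hu h256) ?_
          exact add_mem (add_mem (pow_mem hX 2) (mul_mem h12288 hX))
            h50331648
      have h236 : ((2 : k) ^ 36) ≠ 0 := pow_ne_zero _ h20
      have hmul : u * ((j * u ^ 3 * (u + 16) - (u + 256) * ((u ^ 2 + 256 * u) ^ 2
          + 12288 * (u ^ 2 + 256 * u) + 50331648)) * ((2 : k) ^ 36)⁻¹) = 1 := by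
        have h0 : u * (j * u ^ 3 * (u + 16) - (u + 256) * ((u ^ 2 + 256 * u) ^ 2
            + 12288 * (u ^ 2 + 256 * u) + 50331648)) = (2 : k) ^ 36 := by
          linear_combination hrel
        rw [← mul_assoc, h0, mul_inv_cancel₀ h236]
      exact inv_mem_of_mul_eq_one w hc hmul
    -- `(u + 16)⁻¹ ∈ w`
    have hy : u + 16 ∈ w := add_mem hu h16
    have hyi : (u + 16)⁻¹ ∈ w := by
      have hc : (j * u ^ 4 - (u + 16 + 224) * (((u + 16) ^ 2 + 224 * (u + 16)) ^ 2
          + 768 * ((u + 16) ^ 2 + 224 * (u + 16)) + 196608)) * ((2 : k) ^ 24)⁻¹ ∈ w := by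
        have hY : (u + 16) ^ 2 + 224 * (u + 16) ∈ w :=
          add_mem (pow_mem hy 2) (mul_mem h224 hy)
        refine mul_mem (sub_mem ?_ ?_) (hpow2 24)
        · exact mul_mem hj (pow_mem hu 4)
        · refine mul_mem (add_mem hy h224) ?_
          exact add_mem (add_mem (pow_mem hY 2) (mul_mem h768 hY)) h196608
      have h224' : ((2 : k) ^ 24) ≠ 0 := pow_ne_zero _ h20
      have hmul : (u + 16) * ((j * u ^ 4 - (u + 16 + 224) * (((u + 16) ^ 2 + 224 * (u + 16)) ^ 2
          + 768 * ((u + 16) ^ 2 + 224 * (u + 16)) + 196608)) * ((2 : k) ^ 24)⁻¹) = 1 := by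
        have h0 : (u + 16) * (j * u ^ 4 - (u + 16 + 224) * (((u + 16) ^ 2 + 224 * (u + 16)) ^ 2
            + 768 * ((u + 16) ^ 2 + 224 * (u + 16)) + 196608)) = (2 : k) ^ 24 := by
          linear_combination hrel
        rw [← mul_assoc, h0, mul_inv_cancel₀ h224']
      exact inv_mem_of_mul_eq_one w hc hmul
    exact ⟨hu, hui, hyi⟩
  · rintro ⟨hu, hui, hyi⟩
    have hj : j = (u ^ 2 + 256 * u + 4096) ^ 3 * (u⁻¹ ^ 4 * (u + 16)⁻¹) := by
      rw [inv_pow, ← mul_inv, ← div_eq_mul_inv, eq_div_iff (mul_ne_zero (pow_ne_zero 4 hu0) hu16)]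
      linear_combination hrel
    rw [hj]
    refine mul_mem (pow_mem ?_ 3) (mul_mem (pow_mem hui 4) hyi)
    exact add_mem (add_mem (pow_mem hu 2) (mul_mem h256 hu)) h4096

/-- Algebraicity is monotone in the base subfield. -/
theorem isAlgebraic_of_le {K₁ K₂ : Subfield k} (h : K₁ ≤ K₂) {x : k} (hx : IsAlgebraic K₁ x) :
    IsAlgebraic K₂ x := by
  obtain ⟨P, hP0, hPx⟩ := hx
  refine ⟨P.map (Subfield.inclusion h), ?_, ?_⟩
  · rwa [Ne, Polynomial.map_eq_zero_iff (Subfield.inclusion h).injective]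
  · rw [Polynomial.aeval_def, Polynomial.eval₂_map]
    exact hPx

/-- Transitivity of algebraicity, subfield form: if every element of `K₁` is algebraic over `K₂`
then every element algebraic over `K₁` is algebraic over `K₂`. -/
theorem isAlgebraic_trans_subfield (K₁ K₂ : Subfield k) (h : ∀ y ∈ K₁, IsAlgebraic K₂ y) {x : k}
    (hx : IsAlgebraic K₁ x) : IsAlgebraic K₂ x := by
  have hle : K₁ ≤ (algebraicClosure K₂ k).toSubfield := fun y hy =>
    (mem_algebraicClosure_iff (F := K₂) (E := k)).mpr (h y hy)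
  have h1 : IsAlgebraic (algebraicClosure K₂ k).toSubfield x := isAlgebraic_of_le hle hx
  have h2 : IsAlgebraic (algebraicClosure K₂ k) x := h1
  exact h2.restrictScalars K₂

end Rel

/-! ### The coordinate `ū` of the reduced field -/

variable (M : ℕ) [NeZero M] (A : ValuationSubring Qb)

/-- `ū = u₄ mod 𝔪_A` lies in the reduced function field of level `M`, `4 ∣ M`. -/
theorem u4_mem_redField (h4 : 4 ∣ M) : u4 (IsLocalRing.ResidueField A) ∈ redField M A := by
  refine Subfield.subset_closure ⟨u4 A, 1, ?_, ?_, ?_, ?_⟩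
  · have h1 : Congr.incl A (u4 A) = u4 Qb := coeffMap_u4 _
    rw [h1]
    exact u4_mem_laurentBaseChange Qb h4
  · rw [map_one]
    exact (E4.Fb M).one_mem
  · rw [map_one]
    exact one_ne_zero
  · rw [map_one, mul_one]
    exact (coeffMap_u4 _).symm

/-- `ū` as an element of the reduced function field. -/
noncomputable def ub (h4 : 4 ∣ M) : redField M A :=
  ⟨u4 (IsLocalRing.ResidueField A), u4_mem_redField M A h4⟩

theorem coe_ub (h4 : 4 ∣ M) :
    ((ub M A h4 : redField M A) : LaurentSeries (IsLocalRing.ResidueField A))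
      = u4 (IsLocalRing.ResidueField A) := rfl

theorem ub_ne_zero (h4 : 4 ∣ M) : ub M A h4 ≠ 0 := by
  intro h
  have h1 := congrArg (fun t : redField M A =>
    (t : LaurentSeries (IsLocalRing.ResidueField A)).coeff (-1)) h
  simp only [coe_ub, coeff_u4_neg_one] at h1
  exact one_ne_zero h1

theorem coe_ofNat_redField (n : ℕ) [n.AtLeastTwo] :
    ((OfNat.ofNat n : redField M A) : LaurentSeries (IsLocalRing.ResidueField A))
      = OfNat.ofNat n := rfl

theorem ub_add_ne_zero (h4 : 4 ∣ M) : ub M A h4 + 16 ≠ 0 := by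
  intro h
  have h1 := congrArg (fun t : redField M A =>
    (t : LaurentSeries (IsLocalRing.ResidueField A)).coeff (-1)) h
  have h2 : ((ub M A h4 + 16 : redField M A) : LaurentSeries (IsLocalRing.ResidueField A))
      = u4 (IsLocalRing.ResidueField A)
        + HahnSeries.C (16 : IsLocalRing.ResidueField A) := by
    rw [map_ofNat]
    rfl
  simp only [h2, HahnSeries.coeff_add, coeff_u4_neg_one, HahnSeries.C_apply] at h1
  rw [HahnSeries.coeff_single_of_ne (by norm_num)] at h1
  simp at h1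

/-- The modular relation in the reduced field. -/
theorem rel_ub (h4 : 4 ∣ M) (jb : redField M A)
    (hjb : (jb : LaurentSeries (IsLocalRing.ResidueField A))
      = jqModC (IsLocalRing.ResidueField A)) :
    jb * ub M A h4 ^ 4 * (ub M A h4 + 16)
      = (ub M A h4 ^ 2 + 256 * ub M A h4 + 4096) ^ 3 := by
  apply Subtype.ext
  have h := jq_mul_u4 (IsLocalRing.ResidueField A)
  rw [← hjb] at h
  exact h

variable {M A}

section Places

variable {p : ℕ} (hp : p.Prime) (hA : A.LiesOverPrime p)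
include hp hA

theorem two_ne_zero' (hp2 : p ≠ 2) : (2 : IsLocalRing.ResidueField A) ≠ 0 := by
  have := Kappa.charP_residueField hp hA
  intro h
  have h1 : ((2 : ℕ) : IsLocalRing.ResidueField A) = 0 := by exact_mod_cast h
  rw [CharP.cast_eq_zero_iff (IsLocalRing.ResidueField A) p] at h1
  exact hp2 ((Nat.prime_dvd_prime_iff_eq hp Nat.prime_two).mp h1)

/-- Constants of the reduced field lie in every valuation subring. -/
theorem const_mem (w : ValuationSubring (redField M A)) (s : redField M A)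
    (hs : ∃ e : IsLocalRing.ResidueField A,
      (s : LaurentSeries (IsLocalRing.ResidueField A)) = HahnSeries.C e) : s ∈ w := by
  obtain ⟨e, he⟩ := hs
  by_cases h0 : e = 0
  · have : s = 0 := by
      apply Subtype.ext
      rw [he, h0, map_zero]
      rfl
    rw [this]
    exact w.zero_mem
  · exact (Kappa.unit_of_coe_eq_C hp hA w s h0 he).1

theorem two_inv_mem (hp2 : p ≠ 2) (w : ValuationSubring (redField M A)) :
    (2 : redField M A)⁻¹ ∈ w ∧ (2 : redField M A) ≠ 0 := by
  have h2 := two_ne_zero' hp hA hp2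
  have hco : ((2 : redField M A) : LaurentSeries (IsLocalRing.ResidueField A))
      = HahnSeries.C (2 : IsLocalRing.ResidueField A) := by
    rw [map_ofNat]
    rfl
  refine ⟨(Kappa.unit_of_coe_eq_C hp hA w (2 : redField M A) h2 hco).2, ?_⟩
  intro h
  have h3 : (HahnSeries.C (2 : IsLocalRing.ResidueField A) :
      LaurentSeries (IsLocalRing.ResidueField A)) = 0 := by
    rw [← hco, h]
    rfl
  exact h2 ((map_eq_zero_iff _ HahnSeries.C_injective).1 h3)

/-- **Finite places in the coordinate `ū`.** -/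
theorem isFinitePl_iff (hp2 : p ≠ 2) (h4 : 4 ∣ M) (w : ValuationSubring (redField M A)) :
    IsFinitePl M A w ↔
      ub M A h4 ∈ w ∧ (ub M A h4)⁻¹ ∈ w ∧ (ub M A h4 + 16)⁻¹ ∈ w := by
  obtain ⟨h2i, h20⟩ := two_inv_mem hp hA hp2 w
  constructor
  · rintro ⟨jb, hjb, hjw⟩
    exact (mem_iff_of_rel w jb (ub M A h4) (rel_ub M A h4 jb hjb) h20 h2i (ub_ne_zero M A h4)
      (ub_add_ne_zero M A h4)).mp hjw
  · intro h
    obtain ⟨κ₀, t, -, -, ht, -, -⟩ := ThetaKerFin.redFinStatement p M hp A hA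
    exact ⟨t, ht, (mem_iff_of_rel w t (ub M A h4) (rel_ub M A h4 t ht) h20 h2i
      (ub_ne_zero M A h4) (ub_add_ne_zero M A h4)).mpr h⟩

/-- **`redField M A` is algebraic over every subfield containing `ū`.** -/
theorem isAlgebraic_of_ub_mem (h4 : 4 ∣ M) (K₂ : Subfield (redField M A))
    (hub : ub M A h4 ∈ K₂) (x : redField M A) : IsAlgebraic K₂ x := by
  obtain ⟨κ₀, t, hκ₀, -, ht, -, hfin⟩ := ThetaKerFin.redFinStatement p M hp A hA
  have hx : IsAlgebraic (IntermediateField.adjoin κ₀ {t}).toSubfield x :=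
    (Algebra.IsAlgebraic.of_finite (IntermediateField.adjoin κ₀ {t}) (redField M A)).isAlgebraic x
  refine isAlgebraic_trans_subfield _ K₂ ?_ hx
  -- the generators of `κ₀(t)` are algebraic over `K₂`
  have hle : (IntermediateField.adjoin κ₀ {t}).toSubfield
      ≤ (algebraicClosure K₂ (redField M A)).toSubfield := by
    rw [IntermediateField.adjoin_toSubfield, Subfield.closure_le]
    rintro y (⟨s, rfl⟩ | hy)
    · -- a constant
      show algebraMap κ₀ (redField M A) s ∈ algebraicClosure K₂ (redField M A)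
      rw [mem_algebraicClosure_iff]
      obtain ⟨e, he⟩ := (hκ₀ (s : redField M A)).mp s.2
      by_cases h0 : e = 0
      · have : (algebraMap κ₀ (redField M A) s) = 0 := by
          apply Subtype.ext
          show ((s : redField M A) : LaurentSeries (IsLocalRing.ResidueField A)) = _
          rw [he, h0, map_zero]
          rfl
        rw [this]
        exact isAlgebraic_zero
      · obtain ⟨n, hn, hpow⟩ := Kappa.exists_pow_eq_one hp hA e h0
        have hs : (algebraMap κ₀ (redField M A) s) ^ n = 1 := by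
          apply Subtype.ext
          show ((s : redField M A) : LaurentSeries (IsLocalRing.ResidueField A)) ^ n = 1
          rw [he, ← map_pow, hpow, map_one]
        refine ⟨Polynomial.X ^ n - Polynomial.C 1, Polynomial.X_pow_sub_C_ne_zero hn 1, ?_⟩
        rw [map_sub, map_pow, Polynomial.aeval_X, Polynomial.aeval_C, map_one, hs, sub_self]
    · -- `t = j̄`
      rw [Set.mem_singleton_iff] at hy
      rw [hy]
      show t ∈ algebraicClosure K₂ (redField M A)
      rw [mem_algebraicClosure_iff]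
      have hrel := rel_ub M A h4 t ht
      have ht' : t = (ub M A h4 ^ 2 + 256 * ub M A h4 + 4096) ^ 3
          / (ub M A h4 ^ 4 * (ub M A h4 + 16)) := by
        rw [eq_div_iff (mul_ne_zero (pow_ne_zero 4 (ub_ne_zero M A h4)) (ub_add_ne_zero M A h4))]
        linear_combination hrel
      have htK : t ∈ K₂ := by
        rw [ht']
        have hnat : ∀ n : ℕ, ((n : ℕ) : redField M A) ∈ K₂ := fun n => natCast_mem K₂ n
        have h16 : (16 : redField M A) ∈ K₂ := by exact_mod_cast hnat 16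
        have h256 : (256 : redField M A) ∈ K₂ := by exact_mod_cast hnat 256
        have h4096 : (4096 : redField M A) ∈ K₂ := by exact_mod_cast hnat 4096
        exact div_mem (pow_mem (add_mem (add_mem (pow_mem hub 2)
          (mul_mem h256 hub)) h4096) 3) (mul_mem (pow_mem hub 4) (add_mem hub h16))
      exact isAlgebraic_algebraMap (⟨t, htK⟩ : K₂)
  intro y hy
  exact (mem_algebraicClosure_iff (F := K₂) (E := redField M A)).mp (hle hy)

theorem halg_ub (h4 : 4 ∣ M) (κ₀ : Subfield (redField M A)) (x : redField M A) :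
    IsAlgebraic ↥(IntermediateField.adjoin κ₀ {ub M A h4}) x :=
  isAlgebraic_of_ub_mem hp hA h4 (IntermediateField.adjoin κ₀ {ub M A h4}).toSubfield
    (IntermediateField.mem_adjoin_simple_self κ₀ (ub M A h4)) x

theorem halg_ub_inv (h4 : 4 ∣ M) (κ₀ : Subfield (redField M A)) (x : redField M A) :
    IsAlgebraic ↥(IntermediateField.adjoin κ₀ {(ub M A h4)⁻¹}) x := by
  refine isAlgebraic_of_ub_mem hp hA h4
    (IntermediateField.adjoin κ₀ {(ub M A h4)⁻¹}).toSubfield ?_ x
  have h := IntermediateField.mem_adjoin_simple_self κ₀ (ub M A h4)⁻¹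
  have h' := (IntermediateField.adjoin κ₀ {(ub M A h4)⁻¹}).inv_mem h
  rwa [inv_inv] at h'

/-- **The centre of a finite place** on any chart `r : C → redField M A` whose image contains
the constants `κ₀` and `ū` and is integral over `κ₀[ū]`: a maximal ideal `y ⊇ ker r` which
contains neither the coordinate nor the coordinate `+ 16`. -/
theorem exists_centre_finite (hp2 : p ≠ 2) (h4 : 4 ∣ M) (κ₀ : Subfield (redField M A))
    (hκ₀ : ∀ s ∈ κ₀, ∃ e : IsLocalRing.ResidueField A,
      ((s : redField M A) : LaurentSeries (IsLocalRing.ResidueField A)) = HahnSeries.C e)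
    (w : ValuationSubring (redField M A)) (hw : w ≠ ⊤) (hfin : IsFinitePl M A w)
    {C : Type*} [CommRing C] (r : C →+* redField M A) (hκr : ∀ s ∈ κ₀, ∃ c : C, r c = s)
    (hur : ∃ c : C, r c = ub M A h4)
    (hint : ∀ c : C, IsIntegral ↥(Algebra.adjoin κ₀ {ub M A h4}) (r c)) :
    ∃ y : Ideal C, y.IsMaximal ∧ RingHom.ker r ≤ y ∧ (∀ c : C, r c ∈ w) ∧
      (∀ c : C, c ∉ y → (r c)⁻¹ ∈ w) ∧ (∀ c : C, c ∈ y → r c = 0 ∨ (r c)⁻¹ ∉ w) ∧
      (∀ c : C, r c = ub M A h4 → c ∉ y) ∧ (∀ c : C, r c = ub M A h4 + 16 → c ∉ y) := by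
  obtain ⟨hu, hui, hyi⟩ := (isFinitePl_iff hp hA hp2 h4 w).mp hfin
  obtain ⟨y, hmax, hker, h1, h2, h3⟩ := Centre.exists_centre κ₀ (ub M A h4)
    (halg_ub hp hA h4 κ₀) w (fun s hs => const_mem hp hA w s (hκ₀ s hs)) hu hw r hκr hur hint
  refine ⟨y, hmax, hker, h1, h2, h3, ?_, ?_⟩
  · intro c hc hcy
    rcases h3 c hcy with h0 | h0
    · rw [hc] at h0
      exact ub_ne_zero M A h4 h0
    · rw [hc] at h0
      exact h0 hui
  · intro c hc hcy
    rcases h3 c hcy with h0 | h0
    · rw [hc] at h0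
      exact ub_add_ne_zero M A h4 h0
    · rw [hc] at h0
      exact h0 hyi

/-- **The centre of a non-finite place with `ū ∈ w`** (the cusps `0`, `-16` of the `u₄`-line):
`y` contains the coordinate or the coordinate `+ 16`. -/
theorem exists_centre_cusp (hp2 : p ≠ 2) (h4 : 4 ∣ M) (κ₀ : Subfield (redField M A))
    (hκ₀ : ∀ s ∈ κ₀, ∃ e : IsLocalRing.ResidueField A,
      ((s : redField M A) : LaurentSeries (IsLocalRing.ResidueField A)) = HahnSeries.C e)
    (w : ValuationSubring (redField M A)) (hfin : ¬ IsFinitePl M A w) (hu : ub M A h4 ∈ w)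
    {C : Type*} [CommRing C] (r : C →+* redField M A) (hκr : ∀ s ∈ κ₀, ∃ c : C, r c = s)
    (hur : ∃ c : C, r c = ub M A h4)
    (hint : ∀ c : C, IsIntegral ↥(Algebra.adjoin κ₀ {ub M A h4}) (r c)) :
    ∃ y : Ideal C, y.IsMaximal ∧ RingHom.ker r ≤ y ∧ (∀ c : C, r c ∈ w) ∧
      (∀ c : C, c ∉ y → (r c)⁻¹ ∈ w) ∧ (∀ c : C, c ∈ y → r c = 0 ∨ (r c)⁻¹ ∉ w) ∧
      ((∀ c : C, r c = ub M A h4 → c ∈ y) ∨ (∀ c : C, r c = ub M A h4 + 16 → c ∈ y)) := by
  have hw : w ≠ ⊤ := by
    rintro rfl
    exact hfin ((isFinitePl_iff hp hA hp2 h4 ⊤).mpr ⟨trivial, trivial, trivial⟩)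
  obtain ⟨y, hmax, hker, h1, h2, h3⟩ := Centre.exists_centre κ₀ (ub M A h4)
    (halg_ub hp hA h4 κ₀) w (fun s hs => const_mem hp hA w s (hκ₀ s hs)) hu hw r hκr hur hint
  refine ⟨y, hmax, hker, h1, h2, h3, ?_⟩
  by_contra hcon
  rw [not_or] at hcon
  obtain ⟨hc1, hc2⟩ := hcon
  rw [not_forall] at hc1 hc2
  obtain ⟨c1, hc1⟩ := hc1
  obtain ⟨c2, hc2⟩ := hc2
  rw [Classical.not_imp] at hc1 hc2
  apply hfin
  rw [isFinitePl_iff hp hA hp2 h4 w]
  refine ⟨hu, ?_, ?_⟩
  · rw [← hc1.1]
    exact h2 c1 hc1.2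
  · rw [← hc2.1]
    exact h2 c2 hc2.2

/-- **The centre of a place with `ū ∉ w`** (the cusp `∞` of the `u₄`-line) on a chart at
infinity `r : C → redField M A` (image containing `κ₀` and `ū⁻¹`, integral over `κ₀[ū⁻¹]`):
`y` contains the coordinate `1/u₄`. -/
theorem exists_centre_inf (h4 : 4 ∣ M) (κ₀ : Subfield (redField M A))
    (hκ₀ : ∀ s ∈ κ₀, ∃ e : IsLocalRing.ResidueField A,
      ((s : redField M A) : LaurentSeries (IsLocalRing.ResidueField A)) = HahnSeries.C e)
    (w : ValuationSubring (redField M A)) (hu : ub M A h4 ∉ w)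
    {C : Type*} [CommRing C] (r : C →+* redField M A) (hκr : ∀ s ∈ κ₀, ∃ c : C, r c = s)
    (hur : ∃ c : C, r c = (ub M A h4)⁻¹)
    (hint : ∀ c : C, IsIntegral ↥(Algebra.adjoin κ₀ {(ub M A h4)⁻¹}) (r c)) :
    ∃ y : Ideal C, y.IsMaximal ∧ RingHom.ker r ≤ y ∧ (∀ c : C, r c ∈ w) ∧
      (∀ c : C, c ∉ y → (r c)⁻¹ ∈ w) ∧ (∀ c : C, c ∈ y → r c = 0 ∨ (r c)⁻¹ ∉ w) ∧
      (∀ c : C, r c = (ub M A h4)⁻¹ → c ∈ y) := by
  have hw : w ≠ ⊤ := by
    rintro rfl
    exact hu trivial
  have hui : (ub M A h4)⁻¹ ∈ w := (w.mem_or_inv_mem _).resolve_left hu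
  obtain ⟨y, hmax, hker, h1, h2, h3⟩ := Centre.exists_centre κ₀ (ub M A h4)⁻¹
    (halg_ub_inv hp hA h4 κ₀) w (fun s hs => const_mem hp hA w s (hκ₀ s hs)) hui hw r hκr hur
    hint
  refine ⟨y, hmax, hker, h1, h2, h3, ?_⟩
  intro c hc
  by_contra hcy
  have := h2 c hcy
  rw [hc, inv_inv] at this
  exact hu this

end Places

end Fermat.Agent.S44.L.CentreU4
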