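import Mathlib
import Fermat.Agent.S44.L.ThetaKer

/-!
# "Regular at every place ⟹ constant"

* `isIntegral_of_forall_mem_valuationSubring` (level-free, Mathlib only): an element of a field
  `k ⊇ κ` lying in every valuation subring of `k` containing `κ` is integral over `κ`.
* `exists_eq_C_of_forall_mem` : an element of the reduced function field `redField N A` lying in
  EVERY valuation subring of `redField N A` is a constant series `C c`, `c ∈ κ`.
-/

set_option autoImplicit false
set_option linter.style.haveILetI false

namespace Fermat.Agent.S44.L.ConstRed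

open Polynomial

open Fermat.Agent.S44.Contract

local notation "Qb" => AlgebraicClosure ℚ

theorem isIntegral_of_forall_mem_valuationSubring {κ k : Type*} [Field κ] [Field k]
    [Algebra κ k] (h : k)
    (hw : ∀ w : ValuationSubring k, (∀ c : κ, algebraMap κ k c ∈ w) → h ∈ w) :
    IsIntegral κ h := by
  have h1 : h ∈ (⨅ V : {V : ValuationSubring k //
      ((algebraMap κ k).range : Set k) ⊆ V.toSubring}, V.1.toSubring) := by
    rw [Subring.mem_iInf]
    rintro ⟨V, hV⟩
    exact hw V (fun c => hV ⟨c, rfl⟩)
  rw [iInf_valuationSubring_superset] at h1
  have h2 : IsIntegral (Subring.closure ((algebraMap κ k).range : Set k)) h := h1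
  rw [Subring.closure_eq] at h2
  obtain ⟨P, hP, hPh⟩ := h2
  obtain ⟨Q, hQ⟩ := Polynomial.map_surjective (algebraMap κ k).rangeRestrict
    (algebraMap κ k).rangeRestrict_surjective P
  have hinj : Function.Injective (algebraMap κ k).rangeRestrict := by
    intro a b hab
    have := congrArg Subtype.val hab
    exact (algebraMap κ k).injective this
  refine ⟨Q, monic_of_injective hinj (by rw [hQ]; exact hP), ?_⟩
  have h3 : (algebraMap (algebraMap κ k).range k).comp (algebraMap κ k).rangeRestrict =
      algebraMap κ k := by
    ext c; rfl
  rw [← h3, ← eval₂_map, hQ]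
  exact hPh

/-- An element of the reduced function field which lies in every valuation subring is a
constant. -/
theorem exists_eq_C_of_forall_mem (N : ℕ) (A : ValuationSubring Qb) (h : redField N A)
    (hw : ∀ w : ValuationSubring (redField N A), h ∈ w) :
    ∃ c : IsLocalRing.ResidueField A,
      (h : LaurentSeries (IsLocalRing.ResidueField A)) = HahnSeries.C c := by
  letI : Algebra (IsLocalRing.ResidueField A) (redField N A) :=
    ((HahnSeries.C : IsLocalRing.ResidueField A →+*
      LaurentSeries (IsLocalRing.ResidueField A)).codRestrict (redField N A)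
      (ThetaKer.C_mem_redField N A)).toAlgebra
  haveI : IsAlgClosed (IsLocalRing.ResidueField A) :=
    Fermat.Agent.S41.NonEis.Basics.isAlgClosed_residueField A
  have hint : IsIntegral (IsLocalRing.ResidueField A) h :=
    isIntegral_of_forall_mem_valuationSubring h (fun w _ => hw w)
  have hdeg := IsAlgClosed.degree_eq_one_of_irreducible (IsLocalRing.ResidueField A)
    (minpoly.irreducible hint)
  obtain ⟨c, hc⟩ := minpoly.mem_range_of_degree_eq_one (IsLocalRing.ResidueField A) h hdeg
  refine ⟨c, ?_⟩
  rw [← hc]
  rfl

end Fermat.Agent.S44.L.ConstRed
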