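import Mathlib
import Fermat.Agent.S44.L.CentreChart
import Fermat.Agent.S36.LevelQInstAlt
import Fermat.Agent.S36.SqChart.Coord4

/-!
# PROGRAM MR (S44), strand L: the chart side of the centre seam at `u₄`

`CentreChart.rInf` at the two charts of the auxiliary model of level `M p` (`4 ∣ M`):

* the `u₄`-chart `Chart (OE A K) (α u₄)` of `NodeC1Inst.node_u4_OE` / `smooth_inf_u4_OE`
  (`u' = u4E M K h4`, `U = u4 (OE A K)`, `hσu = LevelQInstAlt.hσu_u4 M p K h4`): `rInf4`, with
  the reduction of the coordinate equal to `Haupt4.u4 κ`;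
* the chart at infinity `Chart (OE A K) (α u₄⁻¹)` (`u' = (u4E M K h4)⁻¹`,
  `U = HauptU.E.posO (OE A K) Coord4.s4Z`, `hσu = Coord4.hσ1u_s4 M K p h4`): `rInf4Inf`, with
  the reduction of the coordinate equal to `(Haupt4.u4 κ)⁻¹`.

For each: `coe`, `ker`, and the binders `hκr` / `hur` / `hint` of `Centre.exists_centre` at
`k := redField M A`, `u := ub` resp. `u := ub⁻¹`, where `ub : redField M A` is any element with
`(ub : κ((q))) = Haupt4.u4 κ`.
-/

set_option autoImplicit false
set_option linter.unusedSectionVars false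
set_option linter.unusedVariables false
set_option linter.style.haveILetI false
set_option synthInstance.maxHeartbeats 400000
set_option maxHeartbeats 1000000

open ModularCurve Polynomial

noncomputable section

namespace Fermat.Agent.S44.L.CentreChartU4

open Fermat.Agent.S18.K1Defs Fermat.Agent.S18.K1Main Fermat.Agent.S18.K1Top
open Fermat.Agent.S30 Fermat.Agent.S30.AuxLevel
open Fermat.Agent.S34 Fermat.Agent.S34.TwoPrimesRank Fermat.Agent.S34.HauptU.Plug
open Fermat.Agent.S34.TwoPrimesGauss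
open Fermat.Agent.S36.Haupt4 Fermat.Agent.S36.LevelQInstAlt
open Fermat.Agent.S44.Contract Fermat.Agent.S44.L.RedTransfer Fermat.Agent.S44.L.CentreChart

local notation "Qb" => AlgebraicClosure ℚ

/-! ### The reductions of the two integral series -/

section Series

variable (A : ValuationSubring Qb) (K : IntermediateField ℚ Qb)

/-- The reduction of the `q`-expansion of `u₄`. -/
theorem red_up_u4 :
    Congr.red A (up A K (u4 (OE A K))) = u4 (IsLocalRing.ResidueField A) := by
  show coeffMap (IsLocalRing.residue A) (coeffMap (inclOA A K) (u4 (OE A K))) = _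
  rw [coeffMap_u4, coeffMap_u4]

/-- `posO` commutes with coefficient maps. -/
theorem coeffMap_posO {R S : Type*} [CommRing R] [CommRing S] (f : R →+* S) (a : PowerSeries ℤ) :
    coeffMap f (HauptU.E.posO R a) = HauptU.E.posO S a := by
  show coeffMap f (coeffMap (Int.castRingHom R) _) = coeffMap (Int.castRingHom S) _
  rw [coeffMap_coeffMap]
  exact coeffMap_congr (RingHom.ext_int _ _) _

/-- The reduction of the `q`-expansion of `u₄⁻¹`. -/
theorem red_up_s4 :
    Congr.red A (up A K (HauptU.E.posO (OE A K) Fermat.Agent.S36.SqChart.Coord4.s4Z)) =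
      HauptU.E.posO (IsLocalRing.ResidueField A) Fermat.Agent.S36.SqChart.Coord4.s4Z := by
  show coeffMap (IsLocalRing.residue A) (coeffMap (inclOA A K) _) = _
  rw [coeffMap_posO, coeffMap_posO]

/-- `posO κ s4Z = em κ s4Z`. -/
theorem posO_s4Z_eq_em (κ : Type*) [CommRing κ] :
    HauptU.E.posO κ Fermat.Agent.S36.SqChart.Coord4.s4Z =
      em κ Fermat.Agent.S36.SqChart.Coord4.s4Z := by
  show coeffMap (Int.castRingHom κ) (HahnSeries.ofPowerSeries ℤ ℤ _) = _
  rw [Congr.coeffMap_ofPowerSeries, em_apply]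

/-- Over a field, `posO κ s4Z` is the inverse of `u₄`. -/
theorem posO_s4Z_eq_inv (κ : Type*) [Field κ] :
    HauptU.E.posO κ Fermat.Agent.S36.SqChart.Coord4.s4Z = (u4 κ)⁻¹ := by
  rw [posO_s4Z_eq_em]
  exact eq_inv_of_mul_eq_one_right (Fermat.Agent.S36.SqChart.Coord4.u4_mul_em_s4Z κ)

/-- The reduction of the `q`-expansion of `u₄⁻¹` is the inverse of the reduction of `u₄`. -/
theorem red_up_s4_eq_inv :
    Congr.red A (up A K (HauptU.E.posO (OE A K) Fermat.Agent.S36.SqChart.Coord4.s4Z)) =
      (u4 (IsLocalRing.ResidueField A))⁻¹ := by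
  rw [red_up_s4, posO_s4Z_eq_inv]

end Series

variable (M p : ℕ) [NeZero M] [NeZero p] (A : ValuationSubring Qb)
  (K : IntermediateField ℚ Qb) [IsDiscreteValuationRing (OE A K)]
  [Fact p.Prime] (hA : A.LiesOverPrime p) (hred : HRed M p A K)
  (π : OE A K) (hπ : Irreducible π) (h4 : 4 ∣ M)

/-! ### The `u₄`-chart -/

/-- **The reduction at infinity of the `u₄`-chart of level `M p` into `redField M A`.** -/
def rInf4 :
    letI := algebraOL (OE A K) K (LE (M * p) K)
    Chart (OE A K) (alphaHom M p K (u4E M K h4)) →+* redField M A :=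
  rInf M p A K hA hred π hπ (u4E M K h4) (u4 (OE A K)) (hσu_u4 M p K h4)

theorem coe_rInf4 :
    letI := algebraOL (OE A K) K (LE (M * p) K)
    haveI := isScalarTower_OL (OE A K) K (LE (M * p) K)
    ∀ c : Chart (OE A K) (alphaHom M p K (u4E M K h4)),
      ((rInf4 M p A K hA hred π hπ h4 c : redField M A) :
          LaurentSeries (IsLocalRing.ResidueField A)) =
        kmap A K (redInf π hπ (alphaHom M p K) (sigmaHom (M * p) K)
          (sigmaHom_algebraMap (M * p) K) (sigmaHom_mem_fracField (M * p) K A)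
          (u4E M K h4) (u4 (OE A K)) (hσu_u4 M p K h4) c) :=
  fun _ => rfl

/-- `ker rInf4 = p_∞`, the `∞`-component of `node_u4_OE`. -/
theorem ker_rInf4 :
    letI := algebraOL (OE A K) K (LE (M * p) K)
    haveI := isScalarTower_OL (OE A K) K (LE (M * p) K)
    RingHom.ker (rInf4 M p A K hA hred π hπ h4) =
      RingHom.ker (redInf π hπ (alphaHom M p K) (sigmaHom (M * p) K)
        (sigmaHom_algebraMap (M * p) K) (sigmaHom_mem_fracField (M * p) K A)
        (u4E M K h4) (u4 (OE A K)) (hσu_u4 M p K h4)) :=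
  ker_rInf M p A K hA hred π hπ (u4E M K h4) (u4 (OE A K)) (hσu_u4 M p K h4)

/-- The chart coordinate goes to `ū₄`. -/
theorem rInf4_coord :
    letI := algebraOL (OE A K) K (LE (M * p) K)
    ∀ c : Chart (OE A K) (alphaHom M p K (u4E M K h4)),
      (c : LE (M * p) K) = alphaHom M p K (u4E M K h4) →
      ((rInf4 M p A K hA hred π hπ h4 c : redField M A) :
          LaurentSeries (IsLocalRing.ResidueField A)) = u4 (IsLocalRing.ResidueField A) := by
  letI := algebraOL (OE A K) K (LE (M * p) K)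
  intro c hc
  exact (rInf_coord M p A K hA hred π hπ (u4E M K h4) (u4 (OE A K)) (hσu_u4 M p K h4) c hc).trans
    (red_up_u4 A K)

/-- The coordinate element `incl (polyChart X)` of `node_u4_OE` goes to `ū₄`. -/
theorem rInf4_uC :
    letI := algebraOL (OE A K) K (LE M K)
    letI := algebraOL (OE A K) K (LE (M * p) K)
    haveI := isScalarTower_OL (OE A K) K (LE M K)
    haveI := isScalarTower_OL (OE A K) K (LE (M * p) K)
    ((rInf4 M p A K hA hred π hπ h4
        (incl (alphaHom M p K) (alphaHom_algebraMap M p K) (u4E M K h4)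
          (polyChart (u4E M K h4) X)) : redField M A) :
        LaurentSeries (IsLocalRing.ResidueField A)) = u4 (IsLocalRing.ResidueField A) := by
  letI := algebraOL (OE A K) K (LE M K)
  letI := algebraOL (OE A K) K (LE (M * p) K)
  haveI := isScalarTower_OL (OE A K) K (LE M K)
  haveI := isScalarTower_OL (OE A K) K (LE (M * p) K)
  exact rInf4_coord M p A K hA hred π hπ h4 _ (by rw [coe_incl, coe_polyChart, aeval_X])

/-- **`hur`** at the `u₄`-chart. -/
theorem hur4 (ub : redField M A)
    (hub : ((ub : redField M A) : LaurentSeries (IsLocalRing.ResidueField A)) =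
      u4 (IsLocalRing.ResidueField A)) :
    letI := algebraOL (OE A K) K (LE (M * p) K)
    ∃ c : Chart (OE A K) (alphaHom M p K (u4E M K h4)),
      rInf4 M p A K hA hred π hπ h4 c = ub :=
  hur M p A K hA hred π hπ (u4E M K h4) (u4 (OE A K)) (hσu_u4 M p K h4) ub
    (hub.trans (red_up_u4 A K).symm)

/-- **`hκr`** at the `u₄`-chart. -/
theorem hκr4 (κ₀ : Subfield (redField M A))
    (h : ∀ s ∈ κ₀, ∃ x : OE A K,
      ((s : redField M A) : LaurentSeries (IsLocalRing.ResidueField A)) =
        HahnSeries.C (IsLocalRing.residue A (inclOA A K x))) :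
    letI := algebraOL (OE A K) K (LE (M * p) K)
    ∀ s ∈ κ₀, ∃ c : Chart (OE A K) (alphaHom M p K (u4E M K h4)),
      rInf4 M p A K hA hred π hπ h4 c = s :=
  hκr M p A K hA hred π hπ (u4E M K h4) (u4 (OE A K)) (hσu_u4 M p K h4) κ₀ h

/-- **`hint`** at the `u₄`-chart. -/
theorem hint4 (κ₀ : Subfield (redField M A))
    (h : ∀ x : OE A K, ∃ s ∈ κ₀,
      ((s : redField M A) : LaurentSeries (IsLocalRing.ResidueField A)) =
        HahnSeries.C (IsLocalRing.residue A (inclOA A K x)))
    (ub : redField M A)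
    (hub : ((ub : redField M A) : LaurentSeries (IsLocalRing.ResidueField A)) =
      u4 (IsLocalRing.ResidueField A)) :
    letI := algebraOL (OE A K) K (LE (M * p) K)
    ∀ c : Chart (OE A K) (alphaHom M p K (u4E M K h4)),
      IsIntegral ↥(Algebra.adjoin κ₀ ({ub} : Set (redField M A)))
        (rInf4 M p A K hA hred π hπ h4 c) :=
  hint M p A K hA hred π hπ (u4E M K h4) (u4 (OE A K)) (hσu_u4 M p K h4) κ₀ h ub
    (hub.trans (red_up_u4 A K).symm)

/-! ### The chart at infinity -/

/-- **The reduction at infinity of the chart at `u₄ = ∞` of level `M p` into `redField M A`.** -/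
def rInf4Inf :
    letI := algebraOL (OE A K) K (LE (M * p) K)
    Chart (OE A K) (alphaHom M p K (u4E M K h4)⁻¹) →+* redField M A :=
  rInf M p A K hA hred π hπ (u4E M K h4)⁻¹
    (HauptU.E.posO (OE A K) Fermat.Agent.S36.SqChart.Coord4.s4Z)
    (Fermat.Agent.S36.SqChart.Coord4.hσ1u_s4 M K p h4)

theorem coe_rInf4Inf :
    letI := algebraOL (OE A K) K (LE (M * p) K)
    haveI := isScalarTower_OL (OE A K) K (LE (M * p) K)
    ∀ c : Chart (OE A K) (alphaHom M p K (u4E M K h4)⁻¹),
      ((rInf4Inf M p A K hA hred π hπ h4 c : redField M A) :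
          LaurentSeries (IsLocalRing.ResidueField A)) =
        kmap A K (redInf π hπ (alphaHom M p K) (sigmaHom (M * p) K)
          (sigmaHom_algebraMap (M * p) K) (sigmaHom_mem_fracField (M * p) K A)
          (u4E M K h4)⁻¹ (HauptU.E.posO (OE A K) Fermat.Agent.S36.SqChart.Coord4.s4Z)
          (Fermat.Agent.S36.SqChart.Coord4.hσ1u_s4 M K p h4) c) :=
  fun _ => rfl

/-- `ker rInf4Inf = p_∞` on the chart at infinity. -/
theorem ker_rInf4Inf :
    letI := algebraOL (OE A K) K (LE (M * p) K)
    haveI := isScalarTower_OL (OE A K) K (LE (M * p) K)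
    RingHom.ker (rInf4Inf M p A K hA hred π hπ h4) =
      RingHom.ker (redInf π hπ (alphaHom M p K) (sigmaHom (M * p) K)
        (sigmaHom_algebraMap (M * p) K) (sigmaHom_mem_fracField (M * p) K A)
        (u4E M K h4)⁻¹ (HauptU.E.posO (OE A K) Fermat.Agent.S36.SqChart.Coord4.s4Z)
        (Fermat.Agent.S36.SqChart.Coord4.hσ1u_s4 M K p h4)) :=
  ker_rInf M p A K hA hred π hπ (u4E M K h4)⁻¹
    (HauptU.E.posO (OE A K) Fermat.Agent.S36.SqChart.Coord4.s4Z)
    (Fermat.Agent.S36.SqChart.Coord4.hσ1u_s4 M K p h4)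

/-- The coordinate of the chart at infinity goes to `ū₄⁻¹`. -/
theorem rInf4Inf_coord :
    letI := algebraOL (OE A K) K (LE (M * p) K)
    ∀ c : Chart (OE A K) (alphaHom M p K (u4E M K h4)⁻¹),
      (c : LE (M * p) K) = alphaHom M p K (u4E M K h4)⁻¹ →
      ((rInf4Inf M p A K hA hred π hπ h4 c : redField M A) :
          LaurentSeries (IsLocalRing.ResidueField A)) =
        (u4 (IsLocalRing.ResidueField A))⁻¹ := by
  letI := algebraOL (OE A K) K (LE (M * p) K)
  intro c hc
  exact (rInf_coord M p A K hA hred π hπ (u4E M K h4)⁻¹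
    (HauptU.E.posO (OE A K) Fermat.Agent.S36.SqChart.Coord4.s4Z)
    (Fermat.Agent.S36.SqChart.Coord4.hσ1u_s4 M K p h4) c hc).trans (red_up_s4_eq_inv A K)

/-- The coordinate element `incl (polyChart X)` of the chart at infinity goes to `ū₄⁻¹`. -/
theorem rInf4Inf_tC :
    letI := algebraOL (OE A K) K (LE M K)
    letI := algebraOL (OE A K) K (LE (M * p) K)
    haveI := isScalarTower_OL (OE A K) K (LE M K)
    haveI := isScalarTower_OL (OE A K) K (LE (M * p) K)
    ((rInf4Inf M p A K hA hred π hπ h4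
        (incl (alphaHom M p K) (alphaHom_algebraMap M p K) (u4E M K h4)⁻¹
          (polyChart (u4E M K h4)⁻¹ X)) : redField M A) :
        LaurentSeries (IsLocalRing.ResidueField A)) =
      (u4 (IsLocalRing.ResidueField A))⁻¹ := by
  letI := algebraOL (OE A K) K (LE M K)
  letI := algebraOL (OE A K) K (LE (M * p) K)
  haveI := isScalarTower_OL (OE A K) K (LE M K)
  haveI := isScalarTower_OL (OE A K) K (LE (M * p) K)
  exact rInf4Inf_coord M p A K hA hred π hπ h4 _ (by rw [coe_incl, coe_polyChart, aeval_X])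

/-- The coercion of `ub⁻¹`. -/
theorem coe_inv_ub (ub : redField M A)
    (hub : ((ub : redField M A) : LaurentSeries (IsLocalRing.ResidueField A)) =
      u4 (IsLocalRing.ResidueField A)) :
    ((ub⁻¹ : redField M A) : LaurentSeries (IsLocalRing.ResidueField A)) =
      Congr.red A (up A K (HauptU.E.posO (OE A K) Fermat.Agent.S36.SqChart.Coord4.s4Z)) := by
  rw [red_up_s4_eq_inv, ← hub]
  rfl

/-- **`hur`** at the chart at infinity (`u := ub⁻¹`). -/
theorem hur4Inf (ub : redField M A)
    (hub : ((ub : redField M A) : LaurentSeries (IsLocalRing.ResidueField A)) =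
      u4 (IsLocalRing.ResidueField A)) :
    letI := algebraOL (OE A K) K (LE (M * p) K)
    ∃ c : Chart (OE A K) (alphaHom M p K (u4E M K h4)⁻¹),
      rInf4Inf M p A K hA hred π hπ h4 c = ub⁻¹ :=
  hur M p A K hA hred π hπ (u4E M K h4)⁻¹
    (HauptU.E.posO (OE A K) Fermat.Agent.S36.SqChart.Coord4.s4Z)
    (Fermat.Agent.S36.SqChart.Coord4.hσ1u_s4 M K p h4) ub⁻¹ (coe_inv_ub M A K ub hub)

/-- **`hκr`** at the chart at infinity. -/
theorem hκr4Inf (κ₀ : Subfield (redField M A))
    (h : ∀ s ∈ κ₀, ∃ x : OE A K,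
      ((s : redField M A) : LaurentSeries (IsLocalRing.ResidueField A)) =
        HahnSeries.C (IsLocalRing.residue A (inclOA A K x))) :
    letI := algebraOL (OE A K) K (LE (M * p) K)
    ∀ s ∈ κ₀, ∃ c : Chart (OE A K) (alphaHom M p K (u4E M K h4)⁻¹),
      rInf4Inf M p A K hA hred π hπ h4 c = s :=
  hκr M p A K hA hred π hπ (u4E M K h4)⁻¹
    (HauptU.E.posO (OE A K) Fermat.Agent.S36.SqChart.Coord4.s4Z)
    (Fermat.Agent.S36.SqChart.Coord4.hσ1u_s4 M K p h4) κ₀ h

/-- **`hint`** at the chart at infinity (`u := ub⁻¹`). -/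
theorem hint4Inf (κ₀ : Subfield (redField M A))
    (h : ∀ x : OE A K, ∃ s ∈ κ₀,
      ((s : redField M A) : LaurentSeries (IsLocalRing.ResidueField A)) =
        HahnSeries.C (IsLocalRing.residue A (inclOA A K x)))
    (ub : redField M A)
    (hub : ((ub : redField M A) : LaurentSeries (IsLocalRing.ResidueField A)) =
      u4 (IsLocalRing.ResidueField A)) :
    letI := algebraOL (OE A K) K (LE (M * p) K)
    ∀ c : Chart (OE A K) (alphaHom M p K (u4E M K h4)⁻¹),
      IsIntegral ↥(Algebra.adjoin κ₀ ({ub⁻¹} : Set (redField M A)))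
        (rInf4Inf M p A K hA hred π hπ h4 c) :=
  hint M p A K hA hred π hπ (u4E M K h4)⁻¹
    (HauptU.E.posO (OE A K) Fermat.Agent.S36.SqChart.Coord4.s4Z)
    (Fermat.Agent.S36.SqChart.Coord4.hσ1u_s4 M K p h4) κ₀ h ub⁻¹ (coe_inv_ub M A K ub hub)

end Fermat.Agent.S44.L.CentreChartU4
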