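import Mathlib
import Fermat.Agent.S44.L.CentreChartU4

/-!
# PROGRAM MR (S44), strand L: the reduction of a level-`M p` chart along the `0`-component

`S44/L/CentreChart` (helper171) gives the reduction at infinity `rInf : C → redField M A` of the
chart ring `C = Chart (OE A K) (α u')` of level `M p` (`ker rInf = p_∞`).  This file gives its
twin along the OTHER component of the special fibre: the reduction `redZero : C → κ_O((q))` of
`S34/TwoPrimesGauss` (`c ↦` the Gauss reduction of the `q`-expansion of `w c`, `w` the swap),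
pushed to `κ_A((q))` by `RedTransfer.kmap`, takes its values in `Contract.redField M A` under the
`E`-level statement (L.RED) at `K` (`CentreChart.HRed`, applied to `w c`).

* `rZero : C →+* redField M A`, `coe_rZero` (`rfl`), `ker_rZero` (`ker rZero = ker redZero = p_0`,
  LITERALLY the `0`-component of `NodeC1Inst.node_u4_OE`: `ker rZero ≤ y` is the node marker);
* `rZero_of_int`, `rZero_const` : constants go to constants;
* `hκr_both` : every constant of a subfield of constants coming from `κ_O` has a COMMON preimage
  under `rInf` and `rZero` (the clause `∀ s ∈ κ₀, ∃ c, r c = s ∧ r₂ c = s` of `Alt/Rho.RhoForms`);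
* the instances at `u₄` : `rZero4`, `coe_rZero4`, `ker_rZero4`, `hκr4_both`.
-/

set_option autoImplicit false
set_option linter.unusedSectionVars false
set_option linter.unusedVariables false
set_option linter.style.haveILetI false
set_option synthInstance.maxHeartbeats 400000
set_option maxHeartbeats 1000000

open ModularCurve Polynomial

noncomputable section

namespace Fermat.Agent.S44.L.CentreChartZero

open Fermat.Agent.S18.K1Defs Fermat.Agent.S18.K1Main Fermat.Agent.S18.K1Top
open Fermat.Agent.S30
open Fermat.Agent.S34 Fermat.Agent.S34.TwoPrimesRank Fermat.Agent.S34.HauptU.Plug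
open Fermat.Agent.S34.TwoPrimesGauss
open Fermat.Agent.S36.Haupt4 Fermat.Agent.S36.LevelQInstAlt
open Fermat.Agent.S44.Contract Fermat.Agent.S44.L.RedTransfer Fermat.Agent.S44.L.CentreChart
open Fermat.Agent.S44.L.CentreChartU4

local notation "Qb" => AlgebraicClosure ℚ

/-! ### A general coordinate `u'` -/

section Chart

variable (M p : ℕ) [NeZero M] [NeZero p] (A : ValuationSubring Qb)
  (K : IntermediateField ℚ Qb) [IsDiscreteValuationRing (OE A K)]
  [Fact p.Prime] (hA : A.LiesOverPrime p) (hred : HRed M p A K)
  (π : OE A K) (hπ : Irreducible π) (u' : LE M K) (U : LaurentSeries (OE A K))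
  (hσu : sigmaHom (M * p) K (alphaHom M p K u') = GaussDVR.iota (OE A K) K U)
  (hp : p.Prime) (hpM : ¬ p ∣ M)

/-- **The reduction along the `0`-component of the level-`M p` chart at `α u'`, as a map into
the reduced function field of level `M`.** -/
def rZero :
    letI := algebraOL (OE A K) K (LE (M * p) K)
    Chart (OE A K) (alphaHom M p K u') →+* redField M A :=
  letI := algebraOL (OE A K) K (LE (M * p) K)
  haveI := isScalarTower_OL (OE A K) K (LE (M * p) K)
  ((kmap A K).comp (redZero π hπ (alphaHom M p K) (sigmaHom (M * p) K)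
    (sigmaHom_algebraMap (M * p) K) (sigmaHom_mem_fracField (M * p) K A) u' U hσu
    (wHom M p K hp hpM) (wHom_algebraMap M p K hp hpM) p
    (sigmaHom_wHom_alpha M p K hp hpM))).codRestrict
    (redField M A) (fun c => kmap_red_mem_redField M p A K hA hred
      (wHom M p K hp hpM (c : LE (M * p) K)) _)

theorem coe_rZero :
    letI := algebraOL (OE A K) K (LE (M * p) K)
    haveI := isScalarTower_OL (OE A K) K (LE (M * p) K)
    ∀ c : Chart (OE A K) (alphaHom M p K u'),
      ((rZero M p A K hA hred π hπ u' U hσu hp hpM c : redField M A) :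
          LaurentSeries (IsLocalRing.ResidueField A)) =
        kmap A K (redZero π hπ (alphaHom M p K) (sigmaHom (M * p) K)
          (sigmaHom_algebraMap (M * p) K) (sigmaHom_mem_fracField (M * p) K A) u' U hσu
          (wHom M p K hp hpM) (wHom_algebraMap M p K hp hpM) p
          (sigmaHom_wHom_alpha M p K hp hpM) c) :=
  fun _ => rfl

/-- `ker rZero = ker redZero = p_0`. -/
theorem ker_rZero :
    letI := algebraOL (OE A K) K (LE (M * p) K)
    haveI := isScalarTower_OL (OE A K) K (LE (M * p) K)
    RingHom.ker (rZero M p A K hA hred π hπ u' U hσu hp hpM) =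
      RingHom.ker (redZero π hπ (alphaHom M p K) (sigmaHom (M * p) K)
        (sigmaHom_algebraMap (M * p) K) (sigmaHom_mem_fracField (M * p) K A) u' U hσu
        (wHom M p K hp hpM) (wHom_algebraMap M p K hp hpM) p
        (sigmaHom_wHom_alpha M p K hp hpM)) := by
  letI := algebraOL (OE A K) K (LE (M * p) K)
  haveI := isScalarTower_OL (OE A K) K (LE (M * p) K)
  ext c
  rw [RingHom.mem_ker, RingHom.mem_ker]
  constructor
  · intro h
    have h1 := congrArg (fun s : redField M A =>
      (s : LaurentSeries (IsLocalRing.ResidueField A))) h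
    exact kmap_injective A K (by rw [map_zero]; exact h1)
  · intro h
    apply Subtype.ext
    show kmap A K _ = 0
    rw [h, map_zero]

/-- The value of `rZero` at an element `c` such that `w c` has an integral `q`-expansion. -/
theorem rZero_of_int :
    letI := algebraOL (OE A K) K (LE (M * p) K)
    haveI := isScalarTower_OL (OE A K) K (LE (M * p) K)
    ∀ (c : Chart (OE A K) (alphaHom M p K u')) (a : LaurentSeries (OE A K)),
      sigmaHom (M * p) K (wHom M p K hp hpM (c : LE (M * p) K)) = GaussDVR.iota (OE A K) K a →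
      ((rZero M p A K hA hred π hπ u' U hσu hp hpM c : redField M A) :
          LaurentSeries (IsLocalRing.ResidueField A)) = Congr.red A (up A K a) := by
  letI := algebraOL (OE A K) K (LE (M * p) K)
  haveI := isScalarTower_OL (OE A K) K (LE (M * p) K)
  intro c a hc
  have h : redZero π hπ (alphaHom M p K) (sigmaHom (M * p) K)
      (sigmaHom_algebraMap (M * p) K) (sigmaHom_mem_fracField (M * p) K A) u' U hσu
      (wHom M p K hp hpM) (wHom_algebraMap M p K hp hpM) p
      (sigmaHom_wHom_alpha M p K hp hpM) c = GaussDVR.rho (OE A K) a :=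
    redHom_of_int
      ((sigmaHom (M * p) K).comp (wHom M p K hp hpM : LE (M * p) K →+* LE (M * p) K))
      (sigmaW_O (sigmaHom (M * p) K) (sigmaHom_algebraMap (M * p) K) (wHom M p K hp hpM)
        (wHom_algebraMap M p K hp hpM)) π hπ
      (fun x => sigmaHom_mem_fracField (M * p) K A (wHom M p K hp hpM x))
      (alphaHom M p K u') (qExpand (OE A K) p U)
      (sigmaW_u (alphaHom M p K) (sigmaHom (M * p) K) u' U hσu (wHom M p K hp hpM) p
        (sigmaHom_wHom_alpha M p K hp hpM)) c a hc
  have h2 := coe_rZero M p A K hA hred π hπ u' U hσu hp hpM c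
  rw [h] at h2
  exact h2.trans (kmap_rho A K a)

/-- Constants go to constants. -/
theorem rZero_const :
    letI := algebraOL (OE A K) K (LE (M * p) K)
    haveI := isScalarTower_OL (OE A K) K (LE (M * p) K)
    ∀ (c : Chart (OE A K) (alphaHom M p K u')) (x : OE A K),
      (c : LE (M * p) K) = algebraMap (OE A K) (LE (M * p) K) x →
      ((rZero M p A K hA hred π hπ u' U hσu hp hpM c : redField M A) :
          LaurentSeries (IsLocalRing.ResidueField A)) =
        HahnSeries.C (IsLocalRing.residue A (inclOA A K x)) := by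
  letI := algebraOL (OE A K) K (LE (M * p) K)
  haveI := isScalarTower_OL (OE A K) K (LE (M * p) K)
  intro c x hc
  rw [rZero_of_int M p A K hA hred π hπ u' U hσu hp hpM c (HahnSeries.C x)
    (by rw [hc, wHom_algebraMap, GaussDVR.iota_C]; exact sigmaHom_algebraMap (M * p) K x)]
  show Congr.red A (coeffMap (inclOA A K) (HahnSeries.C x)) = _
  rw [Fermat.Agent.S18.Wiring.coeffMap_C, red_C]

/-- **Common lifts of the constants**: every constant of a subfield of constants coming from
`κ_O` has a common preimage under `rInf` and `rZero`. -/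
theorem hκr_both (κ₀ : Subfield (redField M A))
    (h : ∀ s ∈ κ₀, ∃ x : OE A K,
      ((s : redField M A) : LaurentSeries (IsLocalRing.ResidueField A)) =
        HahnSeries.C (IsLocalRing.residue A (inclOA A K x))) :
    letI := algebraOL (OE A K) K (LE (M * p) K)
    ∀ s ∈ κ₀, ∃ c : Chart (OE A K) (alphaHom M p K u'),
      rInf M p A K hA hred π hπ u' U hσu c = s ∧
      rZero M p A K hA hred π hπ u' U hσu hp hpM c = s := by
  letI := algebraOL (OE A K) K (LE (M * p) K)
  haveI := isScalarTower_OL (OE A K) K (LE (M * p) K)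
  intro s hs
  obtain ⟨x, hx⟩ := h s hs
  obtain ⟨c, hc⟩ := exists_const M p A K u' x
  exact ⟨c, Subtype.ext ((rInf_const M p A K hA hred π hπ u' U hσu c x hc).trans hx.symm),
    Subtype.ext ((rZero_const M p A K hA hred π hπ u' U hσu hp hpM c x hc).trans hx.symm)⟩

end Chart

/-! ### The coordinate `u₄` -/

section U4

variable (M p : ℕ) [NeZero M] [NeZero p] (A : ValuationSubring Qb)
  (K : IntermediateField ℚ Qb) [IsDiscreteValuationRing (OE A K)]
  [Fact p.Prime] (hA : A.LiesOverPrime p) (hred : HRed M p A K)
  (π : OE A K) (hπ : Irreducible π) (h4 : 4 ∣ M) (hp : p.Prime) (hpM : ¬ p ∣ M)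

/-- **The reduction along the `0`-component of the `u₄`-chart of level `M p` into
`redField M A`.** -/
def rZero4 :
    letI := algebraOL (OE A K) K (LE (M * p) K)
    Chart (OE A K) (alphaHom M p K (u4E M K h4)) →+* redField M A :=
  rZero M p A K hA hred π hπ (u4E M K h4) (u4 (OE A K)) (hσu_u4 M p K h4) hp hpM

theorem coe_rZero4 :
    letI := algebraOL (OE A K) K (LE (M * p) K)
    haveI := isScalarTower_OL (OE A K) K (LE (M * p) K)
    ∀ c : Chart (OE A K) (alphaHom M p K (u4E M K h4)),
      ((rZero4 M p A K hA hred π hπ h4 hp hpM c : redField M A) :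
          LaurentSeries (IsLocalRing.ResidueField A)) =
        kmap A K (redZero π hπ (alphaHom M p K) (sigmaHom (M * p) K)
          (sigmaHom_algebraMap (M * p) K) (sigmaHom_mem_fracField (M * p) K A)
          (u4E M K h4) (u4 (OE A K)) (hσu_u4 M p K h4)
          (wHom M p K hp hpM) (wHom_algebraMap M p K hp hpM) p
          (sigmaHom_wHom_alpha M p K hp hpM) c) :=
  fun _ => rfl

/-- `ker rZero4 = p_0`, the `0`-component of `node_u4_OE`. -/
theorem ker_rZero4 :
    letI := algebraOL (OE A K) K (LE (M * p) K)
    haveI := isScalarTower_OL (OE A K) K (LE (M * p) K)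
    RingHom.ker (rZero4 M p A K hA hred π hπ h4 hp hpM) =
      RingHom.ker (redZero π hπ (alphaHom M p K) (sigmaHom (M * p) K)
        (sigmaHom_algebraMap (M * p) K) (sigmaHom_mem_fracField (M * p) K A)
        (u4E M K h4) (u4 (OE A K)) (hσu_u4 M p K h4)
        (wHom M p K hp hpM) (wHom_algebraMap M p K hp hpM) p
        (sigmaHom_wHom_alpha M p K hp hpM)) :=
  ker_rZero M p A K hA hred π hπ (u4E M K h4) (u4 (OE A K)) (hσu_u4 M p K h4) hp hpM

/-- Constants go to constants (`u₄`-chart). -/
theorem rZero4_const :
    letI := algebraOL (OE A K) K (LE (M * p) K)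
    haveI := isScalarTower_OL (OE A K) K (LE (M * p) K)
    ∀ (c : Chart (OE A K) (alphaHom M p K (u4E M K h4))) (x : OE A K),
      (c : LE (M * p) K) = algebraMap (OE A K) (LE (M * p) K) x →
      ((rZero4 M p A K hA hred π hπ h4 hp hpM c : redField M A) :
          LaurentSeries (IsLocalRing.ResidueField A)) =
        HahnSeries.C (IsLocalRing.residue A (inclOA A K x)) :=
  rZero_const M p A K hA hred π hπ (u4E M K h4) (u4 (OE A K)) (hσu_u4 M p K h4) hp hpM

/-- **Common lifts of the constants** under `rInf4` and `rZero4`. -/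
theorem hκr4_both (κ₀ : Subfield (redField M A))
    (h : ∀ s ∈ κ₀, ∃ x : OE A K,
      ((s : redField M A) : LaurentSeries (IsLocalRing.ResidueField A)) =
        HahnSeries.C (IsLocalRing.residue A (inclOA A K x))) :
    letI := algebraOL (OE A K) K (LE (M * p) K)
    ∀ s ∈ κ₀, ∃ c : Chart (OE A K) (alphaHom M p K (u4E M K h4)),
      rInf4 M p A K hA hred π hπ h4 c = s ∧
      rZero4 M p A K hA hred π hπ h4 hp hpM c = s :=
  hκr_both M p A K hA hred π hπ (u4E M K h4) (u4 (OE A K)) (hσu_u4 M p K h4) hp hpM κ₀ h

end U4

end Fermat.Agent.S44.L.CentreChartZero
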