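import Mathlib
import Fermat.Agent.S44.L.CentreChart
import Fermat.Agent.S36.LevelQInstAlt

/-!
# PROGRAM MR (S44), strand L: (L.RED) at the coordinate `u₄` — the discharge of `CentreChart.HRed`

`CentreChart.HRed M q A K` is the `E`-level statement (L.RED) at the number field `K`: the
reduction of every Gauss-integral function of level `M q` over `K` is a quotient of reductions of
Gauss-integral functions of level `M` over `K` (the residue field of the Gauss valuation of
level `M q` at infinity is that of level `M`).  `RedInst.exists_red_levelM` proves it at the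
coordinate `j` for every `K` containing a finite set `S₀`.

Here it is proved at the coordinate `u₄` (`4 ∣ M`), for EVERY number field `K ∋ ζ_M` with
`OE A K` a discrete valuation ring — no "`K ⊇ S₀`", and no unramifiedness hypothesis on `K`:
`RedCore.exists_levelM_red'` at `u' = u₄`, with the special fibre of the level-`M` chart from
`Haupt4.Fibre.chartFacts_u4` and the level-`M q` inputs of `S36/LevelQInstAlt`.

* `hred_u4` : binder block of `NodeC1Inst.node_u4_OE` without `(π hπ e he hqe)`.
* `hred_u4'` : the same with `2 ∈ Oˣ` derived from `q ≠ 2`.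
-/

set_option autoImplicit false
set_option linter.unusedSectionVars false
set_option linter.unusedVariables false
set_option linter.style.haveILetI false
set_option synthInstance.maxHeartbeats 400000
set_option maxHeartbeats 1000000

open ModularCurve Polynomial IntermediateField

noncomputable section

namespace Fermat.Agent.S44.L.HRedU4

open Fermat.Agent.S30 Fermat.Agent.S34 Fermat.Agent.S34.TwoPrimesGauss
open Fermat.Agent.S30.Model
open Fermat.Agent.S18.K1Defs Fermat.Agent.S18.K1Main
open Fermat.Agent.S34.TwoPrimesRank Fermat.Agent.S34.HauptU.Plug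
open Fermat.Agent.S34.HauptU.LevelMAux
open Fermat.Agent.S36.Haupt4 Fermat.Agent.S36.LevelQInstAlt

local notation "Qb" => AlgebraicClosure ℚ

variable (A : ValuationSubring Qb) (M q : ℕ) [NeZero M] [NeZero q]

/-- **(L.RED) at `u₄`.**  For every number field `K ∋ ζ_M` with `OE A K` a discrete valuation
ring (`A` over the odd prime `q ∤ M`, `4 ∣ M`), the reduction of a Gauss-integral function of
level `M q` over `K` is a quotient of reductions of Gauss-integral functions of level `M`
over `K`. -/
theorem hred_u4 (hq : q.Prime) (hodd : q ≠ 2) (hqM : ¬ q ∣ M) (h4 : 4 ∣ M)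
    (hA : A.LiesOverPrime q) (K : IntermediateField ℚ Qb) [FiniteDimensional ℚ K]
    [IsDiscreteValuationRing (OE A K)] (z : Qb) (hz : IsPrimitiveRoot z M) (hzK : z ∈ K)
    (h2 : IsUnit (2 : OE A K)) :
    Fermat.Agent.S44.L.CentreChart.HRed M q A K := by
  classical
  letI := algebraOL (OE A K) K (LE M K)
  letI := algebraOL (OE A K) K (LE (M * q) K)
  haveI := isScalarTower_OL (OE A K) K (LE M K)
  haveI := isScalarTower_OL (OE A K) K (LE (M * q) K)
  haveI : Fact q.Prime := ⟨hq⟩
  haveI : CharP (IsLocalRing.ResidueField (OE A K)) q :=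
    Fermat.Agent.S34.Sat.charP_residue_OE' A K hq hA
  obtain ⟨π, hπ⟩ := IsDiscreteValuationRing.exists_irreducible (OE A K)
  have hFG : FinGaussC M (OE A K) K :=
    Fermat.Agent.S36.Haupt4.Fibre.finGaussC_OE A M hqM hA K z hz hzK
  have hfg := u4_fin_gauss M K h4 hFG
  have hfin : FiniteDimensional (IntermediateField.adjoin K {u4E M K h4}) (LE M K) := hfg.1
  haveI := hfin
  have hcf := Fermat.Agent.S36.Haupt4.Fibre.chartFacts_u4 M K h4 h2 hFG π hπ
  have hwu := hwu_u4 M q K (O := OE A K) h2 hq hodd hqM h4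
  haveI := Fermat.Agent.S36.Haupt4.LevelQ.finiteDimensional_alpha_u4E M q K h4
  haveI : IsFractionRing (Chart (OE A K) (alphaHom M q K (u4E M K h4))) (LE (M * q) K) :=
    isFractionRing_chart_of_finite (O := OE A K) (E := K) (alphaHom M q K (u4E M K h4))
  intro x hx
  obtain ⟨a, b, ha, hb, hb0, hab⟩ := Fermat.Agent.S44.L.RedCore.exists_levelM_red' π hπ
    (alphaHom M q K) (alphaHom_algebraMap M q K) (sigmaHom (M * q) K)
    (sigmaHom_algebraMap (M * q) K) (sigmaHom_mem_fracField (M * q) K A) (u4E M K h4)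
    (u4 (OE A K)) (hσu_u4 M q K h4) (wHom M q K hq hqM) (wHom_algebraMap M q K hq hqM) q
    (sigmaHom_wHom_alpha M q K hq hqM) (wHom_wHom M q K hq hqM) hcf.prime_zero (hcop_u4 q)
    hord_u4 hq.two_le (hfrob_u4 q hq) hwu (hrank_u4 M q K hq hqM h4) hcf.normal_zero x hx
  have ea : sigmaHom (M * q) K (alphaHom M q K a) = (a : LaurentSeries K) :=
    Fermat.Agent.S34.Sat.sigma_alpha M q K a
  have eb : sigmaHom (M * q) K (alphaHom M q K b) = (b : LaurentSeries K) :=
    Fermat.Agent.S34.Sat.sigma_alpha M q K b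
  have ha' : (a : LaurentSeries K) ∈ GaussDVR.V (OE A K) K := ea ▸ ha
  have hb' : (b : LaurentSeries K) ∈ GaussDVR.V (OE A K) K := eb ▸ hb
  have eqa : (⟨sigmaHom (M * q) K (alphaHom M q K a), ha⟩ : GaussDVR.V (OE A K) K) =
      ⟨(a : LaurentSeries K), ha'⟩ := Subtype.ext ea
  have eqb : (⟨sigmaHom (M * q) K (alphaHom M q K b), hb⟩ : GaussDVR.V (OE A K) K) =
      ⟨(b : LaurentSeries K), hb'⟩ := Subtype.ext eb
  rw [eqb] at hb0
  rw [eqa, eqb] at hab
  exact ⟨a, b, ha', hb', hb0, hab⟩

/-- **(L.RED) at `u₄`**, with `2 ∈ Oˣ` derived from `q ≠ 2`. -/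
theorem hred_u4' (hq : q.Prime) (hodd : q ≠ 2) (hqM : ¬ q ∣ M) (h4 : 4 ∣ M)
    (hA : A.LiesOverPrime q) (K : IntermediateField ℚ Qb) [FiniteDimensional ℚ K]
    [IsDiscreteValuationRing (OE A K)] (z : Qb) (hz : IsPrimitiveRoot z M) (hzK : z ∈ K) :
    Fermat.Agent.S44.L.CentreChart.HRed M q A K :=
  haveI : Fact q.Prime := ⟨hq⟩
  hred_u4 A M q hq hodd hqM h4 hA K z hz hzK (isUnit_two_OE A hA hodd K)

end Fermat.Agent.S44.L.HRedU4
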