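import Mathlib
import Fermat.Agent.S44.L.KummerBase

/-!
# S44 (Mazur–Ribet), strand L, cover-free ALT: the number-level binder block of the Eisenstein case

One statement, `exists_binders`: under the hypotheses of `KummerBase.exists_firstOrder_OE`
(`A` over `p`, `K` a number field inside the inertia field of `A` containing `c` and `w`,
`(b / c) ^ p = 1 + p w`, `|b / c - 1| ^ p = |p|`), with

`O := OE A K`, `Os := OE A (CycloBase.cyclo K b)`, `φ := CycloBase.inclOE A (CycloBase.le_cyclo K b)`,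
`ϖ := (p : O)`,

all the number-level binders of `Alt/NodeAlt.node_alt` / `smooth_alt`
(`h hϖs hD hpres θ hθdeg hθ0 hθ ε n hε hεr e₁ he₁`, with `n = p` and `e₁ ≠ 0`), of
`AltChartBC.exists_coords_u4` (`hspanO`, `hres` at `r = p`, `b j = ϖs ^ j`, and `hqe` at `e = 1`)
and of `HordInst` (`θ hθdeg hθ`) hold.
-/

set_option autoImplicit false

open scoped IntermediateField
open Polynomial

noncomputable section

namespace Fermat.Agent.S44.L.KummerInst

local notation "Qb" => AlgebraicClosure ℚ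

open Fermat.Agent.S18.K1Defs Fermat.Agent.S36.UnramBase Fermat.Agent.S30
open Fermat.Agent.S36 Fermat.Agent.S44.L

/-- **The number-level binder block of the Eisenstein case**, at `O = A ∩ K`,
`Os = A ∩ K(b)`, `φ = inclOE`, `ϖ = p`, `ϖs = b / c - 1`. -/
theorem exists_binders (A : ValuationSubring Qb) {p : ℕ} (hp : p.Prime)
    (hA : A.LiesOverPrime p) (K : IntermediateField ℚ Qb) [FiniteDimensional ℚ K]
    (hK : A.inertiaSubgroupIn ℚ ≤ K.fixingSubgroup) {b c w : Qb} (hcK : c ∈ K)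
    (hc : A.valuation c = 1) (hwK : w ∈ K) (hw : A.valuation w = 1)
    (hbc : (b / c) ^ p = 1 + (p : Qb) * w)
    (hval : A.valuation (b / c - 1) ^ p = A.valuation (p : Qb)) :
    Irreducible ((p : ℕ) : OE A K) ∧
    ∃ (ϖs : OE A (CycloBase.cyclo K b))
      (D : OE A (CycloBase.cyclo K b) → IsLocalRing.ResidueField (OE A (CycloBase.cyclo K b)))
      (θ : (OE A K)[X]) (ε : OE A (CycloBase.cyclo K b))
      (e₁ : IsLocalRing.ResidueField (OE A (CycloBase.cyclo K b))),
      (((ϖs : CycloBase.cyclo K b) : Qb) = b / c - 1) ∧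
      FirstOrder.IsFirstOrder (IsLocalRing.residue (OE A (CycloBase.cyclo K b))) ϖs D ∧
      Irreducible ϖs ∧
      (∀ a : OE A K, D (CycloBase.inclOE A (CycloBase.le_cyclo K b) a) = 0) ∧
      ((p : IsLocalRing.ResidueField (OE A (CycloBase.cyclo K b))) = 0) ∧
      θ.natDegree < p ∧ IsUnit (θ.eval 0) ∧
      ϖs ^ p = CycloBase.inclOE A (CycloBase.le_cyclo K b) ((p : ℕ) : OE A K)
        * θ.eval₂ (CycloBase.inclOE A (CycloBase.le_cyclo K b)) ϖs ∧
      CycloBase.inclOE A (CycloBase.le_cyclo K b) ((p : ℕ) : OE A K) = ε * ϖs ^ p ∧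
      IsLocalRing.residue (OE A (CycloBase.cyclo K b)) ε ≠ 0 ∧ e₁ ≠ 0 ∧
      D ε = e₁ * IsLocalRing.residue (OE A (CycloBase.cyclo K b)) ε ∧
      (∀ y : OE A (CycloBase.cyclo K b), ∃ a : Fin p → OE A K,
        y = ∑ j, CycloBase.inclOE A (CycloBase.le_cyclo K b) (a j) * ϖs ^ (j : ℕ)) ∧
      (∀ y : OE A (CycloBase.cyclo K b), ∃ a : OE A K,
        ¬ IsUnit (y - CycloBase.inclOE A (CycloBase.le_cyclo K b) a)) := by
  refine ⟨irreducible_natCast_OE A K hp hA hK, ?_⟩
  have hc0 : c ≠ 0 := by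
    intro h0
    rw [h0, map_zero] at hc
    exact zero_ne_one hc
  have hπE : b / c - 1 ∈ CycloBase.cyclo K b :=
    sub_mem (div_mem (CycloBase.zeta_mem_cyclo K b) (CycloBase.le_cyclo K b hcK)) (one_mem _)
  have hwA : (⟨w, hwK⟩ : K) ∈ OE A K := (A.valuation_le_one_iff w).mp hw.le
  set wK : OE A K := ⟨⟨w, hwK⟩, hwA⟩ with hwKdef
  have hwu : IsUnit wK := by
    rw [isUnit_OE_iff]
    exact hw
  have hbc' : (b / c) ^ p = 1 + (p : Qb) * (((⟨w, hwK⟩ : K)) : Qb) := hbc
  have hexp : ∀ y ∈ CycloBase.cyclo K b, ∃ a : ℕ → K,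
      y = ∑ i ∈ Finset.range p, ((a i : K) : Qb) * (b / c - 1) ^ i :=
    fun y hy => KummerBase.exists_expansion_kummer K hp.ne_zero hcK hc0 ⟨w, hwK⟩ hbc' y hy
  have hw' : (1 + (b / c - 1)) ^ p = 1 + (p : Qb) * (((wK : K)) : Qb) := by
    rw [add_sub_cancel]
    exact hbc
  obtain ⟨D, η, hD, hD0, hη1, hη2, hη3⟩ := KummerBase.exists_isFirstOrder_eis A hp hA hval
    (CycloBase.cyclo K b) hπE K hK (CycloBase.le_cyclo K b) hexp wK hwu hw'
  obtain ⟨θ, hθ1, hθ2, hθ3⟩ := KummerBase.exists_theta A hp hA hval (CycloBase.cyclo K b) hπE K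
    (CycloBase.le_cyclo K b) wK hw'
  have hchar : CharP (IsLocalRing.ResidueField (OE A (CycloBase.cyclo K b))) p :=
    KummerBase.charP_residue_OE A hp hA (CycloBase.cyclo K b)
  have hnat : CycloBase.inclOE A (CycloBase.le_cyclo K b) ((p : ℕ) : OE A K)
      = ((p : ℕ) : OE A (CycloBase.cyclo K b)) := map_natCast _ p
  have hunit_res : ∀ x : OE A (CycloBase.cyclo K b), IsUnit x →
      IsLocalRing.residue (OE A (CycloBase.cyclo K b)) x ≠ 0 := by
    intro x hx h0
    rw [IsLocalRing.residue_eq_zero_iff, IsLocalRing.mem_maximalIdeal, mem_nonunits_iff] at h0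
    exact h0 hx
  have hw0 : IsLocalRing.residue (OE A (CycloBase.cyclo K b))
      (CycloBase.inclOE A (CycloBase.le_cyclo K b) wK) ≠ 0 :=
    hunit_res _ ((CycloBase.isUnit_inclOE_iff A (CycloBase.le_cyclo K b) wK).mpr hwu)
  refine ⟨KummerBase.piO A hA hval (CycloBase.cyclo K b) hπE, D, θ, η,
    (IsLocalRing.residue (OE A (CycloBase.cyclo K b))
      (CycloBase.inclOE A (CycloBase.le_cyclo K b) wK))⁻¹, rfl, hD,
    KummerBase.irreducible_piO A hp hA hval (CycloBase.cyclo K b) hπE K hK hexp, hD0,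
    CharP.cast_eq_zero _ p, hθ1, ?_, ?_, ?_, hunit_res η hη1, inv_ne_zero hw0, ?_, ?_, ?_⟩
  · rw [hθ2]
    exact hwu
  · rw [hnat]
    exact hθ3
  · rw [hnat]
    exact hη2
  · rw [← hη3, mul_comm (D η), inv_mul_cancel_left₀ hw0]
  · intro y
    obtain ⟨a, ha⟩ := KummerBase.exists_expansion_OE A hp hA hval (CycloBase.cyclo K b) hπE K hK
      (CycloBase.le_cyclo K b) hexp y
    refine ⟨fun j => a (j : ℕ), ?_⟩
    rw [ha, Finset.sum_range]
  · intro y
    obtain ⟨a, ha⟩ := KummerBase.exists_sub_inclOE A hp hA hval (CycloBase.cyclo K b) hπE K hK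
      (CycloBase.le_cyclo K b) hexp y
    exact ⟨a, (KummerBase.piO_dvd_iff A hp hA hval (CycloBase.cyclo K b) hπE K hK hexp _).mp ha⟩

end Fermat.Agent.S44.L.KummerInst
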