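import Mathlib
import Fermat.Agent.S44.L.NodeC1InstInf
import Fermat.Agent.S36.ThickCusp4

/-!
# S44 (Mazur–Ribet), strand L, link C1: the cusps over `u₄ = 0, -16` on `Chart O (α u₄)`

`S44/L/NodeC1Inst` and `S44/L/NodeC1InstInf` describe the closed points of the chart ring
`C = Chart O (α u₄)` of level `M q` on exactly one component (smooth points) and on both
components (nodes); `NodeC1InstInf.cusp_s4` treats the points over `u₄ = ∞` (chart at infinity).
This file treats the two FINITE cusp values `u₄ = 0` and `u₄ = -16`, which lie on the chart `C`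
itself: a closed point of `C` over one of them is never a crossing point
(`S36/ThickCusp4.noncusp_u4E`), hence is a smooth point of the component it lies on.

Levels `(M, M q)`, `4 ∣ M`, `q` an odd prime, `q ∤ M`, `O` a discrete valuation ring of residue
characteristic `q` with fraction field `E ⊆ ℚ̄`, `2 ∈ Oˣ`; NO unramifiedness hypothesis.
`p_∞ = ker redInf`, `p_0 = ker redZero`, `U = incl (polyChart u₄ X)` the coordinate as an
element of `C`, `ϖ = piC (α u₄) π`.

* `no_crossing_u4` : a prime containing `p_∞` and `p_0` contains neither `U` nor `U + 16`.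
* `cusp_u4` : a maximal `y ∋ ϖ` containing `U` or `U + 16` lies on exactly one component, which
  is `(ϖ)` locally at `y`, and `y = (ϖ, z)` locally at `y`.
* `cusp_inf_u4` : a maximal `y ⊇ p_∞` containing `U` or `U + 16` is not on `p_0`; `p_∞ = (ϖ)`
  and `y = (ϖ, z)` locally at `y` (the form of the `(CUSP)` clause of `Slope/Loc`).
* `cusp_zero_u4` : the same on the `0`-component.

`O = OE A K` (`K` ANY number field containing a primitive `M`-th root of unity, `A ∩ K` a
discrete valuation ring): the `_OE` forms, binder block of `NodeC1InstInf.smooth_inf_u4_OE_gen`.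
-/

set_option autoImplicit false
set_option linter.unusedSectionVars false
set_option linter.unusedVariables false
set_option linter.style.haveILetI false
set_option synthInstance.maxHeartbeats 400000
set_option maxHeartbeats 1000000

open ModularCurve Polynomial IntermediateField

noncomputable section

namespace Fermat.Agent.S44.L.NodeC1InstCusp

open Fermat.Agent.S30 Fermat.Agent.S34 Fermat.Agent.S34.TwoPrimesGauss
open Fermat.Agent.S36.PrinAt Fermat.Agent.S30.Model
open Fermat.Agent.S18.K1Defs Fermat.Agent.S18.K1Main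
open Fermat.Agent.S34.TwoPrimesRank Fermat.Agent.S34.HauptU.Plug
open Fermat.Agent.S34.HauptU.LevelMAux
open Fermat.Agent.S36.Haupt4 Fermat.Agent.S36.LevelQInstAlt

local notation "Qb" => AlgebraicClosure ℚ

/-! ### Generic base -/

section Generic

variable (M q : ℕ) [NeZero M] [NeZero q] (E : IntermediateField ℚ Qb)
  {O : Type} [CommRing O] [IsDomain O] [IsDiscreteValuationRing O]
  [Algebra O E] [IsFractionRing O E]

/-- **No crossing point over `u₄ = 0, -16`**: a prime of the level-`q` chart ring at `u₄` on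
both components contains neither the coordinate `U` nor `U + 16`. -/
theorem no_crossing_u4 (hq : q.Prime) (hodd : q ≠ 2) (hqM : ¬ q ∣ M) (h4 : 4 ∣ M)
    (h2 : IsUnit (2 : O)) (hFG : FinGaussC M O E) (π : O) (hπ : Irreducible π)
    (hchar : CharP (IsLocalRing.ResidueField O) q)
    (hσfrac : ∀ x : LE (M * q) E, sigmaHom (M * q) E x ∈ GaussDVR.fracField O E) :
    letI := algebraOL O E (LE M E)
    letI := algebraOL O E (LE (M * q) E)
    haveI := isScalarTower_OL O E (LE M E)
    haveI := isScalarTower_OL O E (LE (M * q) E)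
    ∀ y : Ideal (Chart O (alphaHom M q E (u4E M E h4))), y.IsPrime →
      RingHom.ker (redInf π hπ (alphaHom M q E) (sigmaHom (M * q) E)
        (sigmaHom_algebraMap (M * q) E) hσfrac (u4E M E h4)
        (u4 O) (hσu_u4 M q E h4)) ≤ y →
      RingHom.ker (redZero π hπ (alphaHom M q E) (sigmaHom (M * q) E)
        (sigmaHom_algebraMap (M * q) E) hσfrac (u4E M E h4)
        (u4 O) (hσu_u4 M q E h4)
        (wHom M q E hq hqM) (wHom_algebraMap M q E hq hqM) q
        (sigmaHom_wHom_alpha M q E hq hqM)) ≤ y →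
      (incl (alphaHom M q E) (alphaHom_algebraMap M q E) (u4E M E h4)
        (polyChart (u4E M E h4) X)) ∉ y ∧
      (incl (alphaHom M q E) (alphaHom_algebraMap M q E) (u4E M E h4)
        (polyChart (u4E M E h4) X)) + 16 ∉ y := by
  classical
  letI := algebraOL O E (LE M E)
  letI := algebraOL O E (LE (M * q) E)
  haveI := isScalarTower_OL O E (LE M E)
  haveI := isScalarTower_OL O E (LE (M * q) E)
  have hwu := hwu_u4 M q E (O := O) h2 hq hodd hqM h4
  haveI : Fact q.Prime := ⟨hq⟩
  haveI := hchar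
  intro y hy hI hZ
  haveI := hy
  have hnc := Fermat.Agent.S36.ThickCusp4.noncusp_u4E M q E π hπ hq hqM h4
    (alphaHom_algebraMap M q E) (sigmaHom (M * q) E) (sigmaHom_algebraMap (M * q) E) hσfrac
    (u4 O) (hσu_u4 M q E h4) (wHom_algebraMap M q E hq hqM)
    (sigmaHom_wHom_alpha M q E hq hqM) (wHom_wHom M q E hq hqM) hord_u4 (hfrob_u4 q hq) hwu
    h2 hodd y hI hZ
  have hC : (X - C (-16 : O) : O[X]) = X + 16 := by
    rw [map_neg, map_ofNat, sub_neg_eq_add]
  have h1 : polyChart (u4E M E h4) (16 : O[X]) = 16 := map_ofNat (polyChart (u4E M E h4)) 16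
  have h2 : incl (alphaHom M q E) (alphaHom_algebraMap M q E) (u4E M E h4)
      (16 : Chart O (u4E M E h4)) = 16 :=
    map_ofNat (incl (alphaHom M q E) (alphaHom_algebraMap M q E) (u4E M E h4)) 16
  have hP1 : polyChart (u4E M E h4) (X - C (-16 : O)) =
      polyChart (u4E M E h4) (X + 16 : O[X]) := congrArg _ hC
  have hP2 : polyChart (u4E M E h4) (X + 16 : O[X]) =
      polyChart (u4E M E h4) (X : O[X]) + polyChart (u4E M E h4) (16 : O[X]) := map_add _ _ _
  have hP3 : polyChart (u4E M E h4) (X : O[X]) + polyChart (u4E M E h4) (16 : O[X]) =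
      polyChart (u4E M E h4) (X : O[X]) + 16 := congrArg _ h1
  have hP : polyChart (u4E M E h4) (X - C (-16 : O)) = polyChart (u4E M E h4) (X : O[X]) + 16 :=
    hP1.trans (hP2.trans hP3)
  have hI1 : incl (alphaHom M q E) (alphaHom_algebraMap M q E) (u4E M E h4)
        (polyChart (u4E M E h4) (X - C (-16 : O))) =
      incl (alphaHom M q E) (alphaHom_algebraMap M q E) (u4E M E h4)
        (polyChart (u4E M E h4) (X : O[X]) + 16) := congrArg _ hP
  have hI2 : incl (alphaHom M q E) (alphaHom_algebraMap M q E) (u4E M E h4)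
        (polyChart (u4E M E h4) (X : O[X]) + 16) =
      incl (alphaHom M q E) (alphaHom_algebraMap M q E) (u4E M E h4)
        (polyChart (u4E M E h4) (X : O[X])) +
      incl (alphaHom M q E) (alphaHom_algebraMap M q E) (u4E M E h4)
        (16 : Chart O (u4E M E h4)) := map_add _ _ _
  have hI3 : incl (alphaHom M q E) (alphaHom_algebraMap M q E) (u4E M E h4)
        (polyChart (u4E M E h4) (X : O[X])) +
      incl (alphaHom M q E) (alphaHom_algebraMap M q E) (u4E M E h4)
        (16 : Chart O (u4E M E h4)) =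
      incl (alphaHom M q E) (alphaHom_algebraMap M q E) (u4E M E h4)
        (polyChart (u4E M E h4) (X : O[X])) + 16 := congrArg _ h2
  have key : incl (alphaHom M q E) (alphaHom_algebraMap M q E) (u4E M E h4)
        (polyChart (u4E M E h4) (X - C (-16 : O))) =
      incl (alphaHom M q E) (alphaHom_algebraMap M q E) (u4E M E h4)
        (polyChart (u4E M E h4) X) + 16 := hI1.trans (hI2.trans hI3)
  have hm16 : (-16 : O) ∈ ({0, -16} : Finset O) := by simp
  have h16 := hnc.2 (-16) hm16
  exact ⟨hnc.1, fun h => h16 (key.symm ▸ h)⟩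

/-- **The points over `u₄ = 0, -16`**: a maximal ideal `y` of the level-`q` chart ring at `u₄`
containing `π` and `U` or `U + 16` lies on exactly one component; that component is `(π)` locally
at `y` and `y = (π, z)` locally at `y`. -/
theorem cusp_u4 (hq : q.Prime) (hodd : q ≠ 2) (hqM : ¬ q ∣ M) (h4 : 4 ∣ M)
    (h2 : IsUnit (2 : O)) (hFG : FinGaussC M O E) (π : O) (hπ : Irreducible π)
    (hchar : CharP (IsLocalRing.ResidueField O) q)
    (hσfrac : ∀ x : LE (M * q) E, sigmaHom (M * q) E x ∈ GaussDVR.fracField O E) :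
    letI := algebraOL O E (LE M E)
    letI := algebraOL O E (LE (M * q) E)
    haveI := isScalarTower_OL O E (LE M E)
    haveI := isScalarTower_OL O E (LE (M * q) E)
    ∀ y : Ideal (Chart O (alphaHom M q E (u4E M E h4))), y.IsMaximal →
      (piC (alphaHom M q E (u4E M E h4)) π) ∈ y →
      ((incl (alphaHom M q E) (alphaHom_algebraMap M q E) (u4E M E h4)
          (polyChart (u4E M E h4) X)) ∈ y ∨
        (incl (alphaHom M q E) (alphaHom_algebraMap M q E) (u4E M E h4)
          (polyChart (u4E M E h4) X)) + 16 ∈ y) →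
      (RingHom.ker (redInf π hπ (alphaHom M q E) (sigmaHom (M * q) E)
        (sigmaHom_algebraMap (M * q) E) hσfrac (u4E M E h4)
        (u4 O) (hσu_u4 M q E h4)) ≤ y ∧
        ¬ RingHom.ker (redZero π hπ (alphaHom M q E) (sigmaHom (M * q) E)
        (sigmaHom_algebraMap (M * q) E) hσfrac (u4E M E h4)
        (u4 O) (hσu_u4 M q E h4)
        (wHom M q E hq hqM) (wHom_algebraMap M q E hq hqM) q
        (sigmaHom_wHom_alpha M q E hq hqM)) ≤ y ∧
        PrinAt y (RingHom.ker (redInf π hπ (alphaHom M q E) (sigmaHom (M * q) E)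
        (sigmaHom_algebraMap (M * q) E) hσfrac (u4E M E h4)
        (u4 O) (hσu_u4 M q E h4)))
        (piC (alphaHom M q E (u4E M E h4)) π) ∧
        RegNB.RegAt (piC (alphaHom M q E (u4E M E h4)) π) y) ∨
      (RingHom.ker (redZero π hπ (alphaHom M q E) (sigmaHom (M * q) E)
        (sigmaHom_algebraMap (M * q) E) hσfrac (u4E M E h4)
        (u4 O) (hσu_u4 M q E h4)
        (wHom M q E hq hqM) (wHom_algebraMap M q E hq hqM) q
        (sigmaHom_wHom_alpha M q E hq hqM)) ≤ y ∧
        ¬ RingHom.ker (redInf π hπ (alphaHom M q E) (sigmaHom (M * q) E)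
        (sigmaHom_algebraMap (M * q) E) hσfrac (u4E M E h4)
        (u4 O) (hσu_u4 M q E h4)) ≤ y ∧
        PrinAt y (RingHom.ker (redZero π hπ (alphaHom M q E) (sigmaHom (M * q) E)
        (sigmaHom_algebraMap (M * q) E) hσfrac (u4E M E h4)
        (u4 O) (hσu_u4 M q E h4)
        (wHom M q E hq hqM) (wHom_algebraMap M q E hq hqM) q
        (sigmaHom_wHom_alpha M q E hq hqM)))
        (piC (alphaHom M q E (u4E M E h4)) π) ∧
        RegNB.RegAt (piC (alphaHom M q E (u4E M E h4)) π) y) := by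
  letI := algebraOL O E (LE M E)
  letI := algebraOL O E (LE (M * q) E)
  haveI := isScalarTower_OL O E (LE M E)
  haveI := isScalarTower_OL O E (LE (M * q) E)
  intro y hy hπy hxy
  haveI hyp : y.IsPrime := hy.isPrime
  have hmm := Fermat.Agent.S44.L.NodeC1InstInf.mem_or_mem_u4_gen M q E hq hodd hqM h4 h2 hFG
    π hπ hchar hσfrac y hyp hπy
  have hnc := no_crossing_u4 M q E hq hodd hqM h4 h2 hFG π hπ hchar hσfrac y hyp
  rcases hmm with hI | hZ
  · have hZ' : ¬ _ ≤ y := fun hZ => hxy.elim (hnc hI hZ).1 (hnc hI hZ).2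
    exact Or.inl ⟨hI, hZ',
      Fermat.Agent.S44.L.NodeC1InstInf.smooth_inf_u4_gen M q E hq hodd hqM h4 h2 hFG π hπ hchar
        hσfrac y hy hI hZ'⟩
  · have hI' : ¬ _ ≤ y := fun hI => hxy.elim (hnc hI hZ).1 (hnc hI hZ).2
    exact Or.inr ⟨hZ, hI',
      Fermat.Agent.S44.L.NodeC1InstInf.smooth_zero_u4_gen M q E hq hodd hqM h4 h2 hFG π hπ hchar
        hσfrac y hy hZ hI'⟩

/-- **The cusps of the `∞`-component over `u₄ = 0, -16`**: a maximal `y ⊇ p_∞` containing `U` or
`U + 16` is not on the `0`-component; `p_∞ = (π)` and `y = (π, z)` locally at `y`. -/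
theorem cusp_inf_u4 (hq : q.Prime) (hodd : q ≠ 2) (hqM : ¬ q ∣ M) (h4 : 4 ∣ M)
    (h2 : IsUnit (2 : O)) (hFG : FinGaussC M O E) (π : O) (hπ : Irreducible π)
    (hchar : CharP (IsLocalRing.ResidueField O) q)
    (hσfrac : ∀ x : LE (M * q) E, sigmaHom (M * q) E x ∈ GaussDVR.fracField O E) :
    letI := algebraOL O E (LE M E)
    letI := algebraOL O E (LE (M * q) E)
    haveI := isScalarTower_OL O E (LE M E)
    haveI := isScalarTower_OL O E (LE (M * q) E)
    ∀ y : Ideal (Chart O (alphaHom M q E (u4E M E h4))), y.IsMaximal →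
      RingHom.ker (redInf π hπ (alphaHom M q E) (sigmaHom (M * q) E)
        (sigmaHom_algebraMap (M * q) E) hσfrac (u4E M E h4)
        (u4 O) (hσu_u4 M q E h4)) ≤ y →
      ((incl (alphaHom M q E) (alphaHom_algebraMap M q E) (u4E M E h4)
          (polyChart (u4E M E h4) X)) ∈ y ∨
        (incl (alphaHom M q E) (alphaHom_algebraMap M q E) (u4E M E h4)
          (polyChart (u4E M E h4) X)) + 16 ∈ y) →
      ¬ RingHom.ker (redZero π hπ (alphaHom M q E) (sigmaHom (M * q) E)
        (sigmaHom_algebraMap (M * q) E) hσfrac (u4E M E h4)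
        (u4 O) (hσu_u4 M q E h4)
        (wHom M q E hq hqM) (wHom_algebraMap M q E hq hqM) q
        (sigmaHom_wHom_alpha M q E hq hqM)) ≤ y ∧
      PrinAt y (RingHom.ker (redInf π hπ (alphaHom M q E) (sigmaHom (M * q) E)
        (sigmaHom_algebraMap (M * q) E) hσfrac (u4E M E h4)
        (u4 O) (hσu_u4 M q E h4)))
        (piC (alphaHom M q E (u4E M E h4)) π) ∧
      RegNB.RegAt (piC (alphaHom M q E (u4E M E h4)) π) y := by
  letI := algebraOL O E (LE M E)
  letI := algebraOL O E (LE (M * q) E)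
  haveI := isScalarTower_OL O E (LE M E)
  haveI := isScalarTower_OL O E (LE (M * q) E)
  intro y hy hI hxy
  haveI hyp : y.IsPrime := hy.isPrime
  have hnc := no_crossing_u4 M q E hq hodd hqM h4 h2 hFG π hπ hchar hσfrac y hyp
  have hZ' : ¬ _ ≤ y := fun hZ => hxy.elim (hnc hI hZ).1 (hnc hI hZ).2
  exact ⟨hZ',
    Fermat.Agent.S44.L.NodeC1InstInf.smooth_inf_u4_gen M q E hq hodd hqM h4 h2 hFG π hπ hchar
      hσfrac y hy hI hZ'⟩

/-- **The cusps of the `0`-component over `u₄ = 0, -16`**: a maximal `y ⊇ p_0` containing `U` or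
`U + 16` is not on the `∞`-component; `p_0 = (π)` and `y = (π, z)` locally at `y`. -/
theorem cusp_zero_u4 (hq : q.Prime) (hodd : q ≠ 2) (hqM : ¬ q ∣ M) (h4 : 4 ∣ M)
    (h2 : IsUnit (2 : O)) (hFG : FinGaussC M O E) (π : O) (hπ : Irreducible π)
    (hchar : CharP (IsLocalRing.ResidueField O) q)
    (hσfrac : ∀ x : LE (M * q) E, sigmaHom (M * q) E x ∈ GaussDVR.fracField O E) :
    letI := algebraOL O E (LE M E)
    letI := algebraOL O E (LE (M * q) E)
    haveI := isScalarTower_OL O E (LE M E)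
    haveI := isScalarTower_OL O E (LE (M * q) E)
    ∀ y : Ideal (Chart O (alphaHom M q E (u4E M E h4))), y.IsMaximal →
      RingHom.ker (redZero π hπ (alphaHom M q E) (sigmaHom (M * q) E)
        (sigmaHom_algebraMap (M * q) E) hσfrac (u4E M E h4)
        (u4 O) (hσu_u4 M q E h4)
        (wHom M q E hq hqM) (wHom_algebraMap M q E hq hqM) q
        (sigmaHom_wHom_alpha M q E hq hqM)) ≤ y →
      ((incl (alphaHom M q E) (alphaHom_algebraMap M q E) (u4E M E h4)
          (polyChart (u4E M E h4) X)) ∈ y ∨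
        (incl (alphaHom M q E) (alphaHom_algebraMap M q E) (u4E M E h4)
          (polyChart (u4E M E h4) X)) + 16 ∈ y) →
      ¬ RingHom.ker (redInf π hπ (alphaHom M q E) (sigmaHom (M * q) E)
        (sigmaHom_algebraMap (M * q) E) hσfrac (u4E M E h4)
        (u4 O) (hσu_u4 M q E h4)) ≤ y ∧
      PrinAt y (RingHom.ker (redZero π hπ (alphaHom M q E) (sigmaHom (M * q) E)
        (sigmaHom_algebraMap (M * q) E) hσfrac (u4E M E h4)
        (u4 O) (hσu_u4 M q E h4)
        (wHom M q E hq hqM) (wHom_algebraMap M q E hq hqM) q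
        (sigmaHom_wHom_alpha M q E hq hqM)))
        (piC (alphaHom M q E (u4E M E h4)) π) ∧
      RegNB.RegAt (piC (alphaHom M q E (u4E M E h4)) π) y := by
  letI := algebraOL O E (LE M E)
  letI := algebraOL O E (LE (M * q) E)
  haveI := isScalarTower_OL O E (LE M E)
  haveI := isScalarTower_OL O E (LE (M * q) E)
  intro y hy hZ hxy
  haveI hyp : y.IsPrime := hy.isPrime
  have hnc := no_crossing_u4 M q E hq hodd hqM h4 h2 hFG π hπ hchar hσfrac y hyp
  have hI' : ¬ _ ≤ y := fun hI => hxy.elim (hnc hI hZ).1 (hnc hI hZ).2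
  exact ⟨hI',
    Fermat.Agent.S44.L.NodeC1InstInf.smooth_zero_u4_gen M q E hq hodd hqM h4 h2 hFG π hπ hchar
      hσfrac y hy hZ hI'⟩

end Generic

/-! ### The arithmetic instances `O = OE A K` -/

section Arithmetic

variable (A : ValuationSubring Qb) (M q : ℕ) [NeZero M] [NeZero q]

/-- `no_crossing_u4` over `O = A ∩ K`. -/
theorem no_crossing_u4_OE (hq : q.Prime) (hodd : q ≠ 2) (hqM : ¬ q ∣ M) (h4 : 4 ∣ M)
    (hA : A.LiesOverPrime q) (K : IntermediateField ℚ Qb) [FiniteDimensional ℚ K]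
    [IsDiscreteValuationRing (OE A K)] (z : Qb) (hz : IsPrimitiveRoot z M) (hzK : z ∈ K)
    (h2 : IsUnit (2 : OE A K)) (π : OE A K) (hπ : Irreducible π) :
    letI := algebraOL (OE A K) K (LE M K)
    letI := algebraOL (OE A K) K (LE (M * q) K)
    haveI := isScalarTower_OL (OE A K) K (LE M K)
    haveI := isScalarTower_OL (OE A K) K (LE (M * q) K)
    ∀ y : Ideal (Chart (OE A K) (alphaHom M q K (u4E M K h4))), y.IsPrime →
      RingHom.ker (redInf π hπ (alphaHom M q K) (sigmaHom (M * q) K)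
        (sigmaHom_algebraMap (M * q) K) (sigmaHom_mem_fracField (M * q) K A) (u4E M K h4)
        (u4 (OE A K)) (hσu_u4 M q K h4)) ≤ y →
      RingHom.ker (redZero π hπ (alphaHom M q K) (sigmaHom (M * q) K)
        (sigmaHom_algebraMap (M * q) K) (sigmaHom_mem_fracField (M * q) K A) (u4E M K h4)
        (u4 (OE A K)) (hσu_u4 M q K h4)
        (wHom M q K hq hqM) (wHom_algebraMap M q K hq hqM) q
        (sigmaHom_wHom_alpha M q K hq hqM)) ≤ y →
      (incl (alphaHom M q K) (alphaHom_algebraMap M q K) (u4E M K h4)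
        (polyChart (u4E M K h4) X)) ∉ y ∧
      (incl (alphaHom M q K) (alphaHom_algebraMap M q K) (u4E M K h4)
        (polyChart (u4E M K h4) X)) + 16 ∉ y := by
  haveI : Fact q.Prime := ⟨hq⟩
  exact no_crossing_u4 (O := OE A K) M q K hq hodd hqM h4 h2
    (Fermat.Agent.S36.Haupt4.Fibre.finGaussC_OE A M hqM hA K z hz hzK) π hπ
    (Fermat.Agent.S34.Sat.charP_residue_OE' A K hq hA)
    (sigmaHom_mem_fracField (M * q) K A)

/-- `cusp_u4` over `O = A ∩ K` (the base may be ramified). -/
theorem cusp_u4_OE (hq : q.Prime) (hodd : q ≠ 2) (hqM : ¬ q ∣ M) (h4 : 4 ∣ M)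
    (hA : A.LiesOverPrime q) (K : IntermediateField ℚ Qb) [FiniteDimensional ℚ K]
    [IsDiscreteValuationRing (OE A K)] (z : Qb) (hz : IsPrimitiveRoot z M) (hzK : z ∈ K)
    (h2 : IsUnit (2 : OE A K)) (π : OE A K) (hπ : Irreducible π) :
    letI := algebraOL (OE A K) K (LE M K)
    letI := algebraOL (OE A K) K (LE (M * q) K)
    haveI := isScalarTower_OL (OE A K) K (LE M K)
    haveI := isScalarTower_OL (OE A K) K (LE (M * q) K)
    ∀ y : Ideal (Chart (OE A K) (alphaHom M q K (u4E M K h4))), y.IsMaximal →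
      (piC (alphaHom M q K (u4E M K h4)) π) ∈ y →
      ((incl (alphaHom M q K) (alphaHom_algebraMap M q K) (u4E M K h4)
          (polyChart (u4E M K h4) X)) ∈ y ∨
        (incl (alphaHom M q K) (alphaHom_algebraMap M q K) (u4E M K h4)
          (polyChart (u4E M K h4) X)) + 16 ∈ y) →
      (RingHom.ker (redInf π hπ (alphaHom M q K) (sigmaHom (M * q) K)
        (sigmaHom_algebraMap (M * q) K) (sigmaHom_mem_fracField (M * q) K A) (u4E M K h4)
        (u4 (OE A K)) (hσu_u4 M q K h4)) ≤ y ∧
        ¬ RingHom.ker (redZero π hπ (alphaHom M q K) (sigmaHom (M * q) K)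
        (sigmaHom_algebraMap (M * q) K) (sigmaHom_mem_fracField (M * q) K A) (u4E M K h4)
        (u4 (OE A K)) (hσu_u4 M q K h4)
        (wHom M q K hq hqM) (wHom_algebraMap M q K hq hqM) q
        (sigmaHom_wHom_alpha M q K hq hqM)) ≤ y ∧
        PrinAt y (RingHom.ker (redInf π hπ (alphaHom M q K) (sigmaHom (M * q) K)
        (sigmaHom_algebraMap (M * q) K) (sigmaHom_mem_fracField (M * q) K A) (u4E M K h4)
        (u4 (OE A K)) (hσu_u4 M q K h4)))
        (piC (alphaHom M q K (u4E M K h4)) π) ∧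
        RegNB.RegAt (piC (alphaHom M q K (u4E M K h4)) π) y) ∨
      (RingHom.ker (redZero π hπ (alphaHom M q K) (sigmaHom (M * q) K)
        (sigmaHom_algebraMap (M * q) K) (sigmaHom_mem_fracField (M * q) K A) (u4E M K h4)
        (u4 (OE A K)) (hσu_u4 M q K h4)
        (wHom M q K hq hqM) (wHom_algebraMap M q K hq hqM) q
        (sigmaHom_wHom_alpha M q K hq hqM)) ≤ y ∧
        ¬ RingHom.ker (redInf π hπ (alphaHom M q K) (sigmaHom (M * q) K)
        (sigmaHom_algebraMap (M * q) K) (sigmaHom_mem_fracField (M * q) K A) (u4E M K h4)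
        (u4 (OE A K)) (hσu_u4 M q K h4)) ≤ y ∧
        PrinAt y (RingHom.ker (redZero π hπ (alphaHom M q K) (sigmaHom (M * q) K)
        (sigmaHom_algebraMap (M * q) K) (sigmaHom_mem_fracField (M * q) K A) (u4E M K h4)
        (u4 (OE A K)) (hσu_u4 M q K h4)
        (wHom M q K hq hqM) (wHom_algebraMap M q K hq hqM) q
        (sigmaHom_wHom_alpha M q K hq hqM)))
        (piC (alphaHom M q K (u4E M K h4)) π) ∧
        RegNB.RegAt (piC (alphaHom M q K (u4E M K h4)) π) y) := by
  haveI : Fact q.Prime := ⟨hq⟩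
  exact cusp_u4 (O := OE A K) M q K hq hodd hqM h4 h2
    (Fermat.Agent.S36.Haupt4.Fibre.finGaussC_OE A M hqM hA K z hz hzK) π hπ
    (Fermat.Agent.S34.Sat.charP_residue_OE' A K hq hA)
    (sigmaHom_mem_fracField (M * q) K A)

/-- `cusp_inf_u4` over `O = A ∩ K` (the base may be ramified): the form of the `(CUSP)` clause
of `Slope/Loc`. -/
theorem cusp_inf_u4_OE (hq : q.Prime) (hodd : q ≠ 2) (hqM : ¬ q ∣ M) (h4 : 4 ∣ M)
    (hA : A.LiesOverPrime q) (K : IntermediateField ℚ Qb) [FiniteDimensional ℚ K]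
    [IsDiscreteValuationRing (OE A K)] (z : Qb) (hz : IsPrimitiveRoot z M) (hzK : z ∈ K)
    (h2 : IsUnit (2 : OE A K)) (π : OE A K) (hπ : Irreducible π) :
    letI := algebraOL (OE A K) K (LE M K)
    letI := algebraOL (OE A K) K (LE (M * q) K)
    haveI := isScalarTower_OL (OE A K) K (LE M K)
    haveI := isScalarTower_OL (OE A K) K (LE (M * q) K)
    ∀ y : Ideal (Chart (OE A K) (alphaHom M q K (u4E M K h4))), y.IsMaximal →
      RingHom.ker (redInf π hπ (alphaHom M q K) (sigmaHom (M * q) K)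
        (sigmaHom_algebraMap (M * q) K) (sigmaHom_mem_fracField (M * q) K A) (u4E M K h4)
        (u4 (OE A K)) (hσu_u4 M q K h4)) ≤ y →
      ((incl (alphaHom M q K) (alphaHom_algebraMap M q K) (u4E M K h4)
          (polyChart (u4E M K h4) X)) ∈ y ∨
        (incl (alphaHom M q K) (alphaHom_algebraMap M q K) (u4E M K h4)
          (polyChart (u4E M K h4) X)) + 16 ∈ y) →
      ¬ RingHom.ker (redZero π hπ (alphaHom M q K) (sigmaHom (M * q) K)
        (sigmaHom_algebraMap (M * q) K) (sigmaHom_mem_fracField (M * q) K A) (u4E M K h4)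
        (u4 (OE A K)) (hσu_u4 M q K h4)
        (wHom M q K hq hqM) (wHom_algebraMap M q K hq hqM) q
        (sigmaHom_wHom_alpha M q K hq hqM)) ≤ y ∧
      PrinAt y (RingHom.ker (redInf π hπ (alphaHom M q K) (sigmaHom (M * q) K)
        (sigmaHom_algebraMap (M * q) K) (sigmaHom_mem_fracField (M * q) K A) (u4E M K h4)
        (u4 (OE A K)) (hσu_u4 M q K h4)))
        (piC (alphaHom M q K (u4E M K h4)) π) ∧
      RegNB.RegAt (piC (alphaHom M q K (u4E M K h4)) π) y := by
  haveI : Fact q.Prime := ⟨hq⟩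
  exact cusp_inf_u4 (O := OE A K) M q K hq hodd hqM h4 h2
    (Fermat.Agent.S36.Haupt4.Fibre.finGaussC_OE A M hqM hA K z hz hzK) π hπ
    (Fermat.Agent.S34.Sat.charP_residue_OE' A K hq hA)
    (sigmaHom_mem_fracField (M * q) K A)

/-- `cusp_zero_u4` over `O = A ∩ K` (the base may be ramified). -/
theorem cusp_zero_u4_OE (hq : q.Prime) (hodd : q ≠ 2) (hqM : ¬ q ∣ M) (h4 : 4 ∣ M)
    (hA : A.LiesOverPrime q) (K : IntermediateField ℚ Qb) [FiniteDimensional ℚ K]
    [IsDiscreteValuationRing (OE A K)] (z : Qb) (hz : IsPrimitiveRoot z M) (hzK : z ∈ K)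
    (h2 : IsUnit (2 : OE A K)) (π : OE A K) (hπ : Irreducible π) :
    letI := algebraOL (OE A K) K (LE M K)
    letI := algebraOL (OE A K) K (LE (M * q) K)
    haveI := isScalarTower_OL (OE A K) K (LE M K)
    haveI := isScalarTower_OL (OE A K) K (LE (M * q) K)
    ∀ y : Ideal (Chart (OE A K) (alphaHom M q K (u4E M K h4))), y.IsMaximal →
      RingHom.ker (redZero π hπ (alphaHom M q K) (sigmaHom (M * q) K)
        (sigmaHom_algebraMap (M * q) K) (sigmaHom_mem_fracField (M * q) K A) (u4E M K h4)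
        (u4 (OE A K)) (hσu_u4 M q K h4)
        (wHom M q K hq hqM) (wHom_algebraMap M q K hq hqM) q
        (sigmaHom_wHom_alpha M q K hq hqM)) ≤ y →
      ((incl (alphaHom M q K) (alphaHom_algebraMap M q K) (u4E M K h4)
          (polyChart (u4E M K h4) X)) ∈ y ∨
        (incl (alphaHom M q K) (alphaHom_algebraMap M q K) (u4E M K h4)
          (polyChart (u4E M K h4) X)) + 16 ∈ y) →
      ¬ RingHom.ker (redInf π hπ (alphaHom M q K) (sigmaHom (M * q) K)
        (sigmaHom_algebraMap (M * q) K) (sigmaHom_mem_fracField (M * q) K A) (u4E M K h4)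
        (u4 (OE A K)) (hσu_u4 M q K h4)) ≤ y ∧
      PrinAt y (RingHom.ker (redZero π hπ (alphaHom M q K) (sigmaHom (M * q) K)
        (sigmaHom_algebraMap (M * q) K) (sigmaHom_mem_fracField (M * q) K A) (u4E M K h4)
        (u4 (OE A K)) (hσu_u4 M q K h4)
        (wHom M q K hq hqM) (wHom_algebraMap M q K hq hqM) q
        (sigmaHom_wHom_alpha M q K hq hqM)))
        (piC (alphaHom M q K (u4E M K h4)) π) ∧
      RegNB.RegAt (piC (alphaHom M q K (u4E M K h4)) π) y := by
  haveI : Fact q.Prime := ⟨hq⟩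
  exact cusp_zero_u4 (O := OE A K) M q K hq hodd hqM h4 h2
    (Fermat.Agent.S36.Haupt4.Fibre.finGaussC_OE A M hqM hA K z hz hzK) π hπ
    (Fermat.Agent.S34.Sat.charP_residue_OE' A K hq hA)
    (sigmaHom_mem_fracField (M * q) K A)

end Arithmetic

end Fermat.Agent.S44.L.NodeC1InstCusp
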