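import Mathlib
import Fermat.Agent.S44.L.TopProof
import Fermat.Agent.S44.L.ThetaLog
import Fermat.Agent.S44.L.Hecke
import Fermat.Agent.S35.NormW
import Fermat.Agent.S30.E4.GaussNorm

/-!
# PROGRAM MR (S44), strand L: the reduction of the two degeneracy norms (`p`-new classes)

Level `N' p`, `p ∤ N'`, `A` a valuation subring of `ℚ̄` over `p`, `κ` its residue field,
`Fr` the coefficientwise Frobenius of `κ((q))`, `w` ANY swap of `FN (N' p)` (`w ∘ α = β`,
`w ∘ β = α`; it exists by `S37.SwapGal.exists_swap_gal_j`).  For `x ∈ FN (N' p)` let `f` be a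
reduction of `x` (the `∞`-component) and `f₀` a reduction of `w x` ("the reduction of `x` on
the `0`-component").

* `redAt_norm_alpha` : `f · Fr f₀` is a reduction of `N_α x`;
* `redAt_norm_beta`  : `f₀ · Fr f` is a reduction of `N_β x`;
* `exists_pow_of_norm_alpha` / `_beta` : if the norm is `c · g ^ p`, then
  `f · Fr f₀ = ē · h ^ p` (resp. `f₀ · Fr f = ē · h ^ p`);
* `theta_zero_of_norm_alpha` / `_beta` : then `θ f = 0 → θ f₀ = 0` (resp. the converse);
* `theta_zero_iff` : for an `IsNewEmb` embedding `ι` and a `p`-torsion point `Q`: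
  `θ f = 0 ↔ θ f₀ = 0` for the two reductions of `ι Q`.
-/

set_option autoImplicit false

open WeierstrassCurve WeierstrassCurve.Affine WeierstrassCurve.Affine.Point
open HahnSeries ModularCurve AlgebraicCurve

namespace Fermat.Agent.S44.L.NormRed

open Fermat.Agent.S30 Fermat.Agent.S30.Producer Fermat.Agent.S44.Contract
open Fermat.Agent.S44.L.Top Fermat.Agent.S44.L.TopProof Fermat.Agent.S44.L.ThetaLog
open Fermat.Agent.S36.QFormal

/-! ### Formal preliminaries -/

section Formal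

variable {R : Type*} [CommRing R]

/-- The norm `U_ℓ` of a constant. -/
theorem normL_C (ℓ : ℕ) (hℓ : 0 < ℓ) (z : Rˣ) (c : R) :
    Congr.normL ℓ hℓ z (HahnSeries.C c : LaurentSeries R) = HahnSeries.C (c ^ ℓ) := by
  unfold Congr.normL Congr.conjProd
  simp only [Hecke.rescale_C]
  rw [Finset.prod_const, Finset.card_range, ← map_pow, Hecke.contract_C]

variable {κ : Type*} [Field κ]

/-- `θ` commutes with the coefficientwise Frobenius. -/
theorem theta_coeffMap_frobenius (p : ℕ) [Fact p.Prime] [CharP κ p] (f : LaurentSeries κ) :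
    theta (coeffMap (frobenius κ p) f) = coeffMap (frobenius κ p) (theta f) := by
  ext n
  rw [coeff_theta, coeffMap_coeff, coeffMap_coeff, coeff_theta, map_mul, map_intCast]

/-- If `θ (Fr f) = 0` then `θ f = 0`. -/
theorem theta_eq_zero_of_coeffMap_frobenius (p : ℕ) [Fact p.Prime] [CharP κ p]
    {f : LaurentSeries κ} (h : theta (coeffMap (frobenius κ p) f) = 0) : theta f = 0 := by
  rw [theta_coeffMap_frobenius] at h
  apply Congr.coeffMap_injective _ (frobenius_inj κ p)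
  rw [h, _root_.map_zero]

theorem coeffMap_frobenius_ne_zero (p : ℕ) [Fact p.Prime] [CharP κ p] {f : LaurentSeries κ}
    (hf : f ≠ 0) : coeffMap (frobenius κ p) f ≠ 0 := by
  intro h
  apply hf
  apply Congr.coeffMap_injective _ (frobenius_inj κ p)
  rw [h, _root_.map_zero]

/-- The formal core of the `θ`-transfer: if `f · Fr g = ē · h ^ p` and `θ f = 0`, then
`θ g = 0`. -/
theorem theta_eq_zero_of_mul_frobenius (p : ℕ) [Fact p.Prime] [CharP κ p]
    {f g h : LaurentSeries κ} {e : κ} (hf : f ≠ 0) (hg : g ≠ 0) (he : e ≠ 0)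
    (hE : f * coeffMap (frobenius κ p) g = HahnSeries.C e * h ^ p) (hθ : theta f = 0) :
    theta g = 0 := by
  have hFg : coeffMap (frobenius κ p) g ≠ 0 := coeffMap_frobenius_ne_zero p hg
  have h1 : dlog (f * coeffMap (frobenius κ p) g) = 0 := by
    rw [hE, dlog_C_mul he, dlog_pow_char]
  rw [dlog_mul hf hFg] at h1
  have h2 : dlog f = 0 := by
    unfold dlog
    rw [hθ, zero_div]
  rw [h2, zero_add] at h1
  have h3 : theta (coeffMap (frobenius κ p) g) = 0 := by
    rw [← dlog_mul_self hFg, h1, zero_mul]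
  exact theta_eq_zero_of_coeffMap_frobenius p h3

/-- Coefficient form of `θ f = 0`. -/
theorem theta_eq_zero_iff {f : LaurentSeries κ} :
    theta f = 0 ↔ ∀ n : ℤ, (n : κ) * f.coeff n = 0 := by
  constructor
  · intro h n
    rw [← coeff_theta, h, HahnSeries.coeff_zero]
  · intro h
    ext n
    rw [coeff_theta, h n, HahnSeries.coeff_zero]

end Formal

/-! ### `U_p` on Gauss fractions -/

section Gauss

variable (A : ValuationSubring Qb)

/-- Every nonzero function has a reduction at the Gauss valuation (`E4.hasGaussNorm`). -/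
theorem exists_redAt (N p : ℕ) [Fact p.Prime] (hA : A.LiesOverPrime p) (g : FN N)
    (hg : g ≠ 0) : ∃ gb : LaurentSeries (IsLocalRing.ResidueField A), RedAt N A g gb := by
  obtain ⟨d, P, Q, hPm, hQm, hd, hP, hQ, hgPQ⟩ := E4.hasGaussNorm N p A hA g hg
  have hGQ : (g : LaurentSeries Qb) * Congr.incl A Q = HahnSeries.C d * Congr.incl A P := by
    have h1 : (g : LaurentSeries Qb) * Congr.incl A Q =
        algebraMap Qb (LaurentSeries Qb) d * Congr.incl A P := congrArg Subtype.val hgPQ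
    rw [h1, algebraMap_laurentSeries_eq_single, HahnSeries.C_apply]
  exact ⟨Congr.red A P / Congr.red A Q, d, P, Q, hd, hP, hQ, hGQ, div_mul_cancel₀ _ hQ⟩

/-- `U_p` of a Gauss fraction is a Gauss fraction, and its reduction is the coefficientwise
Frobenius of the reduction. -/
theorem exists_normL_fraction (p : ℕ) [Fact p.Prime] [CharP (IsLocalRing.ResidueField A) p]
    (hA : A.LiesOverPrime p) (z : Qbˣ)
    (hz : IsPrimitiveRoot z p) {y : LaurentSeries Qb} {c : Qb} {U V : LaurentSeries A}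
    (hy : y * Congr.incl A V = HahnSeries.C c * Congr.incl A U) :
    ∃ U' V' : LaurentSeries A,
      Congr.red A U' = coeffMap (frobenius (IsLocalRing.ResidueField A) p) (Congr.red A U) ∧
      Congr.red A V' = coeffMap (frobenius (IsLocalRing.ResidueField A) p) (Congr.red A V) ∧
      Congr.normL p (Fact.out : p.Prime).pos z y * Congr.incl A V'
        = HahnSeries.C (c ^ p) * Congr.incl A U' := by
  have hp : p.Prime := Fact.out
  have hz1 : ((z : Qbˣ) : Qb) ^ p = 1 := by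
    rw [← Units.val_pow_eq_pow_val, hz.pow_eq_one, Units.val_one]
  have hincl : ∀ X : LaurentSeries A,
      Congr.incl A (Congr.normL p hp.pos (Congr.unitA A hp.pos hz1) X)
        = Congr.normL p hp.pos z (Congr.incl A X) := fun X => by
    rw [Congr.incl, Congr.coeffMap_normL, Congr.map_subtype_unitA A hp.pos hz1 z rfl]
  have hred : ∀ X : LaurentSeries A,
      Congr.red A (Congr.normL p hp.pos (Congr.unitA A hp.pos hz1) X)
        = coeffMap (frobenius (IsLocalRing.ResidueField A) p) (Congr.red A X) := fun X => by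
    rw [Congr.red, Congr.coeffMap_normL, Congr.map_residue_unitA A hA hp.pos hz1,
      Congr.normL_one_unit]
  refine ⟨_, _, hred U, hred V, ?_⟩
  rw [hincl, hincl, ← Congr.normL_mul p hp.pos z hz, hy, Congr.normL_mul p hp.pos z hz, normL_C]

end Gauss

/-! ### The reductions of the two norms -/

section Norm

variable {p N' : ℕ} [NeZero N'] [NeZero p]

/-- **The reduction of `N_α x` is `f · Fr f₀`.** -/
theorem redAt_norm_alpha [Fact p.Prime] (hpN : ¬ p ∣ N') (A : ValuationSubring Qb)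
    [CharP (IsLocalRing.ResidueField A) p] (hA : A.LiesOverPrime p) (w : FN (N' * p) ≃ₐ[Qb] FN (N' * p))
    (hwα : ∀ a : FN N', w (heckeAlphaBar Qb N' p a) = heckeBetaBar Qb N' p a)
    (hwβ : ∀ a : FN N', w (heckeBetaBar Qb N' p a) = heckeAlphaBar Qb N' p a)
    (x : FN (N' * p)) {f f₀ : LaurentSeries (IsLocalRing.ResidueField A)}
    (hf : RedAt (N' * p) A x f) (h₀ : RedAt (N' * p) A (w x) f₀) :
    RedAt N' A (letI := algebraAlong (heckeAlphaBar Qb N' p); Algebra.norm (FN N') x)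
      (f * coeffMap (frobenius (IsLocalRing.ResidueField A) p) f₀) := by
  have hp : p.Prime := Fact.out
  obtain ⟨c₁, U₁, V₁, hc₁, hU₁, hV₁, hx₁, hf₁⟩ := hf
  obtain ⟨c₀, U₀, V₀, hc₀, hU₀, hV₀, hx₀, hf₀⟩ := h₀
  have hz : IsPrimitiveRoot (E4.zetaU p) p := E4.zetaU_spec hp.pos
  obtain ⟨U', V', hU', hV', hN⟩ := exists_normL_fraction A p hA (E4.zetaU p) hz hx₀
  have hnorm := Fermat.Agent.S35.NormW.coe_norm_alpha hp hpN (E4.zetaU p) hz w hwα hwβ x
  refine ⟨c₁ * c₀ ^ p, U₁ * U', V₁ * V', mul_ne_zero hc₁ (pow_ne_zero _ hc₀), ?_, ?_, ?_, ?_⟩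
  · rw [map_mul, hU']
    exact mul_ne_zero hU₁ (coeffMap_frobenius_ne_zero p hU₀)
  · rw [map_mul, hV']
    exact mul_ne_zero hV₁ (coeffMap_frobenius_ne_zero p hV₀)
  · rw [hnorm, map_mul, map_mul, map_mul]
    linear_combination
      (Congr.normL p hp.pos (E4.zetaU p) ((w x : FN (N' * p)) : LaurentSeries Qb)
          * Congr.incl A V') * hx₁
        + (HahnSeries.C c₁ * Congr.incl A U₁) * hN
  · rw [map_mul, map_mul, hU', hV', ← hf₁, ← hf₀, map_mul]
    ring

/-- **The reduction of `N_β x` is `f₀ · Fr f`.** -/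
theorem redAt_norm_beta [Fact p.Prime] (hpN : ¬ p ∣ N') (A : ValuationSubring Qb)
    [CharP (IsLocalRing.ResidueField A) p] (hA : A.LiesOverPrime p) (w : FN (N' * p) ≃ₐ[Qb] FN (N' * p))
    (hwα : ∀ a : FN N', w (heckeAlphaBar Qb N' p a) = heckeBetaBar Qb N' p a)
    (hwβ : ∀ a : FN N', w (heckeBetaBar Qb N' p a) = heckeAlphaBar Qb N' p a)
    (hww : ∀ y : FN (N' * p), w (w y) = y)
    (x : FN (N' * p)) {f f₀ : LaurentSeries (IsLocalRing.ResidueField A)}
    (hf : RedAt (N' * p) A x f) (h₀ : RedAt (N' * p) A (w x) f₀) :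
    RedAt N' A (letI := algebraAlong (heckeBetaBar Qb N' p); Algebra.norm (FN N') x)
      (f₀ * coeffMap (frobenius (IsLocalRing.ResidueField A) p) f) := by
  have h := redAt_norm_alpha hpN A hA w hwα hwβ (w x) h₀ (by rw [hww]; exact hf)
  rw [← Fermat.Agent.S35.NormW.norm_beta_eq_norm_alpha_swap w hwα hww x] at h
  exact h

/-- If `N_α x = c · g ^ p`, then `f · Fr f₀ = ē · h ^ p`. -/
theorem exists_pow_of_norm_alpha [Fact p.Prime] (hpN : ¬ p ∣ N') (A : ValuationSubring Qb)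
    [CharP (IsLocalRing.ResidueField A) p] (hA : A.LiesOverPrime p) (w : FN (N' * p) ≃ₐ[Qb] FN (N' * p))
    (hwα : ∀ a : FN N', w (heckeAlphaBar Qb N' p a) = heckeBetaBar Qb N' p a)
    (hwβ : ∀ a : FN N', w (heckeBetaBar Qb N' p a) = heckeAlphaBar Qb N' p a)
    (x : FN (N' * p)) (c : Qb) (g : FN N')
    (hN : (letI := algebraAlong (heckeAlphaBar Qb N' p); Algebra.norm (FN N') x)
      = algebraMap Qb (FN N') c * g ^ p)
    {f f₀ : LaurentSeries (IsLocalRing.ResidueField A)}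
    (hf : RedAt (N' * p) A x f) (h₀ : RedAt (N' * p) A (w x) f₀) :
    ∃ (e : IsLocalRing.ResidueField A) (h : LaurentSeries (IsLocalRing.ResidueField A)),
      e ≠ 0 ∧ h ≠ 0 ∧
        f * coeffMap (frobenius (IsLocalRing.ResidueField A) p) f₀ = HahnSeries.C e * h ^ p := by
  have hp : p.Prime := Fact.out
  have hR := redAt_norm_alpha hpN A hA w hwα hwβ x hf h₀
  rw [hN] at hR
  have hne := redAt_left_ne_zero hR
  have hc : c ≠ 0 := by
    rintro rfl
    apply hne
    rw [_root_.map_zero, zero_mul]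
  have hg : g ≠ 0 := by
    rintro rfl
    apply hne
    rw [zero_pow hp.ne_zero, mul_zero]
  obtain ⟨gb, hgb⟩ := exists_redAt A N' p hA g hg
  obtain ⟨e, he, hee⟩ := redAt_unique hR (redAt_const_mul hc (redAt_pow hgb p))
  exact ⟨e, gb, he, redAt_ne_zero hgb, hee⟩

/-- If `N_β x = c · g ^ p`, then `f₀ · Fr f = ē · h ^ p`. -/
theorem exists_pow_of_norm_beta [Fact p.Prime] (hpN : ¬ p ∣ N') (A : ValuationSubring Qb)
    [CharP (IsLocalRing.ResidueField A) p] (hA : A.LiesOverPrime p) (w : FN (N' * p) ≃ₐ[Qb] FN (N' * p))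
    (hwα : ∀ a : FN N', w (heckeAlphaBar Qb N' p a) = heckeBetaBar Qb N' p a)
    (hwβ : ∀ a : FN N', w (heckeBetaBar Qb N' p a) = heckeAlphaBar Qb N' p a)
    (hww : ∀ y : FN (N' * p), w (w y) = y)
    (x : FN (N' * p)) (c : Qb) (g : FN N')
    (hN : (letI := algebraAlong (heckeBetaBar Qb N' p); Algebra.norm (FN N') x)
      = algebraMap Qb (FN N') c * g ^ p)
    {f f₀ : LaurentSeries (IsLocalRing.ResidueField A)}
    (hf : RedAt (N' * p) A x f) (h₀ : RedAt (N' * p) A (w x) f₀) :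
    ∃ (e : IsLocalRing.ResidueField A) (h : LaurentSeries (IsLocalRing.ResidueField A)),
      e ≠ 0 ∧ h ≠ 0 ∧
        f₀ * coeffMap (frobenius (IsLocalRing.ResidueField A) p) f = HahnSeries.C e * h ^ p := by
  have hN' : (letI := algebraAlong (heckeAlphaBar Qb N' p); Algebra.norm (FN N') (w x))
      = algebraMap Qb (FN N') c * g ^ p := by
    rw [← Fermat.Agent.S35.NormW.norm_beta_eq_norm_alpha_swap w hwα hww x]
    exact hN
  exact exists_pow_of_norm_alpha hpN A hA w hwα hwβ (w x) c g hN' h₀ (by rw [hww]; exact hf)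

/-- **`θ`-transfer, `α` side**: if `N_α x = c · g ^ p` and `θ f = 0`, then `θ f₀ = 0`. -/
theorem theta_zero_of_norm_alpha [Fact p.Prime] (hpN : ¬ p ∣ N') (A : ValuationSubring Qb)
    (hA : A.LiesOverPrime p) (w : FN (N' * p) ≃ₐ[Qb] FN (N' * p))
    (hwα : ∀ a : FN N', w (heckeAlphaBar Qb N' p a) = heckeBetaBar Qb N' p a)
    (hwβ : ∀ a : FN N', w (heckeBetaBar Qb N' p a) = heckeAlphaBar Qb N' p a)
    (x : FN (N' * p)) (c : Qb) (g : FN N')
    (hN : (letI := algebraAlong (heckeAlphaBar Qb N' p); Algebra.norm (FN N') x)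
      = algebraMap Qb (FN N') c * g ^ p)
    {f f₀ : LaurentSeries (IsLocalRing.ResidueField A)}
    (hf : RedAt (N' * p) A x f) (h₀ : RedAt (N' * p) A (w x) f₀)
    (hθ : ∀ n : ℤ, (n : IsLocalRing.ResidueField A) * f.coeff n = 0) :
    ∀ n : ℤ, (n : IsLocalRing.ResidueField A) * f₀.coeff n = 0 := by
  have := Congr.charP_residue A hA
  obtain ⟨e, h, he, -, hE⟩ := exists_pow_of_norm_alpha hpN A hA w hwα hwβ x c g hN hf h₀
  exact theta_eq_zero_iff.1 (theta_eq_zero_of_mul_frobenius p (redAt_ne_zero hf)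
    (redAt_ne_zero h₀) he hE (theta_eq_zero_iff.2 hθ))

/-- **`θ`-transfer, `β` side**: if `N_β x = c · g ^ p` and `θ f₀ = 0`, then `θ f = 0`. -/
theorem theta_zero_of_norm_beta [Fact p.Prime] (hpN : ¬ p ∣ N') (A : ValuationSubring Qb)
    (hA : A.LiesOverPrime p) (w : FN (N' * p) ≃ₐ[Qb] FN (N' * p))
    (hwα : ∀ a : FN N', w (heckeAlphaBar Qb N' p a) = heckeBetaBar Qb N' p a)
    (hwβ : ∀ a : FN N', w (heckeBetaBar Qb N' p a) = heckeAlphaBar Qb N' p a)
    (hww : ∀ y : FN (N' * p), w (w y) = y)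
    (x : FN (N' * p)) (c : Qb) (g : FN N')
    (hN : (letI := algebraAlong (heckeBetaBar Qb N' p); Algebra.norm (FN N') x)
      = algebraMap Qb (FN N') c * g ^ p)
    {f f₀ : LaurentSeries (IsLocalRing.ResidueField A)}
    (hf : RedAt (N' * p) A x f) (h₀ : RedAt (N' * p) A (w x) f₀)
    (hθ : ∀ n : ℤ, (n : IsLocalRing.ResidueField A) * f₀.coeff n = 0) :
    ∀ n : ℤ, (n : IsLocalRing.ResidueField A) * f.coeff n = 0 := by
  have := Congr.charP_residue A hA
  obtain ⟨e, h, he, -, hE⟩ :=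
    exists_pow_of_norm_beta hpN A hA w hwα hwβ hww x c g hN hf h₀
  exact theta_eq_zero_iff.1 (theta_eq_zero_of_mul_frobenius p (redAt_ne_zero h₀)
    (redAt_ne_zero hf) he hE (theta_eq_zero_iff.2 hθ))

end Norm

/-! ### The `p`-new embedding -/

/-- **`p`-new classes: `θ f = 0 ↔ θ f₀ = 0`.**  For an `IsNewEmb` embedding `ι`, a `p`-torsion
point `Q`, a reduction `f` of `ι Q` and a reduction `f₀` of `w (ι Q)`. -/
theorem theta_zero_iff (P : FreyPackage) (N' : ℕ) [NeZero N'] [NeZero P.p]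
    (W : WeierstrassCurve ℤ) (hpN : ¬ P.p ∣ N') (A : ValuationSubring Qb)
    (hA : A.LiesOverPrime P.p) (ι : (P.freyCurve⁄Qb).Point → FN (N' * P.p))
    (hι : IsNewEmb P N' W ι) (w : FN (N' * P.p) ≃ₐ[Qb] FN (N' * P.p))
    (hwα : ∀ a : FN N', w (heckeAlphaBar Qb N' P.p a) = heckeBetaBar Qb N' P.p a)
    (hwβ : ∀ a : FN N', w (heckeBetaBar Qb N' P.p a) = heckeAlphaBar Qb N' P.p a)
    (hww : ∀ y : FN (N' * P.p), w (w y) = y)
    (Q : (P.freyCurve⁄Qb).Point) (hQ : P.p • Q = 0)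
    {f f₀ : LaurentSeries (IsLocalRing.ResidueField A)}
    (hf : RedAt (N' * P.p) A (ι Q) f) (h₀ : RedAt (N' * P.p) A (w (ι Q)) f₀) :
    (∀ n : ℤ, (n : IsLocalRing.ResidueField A) * f.coeff n = 0) ↔
      ∀ n : ℤ, (n : IsLocalRing.ResidueField A) * f₀.coeff n = 0 := by
  have : Fact P.p.Prime := ⟨P.pp⟩
  obtain ⟨c, g, hN⟩ := hι.normAlpha Q hQ
  obtain ⟨c', g', hN'⟩ := hι.normBeta Q hQ
  exact ⟨theta_zero_of_norm_alpha hpN A hA w hwα hwβ (ι Q) c g hN hf h₀,
    theta_zero_of_norm_beta hpN A hA w hwα hwβ hww (ι Q) c' g' hN' hf h₀⟩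

end Fermat.Agent.S44.L.NormRed
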