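import Mathlib

/-!
# S44 / L, cover-free ALT twin (row ALT.2): `hord` at the primes of `B_y[π]` through a conductor

Level-free (Mathlib only).  Setting of the application: `C = Chart O t` (integrally closed,
fraction field `L`), `Ls = L(π)` the function field over the ramified base `O_* = O[π]`,
`Cs = Chart O_* t` (integral over `C`, contains `C[π]`), `By` the localisation of `C` at a closed
point, `A = By[π] = Algebra.adjoin By {π} ⊆ Ls` the ring of `NodeNF`.

* `exists_conductor` : the discriminant `d` of an integral power basis `1, π, …` lies in `C`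
  and `d • z ∈ C[π]` for every `z ∈ Ls` integral over `C`.
* `exists_conductor_mul_eq_pow` : if the derivative of the minimal polynomial at `π` divides
  `ϖ ^ k` in the integral elements, then the conductor `d` divides a power of `ϖ` in `C`.
* `hord_of_horiz` : the horizontal hypothesis (`f · s = τ ^ m · b`, `s, b ∉ Q'`) at the primes
  `Q' ∌ π` of `Cs` gives the same relation at the primes `Q ∌ π` of `C[π]`, with
  `s, b ∈ C[π]`, as soon as some `d` with `d • Cs ⊆ C[π]` divides a power of `ϖ` and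
  `π ^ n ∈ ϖ • C[π]`.
* `hord_adjoin` : the same at the primes of `By[π]` for any `C`-algebra `By` acting on `Ls`
  compatibly; the conclusion is literally the binder `hord` of `NodeNF` (with `K := Ls`).
* `hord_adjoin_of_powerBasis` : the two steps combined.
-/

set_option autoImplicit false

namespace Fermat.Agent.S44.L.HordCond

open Polynomial

/-! ### The conductor of `C[π]` -/

section Conductor

variable {C : Type*} [CommRing C] [IsDomain C] [IsIntegrallyClosed C]
  {L : Type*} [Field L] [Algebra C L] [IsFractionRing C L]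
  {Ls : Type*} [Field Ls] [Algebra L Ls] [Algebra C Ls] [IsScalarTower C L Ls]
  [FiniteDimensional L Ls] [Algebra.IsSeparable L Ls]

/-- **The conductor.**  The discriminant of an integral power basis lies in `C` and multiplies
every element of `Ls` integral over `C` into `C[π]`. -/
theorem exists_conductor (B : PowerBasis L Ls) (hint : IsIntegral C B.gen) :
    ∃ d : C, algebraMap C L d = Algebra.discr L B.basis ∧
      ∀ z : Ls, IsIntegral C z →
        algebraMap C Ls d * z ∈ Algebra.adjoin C ({B.gen} : Set Ls) := by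
  have hdint : IsIntegral C (Algebra.discr L B.basis) := by
    refine Algebra.discr_isIntegral L (fun i => ?_)
    rw [PowerBasis.coe_basis]
    exact hint.pow _
  obtain ⟨d, hd⟩ := IsIntegrallyClosed.isIntegral_iff.mp hdint
  refine ⟨d, hd, fun z hz => ?_⟩
  have h := Algebra.discr_mul_isIntegral_mem_adjoin (K := L) (B := B) hint hz
  have e : Algebra.discr L B.basis • z = algebraMap C Ls d * z := by
    rw [Algebra.smul_def, ← hd, ← IsScalarTower.algebraMap_apply]
  rwa [e] at h

/-- **The conductor divides a power of `ϖ`** as soon as the derivative of the minimal polynomial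
at `π` divides `ϖ ^ k` among the integral elements of `Ls`. -/
theorem exists_conductor_mul_eq_pow (B : PowerBasis L Ls) (hint : IsIntegral C B.gen)
    (ϖ : C) (k : ℕ) (γ : Ls) (hγ : IsIntegral C γ)
    (hγeq : aeval B.gen (derivative (minpoly L B.gen)) * γ = algebraMap C Ls (ϖ ^ k)) :
    ∃ (d e : C) (k' : ℕ), e * d = ϖ ^ k' ∧
      ∀ z : Ls, IsIntegral C z →
        algebraMap C Ls d * z ∈ Algebra.adjoin C ({B.gen} : Set Ls) := by
  obtain ⟨d, hd, hcond⟩ := exists_conductor B hint
  have hν : IsIntegral C (Algebra.norm L γ) := Algebra.isIntegral_norm L hγ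
  obtain ⟨e₀, he₀⟩ := IsIntegrallyClosed.isIntegral_iff.mp hν
  refine ⟨d, (-1) ^ (Module.finrank L Ls * (Module.finrank L Ls - 1) / 2) * e₀,
    k * Module.finrank L Ls, ?_, hcond⟩
  apply IsFractionRing.injective C L
  have h1 := congrArg (Algebra.norm L) hγeq
  rw [map_mul, IsScalarTower.algebraMap_apply C L Ls, Algebra.norm_algebraMap] at h1
  have hs : ((-1 : L) ^ (Module.finrank L Ls * (Module.finrank L Ls - 1) / 2)) *
      ((-1) ^ (Module.finrank L Ls * (Module.finrank L Ls - 1) / 2)) = 1 := by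
    rw [← mul_pow]
    simp
  rw [map_mul, map_mul, map_pow, map_neg, map_one, he₀, hd, Algebra.discr_powerBasis_eq_norm,
    pow_mul, map_pow (algebraMap C L) (ϖ ^ k), ← h1]
  calc (-1 : L) ^ (Module.finrank L Ls * (Module.finrank L Ls - 1) / 2) * Algebra.norm L γ *
        ((-1) ^ (Module.finrank L Ls * (Module.finrank L Ls - 1) / 2) *
          Algebra.norm L (aeval B.gen (derivative (minpoly L B.gen))))
      = ((-1 : L) ^ (Module.finrank L Ls * (Module.finrank L Ls - 1) / 2) *
          (-1) ^ (Module.finrank L Ls * (Module.finrank L Ls - 1) / 2)) *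
          (Algebra.norm L (aeval B.gen (derivative (minpoly L B.gen))) * Algebra.norm L γ) := by
        ring
    _ = Algebra.norm L (aeval B.gen (derivative (minpoly L B.gen))) * Algebra.norm L γ := by
        rw [hs, one_mul]

end Conductor

/-! ### From the primes of the big chart to the primes of `C[π]` -/

section Hord

variable {C : Type*} [CommRing C] {Ls : Type*} [Field Ls] [Algebra C Ls]
  {Cs : Type*} [CommRing Cs] [Algebra Cs Ls]

/-- **`hord` at the primes of `C[π]`** from the horizontal hypothesis at the primes of a larger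
ring `Cs` (integral over `C`, containing `C[π]`, embedded in `Ls`), when some `d` with
`d • Cs ⊆ C[π]` divides a power of `ϖ` and `π ^ n ∈ ϖ • C[π]`. -/
theorem hord_of_horiz (π : Ls)
    (hinj : Function.Injective (algebraMap Cs Ls))
    (hCs : ∀ z : Cs, IsIntegral C (algebraMap Cs Ls z))
    (hA : ∀ a ∈ Algebra.adjoin C ({π} : Set Ls), ∃ z : Cs, algebraMap Cs Ls z = a)
    (ϖ d e : C) (k n : ℕ) (hed : e * d = ϖ ^ k)
    (hcond : ∀ z : Cs,
      algebraMap C Ls d * algebraMap Cs Ls z ∈ Algebra.adjoin C ({π} : Set Ls))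
    (c : Ls) (hc : c ∈ Algebra.adjoin C ({π} : Set Ls))
    (hπϖ : π ^ n = algebraMap C Ls ϖ * c)
    (m : ℕ) (f : Ls)
    (hH : ∀ Q' : Ideal Cs, Q'.IsPrime → (∀ z : Cs, algebraMap Cs Ls z = π → z ∉ Q') →
      ∃ (τ : Ls) (s b : Cs), s ∉ Q' ∧ b ∉ Q' ∧
        f * algebraMap Cs Ls s = τ ^ m * algebraMap Cs Ls b)
    (Q : Ideal (Algebra.adjoin C ({π} : Set Ls))) (hQ : Q.IsPrime)
    (hπQ : (⟨π, Algebra.subset_adjoin (Set.mem_singleton π)⟩ :
      Algebra.adjoin C ({π} : Set Ls)) ∉ Q) :
    ∃ (a b : Algebra.adjoin C ({π} : Set Ls)) (τ : Ls), a ∉ Q ∧ b ∉ Q ∧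
      (b : Ls) * f = (a : Ls) * τ ^ m := by
  classical
  -- the inclusion `j : C[π] → Cs`
  let j0 : Algebra.adjoin C ({π} : Set Ls) → Cs := fun a => Classical.choose (hA a a.2)
  have hj0 : ∀ a, algebraMap Cs Ls (j0 a) = (a : Ls) := fun a => Classical.choose_spec (hA a a.2)
  let j : Algebra.adjoin C ({π} : Set Ls) →+* Cs :=
    { toFun := j0
      map_one' := hinj (by rw [hj0, map_one]; rfl)
      map_mul' := fun a b => hinj (by rw [hj0, map_mul, hj0, hj0]; rfl)
      map_zero' := hinj (by rw [hj0, map_zero]; rfl)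
      map_add' := fun a b => hinj (by rw [hj0, map_add, hj0, hj0]; rfl) }
  have hj : ∀ a, algebraMap Cs Ls (j a) = (a : Ls) := hj0
  have hjinj : Function.Injective j := fun a b h => Subtype.ext (by rw [← hj a, ← hj b, h])
  letI : Algebra (Algebra.adjoin C ({π} : Set Ls)) Cs := j.toAlgebra
  have hjalg : ∀ a, algebraMap (Algebra.adjoin C ({π} : Set Ls)) Cs a = j a := fun _ => rfl
  have hcomp : (algebraMap Cs Ls).comp
      (j.comp (algebraMap C (Algebra.adjoin C ({π} : Set Ls)))) = algebraMap C Ls := by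
    ext x
    rw [RingHom.comp_apply, RingHom.comp_apply, hj]
    rfl
  -- `Cs` is integral over `C[π]`
  have hintCs : Algebra.IsIntegral (Algebra.adjoin C ({π} : Set Ls)) Cs := by
    refine ⟨fun z => ?_⟩
    obtain ⟨P, hP, hPz⟩ := hCs z
    refine ⟨P.map (algebraMap C (Algebra.adjoin C ({π} : Set Ls))), hP.map _, hinj ?_⟩
    rw [map_zero, Polynomial.hom_eval₂, Polynomial.eval₂_map]
    have : (algebraMap Cs Ls).comp
        ((algebraMap (Algebra.adjoin C ({π} : Set Ls)) Cs).comp
          (algebraMap C (Algebra.adjoin C ({π} : Set Ls)))) = algebraMap C Ls := hcomp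
    rw [RingHom.comp_assoc, this]
    exact hPz
  -- lying over
  obtain ⟨Q', -, hQ'prime, hQ'⟩ := Ideal.exists_ideal_over_prime_of_isIntegral Q (⊥ : Ideal Cs)
    (by
      rw [Ideal.comap_bot_of_injective _ (by exact hjinj)]
      exact bot_le)
  have hmemQ : ∀ a : Algebra.adjoin C ({π} : Set Ls), j a ∈ Q' ↔ a ∈ Q := by
    intro a
    rw [← hQ']
    rfl
  -- `π ∉ Q'`
  have hπQ' : ∀ z : Cs, algebraMap Cs Ls z = π → z ∉ Q' := by
    intro z hz hzQ
    apply hπQ
    rw [← hmemQ]
    have : j ⟨π, Algebra.subset_adjoin (Set.mem_singleton π)⟩ = z := hinj (by rw [hj, hz])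
    rw [this]
    exact hzQ
  -- `ϖ ∉ Q`
  have hϖQ : algebraMap C (Algebra.adjoin C ({π} : Set Ls)) ϖ ∉ Q := by
    intro h
    apply hπQ
    refine hQ.mem_of_pow_mem n ?_
    have : (⟨π, Algebra.subset_adjoin (Set.mem_singleton π)⟩ :
        Algebra.adjoin C ({π} : Set Ls)) ^ n
        = algebraMap C (Algebra.adjoin C ({π} : Set Ls)) ϖ * ⟨c, hc⟩ := Subtype.ext hπϖ
    rw [this]
    exact Q.mul_mem_right _ h
  obtain ⟨τ, s, b, hs, hb, hfs⟩ := hH Q' hQ'prime hπQ'
  -- the conductor
  have hmem : ∀ z : Cs, algebraMap C Ls (ϖ ^ k) * algebraMap Cs Ls z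
      ∈ Algebra.adjoin C ({π} : Set Ls) := by
    intro z
    have h2 := (Algebra.adjoin C ({π} : Set Ls)).smul_mem (hcond z) e
    have h3 : e • (algebraMap C Ls d * algebraMap Cs Ls z)
        = algebraMap C Ls (ϖ ^ k) * algebraMap Cs Ls z := by
      rw [Algebra.smul_def, ← mul_assoc, ← map_mul, hed]
    rwa [h3] at h2
  have hnot : ∀ z : Cs, z ∉ Q' →
      (⟨_, hmem z⟩ : Algebra.adjoin C ({π} : Set Ls)) ∉ Q := by
    intro z hz hmemz
    rw [← hmemQ] at hmemz
    have h1 : j ⟨_, hmem z⟩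
        = j (algebraMap C (Algebra.adjoin C ({π} : Set Ls)) ϖ) ^ k * z := hinj (by
      rw [hj]
      show algebraMap C Ls (ϖ ^ k) * algebraMap Cs Ls z
        = algebraMap Cs Ls (j (algebraMap C (Algebra.adjoin C ({π} : Set Ls)) ϖ) ^ k * z)
      rw [map_mul, map_pow, map_pow, hj]
      rfl)
    rw [h1] at hmemz
    rcases hQ'prime.mem_or_mem hmemz with h | h
    · exact hϖQ ((hmemQ _).1 (hQ'prime.mem_of_pow_mem _ h))
    · exact hz h
  refine ⟨⟨_, hmem b⟩, ⟨_, hmem s⟩, τ, hnot b hb, hnot s hs, ?_⟩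
  show algebraMap C Ls (ϖ ^ k) * algebraMap Cs Ls s * f
    = algebraMap C Ls (ϖ ^ k) * algebraMap Cs Ls b * τ ^ m
  rw [mul_assoc, mul_comm (algebraMap Cs Ls s) f, hfs]
  ring

variable {By : Type*} [CommRing By] [Algebra C By] [Algebra By Ls] [IsScalarTower C By Ls]

omit [Algebra Cs Ls] in
/-- `C[π] ⊆ By[π]` inside `Ls`. -/
theorem adjoin_le_adjoin (π : Ls) {x : Ls} (hx : x ∈ Algebra.adjoin C ({π} : Set Ls)) :
    x ∈ Algebra.adjoin By ({π} : Set Ls) := by
  have h : Algebra.adjoin C ({π} : Set Ls)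
      ≤ (Algebra.adjoin By ({π} : Set Ls)).restrictScalars C :=
    Algebra.adjoin_le (fun y hy => Algebra.subset_adjoin hy)
  exact h hx

/-- **`hord` at the primes of `By[π]`**: literally the binder `hord` of `NodeNF`
(`A := Algebra.adjoin By {π}`, `K := Ls`). -/
theorem hord_adjoin (π : Ls)
    (hinj : Function.Injective (algebraMap Cs Ls))
    (hCs : ∀ z : Cs, IsIntegral C (algebraMap Cs Ls z))
    (hA : ∀ a ∈ Algebra.adjoin C ({π} : Set Ls), ∃ z : Cs, algebraMap Cs Ls z = a)
    (ϖ d e : C) (k n : ℕ) (hed : e * d = ϖ ^ k)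
    (hcond : ∀ z : Cs,
      algebraMap C Ls d * algebraMap Cs Ls z ∈ Algebra.adjoin C ({π} : Set Ls))
    (c : Ls) (hc : c ∈ Algebra.adjoin C ({π} : Set Ls))
    (hπϖ : π ^ n = algebraMap C Ls ϖ * c)
    (m : ℕ) (f : Ls)
    (hH : ∀ Q' : Ideal Cs, Q'.IsPrime → (∀ z : Cs, algebraMap Cs Ls z = π → z ∉ Q') →
      ∃ (τ : Ls) (s b : Cs), s ∉ Q' ∧ b ∉ Q' ∧
        f * algebraMap Cs Ls s = τ ^ m * algebraMap Cs Ls b)
    (Q : Ideal (Algebra.adjoin By ({π} : Set Ls))) (hQ : Q.IsPrime)
    (hπQ : (⟨π, Algebra.subset_adjoin (Set.mem_singleton π)⟩ :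
      Algebra.adjoin By ({π} : Set Ls)) ∉ Q) :
    ∃ (a b : Algebra.adjoin By ({π} : Set Ls)) (τ : Ls), a ∉ Q ∧ b ∉ Q ∧
      algebraMap (Algebra.adjoin By ({π} : Set Ls)) Ls b * f
        = algebraMap (Algebra.adjoin By ({π} : Set Ls)) Ls a * τ ^ m := by
  -- the inclusion `i : C[π] → By[π]`
  let i : Algebra.adjoin C ({π} : Set Ls) →+* Algebra.adjoin By ({π} : Set Ls) :=
    { toFun := fun a => ⟨(a : Ls), adjoin_le_adjoin π a.2⟩
      map_one' := rfl
      map_mul' := fun _ _ => rfl
      map_zero' := rfl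
      map_add' := fun _ _ => rfl }
  have hQc : (Q.comap i).IsPrime := Ideal.comap_isPrime i Q
  have hπc : (⟨π, Algebra.subset_adjoin (Set.mem_singleton π)⟩ :
      Algebra.adjoin C ({π} : Set Ls)) ∉ Q.comap i := fun h => hπQ h
  obtain ⟨a, b, τ, ha, hb, hab⟩ := hord_of_horiz π hinj hCs hA ϖ d e k n hed hcond c hc hπϖ m f hH
    (Q.comap i) hQc hπc
  exact ⟨i a, i b, τ, fun h => ha h, fun h => hb h, hab⟩

end Hord

/-! ### The two steps combined -/

section Combined

variable {C : Type*} [CommRing C] [IsDomain C] [IsIntegrallyClosed C]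
  {L : Type*} [Field L] [Algebra C L] [IsFractionRing C L]
  {Ls : Type*} [Field Ls] [Algebra L Ls] [Algebra C Ls] [IsScalarTower C L Ls]
  [FiniteDimensional L Ls] [Algebra.IsSeparable L Ls]
  {Cs : Type*} [CommRing Cs] [Algebra Cs Ls]
  {By : Type*} [CommRing By] [Algebra C By] [Algebra By Ls] [IsScalarTower C By Ls]

/-- **`hord` at the primes of `By[π]` for `π` the generator of an integral power basis** whose
minimal polynomial has derivative at `π` dividing a power of `ϖ` among the integral elements. -/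
theorem hord_adjoin_of_powerBasis (B : PowerBasis L Ls) (hint : IsIntegral C B.gen)
    (hinj : Function.Injective (algebraMap Cs Ls))
    (hCs : ∀ z : Cs, IsIntegral C (algebraMap Cs Ls z))
    (hA : ∀ a ∈ Algebra.adjoin C ({B.gen} : Set Ls), ∃ z : Cs, algebraMap Cs Ls z = a)
    (ϖ : C) (k : ℕ) (γ : Ls) (hγ : IsIntegral C γ)
    (hγeq : aeval B.gen (derivative (minpoly L B.gen)) * γ = algebraMap C Ls (ϖ ^ k))
    (n : ℕ) (c : Ls) (hc : c ∈ Algebra.adjoin C ({B.gen} : Set Ls))
    (hπϖ : B.gen ^ n = algebraMap C Ls ϖ * c)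
    (m : ℕ) (f : Ls)
    (hH : ∀ Q' : Ideal Cs, Q'.IsPrime → (∀ z : Cs, algebraMap Cs Ls z = B.gen → z ∉ Q') →
      ∃ (τ : Ls) (s b : Cs), s ∉ Q' ∧ b ∉ Q' ∧
        f * algebraMap Cs Ls s = τ ^ m * algebraMap Cs Ls b)
    (Q : Ideal (Algebra.adjoin By ({B.gen} : Set Ls))) (hQ : Q.IsPrime)
    (hπQ : (⟨B.gen, Algebra.subset_adjoin (Set.mem_singleton B.gen)⟩ :
      Algebra.adjoin By ({B.gen} : Set Ls)) ∉ Q) :
    ∃ (a b : Algebra.adjoin By ({B.gen} : Set Ls)) (τ : Ls), a ∉ Q ∧ b ∉ Q ∧
      algebraMap (Algebra.adjoin By ({B.gen} : Set Ls)) Ls b * f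
        = algebraMap (Algebra.adjoin By ({B.gen} : Set Ls)) Ls a * τ ^ m := by
  obtain ⟨d, e, k', hed, hcond⟩ := exists_conductor_mul_eq_pow B hint ϖ k γ hγ hγeq
  exact hord_adjoin B.gen hinj hCs hA ϖ d e k' n hed (fun z => hcond _ (hCs z)) c hc hπϖ m f hH
    Q hQ hπQ

end Combined

end Fermat.Agent.S44.L.HordCond
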