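import Mathlib
import Fermat.Agent.S44.L.HordCond

/-!
# S44 / L, cover-free ALT twin (row ALT.2): `hord` at the primes of `B_y[π]`, conductor `1`

Level-free (Mathlib + `HordCond`).  The route of the instance: the big chart `Cs = Chart O_* t`
is EXACTLY `C[π]` (base change of the chart ring along the Eisenstein extension `O_* = O[π]`,
`AltChartBC`), so the conductor of `HordCond.hord_adjoin` is `1`.

* `isIntegral_map_adjoin` : a ring homomorphism `β : L → Ls` over `φ : O → Os` maps elements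
  integral over `O[u]` to elements integral over `Os[β u]` (the chart inclusion).
* `hord_adjoin_of_coords` : `HordCond.hord_adjoin` with `d = 1`: hypotheses `π` integral over
  `C`, `π ∈ Cs`, `C ⊆ Cs`, `Cs ⊆ C[π]`.
* `hord_adjoin_of_coords_poly` : the same with `π ^ n = ϖ * θ(π)`, `θ ∈ C[X]` of degree `< n`.
* `hord_adjoin_of_coords_base` : the same in the base vocabulary: `φ : O → Os`,
  `ϖs ^ n = φ ϖ * θ.eval₂ φ ϖs` with `θ ∈ O[X]` of degree `< n` (the Eisenstein relation of the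
  uniformiser), `π = algebraMap Os Ls ϖs`.
-/

set_option autoImplicit false

namespace Fermat.Agent.S44.L.HordCoords

open Polynomial

/-- Transport of integrality over `O[u]` along a ring homomorphism `β` over `φ`. -/
theorem isIntegral_map_adjoin {O Os L Ls : Type*} [CommRing O] [CommRing Os] [CommRing L]
    [CommRing Ls] [Algebra O L] [Algebra Os Ls] (φ : O →+* Os) (β : L →+* Ls)
    (hβO : ∀ r : O, β (algebraMap O L r) = algebraMap Os Ls (φ r)) (u : L) {x : L}
    (hx : IsIntegral (Algebra.adjoin O ({u} : Set L)) x) :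
    IsIntegral (Algebra.adjoin Os ({β u} : Set Ls)) (β x) := by
  have hmem : ∀ a ∈ Algebra.adjoin O ({u} : Set L),
      β a ∈ Algebra.adjoin Os ({β u} : Set Ls) := by
    intro a ha
    induction ha using Algebra.adjoin_induction with
    | mem a ha =>
      rw [Set.mem_singleton_iff.mp ha]
      exact Algebra.subset_adjoin (Set.mem_singleton _)
    | algebraMap r =>
      rw [hβO]
      exact Subalgebra.algebraMap_mem _ _
    | add a b _ _ ha hb =>
      rw [map_add]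
      exact Subalgebra.add_mem _ ha hb
    | mul a b _ _ ha hb =>
      rw [map_mul]
      exact Subalgebra.mul_mem _ ha hb
  let g : Algebra.adjoin O ({u} : Set L) →+* Algebra.adjoin Os ({β u} : Set Ls) :=
    { toFun := fun a => ⟨β a, hmem a a.2⟩
      map_one' := Subtype.ext (map_one β)
      map_mul' := fun a b => Subtype.ext (map_mul β a.1 b.1)
      map_zero' := Subtype.ext (map_zero β)
      map_add' := fun a b => Subtype.ext (map_add β a.1 b.1) }
  exact hx.map_of_comp_eq g β (RingHom.ext fun _ => rfl)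

section Coords

variable {C : Type*} [CommRing C] {Ls : Type*} [Field Ls] [Algebra C Ls]
  {Cs : Type*} [CommRing Cs] [Algebra Cs Ls]
  {By : Type*} [CommRing By] [Algebra C By] [Algebra By Ls] [IsScalarTower C By Ls]

/-- **`hord` at the primes of `By[π]`, conductor `1`**: `Cs` (the big chart) is `C[π]`. -/
theorem hord_adjoin_of_coords (π : Ls)
    (hinj : Function.Injective (algebraMap Cs Ls))
    (hπint : IsIntegral C π)
    (hπCs : ∃ z : Cs, algebraMap Cs Ls z = π)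
    (hCCs : ∀ c : C, ∃ z : Cs, algebraMap Cs Ls z = algebraMap C Ls c)
    (hcoords : ∀ z : Cs, algebraMap Cs Ls z ∈ Algebra.adjoin C ({π} : Set Ls))
    (ϖ : C) (n : ℕ) (c : Ls) (hc : c ∈ Algebra.adjoin C ({π} : Set Ls))
    (hπϖ : π ^ n = algebraMap C Ls ϖ * c)
    (m : ℕ) (f : Ls)
    (hH : ∀ Q' : Ideal Cs, Q'.IsPrime → (∀ z : Cs, algebraMap Cs Ls z = π → z ∉ Q') →
      ∃ (τ : Ls) (s b : Cs), s ∉ Q' ∧ b ∉ Q' ∧
        f * algebraMap Cs Ls s = τ ^ m * algebraMap Cs Ls b)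
    (Q : Ideal (Algebra.adjoin By ({π} : Set Ls))) (hQ : Q.IsPrime)
    (hπQ : (⟨π, Algebra.subset_adjoin (Set.mem_singleton π)⟩ :
      Algebra.adjoin By ({π} : Set Ls)) ∉ Q) :
    ∃ (a b : Algebra.adjoin By ({π} : Set Ls)) (τ : Ls), a ∉ Q ∧ b ∉ Q ∧
      algebraMap (Algebra.adjoin By ({π} : Set Ls)) Ls b * f
        = algebraMap (Algebra.adjoin By ({π} : Set Ls)) Ls a * τ ^ m := by
  have hCs : ∀ z : Cs, IsIntegral C (algebraMap Cs Ls z) := fun z =>
    adjoin_le_integralClosure hπint (hcoords z)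
  have hA : ∀ a ∈ Algebra.adjoin C ({π} : Set Ls), ∃ z : Cs, algebraMap Cs Ls z = a := by
    intro a ha
    induction ha using Algebra.adjoin_induction with
    | mem a ha =>
      rw [Set.mem_singleton_iff.mp ha]
      exact hπCs
    | algebraMap r => exact hCCs r
    | add a b _ _ ha hb =>
      obtain ⟨za, hza⟩ := ha
      obtain ⟨zb, hzb⟩ := hb
      exact ⟨za + zb, by rw [map_add, hza, hzb]⟩
    | mul a b _ _ ha hb =>
      obtain ⟨za, hza⟩ := ha
      obtain ⟨zb, hzb⟩ := hb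
      exact ⟨za * zb, by rw [map_mul, hza, hzb]⟩
  have hcond : ∀ z : Cs,
      algebraMap C Ls 1 * algebraMap Cs Ls z ∈ Algebra.adjoin C ({π} : Set Ls) := by
    intro z
    rw [map_one, one_mul]
    exact hcoords z
  exact HordCond.hord_adjoin π hinj hCs hA ϖ 1 1 0 n (by rw [mul_one, pow_zero]) hcond c hc hπϖ
    m f hH Q hQ hπQ

/-- The same with `π ^ n = ϖ * θ(π)`, `θ ∈ C[X]` of degree `< n`. -/
theorem hord_adjoin_of_coords_poly (π : Ls)
    (hinj : Function.Injective (algebraMap Cs Ls))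
    (hπCs : ∃ z : Cs, algebraMap Cs Ls z = π)
    (hCCs : ∀ c : C, ∃ z : Cs, algebraMap Cs Ls z = algebraMap C Ls c)
    (hcoords : ∀ z : Cs, algebraMap Cs Ls z ∈ Algebra.adjoin C ({π} : Set Ls))
    (ϖ : C) (n : ℕ) (θ : C[X]) (hθdeg : θ.natDegree < n)
    (hθ : π ^ n = algebraMap C Ls ϖ * aeval π θ)
    (m : ℕ) (f : Ls)
    (hH : ∀ Q' : Ideal Cs, Q'.IsPrime → (∀ z : Cs, algebraMap Cs Ls z = π → z ∉ Q') →
      ∃ (τ : Ls) (s b : Cs), s ∉ Q' ∧ b ∉ Q' ∧
        f * algebraMap Cs Ls s = τ ^ m * algebraMap Cs Ls b)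
    (Q : Ideal (Algebra.adjoin By ({π} : Set Ls))) (hQ : Q.IsPrime)
    (hπQ : (⟨π, Algebra.subset_adjoin (Set.mem_singleton π)⟩ :
      Algebra.adjoin By ({π} : Set Ls)) ∉ Q) :
    ∃ (a b : Algebra.adjoin By ({π} : Set Ls)) (τ : Ls), a ∉ Q ∧ b ∉ Q ∧
      algebraMap (Algebra.adjoin By ({π} : Set Ls)) Ls b * f
        = algebraMap (Algebra.adjoin By ({π} : Set Ls)) Ls a * τ ^ m := by
  have hdeg : (Polynomial.C ϖ * θ).degree < (n : WithBot ℕ) :=
    lt_of_le_of_lt degree_le_natDegree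
      (by exact_mod_cast lt_of_le_of_lt (natDegree_C_mul_le ϖ θ) hθdeg)
  have hπint : IsIntegral C π := by
    refine ⟨X ^ n - Polynomial.C ϖ * θ, monic_X_pow_sub hdeg, ?_⟩
    rw [eval₂_sub, eval₂_pow, eval₂_X, eval₂_mul, eval₂_C, hθ, ← aeval_def, sub_self]
  exact hord_adjoin_of_coords π hinj hπint hπCs hCCs hcoords ϖ n (aeval π θ)
    (aeval_mem_adjoin_singleton C π) hθ m f hH Q hQ hπQ

/-- The same in the base vocabulary: `φ : O → Os`, `π = algebraMap Os Ls ϖs` with the Eisenstein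
relation `ϖs ^ n = φ ϖ * θ.eval₂ φ ϖs`, `θ ∈ O[X]` of degree `< n`. -/
theorem hord_adjoin_of_coords_base {O Os : Type*} [CommRing O] [CommRing Os] [Algebra O C]
    [Algebra Os Ls] (φ : O →+* Os)
    (hφ : ∀ r : O, algebraMap C Ls (algebraMap O C r) = algebraMap Os Ls (φ r))
    (ϖs : Os)
    (hinj : Function.Injective (algebraMap Cs Ls))
    (hπCs : ∃ z : Cs, algebraMap Cs Ls z = algebraMap Os Ls ϖs)
    (hCCs : ∀ c : C, ∃ z : Cs, algebraMap Cs Ls z = algebraMap C Ls c)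
    (hcoords : ∀ z : Cs,
      algebraMap Cs Ls z ∈ Algebra.adjoin C ({algebraMap Os Ls ϖs} : Set Ls))
    (ϖ : O) (n : ℕ) (θ : O[X]) (hθdeg : θ.natDegree < n)
    (hθ : ϖs ^ n = φ ϖ * θ.eval₂ φ ϖs)
    (m : ℕ) (f : Ls)
    (hH : ∀ Q' : Ideal Cs, Q'.IsPrime →
      (∀ z : Cs, algebraMap Cs Ls z = algebraMap Os Ls ϖs → z ∉ Q') →
      ∃ (τ : Ls) (s b : Cs), s ∉ Q' ∧ b ∉ Q' ∧
        f * algebraMap Cs Ls s = τ ^ m * algebraMap Cs Ls b)
    (Q : Ideal (Algebra.adjoin By ({algebraMap Os Ls ϖs} : Set Ls))) (hQ : Q.IsPrime)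
    (hπQ : (⟨algebraMap Os Ls ϖs, Algebra.subset_adjoin (Set.mem_singleton _)⟩ :
      Algebra.adjoin By ({algebraMap Os Ls ϖs} : Set Ls)) ∉ Q) :
    ∃ (a b : Algebra.adjoin By ({algebraMap Os Ls ϖs} : Set Ls)) (τ : Ls), a ∉ Q ∧ b ∉ Q ∧
      algebraMap (Algebra.adjoin By ({algebraMap Os Ls ϖs} : Set Ls)) Ls b * f
        = algebraMap (Algebra.adjoin By ({algebraMap Os Ls ϖs} : Set Ls)) Ls a * τ ^ m := by
  have hcomp : (algebraMap Os Ls).comp φ = (algebraMap C Ls).comp (algebraMap O C) :=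
    RingHom.ext fun r => (hφ r).symm
  have hθ' : algebraMap Os Ls ϖs ^ n
      = algebraMap C Ls (algebraMap O C ϖ) * aeval (algebraMap Os Ls ϖs) (θ.map (algebraMap O C)) := by
    rw [← map_pow, hθ, map_mul, hφ, Polynomial.hom_eval₂, hcomp, aeval_def, eval₂_map]
  exact hord_adjoin_of_coords_poly (algebraMap Os Ls ϖs) hinj hπCs hCCs hcoords
    (algebraMap O C ϖ) n (θ.map (algebraMap O C))
    (lt_of_le_of_lt (natDegree_map_le) hθdeg) hθ' m f hH Q hQ hπQ

end Coords

end Fermat.Agent.S44.L.HordCoords
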