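import Mathlib
import Fermat.Agent.S44.L.HordCoords

/-!
# S44 / L, cover-free ALT twin (row ALT.2): `hord` at the primes of `B[ϖs]`, chart form

Level-free (Mathlib + `HordCoords`).  `O → Os` a ring homomorphism `φ` (in the application: the
unramified base `O` and the Eisenstein extension `Os = O[ϖs]`), `β : L → Ls` a homomorphism of
fields over `φ`, `u : L` a chart coordinate, `Cu = integralClosure O[u] L` the chart ring over
`O`, `Cus = integralClosure Os[β u] Ls` the chart ring over `Os`, `B` ANY `Cu`-algebra acting on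
`Ls` compatibly with `β` (in the application: the localisation of `Cu` at a closed point).

`hord_chart_of_coords` : if every element of `Cus` is `∑ j, b j * β (c j)` with `c j ∈ Cu` and
the `b j` powers of `ϖs` (base change of the chart ring), `ϖs ^ n = φ ϖ * θ(ϖs)` with
`θ ∈ O[X]` of degree `< n`, and `x ∈ Ls` satisfies the horizontal hypothesis on `Cus`
(`x * s = τ ^ m * b` with `s, b ∉ Q'` at every prime `Q' ∌ ϖs` of `Cus`: the body of
`S36/HorizAdapter.Horiz ϖs m (β u) x`), then at every prime `Q ∌ ϖs` of `B[ϖs] ⊆ Ls`: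
`b * x = a * τ ^ m` with `a, b ∈ B[ϖs]`, `a, b ∉ Q` — the binder `hord` of `NodeNF` / `NodeAlt`.

No instance is synthesised for `B`: the statement is generic in `B`, so that E-level consumers
instantiate `B := Localization.AtPrime y` by unification (instance search for
`Algebra (Chart (OE A K) u) (Localization.AtPrime y)` over the concrete modular types is slow).
-/

set_option autoImplicit false
set_option linter.style.haveILetI false

namespace Fermat.Agent.S44.L.HordChart

open Polynomial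

variable {O Os L Ls : Type*} [CommRing O] [CommRing Os] [Field L] [Field Ls]
  [Algebra O L] [Algebra Os Ls]

/-- **`hord` at the primes of `B[ϖs]`, chart form** (see the module docstring). -/
theorem hord_chart_of_coords (φ : O →+* Os) (β : L →+* Ls)
    (hβO : ∀ r : O, β (algebraMap O L r) = algebraMap Os Ls (φ r))
    (u : L) {r : ℕ} (b : Fin r → Os) (ϖs : Os) (hbpow : ∀ j, ∃ n : ℕ, b j = ϖs ^ n)
    (hcoords : ∀ x : Ls, IsIntegral (Algebra.adjoin Os ({β u} : Set Ls)) x →
      ∃ c : Fin r → L, (∀ j, IsIntegral (Algebra.adjoin O ({u} : Set L)) (c j)) ∧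
        x = ∑ j, algebraMap Os Ls (b j) * β (c j))
    (ϖ : O) (n : ℕ) (θ : O[X]) (hθdeg : θ.natDegree < n)
    (hθ : ϖs ^ n = φ ϖ * θ.eval₂ φ ϖs)
    {B : Type*} [CommRing B] [Algebra (integralClosure (Algebra.adjoin O ({u} : Set L)) L) B]
    [Algebra B Ls]
    (hBβ : ∀ c : integralClosure (Algebra.adjoin O ({u} : Set L)) L,
      algebraMap B Ls (algebraMap (integralClosure (Algebra.adjoin O ({u} : Set L)) L) B c)
        = β (c : L))
    (m : ℕ) (x : Ls)
    (hH : ∀ Q' : Ideal (integralClosure (Algebra.adjoin Os ({β u} : Set Ls)) Ls), Q'.IsPrime →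
      algebraMap Os (integralClosure (Algebra.adjoin Os ({β u} : Set Ls)) Ls) ϖs ∉ Q' →
      ∃ (τ : Ls) (s b' : integralClosure (Algebra.adjoin Os ({β u} : Set Ls)) Ls),
        τ ≠ 0 ∧ s ∉ Q' ∧ b' ∉ Q' ∧
        x * algebraMap (integralClosure (Algebra.adjoin Os ({β u} : Set Ls)) Ls) Ls s
          = τ ^ m * algebraMap (integralClosure (Algebra.adjoin Os ({β u} : Set Ls)) Ls) Ls b')
    (Q : Ideal (Algebra.adjoin B ({algebraMap Os Ls ϖs} : Set Ls))) (hQ : Q.IsPrime)
    (hπQ : (⟨algebraMap Os Ls ϖs, Algebra.subset_adjoin (Set.mem_singleton _)⟩ :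
      Algebra.adjoin B ({algebraMap Os Ls ϖs} : Set Ls)) ∉ Q) :
    ∃ (a b' : Algebra.adjoin B ({algebraMap Os Ls ϖs} : Set Ls)) (τ : Ls), a ∉ Q ∧ b' ∉ Q ∧
      algebraMap (Algebra.adjoin B ({algebraMap Os Ls ϖs} : Set Ls)) Ls b' * x
        = algebraMap (Algebra.adjoin B ({algebraMap Os Ls ϖs} : Set Ls)) Ls a * τ ^ m := by
  letI algC : Algebra (integralClosure (Algebra.adjoin O ({u} : Set L)) L) Ls :=
    (β.comp (algebraMap (integralClosure (Algebra.adjoin O ({u} : Set L)) L) L)).toAlgebra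
  haveI : IsScalarTower (integralClosure (Algebra.adjoin O ({u} : Set L)) L) B Ls :=
    IsScalarTower.of_algebraMap_eq (fun c => (hBβ c).symm)
  refine HordCoords.hord_adjoin_of_coords_base
    (C := integralClosure (Algebra.adjoin O ({u} : Set L)) L)
    (Cs := integralClosure (Algebra.adjoin Os ({β u} : Set Ls)) Ls)
    (By := B) φ (fun r => hβO r) ϖs Subtype.val_injective
    ⟨algebraMap Os (integralClosure (Algebra.adjoin Os ({β u} : Set Ls)) Ls) ϖs, rfl⟩
    ?_ ?_ ϖ n θ hθdeg hθ m x ?_ Q hQ hπQ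
  · intro c
    exact ⟨⟨β (c : L), HordCoords.isIntegral_map_adjoin φ β hβO u c.2⟩, rfl⟩
  · intro zc
    obtain ⟨c, hc, hzc⟩ := hcoords (zc : Ls) zc.2
    have hzc' : algebraMap (integralClosure (Algebra.adjoin Os ({β u} : Set Ls)) Ls) Ls zc
        = ∑ j, algebraMap Os Ls (b j) * β (c j) := hzc
    rw [hzc']
    refine Subalgebra.sum_mem _ (fun j _ => Subalgebra.mul_mem _ ?_ ?_)
    · obtain ⟨nj, hnj⟩ := hbpow j
      rw [hnj, map_pow]
      exact Subalgebra.pow_mem _ (Algebra.subset_adjoin (Set.mem_singleton _)) _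
    · have hcj : algebraMap (integralClosure (Algebra.adjoin O ({u} : Set L)) L) Ls ⟨c j, hc j⟩
          = β (c j) := rfl
      rw [← hcj]
      exact Subalgebra.algebraMap_mem _ _
  · intro Q' hQ' hz'
    obtain ⟨τ, s, b', -, hs, hb', hrel⟩ := hH Q' hQ'
      (hz' (algebraMap Os (integralClosure (Algebra.adjoin Os ({β u} : Set Ls)) Ls) ϖs) rfl)
    exact ⟨τ, s, b', hs, hb', hrel⟩

end Fermat.Agent.S44.L.HordChart
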