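import Mathlib
import Fermat.Agent.S44.L.HordChart

/-!
# S44 / L, cover-free ALT twin (row ALT.2): the `hord` binder of `NodeAlt`, level-free

`HordChart.hord_chart_of_coords` at `B := Localization.AtPrime y`, `y` a prime of the chart ring
`integralClosure O[u] L` (`= TwoPrimesGauss.Chart O u`), stated in an abstract context so that
the instance terms on the localisation are the ones of the level-free consumers
(`NodeAlt.node_alt`, `NodeAlt.smooth_alt`): the conclusion is LITERALLY their binder `hord`
(`Ls`, `ϖs`, `[Algebra (Localization.AtPrime y) Ls]`, exponent `m`).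

E-level consumers: instantiate THIS theorem (`O := OE A K`, `Os := OE A K'`, `β := lvl N h`, …)
next to the level-free consumer, so that both instantiate the same abstract instance terms.
Elaborating the localisation instances directly over the concrete modular types is slow
(see `Alt/HordInstLoc`).
-/

set_option autoImplicit false
set_option linter.style.haveILetI false

namespace Fermat.Agent.S44.L.HordChartLoc

open Polynomial

variable {O Os L Ls : Type*} [CommRing O] [CommRing Os] [Field L] [Field Ls]
  [Algebra O L] [Algebra Os Ls]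

/-- **The `hord` binder of `NodeAlt`** (`B = C_y`), level-free: base change of the chart ring
(`hcoords`, `hbpow`), Eisenstein relation (`hθ`), horizontal hypothesis on the big chart
(`hH` = the body of `S36/HorizAdapter.Horiz ϖs m (β u) x`). -/
theorem hord_chart_loc (φ : O →+* Os) (β : L →+* Ls)
    (hβO : ∀ r : O, β (algebraMap O L r) = algebraMap Os Ls (φ r))
    (u : L) {r : ℕ} (b : Fin r → Os) (ϖs : Os) (hbpow : ∀ j, ∃ n : ℕ, b j = ϖs ^ n)
    (hcoords : ∀ x : Ls, IsIntegral (Algebra.adjoin Os ({β u} : Set Ls)) x →
      ∃ c : Fin r → L, (∀ j, IsIntegral (Algebra.adjoin O ({u} : Set L)) (c j)) ∧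
        x = ∑ j, algebraMap Os Ls (b j) * β (c j))
    (ϖ : O) (n : ℕ) (θ : O[X]) (hθdeg : θ.natDegree < n)
    (hθ : ϖs ^ n = φ ϖ * θ.eval₂ φ ϖs)
    (y : Ideal (integralClosure (Algebra.adjoin O ({u} : Set L)) L)) [y.IsPrime]
    [Algebra (Localization.AtPrime y) Ls]
    (hBβ : ∀ c : integralClosure (Algebra.adjoin O ({u} : Set L)) L,
      algebraMap (Localization.AtPrime y) Ls
        (algebraMap (integralClosure (Algebra.adjoin O ({u} : Set L)) L)
          (Localization.AtPrime y) c) = β (c : L))
    (m : ℕ) (x : Ls)
    (hH : ∀ Q' : Ideal (integralClosure (Algebra.adjoin Os ({β u} : Set Ls)) Ls), Q'.IsPrime →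
      algebraMap Os (integralClosure (Algebra.adjoin Os ({β u} : Set Ls)) Ls) ϖs ∉ Q' →
      ∃ (τ : Ls) (s b' : integralClosure (Algebra.adjoin Os ({β u} : Set Ls)) Ls),
        τ ≠ 0 ∧ s ∉ Q' ∧ b' ∉ Q' ∧
        x * algebraMap (integralClosure (Algebra.adjoin Os ({β u} : Set Ls)) Ls) Ls s
          = τ ^ m * algebraMap (integralClosure (Algebra.adjoin Os ({β u} : Set Ls)) Ls) Ls b') :
    ∀ Q : Ideal (Algebra.adjoin (Localization.AtPrime y)
        ({algebraMap Os Ls ϖs} : Set Ls)), Q.IsPrime →
      (⟨algebraMap Os Ls ϖs, Algebra.self_mem_adjoin_singleton _ _⟩ :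
        Algebra.adjoin (Localization.AtPrime y) ({algebraMap Os Ls ϖs} : Set Ls)) ∉ Q →
      ∃ (a b' : Algebra.adjoin (Localization.AtPrime y) ({algebraMap Os Ls ϖs} : Set Ls))
        (τ : Ls), a ∉ Q ∧ b' ∉ Q ∧
        algebraMap (Algebra.adjoin (Localization.AtPrime y) ({algebraMap Os Ls ϖs} : Set Ls))
            Ls b' * x
          = algebraMap (Algebra.adjoin (Localization.AtPrime y)
            ({algebraMap Os Ls ϖs} : Set Ls)) Ls a * τ ^ m :=
  fun Q hQ hπQ =>
    -- the three instances on `B` are given BEFORE the dependent arguments are unified: with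
    -- instance metavariables pending, `Ideal (Algebra.adjoin B _) =?= Ideal (Algebra.adjoin B _)`
    -- (two paths to `CommSemiring (Localization.AtPrime y)`) sends the unifier into unfolding
    -- `Algebra.adjoin` and does not terminate.
    @HordChart.hord_chart_of_coords O Os L Ls _ _ _ _ _ _ φ β hβO u r b ϖs hbpow hcoords ϖ n θ
      hθdeg hθ (Localization.AtPrime y) inferInstance inferInstance inferInstance hBβ m x hH
      Q hQ hπQ

end Fermat.Agent.S44.L.HordChartLoc
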