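import Mathlib
import Fermat.Agent.S44.L.LocalPrincipal
import Fermat.Agent.S44.L.Node

/-!
# Program MR (S44), strand L: the graded normal form at a wild node (NNF (c)-(f), abstract form)

Level-free commutative algebra (helper27), stated against the conclusion of
`S44/L/NodeNFCover.exists_graded_node_cover`.

`R` a noetherian local domain with `𝔪 = (r, s)`, `r`, `s` non-associated primes (hence factorial),
carrying a `ℤ/p`-grading `c` with `deg s = 1`, `deg r = -1` and all nonzero degrees inside `𝔪`.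
`A := R₀` the degree-`0` part.  If `f ∈ A`, `f ≠ 0`, has `p ∣ ord` at every prime of `A` not
containing `π = r s` (witnessed in `A`), then `f = w π ^ m t2 ^ j x ^ p` with `w` a unit of `A`,
`x ∈ A`, `t2 = s ^ p`, `j ∈ ℤ` (`nnf_graded`).

Steps: graded calculus (`IsGrading`), the subring `A`, integrality of `R` over `A`, normality of
`A`, going-down (`dvd_of_forall_dvd`), the colon lemma (`exists_dvd_mul_of_forall_pow_dvd`),
homogeneity of the horizontal part (`dvd_c_of_horizontal`), and the final bookkeeping.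
-/

set_option autoImplicit false

namespace Fermat.Agent.S44.L.NodeNFGraded

open Fermat.Agent.S44.L.LocalPrincipal Fermat.Agent.S44.L.Node

/-- A `ℤ/p`-grading of a commutative ring, given by its component maps. -/
structure IsGrading (p : ℕ) [NeZero p] {R : Type*} [CommRing R] (c : ZMod p → R →+ R) : Prop where
  sum_c : ∀ y, ∑ d, c d y = y
  c_c : ∀ d e y, c e (c d y) = if e = d then c d y else 0
  c_mul : ∀ d y z, c d (y * z) = ∑ e, c e y * c (d - e) z
  c_one : c 0 1 = 1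

namespace IsGrading

section Calculus

variable {p : ℕ} [NeZero p] {R : Type*} [CommRing R] {c : ZMod p → R →+ R} (h : IsGrading p c)
include h

theorem c_self (d : ZMod p) (y : R) : c d (c d y) = c d y := by
  rw [h.c_c, if_pos rfl]

/-- Components of a homogeneous element. -/
theorem c_of_hom {d : ZMod p} {y : R} (hy : c d y = y) (e : ZMod p) :
    c e y = if e = d then y else 0 := by
  have := h.c_c d e y
  rwa [hy] at this

/-- Multiplication by a homogeneous element shifts the components. -/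
theorem c_mul_hom {e : ZMod p} {a : R} (ha : c e a = a) (d : ZMod p) (y : R) :
    c d (a * y) = a * c (d - e) y := by
  rw [h.c_mul, Finset.sum_eq_single e]
  · rw [ha]
  · intro k _ hk
    rw [h.c_of_hom ha k, if_neg hk, zero_mul]
  · intro he
    exact absurd (Finset.mem_univ e) he

theorem hom_mul {d e : ZMod p} {y z : R} (hy : c d y = y) (hz : c e z = z) :
    c (d + e) (y * z) = y * z := by
  rw [h.c_mul_hom hy, add_sub_cancel_left, hz]

theorem hom_pow {d : ZMod p} {y : R} (hy : c d y = y) (n : ℕ) : c (n • d) (y ^ n) = y ^ n := by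
  induction n with
  | zero => rw [zero_smul, pow_zero, h.c_one]
  | succ n ih => rw [succ_nsmul, pow_succ, h.hom_mul ih hy]

theorem hom_pow_p {d : ZMod p} {y : R} (hy : c d y = y) : c 0 (y ^ p) = y ^ p := by
  have := h.hom_pow hy p
  rwa [nsmul_eq_mul, ZMod.natCast_self, zero_mul] at this

/-- If `a ≠ 0` is homogeneous of degree `e` and `a z` is homogeneous of degree `d`, then `z` is
homogeneous of degree `d - e`. -/
theorem hom_of_mul [IsDomain R] {e d : ZMod p} {a z : R} (ha : c e a = a) (ha0 : a ≠ 0)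
    (haz : c d (a * z) = a * z) : c (d - e) z = z := by
  rw [h.c_mul_hom ha] at haz
  exact mul_left_cancel₀ ha0 haz

/-- The degree-`0` part, as a subring. -/
def degZero : Subring R where
  carrier := {y | c 0 y = y}
  mul_mem' := by
    intro y z hy hz
    have := h.hom_mul (d := 0) (e := 0) hy hz
    rwa [add_zero] at this
  one_mem' := h.c_one
  add_mem' := by
    intro y z hy hz
    change c 0 (y + z) = y + z
    rw [map_add, show c 0 y = y from hy, show c 0 z = z from hz]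
  zero_mem' := map_zero _
  neg_mem' := by
    intro y hy
    change c 0 (-y) = -y
    rw [map_neg, show c 0 y = y from hy]

theorem mem_degZero {y : R} : y ∈ h.degZero ↔ c 0 y = y := Iff.rfl

/-- `R` is integral over its degree-`0` part: the `p`-th power of a homogeneous element has
degree `0`. -/
theorem isIntegral_degZero (y : R) : IsIntegral h.degZero y := by
  rw [← h.sum_c y]
  refine IsIntegral.sum _ fun d _ => ?_
  have hd : c 0 ((c d y) ^ p) = (c d y) ^ p := h.hom_pow_p (h.c_self d y)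
  refine IsIntegral.of_pow (NeZero.pos p) ?_
  exact isIntegral_algebraMap (R := h.degZero) (A := R) (x := ⟨_, hd⟩)

end Calculus

section Normal

variable {p : ℕ} [NeZero p] {R : Type*} [CommRing R] [IsDomain R] {c : ZMod p → R →+ R}
  (h : IsGrading p c)
include h

/-- The degree-`0` part of an integrally closed graded domain is integrally closed
(`A = R ∩ Frac A`, by cancellation of homogeneous elements). -/
theorem isIntegrallyClosed_degZero [IsIntegrallyClosed R] : IsIntegrallyClosed h.degZero := by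
  have hinj : Function.Injective
      ((algebraMap R (FractionRing R)).comp h.degZero.subtype) :=
    (IsFractionRing.injective R (FractionRing R)).comp Subtype.val_injective
  refine (isIntegrallyClosed_iff (FractionRing h.degZero)).mpr fun {x} hx => ?_
  have hφx : IsIntegral R (IsFractionRing.lift (K := FractionRing h.degZero) hinj x) := by
    obtain ⟨P, hP, hPx⟩ := hx
    refine ⟨P.map h.degZero.subtype, hP.map _, ?_⟩
    have hcomp : (algebraMap R (FractionRing R)).comp h.degZero.subtype =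
        (IsFractionRing.lift (K := FractionRing h.degZero) hinj).comp
          (algebraMap h.degZero (FractionRing h.degZero)) := by
      ext a
      simp [IsFractionRing.lift_algebraMap]
    have e := Polynomial.hom_eval₂ P (algebraMap h.degZero (FractionRing h.degZero))
      (IsFractionRing.lift (K := FractionRing h.degZero) hinj) x
    rw [hPx, map_zero, ← hcomp] at e
    rw [Polynomial.eval₂_map]
    exact e.symm
  obtain ⟨z, hz⟩ := (IsIntegrallyClosed.isIntegral_iff (R := R) (K := FractionRing R)).mp hφx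
  obtain ⟨a₁, a₂, ha₂, rfl⟩ := IsFractionRing.div_surjective (A := h.degZero) x
  have ha₂0 : a₂ ≠ 0 := nonZeroDivisors.ne_zero ha₂
  have ha₂R : (a₂ : R) ≠ 0 := fun h0 => ha₂0 (Subtype.ext h0)
  have h1 : (a₂ : R) * z = a₁ := by
    apply IsFractionRing.injective R (FractionRing R)
    have hK : algebraMap R (FractionRing R) (a₂ : R) ≠ 0 :=
      (map_ne_zero_iff _ (IsFractionRing.injective R (FractionRing R))).mpr ha₂R
    rw [map_mul, hz, map_div₀, IsFractionRing.lift_algebraMap, IsFractionRing.lift_algebraMap]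
    change algebraMap R (FractionRing R) (a₂ : R) *
      (algebraMap R (FractionRing R) (a₁ : R) / algebraMap R (FractionRing R) (a₂ : R)) = _
    field_simp
  have hz0 : c 0 z = z := by
    have := h.hom_of_mul (e := 0) (d := 0) a₂.2 ha₂R (by rw [h1]; exact a₁.2)
    rwa [sub_zero] at this
  refine ⟨⟨z, hz0⟩, ?_⟩
  have hK' : algebraMap h.degZero (FractionRing h.degZero) a₂ ≠ 0 :=
    (map_ne_zero_iff _ (IsFractionRing.injective h.degZero (FractionRing h.degZero))).mpr ha₂0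
  rw [eq_div_iff hK', ← map_mul]
  congr 1
  ext
  change z * (a₂ : R) = a₁
  rw [mul_comm, h1]

/-- **Going-down for principal primes.**  For prime elements `g`, `q` of a graded factorial
domain, `(q) ∩ A ⊆ (g) ∩ A` forces `(g) ∩ A ⊆ (q) ∩ A`. -/
theorem dvd_of_forall_dvd [UniqueFactorizationMonoid R] {g q : R} (hg : Prime g) (hq : Prime q)
    (hle : ∀ a, c 0 a = a → q ∣ a → g ∣ a) : ∀ a, c 0 a = a → g ∣ a → q ∣ a := by
  have : IsIntegrallyClosed h.degZero := h.isIntegrallyClosed_degZero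
  have : Algebra.IsIntegral h.degZero R := ⟨h.isIntegral_degZero⟩
  have : FaithfulSMul h.degZero R :=
    (faithfulSMul_iff_algebraMap_injective h.degZero R).mpr Subtype.val_injective
  have hQ : (Ideal.span {g} : Ideal R).IsPrime := (Ideal.span_singleton_prime hg.ne_zero).mpr hg
  have hP₀ : (Ideal.span {q} : Ideal R).IsPrime :=
    (Ideal.span_singleton_prime hq.ne_zero).mpr hq
  have hle' : (Ideal.span {q} : Ideal R).under h.degZero ≤
      (Ideal.span {g} : Ideal R).under h.degZero := by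
    intro a ha
    rw [Ideal.mem_comap] at ha ⊢
    exact Ideal.mem_span_singleton.mpr (hle a a.2 (Ideal.mem_span_singleton.mp ha))
  obtain ⟨P, hPQ, hPprime, hPover⟩ := Ideal.exists_ideal_le_liesOver_of_le
    (p := (Ideal.span {q} : Ideal R).under h.degZero)
    (q := (Ideal.span {g} : Ideal R).under h.degZero) (Ideal.span {g} : Ideal R) hle'
  have hne : (Ideal.span {q} : Ideal R).under h.degZero ≠ ⊥ :=
    Ideal.comap_ne_bot_of_integral_mem hq.ne_zero (Ideal.mem_span_singleton_self q)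
      (h.isIntegral_degZero q)
  have hPne : P ≠ ⊥ := by
    rintro rfl
    apply hne
    rw [hPover.over]
    ext a
    rw [Ideal.mem_comap, Ideal.mem_bot, Ideal.mem_bot]
    exact ⟨fun h0 => Subtype.ext h0, fun h0 => by rw [h0]; rfl⟩
  have hgP : g ∈ P := by
    obtain ⟨x, hxP, hx0⟩ := Submodule.exists_mem_ne_zero_of_ne_bot hPne
    obtain ⟨n, x', hx', rfl⟩ := WfDvdMonoid.max_power_factor hx0 hg.irreducible
    rcases hPprime.mem_or_mem hxP with h1 | h1
    · exact hPprime.mem_of_pow_mem n h1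
    · exact absurd (Ideal.mem_span_singleton.mp (hPQ h1)) hx'
  intro a ha hga
  have haP : a ∈ P := by
    obtain ⟨b, rfl⟩ := hga
    exact P.mul_mem_right _ hgP
  have hmem : (⟨a, ha⟩ : h.degZero) ∈ (Ideal.span {q} : Ideal R).under h.degZero := by
    rw [hPover.over]
    exact haP
  exact Ideal.mem_span_singleton.mp hmem

end Normal

end IsGrading

/-! ### Two facts on prime powers in a factorial domain -/

section UFD

variable {R : Type*} [CommRing R] [IsDomain R]

/-- `g ^ (p k) ∣ z ^ p → g ^ k ∣ z` for a prime element `g`. -/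
theorem pow_dvd_of_pow_mul_dvd_pow {g z : R} (hg : Prime g) {p : ℕ} (hp : p ≠ 0) {k : ℕ}
    (hdvd : g ^ (p * k) ∣ z ^ p) : g ^ k ∣ z := by
  rw [pow_dvd_iff_le_emultiplicity] at hdvd ⊢
  rw [emultiplicity_pow hg] at hdvd
  by_contra hlt
  rw [not_le] at hlt
  obtain ⟨n, hn⟩ : ∃ n : ℕ, emultiplicity g z = n :=
    (ENat.ne_top_iff_exists.mp (ne_top_of_lt hlt)).imp fun n hn => hn.symm
  rw [hn] at hdvd hlt
  have h1 : n < k := by exact_mod_cast hlt
  have h2 : p * k ≤ p * n := by exact_mod_cast hdvd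
  have h3 := Nat.le_of_mul_le_mul_left h2 (Nat.pos_of_ne_zero hp)
  omega

variable [UniqueFactorizationMonoid R]

/-- In a factorial domain divisibility can be tested on prime powers. -/
theorem dvd_of_forall_prime_pow_dvd {x : R} (hx : x ≠ 0) (y : R)
    (hxy : ∀ g : R, Prime g → ∀ k : ℕ, g ^ k ∣ x → g ^ k ∣ y) : x ∣ y := by
  induction x using UniqueFactorizationMonoid.induction_on_prime generalizing y with
  | h₁ => exact absurd rfl hx
  | h₂ x hu => exact hu.dvd
  | h₃ x q hx0 hq ih =>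
    have hqy : q ∣ y := by
      have := hxy q hq 1 (by rw [pow_one]; exact dvd_mul_right q x)
      rwa [pow_one] at this
    obtain ⟨y', rfl⟩ := hqy
    refine mul_dvd_mul_left q (ih hx0 y' fun g hg k hk => ?_)
    by_cases hass : Associated g q
    · have h1 : q ^ (k + 1) ∣ q * x := by
        rw [pow_succ']
        exact mul_dvd_mul_left q ((hass.pow_pow (n := k)).dvd_iff_dvd_left.mp hk)
      have h2 := hxy q hq (k + 1) h1
      rw [pow_succ'] at h2
      exact (hass.pow_pow (n := k)).dvd_iff_dvd_left.mpr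
        ((mul_dvd_mul_iff_left hq.ne_zero).mp h2)
    · have hgq : ¬ g ∣ q := fun hd => hass (hg.associated_of_dvd hq hd)
      exact hg.pow_dvd_of_dvd_mul_left k hgq (hxy g hg k (dvd_mul_of_dvd_right hk q))

end UFD

namespace IsGrading

section Colon

variable {p : ℕ} [NeZero p] {R : Type*} [CommRing R] [IsDomain R] [UniqueFactorizationMonoid R]
  {c : ZMod p → R →+ R} (h : IsGrading p c)
include h

/-- **The colon lemma.**  Let `g` be a prime element.  If `g' ^ k ∣ x → g' ^ k ∣ w` for every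
prime `g'` with `(g') ∩ A = (g) ∩ A`, then `x ∣ c₀ w` for some `c₀ ∈ A` with `g ∤ c₀`. -/
theorem exists_dvd_mul_of_forall_pow_dvd {g : R} (hg : Prime g) {x : R} (hx : x ≠ 0) (w : R)
    (hxw : ∀ g' : R, Prime g' → (∀ a, c 0 a = a → (g ∣ a ↔ g' ∣ a)) →
      ∀ k : ℕ, g' ^ k ∣ x → g' ^ k ∣ w) :
    ∃ c₀, c 0 c₀ = c₀ ∧ ¬ g ∣ c₀ ∧ x ∣ c₀ * w := by
  induction x using UniqueFactorizationMonoid.induction_on_prime generalizing w with
  | h₁ => exact absurd rfl hx
  | h₂ x hu => exact ⟨1, h.c_one, hg.not_dvd_one, hu.dvd⟩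
  | h₃ x q hx0 hq ih =>
    by_cases hsame : ∀ a, c 0 a = a → (g ∣ a ↔ q ∣ a)
    · have hqw : q ∣ w := by
        have := hxw q hq hsame 1 (by rw [pow_one]; exact dvd_mul_right q x)
        rwa [pow_one] at this
      obtain ⟨w', rfl⟩ := hqw
      obtain ⟨c₀, hc₀, hgc₀, hdvd⟩ := ih hx0 w' (fun g' hg' hsame' k hk => by
        by_cases hass : Associated g' q
        · have h1 : q ^ (k + 1) ∣ q * x := by
            rw [pow_succ']
            exact mul_dvd_mul_left q ((hass.pow_pow (n := k)).dvd_iff_dvd_left.mp hk)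
          have h2 := hxw q hq hsame (k + 1) h1
          rw [pow_succ'] at h2
          exact (hass.pow_pow (n := k)).dvd_iff_dvd_left.mpr
            ((mul_dvd_mul_iff_left hq.ne_zero).mp h2)
        · have hgq : ¬ g' ∣ q := fun hd => hass (hg'.associated_of_dvd hq hd)
          exact hg'.pow_dvd_of_dvd_mul_left k hgq
            (hxw g' hg' hsame' k (dvd_mul_of_dvd_right hk q)))
      exact ⟨c₀, hc₀, hgc₀, by rw [mul_left_comm]; exact mul_dvd_mul_left q hdvd⟩
    · have hex : ∃ cq, c 0 cq = cq ∧ q ∣ cq ∧ ¬ g ∣ cq := by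
        by_contra hcon
        apply hsame
        have hle : ∀ a, c 0 a = a → q ∣ a → g ∣ a := fun a ha hqa =>
          by_contra fun hga => hcon ⟨a, ha, hqa, hga⟩
        exact fun a ha => ⟨h.dvd_of_forall_dvd hg hq hle a ha, hle a ha⟩
      obtain ⟨cq, hcq, hqcq, hgcq⟩ := hex
      obtain ⟨c₀, hc₀, hgc₀, hdvd⟩ := ih hx0 w (fun g' hg' hsame' k hk =>
        hxw g' hg' hsame' k (dvd_mul_of_dvd_right hk q))
      refine ⟨cq * c₀, ?_, ?_, ?_⟩
      · have := h.hom_mul (d := 0) (e := 0) hcq hc₀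
        rwa [add_zero] at this
      · intro hd
        rcases hg.dvd_or_dvd hd with h1 | h1
        exacts [hgcq h1, hgc₀ h1]
      · rw [mul_assoc]
        exact mul_dvd_mul hqcq hdvd

end Colon

section Horizontal

variable {p : ℕ} [NeZero p] {R : Type*} [CommRing R] [IsDomain R] [UniqueFactorizationMonoid R]
  {c : ZMod p → R →+ R} (h : IsGrading p c)
include h

/-- **Homogeneity of the horizontal part.**  Let `f = M H ^ p` with `M` supported on the primes
dividing `π ∈ A` and `H` prime to `π`.  If at every prime `g ∤ π` one has `b f τ₂ ^ p = a τ₁ ^ p`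
with `a, b, τ₁, τ₂ ∈ A`, `g ∤ a b`, then `H` divides each of its homogeneous components. -/
theorem dvd_c_of_horizontal {π f M H : R} (hπ : c 0 π = π) (hf0 : f ≠ 0) (hf : f = M * H ^ p)
    (hM : ∀ g : R, Prime g → g ∣ M → g ∣ π) (hcop : ∀ g : R, Prime g → g ∣ H → ¬ g ∣ π)
    (hhor : ∀ g : R, Prime g → ¬ g ∣ π → ∃ a b τ₁ τ₂ : R, c 0 a = a ∧ c 0 b = b ∧
      c 0 τ₁ = τ₁ ∧ c 0 τ₂ = τ₂ ∧ ¬ g ∣ a ∧ ¬ g ∣ b ∧ τ₂ ≠ 0 ∧ b * f * τ₂ ^ p = a * τ₁ ^ p)
    (d : ZMod p) : H ∣ c d H := by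
  have hp : p ≠ 0 := NeZero.ne p
  have hH0 : H ≠ 0 := by
    rintro rfl
    rw [zero_pow hp, mul_zero] at hf
    exact hf0 hf
  refine dvd_of_forall_prime_pow_dvd hH0 _ fun g hg k hk => ?_
  rcases Nat.eq_zero_or_pos k with rfl | hkpos
  · rw [pow_zero]
    exact one_dvd _
  have hgH : g ∣ H := dvd_trans (dvd_pow_self g hkpos.ne') hk
  have hgπ : ¬ g ∣ π := hcop g hg hgH
  obtain ⟨a, b, τ₁, τ₂, ha, hb, hτ₁, hτ₂, hga, hgb, hτ₂0, heq⟩ := hhor g hg hgπ
  have hb0 : b ≠ 0 := fun h0 => hgb (h0 ▸ dvd_zero g)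
  have hτ₁0 : τ₁ ≠ 0 := by
    rintro rfl
    rw [zero_pow hp, mul_zero] at heq
    exact mul_ne_zero (mul_ne_zero hb0 hf0) (pow_ne_zero _ hτ₂0) heq
  have heq' : b * M * (τ₂ * H) ^ p = a * τ₁ ^ p := by
    rw [← heq, hf]
    ring
  have key : ∀ g' : R, Prime g' → ¬ g' ∣ a → ¬ g' ∣ b → ¬ g' ∣ π → ∀ k : ℕ,
      (g' ^ k ∣ τ₁ ↔ g' ^ k ∣ τ₂ * H) := by
    intro g' hg' hg'a hg'b hg'π k
    have hg'M : ¬ g' ∣ M := fun hd => hg'π (hM g' hg' hd)
    have hg'bM : ¬ g' ∣ b * M := fun hd => (hg'.dvd_or_dvd hd).elim hg'b hg'M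
    constructor
    · intro hk
      have h1 : g' ^ (p * k) ∣ b * M * (τ₂ * H) ^ p := by
        rw [heq', pow_mul']
        exact dvd_mul_of_dvd_right (pow_dvd_pow_of_dvd hk p) a
      exact pow_dvd_of_pow_mul_dvd_pow hg' hp (hg'.pow_dvd_of_dvd_mul_left _ hg'bM h1)
    · intro hk
      have h1 : g' ^ (p * k) ∣ a * τ₁ ^ p := by
        rw [← heq', pow_mul']
        exact dvd_mul_of_dvd_right (pow_dvd_pow_of_dvd hk p) _
      exact pow_dvd_of_pow_mul_dvd_pow hg' hp (hg'.pow_dvd_of_dvd_mul_left _ hg'a h1)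
  obtain ⟨c₀, hc₀, hgc₀, z, hz⟩ := h.exists_dvd_mul_of_forall_pow_dvd hg hτ₁0 (τ₂ * H)
    (fun g' hg' hsame k hk => (key g' hg' (fun hd => hga ((hsame a ha).mpr hd))
      (fun hd => hgb ((hsame b hb).mpr hd)) (fun hd => hgπ ((hsame π hπ).mpr hd)) k).mp hk)
  have hz' : c₀ * (τ₂ * c d H) = τ₁ * c d z := by
    have e1 := congrArg (c d) hz
    rw [h.c_mul_hom hc₀, h.c_mul_hom hτ₂, h.c_mul_hom hτ₁, sub_zero, sub_zero] at e1
    exact e1
  have h2 : g ^ (k + multiplicity g τ₂) ∣ τ₁ := by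
    refine (key g hg hga hgb hgπ _).mpr ?_
    rw [pow_add, mul_comm (g ^ k)]
    exact mul_dvd_mul (pow_multiplicity_dvd g τ₂) hk
  obtain ⟨e₂, τ₂', hτ₂', hτ₂e⟩ := WfDvdMonoid.max_power_factor hτ₂0 hg.irreducible
  have hmult : multiplicity g τ₂ = e₂ := by
    rw [hτ₂e]
    exact multiplicity_eq_of_dvd_of_not_dvd (dvd_mul_right _ _) (by
      rw [pow_succ]
      exact fun hd => hτ₂' ((mul_dvd_mul_iff_left (pow_ne_zero e₂ hg.ne_zero)).mp hd))
  rw [hmult] at h2
  have h3 : g ^ e₂ * g ^ k ∣ g ^ e₂ * (c₀ * τ₂' * c d H) := by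
    have : g ^ (k + e₂) ∣ c₀ * (τ₂ * c d H) := by
      rw [hz']
      exact Dvd.dvd.mul_right h2 _
    rw [hτ₂e, pow_add, mul_comm (g ^ k)] at this
    convert this using 1
    ring
  have h4 : g ^ k ∣ c₀ * τ₂' * c d H := (mul_dvd_mul_iff_left (pow_ne_zero e₂ hg.ne_zero)).mp h3
  exact hg.pow_dvd_of_dvd_mul_left k (fun hd => (hg.dvd_or_dvd hd).elim hgc₀ hτ₂') h4

omit [UniqueFactorizationMonoid R] in
/-- In a local graded domain, an element dividing all its homogeneous components is associated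
to one of them. -/
theorem exists_isUnit_of_forall_dvd_c [IsLocalRing R] {H : R} (hH0 : H ≠ 0)
    (hdvd : ∀ d, H ∣ c d H) : ∃ (d : ZMod p) (z : R), IsUnit z ∧ c d H = H * z := by
  choose z hz using hdvd
  have hsum : ∑ d, z d = 1 := by
    apply mul_left_cancel₀ hH0
    rw [Finset.mul_sum, mul_one]
    conv_rhs => rw [← h.sum_c H]
    exact Finset.sum_congr rfl fun d _ => (hz d).symm
  by_contra hcon
  push Not at hcon
  have hmem : ∑ d, z d ∈ IsLocalRing.maximalIdeal R :=
    Ideal.sum_mem _ fun d _ =>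
      (IsLocalRing.mem_maximalIdeal _).mpr (fun hu => hcon d (z d) hu (hz d))
  rw [hsum] at hmem
  exact (IsLocalRing.maximalIdeal.isMaximal R).ne_top ((Ideal.eq_top_iff_one _).mpr hmem)

end Horizontal

end IsGrading

/-- **The graded normal form at a wild node** (NNF (c)-(f), abstract form).  `R` a noetherian
local domain, `𝔪 = (r, s)` with `r`, `s` non-associated primes, graded by `ℤ/p` with `deg s = 1`,
`deg r = -1` and every component of nonzero degree inside `𝔪`; `A = R₀`.  If `f ∈ A`, `f ≠ 0`, is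
a `p`-th power up to `A`-units at every prime `g ∤ r s` (fraction-free witness
`b f τ₂ ^ p = a τ₁ ^ p`, `a, b, τ₁, τ₂ ∈ A`, `g ∤ a b`), then
`f (s ^ p) ^ a = w (r s) ^ m (s ^ p) ^ b x ^ p` with `w ∈ A ∩ Rˣ = Aˣ` and `x ∈ A`. -/
theorem nnf_graded {R : Type*} [CommRing R] [IsDomain R] [IsLocalRing R] [IsNoetherianRing R]
    (p : ℕ) [NeZero p] (r s : R) (hr : Prime r) (hs : Prime s) (_hne : ¬ Associated r s)
    (hm : IsLocalRing.maximalIdeal R = Ideal.span {r, s}) (c : ZMod p → R →+ R)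
    (hsum : ∀ y, ∑ d, c d y = y)
    (hcc : ∀ d e y, c e (c d y) = if e = d then c d y else 0)
    (hmul : ∀ d y z, c d (y * z) = ∑ e, c e y * c (d - e) z)
    (hc1 : c 0 1 = 1) (hcs : c 1 s = s) (hcr : c (-1) r = r)
    (hcm : ∀ d, d ≠ 0 → ∀ y, c d y ∈ IsLocalRing.maximalIdeal R)
    (f : R) (hf0 : f ≠ 0) (hf : c 0 f = f)
    (hhor : ∀ g : R, Prime g → ¬ g ∣ r * s → ∃ a b τ₁ τ₂ : R, c 0 a = a ∧ c 0 b = b ∧
      c 0 τ₁ = τ₁ ∧ c 0 τ₂ = τ₂ ∧ ¬ g ∣ a ∧ ¬ g ∣ b ∧ τ₂ ≠ 0 ∧ b * f * τ₂ ^ p = a * τ₁ ^ p) :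
    ∃ (w x : R) (m a b : ℕ), IsUnit w ∧ c 0 w = w ∧ c 0 x = x ∧
      f * (s ^ p) ^ a = w * (r * s) ^ m * (s ^ p) ^ b * x ^ p := by
  have h : IsGrading p c := ⟨hsum, hcc, hmul, hc1⟩
  have hp : p ≠ 0 := NeZero.ne p
  have : IsDomain (R ⧸ Ideal.span {r}) := Node.isDomain_quot hr
  have : IsPrincipalIdealRing (R ⧸ Ideal.span {r}) := Node.isPrincipalIdealRing_quot hr hm
  have : UniqueFactorizationMonoid R := LocalPrincipal.quot_ufm hr.ne_zero
  have hπ : c 0 (r * s) = r * s := by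
    have := h.hom_mul hcr hcs
    rwa [neg_add_cancel] at this
  have hnot : ∀ g : R, Prime g → ¬ Associated g r → ¬ Associated g s → ¬ g ∣ r * s := by
    intro g hg hgr hgs hd
    rcases hg.dvd_or_dvd hd with h1 | h1
    · exact hgr (hg.associated_of_dvd hr h1)
    · exact hgs (hg.associated_of_dvd hs h1)
  have hord : ∀ g : R, Prime g → ¬ Associated g r → ¬ Associated g s →
      p ∣ multiplicity g f := by
    intro g hg hgr hgs
    obtain ⟨a, b, τ₁, τ₂, -, -, -, -, hga, hgb, hτ₂0, heq⟩ := hhor g hg (hnot g hg hgr hgs)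
    have hτK : algebraMap R (FractionRing R) τ₂ ≠ 0 :=
      (map_ne_zero_iff _ (IsFractionRing.injective R (FractionRing R))).mpr hτ₂0
    refine LocalPrincipal.dvd_multiplicity_of_mul_eq (K := FractionRing R) hg
      (h := algebraMap R (FractionRing R) τ₁ / algebraMap R (FractionRing R) τ₂) hga hgb hf0 ?_
    rw [div_pow, ← mul_div_assoc, eq_div_iff (pow_ne_zero _ hτK), ← map_pow, ← map_pow,
      ← map_mul, ← map_mul, ← map_mul, heq]
  obtain ⟨u, i, j, H, hfe⟩ :=
    Node.exists_eq_unit_mul_pow_mul_pow_mul_pow_of_multiplicity r s p f hf0 hord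
  have hH0 : H ≠ 0 := by
    rintro rfl
    rw [zero_pow hp, mul_zero] at hfe
    exact hf0 hfe
  obtain ⟨a₁, H₁, hrH₁, rfl⟩ := WfDvdMonoid.max_power_factor hH0 hr.irreducible
  have hH₁0 : H₁ ≠ 0 := right_ne_zero_of_mul hH0
  obtain ⟨b₁, H₂, hsH₂, rfl⟩ := WfDvdMonoid.max_power_factor hH₁0 hs.irreducible
  have hrH₂ : ¬ r ∣ H₂ := fun hd => hrH₁ (dvd_mul_of_dvd_right hd _)
  have hH₂0 : H₂ ≠ 0 := right_ne_zero_of_mul hH₁0
  have hfe' : f = (u : R) * r ^ (i + p * a₁) * s ^ (j + p * b₁) * H₂ ^ p := by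
    rw [hfe]
    ring
  clear hfe
  generalize i + p * a₁ = I at hfe'
  generalize j + p * b₁ = J at hfe'
  have hdiv : ∀ d, H₂ ∣ c d H₂ := by
    intro d
    refine h.dvd_c_of_horizontal (π := r * s) (M := (u : R) * r ^ I * s ^ J) hπ hf0 hfe' ?_ ?_
      hhor d
    · intro g hg hd
      rcases hg.dvd_or_dvd hd with h1 | h1
      · rcases hg.dvd_or_dvd h1 with h2 | h2
        · exact absurd (isUnit_of_dvd_unit h2 u.isUnit) hg.not_isUnit
        · exact dvd_mul_of_dvd_left (hg.dvd_of_dvd_pow h2) _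
      · exact dvd_mul_of_dvd_right (hg.dvd_of_dvd_pow h1) _
    · intro g hg hgH hd
      rcases hg.dvd_or_dvd hd with h1 | h1
      · exact hrH₂ (dvd_trans (hg.associated_of_dvd hr h1).symm.dvd hgH)
      · exact hsH₂ (dvd_trans (hg.associated_of_dvd hs h1).symm.dvd hgH)
  obtain ⟨d, z, hzu, hcd⟩ := h.exists_isUnit_of_forall_dvd_c hH₂0 hdiv
  obtain ⟨v, rfl⟩ := hzu
  obtain ⟨H₀, hH₀, hH₂e⟩ : ∃ H₀, c d H₀ = H₀ ∧ H₂ = H₀ * ((v⁻¹ : Rˣ) : R) :=
    ⟨c d H₂, h.c_self d H₂, by rw [hcd, mul_assoc, Units.mul_inv, mul_one]⟩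
  have hH₀0 : H₀ ≠ 0 := by
    rintro rfl
    rw [zero_mul] at hH₂e
    exact hH₂0 hH₂e
  obtain ⟨u₁, hu₁e⟩ : ∃ u₁ : Rˣ, (u₁ : R) = (u : R) * ((v⁻¹ : Rˣ) : R) ^ p :=
    ⟨u * v⁻¹ ^ p, by push_cast; rfl⟩
  have hfe'' : f = r ^ I * s ^ J * H₀ ^ p * (u₁ : R) := by
    rw [hfe', hH₂e, hu₁e]
    ring
  have hMhom : c (I • (-1 : ZMod p) + J • (1 : ZMod p) + 0) (r ^ I * s ^ J * H₀ ^ p) =
      r ^ I * s ^ J * H₀ ^ p :=
    h.hom_mul (h.hom_mul (h.hom_pow hcr I) (h.hom_pow hcs J)) (h.hom_pow_p hH₀)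
  have hM0 : r ^ I * s ^ J * H₀ ^ p ≠ 0 :=
    mul_ne_zero (mul_ne_zero (pow_ne_zero _ hr.ne_zero) (pow_ne_zero _ hs.ne_zero))
      (pow_ne_zero _ hH₀0)
  have hu₁ : c (0 - (I • (-1 : ZMod p) + J • (1 : ZMod p) + 0)) (u₁ : R) = u₁ :=
    h.hom_of_mul hMhom hM0 (by rw [← hfe'']; exact hf)
  have hδ : (0 : ZMod p) - (I • (-1 : ZMod p) + J • (1 : ZMod p) + 0) = 0 := by
    by_contra hne0
    have hmem := hcm _ hne0 (u₁ : R)
    rw [hu₁] at hmem
    exact (IsLocalRing.mem_maximalIdeal _).mp hmem u₁.isUnit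
  rw [hδ] at hu₁
  have hIJ : (I : ZMod p) = (J : ZMod p) := by
    have e : (0 : ZMod p) - (I • (-1 : ZMod p) + J • (1 : ZMod p) + 0) = (I : ZMod p) - J := by
      simp only [nsmul_eq_mul, mul_neg, mul_one, add_zero]
      ring
    rw [e] at hδ
    exact sub_eq_zero.mp hδ
  have hdv : d.val ≤ p := (ZMod.val_lt d).le
  have hx : c 0 (H₀ * s ^ (p - d.val)) = H₀ * s ^ (p - d.val) := by
    have h1 := h.hom_mul hH₀ (h.hom_pow hcs (p - d.val))
    have e : d + (p - d.val) • (1 : ZMod p) = 0 := by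
      rw [nsmul_eq_mul, mul_one, Nat.cast_sub hdv, ZMod.natCast_self, ZMod.natCast_zmod_val]
      ring
    rwa [e] at h1
  have hmain : f * (s ^ p) ^ (p - d.val) =
      u₁ * r ^ I * s ^ J * (H₀ * s ^ (p - d.val)) ^ p := by
    rw [hfe'']
    ring
  obtain hle | hle := le_total I J
  · obtain ⟨k, hk⟩ : p ∣ J - I :=
      (Nat.modEq_iff_dvd' hle).mp ((ZMod.natCast_eq_natCast_iff _ _ _).mp hIJ)
    have hJ' : J = I + p * k := by omega
    refine ⟨u₁, H₀ * s ^ (p - d.val), I, p - d.val, k, u₁.isUnit, hu₁, hx, ?_⟩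
    rw [hmain, hJ']
    ring
  · obtain ⟨k, hk⟩ : p ∣ I - J :=
      (Nat.modEq_iff_dvd' hle).mp ((ZMod.natCast_eq_natCast_iff _ _ _).mp hIJ.symm)
    have hI' : I = J + p * k := by omega
    refine ⟨u₁, H₀ * s ^ (p - d.val), I, p - d.val + k, 0, u₁.isUnit, hu₁, hx, ?_⟩
    rw [pow_add, ← mul_assoc, hmain, hI']
    ring

end Fermat.Agent.S44.L.NodeNFGraded
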