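import Mathlib
import Fermat.Agent.S44.L.NodeNFCover
import Fermat.Agent.S44.L.NodeNFGraded
import Fermat.Agent.S44.L.NodeNFEmb

/-!
# Program MR (S44), strand L, cover-free ALT, brick (A1): the node normal form (NNF)

Level-free commutative algebra (helper27); the two literals are helper61's
(`notes/helper61/NodeNF_spec.lean.txt`), verbatim.

`B` a noetherian local domain with `𝔪 = (t₁, t₂)`, `t₁`, `t₂` non-associated primes (a regular
node `t₁ t₂ = p ν` of a model over an unramified base); `A = B[π]` a domain with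
`π ^ p = t₁ t₂ κ(π)`, `deg κ < p`, `κ(0)` a unit (the wildly ramified base change).  If `f ≠ 0` in
`Frac A` is a `p`-th power up to units at every prime of `A` not containing `π`, then

* `exists_eq_unit_mul_pow_mul_zpow_mul_pow` : `f = w π ^ m t₂ ^ j x ^ p` with `w ∈ Aˣ`;
* `exists_eq_first_order` : moreover `w = w₀ (1 + c π) + π ^ 2 g` with `w₀ ∈ Bˣ`, `c ∈ B`.

Proof: `A` embeds (`NodeNFEmb.exists_algHom_of_eisenstein`) as the degree-`0` part of the graded
regular cover `R ∋ r, s`, `r s = π`, `s ^ p = t₂` (`NodeNFCover.exists_graded_node_cover`), and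
the abstract graded normal form `NodeNFGraded.nnf_graded` applies to `F = n d ^ (p - 1)` for
`f = n / d`.
-/

set_option autoImplicit false

open Polynomial

namespace Fermat.Agent.S44.L.NodeNF

universe u v w

/-- **NNF, both exits at once**: `f = w π ^ m t₂ ^ j x ^ p` with `w = q(π)` a unit of `A`,
`q ∈ B[X]` with unit constant coefficient. -/
theorem nnf_core
    {B : Type u} [CommRing B] [IsDomain B] [IsLocalRing B] [IsNoetherianRing B]
    {p : ℕ} (hp : p ≠ 0) {t₁ t₂ : B} (ht₁ : Prime t₁) (ht₂ : Prime t₂)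
    (hne : ¬ Associated t₁ t₂) (hm : IsLocalRing.maximalIdeal B = Ideal.span {t₁, t₂})
    {κ : B[X]} (hκ : κ.natDegree < p) (hκ0 : IsUnit (κ.eval 0))
    {A : Type v} [CommRing A] [IsDomain A] [Algebra B A]
    (hBA : Function.Injective (algebraMap B A)) {π : A}
    (hπ : π ^ p = algebraMap B A (t₁ * t₂) * aeval π κ) (hgen : Algebra.adjoin B {π} = ⊤)
    {K : Type w} [Field K] [Algebra A K] [IsFractionRing A K] {f : K} (hf : f ≠ 0)
    (hord : ∀ Q : Ideal A, Q.IsPrime → π ∉ Q → ∃ (a b : A) (τ : K), a ∉ Q ∧ b ∉ Q ∧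
        algebraMap A K b * f = algebraMap A K a * τ ^ p) :
    ∃ (w : Aˣ) (q : B[X]) (m : ℕ) (j : ℤ) (x : K), (w : A) = aeval π q ∧ IsUnit (q.coeff 0) ∧
      f = algebraMap A K w * algebraMap A K π ^ m
        * algebraMap A K (algebraMap B A t₂) ^ j * x ^ p := by
  have : NeZero p := ⟨hp⟩
  -- `B` is factorial
  have : IsDomain (B ⧸ Ideal.span {t₁}) := Node.isDomain_quot ht₁
  have : IsPrincipalIdealRing (B ⧸ Ideal.span {t₁}) := Node.isPrincipalIdealRing_quot ht₁ hm
  have : UniqueFactorizationMonoid B := LocalPrincipal.quot_ufm ht₁.ne_zero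
  -- the graded regular cover
  obtain ⟨R, _, _, _, _, _, r, s, c, hinj, hint, hr, hs, hrs, hmR, hsp, hrp, -, -, hsum, hcc,
    hmul, hcB, hcs, hcr, hcm, hdeg0, -⟩ :=
    NodeNFCover.exists_graded_node_cover p t₁ t₂ ht₁ ht₂ hne hm 1 isUnit_one κ hκ hκ0
  have hc1 : c 0 1 = 1 := by
    have := hcB 1
    rwa [map_one] at this
  have h : NodeNFGraded.IsGrading p c := ⟨hsum, hcc, hmul, hc1⟩
  have hπ0 : c 0 (r * s) = r * s := by
    have := h.hom_mul hcr hcs
    rwa [neg_add_cancel] at this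
  have hϱ : (r * s) ^ p = algebraMap B R (t₁ * t₂) * aeval (r * s) κ := by
    rw [map_one, one_mul] at hrp
    rw [mul_pow, hrp, hsp, map_mul]
    ring
  -- `A` embeds as the degree-`0` part
  have ht₁t₂ : ¬ t₁ ∣ t₂ := fun hd => hne (ht₁.associated_of_dvd ht₂ hd)
  obtain ⟨j, hj, hjπ⟩ :=
    NodeNFEmb.exists_algHom_of_eisenstein hp ht₁ ht₁t₂ hκ hκ0 hBA hπ hgen hinj hϱ
  have hrep : ∀ a : A, ∃ q : B[X], a = aeval π q := by
    intro a
    have ha : a ∈ Algebra.adjoin B {π} := hgen ▸ Algebra.mem_top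
    rw [Algebra.adjoin_singleton_eq_range_aeval] at ha
    obtain ⟨q, rfl⟩ := ha
    exact ⟨q, rfl⟩
  have hjq : ∀ q : B[X], j (aeval π q) = aeval (r * s) q := by
    intro q
    rw [← Polynomial.aeval_algHom_apply, hjπ]
  have haev0 : ∀ q : B[X], c 0 (aeval (r * s) q) = aeval (r * s) q := by
    intro q
    induction q using Polynomial.induction_on' with
    | add q₁ q₂ h₁ h₂ => rw [map_add, map_add, h₁, h₂]
    | monomial n b =>
      rw [Polynomial.aeval_monomial]
      have h1 := h.hom_mul (hcB b) (h.hom_pow hπ0 n)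
      rwa [smul_zero, add_zero] at h1
  have hj0 : ∀ a : A, c 0 (j a) = j a := by
    intro a
    obtain ⟨q, rfl⟩ := hrep a
    rw [hjq]
    exact haev0 q
  have hpull : ∀ y : R, c 0 y = y → ∃ a : A, j a = y := by
    intro y hy
    obtain ⟨q, -, rfl⟩ := hdeg0 y hy
    exact ⟨aeval π q, hjq q⟩
  -- clear the denominator
  obtain ⟨n, d, hd, rfl⟩ := IsFractionRing.div_surjective A f
  have hd0 : d ≠ 0 := nonZeroDivisors.ne_zero hd
  have hn0 : n ≠ 0 := by
    rintro rfl
    exact hf (by rw [map_zero, zero_div])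
  have hdK : algebraMap A K d ≠ 0 :=
    (map_ne_zero_iff _ (IsFractionRing.injective A K)).mpr hd0
  have hF0 : n * d ^ (p - 1) ≠ 0 := mul_ne_zero hn0 (pow_ne_zero _ hd0)
  have hFd : algebraMap A K n / algebraMap A K d =
      algebraMap A K (n * d ^ (p - 1)) / algebraMap A K d ^ p := by
    rw [map_mul, map_pow, ← pow_sub_one_mul hp (algebraMap A K d)]
    field_simp
  have hjF0 : j (n * d ^ (p - 1)) ≠ 0 := (map_ne_zero_iff j hj).mpr hF0
  -- the horizontal hypothesis, transported to `R`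
  have hhor : ∀ g : R, Prime g → ¬ g ∣ r * s → ∃ a b τ₁ τ₂ : R, c 0 a = a ∧ c 0 b = b ∧
      c 0 τ₁ = τ₁ ∧ c 0 τ₂ = τ₂ ∧ ¬ g ∣ a ∧ ¬ g ∣ b ∧ τ₂ ≠ 0 ∧
      b * j (n * d ^ (p - 1)) * τ₂ ^ p = a * τ₁ ^ p := by
    intro g hg hgπ
    have hgP : (Ideal.span {g} : Ideal R).IsPrime :=
      (Ideal.span_singleton_prime hg.ne_zero).mpr hg
    have hQ : (Ideal.comap j (Ideal.span {g})).IsPrime := Ideal.comap_isPrime j _
    have hπQ : π ∉ Ideal.comap j (Ideal.span {g}) := by
      rw [Ideal.mem_comap, hjπ, Ideal.mem_span_singleton]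
      exact hgπ
    obtain ⟨a, b, τ, ha, hb, heq⟩ := hord _ hQ hπQ
    obtain ⟨T₁, T₂, hT₂, rfl⟩ := IsFractionRing.div_surjective A τ
    have hT₂0 : T₂ ≠ 0 := nonZeroDivisors.ne_zero hT₂
    have hT₂K : algebraMap A K T₂ ≠ 0 :=
      (map_ne_zero_iff _ (IsFractionRing.injective A K)).mpr hT₂0
    have hA : b * (n * d ^ (p - 1)) * T₂ ^ p = a * (T₁ * d) ^ p := by
      apply IsFractionRing.injective A K
      rw [hFd] at heq
      have h1 : algebraMap A K (b * (n * d ^ (p - 1)) * T₂ ^ p) =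
          (algebraMap A K b * (algebraMap A K (n * d ^ (p - 1)) / algebraMap A K d ^ p)) *
            (algebraMap A K d ^ p * algebraMap A K T₂ ^ p) := by
        rw [map_mul, map_mul, map_pow]
        field_simp
      rw [h1, heq, div_pow, map_mul, map_pow, map_mul, mul_pow]
      field_simp
    refine ⟨j a, j b, j (T₁ * d), j T₂, hj0 a, hj0 b, hj0 _, hj0 _, ?_, ?_,
      (map_ne_zero_iff j hj).mpr hT₂0, ?_⟩
    · rw [← Ideal.mem_span_singleton]
      exact ha
    · rw [← Ideal.mem_span_singleton]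
      exact hb
    · rw [← map_pow, ← map_mul, ← map_mul, hA, map_mul, map_pow]
  -- the graded normal form
  obtain ⟨wR, xR, m, a, b, hwu, hw0, hx0, hmain⟩ :=
    NodeNFGraded.nnf_graded p r s hr hs hrs hmR c hsum hcc hmul hc1 hcs hcr hcm
      (j (n * d ^ (p - 1))) hjF0 (hj0 _) hhor
  obtain ⟨wA, rfl⟩ := hpull wR hw0
  obtain ⟨xA, rfl⟩ := hpull xR hx0
  obtain ⟨wi, hwi⟩ := hwu.exists_right_inv
  have hwi0 : c 0 wi = wi := by
    have := h.hom_of_mul (e := 0) (d := 0) (hj0 wA) (left_ne_zero_of_mul_eq_one hwi)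
      (by rw [hwi]; exact hc1)
    rwa [sub_zero] at this
  obtain ⟨wiA, rfl⟩ := hpull wi hwi0
  have hwA : wA * wiA = 1 := hj (by rw [map_mul, hwi, map_one])
  have hmainA : n * d ^ (p - 1) * algebraMap B A t₂ ^ a =
      wA * π ^ m * algebraMap B A t₂ ^ b * xA ^ p := by
    apply hj
    simp only [map_mul, map_pow, hjπ, AlgHom.commutes]
    rw [← hsp]
    simpa only [map_mul, map_pow] using hmain
  -- the unit is `q(π)` with `q(0)` a unit of `B`
  obtain ⟨q, hq⟩ := hrep wA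
  have hq0 : IsUnit (q.coeff 0) := by
    have hjw : j wA = aeval (r * s) q := by rw [hq, hjq]
    have hsplit : aeval (r * s) q =
        algebraMap B R (q.coeff 0) + r * s * aeval (r * s) q.divX := by
      conv_lhs => rw [← Polynomial.divX_mul_X_add q]
      rw [map_add, map_mul, Polynomial.aeval_X, Polynomial.aeval_C]
      ring
    have hmem : r * s * aeval (r * s) q.divX ∈ IsLocalRing.maximalIdeal R := by
      refine Ideal.mul_mem_right _ _ (Ideal.mul_mem_right _ _ ?_)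
      rw [hmR]
      exact Ideal.subset_span (Set.mem_insert r {s})
    have hu : IsUnit (algebraMap B R (q.coeff 0)) := by
      by_contra hnu
      have h3 : algebraMap B R (q.coeff 0) ∈ IsLocalRing.maximalIdeal R :=
        (IsLocalRing.mem_maximalIdeal _).mpr hnu
      have h4 : j wA ∈ IsLocalRing.maximalIdeal R := by
        rw [hjw, hsplit]
        exact Ideal.add_mem _ h3 hmem
      exact (IsLocalRing.mem_maximalIdeal _).mp h4 hwu
    have : IsLocalHom (algebraMap B R) :=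
      (algebraMap_isIntegral_iff.mpr hint).isLocalHom hinj
    exact IsUnit.of_map (algebraMap B R) _ hu
  have htK : algebraMap A K (algebraMap B A t₂) ≠ 0 :=
    (map_ne_zero_iff _ (IsFractionRing.injective A K)).mpr
      ((map_ne_zero_iff _ hBA).mpr ht₂.ne_zero)
  refine ⟨⟨wA, wiA, hwA, by rw [mul_comm]; exact hwA⟩, q, m, (b : ℤ) - a,
    algebraMap A K xA / algebraMap A K d, hq, hq0, ?_⟩
  have hK := congrArg (algebraMap A K) hmainA
  simp only [map_mul, map_pow] at hK
  have hTa : algebraMap A K (algebraMap B A t₂) ^ a ≠ 0 := pow_ne_zero _ htK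
  have hDp : algebraMap A K d ^ p ≠ 0 := pow_ne_zero _ hdK
  rw [hFd, div_pow, zpow_sub₀ htK, zpow_natCast, zpow_natCast]
  simp only [map_mul, map_pow]
  rw [(eq_div_iff hTa).mpr hK]
  field_simp

/-- **(A1) NNF, the node normal form.** -/
theorem exists_eq_unit_mul_pow_mul_zpow_mul_pow
    {B : Type u} [CommRing B] [IsDomain B] [IsLocalRing B] [IsNoetherianRing B]
    {p : ℕ} (hp : p ≠ 0) {t₁ t₂ : B} (ht₁ : Prime t₁) (ht₂ : Prime t₂)
    (hne : ¬ Associated t₁ t₂) (hm : IsLocalRing.maximalIdeal B = Ideal.span {t₁, t₂})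
    {κ : B[X]} (hκ : κ.natDegree < p) (hκ0 : IsUnit (κ.eval 0))
    {A : Type v} [CommRing A] [IsDomain A] [Algebra B A]
    (hBA : Function.Injective (algebraMap B A)) {π : A}
    (hπ : π ^ p = algebraMap B A (t₁ * t₂) * aeval π κ) (hgen : Algebra.adjoin B {π} = ⊤)
    {K : Type w} [Field K] [Algebra A K] [IsFractionRing A K] {f : K} (hf : f ≠ 0)
    (hord : ∀ Q : Ideal A, Q.IsPrime → π ∉ Q → ∃ (a b : A) (τ : K), a ∉ Q ∧ b ∉ Q ∧
        algebraMap A K b * f = algebraMap A K a * τ ^ p) :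
    ∃ (w : Aˣ) (m : ℕ) (j : ℤ) (x : K),
      f = algebraMap A K w * algebraMap A K π ^ m
        * algebraMap A K (algebraMap B A t₂) ^ j * x ^ p := by
  obtain ⟨w, -, m, j, x, -, -, hfe⟩ := nnf_core hp ht₁ ht₂ hne hm hκ hκ0 hBA hπ hgen hf hord
  exact ⟨w, m, j, x, hfe⟩

/-- **(A1') NNF with the first-order expansion of the unit.** -/
theorem exists_eq_first_order
    {B : Type u} [CommRing B] [IsDomain B] [IsLocalRing B] [IsNoetherianRing B]
    {p : ℕ} (hp : p ≠ 0) {t₁ t₂ : B} (ht₁ : Prime t₁) (ht₂ : Prime t₂)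
    (hne : ¬ Associated t₁ t₂) (hm : IsLocalRing.maximalIdeal B = Ideal.span {t₁, t₂})
    {κ : B[X]} (hκ : κ.natDegree < p) (hκ0 : IsUnit (κ.eval 0))
    {A : Type v} [CommRing A] [IsDomain A] [Algebra B A]
    (hBA : Function.Injective (algebraMap B A)) {π : A}
    (hπ : π ^ p = algebraMap B A (t₁ * t₂) * aeval π κ) (hgen : Algebra.adjoin B {π} = ⊤)
    {K : Type w} [Field K] [Algebra A K] [IsFractionRing A K] {f : K} (hf : f ≠ 0)
    (hord : ∀ Q : Ideal A, Q.IsPrime → π ∉ Q → ∃ (a b : A) (τ : K), a ∉ Q ∧ b ∉ Q ∧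
        algebraMap A K b * f = algebraMap A K a * τ ^ p) :
    ∃ (w₀ : Bˣ) (c : B) (g : A) (m : ℕ) (j : ℤ) (x : K),
      f = algebraMap A K (algebraMap B A w₀ * (1 + algebraMap B A c * π) + π ^ 2 * g)
        * algebraMap A K π ^ m * algebraMap A K (algebraMap B A t₂) ^ j * x ^ p := by
  obtain ⟨w, q, m, j, x, hwq, hq0, hfe⟩ :=
    nnf_core hp ht₁ ht₂ hne hm hκ hκ0 hBA hπ hgen hf hord
  obtain ⟨w₀, hw₀⟩ := hq0
  refine ⟨w₀, (w₀⁻¹ : Bˣ) * q.divX.coeff 0, aeval π q.divX.divX, m, j, x, ?_⟩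
  have hsplit : (w : A) = algebraMap B A w₀ *
      (1 + algebraMap B A ((w₀⁻¹ : Bˣ) * q.divX.coeff 0) * π) + π ^ 2 * aeval π q.divX.divX := by
    have e1 : aeval π q = aeval π q.divX * π + algebraMap B A (q.coeff 0) := by
      conv_lhs => rw [← Polynomial.divX_mul_X_add q]
      rw [map_add, map_mul, Polynomial.aeval_X, Polynomial.aeval_C]
    have e2 : aeval π q.divX = aeval π q.divX.divX * π + algebraMap B A (q.divX.coeff 0) := by
      conv_lhs => rw [← Polynomial.divX_mul_X_add q.divX]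
      rw [map_add, map_mul, Polynomial.aeval_X, Polynomial.aeval_C]
    have e3 : algebraMap B A (w₀ : B) * algebraMap B A ((w₀⁻¹ : Bˣ) : B) = 1 := by
      rw [← map_mul, Units.mul_inv, map_one]
    rw [hwq, e1, e2, ← hw₀, map_mul]
    linear_combination (-(algebraMap B A (q.divX.coeff 0) * π)) * e3
  rw [← hsplit]
  exact hfe

end Fermat.Agent.S44.L.NodeNF
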