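import Mathlib
import Fermat.Agent.S30.GaussDVR
import Fermat.Agent.S44.L.FirstOrder

/-!
# Program MR (S44), strand L, cover-free ALT for (L.SLOPE), brick (A2'): the first-order
# invariant `ρ` on the fraction field of the Gauss ring

Generic `GaussDVR` vocabulary (helper61), on top of `S44/L/FirstOrder` (helper80: a first-order
derivation `D : O → κ` of a discrete valuation ring `O` with uniformiser `ϖ`, `D ϖ = 1`, and its
lift `dV` to the Gauss ring `V ⊆ E((q))`).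

Every nonzero `x` of the fraction field of `O((q))` is `ϖ ^ i / ϖ ^ k * y` with `y` a Gauss unit
(`GaussDVR.exists_unit_pow`); `ρ(x) := dV y / red y ∈ κ((q))`.  We use the RELATIONAL form
`IsRho h x ρ` (no choice):

* `IsRho.exists`, `IsRho.unique` : `ρ(x)` exists and is unique;
* `IsRho.mul`, `IsRho.inv`, `IsRho.pow`, `IsRho.zpow`, `IsRho.pow_char` : `ρ` is a homomorphism
  to the additive group of `κ((q))` and kills `p`-th powers (`p` the residue characteristic);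
* `isRho_unif` : `ρ(ϖ) = 0`;  `isRho_of_dV_eq_zero` : `ρ = 0` on Gauss units killed by `dV`
  (everything defined over an unramified base, `FirstOrder.dV_eq_zero_of_base`);
* `isRho_C` : `ρ(a) = D η / η̄` for a constant `a = η ϖ ^ e`, `η` a unit (for `a = p = η ϖ ^ p`
  this is the constant `e₁` of `FirstOrder.eis`);
* `isRho_first_order` : `ρ(w₀ (1 + c ϖ) + ϖ² g) = red c` for `w₀`, `c` killed by `dV`,
  `w₀` a Gauss unit: the shape produced by the node normal form (`S44/L/NodeNF`).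

Application (ALT, rows ALT.5/ALT.6): `O = OE A K(b)`, `ϖ = b / c - 1`; `ρ_∞(f) := ρ(σ f)`,
`ρ_0(f) := ρ(σ (w f))` for a function `f` of level `M p` over `K(b)`.
-/

set_option autoImplicit false

open ModularCurve

noncomputable section

namespace Fermat.Agent.S44.L.RhoGauss

open Fermat.Agent.S30 Fermat.Agent.S44.L.FirstOrder

variable {O E : Type*} [CommRing O] [IsDomain O] [IsDiscreteValuationRing O] [Field E]
  [Algebra O E] [FaithfulSMul O E]
  {ϖ : O} {D : O → IsLocalRing.ResidueField O}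

/-- The uniformiser as a series. -/
local notation "𝔲" => ((GaussDVR.unif E ϖ : GaussDVR.V O E) : LaurentSeries E)

/-- **The first-order invariant**, relational form: `x = ϖ ^ i / ϖ ^ k * y`, `y` a Gauss unit,
`ρ = dV y / red y`. -/
def IsRho (h : IsFirstOrder (IsLocalRing.residue O) ϖ D) (x : LaurentSeries E)
    (ρ : LaurentSeries (IsLocalRing.ResidueField O)) : Prop :=
  ∃ (i k : ℕ) (y : GaussDVR.V O E), GaussDVR.red O E y ≠ 0 ∧
    x * ((GaussDVR.unif E ϖ : GaussDVR.V O E) : LaurentSeries E) ^ k =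
      ((GaussDVR.unif E ϖ : GaussDVR.V O E) : LaurentSeries E) ^ i * (y : LaurentSeries E) ∧
    ρ * GaussDVR.red O E y = dV O E h y

section Basic

variable (h : IsFirstOrder (IsLocalRing.residue O) ϖ D)

theorem dV_one : dV O E h 1 = 0 := by
  have h1 := dV_mul O E h 1 1
  rw [mul_one, map_one, one_mul, mul_one] at h1
  exact left_eq_add.mp h1

theorem dV_unif : dV O E h (GaussDVR.unif E ϖ) = 1 := by
  show dV O E h (GaussDVR.ofInt O E (HahnSeries.C ϖ)) = 1
  rw [dV_ofInt, dHat_C, h.map_unif, map_one]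

variable (hϖ : Irreducible ϖ)

include hϖ

/-- `ρ(x)` exists for every nonzero `x` of the fraction field. -/
theorem IsRho.exists {x : LaurentSeries E} (hx : x ∈ GaussDVR.fracField O E) (hx0 : x ≠ 0) :
    ∃ ρ, IsRho h x ρ := by
  obtain ⟨i, k, y, hy, hxy⟩ := GaussDVR.exists_unit_pow E ϖ hϖ x hx hx0
  exact ⟨dV O E h y / GaussDVR.red O E y, i, k, y, hy, hxy, div_mul_cancel₀ _ hy⟩

/-- A Gauss unit is not divisible by the uniformiser. -/
theorem eq_of_pow_mul_eq {y y' : GaussDVR.V O E} (hy : GaussDVR.red O E y ≠ 0)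
    (hy' : GaussDVR.red O E y' ≠ 0) {m n : ℕ}
    (hmn : 𝔲 ^ m * (y : LaurentSeries E) = 𝔲 ^ n * (y' : LaurentSeries E)) : m = n ∧ y = y' := by
  have hu : 𝔲 ≠ 0 := GaussDVR.coe_unif_ne_zero E ϖ hϖ
  have key : ∀ {y y' : GaussDVR.V O E} {m n : ℕ}, GaussDVR.red O E y ≠ 0 →
      𝔲 ^ m * (y : LaurentSeries E) = 𝔲 ^ n * (y' : LaurentSeries E) → ¬ m < n := by
    intro y y' m n hy hmn hlt
    obtain ⟨d, rfl⟩ := Nat.exists_eq_add_of_lt hlt
    have h1 : (y : LaurentSeries E) = 𝔲 ^ (d + 1) * (y' : LaurentSeries E) := by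
      apply mul_left_cancel₀ (pow_ne_zero m hu)
      rw [hmn]
      ring
    have h2 : y = GaussDVR.unif E ϖ ^ (d + 1) * y' := Subtype.ext h1
    apply hy
    rw [h2, map_mul, map_pow, GaussDVR.red_unif E ϖ hϖ, zero_pow (Nat.succ_ne_zero d), zero_mul]
  have hmn' : m = n := le_antisymm (not_lt.mp (key hy' hmn.symm)) (not_lt.mp (key hy hmn))
  subst hmn'
  exact ⟨rfl, Subtype.ext (mul_left_cancel₀ (pow_ne_zero m hu) hmn)⟩

/-- `ρ(x)` is unique. -/
theorem IsRho.unique {x : LaurentSeries E} {ρ ρ' : LaurentSeries (IsLocalRing.ResidueField O)}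
    (h1 : IsRho h x ρ) (h2 : IsRho h x ρ') : ρ = ρ' := by
  obtain ⟨i, k, y, hy, hxy, hρ⟩ := h1
  obtain ⟨i', k', y', hy', hxy', hρ'⟩ := h2
  have hmn : 𝔲 ^ (i + k') * (y : LaurentSeries E) = 𝔲 ^ (i' + k) * (y' : LaurentSeries E) := by
    calc 𝔲 ^ (i + k') * (y : LaurentSeries E) = (𝔲 ^ i * (y : LaurentSeries E)) * 𝔲 ^ k' := by ring
      _ = (x * 𝔲 ^ k') * 𝔲 ^ k := by rw [← hxy]; ring
      _ = 𝔲 ^ (i' + k) * (y' : LaurentSeries E) := by rw [hxy']; ring
  obtain ⟨-, rfl⟩ := eq_of_pow_mul_eq hϖ hy hy' hmn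
  exact mul_right_cancel₀ hy (hρ.trans hρ'.symm)

omit hϖ in
/-- `ρ(x x') = ρ(x) + ρ(x')`. -/
theorem IsRho.mul {x x' : LaurentSeries E} {ρ ρ' : LaurentSeries (IsLocalRing.ResidueField O)}
    (h1 : IsRho h x ρ) (h2 : IsRho h x' ρ') : IsRho h (x * x') (ρ + ρ') := by
  obtain ⟨i, k, y, hy, hxy, hρ⟩ := h1
  obtain ⟨i', k', y', hy', hxy', hρ'⟩ := h2
  refine ⟨i + i', k + k', y * y', ?_, ?_, ?_⟩
  · rw [map_mul]
    exact mul_ne_zero hy hy'
  · rw [Subring.coe_mul]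
    calc x * x' * 𝔲 ^ (k + k') = (x * 𝔲 ^ k) * (x' * 𝔲 ^ k') := by ring
      _ = 𝔲 ^ (i + i') * ((y : LaurentSeries E) * (y' : LaurentSeries E)) := by
        rw [hxy, hxy']; ring
  · rw [dV_mul, map_mul, ← hρ, ← hρ']
    ring

omit hϖ in
/-- `ρ(1) = 0`. -/
theorem isRho_one : IsRho h (1 : LaurentSeries E) 0 :=
  ⟨0, 0, 1, by rw [map_one]; exact one_ne_zero, by simp, by rw [zero_mul, dV_one]⟩

/-- `ρ(x⁻¹) = -ρ(x)`. -/
theorem IsRho.inv {x : LaurentSeries E} {ρ : LaurentSeries (IsLocalRing.ResidueField O)}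
    (h1 : IsRho h x ρ) : IsRho h x⁻¹ (-ρ) := by
  obtain ⟨i, k, y, hy, hxy, hρ⟩ := h1
  have hu : 𝔲 ≠ 0 := GaussDVR.coe_unif_ne_zero E ϖ hϖ
  have hyinv := GaussDVR.inv_mem O E y hy
  have hy0 : (y : LaurentSeries E) ≠ 0 := fun h0 => hy (by
    have : y = 0 := Subtype.ext h0
    rw [this, map_zero])
  have hx0 : x ≠ 0 := by
    rintro rfl
    rw [zero_mul] at hxy
    exact mul_ne_zero (pow_ne_zero i hu) hy0 hxy.symm
  have hmul : y * (⟨(y : LaurentSeries E)⁻¹, hyinv⟩ : GaussDVR.V O E) = 1 :=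
    Subtype.ext (mul_inv_cancel₀ hy0)
  have hred : GaussDVR.red O E y * GaussDVR.red O E ⟨(y : LaurentSeries E)⁻¹, hyinv⟩ = 1 := by
    rw [← map_mul, hmul, map_one]
  have hd := dV_mul O E h y ⟨(y : LaurentSeries E)⁻¹, hyinv⟩
  rw [hmul, dV_one] at hd
  refine ⟨k, i, ⟨(y : LaurentSeries E)⁻¹, hyinv⟩, right_ne_zero_of_mul_eq_one hred, ?_, ?_⟩
  · show x⁻¹ * 𝔲 ^ i = 𝔲 ^ k * (y : LaurentSeries E)⁻¹
    rw [inv_mul_eq_iff_eq_mul₀ hx0, ← mul_assoc, hxy, mul_assoc, mul_inv_cancel₀ hy0, mul_one]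
  · apply mul_left_cancel₀ hy
    linear_combination hd - GaussDVR.red O E ⟨(y : LaurentSeries E)⁻¹, hyinv⟩ * hρ

omit hϖ in
/-- `ρ(x ^ n) = n ρ(x)`. -/
theorem IsRho.pow {x : LaurentSeries E} {ρ : LaurentSeries (IsLocalRing.ResidueField O)}
    (h1 : IsRho h x ρ) (n : ℕ) : IsRho h (x ^ n) (n • ρ) := by
  induction n with
  | zero =>
    rw [pow_zero, zero_smul]
    exact isRho_one h
  | succ n ih =>
    rw [pow_succ, succ_nsmul]
    exact ih.mul h h1

/-- `ρ(x ^ j) = j ρ(x)` for integer exponents. -/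
theorem IsRho.zpow {x : LaurentSeries E} {ρ : LaurentSeries (IsLocalRing.ResidueField O)}
    (h1 : IsRho h x ρ) (j : ℤ) : IsRho h (x ^ j) (j • ρ) := by
  cases j with
  | ofNat n =>
    rw [Int.ofNat_eq_natCast, zpow_natCast, natCast_zsmul]
    exact h1.pow h n
  | negSucc n =>
    rw [zpow_negSucc, negSucc_zsmul]
    exact (h1.pow h (n + 1)).inv h hϖ

omit hϖ in
/-- `ρ` kills `p`-th powers, `p` the residue characteristic. -/
theorem IsRho.pow_char (p : ℕ) [CharP (IsLocalRing.ResidueField O) p] {x : LaurentSeries E}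
    {ρ : LaurentSeries (IsLocalRing.ResidueField O)} (h1 : IsRho h x ρ) :
    IsRho h (x ^ p) 0 := by
  have h2 := h1.pow h p
  have h0 : ((p : ℕ) : LaurentSeries (IsLocalRing.ResidueField O)) = 0 := by
    rw [← map_natCast (HahnSeries.C (Γ := ℤ) (R := IsLocalRing.ResidueField O)) p,
      CharP.cast_eq_zero, map_zero]
  rwa [nsmul_eq_mul, h0, zero_mul] at h2

omit hϖ in
/-- `ρ(ϖ) = 0`. -/
theorem isRho_unif : IsRho h 𝔲 0 :=
  ⟨1, 0, 1, by rw [map_one]; exact one_ne_zero, by simp, by rw [zero_mul, dV_one]⟩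

omit hϖ in
/-- On a Gauss unit `ρ = dV / red`. -/
theorem isRho_of_mem (y : GaussDVR.V O E) (hy : GaussDVR.red O E y ≠ 0) :
    IsRho h (y : LaurentSeries E) (dV O E h y / GaussDVR.red O E y) :=
  ⟨0, 0, y, hy, by simp, div_mul_cancel₀ _ hy⟩

omit hϖ in
/-- `ρ = 0` on Gauss units killed by `dV` (everything defined over an unramified base:
`FirstOrder.dV_eq_zero_of_base`). -/
theorem isRho_of_dV_eq_zero (y : GaussDVR.V O E) (hy : GaussDVR.red O E y ≠ 0)
    (hd : dV O E h y = 0) : IsRho h (y : LaurentSeries E) 0 :=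
  ⟨0, 0, y, hy, by simp, by rw [zero_mul, hd]⟩

omit hϖ in
/-- `ρ(a) = D η / η̄` for a constant `a = η ϖ ^ e`, `η` a unit. -/
theorem isRho_C {a η : O} {e : ℕ} (ha : a = η * ϖ ^ e) (hη : IsLocalRing.residue O η ≠ 0) :
    IsRho h (HahnSeries.C (algebraMap O E a) : LaurentSeries E)
      (HahnSeries.C (D η / IsLocalRing.residue O η)) := by
  refine ⟨e, 0, GaussDVR.ofInt O E (HahnSeries.C η), ?_, ?_, ?_⟩
  · rw [GaussDVR.red_ofInt, GaussDVR.rho_C]
    exact HahnSeries.C_ne_zero hη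
  · rw [pow_zero, mul_one, GaussDVR.coe_unif, GaussDVR.coe_ofInt, GaussDVR.iota_C, ha, map_mul,
      map_pow, map_mul, map_pow]
    ring
  · rw [GaussDVR.red_ofInt, GaussDVR.rho_C, dV_ofInt, dHat_C, ← map_mul,
      div_mul_cancel₀ _ hη]

/-- **First-order shape.**  For `W = w₀ (1 + c ϖ) + ϖ² g` with `w₀` a Gauss unit:
`ρ(W) = dV w₀ / red w₀ + red c`. -/
theorem isRho_first_order' (w₀ c g : GaussDVR.V O E) (hw₀ : GaussDVR.red O E w₀ ≠ 0) :
    IsRho h ((w₀ * (1 + c * GaussDVR.unif E ϖ) + GaussDVR.unif E ϖ ^ 2 * g : GaussDVR.V O E) :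
        LaurentSeries E)
      (dV O E h w₀ / GaussDVR.red O E w₀ + GaussDVR.red O E c) := by
  have hru := GaussDVR.red_unif E ϖ hϖ
  have hdu := dV_unif (E := E) h
  have hredW : GaussDVR.red O E (w₀ * (1 + c * GaussDVR.unif E ϖ) + GaussDVR.unif E ϖ ^ 2 * g)
      = GaussDVR.red O E w₀ := by
    rw [map_add, map_mul, map_add, map_one, map_mul, map_mul, map_pow, hru]
    ring
  refine ⟨0, 0, _, by rw [hredW]; exact hw₀, by simp, ?_⟩
  rw [hredW, dV_add, dV_mul, dV_add, dV_one, dV_mul, dV_mul (x := GaussDVR.unif E ϖ ^ 2), pow_two,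
    dV_mul (x := GaussDVR.unif E ϖ), map_mul, map_add, map_one, map_mul, hru, hdu]
  field_simp
  ring

/-- **First-order shape**, for `w₀` killed by `dV` (defined over the unramified base):
`ρ(w₀ (1 + c ϖ) + ϖ² g) = red c`. -/
theorem isRho_first_order (w₀ c g : GaussDVR.V O E) (hw₀ : GaussDVR.red O E w₀ ≠ 0)
    (hd : dV O E h w₀ = 0) :
    IsRho h ((w₀ * (1 + c * GaussDVR.unif E ϖ) + GaussDVR.unif E ϖ ^ 2 * g : GaussDVR.V O E) :
        LaurentSeries E)
      (GaussDVR.red O E c) := by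
  have h1 := isRho_first_order' h hϖ w₀ c g hw₀
  rwa [hd, zero_div, zero_add] at h1

/-- **The node normal form, read through `ρ`.**  If `f = W ϖ ^ m T ^ j x ^ p` then
`ρ(f) = ρ(W) + j ρ(T)` (`p` the residue characteristic, `x ≠ 0` in the fraction field). -/
theorem isRho_nnf (p : ℕ) [CharP (IsLocalRing.ResidueField O) p] {f W T x : LaurentSeries E}
    {ρW τ : LaurentSeries (IsLocalRing.ResidueField O)} {m : ℕ} {j : ℤ}
    (hW : IsRho h W ρW) (hT : IsRho h T τ) (hx : x ∈ GaussDVR.fracField O E) (hx0 : x ≠ 0)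
    (hf : f = W * 𝔲 ^ m * T ^ j * x ^ p) : IsRho h f (ρW + j • τ) := by
  obtain ⟨ρx, hρx⟩ := IsRho.exists h hϖ hx hx0
  have h1 := ((hW.mul h ((isRho_unif h).pow h m)).mul h (hT.zpow h hϖ j)).mul h
    (hρx.pow_char h p)
  rw [hf]
  rwa [smul_zero, add_zero, add_zero] at h1

end Basic

end Fermat.Agent.S44.L.RhoGauss
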