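import Mathlib
import Fermat.Agent.S44.L.Node
import Fermat.Agent.S44.L.NodeCover
import Fermat.Agent.S44.L.NodeNFEmb

/-!
# ALT.4 (SmoothNF): the first-order normal form at a smooth point of the special fibre

`B` a noetherian local domain with maximal ideal `(ϖ, z)`, `ϖ` prime (a smooth point of the
special fibre of a regular model over an unramified base); `A = B[π]` a domain generated over
`B` by a root `π` of the Eisenstein polynomial `X ^ p - ϖ κ(X)` (`deg κ < p`, `κ(0)` a unit).
Then `A` is a noetherian local domain with maximal ideal `(π, z)`, `π` prime (regular), and every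
`f ∈ (Frac A)ˣ` with all orders away from `π` divisible by `p` is

  `f = (w₀ (1 + c π) + π ^ 2 g) * π ^ m * x ^ p`,  `w₀ ∈ Bˣ`, `c ∈ B`, `g ∈ A`.
-/

set_option autoImplicit false

open Polynomial IsLocalRing

namespace Fermat.Agent.S44.L.SmoothNF

open Fermat.Agent.S44.L.NodeCover Fermat.Agent.S44.L.NodeNFEmb Fermat.Agent.S44.L.Node
  Fermat.Agent.S44.L.LocalPrincipal

universe u v w

section Structure

variable {B : Type u} [CommRing B] [IsDomain B] [IsLocalRing B] [IsNoetherianRing B]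
  {A : Type v} [CommRing A] [IsDomain A] [Algebra B A]

/-- **Structure of `A = B[π]`, `π` Eisenstein at a prime `ϖ` of a noetherian local domain.** -/
theorem eisenstein_structure {p : ℕ} (hp : p ≠ 0) {ϖ : B} (hϖ : Prime ϖ)
    [UniqueFactorizationMonoid B]
    {κ : B[X]} (hκ : κ.natDegree < p) (hκ0 : IsUnit (κ.eval 0))
    (hBA : Function.Injective (algebraMap B A)) {π : A}
    (hπ : π ^ p = algebraMap B A ϖ * aeval π κ) (hgen : Algebra.adjoin B {π} = ⊤) :
    IsLocalRing A ∧ IsNoetherianRing A ∧ Prime π ∧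
      Associated (π ^ p) (algebraMap B A ϖ) ∧
      (∀ a : A, ∃ (b : B) (a' : A), a = algebraMap B A b + π * a') ∧
      (∀ (b : B) (a' : A), IsUnit (algebraMap B A b + π * a') ↔ IsUnit b) := by
  obtain ⟨h, hh'⟩ : ∃ h : B[X], h = eisPoly p ϖ κ := ⟨_, rfl⟩
  have hh : h = X ^ p + C ϖ * (-κ) := by
    rw [hh']
    unfold eisPoly
    ring
  have hk : (-κ).natDegree < p := by rwa [natDegree_neg]
  have hk0 : IsUnit ((-κ).eval 0) := by
    rw [eval_neg]
    exact hκ0.neg
  have hdomAR : IsDomain (AdjoinRoot h) := eis_isDomain hh hk hp hϖ hk0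
  have hlocAR : IsLocalRing (AdjoinRoot h) := eis_isLocalRing hh hk hp hϖ
  have hinjAR : Function.Injective (algebraMap B (AdjoinRoot h)) := eis_of_injective hh hk hp
  have hroot : AdjoinRoot.root h ^ p
      = algebraMap B (AdjoinRoot h) (ϖ * 1) * aeval (AdjoinRoot.root h) κ := by
    have h0 : aeval (AdjoinRoot.root h) h = 0 := by
      rw [AdjoinRoot.aeval_eq]
      exact AdjoinRoot.mk_self
    have h0' : aeval (AdjoinRoot.root h) (eisPoly p ϖ κ) = 0 := by
      rw [← hh']
      exact h0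
    rw [aeval_eisPoly] at h0'
    rw [mul_one]
    exact sub_eq_zero.mp h0'
  have hπ' : π ^ p = algebraMap B A (ϖ * 1) * aeval π κ := by rw [mul_one]; exact hπ
  obtain ⟨j, hjinj, hjπ⟩ := exists_algHom_of_eisenstein hp hϖ
    (fun hd => hϖ.not_isUnit (isUnit_of_dvd_one hd)) hκ hκ0 hBA hπ' hgen hinjAR hroot
  have hjsurj : Function.Surjective j := by
    rw [← AlgHom.range_eq_top, eq_top_iff, ← AdjoinRoot.adjoinRoot_eq_top]
    refine Algebra.adjoin_le ?_
    rintro x rfl
    exact ⟨π, hjπ⟩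
  let e : A ≃ₐ[B] AdjoinRoot h := AlgEquiv.ofBijective j ⟨hjinj, hjsurj⟩
  have heπ : e π = AdjoinRoot.root h := hjπ
  have hesπ : e.symm (AdjoinRoot.root h) = π := by rw [← heπ, AlgEquiv.symm_apply_apply]
  have hesof : ∀ b : B, e.symm (AdjoinRoot.of h b) = algebraMap B A b := fun b => by
    rw [← AdjoinRoot.algebraMap_eq, e.symm.commutes]
  have heof : ∀ b : B, e (algebraMap B A b) = AdjoinRoot.of h b := fun b => by
    rw [e.commutes, AdjoinRoot.algebraMap_eq]
  refine ⟨?_, ?_, ?_, ?_, ?_, ?_⟩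
  · exact IsLocalRing.of_surjective' (e.symm : AdjoinRoot h →+* A) e.symm.surjective
  · exact isNoetherianRing_of_ringEquiv (AdjoinRoot h) e.symm.toRingEquiv
  · have h1 : Prime (e π) := by rw [heπ]; exact eis_root_prime hh hk hp hϖ hk0
    exact (MulEquiv.prime_iff e).mp h1
  · obtain ⟨v, hv⟩ := eis_associated hh hk hϖ hk0
    refine ⟨Units.map (e.symm : AdjoinRoot h →* A) v, ?_⟩
    have h1 := congrArg e.symm hv
    rw [map_mul, map_pow, hesπ, hesof] at h1
    exact h1
  · intro a
    obtain ⟨b, c', hbc⟩ := eis_exists_eq (e a)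
    refine ⟨b, e.symm c', ?_⟩
    have h1 := congrArg e.symm hbc
    rw [AlgEquiv.symm_apply_apply, map_add, map_mul, hesπ, hesof] at h1
    exact h1
  · intro b a'
    have h1 : e (algebraMap B A b + π * a') = AdjoinRoot.of h b + AdjoinRoot.root h * e a' := by
      rw [map_add, map_mul, heπ, heof]
    rw [← eis_isUnit_iff hh hk hp hϖ b (e a'), ← h1]
    exact (MulEquiv.isUnit_map e.toMulEquiv).symm

end Structure

/-- **ALT.4 (SmoothNF).**  Literal of ALT POST #2. -/
theorem exists_eq_first_order_smooth {B : Type u} [CommRing B] [IsDomain B] [IsLocalRing B]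
    [IsNoetherianRing B] {p : ℕ} (hp : p ≠ 0) {ϖ z : B} (hϖ : Prime ϖ)
    (hm : IsLocalRing.maximalIdeal B = Ideal.span {ϖ, z})
    {κ : B[X]} (hκ : κ.natDegree < p) (hκ0 : IsUnit (κ.eval 0))
    {A : Type v} [CommRing A] [IsDomain A] [Algebra B A]
    (hBA : Function.Injective (algebraMap B A)) {π : A}
    (hπ : π ^ p = algebraMap B A ϖ * aeval π κ) (hgen : Algebra.adjoin B {π} = ⊤)
    {K : Type w} [Field K] [Algebra A K] [IsFractionRing A K] {f : K} (hf : f ≠ 0)
    (hord : ∀ Q : Ideal A, Q.IsPrime → π ∉ Q → ∃ (a b : A) (τ : K), a ∉ Q ∧ b ∉ Q ∧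
        algebraMap A K b * f = algebraMap A K a * τ ^ p) :
    ∃ (w₀ : Bˣ) (c : B) (g : A) (m : ℕ) (x : K),
      f = algebraMap A K (algebraMap B A w₀ * (1 + algebraMap B A c * π) + π ^ 2 * g)
        * algebraMap A K π ^ m * x ^ p := by
  -- `B` is factorial
  have hdomB : IsDomain (B ⧸ Ideal.span {ϖ}) := isDomain_quot hϖ
  have hpidB : IsPrincipalIdealRing (B ⧸ Ideal.span {ϖ}) := isPrincipalIdealRing_quot hϖ hm
  have hufdB : UniqueFactorizationMonoid B := quot_ufm hϖ.ne_zero
  obtain ⟨hloc, hnoeth, hπprime, hass, hdec, hunit⟩ :=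
    eisenstein_structure hp hϖ hκ hκ0 hBA hπ hgen
  -- the maximal ideal of `A`
  have hmA : IsLocalRing.maximalIdeal A = Ideal.span {π, algebraMap B A z} := by
    apply le_antisymm
    · intro a ha
      obtain ⟨b, a', rfl⟩ := hdec a
      have hb : b ∈ IsLocalRing.maximalIdeal B := by
        rw [IsLocalRing.mem_maximalIdeal, mem_nonunits_iff]
        intro hbu
        exact (IsLocalRing.mem_maximalIdeal _).mp ha ((hunit b a').mpr hbu)
      rw [hm, Ideal.mem_span_pair] at hb
      obtain ⟨x, y, rfl⟩ := hb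
      obtain ⟨v, hv⟩ := hass
      have hϖA : algebraMap B A ϖ ∈ Ideal.span {π, algebraMap B A z} := by
        rw [← hv]
        refine Ideal.mul_mem_right _ _ ?_
        obtain ⟨q, rfl⟩ := Nat.exists_eq_succ_of_ne_zero hp
        rw [pow_succ]
        exact Ideal.mul_mem_left _ _ (Ideal.subset_span (Set.mem_insert _ _))
      rw [map_add, map_mul, map_mul]
      refine Ideal.add_mem _ (Ideal.add_mem _ (Ideal.mul_mem_left _ _ hϖA)
        (Ideal.mul_mem_left _ _ (Ideal.subset_span (Set.mem_insert_of_mem _ rfl))))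
        (Ideal.mul_mem_right _ _ (Ideal.subset_span (Set.mem_insert _ _)))
    · rw [Ideal.span_le]
      rintro x (rfl | rfl)
      · exact (IsLocalRing.mem_maximalIdeal _).mpr hπprime.not_isUnit
      · rw [SetLike.mem_coe, IsLocalRing.mem_maximalIdeal, mem_nonunits_iff]
        intro hu
        have hu' : IsUnit (algebraMap B A z + π * 0) := by rwa [mul_zero, add_zero]
        have hz : z ∈ IsLocalRing.maximalIdeal B := by
          rw [hm]
          exact Ideal.subset_span (Set.mem_insert_of_mem _ rfl)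
        exact (IsLocalRing.mem_maximalIdeal _).mp hz ((hunit z 0).mp hu')
  have hdomA : IsDomain (A ⧸ Ideal.span {π}) := isDomain_quot hπprime
  have hpidA : IsPrincipalIdealRing (A ⧸ Ideal.span {π}) := isPrincipalIdealRing_quot hπprime hmA
  -- the normal form in the regular ring `A`
  obtain ⟨u, m, x, hfu⟩ := quot_exists_eq_unit_mul_pow_mul_pow (K := K) hπprime.ne_zero hp hf
    (fun g hg hgπ => by
      obtain ⟨a, b, τ, ha, hb, e⟩ := hord (Ideal.span {g})
        ((Ideal.span_singleton_prime hg.ne_zero).mpr hg)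
        (fun h => hgπ (Ideal.mem_span_singleton.mp h))
      exact ⟨a, b, τ, fun h => ha (Ideal.mem_span_singleton.mpr h),
        fun h => hb (Ideal.mem_span_singleton.mpr h), e⟩)
  -- the unit
  obtain ⟨b₀, a₁, hu₀⟩ := hdec (u : A)
  obtain ⟨b₁, g, hu₁⟩ := hdec a₁
  have hb₀ : IsUnit b₀ := (hunit b₀ a₁).mp (hu₀ ▸ u.isUnit)
  obtain ⟨w₀, hw₀⟩ := hb₀
  refine ⟨w₀, ((w₀⁻¹ : Bˣ) : B) * b₁, g, m, x, ?_⟩
  have hu : (u : A) = algebraMap B A w₀ * (1 + algebraMap B A (((w₀⁻¹ : Bˣ) : B) * b₁) * π)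
      + π ^ 2 * g := by
    have h1 : algebraMap B A (w₀ : B) * algebraMap B A (((w₀⁻¹ : Bˣ) : B) * b₁)
        = algebraMap B A b₁ := by
      rw [← map_mul, ← mul_assoc, Units.mul_inv, one_mul]
    rw [hu₀, hu₁, ← hw₀]
    linear_combination (-π) * h1
  rw [← hu]
  exact hfu

end Fermat.Agent.S44.L.SmoothNF
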