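import Mathlib
import Fermat.Agent.S44.L.AltChartRed

/-!
# PROGRAM MR (S44), strand L: base change of the C1 chart AT INFINITY

Mirror of `S44/L/AltChartBC.chart_u4_iff` / `exists_coords_u4` (helper270) at the coordinate
`(α u₄)⁻¹ = α (u₄⁻¹)` of level `M q`: for number fields `K ≤ K'` with `OE A K`, `OE A K'` discrete
valuation rings, `K ∋ ζ_M`, and a family `b : Fin r → OE A K'` with the four basis binders of
`S19/Cech/BCChart.isIntegral_iff_inSpan_lvl`,

  `Chart (OE A K') (α u₄)⁻¹ = ⊕ j, b j • lvl (Chart (OE A K) (α u₄)⁻¹)`.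

The reducedness of the special fibre of the chart at infinity over `OE A K` is
`AltChartRed.hrad_s4_OE` (no unramifiedness hypothesis: `ϖ` is ANY uniformiser of `OE A K`).

* `lvl_alpha_s4`, `lvl_alpha_s4'` : `lvl` maps the coordinate over `K` to the coordinate over `K'`.
* `chart_s4_iff`, `exists_coords_s4` : the base change statement and the coordinates, coordinate
  spelled `alphaHom M q K (u4E M K h4)⁻¹` (as in `NodeC1InstInf` / `AltChartRed`).
* `chart_s4_iff'`, `exists_coords_s4'` : the same with the coordinate spelled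
  `(alphaHom M q K (u4E M K h4))⁻¹` (the `u⁻¹` of `PthRootRam` / `HordInst` at `u := α u₄`).
-/

set_option autoImplicit false
set_option linter.unusedSectionVars false
set_option linter.unusedVariables false
set_option linter.style.haveILetI false
set_option synthInstance.maxHeartbeats 400000
set_option maxHeartbeats 1000000

open ModularCurve Polynomial

noncomputable section

namespace Fermat.Agent.S44.L.AltChartBCInf

open Fermat.Agent.S18.K1Defs Fermat.Agent.S18.K1Main Fermat.Agent.S30 Fermat.Agent.S30.Model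
open Fermat.Agent.S34 Fermat.Agent.S34.TwoPrimesGauss Fermat.Agent.S34.TwoPrimesRank
open Fermat.Agent.S34.HauptU.Plug Fermat.Agent.S34.HauptU.LevelMAux
open Fermat.Agent.S36.Haupt4 Fermat.Agent.S36.CycloBase
open Fermat.Agent.Lib.ChartBaseChange Fermat.Agent.S19.Cech.BCChart

local notation "Qb" => AlgebraicClosure ℚ

section Coordinate

variable (M q : ℕ) [NeZero M] [NeZero q]

/-- `lvl` maps the coordinate `α (u₄⁻¹)` over `K` to the coordinate `α (u₄⁻¹)` over `K'`. -/
theorem lvl_alpha_s4 {K K' : IntermediateField ℚ Qb} (h : K ≤ K') (h4 : 4 ∣ M) :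
    lvl (M * q) h (alphaHom M q K (u4E M K h4)⁻¹) = alphaHom M q K' (u4E M K' h4)⁻¹ := by
  rw [map_inv₀, map_inv₀, map_inv₀, Fermat.Agent.S44.L.AltChartBC.lvl_alpha_u4 M q h h4]

/-- `lvl` maps `(α u₄)⁻¹` over `K` to `(α u₄)⁻¹` over `K'`. -/
theorem lvl_alpha_s4' {K K' : IntermediateField ℚ Qb} (h : K ≤ K') (h4 : 4 ∣ M) :
    lvl (M * q) h (alphaHom M q K (u4E M K h4))⁻¹ = (alphaHom M q K' (u4E M K' h4))⁻¹ := by
  rw [map_inv₀, Fermat.Agent.S44.L.AltChartBC.lvl_alpha_u4 M q h h4]

end Coordinate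

section Arithmetic

variable (M q : ℕ) [NeZero M] [NeZero q] (A : ValuationSubring Qb)

/-- **Base change of the C1 chart at infinity.**  `K ≤ K'` number fields, `K ∋ ζ_M`, `b` a basis
of `OE A K'` over `OE A K` and of `LE (M q) K'` over `lvl (LE (M q) K)`, residue degree one.  Then

  `Chart (OE A K') (α u₄⁻¹) = ⊕ j, b j • lvl (Chart (OE A K) (α u₄⁻¹))`. -/
theorem chart_s4_iff (hq : q.Prime) (hodd : q ≠ 2) (hqM : ¬ q ∣ M) (h4 : 4 ∣ M)
    (hA : A.LiesOverPrime q) {K K' : IntermediateField ℚ Qb} (h : K ≤ K')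
    [FiniteDimensional ℚ K] [IsDiscreteValuationRing (OE A K)]
    [IsDiscreteValuationRing (OE A K')]
    (z : Qb) (hz : IsPrimitiveRoot z M) (hzK : z ∈ K)
    (ϖ : OE A K) (hϖ : Irreducible ϖ)
    {r : ℕ} (b : Fin r → OE A K')
    (hspanO : ∀ a : OE A K', ∃ a' : Fin r → OE A K, a = ∑ j, inclOE A h (a' j) * b j)
    (hres : ∀ a : OE A K', ∃ a' : OE A K, ¬ IsUnit (a - inclOE A h a'))
    (hindL : ∀ c : Fin r → LaurentSeries K,
      ∑ j, algebraMap K' (LaurentSeries K') ((b j : OE A K') : K') *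
        coeffMap (IntermediateField.inclusion h : K →+* K') (c j) = 0 → ∀ j, c j = 0)
    (hspanL : ∀ x : LaurentSeries K', x ∈ LE (M * q) K' → ∃ c : Fin r → LaurentSeries K,
      (∀ j, c j ∈ LE (M * q) K) ∧ x = ∑ j, algebraMap K' (LaurentSeries K') ((b j : OE A K') : K') *
        coeffMap (IntermediateField.inclusion h : K →+* K') (c j)) :
    letI := algebraOL (OE A K) K (LE (M * q) K)
    letI := algebraOL (OE A K') K' (LE (M * q) K')
    letI := (inclOE A h).toAlgebra
    ∀ x : LE (M * q) K',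
      IsIntegral (Algebra.adjoin (OE A K')
        ({alphaHom M q K' (u4E M K' h4)⁻¹} : Set (LE (M * q) K'))) x ↔
        InSpan (OE A K) (lvl (M * q) h) b
          ({alphaHom M q K (u4E M K h4)⁻¹} : Set (LE (M * q) K)) x := by
  letI := algebraOL (OE A K) K (LE (M * q) K)
  letI := algebraOL (OE A K') K' (LE (M * q) K')
  letI := (inclOE A h).toAlgebra
  intro x
  have key := isIntegral_iff_inSpan_lvl (M * q) A h b hspanO hres hindL hspanL ϖ hϖ
    ({alphaHom M q K (u4E M K h4)⁻¹} : Set (LE (M * q) K))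
    (Fermat.Agent.S44.L.AltChartRed.hrad_s4_OE A M q hq hodd hqM h4 hA K z hz hzK ϖ hϖ) x
  rw [Set.image_singleton, lvl_alpha_s4 M q h h4] at key
  exact key

/-- Existence of the coordinates at infinity: every element of the chart at infinity over
`OE A K'` is `∑ j, b j * lvl (c j)` with the `c j` in the chart at infinity over `OE A K`. -/
theorem exists_coords_s4 (hq : q.Prime) (hodd : q ≠ 2) (hqM : ¬ q ∣ M) (h4 : 4 ∣ M)
    (hA : A.LiesOverPrime q) {K K' : IntermediateField ℚ Qb} (h : K ≤ K')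
    [FiniteDimensional ℚ K] [IsDiscreteValuationRing (OE A K)]
    [IsDiscreteValuationRing (OE A K')]
    (z : Qb) (hz : IsPrimitiveRoot z M) (hzK : z ∈ K)
    (ϖ : OE A K) (hϖ : Irreducible ϖ)
    {r : ℕ} (b : Fin r → OE A K')
    (hspanO : ∀ a : OE A K', ∃ a' : Fin r → OE A K, a = ∑ j, inclOE A h (a' j) * b j)
    (hres : ∀ a : OE A K', ∃ a' : OE A K, ¬ IsUnit (a - inclOE A h a'))
    (hindL : ∀ c : Fin r → LaurentSeries K,
      ∑ j, algebraMap K' (LaurentSeries K') ((b j : OE A K') : K') *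
        coeffMap (IntermediateField.inclusion h : K →+* K') (c j) = 0 → ∀ j, c j = 0)
    (hspanL : ∀ x : LaurentSeries K', x ∈ LE (M * q) K' → ∃ c : Fin r → LaurentSeries K,
      (∀ j, c j ∈ LE (M * q) K) ∧ x = ∑ j, algebraMap K' (LaurentSeries K') ((b j : OE A K') : K') *
        coeffMap (IntermediateField.inclusion h : K →+* K') (c j)) :
    letI := algebraOL (OE A K) K (LE (M * q) K)
    letI := algebraOL (OE A K') K' (LE (M * q) K')
    ∀ x : LE (M * q) K',
      IsIntegral (Algebra.adjoin (OE A K')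
        ({alphaHom M q K' (u4E M K' h4)⁻¹} : Set (LE (M * q) K'))) x →
      ∃ c : Fin r → LE (M * q) K,
        (∀ j, IsIntegral (Algebra.adjoin (OE A K)
          ({alphaHom M q K (u4E M K h4)⁻¹} : Set (LE (M * q) K))) (c j)) ∧
        x = ∑ j, algebraMap (OE A K') (LE (M * q) K') (b j) * lvl (M * q) h (c j) := by
  letI := algebraOL (OE A K) K (LE (M * q) K)
  letI := algebraOL (OE A K') K' (LE (M * q) K')
  letI := (inclOE A h).toAlgebra
  intro x hx
  exact (chart_s4_iff M q A hq hodd hqM h4 hA h z hz hzK ϖ hϖ b hspanO hres hindL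
    hspanL x).mp hx

/-- `chart_s4_iff` with the coordinate spelled `(α u₄)⁻¹`. -/
theorem chart_s4_iff' (hq : q.Prime) (hodd : q ≠ 2) (hqM : ¬ q ∣ M) (h4 : 4 ∣ M)
    (hA : A.LiesOverPrime q) {K K' : IntermediateField ℚ Qb} (h : K ≤ K')
    [FiniteDimensional ℚ K] [IsDiscreteValuationRing (OE A K)]
    [IsDiscreteValuationRing (OE A K')]
    (z : Qb) (hz : IsPrimitiveRoot z M) (hzK : z ∈ K)
    (ϖ : OE A K) (hϖ : Irreducible ϖ)
    {r : ℕ} (b : Fin r → OE A K')
    (hspanO : ∀ a : OE A K', ∃ a' : Fin r → OE A K, a = ∑ j, inclOE A h (a' j) * b j)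
    (hres : ∀ a : OE A K', ∃ a' : OE A K, ¬ IsUnit (a - inclOE A h a'))
    (hindL : ∀ c : Fin r → LaurentSeries K,
      ∑ j, algebraMap K' (LaurentSeries K') ((b j : OE A K') : K') *
        coeffMap (IntermediateField.inclusion h : K →+* K') (c j) = 0 → ∀ j, c j = 0)
    (hspanL : ∀ x : LaurentSeries K', x ∈ LE (M * q) K' → ∃ c : Fin r → LaurentSeries K,
      (∀ j, c j ∈ LE (M * q) K) ∧ x = ∑ j, algebraMap K' (LaurentSeries K') ((b j : OE A K') : K') *
        coeffMap (IntermediateField.inclusion h : K →+* K') (c j)) :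
    letI := algebraOL (OE A K) K (LE (M * q) K)
    letI := algebraOL (OE A K') K' (LE (M * q) K')
    letI := (inclOE A h).toAlgebra
    ∀ x : LE (M * q) K',
      IsIntegral (Algebra.adjoin (OE A K')
        ({(alphaHom M q K' (u4E M K' h4))⁻¹} : Set (LE (M * q) K'))) x ↔
        InSpan (OE A K) (lvl (M * q) h) b
          ({(alphaHom M q K (u4E M K h4))⁻¹} : Set (LE (M * q) K)) x := by
  letI := algebraOL (OE A K) K (LE (M * q) K)
  letI := algebraOL (OE A K') K' (LE (M * q) K')
  letI := (inclOE A h).toAlgebra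
  intro x
  have key := chart_s4_iff M q A hq hodd hqM h4 hA h z hz hzK ϖ hϖ b hspanO hres hindL
    hspanL x
  rw [map_inv₀, map_inv₀] at key
  exact key

/-- `exists_coords_s4` with the coordinate spelled `(α u₄)⁻¹`. -/
theorem exists_coords_s4' (hq : q.Prime) (hodd : q ≠ 2) (hqM : ¬ q ∣ M) (h4 : 4 ∣ M)
    (hA : A.LiesOverPrime q) {K K' : IntermediateField ℚ Qb} (h : K ≤ K')
    [FiniteDimensional ℚ K] [IsDiscreteValuationRing (OE A K)]
    [IsDiscreteValuationRing (OE A K')]
    (z : Qb) (hz : IsPrimitiveRoot z M) (hzK : z ∈ K)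
    (ϖ : OE A K) (hϖ : Irreducible ϖ)
    {r : ℕ} (b : Fin r → OE A K')
    (hspanO : ∀ a : OE A K', ∃ a' : Fin r → OE A K, a = ∑ j, inclOE A h (a' j) * b j)
    (hres : ∀ a : OE A K', ∃ a' : OE A K, ¬ IsUnit (a - inclOE A h a'))
    (hindL : ∀ c : Fin r → LaurentSeries K,
      ∑ j, algebraMap K' (LaurentSeries K') ((b j : OE A K') : K') *
        coeffMap (IntermediateField.inclusion h : K →+* K') (c j) = 0 → ∀ j, c j = 0)
    (hspanL : ∀ x : LaurentSeries K', x ∈ LE (M * q) K' → ∃ c : Fin r → LaurentSeries K,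
      (∀ j, c j ∈ LE (M * q) K) ∧ x = ∑ j, algebraMap K' (LaurentSeries K') ((b j : OE A K') : K') *
        coeffMap (IntermediateField.inclusion h : K →+* K') (c j)) :
    letI := algebraOL (OE A K) K (LE (M * q) K)
    letI := algebraOL (OE A K') K' (LE (M * q) K')
    ∀ x : LE (M * q) K',
      IsIntegral (Algebra.adjoin (OE A K')
        ({(alphaHom M q K' (u4E M K' h4))⁻¹} : Set (LE (M * q) K'))) x →
      ∃ c : Fin r → LE (M * q) K,
        (∀ j, IsIntegral (Algebra.adjoin (OE A K)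
          ({(alphaHom M q K (u4E M K h4))⁻¹} : Set (LE (M * q) K))) (c j)) ∧
        x = ∑ j, algebraMap (OE A K') (LE (M * q) K') (b j) * lvl (M * q) h (c j) := by
  letI := algebraOL (OE A K) K (LE (M * q) K)
  letI := algebraOL (OE A K') K' (LE (M * q) K')
  letI := (inclOE A h).toAlgebra
  intro x hx
  exact (chart_s4_iff' M q A hq hodd hqM h4 hA h z hz hzK ϖ hϖ b hspanO hres hindL
    hspanL x).mp hx

end Arithmetic

end Fermat.Agent.S44.L.AltChartBCInf
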