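import Mathlib
import Fermat.Agent.S44.L.KummerInst
import Fermat.Agent.S19.Cech.LaurentBC

/-!
# S44 (Mazur–Ribet), strand L, cover-free ALT: the power basis `1, ϖs, …, ϖs ^ (p - 1)`

The four basis binders `hspanO`, `hres`, `hindL`, `hspanL` of `S19/Cech/BCChart.isIntegral_iff_inSpan_lvl`
(= of `S44/L/AltChartBC.chart_u4_iff` / `exists_coords_u4`, of `Alt/HordInst` and of
`NZ/HfrRam.hfr_jE_of_base`) at the family `b j = ϖs ^ j`, `j < p`, `r = p`, where `ϖs` is the
uniformiser of the Eisenstein case.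

* General form (the vocabulary of `KummerBase`): `A` over `p`, `π ∈ E'` with `|π| ^ p = |p|`,
  `K ≤ E'` a number field inside the inertia field, and every element of `E'` a `K`-combination
  of `π ^ i`, `i < p` (`hexp`).  For EVERY `ϖs : OE A E'` with underlying number `π`:
  `hind_field`, `hspan_field` (field level), `hspanO`, `hres`, `hindL`, `hspanL`.
* `basis_binders` : the four binders in the binder block of `KummerInst.exists_binders`
  (`E' = CycloBase.cyclo K b`, `π = b / c - 1`), for the `ϖs` returned there (any `ϖs` with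
  underlying number `b / c - 1`).
-/

set_option autoImplicit false
set_option linter.unusedVariables false
set_option linter.unusedSectionVars false

open scoped IntermediateField
open Polynomial

noncomputable section

namespace Fermat.Agent.S44.L.KummerBasis

local notation "Qb" => AlgebraicClosure ℚ

open Fermat.Agent.S18.K1Defs Fermat.Agent.S36.UnramBase Fermat.Agent.S30
open Fermat.Agent.S36 Fermat.Agent.S44.L ModularCurve

section General

variable (A : ValuationSubring Qb) {p : ℕ} (hp : p.Prime) (hA : A.LiesOverPrime p)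
  {π : Qb} (hval : A.valuation π ^ p = A.valuation (p : Qb))
  (E' : IntermediateField ℚ Qb)
  (K : IntermediateField ℚ Qb) [FiniteDimensional ℚ K]
  (hK : A.inertiaSubgroupIn ℚ ≤ K.fixingSubgroup) (hKE : K ≤ E')
  (hexp : ∀ y ∈ E', ∃ c : ℕ → K, y = ∑ i ∈ Finset.range p, ((c i : K) : Qb) * π ^ i)
  (ϖs : OE A E') (hϖs : (((ϖs : OE A E') : E') : Qb) = π)

include hϖs in
/-- The underlying number of a power of `ϖs`. -/
theorem coe_pow_eq (j : ℕ) :
    algebraMap E' Qb (((ϖs ^ j : OE A E') : E')) = π ^ j := by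
  have h1 : ((ϖs ^ j : OE A E') : E') = ((ϖs : OE A E') : E') ^ j := rfl
  rw [h1, map_pow, ← hϖs]
  rfl

include hp hA hK hval hϖs in
/-- **Independence over `K`** of `1, ϖs, …, ϖs ^ (p - 1)` (field level). -/
theorem hind_field (c : Fin p → K)
    (hc : ∑ j : Fin p, ((ϖs ^ (j : ℕ) : OE A E') : E') * IntermediateField.inclusion hKE (c j)
      = 0) : ∀ j, c j = 0 := by
  classical
  set c' : ℕ → K := fun i => if h : i < p then c ⟨i, h⟩ else 0 with hc'
  have hcj : ∀ j : Fin p, c' (j : ℕ) = c j := by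
    intro j
    rw [hc']
    simp only [j.2, dite_true, Fin.eta]
  have hsum : ∑ i ∈ Finset.range p, ((c' i : K) : Qb) * π ^ i = 0 := by
    rw [Finset.sum_range]
    have h1 : (algebraMap E' Qb) (∑ j : Fin p, ((ϖs ^ (j : ℕ) : OE A E') : E') *
        IntermediateField.inclusion hKE (c j)) = 0 := by rw [hc, map_zero]
    rw [map_sum] at h1
    rw [← h1]
    refine Finset.sum_congr rfl fun j _ => ?_
    rw [map_mul, coe_pow_eq A E' ϖs hϖs, hcj j, mul_comm]
    rfl
  have hπ0 : π ≠ 0 := KummerBase.pi_ne_zero A hp hval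
  intro j
  have h2 := (KummerBase.val_sum_distinct A hp hA K hK hval c').1 (j : ℕ)
    (Finset.mem_range.mpr j.2)
  rw [hsum, map_zero] at h2
  have h3 : A.valuation (((c' (j : ℕ) : K) : Qb) * π ^ (j : ℕ)) = 0 := le_antisymm h2 zero_le
  rw [Valuation.zero_iff] at h3
  rcases mul_eq_zero.mp h3 with h4 | h4
  · rw [← hcj j]
    exact Subtype.ext h4
  · exact absurd h4 (pow_ne_zero _ hπ0)

include hexp hϖs in
/-- **Span over `K`** by `1, ϖs, …, ϖs ^ (p - 1)` (field level). -/
theorem hspan_field (x : E') :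
    ∃ c : Fin p → K, x = ∑ j : Fin p, ((ϖs ^ (j : ℕ) : OE A E') : E') *
      IntermediateField.inclusion hKE (c j) := by
  obtain ⟨c, hc⟩ := hexp (x : Qb) x.2
  refine ⟨fun j => c (j : ℕ), ?_⟩
  apply (algebraMap E' Qb).injective
  rw [map_sum]
  refine Eq.trans (hc.trans (Finset.sum_range _)) ?_
  refine Finset.sum_congr rfl fun j _ => ?_
  rw [map_mul, coe_pow_eq A E' ϖs hϖs, mul_comm]
  rfl

include hp hA hK hval hϖs in
/-- **`hindL`** at `b j = ϖs ^ j`. -/
theorem hindL (c : Fin p → LaurentSeries K)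
    (hc : ∑ j : Fin p, algebraMap E' (LaurentSeries E') (((ϖs ^ (j : ℕ) : OE A E') : E')) *
      coeffMap (IntermediateField.inclusion hKE : K →+* E') (c j) = 0) : ∀ j, c j = 0 :=
  Fermat.Agent.S19.Cech.LaurentBC.coords_unique hKE
    (fun j : Fin p => ((ϖs ^ (j : ℕ) : OE A E') : E'))
    (hind_field A hp hA hval E' K hK hKE ϖs hϖs) c hc

include hexp hϖs in
/-- **`hspanL`** at `b j = ϖs ^ j`, every level `M`. -/
theorem hspanL (M : ℕ) (x : LaurentSeries E') (hx : x ∈ LE M E') :
    ∃ c : Fin p → LaurentSeries K, (∀ j, c j ∈ LE M K) ∧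
      x = ∑ j : Fin p, algebraMap E' (LaurentSeries E') (((ϖs ^ (j : ℕ) : OE A E') : E')) *
        coeffMap (IntermediateField.inclusion hKE : K →+* E') (c j) :=
  Fermat.Agent.S19.Cech.LaurentBC.exists_coords M hKE
    (fun j : Fin p => ((ϖs ^ (j : ℕ) : OE A E') : E'))
    (hspan_field A E' K hKE hexp ϖs hϖs) x hx

include hp hA hK hval hexp hϖs in
/-- **`hspanO`** at `b j = ϖs ^ j`. -/
theorem hspanO (y : OE A E') :
    ∃ a : Fin p → OE A K, y = ∑ j : Fin p, CycloBase.inclOE A hKE (a j) * ϖs ^ (j : ℕ) := by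
  have hπE : π ∈ E' := by
    rw [← hϖs]
    exact ((ϖs : OE A E') : E').2
  obtain rfl : ϖs = KummerBase.piO A hA hval E' hπE := Subtype.ext (Subtype.ext hϖs)
  obtain ⟨a, ha⟩ := KummerBase.exists_expansion_OE A hp hA hval E' hπE K hK hKE hexp y
  refine ⟨fun j => a (j : ℕ), ?_⟩
  rw [ha, Finset.sum_range]

include hp hA hK hval hexp hϖs in
/-- **`hres`** (residue degree one). -/
theorem hres (y : OE A E') : ∃ a : OE A K, ¬ IsUnit (y - CycloBase.inclOE A hKE a) := by
  have hπE : π ∈ E' := by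
    rw [← hϖs]
    exact ((ϖs : OE A E') : E').2
  obtain ⟨a, ha⟩ := KummerBase.exists_sub_inclOE A hp hA hval E' hπE K hK hKE hexp y
  exact ⟨a, (KummerBase.piO_dvd_iff A hp hA hval E' hπE K hK hexp _).mp ha⟩

end General

/-- **The four basis binders of the Eisenstein case** at `b j = ϖs ^ j` (`j < p`), in the binder
block of `KummerInst.exists_binders`: `O = OE A K`, `Os = OE A (CycloBase.cyclo K b)`, `ϖs` ANY
element of `Os` with underlying number `b / c - 1` (so the `ϖs` of `KummerInst.exists_binders`).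
These are `hspanO`, `hres`, `hindL`, `hspanL` of `BCChart.isIntegral_iff_inSpan_lvl` /
`AltChartBC.exists_coords_u4` (every level `M`). -/
theorem basis_binders (A : ValuationSubring Qb) {p : ℕ} (hp : p.Prime)
    (hA : A.LiesOverPrime p) (K : IntermediateField ℚ Qb) [FiniteDimensional ℚ K]
    (hK : A.inertiaSubgroupIn ℚ ≤ K.fixingSubgroup) {b c w : Qb} (hcK : c ∈ K)
    (hc : A.valuation c = 1) (hwK : w ∈ K) (hw : A.valuation w = 1)
    (hbc : (b / c) ^ p = 1 + (p : Qb) * w)
    (hval : A.valuation (b / c - 1) ^ p = A.valuation (p : Qb))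
    (ϖs : OE A (CycloBase.cyclo K b))
    (hϖs : (((ϖs : OE A (CycloBase.cyclo K b)) : CycloBase.cyclo K b) : Qb) = b / c - 1) :
    (∀ y : OE A (CycloBase.cyclo K b), ∃ a : Fin p → OE A K,
      y = ∑ j : Fin p, CycloBase.inclOE A (CycloBase.le_cyclo K b) (a j) * ϖs ^ (j : ℕ)) ∧
    (∀ y : OE A (CycloBase.cyclo K b), ∃ a : OE A K,
      ¬ IsUnit (y - CycloBase.inclOE A (CycloBase.le_cyclo K b) a)) ∧
    (∀ c' : Fin p → LaurentSeries K,
      ∑ j : Fin p, algebraMap (CycloBase.cyclo K b) (LaurentSeries (CycloBase.cyclo K b))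
          (((ϖs ^ (j : ℕ) : OE A (CycloBase.cyclo K b)) : CycloBase.cyclo K b)) *
        coeffMap (IntermediateField.inclusion (CycloBase.le_cyclo K b) :
          K →+* CycloBase.cyclo K b) (c' j) = 0 → ∀ j, c' j = 0) ∧
    (∀ (M : ℕ) (x : LaurentSeries (CycloBase.cyclo K b)), x ∈ LE M (CycloBase.cyclo K b) →
      ∃ c' : Fin p → LaurentSeries K, (∀ j, c' j ∈ LE M K) ∧
        x = ∑ j : Fin p, algebraMap (CycloBase.cyclo K b) (LaurentSeries (CycloBase.cyclo K b))
            (((ϖs ^ (j : ℕ) : OE A (CycloBase.cyclo K b)) : CycloBase.cyclo K b)) *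
          coeffMap (IntermediateField.inclusion (CycloBase.le_cyclo K b) :
            K →+* CycloBase.cyclo K b) (c' j)) := by
  have hc0 : c ≠ 0 := by
    intro h0
    rw [h0, map_zero] at hc
    exact zero_ne_one hc
  have hbc' : (b / c) ^ p = 1 + (p : Qb) * (((⟨w, hwK⟩ : K)) : Qb) := hbc
  have hexp : ∀ y ∈ CycloBase.cyclo K b, ∃ a : ℕ → K,
      y = ∑ i ∈ Finset.range p, ((a i : K) : Qb) * (b / c - 1) ^ i :=
    fun y hy => KummerBase.exists_expansion_kummer K hp.ne_zero hcK hc0 ⟨w, hwK⟩ hbc' y hy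
  exact ⟨hspanO A hp hA hval (CycloBase.cyclo K b) K hK (CycloBase.le_cyclo K b) hexp ϖs hϖs,
    hres A hp hA hval (CycloBase.cyclo K b) K hK (CycloBase.le_cyclo K b) hexp ϖs hϖs,
    hindL A hp hA hval (CycloBase.cyclo K b) K hK (CycloBase.le_cyclo K b) ϖs hϖs,
    fun M => hspanL A (CycloBase.cyclo K b) K (CycloBase.le_cyclo K b) hexp ϖs hϖs M⟩

end Fermat.Agent.S44.L.KummerBasis
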