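import Mathlib
import Fermat.Agent.S44.L.Top
import Fermat.Agent.S44.L.EisFormal
import Fermat.Agent.S30.AuxLevel.Mem

/-!
# PROGRAM MR (S44), strand L: the Eisenstein function `D = Δ(q)/Δ(q^p)` of level `N' p`

Top file of the sub-brick `MR.L.EisFun` (MR RULING #2), on the formal half
`S44/L/EisFormal.lean` (helper51).

* `eisD_mem`       : `D = Δ(q)/Δ(q^p) ∈ ℚ̄(j(q^d) : d ∣ M)` whenever the prime `p` divides `M`
  (`Δ(q^p)/Δ(q)` is a weight-zero quotient of rational modular forms on `Γ₀(p)`: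
  `S28.SturmMF.qExpand_delta_div_mem`, and such quotients lie in `ℚ(j(q), j(q^p))`:
  `S30.AuxLevel.field_le_full`).
* `eisFun N' p hp` : `D` as an element of `FN (N' * p)`; `eisFun_ne_zero`.
* `heckeFb_eisFun` : `T_ℓ D = D^(ℓ+1)` for the multiplicative Hecke operator `E4.heckeFb`,
  `ℓ ∤ N' p` prime (exactly: `c = 1`, `k = 1` in `Top.SlopeStatement`).
* `redAt_eisFun`   : `Top.RedAt (N' * p) A D (Δ̄ · (Δ̄^p)⁻¹)`, `Δ̄ = deltaL κ`.
-/

set_option autoImplicit false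

noncomputable section

open HahnSeries ModularCurve

namespace Fermat.Agent.S44.L.EisFun

open Fermat.Agent.S30 Fermat.Agent.S30.Producer Fermat.Agent.S44.Contract
open Fermat.Agent.S44.L.EisFormal
open Fermat.Agent.S28.SturmMF Fermat.Agent.S28.SturmDep

/-! ### Membership in the function field -/

theorem expand_eq_qExpand' {R : Type*} [CommRing R] (ℓ : ℕ) [NeZero ℓ] (hℓ : 0 < ℓ)
    (x : LaurentSeries R) : Congr.expand ℓ hℓ x = qExpand R ℓ x := by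
  ext n
  by_cases hn : (ℓ : ℤ) ∣ n
  · obtain ⟨m, rfl⟩ := hn
    rw [Congr.coeff_expand_mul, qExpand_coeff_mul]
  · rw [Congr.coeff_expand_of_not_dvd ℓ hℓ _ hn, qExpand_coeff_of_not_dvd _ _ hn]

/-- The formal `Δ` over `ℚ` is the `q`-expansion `deltaQ` of the discriminant form. -/
theorem deltaL_rat : deltaL ℚ = Graded.emb deltaQ := by
  rw [deltaQ, map_mul, HahnSeries.ofPowerSeries_X, dedekindEtaUnit, map_pow, map_pow]
  rfl

/-- `D = Δ(q)/Δ(q^p)` is a weight-zero quotient of rational modular forms on `Γ₀(p)`. -/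
theorem eisD_rat_mem_field (p : ℕ) [NeZero p] (hp : 0 < p) :
    eisD ℚ p hp ∈ (mfGraded p).field := by
  have h := (mfGraded p).field.inv_mem (qExpand_delta_div_mem p (dvd_refl p))
  rw [inv_div] at h
  rw [eisD, deltaL_rat, expand_eq_qExpand']
  exact h

/-- `D = Δ(q)/Δ(q^p) ∈ ℚ(j(q), j(q^p))`. -/
theorem eisD_rat_mem_full (p : ℕ) [NeZero p] (hp : p.Prime) :
    eisD ℚ p hp.pos ∈ modularFunctionFieldFull p :=
  Fermat.Agent.S30.AuxLevel.field_le_full p hp (eisD_rat_mem_field p hp.pos)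

theorem coeffEmb_eisD (L : Type*) [Field L] [Algebra ℚ L] (p : ℕ) (hp : 0 < p) :
    coeffEmb L (eisD ℚ p hp) = eisD L p hp := by
  unfold eisD coeffEmb
  rw [map_div₀, coeffMap_deltaL, Congr.coeffMap_expand, coeffMap_deltaL]

/-- **Membership**: `D = Δ(q)/Δ(q^p)` lies in the function field of level `M` over `ℚ̄`
whenever the prime `p` divides `M`. -/
theorem eisD_mem (p : ℕ) [NeZero p] (hp : p.Prime) (M : ℕ) [NeZero M] (h : p ∣ M) :
    eisD Qb p hp.pos ∈ modularFunctionFieldBar M := by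
  rw [← coeffEmb_eisD Qb p hp.pos]
  exact coeffEmb_mem_laurentBaseChange Qb (full_degeneracy_le h (eisD_rat_mem_full p hp))

/-! ### The Eisenstein function of level `N' p` -/

/-- **The Eisenstein function** `D = Δ(q)/Δ(q^p)` of level `N' p`. -/
def eisFun (N' p : ℕ) [NeZero N'] [NeZero p] (hp : p.Prime) : FN (N' * p) :=
  ⟨eisD Qb p hp.pos, eisD_mem p hp (N' * p) (Dvd.intro_left N' rfl)⟩

variable (N' p : ℕ) [NeZero N'] [NeZero p] (hp : p.Prime)

@[simp]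
theorem coe_eisFun :
    ((eisFun N' p hp : FN (N' * p)) : LaurentSeries Qb) = eisD Qb p hp.pos := rfl

theorem eisFun_ne_zero : eisFun N' p hp ≠ 0 := by
  intro h
  have h1 := congrArg (fun x : FN (N' * p) => (x : LaurentSeries Qb)) h
  simp only [coe_eisFun] at h1
  exact eisD_ne_zero p hp.pos h1

/-- **`T_ℓ D = D^(ℓ+1)`** for every prime `ℓ ∤ N' p`. -/
theorem heckeFb_eisFun {ℓ : ℕ} (hℓ : ℓ.Prime) (hℓN : ¬ ℓ ∣ N' * p) :
    E4.heckeFb (N' * p) ℓ (eisFun N' p hp) = eisFun N' p hp ^ (ℓ + 1) := by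
  apply Subtype.ext
  have hℓp : ¬ ℓ ∣ p := fun h => hℓN (Dvd.dvd.mul_left h N')
  rw [E4.coe_heckeFb (N' * p) hℓ hℓN, coe_eisFun,
    heckeMul_eisD hℓ hp.pos hℓp (E4.zetaU ℓ) (E4.zetaU_spec hℓ.pos)]
  rfl

/-- The Hecke clause of `Top.SlopeStatement` for `D` (`c = 1`, `k = 1`). -/
theorem heckeFb_eisFun_slope {ℓ : ℕ} (hℓ : ℓ.Prime) (hℓN : ¬ ℓ ∣ N' * p) :
    ∃ (c : Qb) (k : FN (N' * p)),
      E4.heckeFb (N' * p) ℓ (eisFun N' p hp)
        = algebraMap Qb (FN (N' * p)) c * eisFun N' p hp ^ (ℓ + 1) * k ^ p :=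
  ⟨1, 1, by rw [heckeFb_eisFun N' p hp hℓ hℓN, map_one, one_mul, one_pow, mul_one]⟩

/-- **Reduction of `D`**: `D̄ = Δ̄ · (Δ̄^p)⁻¹ = Δ̄^(1-p)`. -/
theorem redAt_eisFun (A : ValuationSubring Qb) (hA : A.LiesOverPrime p) :
    Top.RedAt (N' * p) A (eisFun N' p hp)
      (deltaL (IsLocalRing.ResidueField A) * (deltaL (IsLocalRing.ResidueField A) ^ p)⁻¹) := by
  haveI : Fact p.Prime := ⟨hp⟩
  obtain ⟨hU, hV, hrU, hrV, hne⟩ := red_eisD A p hA hp.pos
  have hnep : deltaL (IsLocalRing.ResidueField A) ^ p ≠ 0 := pow_ne_zero p hne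
  refine ⟨1, deltaL A, Congr.expand p hp.pos (deltaL A), one_ne_zero, ?_, ?_, ?_, ?_⟩
  · rw [hrU]
    exact hne
  · rw [hrV]
    exact hnep
  · rw [coe_eisFun, hV, hU, map_one, one_mul, eisD]
    exact div_mul_cancel₀ _ (expand_deltaL_ne_zero p hp.pos)
  · rw [hrV, hrU, mul_assoc, inv_mul_cancel₀ hnep, mul_one]

/-- `Δ̄ · (Δ̄^p)⁻¹ = Δ̄^(1-p)`. -/
theorem deltaL_mul_inv_pow_eq_zpow (κ : Type*) [Field κ] (p : ℕ) :
    deltaL κ * (deltaL κ ^ p)⁻¹ = deltaL κ ^ (1 - (p : ℤ)) := by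
  rw [zpow_sub₀ deltaL_ne_zero, zpow_one, zpow_natCast, div_eq_mul_inv]

end Fermat.Agent.S44.L.EisFun
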