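import Mathlib
import Fermat.Agent.S28.RowExists
import Fermat.Agent.S28.Char0
import Fermat.Agent.S44.L.EisFun

/-!
# PROGRAM MR (S44), strand L: `D = Δ(q)/Δ(q^p)` and `D⁻¹` are integral over `ℚ̄[j]`

`D` is a modular unit: a unit of the integral closure of `ℚ̄[j]`, hence a unit of every
valuation subring of the function field containing the constants and `j` (every FINITE place).
No analysis and no Fricke relation here: the file is a consequence of the symmetric-function
theorem of S28 (`RowExists.exists_rowSystem`: for every integer polynomial `P` in the generators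
`j(q^d)`, `Δ(q^d)/Δ(q)`, `Δ(q)/Δ(q^d)` (`d ∣ N`), the elementary symmetric functions of the
conjugates of `P` over the cosets of `Γ₀(N)` are polynomials in `j`) and of the `ℂ → ℚ`
descent of `S28/Char0`.

* `exists_monic_rel`       : every `ev ℚ N P` is a root of a monic polynomial over `ℚ[j]`.
* `exists_monic_rel_field` : the same over any field `K` of characteristic zero.
* `isIntegral_ev`          : `ev K N P` is integral over `K[j] = Algebra.adjoin K {j}`.
* `eisD_eq_ev`, `eisD_inv_eq_ev` : `D` and `D⁻¹` are the S28 generators `y p` and `x p`.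
* `exists_monic_rel_eisD(_inv)`, `isIntegral_eisD(_inv)` : `D` and `D⁻¹` are integral over
  `K[j]` (`q`-series level, any field `K` of characteristic zero).
* `isIntegral_eisFun(_inv)` : the same in `FN (N' p)` over `ℚ̄[j]`.
* `mem_valuationSubring_of_isIntegral_adjoin`, `eisFun_mem_and_inv_mem` : `eisFun` and its
  inverse lie in every valuation subring of `FN (N' p)` containing the constants and `j`.
-/

set_option autoImplicit false

noncomputable section

open HahnSeries ModularCurve Polynomial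

namespace Fermat.Agent.S44.L.EisInt

open Fermat.Agent.S28.Defs Fermat.Agent.S28.Char0
open Fermat.Agent.S44.L.EisFormal
open Fermat.Agent.S30 Fermat.Agent.S30.Producer

theorem zetaC_pow_self (N : ℕ) [NeZero N] : zetaC N ^ N = 1 := by
  apply Units.ext
  rw [Units.val_pow_eq_pow_val, Units.val_one]
  exact (Complex.isPrimitiveRoot_exp N (NeZero.ne N)).pow_eq_one

/-- Every `ev ℂ N P` is a root of a monic polynomial over `ℂ[j]`. -/
theorem exists_monic_rel_complex (N : ℕ) [NeZero N] (P : MvPolynomial (Gen N) ℤ) :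
    ∃ Q : ℂ[X][X], Q.Monic ∧
      Q.eval₂ (Polynomial.eval₂RingHom HahnSeries.C (jqModC ℂ)) (ev ℂ N P) = 0 := by
  classical
  obtain ⟨S, hC⟩ := Fermat.Agent.S28.RowExists.exists_rowSystem N
  have hN : N ≠ 0 := NeZero.ne N
  have hν : (N : ℂ) * (N : ℂ)⁻¹ = 1 := mul_inv_cancel₀ (Nat.cast_ne_zero.mpr hN)
  set g₀ : ℂ[X] →+* LaurentSeries ℂ := eval₂RingHom HahnSeries.C (jqModC ℂ) with hg₀
  set g : ℂ[X] →+* LaurentSeries ℂ := eval₂RingHom HahnSeries.C (qE ℂ N (jqModC ℂ)) with hg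
  have hgg : g = (qE ℂ N).comp g₀ := by
    apply Polynomial.ringHom_ext
    · intro a
      rw [hg, hg₀, RingHom.comp_apply, coe_eval₂RingHom, coe_eval₂RingHom, eval₂_C, eval₂_C, qE_C]
    · rw [hg, hg₀, RingHom.comp_apply, coe_eval₂RingHom, coe_eval₂RingHom, eval₂_X, eval₂_X]
  have h1 : ∀ k, (Finset.univ.val.map fun q => S.sig ℂ (zetaC N) ((N : ℂ)⁻¹) q P).esymm k
      ∈ g.range := by
    intro k
    obtain ⟨p, hp⟩ := hC P k
    exact ⟨p, by rw [hp, hg, coe_eval₂RingHom]⟩
  have h2 : ∀ n, ∑ q, S.sig ℂ (zetaC N) ((N : ℂ)⁻¹) q 0 * S.sig ℂ (zetaC N) ((N : ℂ)⁻¹) q P ^ n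
      ∈ g.range := by
    intro n
    refine ⟨0, ?_⟩
    simp
  obtain ⟨Q, H, hQ1, -, hQ3, -⟩ := lagrange_lift g
    (fun q => S.sig ℂ (zetaC N) ((N : ℂ)⁻¹) q P) (fun q => S.sig ℂ (zetaC N) ((N : ℂ)⁻¹) q 0)
    S.one h1 h2
  refine ⟨Q, hQ1, ?_⟩
  apply qE_injective ℂ N hN
  rw [map_zero, hom_eval₂, ← hgg, ← sig_one hN S (zetaC N) _ (zetaC_pow_self N) hν]
  exact hQ3

/-- **Every `ev ℚ N P` is a root of a monic polynomial over `ℚ[j]`.** -/
theorem exists_monic_rel (N : ℕ) [NeZero N] (P : MvPolynomial (Gen N) ℤ) :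
    ∃ Q : ℚ[X][X], Q.Monic ∧
      Q.eval₂ (Polynomial.eval₂RingHom HahnSeries.C jq) (ev ℚ N P) = 0 := by
  obtain ⟨Φ, hΦ⟩ := exists_functional
  obtain ⟨Q, hQ1, hQ3⟩ := exists_monic_rel_complex N P
  obtain ⟨hm1, -⟩ := polyMapAdd2_monic Φ hΦ Q hQ1
  refine ⟨polyMapAdd (polyMapAdd Φ.toAddMonoidHom) Q, hm1, ?_⟩
  have hjC : jqModC ℂ = coeffMap (algebraMap ℚ ℂ) jq := (coeffMap_jqModC (algebraMap ℚ ℂ)).symm
  have hevC : ev ℂ N P = coeffMap (algebraMap ℚ ℂ) (ev ℚ N P) :=
    (coeffMap_ev (algebraMap ℚ ℂ) N P).symm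
  have h := descent Φ jq (ev ℚ N P) 1 Q
  rw [← hjC, ← hevC, hQ3, mul_zero, map_zero, one_mul] at h
  exact h.symm

/-- **Every `ev K N P` is a root of a monic polynomial over `K[j]`**, `K` any field of
characteristic zero. -/
theorem exists_monic_rel_field (K : Type*) [Field K] [CharZero K] (N : ℕ) [NeZero N]
    (P : MvPolynomial (Gen N) ℤ) :
    ∃ Q : K[X][X], Q.Monic ∧
      Q.eval₂ (Polynomial.eval₂RingHom HahnSeries.C (jqModC K)) (ev K N P) = 0 := by
  obtain ⟨Q, hQ, h0⟩ := exists_monic_rel N P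
  refine ⟨Q.map (mapRingHom (algebraMap ℚ K)), hQ.map _, ?_⟩
  have hj : coeffMap (algebraMap ℚ K) jq = jqModC K := coeffMap_jqModC (algebraMap ℚ K)
  have h := coeffMap_eval₂ (algebraMap ℚ K) jq (ev ℚ N P) Q
  rw [h0, map_zero, hj, coeffMap_ev] at h
  exact h.symm

/-- A monic relation over `K[j]` (in `eval₂RingHom`/`aeval` form) gives integrality over the
subalgebra `K[j]`. -/
theorem isIntegral_adjoin_of_monic_rel {K L : Type*} [Field K] [CommRing L] [Algebra K L]
    (j u : L) (Q : K[X][X]) (hQ : Q.Monic)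
    (h : Q.eval₂ ((Polynomial.aeval j : K[X] →ₐ[K] L) : K[X] →+* L) u = 0) :
    IsIntegral (Algebra.adjoin K {j}) u := by
  set φ : K[X] →+* ↥(Algebra.adjoin K {j}) :=
    ((Polynomial.aeval (⟨j, Algebra.subset_adjoin rfl⟩ : ↥(Algebra.adjoin K {j})) :
      K[X] →ₐ[K] ↥(Algebra.adjoin K {j})) : K[X] →+* ↥(Algebra.adjoin K {j})) with hφ
  have hcomp : (algebraMap ↥(Algebra.adjoin K {j}) L).comp φ
      = ((Polynomial.aeval j : K[X] →ₐ[K] L) : K[X] →+* L) := by
    apply Polynomial.ringHom_ext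
    · intro a
      simp [hφ]
    · simp [hφ]
  refine ⟨Q.map φ, hQ.map φ, ?_⟩
  rw [eval₂_map, hcomp]
  exact h

theorem algebraMap_eq_C_laurent (K : Type*) [Field K] (a : K) :
    algebraMap K (LaurentSeries K) a = HahnSeries.C a := by
  have h1 : algebraMap K (PowerSeries K) a = PowerSeries.C a := by simp
  rw [HahnSeries.algebraMap_apply', h1, HahnSeries.ofPowerSeries_C]

theorem eval₂RingHom_C_eq_aeval (K : Type*) [Field K] (j : LaurentSeries K) :
    Polynomial.eval₂RingHom (HahnSeries.C : K →+* LaurentSeries K) j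
      = ((Polynomial.aeval j : K[X] →ₐ[K] LaurentSeries K) : K[X] →+* LaurentSeries K) := by
  apply Polynomial.ringHom_ext
  · intro a
    rw [coe_eval₂RingHom, eval₂_C, AlgHom.coe_toRingHom, aeval_C, algebraMap_eq_C_laurent]
  · rw [coe_eval₂RingHom, eval₂_X, AlgHom.coe_toRingHom, aeval_X]

/-- **`ev K N P` is integral over `K[j]`.** -/
theorem isIntegral_ev (K : Type*) [Field K] [CharZero K] (N : ℕ) [NeZero N]
    (P : MvPolynomial (Gen N) ℤ) :
    IsIntegral (Algebra.adjoin K {jqModC K}) (ev K N P) := by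
  obtain ⟨Q, hQ, h0⟩ := exists_monic_rel_field K N P
  rw [eval₂RingHom_C_eq_aeval] at h0
  exact isIntegral_adjoin_of_monic_rel _ _ Q hQ h0

/-! ### `D = Δ(q)/Δ(q^p)` -/

theorem deltaR_eq_deltaL (R : Type*) [CommRing R] : deltaR R = deltaL R := by
  unfold deltaR deltaL etaL etaR
  rw [dedekindEtaUnit, map_pow, map_pow]

theorem deltaR_mul_deltaInvR' (R : Type*) [CommRing R] : deltaR R * deltaInvR R = 1 := by
  unfold deltaR deltaInvR
  rw [mul_mul_mul_comm, HahnSeries.single_mul_single, ← map_mul, ← map_mul,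
    dedekindEtaUnit_mul_inv, map_one, map_one]
  simp

theorem qE_deltaInvR (K : Type*) [Field K] (p : ℕ) (hp : 0 < p) :
    qE K p (deltaInvR K) = (Congr.expand p hp (deltaL K))⁻¹ := by
  haveI : NeZero p := ⟨hp.ne'⟩
  have h1 : qE K p (deltaR K) * qE K p (deltaInvR K) = 1 := by
    rw [← map_mul, deltaR_mul_deltaInvR', map_one]
  have h2 : qE K p (deltaR K) = Congr.expand p hp (deltaL K) := by
    rw [deltaR_eq_deltaL, qE_eq_qExpand, Fermat.Agent.S44.L.EisFun.expand_eq_qExpand' p hp]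
  rw [h2] at h1
  exact eq_inv_of_mul_eq_one_right h1

/-- `D = Δ(q)/Δ(q^p)` is the value of the generator `y p` of S28. -/
theorem eisD_eq_ev (K : Type*) [Field K] (p : ℕ) (hp : 0 < p) :
    eisD K p hp = ev K p (MvPolynomial.X (Gen.y ⟨p, dvd_refl p⟩)) := by
  rw [ev, MvPolynomial.coe_eval₂Hom, MvPolynomial.eval₂_X]
  show _ = deltaR K * qE K p (deltaInvR K)
  rw [qE_deltaInvR K p hp, deltaR_eq_deltaL, eisD, div_eq_mul_inv]

/-- `D⁻¹ = Δ(q^p)/Δ(q)` is the value of the generator `x p` of S28. -/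
theorem eisD_inv_eq_ev (K : Type*) [Field K] (p : ℕ) (hp : 0 < p) :
    (eisD K p hp)⁻¹ = ev K p (MvPolynomial.X (Gen.x ⟨p, dvd_refl p⟩)) := by
  haveI : NeZero p := ⟨hp.ne'⟩
  rw [ev, MvPolynomial.coe_eval₂Hom, MvPolynomial.eval₂_X]
  show _ = qE K p (deltaR K) * deltaInvR K
  have h1 : deltaInvR K = (deltaL K)⁻¹ := by
    have h := deltaR_mul_deltaInvR' K
    rw [deltaR_eq_deltaL] at h
    exact eq_inv_of_mul_eq_one_right h
  rw [h1, deltaR_eq_deltaL, qE_eq_qExpand, ← Fermat.Agent.S44.L.EisFun.expand_eq_qExpand' p hp,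
    eisD, inv_div, div_eq_mul_inv]

/-- **`D = Δ(q)/Δ(q^p)` is a root of a monic polynomial over `K[j]`.** -/
theorem exists_monic_rel_eisD (K : Type*) [Field K] [CharZero K] (p : ℕ) (hp : 0 < p) :
    ∃ Q : K[X][X], Q.Monic ∧
      Q.eval₂ (Polynomial.eval₂RingHom HahnSeries.C (jqModC K)) (eisD K p hp) = 0 := by
  haveI : NeZero p := ⟨hp.ne'⟩
  rw [eisD_eq_ev]
  exact exists_monic_rel_field K p _

/-- **`D⁻¹ = Δ(q^p)/Δ(q)` is a root of a monic polynomial over `K[j]`.** -/
theorem exists_monic_rel_eisD_inv (K : Type*) [Field K] [CharZero K] (p : ℕ) (hp : 0 < p) :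
    ∃ Q : K[X][X], Q.Monic ∧
      Q.eval₂ (Polynomial.eval₂RingHom HahnSeries.C (jqModC K)) (eisD K p hp)⁻¹ = 0 := by
  haveI : NeZero p := ⟨hp.ne'⟩
  rw [eisD_inv_eq_ev]
  exact exists_monic_rel_field K p _

/-- **`D` is integral over `K[j]`.** -/
theorem isIntegral_eisD (K : Type*) [Field K] [CharZero K] (p : ℕ) (hp : 0 < p) :
    IsIntegral (Algebra.adjoin K {jqModC K}) (eisD K p hp) := by
  haveI : NeZero p := ⟨hp.ne'⟩
  rw [eisD_eq_ev]
  exact isIntegral_ev K p _

/-- **`D⁻¹` is integral over `K[j]`.** -/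
theorem isIntegral_eisD_inv (K : Type*) [Field K] [CharZero K] (p : ℕ) (hp : 0 < p) :
    IsIntegral (Algebra.adjoin K {jqModC K}) (eisD K p hp)⁻¹ := by
  haveI : NeZero p := ⟨hp.ne'⟩
  rw [eisD_inv_eq_ev]
  exact isIntegral_ev K p _

/-! ### The function-field forms -/

/-- Transport of a monic relation from `q`-series to the function field `FN M`. -/
theorem isIntegral_FN_of_monic_rel (M : ℕ) (jF x : FN M)
    (hj : (jF : LaurentSeries Qb) = jqModC Qb) (Q : Qb[X][X]) (hQ : Q.Monic)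
    (h : Q.eval₂ (Polynomial.eval₂RingHom HahnSeries.C (jqModC Qb)) (x : LaurentSeries Qb) = 0) :
    IsIntegral (Algebra.adjoin Qb {jF}) x := by
  refine isIntegral_adjoin_of_monic_rel jF x Q hQ ?_
  apply Subtype.val_injective
  have hv : ((modularFunctionFieldBar M).val : FN M →+* LaurentSeries Qb).comp
      ((Polynomial.aeval jF : Qb[X] →ₐ[Qb] FN M) : Qb[X] →+* FN M)
        = Polynomial.eval₂RingHom HahnSeries.C (jqModC Qb) := by
    apply Polynomial.ringHom_ext
    · intro a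
      have h1 : ((Polynomial.aeval jF : Qb[X] →ₐ[Qb] FN M) : Qb[X] →+* FN M) (Polynomial.C a)
          = algebraMap Qb (FN M) a := Polynomial.aeval_C jF a
      rw [RingHom.comp_apply, h1, coe_eval₂RingHom, eval₂_C, ← algebraMap_eq_C_laurent]
      rfl
    · have h1 : ((Polynomial.aeval jF : Qb[X] →ₐ[Qb] FN M) : Qb[X] →+* FN M) Polynomial.X
          = jF := Polynomial.aeval_X jF
      rw [RingHom.comp_apply, h1, coe_eval₂RingHom, eval₂_X, ← hj]
      rfl
  have h2 := Polynomial.hom_eval₂ Q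
    ((Polynomial.aeval jF : Qb[X] →ₐ[Qb] FN M) : Qb[X] →+* FN M)
    ((modularFunctionFieldBar M).val : FN M →+* LaurentSeries Qb) x
  rw [hv] at h2
  show (modularFunctionFieldBar M).val _ = (modularFunctionFieldBar M).val 0
  rw [map_zero]
  exact h2.trans h

/-- **`eisFun` is integral over `ℚ̄[j]`** in `FN (N' p)`. -/
theorem isIntegral_eisFun (N' p : ℕ) [NeZero N'] [NeZero p] (hp : p.Prime) (jF : FN (N' * p))
    (hj : (jF : LaurentSeries Qb) = jqModC Qb) :
    IsIntegral (Algebra.adjoin Qb {jF}) (Fermat.Agent.S44.L.EisFun.eisFun N' p hp) := by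
  obtain ⟨Q, hQ, h⟩ := exists_monic_rel_eisD Qb p hp.pos
  exact isIntegral_FN_of_monic_rel (N' * p) jF _ hj Q hQ h

/-- **`eisFun⁻¹` is integral over `ℚ̄[j]`** in `FN (N' p)`: `eisFun` is a unit of the integral
closure of `ℚ̄[j]`. -/
theorem isIntegral_eisFun_inv (N' p : ℕ) [NeZero N'] [NeZero p] (hp : p.Prime)
    (jF : FN (N' * p)) (hj : (jF : LaurentSeries Qb) = jqModC Qb) :
    IsIntegral (Algebra.adjoin Qb {jF}) (Fermat.Agent.S44.L.EisFun.eisFun N' p hp)⁻¹ := by
  obtain ⟨Q, hQ, h⟩ := exists_monic_rel_eisD_inv Qb p hp.pos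
  refine isIntegral_FN_of_monic_rel (N' * p) jF _ hj Q hQ ?_
  rw [← h]
  rfl

/-! ### Valuation subrings: `D` is a unit at every finite place -/

/-- Valuation subrings are integrally closed: an element integral over `K[j]` lies in every
valuation subring containing the constants and `j`. -/
theorem mem_valuationSubring_of_isIntegral_adjoin {K F : Type*} [Field K] [Field F]
    [Algebra K F] (w : ValuationSubring F) (hK : ∀ a : K, algebraMap K F a ∈ w) (j x : F)
    (hj : j ∈ w) (hx : IsIntegral (Algebra.adjoin K {j}) x) : x ∈ w := by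
  have hle : ∀ y : F, y ∈ Algebra.adjoin K {j} → y ∈ w := by
    intro y hy
    induction hy using Algebra.adjoin_induction with
    | mem y hy =>
      rw [Set.mem_singleton_iff] at hy
      rw [hy]
      exact hj
    | algebraMap a => exact hK a
    | add y z _ _ hy hz => exact w.add_mem _ _ hy hz
    | mul y z _ _ hy hz => exact w.mul_mem _ _ hy hz
  obtain ⟨Q, hQ, h0⟩ := hx
  set ι : ↥(Algebra.adjoin K {j}) →+* ↥w :=
    { toFun := fun y => ⟨y.1, hle y.1 y.2⟩
      map_one' := rfl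
      map_mul' := fun _ _ => rfl
      map_zero' := rfl
      map_add' := fun _ _ => rfl } with hι
  have hcomp : (algebraMap ↥w F).comp ι = algebraMap ↥(Algebra.adjoin K {j}) F := rfl
  have hint : IsIntegral ↥w x := ⟨Q.map ι, hQ.map ι, by rw [eval₂_map, hcomp]; exact h0⟩
  obtain ⟨y, hy⟩ := (IsIntegrallyClosed.isIntegral_iff (R := ↥w) (K := F)).mp hint
  rw [← hy]
  exact y.2

/-- **`eisFun` is a unit at every finite place**: every valuation subring of `FN (N' p)`
containing the constants and `j` contains `eisFun` and its inverse. -/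
theorem eisFun_mem_and_inv_mem (N' p : ℕ) [NeZero N'] [NeZero p] (hp : p.Prime)
    (jF : FN (N' * p)) (hj : (jF : LaurentSeries Qb) = jqModC Qb)
    (w : ValuationSubring (FN (N' * p)))
    (hK : ∀ a : Qb, algebraMap Qb (FN (N' * p)) a ∈ w) (hjw : jF ∈ w) :
    Fermat.Agent.S44.L.EisFun.eisFun N' p hp ∈ w ∧
      (Fermat.Agent.S44.L.EisFun.eisFun N' p hp)⁻¹ ∈ w :=
  ⟨mem_valuationSubring_of_isIntegral_adjoin w hK jF _ hjw (isIntegral_eisFun N' p hp jF hj),
    mem_valuationSubring_of_isIntegral_adjoin w hK jF _ hjw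
      (isIntegral_eisFun_inv N' p hp jF hj)⟩

end Fermat.Agent.S44.L.EisInt
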