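import Mathlib
import Fermat.Agent.S28.SturmMF

/-!
# PROGRAM MR (S44), strand L: the Fricke principle for `E₄` and `Δ` (analytic half)

`fricke_principle` (helper142; row MR.L.Fricke, split with helper238's `FrickeSwap.lean`):
if a polynomial `P` in four variables, weighted homogeneous of weight `k` for the weights
`(4, 4, 12, 12)`, vanishes on the rational `q`-expansions
`(E₄(q), E₄(q^p), Δ(q), Δ(q^p))`, then it vanishes on
`(p⁴ E₄(q^p), E₄(q), p¹² Δ(q^p), Δ(q))`.

Proof: the first relation holds for the functions `E₄(τ), E₄(pτ), Δ(τ), Δ(pτ)` on the upper half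
plane (`HasQExp` is closed under polynomial expressions); evaluate at `-1/(pτ)`, use
`E₄(-1/σ) = σ⁴ E₄(σ)`, `Δ(-1/σ) = σ¹² Δ(σ)` and weighted homogeneity to pull out `τ^k`; every
`q` with `0 < |q| < 1` is `q(τ)`; conclude by uniqueness of `q`-expansions.

No modular form of level `p` and no Atkin–Lehner operator on forms is used.
-/

set_option autoImplicit false

noncomputable section

open UpperHalfPlane ModularForm CongruenceSubgroup ModularCurve
open scoped MatrixGroups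

namespace Fermat.Agent.S44.L.FrickeAn

open Fermat.Agent.S24.QBridge Fermat.Agent.S28.SturmMF

local notation "𝕢" => Function.Periodic.qParam

/-! ### Closure properties of `HasQExp` -/

theorem hasQExp_C (c : ℂ) : HasQExp (PowerSeries.C c) (fun _ => c) := by
  intro q _
  have h := hasSum_ite_eq (0 : ℕ) c
  convert h using 2 with n
  by_cases hn : n = 0
  · subst hn; simp
  · simp [PowerSeries.coeff_C, hn]

theorem hasQExp_zero : HasQExp 0 (fun _ => 0) := by
  intro q _
  simp only [map_zero, zero_mul]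
  exact hasSum_zero

theorem hasQExp_add {a b : PowerSeries ℂ} {g h : ℂ → ℂ} (ha : HasQExp a g) (hb : HasQExp b h) :
    HasQExp (a + b) (fun q => g q + h q) := by
  intro q hq
  have h1 := (ha q hq).add (hb q hq)
  simpa [add_mul] using h1

/-- `q ↦ q^d`. -/
theorem hasQExp_pexp {d : ℕ} (hd : 0 < d) {a : PowerSeries ℂ} {g : ℂ → ℂ} (ha : HasQExp a g) :
    HasQExp (pexp d a) (fun q => g (q ^ d)) := by
  intro q hq
  have hq' : ‖q ^ d‖ < 1 := by
    rw [norm_pow]
    exact pow_lt_one₀ (norm_nonneg q) hq hd.ne'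
  have h := ha (q ^ d) hq'
  have hinj : Function.Injective (fun m : ℕ => d * m) := fun m n hmn =>
    Nat.eq_of_mul_eq_mul_left hd hmn
  refine (hinj.hasSum_iff (f := fun n : ℕ => PowerSeries.coeff n (pexp d a) * q ^ n) ?_).1 ?_
  · intro n hn
    have hdn : ¬ d ∣ n := fun ⟨m, hm⟩ => hn ⟨m, hm.symm⟩
    show PowerSeries.coeff n (pexp d a) * q ^ n = 0
    rw [coeff_pexp, if_neg hdn, zero_mul]
  · have hfun : ((fun n : ℕ => PowerSeries.coeff n (pexp d a) * q ^ n) ∘ fun m : ℕ => d * m)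
        = fun m : ℕ => PowerSeries.coeff m a * (q ^ d) ^ m := by
      funext m
      show PowerSeries.coeff (d * m) (pexp d a) * q ^ (d * m) = _
      rw [coeff_pexp, if_pos (dvd_mul_right d m), Nat.mul_div_cancel_left m hd, pow_mul]
    rw [hfun]
    exact h

/-- `HasQExp` is closed under polynomial expressions. -/
theorem hasQExp_aeval (v : Fin 4 → PowerSeries ℚ) (G : Fin 4 → ℂ → ℂ)
    (hv : ∀ i, HasQExp (toC (v i)) (G i)) (P : MvPolynomial (Fin 4) ℚ) :
    HasQExp (toC (MvPolynomial.aeval v P)) (fun q => MvPolynomial.aeval (fun i => G i q) P) := by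
  induction P using MvPolynomial.induction_on with
  | C c =>
    have h1 : toC (MvPolynomial.aeval v (MvPolynomial.C c)) = PowerSeries.C (algebraMap ℚ ℂ c) := by
      rw [MvPolynomial.aeval_C]
      ext n
      simp [toC, PowerSeries.coeff_C]
    rw [h1]
    have h2 : (fun q : ℂ => MvPolynomial.aeval (fun i => G i q) (MvPolynomial.C c))
        = fun _ => algebraMap ℚ ℂ c := by
      funext q
      rw [MvPolynomial.aeval_C]
    rw [h2]
    exact hasQExp_C _
  | add P₁ P₂ hP hQ =>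
    have h2 : (fun q : ℂ => MvPolynomial.aeval (fun i => G i q) (P₁ + P₂))
        = fun q => MvPolynomial.aeval (fun i => G i q) P₁
            + MvPolynomial.aeval (fun i => G i q) P₂ := by
      funext q
      rw [map_add]
    rw [map_add, map_add, h2]
    exact hasQExp_add hP hQ
  | mul_X P₁ i hP =>
    have h2 : (fun q : ℂ => MvPolynomial.aeval (fun i => G i q) (P₁ * MvPolynomial.X i))
        = fun q => MvPolynomial.aeval (fun i => G i q) P₁ * G i q := by
      funext q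
      rw [map_mul, MvPolynomial.aeval_X]
    rw [map_mul, map_mul, MvPolynomial.aeval_X, h2]
    exact hP.mul (hv i)

/-- A vanishing series has vanishing values. -/
theorem eq_zero_of_hasQExp_zero {g : ℂ → ℂ} (h : HasQExp 0 g) {q : ℂ} (hq : ‖q‖ < 1) :
    g q = 0 :=
  (h q hq).unique (hasQExp_zero q hq)

/-- A series whose sum vanishes on the punctured unit disc is zero. -/
theorem eq_zero_of_forall_ne {a : PowerSeries ℂ} {g : ℂ → ℂ} (ha : HasQExp a g)
    (hg : ∀ q : ℂ, q ≠ 0 → ‖q‖ < 1 → g q = 0) : a = 0 := by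
  have h1 : HasQExp (PowerSeries.X * a) (fun q => q * g q) := hasQExp_X.mul ha
  have h2 : HasQExp (PowerSeries.X * a) (fun _ => 0) := by
    refine h1.congr fun q hq => ?_
    by_cases hq0 : q = 0
    · rw [hq0, zero_mul]
    · rw [hg q hq0 hq, mul_zero]
  have h3 : PowerSeries.X * a = 0 := h2.unique hasQExp_zero
  rcases mul_eq_zero.1 h3 with h4 | h4
  · exact absurd h4 PowerSeries.X_ne_zero
  · exact h4

/-! ### The functions `E₄` and `Δ` -/

/-- The `q`-function of `Δ`. -/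
def discQ (q : ℂ) : ℂ := q * (∏' n : ℕ, (1 - q ^ (n + 1))) ^ 24

theorem hasQExp_e4Q : HasQExp (toC e4Q) (cuspFunction 1 E₄) := by
  have h : toC e4Q = e4C := by
    rw [e4Q, toC_map_int]
    rfl
  rw [h]
  exact hasQExp_E4

theorem hasQExp_deltaQ : HasQExp (toC deltaQ) discQ := by
  have h1 : toC deltaQ = PowerSeries.X * etaUnitC := by
    rw [deltaQ, map_mul, toC_map_int]
    simp [toC, etaUnitC]
  rw [h1]
  exact hasQExp_X.mul hasQExp_etaUnitC

theorem cuspFunction_E4_qParam (τ : ℍ) : cuspFunction 1 E₄ (𝕢 1 τ) = E₄ τ :=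
  eq_cuspFunction τ one_ne_zero
    (SlashInvariantFormClass.periodic_comp_ofComplex E₄ one_mem_strictPeriods_SL)

theorem discQ_qParam (τ : ℍ) : discQ (𝕢 1 τ) = ModularForm.discriminant τ := by
  have hq : ‖𝕢 1 (τ : ℂ)‖ < 1 := Function.Periodic.norm_qParam_lt_one one_pos τ.im_pos
  rw [discQ, discriminant_eq_q_prod, (multipliable_one_sub_pow hq).tprod_pow 24]

/-- `τ ↦ p τ` on the upper half plane. -/
def scl (p : ℕ) [NeZero p] (τ : ℍ) : ℍ :=
  ⟨(p : ℂ) * (τ : ℂ), by
    have hp : (0 : ℝ) < p := by exact_mod_cast Nat.pos_of_ne_zero (NeZero.ne p)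
    have h : ((p : ℂ) * (τ : ℂ)).im = p * τ.im := by
      simp [Complex.mul_im]
    rw [h]
    exact mul_pos hp τ.im_pos⟩

theorem coe_scl (p : ℕ) [NeZero p] (τ : ℍ) : ((scl p τ : ℍ) : ℂ) = (p : ℂ) * (τ : ℂ) := rfl

theorem qParam_scl (p : ℕ) [NeZero p] (τ : ℍ) : 𝕢 1 (scl p τ : ℂ) = 𝕢 1 (τ : ℂ) ^ p := by
  rw [coe_scl, Function.Periodic.qParam, Function.Periodic.qParam, ← Complex.exp_nat_mul]
  congr 1
  push_cast
  ring

/-- `E₄(-1/σ) = σ⁴ E₄(σ)`. -/
theorem E4_S_smul (σ : ℍ) : E₄ (ModularGroup.S • σ) = (σ : ℂ) ^ 4 * E₄ σ := by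
  have h0 : (⇑E₄ : ℍ → ℂ) ∣[(4 : ℤ)] ModularGroup.S = ⇑E₄ :=
    SlashInvariantForm.slash_action_eqn E₄ _ ⟨ModularGroup.S, rfl⟩
  have h := congrFun h0 σ
  rw [ModularForm.SL_slash_apply] at h
  have hd : denom ModularGroup.S σ ≠ 0 := denom_ne_zero _ σ
  have h1 : E₄ (ModularGroup.S • σ) = denom ModularGroup.S σ ^ (4 : ℤ) * E₄ σ := by
    rw [← h, ← mul_assoc, mul_comm (denom ModularGroup.S σ ^ (4 : ℤ)), mul_assoc,
      ← zpow_add₀ hd]
    simp
  rw [h1, ModularGroup.denom_S]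
  norm_cast

/-- `Δ(-1/σ) = σ¹² Δ(σ)`. -/
theorem disc_S_smul (σ : ℍ) :
    ModularForm.discriminant (ModularGroup.S • σ) = (σ : ℂ) ^ 12 * ModularForm.discriminant σ := by
  have h0 : (ModularForm.discriminant : ℍ → ℂ) ∣[(12 : ℤ)] ModularGroup.S
      = ModularForm.discriminant :=
    SlashInvariantFormClass.slash_action_eq CuspForm.discriminant _ ⟨ModularGroup.S, rfl⟩
  have h := congrFun h0 σ
  rw [ModularForm.SL_slash_apply] at h
  have hd : denom ModularGroup.S σ ≠ 0 := denom_ne_zero _ σ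
  have h1 : ModularForm.discriminant (ModularGroup.S • σ)
      = denom ModularGroup.S σ ^ (12 : ℤ) * ModularForm.discriminant σ := by
    rw [← h, ← mul_assoc, mul_comm (denom ModularGroup.S σ ^ (12 : ℤ)), mul_assoc,
      ← zpow_add₀ hd]
    simp
  rw [h1, ModularGroup.denom_S]
  norm_cast

/-- `p · (-1/(pτ)) = -1/τ`. -/
theorem scl_S_smul_scl (p : ℕ) [NeZero p] (τ : ℍ) :
    scl p (ModularGroup.S • scl p τ) = ModularGroup.S • τ := by
  apply UpperHalfPlane.ext
  have hp : (p : ℂ) ≠ 0 := by exact_mod_cast NeZero.ne p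
  have hτ : (τ : ℂ) ≠ 0 := UpperHalfPlane.ne_zero τ
  rw [coe_scl, UpperHalfPlane.modular_S_smul, UpperHalfPlane.modular_S_smul]
  show (p : ℂ) * (-((scl p τ : ℍ) : ℂ))⁻¹ = (-(τ : ℂ))⁻¹
  rw [coe_scl]
  field_simp

/-! ### Weighted homogeneity -/

/-- Scaling the variables of a weighted homogeneous polynomial. -/
theorem aeval_scale {w : Fin 4 → ℕ} {P : MvPolynomial (Fin 4) ℚ} {k : ℕ}
    (hP : MvPolynomial.IsWeightedHomogeneous w P k) (t : ℂ) (x : Fin 4 → ℂ) :
    MvPolynomial.aeval (fun i => t ^ w i * x i) P = t ^ k * MvPolynomial.aeval x P := by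
  rw [MvPolynomial.aeval_def, MvPolynomial.aeval_def, MvPolynomial.eval₂_eq',
    MvPolynomial.eval₂_eq', Finset.mul_sum]
  refine Finset.sum_congr rfl fun d hd => ?_
  have hcoeff : MvPolynomial.coeff d P ≠ 0 := MvPolynomial.mem_support_iff.1 hd
  have hw : Finsupp.weight w d = k := hP hcoeff
  have hsum : ∑ i, w i * d i = k := by
    rw [← hw, Finsupp.weight_apply, Finsupp.sum_fintype _ _ (fun i => by simp)]
    refine Finset.sum_congr rfl fun i _ => ?_
    rw [smul_eq_mul, mul_comm]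
  have hprod : ∏ i, (t ^ w i * x i) ^ d i = t ^ k * ∏ i, x i ^ d i := by
    rw [← hsum, ← Finset.prod_pow_eq_pow_sum, ← Finset.prod_mul_distrib]
    refine Finset.prod_congr rfl fun i _ => ?_
    rw [mul_pow, pow_mul]
  rw [hprod]
  ring

/-! ### The Fricke principle -/

/-- The relation on the upper half plane. -/
theorem aeval_upper (p : ℕ) [NeZero p] (P : MvPolynomial (Fin 4) ℚ)
    (h : MvPolynomial.aeval ![e4Q, pexp p e4Q, deltaQ, pexp p deltaQ] P = 0) (τ : ℍ) :
    MvPolynomial.aeval ![E₄ τ, E₄ (scl p τ), ModularForm.discriminant τ,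
      ModularForm.discriminant (scl p τ)] P = 0 := by
  have hp : 0 < p := Nat.pos_of_ne_zero (NeZero.ne p)
  have hv : ∀ i, HasQExp (toC (![e4Q, pexp p e4Q, deltaQ, pexp p deltaQ] i))
      (![cuspFunction 1 E₄, fun q => cuspFunction 1 E₄ (q ^ p), discQ,
        fun q => discQ (q ^ p)] i) := by
    intro i
    fin_cases i
    · exact hasQExp_e4Q
    · show HasQExp (toC (pexp p e4Q)) (fun q => cuspFunction 1 E₄ (q ^ p))
      rw [toC_pexp]
      exact hasQExp_pexp hp hasQExp_e4Q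
    · exact hasQExp_deltaQ
    · show HasQExp (toC (pexp p deltaQ)) (fun q => discQ (q ^ p))
      rw [toC_pexp]
      exact hasQExp_pexp hp hasQExp_deltaQ
  have h1 := hasQExp_aeval _ _ hv P
  rw [h, map_zero] at h1
  have hq : ‖𝕢 1 (τ : ℂ)‖ < 1 := Function.Periodic.norm_qParam_lt_one one_pos τ.im_pos
  have h2 := eq_zero_of_hasQExp_zero h1 hq
  have h3 : (fun i => (![cuspFunction 1 E₄, fun q => cuspFunction 1 E₄ (q ^ p), discQ,
        fun q => discQ (q ^ p)] i) (𝕢 1 (τ : ℂ)))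
      = ![E₄ τ, E₄ (scl p τ), ModularForm.discriminant τ,
        ModularForm.discriminant (scl p τ)] := by
    funext i
    fin_cases i
    · exact cuspFunction_E4_qParam τ
    · show cuspFunction 1 E₄ (𝕢 1 (τ : ℂ) ^ p) = E₄ (scl p τ)
      rw [← qParam_scl, cuspFunction_E4_qParam]
    · exact discQ_qParam τ
    · show discQ (𝕢 1 (τ : ℂ) ^ p) = ModularForm.discriminant (scl p τ)
      rw [← qParam_scl, discQ_qParam]
  rw [h3] at h2
  exact h2

/-- The transformed relation on the upper half plane. -/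
theorem aeval_upper_fricke (p : ℕ) [NeZero p] (P : MvPolynomial (Fin 4) ℚ) (k : ℕ)
    (hP : MvPolynomial.IsWeightedHomogeneous ![4, 4, 12, 12] P k)
    (h : MvPolynomial.aeval ![e4Q, pexp p e4Q, deltaQ, pexp p deltaQ] P = 0) (τ : ℍ) :
    MvPolynomial.aeval ![(p : ℂ) ^ 4 * E₄ (scl p τ), E₄ τ,
      (p : ℂ) ^ 12 * ModularForm.discriminant (scl p τ), ModularForm.discriminant τ] P = 0 := by
  have h1 := aeval_upper p P h (ModularGroup.S • scl p τ)
  rw [scl_S_smul_scl, E4_S_smul, E4_S_smul, disc_S_smul, disc_S_smul, coe_scl] at h1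
  have h2 : (![((p : ℂ) * (τ : ℂ)) ^ 4 * E₄ (scl p τ), (τ : ℂ) ^ 4 * E₄ τ,
        ((p : ℂ) * (τ : ℂ)) ^ 12 * ModularForm.discriminant (scl p τ),
        (τ : ℂ) ^ 12 * ModularForm.discriminant τ] : Fin 4 → ℂ)
      = fun i => (τ : ℂ) ^ (![4, 4, 12, 12] : Fin 4 → ℕ) i *
          (![(p : ℂ) ^ 4 * E₄ (scl p τ), E₄ τ,
            (p : ℂ) ^ 12 * ModularForm.discriminant (scl p τ),
            ModularForm.discriminant τ] : Fin 4 → ℂ) i := by
    funext i
    fin_cases i
    · show ((p : ℂ) * (τ : ℂ)) ^ 4 * E₄ (scl p τ) = (τ : ℂ) ^ 4 * ((p : ℂ) ^ 4 * E₄ (scl p τ))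
      ring
    · rfl
    · show ((p : ℂ) * (τ : ℂ)) ^ 12 * ModularForm.discriminant (scl p τ)
        = (τ : ℂ) ^ 12 * ((p : ℂ) ^ 12 * ModularForm.discriminant (scl p τ))
      ring
    · rfl
  rw [h2, aeval_scale hP] at h1
  rcases mul_eq_zero.1 h1 with h3 | h3
  · exact absurd h3 (pow_ne_zero k (UpperHalfPlane.ne_zero τ))
  · exact h3

/-- **The Fricke principle** for `E₄` and `Δ`: a weighted homogeneous relation (weights
`4, 4, 12, 12`) between `E₄(q), E₄(q^p), Δ(q), Δ(q^p)` also holds for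
`p⁴ E₄(q^p), E₄(q), p¹² Δ(q^p), Δ(q)`. -/
theorem fricke_principle (p : ℕ) [NeZero p] (P : MvPolynomial (Fin 4) ℚ) (k : ℕ)
    (hP : MvPolynomial.IsWeightedHomogeneous ![4, 4, 12, 12] P k)
    (h : MvPolynomial.aeval ![e4Q, pexp p e4Q, deltaQ, pexp p deltaQ] P = 0) :
    MvPolynomial.aeval ![(p : ℚ) ^ 4 • pexp p e4Q, e4Q, (p : ℚ) ^ 12 • pexp p deltaQ, deltaQ] P
      = 0 := by
  have hp : 0 < p := Nat.pos_of_ne_zero (NeZero.ne p)
  have hsmul : ∀ (c : ℚ) (a : PowerSeries ℚ) (g : ℂ → ℂ), HasQExp (toC a) g →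
      HasQExp (toC (c • a)) (fun q => (c : ℂ) * g q) := by
    intro c a g ha
    have h1 : toC (c • a) = PowerSeries.C (c : ℂ) * toC a := by
      rw [PowerSeries.smul_eq_C_mul, map_mul]
      congr 1
      ext n
      simp [toC, PowerSeries.coeff_C]
    rw [h1]
    exact (hasQExp_C _).mul ha
  have hv : ∀ i, HasQExp
      (toC (![(p : ℚ) ^ 4 • pexp p e4Q, e4Q, (p : ℚ) ^ 12 • pexp p deltaQ, deltaQ] i))
      (![fun q => (((p : ℚ) ^ 4 : ℚ) : ℂ) * cuspFunction 1 E₄ (q ^ p), cuspFunction 1 E₄,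
        fun q => (((p : ℚ) ^ 12 : ℚ) : ℂ) * discQ (q ^ p), discQ] i) := by
    intro i
    fin_cases i
    · show HasQExp (toC ((p : ℚ) ^ 4 • pexp p e4Q))
        (fun q => (((p : ℚ) ^ 4 : ℚ) : ℂ) * cuspFunction 1 E₄ (q ^ p))
      refine hsmul _ _ (fun q => cuspFunction 1 E₄ (q ^ p)) ?_
      rw [toC_pexp]
      exact hasQExp_pexp hp hasQExp_e4Q
    · exact hasQExp_e4Q
    · show HasQExp (toC ((p : ℚ) ^ 12 • pexp p deltaQ))
        (fun q => (((p : ℚ) ^ 12 : ℚ) : ℂ) * discQ (q ^ p))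
      refine hsmul _ _ (fun q => discQ (q ^ p)) ?_
      rw [toC_pexp]
      exact hasQExp_pexp hp hasQExp_deltaQ
    · exact hasQExp_deltaQ
  have h1 := hasQExp_aeval _ _ hv P
  have h2 := eq_zero_of_forall_ne h1 (fun q hq0 hq => by
    have him : 0 < (Function.Periodic.invQParam 1 q).im :=
      Function.Periodic.im_invQParam_pos_of_norm_lt_one one_pos hq hq0
    set τ : ℍ := ⟨Function.Periodic.invQParam 1 q, him⟩ with hτ
    have hqτ : 𝕢 1 (τ : ℂ) = q := Function.Periodic.qParam_right_inv one_ne_zero hq0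
    have h3 := aeval_upper_fricke p P k hP h τ
    have h4 : (fun i => (![fun q => (((p : ℚ) ^ 4 : ℚ) : ℂ) * cuspFunction 1 E₄ (q ^ p),
          cuspFunction 1 E₄, fun q => (((p : ℚ) ^ 12 : ℚ) : ℂ) * discQ (q ^ p), discQ] i) q)
        = ![(p : ℂ) ^ 4 * E₄ (scl p τ), E₄ τ,
          (p : ℂ) ^ 12 * ModularForm.discriminant (scl p τ), ModularForm.discriminant τ] := by
      funext i
      fin_cases i
      · show (((p : ℚ) ^ 4 : ℚ) : ℂ) * cuspFunction 1 E₄ (q ^ p) = (p : ℂ) ^ 4 * E₄ (scl p τ)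
        rw [← hqτ, ← qParam_scl, cuspFunction_E4_qParam]
        push_cast
        rfl
      · show cuspFunction 1 E₄ q = E₄ τ
        rw [← hqτ, cuspFunction_E4_qParam]
      · show (((p : ℚ) ^ 12 : ℚ) : ℂ) * discQ (q ^ p)
          = (p : ℂ) ^ 12 * ModularForm.discriminant (scl p τ)
        rw [← hqτ, ← qParam_scl, discQ_qParam]
        push_cast
        rfl
      · show discQ q = ModularForm.discriminant τ
        rw [← hqτ, discQ_qParam]
    rw [h4]
    exact h3)
  exact toC_injective (h2.trans (map_zero _).symm)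

end Fermat.Agent.S44.L.FrickeAn
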