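import Mathlib
import Fermat.Agent.S28.SturmMF
import Fermat.Agent.S28.Char0Gen
import Fermat.Agent.S30.AuxLevel.Mem
import Fermat.Agent.S44.L.EisFormal

/-!
# Program MR (S44), strand L: the Fricke relation `w(D) · D = p ^ 12` for an abstract swap `w`

`D = Δ(q) / Δ(q^p)` (`EisFormal.eisD`), `p` prime.  For every ring hom `w` of a field `L` with a
`q`-expansion embedding `σ : L → K((q))` such that `σ (w J) = j(q^p)` and `w (w J) = J`, where
`σ J = j(q)` (the two binders of the Atkin–Lehner automorphism in `S34/TwoPrimesGauss`), and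
every `Dl : L` with `σ Dl = D`:

  `w Dl * Dl = p ^ 12`   (`fricke_swap_of`),

as a consequence of ONE analytic statement about the four generators `E₄(q)`, `E₄(q^p)`, `Δ(q)`,
`Δ(q^p)` (helper238):

* `FrickePrinciple p` : a weighted homogeneous polynomial identity
  `Φ(E₄, E₄(q^p), Δ, Δ(q^p)) = 0` implies `Φ(p⁴ E₄(q^p), E₄, p¹² Δ(q^p), Δ) = 0`
  (substitute `τ ↦ -1 / (p τ)`; proved in `S44/L/FrickeAn.lean`).
* `exists_isHom` : homogenisation.  For `r ∈ ℚ[X, Y]` and all large `d` there is a weighted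
  homogeneous `Φ` of weight `24 d` with
  `Φ(e, e', δ, δ') = δ ^ d δ' ^ d r(e³ / δ, e'³ / δ')`.
* `fricke_quot` : `D s(j, j_p) = r(j, j_p) ⟹ p¹² s(j_p, j) = D r(j_p, j)` in `ℚ((q))`.
* `exists_quot` : `D ∈ ℚ(j, j_p)` in quotient form (S28 / S30.AuxLevel).
-/

set_option autoImplicit false

noncomputable section

namespace Fermat.Agent.S44.L.FrickeSwap

open MvPolynomial ModularCurve
open Fermat.Agent.S28.SturmMF Fermat.Agent.S28.SturmDep
open Fermat.Agent.S30 Fermat.Agent.S44.L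

/-! ### The principle -/

/-- The weights of `E₄(q)`, `E₄(q^p)`, `Δ(q)`, `Δ(q^p)`. -/
def wt : Fin 4 → ℕ := ![4, 4, 12, 12]

/-- The rational `q`-expansions of `E₄(q)`, `E₄(q^p)`, `Δ(q)`, `Δ(q^p)`. -/
def gens (p : ℕ) : Fin 4 → PowerSeries ℚ := ![e4Q, pexp p e4Q, deltaQ, pexp p deltaQ]

/-- Their transforms under `τ ↦ -1 / (p τ)`, without the automorphy factor `τ ^ k`. -/
def gensW (p : ℕ) : Fin 4 → PowerSeries ℚ :=
  ![(p : ℚ) ^ 4 • pexp p e4Q, e4Q, (p : ℚ) ^ 12 • pexp p deltaQ, deltaQ]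

/-- **The Fricke principle**: weighted homogeneous polynomial relations between `E₄(q)`,
`E₄(q^p)`, `Δ(q)`, `Δ(q^p)` are carried to relations between `p⁴ E₄(q^p)`, `E₄(q)`,
`p¹² Δ(q^p)`, `Δ(q)`. -/
def FrickePrinciple (p : ℕ) : Prop :=
  ∀ (Φ : MvPolynomial (Fin 4) ℚ) (k : ℕ), IsWeightedHomogeneous wt Φ k →
    aeval (gens p) Φ = 0 → aeval (gensW p) Φ = 0

/-! ### Homogenisation -/

theorem isWH_cast {Φ : MvPolynomial (Fin 4) ℚ} {m n : ℕ} (h : IsWeightedHomogeneous wt Φ m)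
    (hmn : m = n) : IsWeightedHomogeneous wt Φ n := hmn ▸ h

/-- `Φ` is a homogenisation of `r` in degree `d`: weighted homogeneous of weight `24 d`, and
`Φ(e, e', δ, δ') = δ ^ d δ' ^ d r(e³ / δ, e'³ / δ')`. -/
def IsHom (Λ : Type*) [Field Λ] [Algebra ℚ Λ] (d : ℕ) (r : MvPolynomial (Fin 2) ℚ)
    (Φ : MvPolynomial (Fin 4) ℚ) : Prop :=
  IsWeightedHomogeneous wt Φ (24 * d) ∧ ∀ e e' δ δ' : Λ, δ ≠ 0 → δ' ≠ 0 →
    aeval ![e, e', δ, δ'] Φ = δ ^ d * δ' ^ d * aeval ![e ^ 3 / δ, e' ^ 3 / δ'] r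

theorem exists_isHom (Λ : Type*) [Field Λ] [Algebra ℚ Λ] (r : MvPolynomial (Fin 2) ℚ) :
    ∃ d₀ : ℕ, ∀ d : ℕ, d₀ ≤ d → ∃ Φ : MvPolynomial (Fin 4) ℚ, IsHom Λ d r Φ := by
  induction r using MvPolynomial.induction_on with
  | C a =>
    refine ⟨0, fun d _ => ⟨C a * X 2 ^ d * X 3 ^ d, ?_, ?_⟩⟩
    · have h1 := ((isWeightedHomogeneous_C wt a).mul
        ((isWeightedHomogeneous_X ℚ wt 2).pow d)).mul ((isWeightedHomogeneous_X ℚ wt 3).pow d)
      refine isWH_cast h1 ?_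
      have h2 : wt 2 = 12 := rfl
      have h3 : wt 3 = 12 := rfl
      rw [h2, h3, smul_eq_mul]
      ring
    · intro e e' δ δ' _ _
      have h2 : (![e, e', δ, δ'] : Fin 4 → Λ) 2 = δ := rfl
      have h3 : (![e, e', δ, δ'] : Fin 4 → Λ) 3 = δ' := rfl
      rw [map_mul, map_mul, map_pow, map_pow, aeval_C, aeval_X, aeval_X, aeval_C, h2, h3]
      ring
  | add q₁ q₂ h₁ h₂ =>
    obtain ⟨d₁, h₁⟩ := h₁
    obtain ⟨d₂, h₂⟩ := h₂
    refine ⟨max d₁ d₂, fun d hd => ?_⟩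
    obtain ⟨Φ₁, hΦ₁, hev₁⟩ := h₁ d (le_trans (le_max_left _ _) hd)
    obtain ⟨Φ₂, hΦ₂, hev₂⟩ := h₂ d (le_trans (le_max_right _ _) hd)
    refine ⟨Φ₁ + Φ₂, hΦ₁.add hΦ₂, fun e e' δ δ' hδ hδ' => ?_⟩
    rw [map_add, map_add, hev₁ e e' δ δ' hδ hδ', hev₂ e e' δ δ' hδ hδ', mul_add]
  | mul_X q i hq =>
    obtain ⟨d₀, h₀⟩ := hq
    refine ⟨d₀ + 1, fun d hd => ?_⟩
    obtain ⟨d', rfl⟩ : ∃ d', d = d' + 1 := ⟨d - 1, by omega⟩
    obtain ⟨Φ', hΦ', hev'⟩ := h₀ d' (by omega)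
    have w0 : wt 0 = 4 := rfl
    have w1 : wt 1 = 4 := rfl
    have w2 : wt 2 = 12 := rfl
    have w3 : wt 3 = 12 := rfl
    fin_cases i
    · refine ⟨Φ' * X 0 ^ 3 * X 3, ?_, ?_⟩
      · have h1 := (hΦ'.mul ((isWeightedHomogeneous_X ℚ wt 0).pow 3)).mul
          (isWeightedHomogeneous_X ℚ wt 3)
        refine isWH_cast h1 ?_
        rw [w0, w3, smul_eq_mul]
        ring
      · intro e e' δ δ' hδ hδ'
        have g0 : (![e, e', δ, δ'] : Fin 4 → Λ) 0 = e := rfl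
        have g3 : (![e, e', δ, δ'] : Fin 4 → Λ) 3 = δ' := rfl
        have f0 : (![e ^ 3 / δ, e' ^ 3 / δ'] : Fin 2 → Λ) 0 = e ^ 3 / δ := rfl
        rw [map_mul, map_mul, map_pow, aeval_X, aeval_X, hev' e e' δ δ' hδ hδ', g0, g3]
        show _ = δ ^ (d' + 1) * δ' ^ (d' + 1) *
          aeval ![e ^ 3 / δ, e' ^ 3 / δ'] (q * X (0 : Fin 2))
        rw [map_mul, aeval_X, f0]
        field_simp
        ring
    · refine ⟨Φ' * X 1 ^ 3 * X 2, ?_, ?_⟩
      · have h1 := (hΦ'.mul ((isWeightedHomogeneous_X ℚ wt 1).pow 3)).mul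
          (isWeightedHomogeneous_X ℚ wt 2)
        refine isWH_cast h1 ?_
        rw [w1, w2, smul_eq_mul]
        ring
      · intro e e' δ δ' hδ hδ'
        have g1 : (![e, e', δ, δ'] : Fin 4 → Λ) 1 = e' := rfl
        have g2 : (![e, e', δ, δ'] : Fin 4 → Λ) 2 = δ := rfl
        have f1 : (![e ^ 3 / δ, e' ^ 3 / δ'] : Fin 2 → Λ) 1 = e' ^ 3 / δ' := rfl
        rw [map_mul, map_mul, map_pow, aeval_X, aeval_X, hev' e e' δ δ' hδ hδ', g1, g2]
        show _ = δ ^ (d' + 1) * δ' ^ (d' + 1) *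
          aeval ![e ^ 3 / δ, e' ^ 3 / δ'] (q * X (1 : Fin 2))
        rw [map_mul, aeval_X, f1]
        field_simp
        ring

/-! ### The quotient form, abstract -/

/-- The abstract core of the quotient form: from the transfer of weighted homogeneous relations
between `(e, e', δ, δ')` and `(c₄ e', e, c₁₂ δ', δ)` (`c₄ ^ 3 = c₁₂`), a relation
`(δ / δ') s(j, j') = r(j, j')` with `j = e³ / δ`, `j' = e'³ / δ'` gives
`c₁₂ s(j', j) = (δ / δ') r(j', j)`. -/
theorem quot_core {Λ : Type*} [Field Λ] [Algebra ℚ Λ] (e e' δ δ' c₄ c₁₂ : Λ) (hδ : δ ≠ 0)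
    (hδ' : δ' ≠ 0) (hc : c₄ ^ 3 = c₁₂) (hc0 : c₁₂ ≠ 0)
    (H : ∀ (Φ : MvPolynomial (Fin 4) ℚ) (k : ℕ), IsWeightedHomogeneous wt Φ k →
      aeval ![e, e', δ, δ'] Φ = 0 → aeval ![c₄ * e', e, c₁₂ * δ', δ] Φ = 0)
    (r s : MvPolynomial (Fin 2) ℚ)
    (hrs : δ / δ' * aeval ![e ^ 3 / δ, e' ^ 3 / δ'] s = aeval ![e ^ 3 / δ, e' ^ 3 / δ'] r) :
    c₁₂ * aeval ![e' ^ 3 / δ', e ^ 3 / δ] s = δ / δ' * aeval ![e' ^ 3 / δ', e ^ 3 / δ] r := by
  obtain ⟨d₁, h₁⟩ := exists_isHom Λ r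
  obtain ⟨d₂, h₂⟩ := exists_isHom Λ s
  obtain ⟨Φr, hΦr, hevr⟩ := h₁ (max d₁ d₂) (le_max_left _ _)
  obtain ⟨Φs, hΦs, hevs⟩ := h₂ (max d₁ d₂) (le_max_right _ _)
  generalize max d₁ d₂ = d at hΦr hevr hΦs hevs
  have w2 : wt 2 = 12 := rfl
  have w3 : wt 3 = 12 := rfl
  have hhom : IsWeightedHomogeneous wt (X 2 * Φs - X 3 * Φr) (12 + 24 * d) :=
    (isWH_cast ((isWeightedHomogeneous_X ℚ wt 2).mul hΦs) (by rw [w2])).sub
      (isWH_cast ((isWeightedHomogeneous_X ℚ wt 3).mul hΦr) (by rw [w3]))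
  have g2 : (![e, e', δ, δ'] : Fin 4 → Λ) 2 = δ := rfl
  have g3 : (![e, e', δ, δ'] : Fin 4 → Λ) 3 = δ' := rfl
  have h0 : aeval ![e, e', δ, δ'] (X 2 * Φs - X 3 * Φr) = 0 := by
    rw [map_sub, map_mul, map_mul, aeval_X, aeval_X, g2, g3, hevs e e' δ δ' hδ hδ',
      hevr e e' δ δ' hδ hδ', ← hrs]
    field_simp
    ring
  have h1 := H _ _ hhom h0
  have k2 : (![c₄ * e', e, c₁₂ * δ', δ] : Fin 4 → Λ) 2 = c₁₂ * δ' := rfl
  have k3 : (![c₄ * e', e, c₁₂ * δ', δ] : Fin 4 → Λ) 3 = δ := rfl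
  have hcδ : c₁₂ * δ' ≠ 0 := mul_ne_zero hc0 hδ'
  have hv : (c₄ * e') ^ 3 / (c₁₂ * δ') = e' ^ 3 / δ' := by
    rw [mul_pow, hc]
    field_simp
  rw [map_sub, map_mul, map_mul, aeval_X, aeval_X, k2, k3, hevs (c₄ * e') e (c₁₂ * δ') δ hcδ hδ,
    hevr (c₄ * e') e (c₁₂ * δ') δ hcδ hδ, hv] at h1
  have h2 : (c₁₂ * δ') ^ d * δ ^ d *
      (c₁₂ * δ' * aeval ![e' ^ 3 / δ', e ^ 3 / δ] s - δ * aeval ![e' ^ 3 / δ', e ^ 3 / δ] r)
        = 0 := by
    rw [← h1]
    ring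
  have h3 : c₁₂ * δ' * aeval ![e' ^ 3 / δ', e ^ 3 / δ] s
      - δ * aeval ![e' ^ 3 / δ', e ^ 3 / δ] r = 0 :=
    (mul_eq_zero.mp h2).resolve_left (mul_ne_zero (pow_ne_zero d hcδ) (pow_ne_zero d hδ))
  have h4 := sub_eq_zero.mp h3
  field_simp
  linear_combination h4

/-! ### The quotient form in `ℚ((q))` -/

/-- `j(q^p)`. -/
def jqp (p : ℕ) [NeZero p] : LaurentSeries ℚ := qExpand ℚ p jq

/-- `D = Δ(q) / Δ(q^p)` over `ℚ`. -/
def DQ (p : ℕ) [NeZero p] : LaurentSeries ℚ :=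
  Graded.emb deltaQ / qExpand ℚ p (Graded.emb deltaQ)

theorem emb_deltaQ_ne_zero : Graded.emb deltaQ ≠ 0 := Graded.emb_ne_zero deltaQ_ne_zero

theorem emb_pexp_deltaQ_ne_zero (p : ℕ) [NeZero p] : Graded.emb (pexp p deltaQ) ≠ 0 :=
  Graded.emb_ne_zero (pexp_ne_zero p deltaQ_ne_zero)

theorem jq_eq : jq = Graded.emb e4Q ^ 3 / Graded.emb deltaQ := by
  rw [eq_div_iff emb_deltaQ_ne_zero]
  exact jq_mul_emb_deltaQ

theorem jqp_eq (p : ℕ) [NeZero p] :
    jqp p = Graded.emb (pexp p e4Q) ^ 3 / Graded.emb (pexp p deltaQ) := by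
  rw [eq_div_iff (emb_pexp_deltaQ_ne_zero p), emb_pexp, emb_pexp, jqp, ← map_pow, ← map_mul,
    jq_mul_emb_deltaQ]

theorem DQ_eq (p : ℕ) [NeZero p] :
    DQ p = Graded.emb deltaQ / Graded.emb (pexp p deltaQ) := by
  rw [DQ, emb_pexp]

theorem DQ_ne_zero (p : ℕ) [NeZero p] : DQ p ≠ 0 := by
  rw [DQ_eq]
  exact div_ne_zero emb_deltaQ_ne_zero (emb_pexp_deltaQ_ne_zero p)

theorem emb_aeval (f : Fin 4 → PowerSeries ℚ) (P : MvPolynomial (Fin 4) ℚ) :
    Graded.emb (aeval f P) = aeval (fun i => Graded.emb (f i)) P :=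
  comp_aeval_apply f (RingHom.toRatAlgHom Graded.emb) P

theorem emb_smul (c : ℚ) (a : PowerSeries ℚ) :
    Graded.emb (c • a) = algebraMap ℚ (LaurentSeries ℚ) c * Graded.emb a := by
  rw [PowerSeries.smul_eq_C_mul, map_mul, Graded.emb_C]

/-- **Quotient form of the Fricke relation** in `ℚ((q))`:
`D s(j, j_p) = r(j, j_p)` implies `p¹² s(j_p, j) = D r(j_p, j)`. -/
theorem fricke_quot (p : ℕ) [NeZero p] (h : FrickePrinciple p) (r s : MvPolynomial (Fin 2) ℚ)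
    (hrs : DQ p * aeval ![jq, jqp p] s = aeval ![jq, jqp p] r) :
    algebraMap ℚ (LaurentSeries ℚ) ((p : ℚ) ^ 12) * aeval ![jqp p, jq] s
      = DQ p * aeval ![jqp p, jq] r := by
  have hp0 : (p : ℚ) ≠ 0 := Nat.cast_ne_zero.mpr (NeZero.ne p)
  rw [DQ_eq, jq_eq, jqp_eq] at hrs ⊢
  refine quot_core (Graded.emb e4Q) (Graded.emb (pexp p e4Q)) (Graded.emb deltaQ)
    (Graded.emb (pexp p deltaQ)) (algebraMap ℚ (LaurentSeries ℚ) ((p : ℚ) ^ 4))
    (algebraMap ℚ (LaurentSeries ℚ) ((p : ℚ) ^ 12)) emb_deltaQ_ne_zero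
    (emb_pexp_deltaQ_ne_zero p) ?_ ?_ ?_ r s hrs
  · rw [← map_pow]
    congr 1
    ring
  · rw [Ne, map_eq_zero]
    exact pow_ne_zero 12 hp0
  · intro Φ k hΦ h0
    have hg : (fun i => Graded.emb (gens p i)) = ![Graded.emb e4Q, Graded.emb (pexp p e4Q),
        Graded.emb deltaQ, Graded.emb (pexp p deltaQ)] := by
      funext i
      fin_cases i <;> rfl
    have hgW : (fun i => Graded.emb (gensW p i))
        = ![algebraMap ℚ (LaurentSeries ℚ) ((p : ℚ) ^ 4) * Graded.emb (pexp p e4Q),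
            Graded.emb e4Q,
            algebraMap ℚ (LaurentSeries ℚ) ((p : ℚ) ^ 12) * Graded.emb (pexp p deltaQ),
            Graded.emb deltaQ] := by
      funext i
      fin_cases i
      · exact emb_smul _ _
      · rfl
      · exact emb_smul _ _
      · rfl
    have h1 : aeval (gens p) Φ = 0 := by
      apply Graded.emb_injective
      rw [emb_aeval, hg, h0, map_zero]
    have h2 := h Φ k hΦ h1
    rw [← hgW, ← emb_aeval, h2, map_zero]

/-! ### `D ∈ ℚ(j, j_p)` -/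

/-- `D = Δ(q)/Δ(q^p)` is a quotient of polynomials in `j(q)`, `j(q^p)` with rational
coefficients (`p` prime). -/
theorem exists_quot {p : ℕ} (hp : p.Prime) [NeZero p] :
    ∃ r s : MvPolynomial (Fin 2) ℚ, aeval ![jq, jqp p] s ≠ 0 ∧
      DQ p * aeval ![jq, jqp p] s = aeval ![jq, jqp p] r := by
  have h1 : qExpand ℚ p (Graded.emb deltaQ) / Graded.emb deltaQ ∈ (mfGraded p).field :=
    qExpand_delta_div_mem p (dvd_refl p)
  have h2 : DQ p ∈ (mfGraded p).field := by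
    have h := (mfGraded p).field.inv_mem h1
    rwa [inv_div] at h
  have h3 : DQ p ∈ IntermediateField.adjoin ℚ {jq, qExpand ℚ p jq} :=
    Fermat.Agent.S28.Char0Gen.mem_adjoin_of_indep p (p + 1)
      (by rw [Fermat.Agent.Lib.Gamma0Count.index_Gamma0 p hp.ne_zero,
        Fermat.Agent.S30.AuxLevel.dedekindPsi_prime hp])
      (qExpand ℚ p jq) (qExpand_jq_mem p (dvd_refl p))
      (Fermat.Agent.S30.AuxLevel.indep_rat p hp) (DQ p) h2
  have hrange : ({jq, qExpand ℚ p jq} : Set (LaurentSeries ℚ)) = Set.range ![jq, jqp p] := by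
    rw [Matrix.range_cons, Matrix.range_cons, Matrix.range_empty, Set.union_empty, jqp]
    rfl
  rw [hrange, IntermediateField.mem_adjoin_range_iff] at h3
  obtain ⟨r, s, hrs⟩ := h3
  have hs0 : aeval ![jq, jqp p] s ≠ 0 := by
    intro h0
    rw [h0, div_zero] at hrs
    exact DQ_ne_zero p hrs
  exact ⟨r, s, hs0, by rw [hrs, div_mul_cancel₀ _ hs0]⟩

/-! ### The swap -/

theorem coeffMap_inj {R S : Type*} [CommRing R] [CommRing S] (f : R →+* S)
    (hf : Function.Injective f) : Function.Injective (coeffMap f) := by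
  intro x y h
  ext k
  apply hf
  rw [← coeffMap_coeff, ← coeffMap_coeff, h]

theorem coeffMap_jq (K : Type*) [Field K] [CharZero K] : coeffMap (algebraMap ℚ K) jq = jqModC K :=
  map_jqModC (K := ℚ) (algebraMap ℚ K)

theorem emb_deltaQ_eq : Graded.emb deltaQ = EisFormal.deltaL ℚ := by
  unfold deltaQ EisFormal.deltaL EisFormal.etaL EisFormal.etaR
  rw [map_mul, HahnSeries.ofPowerSeries_X, ← map_pow, dedekindEtaUnit, map_pow]

theorem coeffMap_DQ (K : Type*) [Field K] [CharZero K] {p : ℕ} (hp : p.Prime) [NeZero p] :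
    coeffMap (algebraMap ℚ K) (DQ p) = EisFormal.eisD K p hp.pos := by
  rw [DQ, map_div₀, coeffMap_qExpand, emb_deltaQ_eq, EisFormal.coeffMap_deltaL, EisFormal.eisD,
    HeckeGood.expand_eq_qExpand]

/-- **The Fricke relation for an abstract swap**, from the Fricke principle.  `σ` is a
`q`-expansion embedding of a field `L`, `w` a ring endomorphism with `σ (w J) = j(q^p)` and
`w (w J) = J`, where `σ J = j(q)`; then `w D · D = p ^ 12` for `D = Δ(q)/Δ(q^p)`. -/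
theorem fricke_swap_of {p : ℕ} (hp : p.Prime) (h : FrickePrinciple p)
    {K L : Type*} [Field K] [CharZero K] [Field L]
    (σ : L →+* LaurentSeries K) (w : L →+* L) (J Dl : L)
    (hJ : σ J = jqModC K) (hwJ : σ (w J) = Congr.expand p hp.pos (jqModC K))
    (hww : w (w J) = J) (hD : σ Dl = EisFormal.eisD K p hp.pos) :
    w Dl * Dl = (p : L) ^ 12 := by
  have : NeZero p := ⟨hp.ne_zero⟩
  have : CharZero (LaurentSeries K) :=
    charZero_of_injective_ringHom (HahnSeries.C_injective (Γ := ℤ) (R := K))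
  have : CharZero L := RingHom.charZero σ
  have hφinj : Function.Injective (coeffMap (algebraMap ℚ K)) :=
    coeffMap_inj _ (algebraMap ℚ K).injective
  have hφjp : coeffMap (algebraMap ℚ K) (jqp p) = Congr.expand p hp.pos (jqModC K) := by
    rw [jqp, coeffMap_qExpand, coeffMap_jq, HeckeGood.expand_eq_qExpand]
  have C1 : ∀ P : MvPolynomial (Fin 2) ℚ,
      σ (aeval ![J, w J] P) = coeffMap (algebraMap ℚ K) (aeval ![jq, jqp p] P) := by
    intro P
    induction P using MvPolynomial.induction_on with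
    | C a => rw [aeval_C, aeval_C, eq_ratCast, eq_ratCast, map_ratCast, map_ratCast]
    | add q₁ q₂ h₁ h₂ => rw [map_add, map_add, map_add, map_add, h₁, h₂]
    | mul_X q i hq =>
      rw [map_mul, map_mul, map_mul, map_mul, hq, aeval_X, aeval_X]
      congr 1
      fin_cases i
      · exact hJ.trans (coeffMap_jq K).symm
      · exact hwJ.trans hφjp.symm
  have C2 : ∀ P : MvPolynomial (Fin 2) ℚ,
      σ (aeval ![w J, J] P) = coeffMap (algebraMap ℚ K) (aeval ![jqp p, jq] P) := by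
    intro P
    induction P using MvPolynomial.induction_on with
    | C a => rw [aeval_C, aeval_C, eq_ratCast, eq_ratCast, map_ratCast, map_ratCast]
    | add q₁ q₂ h₁ h₂ => rw [map_add, map_add, map_add, map_add, h₁, h₂]
    | mul_X q i hq =>
      rw [map_mul, map_mul, map_mul, map_mul, hq, aeval_X, aeval_X]
      congr 1
      fin_cases i
      · exact hwJ.trans hφjp.symm
      · exact hJ.trans (coeffMap_jq K).symm
  have C3 : ∀ P : MvPolynomial (Fin 2) ℚ, w (aeval ![J, w J] P) = aeval ![w J, J] P := by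
    intro P
    induction P using MvPolynomial.induction_on with
    | C a => rw [aeval_C, aeval_C, eq_ratCast, map_ratCast]
    | add q₁ q₂ h₁ h₂ => rw [map_add, map_add, map_add, h₁, h₂]
    | mul_X q i hq =>
      rw [map_mul, map_mul, map_mul, hq, aeval_X, aeval_X]
      congr 1
      fin_cases i
      · rfl
      · exact hww
  have C4 : σ Dl = coeffMap (algebraMap ℚ K) (DQ p) := by rw [hD, coeffMap_DQ K hp]
  obtain ⟨r, s, hs0, hrs⟩ := exists_quot hp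
  have h2 := fricke_quot p h r s hrs
  have e1 : Dl * aeval ![J, w J] s = aeval ![J, w J] r := by
    apply σ.injective
    rw [map_mul, C1, C1, C4, ← map_mul, hrs]
  have e2 : w Dl * aeval ![w J, J] s = aeval ![w J, J] r := by
    rw [← C3, ← C3, ← map_mul, e1]
  have e3 : (p : L) ^ 12 * aeval ![w J, J] s = Dl * aeval ![w J, J] r := by
    apply σ.injective
    rw [map_mul, map_mul, C2, C2, C4, ← map_mul, ← h2, map_mul]
    congr 1
    rw [eq_ratCast, map_ratCast, map_pow, map_natCast]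
    push_cast
    rfl
  have hs' : aeval ![w J, J] s ≠ 0 := by
    rw [← C3]
    intro h0
    have h3 : aeval ![J, w J] s = 0 := w.injective (h0.trans (map_zero w).symm)
    have h4 := congrArg σ h3
    rw [C1, map_zero] at h4
    exact hs0 (hφinj (h4.trans (map_zero _).symm))
  have h5 : (p : L) ^ 12 * aeval ![w J, J] s = w Dl * Dl * aeval ![w J, J] s := by
    rw [e3, ← e2]
    ring
  exact (mul_right_cancel₀ hs' h5).symm

end Fermat.Agent.S44.L.FrickeSwap
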