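import Mathlib
import Fermat.Agent.S44.L.FrickeAn
import Fermat.Agent.S44.L.FrickeSwap

/-!
# Program MR (S44), strand L: the Fricke relation `w(D) · D = p ^ 12`, unconditional

The analytic half (`FrickeAn.fricke_principle`: weighted homogeneous relations between `E₄(q)`,
`E₄(q^p)`, `Δ(q)`, `Δ(q^p)` are carried to `p⁴ E₄(q^p)`, `E₄(q)`, `p¹² Δ(q^p)`, `Δ(q)`) plugged
into the algebra half (`FrickeSwap.fricke_swap_of`).

* `frickePrinciple p : FrickeSwap.FrickePrinciple p`
* `fricke_swap` : for every ring endomorphism `w` of a field `L` with a `q`-expansion embedding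
  `σ : L → K((q))` such that `σ J = j(q)`, `σ (w J) = j(q^p)`, `w (w J) = J`, and every `Dl : L`
  with `σ Dl = Δ(q) / Δ(q^p)` (`EisFormal.eisD`):  `w Dl * Dl = p ^ 12`.
* `fricke_swap_inv` : the same as `w Dl = p ^ 12 * Dl⁻¹`.
-/

set_option autoImplicit false

noncomputable section

namespace Fermat.Agent.S44.L.Fricke

open ModularCurve
open Fermat.Agent.S30 Fermat.Agent.S44.L

/-- The Fricke principle of `FrickeSwap` holds (analytic input: `FrickeAn.fricke_principle`). -/
theorem frickePrinciple (p : ℕ) [NeZero p] : FrickeSwap.FrickePrinciple p :=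
  fun Φ k h1 h2 => FrickeAn.fricke_principle p Φ k h1 h2

/-- **The Fricke relation for an abstract swap**: `w D · D = p ^ 12` for `D = Δ(q)/Δ(q^p)`. -/
theorem fricke_swap {p : ℕ} (hp : p.Prime)
    {K L : Type*} [Field K] [CharZero K] [Field L]
    (σ : L →+* LaurentSeries K) (w : L →+* L) (J Dl : L)
    (hJ : σ J = jqModC K) (hwJ : σ (w J) = Congr.expand p hp.pos (jqModC K))
    (hww : w (w J) = J) (hD : σ Dl = EisFormal.eisD K p hp.pos) :
    w Dl * Dl = (p : L) ^ 12 :=
  haveI : NeZero p := ⟨hp.ne_zero⟩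
  FrickeSwap.fricke_swap_of hp (frickePrinciple p) σ w J Dl hJ hwJ hww hD

/-- The Fricke relation in the form `w D = p ^ 12 · D⁻¹`. -/
theorem fricke_swap_inv {p : ℕ} (hp : p.Prime)
    {K L : Type*} [Field K] [CharZero K] [Field L]
    (σ : L →+* LaurentSeries K) (w : L →+* L) (J Dl : L)
    (hJ : σ J = jqModC K) (hwJ : σ (w J) = Congr.expand p hp.pos (jqModC K))
    (hww : w (w J) = J) (hD : σ Dl = EisFormal.eisD K p hp.pos) :
    w Dl = (p : L) ^ 12 * Dl⁻¹ := by
  have h := fricke_swap hp σ w J Dl hJ hwJ hww hD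
  have hD0 : Dl ≠ 0 := by
    rintro rfl
    have : CharZero (LaurentSeries K) :=
      charZero_of_injective_ringHom (HahnSeries.C_injective (Γ := ℤ) (R := K))
    have : CharZero L := RingHom.charZero σ
    rw [mul_zero] at h
    exact pow_ne_zero 12 (Nat.cast_ne_zero.mpr hp.ne_zero) h.symm
  rw [← h, mul_assoc, mul_inv_cancel₀ hD0, mul_one]

end Fermat.Agent.S44.L.Fricke
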