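import Mathlib
import Fermat.Agent.S44.L.FrickeSwap
import Fermat.Agent.S44.L.EisFun
import Fermat.Agent.S34.HauptU.Plug

set_option autoImplicit false
set_option linter.unusedSectionVars false
set_option synthInstance.maxHeartbeats 400000

noncomputable section

namespace Fermat.Agent.S44.L.FrickeInst

open ModularCurve
open Fermat.Agent.S30 Fermat.Agent.S30.Producer Fermat.Agent.S18.K1Defs Fermat.Agent.S18.K1Main
open Fermat.Agent.S34 Fermat.Agent.S34.TwoPrimesRank Fermat.Agent.S34.HauptU.Plug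
open Fermat.Agent.S44.L Fermat.Agent.S44.L.FrickeSwap Fermat.Agent.S44.L.EisFun

local notation "Qb" => AlgebraicClosure ℚ

theorem coeffEmb_jq_eq (K : Type*) [Field K] [CharZero K] : coeffEmb K jq = jqModC K :=
  coeffMap_jq K

/-- **Fricke relation for the `ℚ̄`-level Atkin–Lehner swap** `ToricSwap.wAL`:
`w(D) · D = p ^ 12` for `D = eisFun N' p`. -/
theorem wAL_eisFun_of (N' p : ℕ) [NeZero N'] [NeZero p] (hp : p.Prime) (hpN : ¬ p ∣ N')
    (h : FrickePrinciple p) :
    ToricSwap.wAL N' p hp hpN (eisFun N' p hp) * eisFun N' p hp = (p : FN (N' * p)) ^ 12 := by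
  refine fricke_swap_of hp h (modularFunctionFieldBar (N' * p)).val.toRingHom
    ((ToricSwap.wAL N' p hp hpN).toAlgHom.toRingHom)
    (heckeAlphaBar Qb N' p (Fermat.Agent.S24.DegreeGen.jBar N')) (eisFun N' p hp) ?_ ?_ ?_ ?_
  · show ((heckeAlphaBar Qb N' p (Fermat.Agent.S24.DegreeGen.jBar N') : FN (N' * p))
      : LaurentSeries Qb) = jqModC Qb
    rw [coe_heckeAlphaBar, Fermat.Agent.S24.DegreeGen.coe_jBar, coeffEmb_jq_eq]
  · show ((ToricSwap.wAL N' p hp hpN
      (heckeAlphaBar Qb N' p (Fermat.Agent.S24.DegreeGen.jBar N')) : FN (N' * p))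
      : LaurentSeries Qb) = Congr.expand p hp.pos (jqModC Qb)
    rw [ToricSwap.wAL_alpha, coe_heckeBetaBar, Fermat.Agent.S24.DegreeGen.coe_jBar,
      coeffEmb_jq_eq, HeckeGood.expand_eq_qExpand]
  · exact ToricSwap.wAL_wAL hp hpN _
  · rfl

/-- **Fricke relation for the `E`-level Atkin–Lehner swap** `wHom M p E` of
`S34/HauptU/Plug` (the `w` of the `TwoPrimesGauss` instance): `w(D) · D = p ^ 12` for every
`D : LE (M p) E` with `q`-expansion `Δ(q)/Δ(q^p)`. -/
theorem wHom_eis_of (M p : ℕ) [NeZero M] [NeZero p] (E : IntermediateField ℚ Qb) (hp : p.Prime)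
    (hpM : ¬ p ∣ M) (h : FrickePrinciple p) (Dl : LE (M * p) E)
    (hD : sigmaHom (M * p) E Dl = EisFormal.eisD E p hp.pos) :
    wHom M p E hp hpM Dl * Dl = (p : LE (M * p) E) ^ 12 := by
  refine fricke_swap_of hp h (sigmaHom (M * p) E) ((wHom M p E hp hpM : _ ≃+* _) : _ →+* _)
    (alphaHom M p E (jE M E)) Dl ?_ ?_ ?_ hD
  · show ((heckeAlphaBar E M p (jE M E) : LE (M * p) E) : LaurentSeries E) = jqModC E
    rw [coe_heckeAlphaBar, coe_jE, coeffEmb_jq_eq]
  · have h1 := sigmaHom_wHom_alpha M p E hp hpM (jE M E)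
    have h2 : sigmaHom (M * p) E (alphaHom M p E (jE M E)) = jqModC E := by
      show ((heckeAlphaBar E M p (jE M E) : LE (M * p) E) : LaurentSeries E) = jqModC E
      rw [coe_heckeAlphaBar, coe_jE, coeffEmb_jq_eq]
    rw [h2] at h1
    rw [HeckeGood.expand_eq_qExpand]
    exact h1
  · exact wHom_wHom M p E hp hpM _

end Fermat.Agent.S44.L.FrickeInst
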