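import Mathlib
import Fermat.Agent.S44.L.Fricke
import Fermat.Agent.S44.L.FrickeInst
import Fermat.Agent.S44.L.EisInt
import Fermat.Agent.S34.Sat

/-!
# Program MR (S44), strand L: the Eisenstein function `D = Δ(q)/Δ(q^p)` in the `j`-chart

`E`-level vocabulary of `S34/Sat.sat_j` / `S44/L/RedInst`: levels `(M, p)`, `p` prime, `p ∤ M`,
`E ⊆ ℚ̄`, `O = OE A E` a discrete valuation ring over `p`, `α = alphaHom M p E`,
`σ = sigmaHom (M p) E`, `w = wHom M p E hp hpM`, chart `C = Chart O (α j)`.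

Level-free part (Mathlib + `GaussDVR` only):

* `exists_isIntegral_mul` : an element of `L` which is a root of a monic polynomial with
  coefficients in `E[u]` becomes integral over `O[u]` after multiplication by a nonzero
  constant of `O` (`E = Frac O`).
* `isIntegral_of_sat` : **integral over `E[u]` + Gauss-integral at both vertical primes ⟹
  integral over `O[u]`**, given the saturation property `(ϖ) = p_∞ ∩ p_0` (`TwoPrimesGauss.sat`)
  as a hypothesis.

`E`-level part:

* `eisE M p hp E : LE (M p) E`, the Eisenstein function `D`; `wHom_eisE_mul` : `w D · D = p¹²`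
  (`Fricke.fricke_swap`).
* `sigma_eisE`, `sigma_wHom_eisE` : the `q`-expansions of `D` and `w D = p¹² Δ(q^p)/Δ(q)` as
  quotients of integral series; `red_eisE`, `red_wHom_eisE` : their Gauss reductions
  `Δ̄ (Δ̄^p)⁻¹ ≠ 0` and `0`.
* `isIntegral_eisE`, `isIntegral_wHom_eisE` : `D` and `w D` are integral over `O[α j]`.
* `exists_eis_chart` : `D, D' = w D ∈ C` with `D D' = p¹²`, `redInf D = Δ̄ (Δ̄^p)⁻¹ = redZero D'`,
  `redZero D = 0 = redInf D'`: the hypotheses of `EisNode.eis_node` / `eis_smooth`.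
-/

set_option autoImplicit false
set_option linter.unusedSectionVars false
set_option linter.unusedVariables false
set_option linter.style.haveILetI false
set_option synthInstance.maxHeartbeats 400000

open ModularCurve Polynomial

noncomputable section

namespace Fermat.Agent.S44.L.EisChart

/-! ### Clearing denominators (level-free) -/

section Clear

variable {O E L : Type*} [CommRing O] [IsDomain O] [Field E] [Algebra O E] [IsFractionRing O E]
  [Field L] [Algebra E L] [Algebra O L] [IsScalarTower O E L]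

/-- Constants of `O` are integral over `O[u]`. -/
theorem isIntegral_algebraMap_adjoin (u : L) (r : O) :
    IsIntegral (Algebra.adjoin O {u}) (algebraMap O L r) := by
  have h : algebraMap O L r = algebraMap (Algebra.adjoin O {u}) L
      (algebraMap O (Algebra.adjoin O {u}) r) := rfl
  rw [h]
  exact isIntegral_algebraMap

/-- Elements of `O[u]` are integral over `O[u]`. -/
theorem isIntegral_of_mem_adjoin (u : L) {x : L} (hx : x ∈ Algebra.adjoin O {u}) :
    IsIntegral (Algebra.adjoin O {u}) x := by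
  have h : x = algebraMap (Algebra.adjoin O {u}) L ⟨x, hx⟩ := rfl
  rw [h]
  exact isIntegral_algebraMap

/-- A polynomial over `E = Frac O` evaluated at `u` lies in `O[u]` after multiplication by a
nonzero constant of `O`. -/
theorem exists_mul_aeval_mem (u : L) (q : E[X]) :
    ∃ c : O, c ≠ 0 ∧ algebraMap O L c * aeval u q ∈ Algebra.adjoin O {u} := by
  obtain ⟨b, hb, hq⟩ := IsLocalization.integerNormalization_spec (nonZeroDivisors O) q
  refine ⟨b, nonZeroDivisors.ne_zero hb, ?_⟩
  have h1 : algebraMap O L b * aeval u q =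
      aeval u (IsLocalization.integerNormalization (nonZeroDivisors O) q) := by
    have h2 := congrArg (aeval u) hq
    rw [aeval_map_algebraMap] at h2
    rw [h2, ← algebraMap_smul E b q, map_smul, Algebra.smul_def,
      ← IsScalarTower.algebraMap_apply O E L]
  rw [h1]
  exact aeval_mem_adjoin_singleton O u

/-- Finitely many coefficients of `Q : E[X][X]` at once. -/
theorem exists_mul_aeval_isIntegral (u : L) (Q : E[X][X]) (s : Finset ℕ) :
    ∃ c : O, c ≠ 0 ∧ ∀ i ∈ s,
      IsIntegral (Algebra.adjoin O {u}) (algebraMap O L c * aeval u (Q.coeff i)) := by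
  classical
  induction s using Finset.induction_on with
  | empty => exact ⟨1, one_ne_zero, fun i hi => absurd hi (Finset.notMem_empty i)⟩
  | insert a s ha ih =>
    obtain ⟨c, hc, h⟩ := ih
    obtain ⟨c', hc', h'⟩ := exists_mul_aeval_mem (O := O) u (Q.coeff a)
    refine ⟨c' * c, mul_ne_zero hc' hc, fun i hi => ?_⟩
    rcases Finset.mem_insert.mp hi with rfl | hi
    · rw [map_mul, mul_right_comm]
      exact (isIntegral_of_mem_adjoin u h').mul (isIntegral_algebraMap_adjoin u c)
    · rw [map_mul, mul_assoc]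
      exact (isIntegral_algebraMap_adjoin u c').mul (h i hi)

/-- **Clearing denominators.**  A root `x ∈ L` of a monic polynomial with coefficients in
`E[u]` becomes integral over `O[u]` after multiplication by a nonzero constant of `O`. -/
theorem exists_isIntegral_mul (u x : L) (Q : E[X][X]) (hQ : Q.Monic)
    (hx : Q.eval₂ ((aeval u : E[X] →ₐ[E] L) : E[X] →+* L) x = 0) :
    ∃ c : O, c ≠ 0 ∧ IsIntegral (Algebra.adjoin O {u}) (algebraMap O L c * x) := by
  obtain ⟨c, hc, h⟩ := exists_mul_aeval_isIntegral (O := O) u Q (Finset.range Q.natDegree)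
  refine ⟨c, hc, ?_⟩
  set φ : E[X] →+* L := ((aeval u : E[X] →ₐ[E] L) : E[X] →+* L) with hφ
  have hP₀m : (Q.map φ).Monic := hQ.map φ
  have hd : (Q.map φ).natDegree = Q.natDegree := hQ.natDegree_map φ
  have hroot : (Q.map φ).eval x = 0 := by rw [eval_map]; exact hx
  have hPm : (scaleRoots (Q.map φ) (algebraMap O L c)).Monic :=
    (monic_scaleRoots_iff _).mpr hP₀m
  have hdeg : (scaleRoots (Q.map φ) (algebraMap O L c)).natDegree ≠ 0 := by
    rw [natDegree_scaleRoots]
    intro h0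
    have h1 : Q.map φ = 1 := eq_one_of_monic_natDegree_zero hP₀m h0
    rw [h1, eval_one] at hroot
    exact one_ne_zero hroot
  have hPx : (scaleRoots (Q.map φ) (algebraMap O L c)).eval (algebraMap O L c * x) = 0 := by
    rw [scaleRoots_eval_mul, hroot, mul_zero]
  refine IsIntegral.of_aeval_monic_of_isIntegral_coeff hPm hdeg
    (by rw [hPx]; exact isIntegral_zero) fun i => ?_
  rw [coeff_scaleRoots, hd]
  rcases lt_trichotomy i Q.natDegree with hi | hi | hi
  · have h1 := h i (Finset.mem_range.mpr hi)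
    have e : (Q.map φ).coeff i * algebraMap O L c ^ (Q.natDegree - i) =
        (algebraMap O L c * aeval u (Q.coeff i)) *
          algebraMap O L c ^ (Q.natDegree - i - 1) := by
      have h2 : Q.natDegree - i = (Q.natDegree - i - 1) + 1 := by omega
      rw [coeff_map, h2, pow_succ, Nat.add_sub_cancel]
      show aeval u (Q.coeff i) * _ = _
      ring
    rw [e]
    exact h1.mul ((isIntegral_algebraMap_adjoin u c).pow _)
  · rw [hi, ← hd, coeff_natDegree, hP₀m.leadingCoeff, one_mul]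
    exact (isIntegral_algebraMap_adjoin u c).pow _
  · rw [coeff_eq_zero_of_natDegree_lt (hd ▸ hi), zero_mul]
    exact isIntegral_zero

end Clear

/-! ### Descent along the uniformiser (level-free) -/

section Descent

variable {O E L : Type*} [CommRing O] [IsDomain O] [IsDiscreteValuationRing O] [Field E]
  [Algebra O E] [FaithfulSMul O E] [Field L] [Algebra O L]
  (ϖ : O) (hϖ : Irreducible ϖ) (σ : L →+* LaurentSeries E)
  (hσO : ∀ r : O, σ (algebraMap O L r) = HahnSeries.C (algebraMap O E r))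
  (w : L ≃+* L) (hwO : ∀ r : O, w (algebraMap O L r) = algebraMap O L r) (u : L)
  (hsat : ∀ x : L, ∀ (hx : σ x ∈ Fermat.Agent.S30.GaussDVR.V O E)
    (hWx : σ (w x) ∈ Fermat.Agent.S30.GaussDVR.V O E),
    IsIntegral (Algebra.adjoin O {u}) x →
    Fermat.Agent.S30.GaussDVR.red O E ⟨σ x, hx⟩ = 0 →
    Fermat.Agent.S30.GaussDVR.red O E ⟨σ (w x), hWx⟩ = 0 →
    ∃ c : L, IsIntegral (Algebra.adjoin O {u}) c ∧ x = algebraMap O L ϖ * c)

open Fermat.Agent.S30

include hσO in
theorem algebraMap_unif_ne_zero (hϖ : Irreducible ϖ) : algebraMap O L ϖ ≠ 0 := by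
  intro h
  have h1 := hσO ϖ
  rw [h, map_zero] at h1
  have h2 : algebraMap O E ϖ = 0 := HahnSeries.C_injective (by rw [← h1, map_zero])
  exact hϖ.ne_zero (FaithfulSMul.algebraMap_injective O E (by rw [h2, map_zero]))

include hσO in
/-- `σ (ϖ ^ (n+1) x)` lies in the Gauss ring and reduces to `0` when `σ x` is Gauss-integral. -/
theorem sigma_pow_mul_mem (hϖ : Irreducible ϖ) (x : L) (hx : σ x ∈ GaussDVR.V O E) (n : ℕ) :
    ∃ h : σ (algebraMap O L ϖ ^ (n + 1) * x) ∈ GaussDVR.V O E,
      GaussDVR.red O E ⟨_, h⟩ = 0 := by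
  have e : σ (algebraMap O L ϖ ^ (n + 1) * x) =
      ((GaussDVR.unif E ϖ ^ (n + 1) * ⟨σ x, hx⟩ : GaussDVR.V O E) : LaurentSeries E) := by
    rw [map_mul, map_pow, hσO, Subring.coe_mul, Subring.coe_pow, GaussDVR.coe_unif]
  have hmem : σ (algebraMap O L ϖ ^ (n + 1) * x) ∈ GaussDVR.V O E := by
    rw [e]
    exact SetLike.coe_mem _
  refine ⟨hmem, ?_⟩
  have e2 : (⟨σ (algebraMap O L ϖ ^ (n + 1) * x), hmem⟩ : GaussDVR.V O E) =
      GaussDVR.unif E ϖ ^ (n + 1) * ⟨σ x, hx⟩ := Subtype.ext e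
  rw [e2, map_mul, map_pow, GaussDVR.red_unif E ϖ hϖ, zero_pow (Nat.succ_ne_zero n), zero_mul]

include hσO hwO hsat in
/-- Descent: if `ϖ ^ n x` is integral over `O[u]` and `σ x`, `σ (w x)` are Gauss-integral,
then `x` is integral over `O[u]`. -/
theorem isIntegral_of_pow_mul (hϖ : Irreducible ϖ) (x : L) (hx : σ x ∈ GaussDVR.V O E)
    (hwx : σ (w x) ∈ GaussDVR.V O E) :
    ∀ n : ℕ, IsIntegral (Algebra.adjoin O {u}) (algebraMap O L ϖ ^ n * x) →
      IsIntegral (Algebra.adjoin O {u}) x := by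
  intro n
  induction n with
  | zero =>
    intro h
    rwa [pow_zero, one_mul] at h
  | succ n ih =>
    intro h
    apply ih
    obtain ⟨h1, h1r⟩ := sigma_pow_mul_mem ϖ σ hσO hϖ x hx n
    have ew : w (algebraMap O L ϖ ^ (n + 1) * x) = algebraMap O L ϖ ^ (n + 1) * w x := by
      rw [map_mul, map_pow, hwO]
    obtain ⟨h2, h2r⟩ := sigma_pow_mul_mem ϖ σ hσO hϖ (w x) hwx n
    have h2' : σ (w (algebraMap O L ϖ ^ (n + 1) * x)) ∈ GaussDVR.V O E := by
      rw [ew]
      exact h2
    have h2r' : GaussDVR.red O E ⟨σ (w (algebraMap O L ϖ ^ (n + 1) * x)), h2'⟩ = 0 := by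
      have e3 : (⟨σ (w (algebraMap O L ϖ ^ (n + 1) * x)), h2'⟩ : GaussDVR.V O E) =
          ⟨σ (algebraMap O L ϖ ^ (n + 1) * w x), h2⟩ := Subtype.ext (congrArg σ ew)
      rw [e3]
      exact h2r
    obtain ⟨c, hc, hcx⟩ := hsat _ h1 h2' h h1r h2r'
    have hϖ0 : algebraMap O L ϖ ≠ 0 := algebraMap_unif_ne_zero ϖ σ hσO hϖ
    have hc' : c = algebraMap O L ϖ ^ n * x := by
      apply mul_left_cancel₀ hϖ0
      rw [← hcx, pow_succ]
      ring
    rw [← hc']
    exact hc

include hσO hwO hsat in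
/-- **Integral over `E[u]` and Gauss-integral at both vertical primes ⟹ integral over `O[u]`**,
in the form "some nonzero constant multiple is integral over `O[u]`". -/
theorem isIntegral_of_sat (hϖ : Irreducible ϖ) (x : L) (hx : σ x ∈ GaussDVR.V O E)
    (hwx : σ (w x) ∈ GaussDVR.V O E) (c : O) (hc : c ≠ 0)
    (hcx : IsIntegral (Algebra.adjoin O {u}) (algebraMap O L c * x)) :
    IsIntegral (Algebra.adjoin O {u}) x := by
  obtain ⟨n, v, hv⟩ := IsDiscreteValuationRing.eq_unit_mul_pow_irreducible hc hϖ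
  apply isIntegral_of_pow_mul ϖ σ hσO w hwO u hsat hϖ x hx hwx n
  have h1 : algebraMap O L ϖ ^ n * x =
      algebraMap O L ((v⁻¹ : Oˣ) : O) * (algebraMap O L c * x) := by
    rw [hv, map_mul, map_pow, ← mul_assoc, ← mul_assoc, ← map_mul, Units.inv_mul, map_one,
      one_mul]
  rw [h1]
  have h2 : IsIntegral (Algebra.adjoin O {u}) (algebraMap O L ((v⁻¹ : Oˣ) : O)) := by
    have h : algebraMap O L ((v⁻¹ : Oˣ) : O) = algebraMap (Algebra.adjoin O {u}) L
        (algebraMap O (Algebra.adjoin O {u}) ((v⁻¹ : Oˣ) : O)) := rfl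
    rw [h]
    exact isIntegral_algebraMap
  exact h2.mul hcx

end Descent

/-! ### The reductions of the chart ring as Gauss reductions (abstract) -/

section RedEq

open Fermat.Agent.S30 Fermat.Agent.S34.TwoPrimesGauss

variable {O E : Type*} [CommRing O] [IsDomain O] [IsDiscreteValuationRing O] [Field E]
  [Algebra O E] [FaithfulSMul O E]
  {L' L : Type*} [Field L'] [Field L] [Algebra O L'] [Algebra O L]
  (ϖ : O) (hϖ : Irreducible ϖ)
  (α : L' →+* L)
  (σ : L →+* LaurentSeries E)
  (hσO : ∀ r : O, σ (algebraMap O L r) = HahnSeries.C (algebraMap O E r))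
  (hσfrac : ∀ x : L, σ x ∈ GaussDVR.fracField O E)
  (u' : L') (U : LaurentSeries O) (hσu : σ (α u') = GaussDVR.iota O E U)
  (w : L ≃+* L) (hwO : ∀ r : O, w (algebraMap O L r) = algebraMap O L r)
  (ℓ : ℕ) [NeZero ℓ]
  (hwα : ∀ x : L', σ (w (α x)) = qExpand E ℓ (σ (α x)))

/-- `redInf c` is the Gauss reduction of `σ c`. -/
theorem redInf_eq (c : Chart O (α u')) (h : σ (c : L) ∈ GaussDVR.V O E) :
    redInf ϖ hϖ α σ hσO hσfrac u' U hσu c = GaussDVR.red O E ⟨σ (c : L), h⟩ := rfl

/-- `redZero c` is the Gauss reduction of `σ (w c)`. -/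
theorem redZero_eq (c : Chart O (α u')) (h : σ (w (c : L)) ∈ GaussDVR.V O E) :
    redZero ϖ hϖ α σ hσO hσfrac u' U hσu w hwO ℓ hwα c = GaussDVR.red O E ⟨σ (w (c : L)), h⟩ :=
  rfl

end RedEq

/-! ### Transport of a monic relation along a `q`-expansion embedding (abstract) -/

section Transport

variable {E L : Type*} [Field E] [Field L] [Algebra E L]

/-- A monic relation over `E[j(q)]` satisfied by the `q`-expansion of `x ∈ L` is a monic relation
over `E[j]` in `L`. -/
theorem eval₂_aeval_of_sigma (σ : L →+* LaurentSeries E) (hσ : Function.Injective σ)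
    (hσE : ∀ a : E, σ (algebraMap E L a) = HahnSeries.C a) (j x : L) (hj : σ j = jqModC E)
    (Q : E[X][X])
    (hQx : Q.eval₂ (Polynomial.eval₂RingHom HahnSeries.C (jqModC E)) (σ x) = 0) :
    Q.eval₂ ((aeval j : E[X] →ₐ[E] L) : E[X] →+* L) x = 0 := by
  apply hσ
  have hv : σ.comp ((aeval j : E[X] →ₐ[E] L) : E[X] →+* L) =
      Polynomial.eval₂RingHom HahnSeries.C (jqModC E) := by
    apply Polynomial.ringHom_ext
    · intro a
      have h1 : ((aeval j : E[X] →ₐ[E] L) : E[X] →+* L) (Polynomial.C a) = algebraMap E L a :=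
        Polynomial.aeval_C j a
      rw [RingHom.comp_apply, h1, coe_eval₂RingHom, eval₂_C, hσE]
    · have h1 : ((aeval j : E[X] →ₐ[E] L) : E[X] →+* L) Polynomial.X = j := Polynomial.aeval_X j
      rw [RingHom.comp_apply, h1, coe_eval₂RingHom, eval₂_X, hj]
  have h2 := Polynomial.hom_eval₂ Q ((aeval j : E[X] →ₐ[E] L) : E[X] →+* L) σ x
  rw [hv] at h2
  rw [map_zero]
  exact h2.trans hQx

end Transport

/-! ### Elements of an integral closure (abstract) -/

section SubalgAbs

variable {R A : Type*} [CommRing R] [CommRing A] [Algebra R A]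

/-- A product relation in `A` between two elements of a subalgebra, as a relation in the
subalgebra. -/
theorem subalgebra_mul_eq_natCast_pow (S : Subalgebra R A) (x y : S) (n k : ℕ)
    (h : (x : A) * (y : A) = (n : A) ^ k) : x * y = (n : S) ^ k := by
  apply Subtype.ext
  rw [Subalgebra.coe_mul, Subalgebra.coe_pow,
    show ((n : S) : A) = (n : A) from map_natCast S.val n]
  exact h

/-- An integral element as an element of the integral closure. -/
theorem exists_integralClosure_coe_eq (x : A) (h : IsIntegral R x) :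
    ∃ c : integralClosure R A, (c : A) = x := ⟨⟨x, h⟩, rfl⟩

end SubalgAbs

/-! ### The `E`-level Eisenstein function -/

section ELevel

open Fermat.Agent.S18.K1Defs Fermat.Agent.S30 Fermat.Agent.S30.E2Deg
open Fermat.Agent.S34 Fermat.Agent.S34.Sat
open Fermat.Agent.S34.TwoPrimesRank Fermat.Agent.S34.HauptU.Plug Fermat.Agent.S34.TwoPrimesGauss
open Fermat.Agent.S44.L.EisFormal

local notation "Qb" => AlgebraicClosure ℚ

variable (M p : ℕ) [NeZero M] [NeZero p] (hp : p.Prime) (E : IntermediateField ℚ Qb)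

/-- `Δ(q)/Δ(q^p)` lies in the function field of level `M p` over `E`. -/
theorem eisD_mem_LE : eisD E p hp.pos ∈ LE (M * p) E := by
  rw [← Fermat.Agent.S44.L.EisFun.coeffEmb_eisD E p hp.pos]
  exact coeffEmb_mem_laurentBaseChange E
    (full_degeneracy_le (Dvd.intro_left M rfl) (Fermat.Agent.S44.L.EisFun.eisD_rat_mem_full p hp))

/-- **The Eisenstein function** `D = Δ(q)/Δ(q^p)` of level `M p` over `E`. -/
def eisE : LE (M * p) E := ⟨eisD E p hp.pos, eisD_mem_LE M p hp E⟩

@[simp]
theorem coe_eisE : ((eisE M p hp E : LE (M * p) E) : LaurentSeries E) = eisD E p hp.pos := rfl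

theorem sigmaHom_eisE : sigmaHom (M * p) E (eisE M p hp E) = eisD E p hp.pos := rfl

theorem eisE_ne_zero : eisE M p hp E ≠ 0 := by
  intro h
  have h1 := congrArg (sigmaHom (M * p) E) h
  rw [sigmaHom_eisE, map_zero] at h1
  exact eisD_ne_zero p hp.pos h1

theorem sigmaHom_algebraMap_E (N : ℕ) (E : IntermediateField ℚ Qb) (a : E) :
    sigmaHom N E (algebraMap E (LE N E) a) = HahnSeries.C a := by
  rw [← Fermat.Agent.S44.L.EisInt.algebraMap_eq_C_laurent]
  rfl

/-- **The Fricke relation at `E`-level**: `w D · D = p ^ 12`. -/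
theorem wHom_eisE_mul (hpM : ¬ p ∣ M) :
    wHom M p E hp hpM (eisE M p hp E) * eisE M p hp E = (p : LE (M * p) E) ^ 12 :=
  Fermat.Agent.S44.L.FrickeInst.wHom_eis_of M p E hp hpM
    (Fermat.Agent.S44.L.Fricke.frickePrinciple p) (eisE M p hp E) rfl

/-- `w D = p ^ 12 · D⁻¹`. -/
theorem wHom_eisE_eq (hpM : ¬ p ∣ M) :
    wHom M p E hp hpM (eisE M p hp E) = (p : LE (M * p) E) ^ 12 * (eisE M p hp E)⁻¹ :=
  (eq_mul_inv_iff_mul_eq₀ (eisE_ne_zero M p hp E)).mpr (wHom_eisE_mul M p hp E hpM)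

/-! #### Gauss reductions -/

section Gauss

variable {O : Type} [CommRing O] [IsDomain O] [IsDiscreteValuationRing O] [Algebra O E]
  [IsFractionRing O E]

/-- `GaussDVR.red_eq` with the element of the Gauss ring given explicitly. -/
theorem red_eq_of_mul (X : LaurentSeries E) (h : X ∈ GaussDVR.V O E) (a b : LaurentSeries O)
    (hb : GaussDVR.rho O b ≠ 0) (hX : X * GaussDVR.iota O E b = GaussDVR.iota O E a) :
    GaussDVR.red O E ⟨X, h⟩ = GaussDVR.rho O a / GaussDVR.rho O b :=
  GaussDVR.red_eq O E ⟨X, h⟩ a b hb hX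

theorem iota_deltaL : GaussDVR.iota O E (deltaL O) = deltaL E := coeffMap_deltaL _

theorem iota_expand_deltaL :
    GaussDVR.iota O E (Congr.expand p hp.pos (deltaL O)) = Congr.expand p hp.pos (deltaL E) := by
  rw [Congr.coeffMap_expand, coeffMap_deltaL]

theorem rho_deltaL : GaussDVR.rho O (deltaL O) = deltaL (IsLocalRing.ResidueField O) :=
  coeffMap_deltaL _

theorem rho_expand_deltaL [CharP (IsLocalRing.ResidueField O) p] :
    GaussDVR.rho O (Congr.expand p hp.pos (deltaL O)) =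
      deltaL (IsLocalRing.ResidueField O) ^ p := by
  haveI : Fact p.Prime := ⟨hp⟩
  rw [Congr.coeffMap_expand, coeffMap_deltaL, expand_deltaL_of_charP p hp.pos]

/-- `σ D · Δ(q^p) = Δ(q)` with integral series. -/
theorem sigma_eisE_mul :
    sigmaHom (M * p) E (eisE M p hp E) * GaussDVR.iota O E (Congr.expand p hp.pos (deltaL O)) =
      GaussDVR.iota O E (deltaL O) := by
  rw [iota_deltaL, iota_expand_deltaL p hp E, sigmaHom_eisE, eisD]
  exact div_mul_cancel₀ _ (expand_deltaL_ne_zero p hp.pos)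

/-- `σ D` lies in the Gauss ring. -/
theorem sigma_eisE_mem_V [CharP (IsLocalRing.ResidueField O) p] :
    sigmaHom (M * p) E (eisE M p hp E) ∈ GaussDVR.V O E :=
  ⟨deltaL O, Congr.expand p hp.pos (deltaL O),
    by rw [rho_expand_deltaL p hp]; exact pow_ne_zero p deltaL_ne_zero, sigma_eisE_mul M p hp E⟩

/-- **The Gauss reduction of `D`** is `Δ̄ (Δ̄^p)⁻¹ = Δ̄^(1-p)`. -/
theorem red_eisE [CharP (IsLocalRing.ResidueField O) p] (X : LaurentSeries E)
    (hX : X = sigmaHom (M * p) E (eisE M p hp E)) (h : X ∈ GaussDVR.V O E) :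
    GaussDVR.red O E ⟨X, h⟩ =
      deltaL (IsLocalRing.ResidueField O) * (deltaL (IsLocalRing.ResidueField O) ^ p)⁻¹ := by
  have hb : GaussDVR.rho O (Congr.expand p hp.pos (deltaL O)) ≠ 0 := by
    rw [rho_expand_deltaL p hp]
    exact pow_ne_zero p deltaL_ne_zero
  have hmul : X * GaussDVR.iota O E (Congr.expand p hp.pos (deltaL O)) =
      GaussDVR.iota O E (deltaL O) := by
    rw [hX]
    exact sigma_eisE_mul M p hp E
  rw [red_eq_of_mul E X h (deltaL O) (Congr.expand p hp.pos (deltaL O)) hb hmul, rho_deltaL,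
    rho_expand_deltaL p hp, div_eq_mul_inv]

theorem red_eisE_ne_zero [CharP (IsLocalRing.ResidueField O) p] :
    deltaL (IsLocalRing.ResidueField O) * (deltaL (IsLocalRing.ResidueField O) ^ p)⁻¹ ≠ 0 :=
  mul_ne_zero deltaL_ne_zero (inv_ne_zero (pow_ne_zero p deltaL_ne_zero))

/-- `σ (w D) · Δ(q) = p ^ 12 Δ(q^p)` with integral series. -/
theorem sigma_wHom_eisE_mul (hpM : ¬ p ∣ M) :
    sigmaHom (M * p) E (wHom M p E hp hpM (eisE M p hp E)) * GaussDVR.iota O E (deltaL O) =
      GaussDVR.iota O E (HahnSeries.C ((p : O) ^ 12) * Congr.expand p hp.pos (deltaL O)) := by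
  have h := congrArg (sigmaHom (M * p) E) (wHom_eisE_mul M p hp E hpM)
  rw [map_mul, map_pow, map_natCast, sigmaHom_eisE, eisD] at h
  have hE : Congr.expand p hp.pos (deltaL E) ≠ 0 := expand_deltaL_ne_zero p hp.pos
  have hC : (HahnSeries.C ((p : E) ^ 12) : LaurentSeries E) = (p : LaurentSeries E) ^ 12 := by
    rw [map_pow, map_natCast]
  rw [map_mul, GaussDVR.iota_C, iota_deltaL, iota_expand_deltaL p hp E, map_pow, map_natCast, hC,
    ← h]
  field_simp

/-- `σ (w D)` lies in the Gauss ring. -/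
theorem sigma_wHom_eisE_mem_V (hpM : ¬ p ∣ M) :
    sigmaHom (M * p) E (wHom M p E hp hpM (eisE M p hp E)) ∈ GaussDVR.V O E :=
  ⟨HahnSeries.C ((p : O) ^ 12) * Congr.expand p hp.pos (deltaL O), deltaL O,
    by rw [rho_deltaL]; exact deltaL_ne_zero, sigma_wHom_eisE_mul M p hp E hpM⟩

/-- **The Gauss reduction of `w D`** is `0`. -/
theorem red_wHom_eisE [CharP (IsLocalRing.ResidueField O) p] (hpM : ¬ p ∣ M)
    (X : LaurentSeries E) (hX : X = sigmaHom (M * p) E (wHom M p E hp hpM (eisE M p hp E)))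
    (h : X ∈ GaussDVR.V O E) : GaussDVR.red O E ⟨X, h⟩ = 0 := by
  have hb : GaussDVR.rho O (deltaL O) ≠ 0 := by
    rw [rho_deltaL]
    exact deltaL_ne_zero
  have hmul : X * GaussDVR.iota O E (deltaL O) =
      GaussDVR.iota O E (HahnSeries.C ((p : O) ^ 12) * Congr.expand p hp.pos (deltaL O)) := by
    rw [hX]
    exact sigma_wHom_eisE_mul M p hp E hpM
  have h0 : GaussDVR.rho O (HahnSeries.C ((p : O) ^ 12) * Congr.expand p hp.pos (deltaL O))
      = 0 := by
    rw [map_mul, GaussDVR.rho_C, map_pow, map_natCast, CharP.cast_eq_zero,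
      zero_pow (by norm_num), map_zero, zero_mul]
  rw [red_eq_of_mul E X h _ (deltaL O) hb hmul, h0, zero_div]

end Gauss

/-! #### Integrality over `O[α j]` -/

section Chart

variable {O : Type} [CommRing O] [IsDomain O] [IsDiscreteValuationRing O] [Algebra O E]
  [IsFractionRing O E] [Algebra O (LE M E)] [IsScalarTower O E (LE M E)]
  [Algebra O (LE (M * p) E)] [IsScalarTower O E (LE (M * p) E)]

/-- A monic relation over `E[j]` for the `q`-expansion, transported to the function field. -/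
theorem eval₂_aeval_alpha_jE (x : LE (M * p) E) (Q : E[X][X])
    (hQx : Q.eval₂ (Polynomial.eval₂RingHom HahnSeries.C (jqModC E))
      (x : LaurentSeries E) = 0) :
    Q.eval₂ ((aeval (alphaHom M p E (jE M E)) : E[X] →ₐ[E] LE (M * p) E) :
      E[X] →+* LE (M * p) E) x = 0 :=
  eval₂_aeval_of_sigma (sigmaHom (M * p) E) (sigmaHom_injective (M * p) E)
    (sigmaHom_algebraMap_E (M * p) E) (alphaHom M p E (jE M E)) x (sigma_alpha_jE M p E) Q hQx

/-- **Integral over `E[α j]` + Gauss-integral at both vertical primes ⟹ in the `j`-chart**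
(`c x` integral over `O[α j]` for some nonzero constant `c`, `σ x` and `σ (w x)` in the Gauss
ring).  The saturation property is `TwoPrimesGauss.sat` at `u' = j`. -/
theorem isIntegral_of_gauss [CharP (IsLocalRing.ResidueField O) p] (hpM : ¬ p ∣ M)
    (π : O) (hπ : Irreducible π)
    (hσfrac : ∀ x : LE (M * p) E, sigmaHom (M * p) E x ∈ GaussDVR.fracField O E)
    (hprime : Prime (piC (jE M E) π))
    (x : LE (M * p) E) (hx : sigmaHom (M * p) E x ∈ GaussDVR.V O E)
    (hwx : sigmaHom (M * p) E (wHom M p E hp hpM x) ∈ GaussDVR.V O E)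
    (c : O) (hc : c ≠ 0)
    (hcx : IsIntegral (Algebra.adjoin O {alphaHom M p E (jE M E)})
      (algebraMap O (LE (M * p) E) c * x)) :
    IsIntegral (Algebra.adjoin O {alphaHom M p E (jE M E)}) x :=
  isIntegral_of_sat π (sigmaHom (M * p) E) (sigmaHom_algebraMap (M * p) E)
    (wHom M p E hp hpM) (wHom_algebraMap M p E hp hpM) (alphaHom M p E (jE M E))
    (fun y hy hWy hint h1 h2 =>
      Fermat.Agent.S34.TwoPrimesGauss.sat π hπ (alphaHom M p E) (alphaHom_algebraMap M p E)
        (sigmaHom (M * p) E) (sigmaHom_algebraMap (M * p) E) hσfrac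
        (jE M E) (jqModC O) (hσu_j M p E) (wHom M p E hp hpM)
        (wHom_algebraMap M p E hp hpM) p (sigmaHom_wHom_alpha M p E hp hpM)
        (wHom_wHom M p E hp hpM) hprime (hcop_j _ p) (hord_j _) hp.two_le (hfrob_j _ p hp)
        (hwu_j M p E hp hpM) (hrank_j M p E hp hpM) y hy hWy hint h1 h2)
    hπ x hx hwx c hc hcx

/-- **`D` is integral over `O[α j]`.** -/
theorem isIntegral_eisE [CharP (IsLocalRing.ResidueField O) p] (hpM : ¬ p ∣ M)
    (π : O) (hπ : Irreducible π)
    (hσfrac : ∀ x : LE (M * p) E, sigmaHom (M * p) E x ∈ GaussDVR.fracField O E)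
    (hprime : Prime (piC (jE M E) π)) :
    IsIntegral (Algebra.adjoin O {alphaHom M p E (jE M E)}) (eisE M p hp E) := by
  obtain ⟨Q, hQ, hQx⟩ := Fermat.Agent.S44.L.EisInt.exists_monic_rel_eisD E p hp.pos
  obtain ⟨c, hc, hcx⟩ := exists_isIntegral_mul (O := O) (alphaHom M p E (jE M E))
    (eisE M p hp E) Q hQ (eval₂_aeval_alpha_jE M p E _ Q hQx)
  exact isIntegral_of_gauss M p hp E hpM π hπ hσfrac hprime _ (sigma_eisE_mem_V M p hp E)
    (sigma_wHom_eisE_mem_V M p hp E hpM) c hc hcx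

/-- **`w D = p ^ 12 D⁻¹` is integral over `O[α j]`.** -/
theorem isIntegral_wHom_eisE [CharP (IsLocalRing.ResidueField O) p] (hpM : ¬ p ∣ M)
    (π : O) (hπ : Irreducible π)
    (hσfrac : ∀ x : LE (M * p) E, sigmaHom (M * p) E x ∈ GaussDVR.fracField O E)
    (hprime : Prime (piC (jE M E) π)) :
    IsIntegral (Algebra.adjoin O {alphaHom M p E (jE M E)})
      (wHom M p E hp hpM (eisE M p hp E)) := by
  obtain ⟨Q, hQ, hQx⟩ := Fermat.Agent.S44.L.EisInt.exists_monic_rel_eisD_inv E p hp.pos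
  obtain ⟨c, hc, hcx⟩ := exists_isIntegral_mul (O := O) (alphaHom M p E (jE M E))
    (eisE M p hp E)⁻¹ Q hQ (eval₂_aeval_alpha_jE M p E _ Q hQx)
  refine isIntegral_of_gauss M p hp E hpM π hπ hσfrac hprime _
    (sigma_wHom_eisE_mem_V M p hp E hpM) ?_ c hc ?_
  · rw [wHom_wHom]
    exact sigma_eisE_mem_V M p hp E
  · have h1 : algebraMap O (LE (M * p) E) c * wHom M p E hp hpM (eisE M p hp E) =
        algebraMap O (LE (M * p) E) ((p : O) ^ 12) *
          (algebraMap O (LE (M * p) E) c * (eisE M p hp E)⁻¹) := by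
      rw [wHom_eisE_eq M p hp E hpM, map_pow, map_natCast]
      ring
    rw [h1]
    exact (isIntegral_algebraMap_adjoin (alphaHom M p E (jE M E)) ((p : O) ^ 12)).mul hcx


set_option maxHeartbeats 400000 in
/-- `redInf` of a chart element equal to `D` is `Δ̄ (Δ̄^p)⁻¹`. -/
theorem redInf_of_coe_eq_eisE [CharP (IsLocalRing.ResidueField O) p]
    (π : O) (hπ : Irreducible π)
    (hσfrac : ∀ x : LE (M * p) E, sigmaHom (M * p) E x ∈ GaussDVR.fracField O E)
    (Dc : Chart O (alphaHom M p E (jE M E)))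
    (hDc : (Dc : LE (M * p) E) = eisE M p hp E) :
    redInf π hπ (alphaHom M p E) (sigmaHom (M * p) E) (sigmaHom_algebraMap (M * p) E) hσfrac
        (jE M E) (jqModC O) (hσu_j M p E) Dc =
      deltaL (IsLocalRing.ResidueField O) * (deltaL (IsLocalRing.ResidueField O) ^ p)⁻¹ := by
  have hmem : sigmaHom (M * p) E (eisE M p hp E) ∈ GaussDVR.V O E := sigma_eisE_mem_V M p hp E
  have m1 : sigmaHom (M * p) E (Dc : LE (M * p) E) ∈ GaussDVR.V O E := by
    rw [hDc]
    exact hmem
  exact (redInf_eq π hπ (alphaHom M p E) (sigmaHom (M * p) E) (sigmaHom_algebraMap (M * p) E)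
    hσfrac (jE M E) (jqModC O) (hσu_j M p E) Dc m1).trans
    (red_eisE M p hp E _ (by rw [hDc]) m1)

set_option maxHeartbeats 400000 in
/-- `redZero` of a chart element equal to `D` is `0`. -/
theorem redZero_of_coe_eq_eisE [CharP (IsLocalRing.ResidueField O) p] (hpM : ¬ p ∣ M)
    (π : O) (hπ : Irreducible π)
    (hσfrac : ∀ x : LE (M * p) E, sigmaHom (M * p) E x ∈ GaussDVR.fracField O E)
    (Dc : Chart O (alphaHom M p E (jE M E)))
    (hDc : (Dc : LE (M * p) E) = eisE M p hp E) :
    redZero π hπ (alphaHom M p E) (sigmaHom (M * p) E) (sigmaHom_algebraMap (M * p) E) hσfrac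
        (jE M E) (jqModC O) (hσu_j M p E) (wHom M p E hp hpM) (wHom_algebraMap M p E hp hpM) p
        (sigmaHom_wHom_alpha M p E hp hpM) Dc = 0 := by
  have hmem' : sigmaHom (M * p) E (wHom M p E hp hpM (eisE M p hp E)) ∈ GaussDVR.V O E :=
    sigma_wHom_eisE_mem_V M p hp E hpM
  have m2 : sigmaHom (M * p) E (wHom M p E hp hpM (Dc : LE (M * p) E)) ∈ GaussDVR.V O E := by
    rw [hDc]
    exact hmem'
  exact (redZero_eq π hπ (alphaHom M p E) (sigmaHom (M * p) E) (sigmaHom_algebraMap (M * p) E)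
    hσfrac (jE M E) (jqModC O) (hσu_j M p E) (wHom M p E hp hpM) (wHom_algebraMap M p E hp hpM)
    p (sigmaHom_wHom_alpha M p E hp hpM) Dc m2).trans
    (red_wHom_eisE M p hp E hpM _ (by rw [hDc]) m2)

set_option maxHeartbeats 400000 in
/-- `redInf` of a chart element equal to `w D` is `0`. -/
theorem redInf_of_coe_eq_wHom_eisE [CharP (IsLocalRing.ResidueField O) p] (hpM : ¬ p ∣ M)
    (π : O) (hπ : Irreducible π)
    (hσfrac : ∀ x : LE (M * p) E, sigmaHom (M * p) E x ∈ GaussDVR.fracField O E)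
    (Dc' : Chart O (alphaHom M p E (jE M E)))
    (hDc' : (Dc' : LE (M * p) E) = wHom M p E hp hpM (eisE M p hp E)) :
    redInf π hπ (alphaHom M p E) (sigmaHom (M * p) E) (sigmaHom_algebraMap (M * p) E) hσfrac
        (jE M E) (jqModC O) (hσu_j M p E) Dc' = 0 := by
  have hmem' : sigmaHom (M * p) E (wHom M p E hp hpM (eisE M p hp E)) ∈ GaussDVR.V O E :=
    sigma_wHom_eisE_mem_V M p hp E hpM
  have m3 : sigmaHom (M * p) E (Dc' : LE (M * p) E) ∈ GaussDVR.V O E := by
    rw [hDc']
    exact hmem'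
  exact (redInf_eq π hπ (alphaHom M p E) (sigmaHom (M * p) E) (sigmaHom_algebraMap (M * p) E)
    hσfrac (jE M E) (jqModC O) (hσu_j M p E) Dc' m3).trans
    (red_wHom_eisE M p hp E hpM _ (by rw [hDc']) m3)

set_option maxHeartbeats 400000 in
/-- `redZero` of a chart element equal to `w D` is `Δ̄ (Δ̄^p)⁻¹`. -/
theorem redZero_of_coe_eq_wHom_eisE [CharP (IsLocalRing.ResidueField O) p] (hpM : ¬ p ∣ M)
    (π : O) (hπ : Irreducible π)
    (hσfrac : ∀ x : LE (M * p) E, sigmaHom (M * p) E x ∈ GaussDVR.fracField O E)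
    (Dc' : Chart O (alphaHom M p E (jE M E)))
    (hDc' : (Dc' : LE (M * p) E) = wHom M p E hp hpM (eisE M p hp E)) :
    redZero π hπ (alphaHom M p E) (sigmaHom (M * p) E) (sigmaHom_algebraMap (M * p) E) hσfrac
        (jE M E) (jqModC O) (hσu_j M p E) (wHom M p E hp hpM) (wHom_algebraMap M p E hp hpM) p
        (sigmaHom_wHom_alpha M p E hp hpM) Dc' =
      deltaL (IsLocalRing.ResidueField O) * (deltaL (IsLocalRing.ResidueField O) ^ p)⁻¹ := by
  have hmem : sigmaHom (M * p) E (eisE M p hp E) ∈ GaussDVR.V O E := sigma_eisE_mem_V M p hp E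
  have hww : wHom M p E hp hpM (wHom M p E hp hpM (eisE M p hp E)) = eisE M p hp E :=
    wHom_wHom M p E hp hpM _
  have m4 : sigmaHom (M * p) E (wHom M p E hp hpM (Dc' : LE (M * p) E)) ∈ GaussDVR.V O E := by
    rw [hDc', hww]
    exact hmem
  exact (redZero_eq π hπ (alphaHom M p E) (sigmaHom (M * p) E) (sigmaHom_algebraMap (M * p) E)
    hσfrac (jE M E) (jqModC O) (hσu_j M p E) (wHom M p E hp hpM) (wHom_algebraMap M p E hp hpM)
    p (sigmaHom_wHom_alpha M p E hp hpM) Dc' m4).trans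
    (red_eisE M p hp E _ (by rw [hDc', hww]) m4)


set_option maxHeartbeats 400000 in
/-- The Fricke relation for chart elements, in the function field. -/
theorem coe_mul_coe_eq (hpM : ¬ p ∣ M) (Dc Dc' : Chart O (alphaHom M p E (jE M E)))
    (hDc : (Dc : LE (M * p) E) = eisE M p hp E)
    (hDc' : (Dc' : LE (M * p) E) = wHom M p E hp hpM (eisE M p hp E)) :
    (Dc : LE (M * p) E) * (Dc' : LE (M * p) E) = ((p : ℕ) : LE (M * p) E) ^ 12 := by
  rw [hDc, hDc']
  exact (mul_comm _ _).trans (wHom_eisE_mul M p hp E hpM)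

set_option maxHeartbeats 400000 in
/-- The Fricke relation for chart elements, in the chart ring: `D D' = p ^ 12`. -/
theorem chart_mul_eq (hpM : ¬ p ∣ M) (Dc Dc' : Chart O (alphaHom M p E (jE M E)))
    (hDc : (Dc : LE (M * p) E) = eisE M p hp E)
    (hDc' : (Dc' : LE (M * p) E) = wHom M p E hp hpM (eisE M p hp E)) :
    Dc * Dc' = (p : Chart O (alphaHom M p E (jE M E))) ^ 12 :=
  subalgebra_mul_eq_natCast_pow _ Dc Dc' p 12 (coe_mul_coe_eq M p hp E hpM Dc Dc' hDc hDc')

set_option maxHeartbeats 800000 in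
/-- `D` and `D' = w D` as elements of the chart ring. -/
theorem exists_eis_chart_elems [CharP (IsLocalRing.ResidueField O) p] (hpM : ¬ p ∣ M)
    (π : O) (hπ : Irreducible π)
    (hσfrac : ∀ x : LE (M * p) E, sigmaHom (M * p) E x ∈ GaussDVR.fracField O E)
    (hprime : Prime (piC (jE M E) π)) :
    ∃ Dc Dc' : Chart O (alphaHom M p E (jE M E)),
      ((Dc : Chart O (alphaHom M p E (jE M E))) : LE (M * p) E) = eisE M p hp E ∧
      ((Dc' : Chart O (alphaHom M p E (jE M E))) : LE (M * p) E) =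
        wHom M p E hp hpM (eisE M p hp E) := by
  have hD := isIntegral_eisE M p hp E hpM π hπ hσfrac hprime
  have hD' := isIntegral_wHom_eisE M p hp E hpM π hπ hσfrac hprime
  obtain ⟨Dc, hDc⟩ := exists_integralClosure_coe_eq (eisE M p hp E) hD
  obtain ⟨Dc', hDc'⟩ := exists_integralClosure_coe_eq (wHom M p E hp hpM (eisE M p hp E)) hD'
  exact ⟨Dc, Dc', hDc, hDc'⟩

set_option maxHeartbeats 1600000 in
/-- **The Eisenstein function in the `j`-chart.**  `D` and `D' = w D` are elements of the chart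
ring `C = Chart O (α j)` with `D D' = p ^ 12`; `D` reduces to `Δ̄ (Δ̄^p)⁻¹ ≠ 0` on the
`∞`-component and to `0` on the `0`-component, `D'` the other way round. -/
theorem exists_eis_chart [CharP (IsLocalRing.ResidueField O) p] (hpM : ¬ p ∣ M)
    (π : O) (hπ : Irreducible π)
    (hσfrac : ∀ x : LE (M * p) E, sigmaHom (M * p) E x ∈ GaussDVR.fracField O E)
    (hprime : Prime (piC (jE M E) π)) :
    ∃ Dc Dc' : Chart O (alphaHom M p E (jE M E)),
      ((Dc : Chart O (alphaHom M p E (jE M E))) : LE (M * p) E) = eisE M p hp E ∧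
      ((Dc' : Chart O (alphaHom M p E (jE M E))) : LE (M * p) E) =
        wHom M p E hp hpM (eisE M p hp E) ∧
      Dc * Dc' = (p : Chart O (alphaHom M p E (jE M E))) ^ 12 ∧
      redInf π hπ (alphaHom M p E) (sigmaHom (M * p) E) (sigmaHom_algebraMap (M * p) E) hσfrac
          (jE M E) (jqModC O) (hσu_j M p E) Dc =
        deltaL (IsLocalRing.ResidueField O) * (deltaL (IsLocalRing.ResidueField O) ^ p)⁻¹ ∧
      redZero π hπ (alphaHom M p E) (sigmaHom (M * p) E) (sigmaHom_algebraMap (M * p) E) hσfrac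
          (jE M E) (jqModC O) (hσu_j M p E) (wHom M p E hp hpM) (wHom_algebraMap M p E hp hpM) p
          (sigmaHom_wHom_alpha M p E hp hpM) Dc = 0 ∧
      redInf π hπ (alphaHom M p E) (sigmaHom (M * p) E) (sigmaHom_algebraMap (M * p) E) hσfrac
          (jE M E) (jqModC O) (hσu_j M p E) Dc' = 0 ∧
      redZero π hπ (alphaHom M p E) (sigmaHom (M * p) E) (sigmaHom_algebraMap (M * p) E) hσfrac
          (jE M E) (jqModC O) (hσu_j M p E) (wHom M p E hp hpM) (wHom_algebraMap M p E hp hpM) p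
          (sigmaHom_wHom_alpha M p E hp hpM) Dc' =
        deltaL (IsLocalRing.ResidueField O) * (deltaL (IsLocalRing.ResidueField O) ^ p)⁻¹ := by
  obtain ⟨Dc, Dc', hDc, hDc'⟩ := exists_eis_chart_elems M p hp E hpM π hπ hσfrac hprime
  have h3 := chart_mul_eq M p hp E hpM Dc Dc' hDc hDc'
  have h4 := redInf_of_coe_eq_eisE M p hp E π hπ hσfrac Dc hDc
  have h5 := redZero_of_coe_eq_eisE M p hp E hpM π hπ hσfrac Dc hDc
  have h6 := redInf_of_coe_eq_wHom_eisE M p hp E hpM π hπ hσfrac Dc' hDc'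
  have h7 := redZero_of_coe_eq_wHom_eisE M p hp E hpM π hπ hσfrac Dc' hDc'
  exact ⟨Dc, Dc', hDc, hDc', h3, h4, h5, h6, h7⟩

end Chart

end ELevel

end Fermat.Agent.S44.L.EisChart
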