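import Mathlib

/-!
# Program MR (S44), strand L: the Eisenstein function at a node, level-free

`R` a domain (in the application: the local ring `R₀ = C_y` of the chart at a closed point `y`
of the special fibre), `D D' ~ π ^ n` (in the application `D = Δ(q)/Δ(q^p)`, `D' = w(D)`,
`D D' = p ^ 12`: the Fricke relation, `n = 12`).

* `eis_node` : at a node (`s`, `t` prime, `s t ~ π`), if `s ∤ D` (`D` is a unit along the
  component `(s)`) and `t ∤ D'` (`D'` is a unit along the component `(t)`), then `D ~ t ^ n`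
  and `D' ~ s ^ n`.
* `eis_smooth` : at a point with one vertical prime (`π` prime), if `π ∤ D` then `D` is a unit
  and `D' ~ π ^ n`.
* `eis_node_unit`, `eis_smooth_unit` : the same with explicit units, `D = u * t ^ n`.
* `eis_node_frac`, `eis_smooth_frac` : the same for elements of a field `K ⊇ R` given as images
  of elements of `R`.

No factoriality and no noetherian hypothesis: only the primality of `s`, `t` (resp. `π`).
-/

set_option autoImplicit false

namespace Fermat.Agent.S44.L.EisNode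

section Core

variable {R : Type*} [CommRing R] [IsDomain R]

/-- **The Eisenstein function at a node.**  `s`, `t` prime with `s t ~ π`, `D D' ~ π ^ n`,
`s ∤ D`, `t ∤ D'`: then `D ~ t ^ n` and `D' ~ s ^ n`. -/
theorem eis_node {s t π D D' : R} {n : ℕ} (hs : Prime s) (ht : Prime t)
    (hπ : Associated (s * t) π) (hDD : Associated (D * D') (π ^ n))
    (hsD : ¬ s ∣ D) (htD' : ¬ t ∣ D') :
    Associated D (t ^ n) ∧ Associated D' (s ^ n) := by
  have h1 : Associated (D * D') (s ^ n * t ^ n) := by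
    rw [← mul_pow]
    exact hDD.trans (hπ.symm.pow_pow)
  obtain ⟨d', hd'⟩ : s ^ n ∣ D' :=
    hs.pow_dvd_of_dvd_mul_left n hsD ((dvd_mul_right _ _).trans h1.symm.dvd)
  obtain ⟨d, hd⟩ : t ^ n ∣ D :=
    ht.pow_dvd_of_dvd_mul_right n htD' ((dvd_mul_left _ _).trans h1.symm.dvd)
  have hsn : s ^ n ≠ 0 := pow_ne_zero n hs.ne_zero
  have htn : t ^ n ≠ 0 := pow_ne_zero n ht.ne_zero
  have h2 : Associated ((s ^ n * t ^ n) * (d * d')) ((s ^ n * t ^ n) * 1) := by
    rw [mul_one]
    refine Associated.trans ?_ h1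
    rw [hd, hd']
    exact Associated.of_eq (by ring)
  have h3 : Associated (d * d') 1 :=
    h2.of_mul_left (Associated.refl _) (mul_ne_zero hsn htn)
  have hu : IsUnit (d * d') := (associated_one_iff_isUnit).mp h3
  have hud : IsUnit d := isUnit_of_mul_isUnit_left hu
  have hud' : IsUnit d' := isUnit_of_mul_isUnit_right hu
  exact ⟨hd ▸ (associated_mul_unit_right (t ^ n) d hud).symm,
    hd' ▸ (associated_mul_unit_right (s ^ n) d' hud').symm⟩

/-- **The Eisenstein function at a smooth point of the first component.**  `π` prime,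
`D D' ~ π ^ n`, `π ∤ D`: then `D` is a unit and `D' ~ π ^ n`. -/
theorem eis_smooth {π D D' : R} {n : ℕ} (hπ : Prime π) (hDD : Associated (D * D') (π ^ n))
    (hD : ¬ π ∣ D) : IsUnit D ∧ Associated D' (π ^ n) := by
  obtain ⟨d', hd'⟩ : π ^ n ∣ D' := hπ.pow_dvd_of_dvd_mul_left n hD hDD.symm.dvd
  have hπn : π ^ n ≠ 0 := pow_ne_zero n hπ.ne_zero
  have h2 : Associated (π ^ n * (D * d')) (π ^ n * 1) := by
    rw [mul_one]
    refine Associated.trans ?_ hDD
    rw [hd']
    exact Associated.of_eq (by ring)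
  have h3 : Associated (D * d') 1 := h2.of_mul_left (Associated.refl _) hπn
  have hu : IsUnit (D * d') := (associated_one_iff_isUnit).mp h3
  exact ⟨isUnit_of_mul_isUnit_left hu,
    hd' ▸ (associated_mul_unit_right (π ^ n) d' (isUnit_of_mul_isUnit_right hu)).symm⟩

/-- `eis_node` with explicit units. -/
theorem eis_node_unit {s t π D D' : R} {n : ℕ} (hs : Prime s) (ht : Prime t)
    (hπ : Associated (s * t) π) (hDD : Associated (D * D') (π ^ n))
    (hsD : ¬ s ∣ D) (htD' : ¬ t ∣ D') :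
    (∃ u : Rˣ, D = u * t ^ n) ∧ ∃ u' : Rˣ, D' = u' * s ^ n := by
  obtain ⟨h1, h2⟩ := eis_node hs ht hπ hDD hsD htD'
  obtain ⟨u, hu⟩ := h1.symm
  obtain ⟨u', hu'⟩ := h2.symm
  exact ⟨⟨u, by rw [← hu, mul_comm]⟩, ⟨u', by rw [← hu', mul_comm]⟩⟩

/-- `eis_smooth` with an explicit unit. -/
theorem eis_smooth_unit {π D D' : R} {n : ℕ} (hπ : Prime π) (hDD : Associated (D * D') (π ^ n))
    (hD : ¬ π ∣ D) : IsUnit D ∧ ∃ u' : Rˣ, D' = u' * π ^ n := by
  obtain ⟨h1, h2⟩ := eis_smooth hπ hDD hD
  obtain ⟨u', hu'⟩ := h2.symm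
  exact ⟨h1, ⟨u', by rw [← hu', mul_comm]⟩⟩

end Core

section Frac

variable {R K : Type*} [CommRing R] [IsDomain R] [Field K] [Algebra R K]

/-- `eis_node` for elements of a field `K ⊇ R` that come from `R`: `D D' = c π ^ n` in `K`
with `c` a unit of `R`. -/
theorem eis_node_frac (hinj : Function.Injective (algebraMap R K)) {s t π d d' : R} {c : Rˣ}
    {n : ℕ} (hs : Prime s) (ht : Prime t) (hπ : Associated (s * t) π) {D D' : K}
    (hd : algebraMap R K d = D) (hd' : algebraMap R K d' = D')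
    (hDD : D * D' = algebraMap R K c * algebraMap R K π ^ n)
    (hsD : ¬ s ∣ d) (htD' : ¬ t ∣ d') :
    (∃ u : Rˣ, D = algebraMap R K u * algebraMap R K t ^ n) ∧
      ∃ u' : Rˣ, D' = algebraMap R K u' * algebraMap R K s ^ n := by
  have h0 : d * d' = π ^ n * c := by
    apply hinj
    rw [map_mul, map_mul, map_pow, hd, hd', hDD, mul_comm]
  have hass : Associated (d * d') (π ^ n) := by
    rw [h0]
    exact associated_mul_unit_left _ _ c.isUnit
  obtain ⟨⟨u, hu⟩, ⟨u', hu'⟩⟩ := eis_node_unit hs ht hπ hass hsD htD'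
  exact ⟨⟨u, by rw [← hd, hu, map_mul, map_pow]⟩, ⟨u', by rw [← hd', hu', map_mul, map_pow]⟩⟩

/-- `eis_smooth` for elements of a field `K ⊇ R` that come from `R`. -/
theorem eis_smooth_frac (hinj : Function.Injective (algebraMap R K)) {π d d' : R} {c : Rˣ}
    {n : ℕ} (hπ : Prime π) {D D' : K}
    (hd : algebraMap R K d = D) (hd' : algebraMap R K d' = D')
    (hDD : D * D' = algebraMap R K c * algebraMap R K π ^ n) (hD : ¬ π ∣ d) :
    (∃ u : Rˣ, D = algebraMap R K u) ∧
      ∃ u' : Rˣ, D' = algebraMap R K u' * algebraMap R K π ^ n := by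
  have h0 : d * d' = π ^ n * c := by
    apply hinj
    rw [map_mul, map_mul, map_pow, hd, hd', hDD, mul_comm]
  have hass : Associated (d * d') (π ^ n) := by
    rw [h0]
    exact associated_mul_unit_left _ _ c.isUnit
  obtain ⟨hu, ⟨u', hu'⟩⟩ := eis_smooth_unit hπ hass hD
  obtain ⟨u, hu⟩ := hu
  exact ⟨⟨u, by rw [← hd, hu]⟩, ⟨u', by rw [← hd', hu', map_mul, map_pow]⟩⟩

end Frac

end Fermat.Agent.S44.L.EisNode
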