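import Mathlib
import Fermat.Agent.S44.L.NodeLocInst

/-!
# S44 (Mazur–Ribet), strand L: the reduction maps on the local rings of a chart

Level-free.  `C = Chart O u` a chart ring with `q`-expansion embedding `σ`, reduction
`rH = redHom σ .. : C → κ((q))` (`redInf` and `redZero` of `S34/TwoPrimesGauss` are both of this
form), `y` a prime of `C` containing `ker rH`, `R₀ = Localization.AtPrime y`.

* `toVLoc`, `redLoc` : the extensions `R₀ → V` (Gauss ring) and `R₀ → κ((q))` of `toV`, `rH`.
* `redLoc_algebraMap`, `redLoc_eq_zero_iff` (`ker redLoc = (ker rH) R₀`),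
  `redLoc_eq_zero_iff_dvd` (`redLoc x = 0 ↔ a t ∣ x` when `ker rH = (t)` locally at `y`).
* `coe_toVLoc`, `sigma_loc_mem_V`, `red_sigma_loc` : the reduction of `x ∈ R₀` is the Gauss
  reduction of the `q`-expansion of its image in `L` (`L = Frac C`, `NodeLocInst.algebraLoc`).
* `not_dvd_of_red_ne_zero` : an element of `R₀` whose `q`-expansion has nonzero Gauss reduction
  is not divisible by the local equation `a t` of the component.
* `mem_range_of_isIntegral_adjoin` (Mathlib only), `mem_range_loc_of_isIntegral` : an element of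
  `L` integral over `O[v]` with `v ∈ R₀` lies in `R₀`.
-/

set_option autoImplicit false
set_option linter.unusedSectionVars false
set_option linter.unusedVariables false
set_option linter.style.haveILetI false

open Polynomial

noncomputable section

namespace Fermat.Agent.S44.L.LocRed

open Fermat.Agent.S30 Fermat.Agent.S34 Fermat.Agent.S34.TwoPrimesGauss

/-! ### Mathlib only: integral elements over a subring of an integrally closed domain -/

section Integral

variable {R₀ L O : Type*} [CommRing R₀] [IsIntegrallyClosed R₀] [Field L] [Algebra R₀ L]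
  [IsFractionRing R₀ L] [CommRing O] [Algebra O L]

/-- If `R₀` is integrally closed with fraction field `L`, contains the image of `O` and `v`,
then every element of `L` integral over `O[v]` lies in `R₀`. -/
theorem mem_range_of_isIntegral_adjoin
    (hO : ∀ r : O, algebraMap O L r ∈ Set.range (algebraMap R₀ L)) (v D : L)
    (hv : v ∈ Set.range (algebraMap R₀ L)) (hD : IsIntegral (Algebra.adjoin O {v}) D) :
    D ∈ Set.range (algebraMap R₀ L) := by
  have hsub : ∀ z ∈ Algebra.adjoin O {v}, z ∈ (algebraMap R₀ L).range := by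
    intro z hz
    induction hz using Algebra.adjoin_induction with
    | mem x hx =>
      rw [Set.mem_singleton_iff] at hx
      subst hx
      exact hv
    | algebraMap r => exact hO r
    | add x y _ _ hx hy => exact add_mem hx hy
    | mul x y _ _ hx hy => exact mul_mem hx hy
  obtain ⟨p, hp, hpD⟩ := hD
  have hl : p.map (algebraMap (Algebra.adjoin O {v}) L) ∈ Polynomial.lifts (algebraMap R₀ L) := by
    rw [Polynomial.lifts_iff_coeff_lifts]
    intro n
    rw [Polynomial.coeff_map]
    exact hsub _ (p.coeff n).2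
  obtain ⟨q, hq, -, hqm⟩ := Polynomial.lifts_and_natDegree_eq_and_monic hl (hp.map _)
  have hint : IsIntegral R₀ D := by
    refine ⟨q, hqm, ?_⟩
    rw [← Polynomial.eval_map, hq, Polynomial.eval_map]
    exact hpD
  exact IsIntegrallyClosed.isIntegral_iff.mp hint

end Integral

/-! ### The reduction on the local ring -/

section Chart

variable {O E : Type*} [CommRing O] [IsDomain O] [IsDiscreteValuationRing O] [Field E]
  [Algebra O E] [FaithfulSMul O E] {L : Type*} [Field L] [Algebra O L]
  (σ : L →+* LaurentSeries E)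
  (hσO : ∀ r : O, σ (algebraMap O L r) = HahnSeries.C (algebraMap O E r))
  (ϖ : O) (hϖ : Irreducible ϖ) (hσfrac : ∀ x : L, σ x ∈ GaussDVR.fracField O E)
  (u : L) (U : LaurentSeries O) (hσu : σ u = GaussDVR.iota O E U)
  (y : Ideal (Chart O u)) [hyp : y.IsPrime]
  (hy : RingHom.ker (redHom σ hσO ϖ hϖ hσfrac u U hσu) ≤ y)

local notation "rH" => redHom σ hσO ϖ hϖ hσfrac u U hσu
local notation "tV" => toV σ hσO ϖ hϖ hσfrac u U hσu
local notation "R₀" => Localization.AtPrime y
local notation "a" => algebraMap (Chart O u) (Localization.AtPrime y)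

include hy in
theorem isUnit_toV (d : y.primeCompl) : IsUnit (tV (d : Chart O u)) := by
  have hne : GaussDVR.red O E (tV (d : Chart O u)) ≠ 0 := fun h => d.2 (hy h)
  have hinv := GaussDVR.inv_mem O E (tV (d : Chart O u)) hne
  have h0 : ((tV (d : Chart O u) : GaussDVR.V O E) : LaurentSeries E) ≠ 0 := by
    intro h
    apply hne
    have h1 : tV (d : Chart O u) = 0 := Subtype.ext h
    rw [h1, map_zero]
  exact IsUnit.of_mul_eq_one ⟨_, hinv⟩ (Subtype.ext (mul_inv_cancel₀ h0))

/-- The extension of `toV` to the local ring at `y`. -/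
def toVLoc : Localization.AtPrime y →+* GaussDVR.V O E :=
  IsLocalization.lift (M := y.primeCompl) (isUnit_toV σ hσO ϖ hϖ hσfrac u U hσu y hy)

/-- The extension of the reduction `rH` to the local ring at `y`. -/
def redLoc : Localization.AtPrime y →+* LaurentSeries (IsLocalRing.ResidueField O) :=
  (GaussDVR.red O E).comp (toVLoc σ hσO ϖ hϖ hσfrac u U hσu y hy)

local notation "tL" => toVLoc σ hσO ϖ hϖ hσfrac u U hσu y hy
local notation "rL" => redLoc σ hσO ϖ hϖ hσfrac u U hσu y hy

theorem toVLoc_algebraMap (c : Chart O u) : tL (a c) = tV c :=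
  IsLocalization.lift_eq _ c

theorem redLoc_algebraMap (c : Chart O u) : rL (a c) = rH c := by
  show GaussDVR.red O E (tL (a c)) = _
  rw [toVLoc_algebraMap]
  rfl

/-- `ker redLoc = (ker rH) R₀`. -/
theorem redLoc_eq_zero_iff (x : Localization.AtPrime y) :
    rL x = 0 ↔ x ∈ (RingHom.ker rH).map a := by
  constructor
  · intro h
    obtain ⟨c, d, rfl⟩ := IsLocalization.exists_mk'_eq y.primeCompl x
    have h2 : rL (IsLocalization.mk' (Localization.AtPrime y) c d) * rH (d : Chart O u) = rH c := by
      rw [← redLoc_algebraMap σ hσO ϖ hϖ hσfrac u U hσu y hy (d : Chart O u), ← map_mul,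
        IsLocalization.mk'_spec, redLoc_algebraMap]
    have h1 : rH c = 0 := by rw [← h2, h, zero_mul]
    rw [IsLocalization.mk'_eq_mul_mk'_one]
    exact Ideal.mul_mem_right _ _ (Ideal.mem_map_of_mem _ h1)
  · intro h
    have hle : (RingHom.ker rH).map a ≤ RingHom.ker rL := by
      rw [Ideal.map_le_iff_le_comap]
      intro c hc
      rw [Ideal.mem_comap, RingHom.mem_ker, redLoc_algebraMap]
      exact hc
    exact hle h

/-- If `ker rH = (t)` locally at `y`, then `redLoc x = 0 ↔ a t ∣ x`. -/
theorem redLoc_eq_zero_iff_dvd (t : Chart O u) (ht : t ∈ RingHom.ker rH)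
    (hgen : ∀ x ∈ RingHom.ker rH, ∃ s, s ∉ y ∧ s * x ∈ Ideal.span {t})
    (x : Localization.AtPrime y) : rL x = 0 ↔ a t ∣ x := by
  rw [redLoc_eq_zero_iff, Fermat.Agent.S44.L.NodeLoc.map_eq_span_singleton y _ t ht hgen,
    Ideal.mem_span_singleton]

section Frac

variable [IsFractionRing (Chart O u) L]

/-- The Gauss-ring image of `x ∈ R₀` is the `q`-expansion of its image in `L`. -/
theorem coe_toVLoc (x : Localization.AtPrime y) :
    letI := Fermat.Agent.S44.L.NodeLocInst.algebraLoc L y
    ((tL x : GaussDVR.V O E) : LaurentSeries E) = σ (algebraMap (Localization.AtPrime y) L x) := by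
  letI := Fermat.Agent.S44.L.NodeLocInst.algebraLoc L y
  haveI := Fermat.Agent.S44.L.NodeLocInst.isScalarTower_loc L y
  have h : ((GaussDVR.V O E).subtype.comp tL) =
      σ.comp (algebraMap (Localization.AtPrime y) L) := by
    apply IsLocalization.ringHom_ext y.primeCompl
    ext c
    rw [RingHom.comp_apply, RingHom.comp_apply, RingHom.comp_apply, RingHom.comp_apply,
      toVLoc_algebraMap, ← IsScalarTower.algebraMap_apply (Chart O u) (Localization.AtPrime y) L]
    rfl
  exact RingHom.congr_fun h x

include hσO hϖ hσfrac hσu hy in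
/-- The `q`-expansion of (the image in `L` of) an element of `R₀` lies in the Gauss ring. -/
theorem sigma_loc_mem_V (x : Localization.AtPrime y) :
    letI := Fermat.Agent.S44.L.NodeLocInst.algebraLoc L y
    σ (algebraMap (Localization.AtPrime y) L x) ∈ GaussDVR.V O E := by
  letI := Fermat.Agent.S44.L.NodeLocInst.algebraLoc L y
  rw [← coe_toVLoc σ hσO ϖ hϖ hσfrac u U hσu y hy x]
  exact (tL x).2

/-- The reduction of `x ∈ R₀` is the Gauss reduction of the `q`-expansion of its image `D`. -/
theorem red_sigma_loc (x : Localization.AtPrime y) (D : L)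
    (hD : letI := Fermat.Agent.S44.L.NodeLocInst.algebraLoc L y
      algebraMap (Localization.AtPrime y) L x = D)
    (hmem : σ D ∈ GaussDVR.V O E) :
    GaussDVR.red O E ⟨σ D, hmem⟩ = rL x := by
  letI := Fermat.Agent.S44.L.NodeLocInst.algebraLoc L y
  have h : (⟨σ D, hmem⟩ : GaussDVR.V O E) = tL x := by
    apply Subtype.ext
    rw [coe_toVLoc σ hσO ϖ hϖ hσfrac u U hσu y hy x, hD]
  rw [h]
  rfl

include hy in
/-- An element of `R₀` whose `q`-expansion has nonzero Gauss reduction is not divisible by the
local equation `a t` of the component `ker rH`. -/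
theorem not_dvd_of_red_ne_zero (t : Chart O u) (ht : t ∈ RingHom.ker rH)
    (hgen : ∀ x ∈ RingHom.ker rH, ∃ s, s ∉ y ∧ s * x ∈ Ideal.span {t})
    (x : Localization.AtPrime y) (D : L)
    (hD : letI := Fermat.Agent.S44.L.NodeLocInst.algebraLoc L y
      algebraMap (Localization.AtPrime y) L x = D)
    (hmem : σ D ∈ GaussDVR.V O E) (hne : GaussDVR.red O E ⟨σ D, hmem⟩ ≠ 0) : ¬ a t ∣ x := by
  intro hdvd
  apply hne
  rw [red_sigma_loc σ hσO ϖ hϖ hσfrac u U hσu y hy x D hD hmem]
  exact (redLoc_eq_zero_iff_dvd σ hσO ϖ hϖ hσfrac u U hσu y hy t ht hgen x).mpr hdvd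

include hy in
/-- An element of `R₀` whose `q`-expansion has zero Gauss reduction is divisible by the local
equation `a t` of the component `ker rH`. -/
theorem dvd_of_red_eq_zero (t : Chart O u) (ht : t ∈ RingHom.ker rH)
    (hgen : ∀ x ∈ RingHom.ker rH, ∃ s, s ∉ y ∧ s * x ∈ Ideal.span {t})
    (x : Localization.AtPrime y) (D : L)
    (hD : letI := Fermat.Agent.S44.L.NodeLocInst.algebraLoc L y
      algebraMap (Localization.AtPrime y) L x = D)
    (hmem : σ D ∈ GaussDVR.V O E) (h0 : GaussDVR.red O E ⟨σ D, hmem⟩ = 0) : a t ∣ x := by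
  rw [red_sigma_loc σ hσO ϖ hϖ hσfrac u U hσu y hy x D hD hmem] at h0
  exact (redLoc_eq_zero_iff_dvd σ hσO ϖ hϖ hσfrac u U hσu y hy t ht hgen x).mp h0

end Frac

end Chart

/-! ### Integral elements over `O[v]` in the local ring of a chart -/

section ChartIntegral

variable {O : Type*} [CommRing O] {L : Type*} [Field L] [Algebra O L] (u : L)
  [IsFractionRing (Chart O u) L] (y : Ideal (Chart O u)) [y.IsPrime]

/-- `O` maps into the local ring `R₀ = (Chart O u)_y`. -/
theorem algebraMap_mem_range_loc (r : O) :
    letI := Fermat.Agent.S44.L.NodeLocInst.algebraLoc L y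
    algebraMap O L r ∈ Set.range (algebraMap (Localization.AtPrime y) L) := by
  letI := Fermat.Agent.S44.L.NodeLocInst.algebraLoc L y
  haveI := Fermat.Agent.S44.L.NodeLocInst.isScalarTower_loc L y
  refine ⟨algebraMap (Chart O u) (Localization.AtPrime y) (piC u r), ?_⟩
  rw [← IsScalarTower.algebraMap_apply (Chart O u) (Localization.AtPrime y) L]
  rfl

/-- Every element of the chart ring lies in the local ring. -/
theorem coe_mem_range_loc (c : Chart O u) :
    letI := Fermat.Agent.S44.L.NodeLocInst.algebraLoc L y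
    (c : L) ∈ Set.range (algebraMap (Localization.AtPrime y) L) := by
  letI := Fermat.Agent.S44.L.NodeLocInst.algebraLoc L y
  haveI := Fermat.Agent.S44.L.NodeLocInst.isScalarTower_loc L y
  refine ⟨algebraMap (Chart O u) (Localization.AtPrime y) c, ?_⟩
  rw [← IsScalarTower.algebraMap_apply (Chart O u) (Localization.AtPrime y) L]
  rfl

/-- The local ring of a chart is integrally closed. -/
theorem isIntegrallyClosed_loc : IsIntegrallyClosed (Localization.AtPrime y) := by
  haveI : IsIntegrallyClosed (Chart O u) := IsIntegrallyClosed.of_isIntegrallyClosedIn _ L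
  exact Fermat.Agent.S44.L.NodeLoc.isIntegrallyClosed_localization y

/-- **Elements integral over `O[v]`, `v ∈ R₀`, lie in `R₀`** (`R₀` is integrally closed in its
fraction field `L`). -/
theorem mem_range_loc_of_isIntegral (v D : L)
    (hv : letI := Fermat.Agent.S44.L.NodeLocInst.algebraLoc L y
      v ∈ Set.range (algebraMap (Localization.AtPrime y) L))
    (hD : IsIntegral (Algebra.adjoin O {v}) D) :
    letI := Fermat.Agent.S44.L.NodeLocInst.algebraLoc L y
    D ∈ Set.range (algebraMap (Localization.AtPrime y) L) := by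
  letI := Fermat.Agent.S44.L.NodeLocInst.algebraLoc L y
  haveI := Fermat.Agent.S44.L.NodeLocInst.isFractionRing_loc L y
  haveI : IsIntegrallyClosed (Localization.AtPrime y) := isIntegrallyClosed_loc u y
  have hO := algebraMap_mem_range_loc u y
  have hsub : ∀ z : L, z ∈ Algebra.adjoin O {v} →
      z ∈ Set.range (algebraMap (Localization.AtPrime y) L) := by
    intro z hz
    induction hz using Algebra.adjoin_induction with
    | mem x hx =>
      rw [Set.mem_singleton_iff] at hx
      subst hx
      exact hv
    | algebraMap r => exact hO r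
    | add x y _ _ hx hy =>
      obtain ⟨a, ha⟩ := hx
      obtain ⟨b, hb⟩ := hy
      exact ⟨a + b, by rw [RingHom.map_add, ha, hb]⟩
    | mul x y _ _ hx hy =>
      obtain ⟨a, ha⟩ := hx
      obtain ⟨b, hb⟩ := hy
      exact ⟨a * b, by rw [RingHom.map_mul, ha, hb]⟩
  obtain ⟨p, hp, hpD⟩ := hD
  have hl : p.map (algebraMap (Algebra.adjoin O {v}) L) ∈
      Polynomial.lifts (algebraMap (Localization.AtPrime y) L) := by
    rw [Polynomial.lifts_iff_coeff_lifts]
    intro n
    rw [Polynomial.coeff_map]
    exact hsub _ (p.coeff n).2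
  obtain ⟨q, hq, -, hqm⟩ := Polynomial.lifts_and_natDegree_eq_and_monic hl (hp.map _)
  have hint : IsIntegral (Localization.AtPrime y) D := by
    refine ⟨q, hqm, ?_⟩
    rw [← Polynomial.eval_map, hq, Polynomial.eval_map]
    exact hpD
  exact IsIntegrallyClosed.isIntegral_iff.mp hint

end ChartIntegral

end Fermat.Agent.S44.L.LocRed
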