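import Mathlib
import Fermat.Agent.S44.L.LocRed
import Fermat.Agent.S44.L.EisNode

/-!
# S44 (Mazur–Ribet), strand L: the Eisenstein function at the closed points of a chart
(level-free)

`S44/L/EisNode` (the algebra of `D D' = ℓ ^ n` at a node / a smooth point) transported to the
closed points of the level-`ℓ M` chart `C = Chart O (α u')` through `S44/L/LocRed` (the reduction
maps on `R₀ = C_y`) and `S44/L/NodeC1` / `S44/L/NodeLoc` (the local rings of the chart).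

Data: `v, D, D' ∈ L` with `D, D'` integral over `O[v]`, `v = c / d` with `c, d ∈ C`, `d ∉ y`
(so `D, D' ∈ R₀`), `D D' = ℓ ^ n`, the `q`-expansion of `D` Gauss-integral with nonzero
reduction `D̄`, and the same for the swapped `q`-expansion of `D'`.

* `eis_crossing_of_unram_pole` (crossing points, binders of `NodeC1.node_of_unram_pole`):
  `D̄ * rI d = rI c * rI t₂ ^ n` with `c, d ∉ y`, `t₂ = U - V ^ ℓ` the local equation of the
  `0`-component: "`D̄ = unit_y · τ ^ n`".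
* `eis_smooth_inf_of_unram` (points of the `∞`-component off the `0`-component, binders of
  `NodeC1.smooth_inf_of_unram`): `D̄ * rI d = rI c` with `c, d ∉ y`: "`D̄ = unit_y`".
* `eis_node_of_red`, `eis_smooth_of_red` : the same for two abstract reductions of one chart.
* `exists_mul_eq_of_isUnit` (a unit of `C_y` is `c / d`, `c, d ∉ y`), `mem_range_loc_of_mul_eq`,
  `exists_mul_of_poly`, `exists_mul_of_u4_rel` (`v = α j` from
  `j u⁴ (u + 16) = (u² + 256 u + 4096)³` off the cusps), `notMem_of_hnb`.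
-/

set_option autoImplicit false
set_option linter.unusedSectionVars false
set_option linter.unusedVariables false
set_option linter.style.haveILetI false
set_option synthInstance.maxHeartbeats 400000
set_option maxHeartbeats 1000000

open ModularCurve Polynomial IntermediateField

noncomputable section

namespace Fermat.Agent.S44.L.EisLoc

open Fermat.Agent.S30 Fermat.Agent.S34 Fermat.Agent.S34.TwoPrimesGauss
open Fermat.Agent.S36.PrinAt Fermat.Agent.S30.Model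

/-! ### Mathlib only: units of the local ring -/

section Unit

variable {C : Type*} [CommRing C] (y : Ideal C) [y.IsPrime]

/-- A unit of `C_y` is `c / d` with `c, d ∉ y`. -/
theorem exists_mul_eq_of_isUnit (x : Localization.AtPrime y) (hx : IsUnit x) :
    ∃ c d : C, c ∉ y ∧ d ∉ y ∧
      x * algebraMap C (Localization.AtPrime y) d = algebraMap C (Localization.AtPrime y) c := by
  obtain ⟨c, d, hcd⟩ := IsLocalization.exists_mk'_eq y.primeCompl x
  have h1 : x * algebraMap C (Localization.AtPrime y) (d : C) =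
      algebraMap C (Localization.AtPrime y) c := by
    rw [← hcd]
    exact IsLocalization.mk'_spec (Localization.AtPrime y) c d
  have hu : IsUnit (algebraMap C (Localization.AtPrime y) c) := by
    rw [← h1]
    exact hx.mul (IsLocalization.map_units (Localization.AtPrime y) d)
  have hc : c ∈ y.primeCompl :=
    (IsLocalization.AtPrime.isUnit_to_map_iff (Localization.AtPrime y) y c).mp hu
  exact ⟨c, (d : C), hc, d.2, h1⟩

end Unit

/-! ### Fractions of chart elements in the local ring -/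

section Frac

variable {O : Type*} [CommRing O] {L : Type*} [Field L] [Algebra O L] (u : L)
  [IsFractionRing (Chart O u) L] (y : Ideal (Chart O u)) [y.IsPrime]

/-- An element `v = c / d` of `L` with `c, d` in the chart ring and `d ∉ y` lies in the local
ring `R₀ = (Chart O u)_y`. -/
theorem mem_range_loc_of_mul_eq (v : L)
    (hv : ∃ c d : Chart O u, d ∉ y ∧ v * (d : L) = (c : L)) :
    letI := Fermat.Agent.S44.L.NodeLocInst.algebraLoc L y
    v ∈ Set.range (algebraMap (Localization.AtPrime y) L) := by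
  letI := Fermat.Agent.S44.L.NodeLocInst.algebraLoc L y
  haveI := Fermat.Agent.S44.L.NodeLocInst.isScalarTower_loc L y
  obtain ⟨c, d, hd, hcd⟩ := hv
  have hd0 : (d : L) ≠ 0 := by
    intro h0
    apply hd
    have h1 : d = 0 := Subtype.ext h0
    rw [h1]
    exact y.zero_mem
  have e1 : algebraMap (Localization.AtPrime y) L
      (algebraMap (Chart O u) (Localization.AtPrime y) d) = (d : L) := by
    rw [← IsScalarTower.algebraMap_apply (Chart O u) (Localization.AtPrime y) L]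
    rfl
  have e2 : algebraMap (Localization.AtPrime y) L
      (algebraMap (Chart O u) (Localization.AtPrime y) c) = (c : L) := by
    rw [← IsScalarTower.algebraMap_apply (Chart O u) (Localization.AtPrime y) L]
    rfl
  have e3 : IsLocalization.mk' (Localization.AtPrime y) c (⟨d, hd⟩ : y.primeCompl) *
      algebraMap (Chart O u) (Localization.AtPrime y) d =
      algebraMap (Chart O u) (Localization.AtPrime y) c :=
    IsLocalization.mk'_spec (Localization.AtPrime y) c (⟨d, hd⟩ : y.primeCompl)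
  refine ⟨IsLocalization.mk' (Localization.AtPrime y) c (⟨d, hd⟩ : y.primeCompl), ?_⟩
  apply mul_right_cancel₀ hd0
  have e4 := congrArg (algebraMap (Localization.AtPrime y) L) e3
  rw [RingHom.map_mul, e1, e2] at e4
  exact e4.trans hcd.symm

end Frac

/-! ### One and two reductions of a chart -/

section Red

variable {O E : Type*} [CommRing O] [IsDomain O] [IsDiscreteValuationRing O] [Field E]
  [Algebra O E] [FaithfulSMul O E] {L : Type*} [Field L] [Algebra O L]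
  (ϖ : O) (hϖ : Irreducible ϖ)
  (σ₁ : L →+* LaurentSeries E)
  (hσ₁O : ∀ r : O, σ₁ (algebraMap O L r) = HahnSeries.C (algebraMap O E r))
  (hσ₁frac : ∀ x : L, σ₁ x ∈ GaussDVR.fracField O E)
  (σ₂ : L →+* LaurentSeries E)
  (hσ₂O : ∀ r : O, σ₂ (algebraMap O L r) = HahnSeries.C (algebraMap O E r))
  (hσ₂frac : ∀ x : L, σ₂ x ∈ GaussDVR.fracField O E)
  (u : L) (U₁ : LaurentSeries O) (hσ₁u : σ₁ u = GaussDVR.iota O E U₁)
  (U₂ : LaurentSeries O) (hσ₂u : σ₂ u = GaussDVR.iota O E U₂)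
  [IsFractionRing (Chart O u) L]
  (y : Ideal (Chart O u)) [hyp : y.IsPrime]
  (hy₁ : RingHom.ker (redHom σ₁ hσ₁O ϖ hϖ hσ₁frac u U₁ hσ₁u) ≤ y)
  (hy₂ : RingHom.ker (redHom σ₂ hσ₂O ϖ hϖ hσ₂frac u U₂ hσ₂u) ≤ y)

local notation "r₁" => redHom σ₁ hσ₁O ϖ hϖ hσ₁frac u U₁ hσ₁u
local notation "r₂" => redHom σ₂ hσ₂O ϖ hϖ hσ₂frac u U₂ hσ₂u
local notation "a" => algebraMap (Chart O u) (Localization.AtPrime y)

include hy₁ in
/-- **The Eisenstein function at a point with one vertical prime.**  `ker r₁ = (t)` locally at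
`y`, `a t` a prime element of `R₀` associated to `ℓ`; `D, D' ∈ R₀` with `D D' = ℓ ^ n` and the
reduction `D̄` of `D` nonzero.  Then `D̄ = r₁ c / r₁ d` with `c, d ∉ y`. -/
theorem eis_smooth_of_red (t : Chart O u) (ht : t ∈ RingHom.ker r₁)
    (hgen : ∀ x ∈ RingHom.ker r₁, ∃ s, s ∉ y ∧ s * x ∈ Ideal.span {t})
    (hp : Prime (a t)) (ℓ : ℕ)
    (hass : Associated (a t) ((ℓ : ℕ) : Localization.AtPrime y))
    (D D' : L) (n : ℕ)
    (hD : letI := Fermat.Agent.S44.L.NodeLocInst.algebraLoc L y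
      D ∈ Set.range (algebraMap (Localization.AtPrime y) L))
    (hD' : letI := Fermat.Agent.S44.L.NodeLocInst.algebraLoc L y
      D' ∈ Set.range (algebraMap (Localization.AtPrime y) L))
    (hDD : D * D' = ((ℓ : ℕ) : L) ^ n)
    (hDV : σ₁ D ∈ GaussDVR.V O E) (hDne : GaussDVR.red O E ⟨σ₁ D, hDV⟩ ≠ 0) :
    ∃ c d : Chart O u, c ∉ y ∧ d ∉ y ∧ GaussDVR.red O E ⟨σ₁ D, hDV⟩ * r₁ d = r₁ c := by
  letI := Fermat.Agent.S44.L.NodeLocInst.algebraLoc L y
  haveI := Fermat.Agent.S44.L.NodeLocInst.isFractionRing_loc L y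
  obtain ⟨x, hx⟩ := hD
  obtain ⟨x', hx'⟩ := hD'
  have hinj : Function.Injective (algebraMap (Localization.AtPrime y) L) :=
    IsFractionRing.injective (Localization.AtPrime y) L
  have e1 : algebraMap (Localization.AtPrime y) L (x * x') = D * D' := by
    rw [RingHom.map_mul, hx, hx']
  have e2 : algebraMap (Localization.AtPrime y) L (((ℓ : ℕ) : Localization.AtPrime y) ^ n) =
      ((ℓ : ℕ) : L) ^ n := by
    rw [RingHom.map_pow, map_natCast]
  have hxx : x * x' = ((ℓ : ℕ) : Localization.AtPrime y) ^ n :=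
    hinj (e1.trans (hDD.trans e2.symm))
  have h1 : ¬ a t ∣ x :=
    Fermat.Agent.S44.L.LocRed.not_dvd_of_red_ne_zero σ₁ hσ₁O ϖ hϖ hσ₁frac u U₁ hσ₁u y hy₁ t ht
      hgen x D hx hDV hDne
  have hxx' : Associated (x * x') (a t ^ n) :=
    (Associated.of_eq hxx).trans hass.symm.pow_pow
  have hxu : IsUnit x := (Fermat.Agent.S44.L.EisNode.eis_smooth hp hxx' h1).1
  obtain ⟨c, d, hc, hd, hcd⟩ := exists_mul_eq_of_isUnit y x hxu
  refine ⟨c, d, hc, hd, ?_⟩
  have e := Fermat.Agent.S44.L.LocRed.redLoc_algebraMap σ₁ hσ₁O ϖ hϖ hσ₁frac u U₁ hσ₁u y hy₁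
  have h3 := congrArg (Fermat.Agent.S44.L.LocRed.redLoc σ₁ hσ₁O ϖ hϖ hσ₁frac u U₁ hσ₁u y hy₁) hcd
  rw [RingHom.map_mul, e d, e c] at h3
  rw [Fermat.Agent.S44.L.LocRed.red_sigma_loc σ₁ hσ₁O ϖ hϖ hσ₁frac u U₁ hσ₁u y hy₁ x D hx hDV]
  exact h3

include hy₁ hy₂ in
/-- **The Eisenstein function at a crossing point.**  `ker r₁ = (t₁)`, `ker r₂ = (t₂)` locally
at `y`, `a t₁`, `a t₂` prime elements of `R₀` with `a t₁ * a t₂ ~ ℓ`; `D, D' ∈ R₀` with
`D D' = ℓ ^ n`, the first reduction `D̄` of `D` and the second reduction of `D'` nonzero.  Then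
`D̄ = (r₁ c / r₁ d) · r₁ t₂ ^ n` with `c, d ∉ y`. -/
theorem eis_node_of_red (t₁ t₂ : Chart O u) (ht₁ : t₁ ∈ RingHom.ker r₁)
    (hgen₁ : ∀ x ∈ RingHom.ker r₁, ∃ s, s ∉ y ∧ s * x ∈ Ideal.span {t₁})
    (ht₂ : t₂ ∈ RingHom.ker r₂)
    (hgen₂ : ∀ x ∈ RingHom.ker r₂, ∃ s, s ∉ y ∧ s * x ∈ Ideal.span {t₂})
    (hp₁ : Prime (a t₁)) (hp₂ : Prime (a t₂)) (ℓ : ℕ)
    (hass : Associated (a t₁ * a t₂) ((ℓ : ℕ) : Localization.AtPrime y))
    (D D' : L) (n : ℕ)
    (hD : letI := Fermat.Agent.S44.L.NodeLocInst.algebraLoc L y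
      D ∈ Set.range (algebraMap (Localization.AtPrime y) L))
    (hD' : letI := Fermat.Agent.S44.L.NodeLocInst.algebraLoc L y
      D' ∈ Set.range (algebraMap (Localization.AtPrime y) L))
    (hDD : D * D' = ((ℓ : ℕ) : L) ^ n)
    (hDV : σ₁ D ∈ GaussDVR.V O E) (hDne : GaussDVR.red O E ⟨σ₁ D, hDV⟩ ≠ 0)
    (hD'V : σ₂ D' ∈ GaussDVR.V O E) (hD'ne : GaussDVR.red O E ⟨σ₂ D', hD'V⟩ ≠ 0) :
    ∃ c d : Chart O u, c ∉ y ∧ d ∉ y ∧
      GaussDVR.red O E ⟨σ₁ D, hDV⟩ * r₁ d = r₁ c * r₁ t₂ ^ n := by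
  letI := Fermat.Agent.S44.L.NodeLocInst.algebraLoc L y
  haveI := Fermat.Agent.S44.L.NodeLocInst.isFractionRing_loc L y
  obtain ⟨x, hx⟩ := hD
  obtain ⟨x', hx'⟩ := hD'
  have hinj : Function.Injective (algebraMap (Localization.AtPrime y) L) :=
    IsFractionRing.injective (Localization.AtPrime y) L
  have e1 : algebraMap (Localization.AtPrime y) L (x * x') = D * D' := by
    rw [RingHom.map_mul, hx, hx']
  have e2 : algebraMap (Localization.AtPrime y) L (((ℓ : ℕ) : Localization.AtPrime y) ^ n) =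
      ((ℓ : ℕ) : L) ^ n := by
    rw [RingHom.map_pow, map_natCast]
  have hxx : x * x' = ((ℓ : ℕ) : Localization.AtPrime y) ^ n :=
    hinj (e1.trans (hDD.trans e2.symm))
  have h1 : ¬ a t₁ ∣ x :=
    Fermat.Agent.S44.L.LocRed.not_dvd_of_red_ne_zero σ₁ hσ₁O ϖ hϖ hσ₁frac u U₁ hσ₁u y hy₁ t₁ ht₁
      hgen₁ x D hx hDV hDne
  have h2 : ¬ a t₂ ∣ x' :=
    Fermat.Agent.S44.L.LocRed.not_dvd_of_red_ne_zero σ₂ hσ₂O ϖ hϖ hσ₂frac u U₂ hσ₂u y hy₂ t₂ ht₂
      hgen₂ x' D' hx' hD'V hD'ne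
  obtain ⟨⟨v, hv⟩, -⟩ := Fermat.Agent.S44.L.EisNode.eis_node_unit hp₁ hp₂ hass
    (Associated.of_eq hxx) h1 h2
  obtain ⟨c, d, hc, hd, hcd⟩ := exists_mul_eq_of_isUnit y (v : Localization.AtPrime y) v.isUnit
  refine ⟨c, d, hc, hd, ?_⟩
  have key : x * a d = a c * a t₂ ^ n := by
    rw [hv, ← hcd]
    ring
  have e := Fermat.Agent.S44.L.LocRed.redLoc_algebraMap σ₁ hσ₁O ϖ hϖ hσ₁frac u U₁ hσ₁u y hy₁
  have h3 := congrArg (Fermat.Agent.S44.L.LocRed.redLoc σ₁ hσ₁O ϖ hϖ hσ₁frac u U₁ hσ₁u y hy₁) key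
  rw [RingHom.map_mul, RingHom.map_mul, RingHom.map_pow, e d, e c, e t₂] at h3
  rw [Fermat.Agent.S44.L.LocRed.red_sigma_loc σ₁ hσ₁O ϖ hϖ hσ₁frac u U₁ hσ₁u y hy₁ x D hx hDV]
  exact h3

end Red

/-! ### The closed points of the level-`ℓ M` chart -/

section Main

variable {O E : Type*} [CommRing O] [IsDomain O] [IsDiscreteValuationRing O] [Field E]
  [CharZero E] [Algebra O E] [IsFractionRing O E]
  {L' L : Type*} [Field L'] [Field L] [Algebra E L'] [Algebra O L'] [IsScalarTower O E L']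
  [Algebra O L] [Algebra E L] [IsScalarTower O E L]
  (ϖ : O) (hϖ : Irreducible ϖ)
  (α : L' →+* L) (hαO : ∀ r : O, α (algebraMap O L' r) = algebraMap O L r)
  (σ : L →+* LaurentSeries E)
  (hσO : ∀ r : O, σ (algebraMap O L r) = HahnSeries.C (algebraMap O E r))
  (hσfrac : ∀ x : L, σ x ∈ GaussDVR.fracField O E)
  (u' : L') (U : LaurentSeries O) (hσu : σ (α u') = GaussDVR.iota O E U)
  (w : L ≃+* L) (hwO : ∀ r : O, w (algebraMap O L r) = algebraMap O L r)
  (ℓ : ℕ) [NeZero ℓ]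
  (hwα : ∀ x : L', σ (w (α x)) = qExpand E ℓ (σ (α x)))
  (hww : ∀ z : L, w (w z) = z)
  (hprime : Prime (piC u' ϖ))
  (hcop : IsCoprime (GaussDVR.rho O U).order (ℓ : ℤ)) (hord : (GaussDVR.rho O U).order ≠ 0)
  (hℓ : 2 ≤ ℓ)
  (hfrob : qExpand (IsLocalRing.ResidueField O) ℓ (GaussDVR.rho O U) = GaussDVR.rho O U ^ ℓ)
  (hwu : IsIntegral (Algebra.adjoin O {α u'}) (w (α u')))
  (hrank : ∀ v : Option (Fin 1 ⊕ Fin ℓ) → Chart O (α u'),
    ∃ c : Option (Fin 1 ⊕ Fin ℓ) → Chart O u', c ≠ 0 ∧ ∑ i, incl α hαO u' (c i) * v i = 0)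

local notation "rI" => redInf ϖ hϖ α σ hσO hσfrac u' U hσu
local notation "rZ" => redZero ϖ hϖ α σ hσO hσfrac u' U hσu w hwO ℓ hwα
local notation "ι" => incl α hαO u'
local notation "uC" => incl α hαO u' (polyChart u' X)
local notation "vC" =>
  Fermat.Agent.S34.Modular.ChartZero.wChart α u' w hwO hww hwu (incl α hαO u' (polyChart u' X))
local notation "aL" y => algebraMap (Chart O (α u')) (Localization.AtPrime y)

/-- `α j' = c / d` in `L` from a polynomial relation `j' * Q(u') = P(u')` at level `M`, with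
`d = Q(U)`. -/
theorem exists_mul_of_poly (y : Ideal (Chart O (α u'))) (j' : L') (P Q : O[X])
    (hrel : j' * aeval u' Q = aeval u' P) (hQ : ι (polyChart u' Q) ∉ y) :
    ∃ c d : Chart O (α u'), d ∉ y ∧ α j' * (d : L) = (c : L) := by
  refine ⟨ι (polyChart u' P), ι (polyChart u' Q), hQ, ?_⟩
  have hd : ((ι (polyChart u' Q) : Chart O (α u')) : L) = α (aeval u' Q) := rfl
  have hc : ((ι (polyChart u' P) : Chart O (α u')) : L) = α (aeval u' P) := rfl
  rw [hd, hc, ← map_mul, hrel]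

/-- `α j' = c / d` with `d ∉ y` from the `u₄`-relation
`j' u'⁴ (u' + 16) = (u'² + 256 u' + 4096)³`, at a prime `y` off the cusps `U = 0`, `U = -16`. -/
theorem exists_mul_of_u4_rel (y : Ideal (Chart O (α u'))) [hyp : y.IsPrime] (j' : L')
    (hrel : j' * u' ^ 4 * (u' + 16) = (u' ^ 2 + 256 * u' + 4096) ^ 3)
    (hu0 : uC ∉ y) (hu16 : uC + 16 ∉ y) :
    ∃ c d : Chart O (α u'), d ∉ y ∧ α j' * (d : L) = (c : L) := by
  refine exists_mul_of_poly α hαO u' y j' ((X ^ 2 + 256 * X + 4096) ^ 3) (X ^ 4 * (X + 16)) ?_ ?_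
  · simp only [map_mul, map_pow, map_add, aeval_X, map_ofNat]
    linear_combination hrel
  · have h : ι (polyChart u' (X ^ 4 * (X + 16))) = uC ^ 4 * (uC + 16) := by
      simp only [map_mul, map_pow, map_add, map_ofNat]
    rw [h]
    intro hmem
    rcases hyp.mem_or_mem hmem with h4 | h16
    · exact hu0 (hyp.mem_of_pow_mem 4 h4)
    · exact hu16 h16

/-- A prime `y` lying over a non-branch point (`hnb` for a set `S ∋ 0, -16`) is off the cusps
`U = 0`, `U = -16`. -/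
theorem notMem_of_hnb (S : Finset O) (h0S : (0 : O) ∈ S) (h16S : (-16 : O) ∈ S)
    (y : Ideal (Chart O (α u')))
    (hnb : ∀ c ∈ S, ∀ m : Chart O u', ι m ∈ y → (m : L') ≠ u' - algebraMap O L' c) :
    uC ∉ y ∧ uC + 16 ∉ y := by
  constructor
  · intro h
    refine hnb 0 h0S (polyChart u' X) h ?_
    rw [coe_polyChart]
    simp only [aeval_X, map_zero, sub_zero]
  · intro h
    have h1 : ι (polyChart u' (X + 16)) = uC + 16 := by
      simp only [map_add, map_ofNat]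
    refine hnb (-16) h16S (polyChart u' (X + 16)) (by rw [h1]; exact h) ?_
    rw [coe_polyChart]
    simp only [map_add, aeval_X, map_ofNat, map_neg, sub_neg_eq_add]

include hϖ hαO hσO hσfrac hσu hwO hwα hww hprime hcop hord hℓ hfrob hwu hrank in
/-- **The Eisenstein function at a crossing point** (binders of `NodeC1.node_of_unram_pole`).
`v = c / d` with `d ∉ y`, `D, D'` integral over `O[v]`, `D D' = ℓ ^ n`, the `q`-expansion of
`D` and the swapped `q`-expansion of `D'` Gauss-integral with nonzero reduction.  Then the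
reduction `D̄` of `D` on the `∞`-component is `unit_y · τ ^ n`, `τ = rI (U - V ^ ℓ)` the
reduction of the local equation of the `0`-component:
`D̄ * rI d = rI c * rI (U - V ^ ℓ) ^ n` with `c, d ∉ y`. -/
theorem eis_crossing_of_unram_pole [Fact ℓ.Prime] [CharP (IsLocalRing.ResidueField O) ℓ]
    (e : O) (he : IsUnit e) (hℓe : (ℓ : O) = ϖ * e)
    (hu : Transcendental E u') [FiniteDimensional E⟮u'⟯ L']
    (hi : GaussUnram (E := E) ϖ u') (S : Finset O) (hii : HorizUnram (E := E) S u')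
    (hnormal : IsIntegrallyClosed (Chart O u' ⧸ Ideal.span {piC u' ϖ}))
    (hreg : ∀ Q : Ideal (Chart O u'), Q.IsMaximal → piC u' ϖ ∈ Q → RegNB.RegAt (piC u' ϖ) Q)
    [FiniteDimensional E⟮α u'⟯ L] (hHL : HorizUnram (E := E) S (α u')) (h0S : (0 : O) ∈ S)
    (hSfrob : ∀ c ∈ S, ∃ c' ∈ S, IsLocalRing.residue O c' ^ ℓ = IsLocalRing.residue O c)
    (y : Ideal (Chart O (α u'))) [hy : y.IsMaximal] (hI : RingHom.ker rI ≤ y)
    (hZ : RingHom.ker rZ ≤ y)
    (hnb : ∀ c ∈ S, ∀ m : Chart O u', ι m ∈ y → (m : L') ≠ u' - algebraMap O L' c)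
    (v D D' : L) (n : ℕ)
    (hv : ∃ c d : Chart O (α u'), d ∉ y ∧ v * (d : L) = (c : L))
    (hDint : IsIntegral (Algebra.adjoin O {v}) D) (hD'int : IsIntegral (Algebra.adjoin O {v}) D')
    (hDD : D * D' = ((ℓ : ℕ) : L) ^ n)
    (hDV : σ D ∈ GaussDVR.V O E) (hDne : GaussDVR.red O E ⟨σ D, hDV⟩ ≠ 0)
    (hD'V : σ (w D') ∈ GaussDVR.V O E) (hD'ne : GaussDVR.red O E ⟨σ (w D'), hD'V⟩ ≠ 0) :
    ∃ c d : Chart O (α u'), c ∉ y ∧ d ∉ y ∧
      GaussDVR.red O E ⟨σ D, hDV⟩ * rI d = rI c * rI (uC - vC ^ ℓ) ^ n := by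
  classical
  haveI hfrac : IsFractionRing (Chart O (α u')) L :=
    Fermat.Agent.S34.TwoPrimesRank.isFractionRing_chart_of_finite (E := E) (α u')
  haveI hyp : y.IsPrime := hy.isPrime
  haveI : (RingHom.ker rI).IsPrime := RingHom.ker_isPrime _
  haveI : (RingHom.ker rZ).IsPrime := RingHom.ker_isPrime _
  have hπ0 : piC (α u') ϖ ≠ 0 :=
    Fermat.Agent.S44.L.NodeLocInst.piC_ne_zero' (α u') ϖ hϖ.ne_zero
      (ChartProv.algebraMap_injective_base O E L)
  have hpq : ((ℓ : ℕ) : Chart O (α u')) = piC (α u') ϖ * piC (α u') e :=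
    Fermat.Agent.S44.L.NodeLocInst.natCast_eq_piC_mul (α u') ℓ ϖ e hℓe
  have he' : piC (α u') e ∉ y := fun h =>
    hy.ne_top (Ideal.eq_top_of_isUnit_mem _ h
      (Fermat.Agent.S44.L.NodeLocInst.isUnit_piC (α u') e he))
  have hne := Fermat.Agent.S44.L.NodeLocInst.t1_notMem_ker_redZero ϖ hϖ α hαO σ hσO hσfrac u' U
    hσu w hwO ℓ hwα hww hord hℓ hfrob hwu
  obtain ⟨g, hg, hmul, hp1, hp2, hm⟩ := Fermat.Agent.S44.L.NodeC1.node_of_unram_pole ϖ hϖ α hαO σ
    hσO hσfrac u' U hσu w hwO ℓ hwα hww hprime hcop hord hℓ hfrob hwu hrank e he hℓe hu hi S hii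
    hnormal hreg hHL h0S hSfrob y hy hI hZ hnb
  obtain ⟨hpr1, hpr2, -, -, hass⟩ := Fermat.Agent.S44.L.NodeLoc.node_localization y _ _ hI hZ _ _ _
    g hπ0 hg hmul hp1.1 hp1.2 hp2.1 hp2.2 hne hm
  obtain ⟨ue, hue⟩ := Fermat.Agent.S44.L.NodeLoc.isUnit_algebraMap_of_notMem y he'
  have h2 : ((ℓ : ℕ) : Localization.AtPrime y) = (aL y) (piC (α u') ϖ) * ↑ue := by
    rw [hue, ← RingHom.map_mul, ← hpq, map_natCast]
  have hℓass : Associated ((aL y) (piC (α u') ϖ)) ((ℓ : ℕ) : Localization.AtPrime y) :=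
    ⟨ue, h2.symm⟩
  have hass' : Associated ((aL y) (vC - uC ^ ℓ) * (aL y) (uC - vC ^ ℓ))
      ((ℓ : ℕ) : Localization.AtPrime y) := hass.trans hℓass
  have hvR := mem_range_loc_of_mul_eq (α u') y v hv
  have hDR := Fermat.Agent.S44.L.LocRed.mem_range_loc_of_isIntegral (α u') y v D hvR hDint
  have hD'R := Fermat.Agent.S44.L.LocRed.mem_range_loc_of_isIntegral (α u') y v D' hvR hD'int
  have hD'V₂ : (σ.comp (w : L →+* L)) D' ∈ GaussDVR.V O E := hD'V
  have hD'ne₂ : GaussDVR.red O E ⟨(σ.comp (w : L →+* L)) D', hD'V₂⟩ ≠ 0 := hD'ne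
  exact eis_node_of_red ϖ hϖ σ hσO hσfrac (σ.comp (w : L →+* L)) (sigmaW_O σ hσO w hwO)
    (fun x => hσfrac (w x)) (α u') U hσu (qExpand O ℓ U) (sigmaW_u α σ u' U hσu w ℓ hwα) y hI hZ
    (vC - uC ^ ℓ) (uC - vC ^ ℓ) hp1.1 hp1.2 hp2.1 hp2.2 hpr1 hpr2 ℓ hass' D D' n hDR hD'R hDD
    hDV hDne hD'V₂ hD'ne₂

include hϖ hαO hσO hσfrac hσu hwO hwα hww hprime hcop hord hℓ hfrob hwu hrank in
/-- **The Eisenstein function at a point of the `∞`-component off the `0`-component** (binders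
of `NodeC1.smooth_inf_of_unram`): the reduction `D̄` of `D` is a unit at `y`:
`D̄ * rI d = rI c` with `c, d ∉ y`. -/
theorem eis_smooth_inf_of_unram (e : O) (he : IsUnit e) (hℓe : (ℓ : O) = ϖ * e)
    [FiniteDimensional E⟮α u'⟯ L]
    (hnormal : IsIntegrallyClosed (Chart O u' ⧸ Ideal.span {piC u' ϖ}))
    (hreg : ∀ Q : Ideal (Chart O u'), Q.IsMaximal → piC u' ϖ ∈ Q → RegNB.RegAt (piC u' ϖ) Q)
    (y : Ideal (Chart O (α u'))) [hy : y.IsMaximal] (hI : RingHom.ker rI ≤ y)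
    (hZ : ¬ RingHom.ker rZ ≤ y)
    (v D D' : L) (n : ℕ)
    (hv : ∃ c d : Chart O (α u'), d ∉ y ∧ v * (d : L) = (c : L))
    (hDint : IsIntegral (Algebra.adjoin O {v}) D) (hD'int : IsIntegral (Algebra.adjoin O {v}) D')
    (hDD : D * D' = ((ℓ : ℕ) : L) ^ n)
    (hDV : σ D ∈ GaussDVR.V O E) (hDne : GaussDVR.red O E ⟨σ D, hDV⟩ ≠ 0) :
    ∃ c d : Chart O (α u'), c ∉ y ∧ d ∉ y ∧ GaussDVR.red O E ⟨σ D, hDV⟩ * rI d = rI c := by
  classical
  haveI hfrac : IsFractionRing (Chart O (α u')) L :=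
    Fermat.Agent.S34.TwoPrimesRank.isFractionRing_chart_of_finite (E := E) (α u')
  haveI hyp : y.IsPrime := hy.isPrime
  haveI : (RingHom.ker rI).IsPrime := RingHom.ker_isPrime _
  have hπ0 : piC (α u') ϖ ≠ 0 :=
    Fermat.Agent.S44.L.NodeLocInst.piC_ne_zero' (α u') ϖ hϖ.ne_zero
      (ChartProv.algebraMap_injective_base O E L)
  have hpq : ((ℓ : ℕ) : Chart O (α u')) = piC (α u') ϖ * piC (α u') e :=
    Fermat.Agent.S44.L.NodeLocInst.natCast_eq_piC_mul (α u') ℓ ϖ e hℓe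
  have he' : piC (α u') e ∉ y := fun h =>
    hy.ne_top (Ideal.eq_top_of_isUnit_mem _ h
      (Fermat.Agent.S44.L.NodeLocInst.isUnit_piC (α u') e he))
  have hprin := (Fermat.Agent.S44.L.NodeC1.smooth_inf_of_unram ϖ hϖ α hαO σ hσO hσfrac u' U hσu
    w hwO ℓ hwα hww hprime hcop hord hℓ hfrob hwu hrank hnormal hreg y hy hI hZ).1
  have hpr : Prime ((aL y) (piC (α u') ϖ)) :=
    Fermat.Agent.S44.L.NodeLoc.prime_algebraMap y _ hI (piC (α u') ϖ) hπ0 hprin.1 hprin.2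
  obtain ⟨ue, hue⟩ := Fermat.Agent.S44.L.NodeLoc.isUnit_algebraMap_of_notMem y he'
  have h2 : ((ℓ : ℕ) : Localization.AtPrime y) = (aL y) (piC (α u') ϖ) * ↑ue := by
    rw [hue, ← RingHom.map_mul, ← hpq, map_natCast]
  have hass : Associated ((aL y) (piC (α u') ϖ)) ((ℓ : ℕ) : Localization.AtPrime y) :=
    ⟨ue, h2.symm⟩
  have hvR := mem_range_loc_of_mul_eq (α u') y v hv
  have hDR := Fermat.Agent.S44.L.LocRed.mem_range_loc_of_isIntegral (α u') y v D hvR hDint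
  have hD'R := Fermat.Agent.S44.L.LocRed.mem_range_loc_of_isIntegral (α u') y v D' hvR hD'int
  exact eis_smooth_of_red ϖ hϖ σ hσO hσfrac (α u') U hσu y hI (piC (α u') ϖ) hprin.1 hprin.2 hpr
    ℓ hass D D' n hDR hD'R hDD hDV hDne

end Main

end Fermat.Agent.S44.L.EisLoc
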