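import Mathlib
import Fermat.Agent.S44.L.EisLoc
import Fermat.Agent.S44.L.EisChart

/-!
# S44 (Mazur–Ribet), strand L: the Eisenstein function at the closed points of the `u₄` chart

`S44/L/EisLoc` (level-free) at the objects of `S44/L/NodeC1Inst` (levels `(M, M q)`, `4 ∣ M`, `q` an
odd prime, `q ∤ M`, coordinate `u₄`) with the Eisenstein function `D = Δ(q)/Δ(q^q)` of
`S44/L/EisChart` (`D = eisE M q hq E`, `D' = w D`, `D D' = q ^ 12`, both integral over `O[α j]`,
`red (σ D) = Δ̄ (Δ̄^q)⁻¹ = red (σ (w D'))`), and `α j = c / d` from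
`j u₄⁴ (u₄ + 16) = (u₄² + 256 u₄ + 4096)³`.

`D̄ = Δ̄ (Δ̄^q)⁻¹` is the reduction of `D` on the `∞`-component; `rI = redInf ..` the reduction
map of the chart `C = Chart O (α u₄)`; `U = incl (polyChart X)`, `V = wChart U`.

* `eis_crossing_u4` : at every maximal `y ⊇ p_∞, p_0` (crossing points; automatically off the
  cusps): `D̄ * rI d = rI c * rI (U - V ^ q) ^ 12` with `c, d ∉ y` ("`D̄ = unit_y · τ ^ 12`",
  `τ` the reduction of the local equation of the `0`-component).
* `eis_smooth_inf_u4` : at every maximal `y ⊇ p_∞`, `y ⊉ p_0`, off the cusps `U = 0`, `U = -16`: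
  `D̄ * rI d = rI c` with `c, d ∉ y` ("`D̄ = unit_y`").
* `eis_crossing_u4_OE`, `eis_smooth_inf_u4_OE` : the arithmetic instances `O = OE A K`.

The only hypothesis beyond the binder block of `NodeC1Inst.node_u4` is the level-`M` fact
`Prime (piC (jE M E) π)` on the `j`-chart (`S34/HauptU/LevelMAux.exists_levelM_jE`).
-/

set_option autoImplicit false
set_option linter.unusedSectionVars false
set_option linter.unusedVariables false
set_option linter.style.haveILetI false
set_option linter.style.longLine false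
set_option synthInstance.maxHeartbeats 400000
set_option maxHeartbeats 1000000

open ModularCurve Polynomial IntermediateField

noncomputable section

namespace Fermat.Agent.S44.L.EisNodeInst

open Fermat.Agent.S30 Fermat.Agent.S34 Fermat.Agent.S34.TwoPrimesGauss
open Fermat.Agent.S36.PrinAt Fermat.Agent.S30.Model
open Fermat.Agent.S18.K1Defs Fermat.Agent.S18.K1Main
open Fermat.Agent.S34.TwoPrimesRank Fermat.Agent.S34.HauptU.Plug
open Fermat.Agent.S34.HauptU.LevelMAux
open Fermat.Agent.S36.Haupt4 Fermat.Agent.S36.LevelQInstAlt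

local notation "Qb" => AlgebraicClosure ℚ

/-! ### Generic unramified base -/

section Generic

variable (M q : ℕ) [NeZero M] [NeZero q] (E : IntermediateField ℚ Qb)
  {O : Type} [CommRing O] [IsDomain O] [IsDiscreteValuationRing O]
  [Algebra O E] [IsFractionRing O E]

/-- **The Eisenstein function at a crossing point of the `u₄` chart**:
`D̄ * rI d = rI c * rI (U - V ^ q) ^ 12` with `c, d ∉ y`, `D̄ = Δ̄ (Δ̄^q)⁻¹`. -/
theorem eis_crossing_u4 (hq : q.Prime) (hodd : q ≠ 2) (hqM : ¬ q ∣ M) (h4 : 4 ∣ M)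
    (h2 : IsUnit (2 : O)) (hFG : FinGaussC M O E) (π : O) (hπ : Irreducible π)
    (e : O) (he : IsUnit e) (hqe : ((q : ℕ) : O) = π * e)
    (hσfrac : ∀ x : LE (M * q) E, sigmaHom (M * q) E x ∈ GaussDVR.fracField O E) :
    letI := algebraOL O E (LE M E)
    letI := algebraOL O E (LE (M * q) E)
    haveI := isScalarTower_OL O E (LE M E)
    haveI := isScalarTower_OL O E (LE (M * q) E)
    Prime (piC (Fermat.Agent.S30.E2Deg.jE M E) π) →
    ∀ y : Ideal (Chart O (alphaHom M q E (u4E M E h4))), y.IsMaximal →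
      RingHom.ker (redInf π hπ (alphaHom M q E) (sigmaHom (M * q) E)
        (sigmaHom_algebraMap (M * q) E) hσfrac (u4E M E h4) (u4 O)
        (hσu_u4 M q E h4)) ≤ y →
      RingHom.ker (redZero π hπ (alphaHom M q E) (sigmaHom (M * q) E)
        (sigmaHom_algebraMap (M * q) E) hσfrac (u4E M E h4) (u4 O)
        (hσu_u4 M q E h4) (wHom M q E hq hqM) (wHom_algebraMap M q E hq hqM) q
        (sigmaHom_wHom_alpha M q E hq hqM)) ≤ y →
      ∃ c d : Chart O (alphaHom M q E (u4E M E h4)), c ∉ y ∧ d ∉ y ∧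
        Fermat.Agent.S44.L.EisFormal.deltaL (IsLocalRing.ResidueField O) *
          (Fermat.Agent.S44.L.EisFormal.deltaL (IsLocalRing.ResidueField O) ^ q)⁻¹ *
          redInf π hπ (alphaHom M q E) (sigmaHom (M * q) E)
        (sigmaHom_algebraMap (M * q) E) hσfrac (u4E M E h4) (u4 O)
        (hσu_u4 M q E h4) d =
        redInf π hπ (alphaHom M q E) (sigmaHom (M * q) E)
        (sigmaHom_algebraMap (M * q) E) hσfrac (u4E M E h4) (u4 O)
        (hσu_u4 M q E h4) c *
          redInf π hπ (alphaHom M q E) (sigmaHom (M * q) E)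
        (sigmaHom_algebraMap (M * q) E) hσfrac (u4E M E h4) (u4 O)
        (hσu_u4 M q E h4)
          ((incl (alphaHom M q E) (alphaHom_algebraMap M q E) (u4E M E h4)
          (polyChart (u4E M E h4) X)) -
          (Fermat.Agent.S34.Modular.ChartZero.wChart (alphaHom M q E) (u4E M E h4)
          (wHom M q E hq hqM) (wHom_algebraMap M q E hq hqM) (wHom_wHom M q E hq hqM)
          (hwu_u4 M q E h2 hq hodd hqM h4)
          (incl (alphaHom M q E) (alphaHom_algebraMap M q E) (u4E M E h4)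
          (polyChart (u4E M E h4) X))) ^ q) ^ 12 := by
  classical
  letI := algebraOL O E (LE M E)
  letI := algebraOL O E (LE (M * q) E)
  haveI := isScalarTower_OL O E (LE M E)
  haveI := isScalarTower_OL O E (LE (M * q) E)
  have hfg := u4_fin_gauss M E h4 hFG
  have hfin : FiniteDimensional (IntermediateField.adjoin E {u4E M E h4}) (LE M E) := hfg.1
  haveI := hfin
  have hcf := Fermat.Agent.S36.Haupt4.Fibre.chartFacts_u4 M E h4 h2 hFG π hπ
  have hwu := hwu_u4 M q E (O := O) h2 hq hodd hqM h4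
  haveI : Fact q.Prime := ⟨hq⟩
  haveI : CharP (IsLocalRing.ResidueField O) q :=
    Fermat.Agent.S36.DerUnram.charP_residue π hπ q ⟨e, hqe⟩
  have hT : Transcendental E (u4E M E h4) := transcendental_u4E M E h4
  haveI := Fermat.Agent.S36.Haupt4.LevelQ.finiteDimensional_alpha_u4E M q E h4
  have hG : ∀ π : O, Irreducible π → GaussUnram (E := E) π (u4E M E h4) := hfg.2
  -- the cusp values
  have h0S : (0 : O) ∈ ({0, -16} : Finset O) := by simp
  have h16S : (-16 : O) ∈ ({0, -16} : Finset O) := by simp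
  have hSint : ∀ c ∈ ({0, -16} : Finset O), ∃ z : ℤ, c = (z : O) := by
    intro c hc
    simp only [Finset.mem_insert, Finset.mem_singleton] at hc
    rcases hc with rfl | rfl
    · exact ⟨0, by simp⟩
    · exact ⟨-16, by simp⟩
  have hSres : ∀ c ∈ ({0, -16} : Finset O),
      IsLocalRing.residue O c ^ q = IsLocalRing.residue O c := by
    intro c hc
    obtain ⟨z, rfl⟩ := hSint c hc
    exact Fermat.Agent.S36.A2.residue_intCast_pow q z
  have hH : HorizUnram (E := E) ({0, -16} : Finset O) (u4E M E h4) :=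
    u4_horiz M E h4 _ h0S h16S
  have hHL : HorizUnram (E := E) ({0, -16} : Finset O) (alphaHom M q E (u4E M E h4)) :=
    Fermat.Agent.S36.Haupt4.LevelQ.horizUnram_alpha_u4E M q E h4 _ h0S h16S
  have hnb := Fermat.Agent.S36.ThickCusp.hnb_of_isIntegral π hπ (alphaHom M q E)
    (alphaHom_algebraMap M q E) (sigmaHom (M * q) E) (sigmaHom_algebraMap (M * q) E) hσfrac
    (u4E M E h4) (u4 O) (hσu_u4 M q E h4) (wHom M q E hq hqM) (wHom_algebraMap M q E hq hqM) q
    (sigmaHom_wHom_alpha M q E hq hqM) (wHom_wHom M q E hq hqM) hord_u4 hq.two_le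
    (hfrob_u4 q hq) hwu ({0, -16} : Finset O) hSres
    (Fermat.Agent.S36.Haupt4.LevelQ.hint_u4E M q E h2 hq hodd hqM h4)
  intro hprimej y hy hI hZ
  haveI := hy
  haveI hyp : y.IsPrime := hy.isPrime
  -- the Eisenstein data
  have hDint := Fermat.Agent.S44.L.EisChart.isIntegral_eisE M q hq E (O := O) hqM π hπ hσfrac
    hprimej
  have hD'int := Fermat.Agent.S44.L.EisChart.isIntegral_wHom_eisE M q hq E (O := O) hqM π hπ
    hσfrac hprimej
  have hDD : (Fermat.Agent.S44.L.EisChart.eisE M q hq E) * wHom M q E hq hqM (Fermat.Agent.S44.L.EisChart.eisE M q hq E) = ((q : ℕ) : LE (M * q) E) ^ 12 :=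
    (mul_comm _ _).trans (Fermat.Agent.S44.L.EisChart.wHom_eisE_mul M q hq E hqM)
  have hDV : sigmaHom (M * q) E (Fermat.Agent.S44.L.EisChart.eisE M q hq E) ∈ GaussDVR.V O E :=
    Fermat.Agent.S44.L.EisChart.sigma_eisE_mem_V M q hq E
  have hDred : GaussDVR.red O E ⟨sigmaHom (M * q) E (Fermat.Agent.S44.L.EisChart.eisE M q hq E), hDV⟩ =
      Fermat.Agent.S44.L.EisFormal.deltaL (IsLocalRing.ResidueField O) *
        (Fermat.Agent.S44.L.EisFormal.deltaL (IsLocalRing.ResidueField O) ^ q)⁻¹ :=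
    Fermat.Agent.S44.L.EisChart.red_eisE M q hq E _ rfl hDV
  have hne0 : Fermat.Agent.S44.L.EisFormal.deltaL (IsLocalRing.ResidueField O) *
      (Fermat.Agent.S44.L.EisFormal.deltaL (IsLocalRing.ResidueField O) ^ q)⁻¹ ≠ 0 :=
    mul_ne_zero Fermat.Agent.S44.L.EisFormal.deltaL_ne_zero
      (inv_ne_zero (pow_ne_zero q Fermat.Agent.S44.L.EisFormal.deltaL_ne_zero))
  have hDne : GaussDVR.red O E ⟨sigmaHom (M * q) E (Fermat.Agent.S44.L.EisChart.eisE M q hq E), hDV⟩ ≠ 0 :=
    fun h => hne0 (hDred.symm.trans h)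
  have hww : wHom M q E hq hqM (wHom M q E hq hqM (Fermat.Agent.S44.L.EisChart.eisE M q hq E)) = (Fermat.Agent.S44.L.EisChart.eisE M q hq E) :=
    wHom_wHom M q E hq hqM _
  have hD'V : sigmaHom (M * q) E (wHom M q E hq hqM (wHom M q E hq hqM (Fermat.Agent.S44.L.EisChart.eisE M q hq E))) ∈
      GaussDVR.V O E := by
    rw [hww]
    exact hDV
  have hD'red : GaussDVR.red O E
      ⟨sigmaHom (M * q) E (wHom M q E hq hqM (wHom M q E hq hqM (Fermat.Agent.S44.L.EisChart.eisE M q hq E))), hD'V⟩ =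
      Fermat.Agent.S44.L.EisFormal.deltaL (IsLocalRing.ResidueField O) *
        (Fermat.Agent.S44.L.EisFormal.deltaL (IsLocalRing.ResidueField O) ^ q)⁻¹ :=
    Fermat.Agent.S44.L.EisChart.red_eisE M q hq E _ (by rw [hww]) hD'V
  have hD'ne : GaussDVR.red O E
      ⟨sigmaHom (M * q) E (wHom M q E hq hqM (wHom M q E hq hqM (Fermat.Agent.S44.L.EisChart.eisE M q hq E))), hD'V⟩ ≠ 0 :=
    fun h => hne0 (hD'red.symm.trans h)
  have hnm := Fermat.Agent.S44.L.EisLoc.notMem_of_hnb (alphaHom M q E) (alphaHom_algebraMap M q E)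
    (u4E M E h4) ({0, -16} : Finset O) h0S h16S y (hnb y hy hI hZ)
  have hv := Fermat.Agent.S44.L.EisLoc.exists_mul_of_u4_rel (alphaHom M q E)
    (alphaHom_algebraMap M q E) (u4E M E h4) y (Fermat.Agent.S30.E2Deg.jE M E)
    (Fermat.Agent.S36.Haupt4.jE_mul_u4E M E h4 (Fermat.Agent.S30.E2Deg.jE M E)
      (Fermat.Agent.S30.E2Deg.coe_jE M E)) hnm.1 hnm.2
  have key := Fermat.Agent.S44.L.EisLoc.eis_crossing_of_unram_pole π hπ (alphaHom M q E)
    (alphaHom_algebraMap M q E) (sigmaHom (M * q) E) (sigmaHom_algebraMap (M * q) E) hσfrac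
    (u4E M E h4) (u4 O) (hσu_u4 M q E h4) (wHom M q E hq hqM) (wHom_algebraMap M q E hq hqM) q
    (sigmaHom_wHom_alpha M q E hq hqM) (wHom_wHom M q E hq hqM) hcf.prime_zero (hcop_u4 q)
    hord_u4 hq.two_le (hfrob_u4 q hq) hwu (hrank_u4 M q E hq hqM h4) e he hqe hT (hG π hπ)
    ({0, -16} : Finset O) hH hcf.normal_zero hcf.regAt_zero hHL h0S
    (Fermat.Agent.S36.A2.frobStable_of_intCast q _ hSint) y hI hZ (hnb y hy hI hZ)
    (alphaHom M q E (Fermat.Agent.S30.E2Deg.jE M E)) (Fermat.Agent.S44.L.EisChart.eisE M q hq E) (wHom M q E hq hqM (Fermat.Agent.S44.L.EisChart.eisE M q hq E)) 12 hv hDint hD'int hDD hDV hDne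
    hD'V hD'ne
  obtain ⟨c, d, hc, hd, hcd⟩ := key
  exact ⟨c, d, hc, hd, (congrArg (· * _) hDred.symm).trans hcd⟩

/-- **The Eisenstein function at a point of the `u₄` chart on the `∞`-component only**, off
the cusps `U = 0`, `U = -16`: `D̄ * rI d = rI c` with `c, d ∉ y`, `D̄ = Δ̄ (Δ̄^q)⁻¹`. -/
theorem eis_smooth_inf_u4 (hq : q.Prime) (hodd : q ≠ 2) (hqM : ¬ q ∣ M) (h4 : 4 ∣ M)
    (h2 : IsUnit (2 : O)) (hFG : FinGaussC M O E) (π : O) (hπ : Irreducible π)
    (e : O) (he : IsUnit e) (hqe : ((q : ℕ) : O) = π * e)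
    (hσfrac : ∀ x : LE (M * q) E, sigmaHom (M * q) E x ∈ GaussDVR.fracField O E) :
    letI := algebraOL O E (LE M E)
    letI := algebraOL O E (LE (M * q) E)
    haveI := isScalarTower_OL O E (LE M E)
    haveI := isScalarTower_OL O E (LE (M * q) E)
    Prime (piC (Fermat.Agent.S30.E2Deg.jE M E) π) →
    ∀ y : Ideal (Chart O (alphaHom M q E (u4E M E h4))), y.IsMaximal →
      RingHom.ker (redInf π hπ (alphaHom M q E) (sigmaHom (M * q) E)
        (sigmaHom_algebraMap (M * q) E) hσfrac (u4E M E h4) (u4 O)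
        (hσu_u4 M q E h4)) ≤ y →
      ¬ RingHom.ker (redZero π hπ (alphaHom M q E) (sigmaHom (M * q) E)
        (sigmaHom_algebraMap (M * q) E) hσfrac (u4E M E h4) (u4 O)
        (hσu_u4 M q E h4) (wHom M q E hq hqM) (wHom_algebraMap M q E hq hqM) q
        (sigmaHom_wHom_alpha M q E hq hqM)) ≤ y →
      (incl (alphaHom M q E) (alphaHom_algebraMap M q E) (u4E M E h4)
          (polyChart (u4E M E h4) X)) ∉ y →
      (incl (alphaHom M q E) (alphaHom_algebraMap M q E) (u4E M E h4)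
          (polyChart (u4E M E h4) X)) + 16 ∉ y →
      ∃ c d : Chart O (alphaHom M q E (u4E M E h4)), c ∉ y ∧ d ∉ y ∧
        Fermat.Agent.S44.L.EisFormal.deltaL (IsLocalRing.ResidueField O) *
          (Fermat.Agent.S44.L.EisFormal.deltaL (IsLocalRing.ResidueField O) ^ q)⁻¹ *
          redInf π hπ (alphaHom M q E) (sigmaHom (M * q) E)
        (sigmaHom_algebraMap (M * q) E) hσfrac (u4E M E h4) (u4 O)
        (hσu_u4 M q E h4) d =
        redInf π hπ (alphaHom M q E) (sigmaHom (M * q) E)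
        (sigmaHom_algebraMap (M * q) E) hσfrac (u4E M E h4) (u4 O)
        (hσu_u4 M q E h4) c := by
  classical
  letI := algebraOL O E (LE M E)
  letI := algebraOL O E (LE (M * q) E)
  haveI := isScalarTower_OL O E (LE M E)
  haveI := isScalarTower_OL O E (LE (M * q) E)
  have hfg := u4_fin_gauss M E h4 hFG
  have hfin : FiniteDimensional (IntermediateField.adjoin E {u4E M E h4}) (LE M E) := hfg.1
  haveI := hfin
  have hcf := Fermat.Agent.S36.Haupt4.Fibre.chartFacts_u4 M E h4 h2 hFG π hπ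
  have hwu := hwu_u4 M q E (O := O) h2 hq hodd hqM h4
  haveI : Fact q.Prime := ⟨hq⟩
  haveI : CharP (IsLocalRing.ResidueField O) q :=
    Fermat.Agent.S36.DerUnram.charP_residue π hπ q ⟨e, hqe⟩
  have hT : Transcendental E (u4E M E h4) := transcendental_u4E M E h4
  haveI := Fermat.Agent.S36.Haupt4.LevelQ.finiteDimensional_alpha_u4E M q E h4
  intro hprimej y hy hI hZ hu0 hu16
  haveI := hy
  haveI hyp : y.IsPrime := hy.isPrime
  -- the Eisenstein data
  have hDint := Fermat.Agent.S44.L.EisChart.isIntegral_eisE M q hq E (O := O) hqM π hπ hσfrac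
    hprimej
  have hD'int := Fermat.Agent.S44.L.EisChart.isIntegral_wHom_eisE M q hq E (O := O) hqM π hπ
    hσfrac hprimej
  have hDD : (Fermat.Agent.S44.L.EisChart.eisE M q hq E) * wHom M q E hq hqM (Fermat.Agent.S44.L.EisChart.eisE M q hq E) = ((q : ℕ) : LE (M * q) E) ^ 12 :=
    (mul_comm _ _).trans (Fermat.Agent.S44.L.EisChart.wHom_eisE_mul M q hq E hqM)
  have hDV : sigmaHom (M * q) E (Fermat.Agent.S44.L.EisChart.eisE M q hq E) ∈ GaussDVR.V O E :=
    Fermat.Agent.S44.L.EisChart.sigma_eisE_mem_V M q hq E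
  have hDred : GaussDVR.red O E ⟨sigmaHom (M * q) E (Fermat.Agent.S44.L.EisChart.eisE M q hq E), hDV⟩ =
      Fermat.Agent.S44.L.EisFormal.deltaL (IsLocalRing.ResidueField O) *
        (Fermat.Agent.S44.L.EisFormal.deltaL (IsLocalRing.ResidueField O) ^ q)⁻¹ :=
    Fermat.Agent.S44.L.EisChart.red_eisE M q hq E _ rfl hDV
  have hne0 : Fermat.Agent.S44.L.EisFormal.deltaL (IsLocalRing.ResidueField O) *
      (Fermat.Agent.S44.L.EisFormal.deltaL (IsLocalRing.ResidueField O) ^ q)⁻¹ ≠ 0 :=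
    mul_ne_zero Fermat.Agent.S44.L.EisFormal.deltaL_ne_zero
      (inv_ne_zero (pow_ne_zero q Fermat.Agent.S44.L.EisFormal.deltaL_ne_zero))
  have hDne : GaussDVR.red O E ⟨sigmaHom (M * q) E (Fermat.Agent.S44.L.EisChart.eisE M q hq E), hDV⟩ ≠ 0 :=
    fun h => hne0 (hDred.symm.trans h)
  have hv := Fermat.Agent.S44.L.EisLoc.exists_mul_of_u4_rel (alphaHom M q E)
    (alphaHom_algebraMap M q E) (u4E M E h4) y (Fermat.Agent.S30.E2Deg.jE M E)
    (Fermat.Agent.S36.Haupt4.jE_mul_u4E M E h4 (Fermat.Agent.S30.E2Deg.jE M E)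
      (Fermat.Agent.S30.E2Deg.coe_jE M E)) hu0 hu16
  have key := Fermat.Agent.S44.L.EisLoc.eis_smooth_inf_of_unram π hπ (alphaHom M q E)
    (alphaHom_algebraMap M q E) (sigmaHom (M * q) E) (sigmaHom_algebraMap (M * q) E) hσfrac
    (u4E M E h4) (u4 O) (hσu_u4 M q E h4) (wHom M q E hq hqM) (wHom_algebraMap M q E hq hqM) q
    (sigmaHom_wHom_alpha M q E hq hqM) (wHom_wHom M q E hq hqM) hcf.prime_zero (hcop_u4 q)
    hord_u4 hq.two_le (hfrob_u4 q hq) hwu (hrank_u4 M q E hq hqM h4) e he hqe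
    hcf.normal_zero hcf.regAt_zero y hI hZ
    (alphaHom M q E (Fermat.Agent.S30.E2Deg.jE M E)) (Fermat.Agent.S44.L.EisChart.eisE M q hq E) (wHom M q E hq hqM (Fermat.Agent.S44.L.EisChart.eisE M q hq E)) 12 hv hDint hD'int hDD hDV hDne
  obtain ⟨c, d, hc, hd, hcd⟩ := key
  exact ⟨c, d, hc, hd, (congrArg (· * _) hDred.symm).trans hcd⟩

end Generic

/-! ### The arithmetic instance `O = OE A K` -/

section Arithmetic

variable (A : ValuationSubring Qb) (M q : ℕ) [NeZero M] [NeZero q]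

/-- **The Eisenstein function at a crossing point of the `u₄` chart over `OE A K`.** -/
theorem eis_crossing_u4_OE (hq : q.Prime) (hodd : q ≠ 2) (hqM : ¬ q ∣ M) (h4 : 4 ∣ M)
    (hA : A.LiesOverPrime q) (K : IntermediateField ℚ Qb) [FiniteDimensional ℚ K]
    [IsDiscreteValuationRing (OE A K)] (z : Qb) (hz : IsPrimitiveRoot z M) (hzK : z ∈ K)
    (h2 : IsUnit (2 : OE A K)) (π : OE A K) (hπ : Irreducible π)
    (e : OE A K) (he : IsUnit e) (hqe : ((q : ℕ) : OE A K) = π * e) :
    letI := algebraOL (OE A K) K (LE M K)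
    letI := algebraOL (OE A K) K (LE (M * q) K)
    haveI := isScalarTower_OL (OE A K) K (LE M K)
    haveI := isScalarTower_OL (OE A K) K (LE (M * q) K)
    Prime (piC (Fermat.Agent.S30.E2Deg.jE M K) π) →
    ∀ y : Ideal (Chart (OE A K) (alphaHom M q K (u4E M K h4))), y.IsMaximal →
      RingHom.ker (redInf π hπ (alphaHom M q K) (sigmaHom (M * q) K)
        (sigmaHom_algebraMap (M * q) K) (sigmaHom_mem_fracField (M * q) K A) (u4E M K h4) (u4 (OE A K))
        (hσu_u4 M q K h4)) ≤ y →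
      RingHom.ker (redZero π hπ (alphaHom M q K) (sigmaHom (M * q) K)
        (sigmaHom_algebraMap (M * q) K) (sigmaHom_mem_fracField (M * q) K A) (u4E M K h4) (u4 (OE A K))
        (hσu_u4 M q K h4) (wHom M q K hq hqM) (wHom_algebraMap M q K hq hqM) q
        (sigmaHom_wHom_alpha M q K hq hqM)) ≤ y →
      ∃ c d : Chart (OE A K) (alphaHom M q K (u4E M K h4)), c ∉ y ∧ d ∉ y ∧
        Fermat.Agent.S44.L.EisFormal.deltaL (IsLocalRing.ResidueField (OE A K)) *
          (Fermat.Agent.S44.L.EisFormal.deltaL (IsLocalRing.ResidueField (OE A K)) ^ q)⁻¹ *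
          redInf π hπ (alphaHom M q K) (sigmaHom (M * q) K)
        (sigmaHom_algebraMap (M * q) K) (sigmaHom_mem_fracField (M * q) K A) (u4E M K h4) (u4 (OE A K))
        (hσu_u4 M q K h4) d =
        redInf π hπ (alphaHom M q K) (sigmaHom (M * q) K)
        (sigmaHom_algebraMap (M * q) K) (sigmaHom_mem_fracField (M * q) K A) (u4E M K h4) (u4 (OE A K))
        (hσu_u4 M q K h4) c *
          redInf π hπ (alphaHom M q K) (sigmaHom (M * q) K)
        (sigmaHom_algebraMap (M * q) K) (sigmaHom_mem_fracField (M * q) K A) (u4E M K h4) (u4 (OE A K))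
        (hσu_u4 M q K h4)
          ((incl (alphaHom M q K) (alphaHom_algebraMap M q K) (u4E M K h4)
          (polyChart (u4E M K h4) X)) -
          (Fermat.Agent.S34.Modular.ChartZero.wChart (alphaHom M q K) (u4E M K h4)
          (wHom M q K hq hqM) (wHom_algebraMap M q K hq hqM) (wHom_wHom M q K hq hqM)
          (hwu_u4 M q K h2 hq hodd hqM h4)
          (incl (alphaHom M q K) (alphaHom_algebraMap M q K) (u4E M K h4)
          (polyChart (u4E M K h4) X))) ^ q) ^ 12 := by
  haveI : Fact q.Prime := ⟨hq⟩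
  exact eis_crossing_u4 (O := OE A K) M q K hq hodd hqM h4 h2
    (Fermat.Agent.S36.Haupt4.Fibre.finGaussC_OE A M hqM hA K z hz hzK) π hπ e he hqe
    (sigmaHom_mem_fracField (M * q) K A)

/-- **The Eisenstein function at a point of the `u₄` chart over `OE A K` on the `∞`-component
only**, off the cusps. -/
theorem eis_smooth_inf_u4_OE (hq : q.Prime) (hodd : q ≠ 2) (hqM : ¬ q ∣ M) (h4 : 4 ∣ M)
    (hA : A.LiesOverPrime q) (K : IntermediateField ℚ Qb) [FiniteDimensional ℚ K]
    [IsDiscreteValuationRing (OE A K)] (z : Qb) (hz : IsPrimitiveRoot z M) (hzK : z ∈ K)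
    (h2 : IsUnit (2 : OE A K)) (π : OE A K) (hπ : Irreducible π)
    (e : OE A K) (he : IsUnit e) (hqe : ((q : ℕ) : OE A K) = π * e) :
    letI := algebraOL (OE A K) K (LE M K)
    letI := algebraOL (OE A K) K (LE (M * q) K)
    haveI := isScalarTower_OL (OE A K) K (LE M K)
    haveI := isScalarTower_OL (OE A K) K (LE (M * q) K)
    Prime (piC (Fermat.Agent.S30.E2Deg.jE M K) π) →
    ∀ y : Ideal (Chart (OE A K) (alphaHom M q K (u4E M K h4))), y.IsMaximal →
      RingHom.ker (redInf π hπ (alphaHom M q K) (sigmaHom (M * q) K)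
        (sigmaHom_algebraMap (M * q) K) (sigmaHom_mem_fracField (M * q) K A) (u4E M K h4) (u4 (OE A K))
        (hσu_u4 M q K h4)) ≤ y →
      ¬ RingHom.ker (redZero π hπ (alphaHom M q K) (sigmaHom (M * q) K)
        (sigmaHom_algebraMap (M * q) K) (sigmaHom_mem_fracField (M * q) K A) (u4E M K h4) (u4 (OE A K))
        (hσu_u4 M q K h4) (wHom M q K hq hqM) (wHom_algebraMap M q K hq hqM) q
        (sigmaHom_wHom_alpha M q K hq hqM)) ≤ y →
      (incl (alphaHom M q K) (alphaHom_algebraMap M q K) (u4E M K h4)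
          (polyChart (u4E M K h4) X)) ∉ y →
      (incl (alphaHom M q K) (alphaHom_algebraMap M q K) (u4E M K h4)
          (polyChart (u4E M K h4) X)) + 16 ∉ y →
      ∃ c d : Chart (OE A K) (alphaHom M q K (u4E M K h4)), c ∉ y ∧ d ∉ y ∧
        Fermat.Agent.S44.L.EisFormal.deltaL (IsLocalRing.ResidueField (OE A K)) *
          (Fermat.Agent.S44.L.EisFormal.deltaL (IsLocalRing.ResidueField (OE A K)) ^ q)⁻¹ *
          redInf π hπ (alphaHom M q K) (sigmaHom (M * q) K)
        (sigmaHom_algebraMap (M * q) K) (sigmaHom_mem_fracField (M * q) K A) (u4E M K h4) (u4 (OE A K))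
        (hσu_u4 M q K h4) d =
        redInf π hπ (alphaHom M q K) (sigmaHom (M * q) K)
        (sigmaHom_algebraMap (M * q) K) (sigmaHom_mem_fracField (M * q) K A) (u4E M K h4) (u4 (OE A K))
        (hσu_u4 M q K h4) c := by
  haveI : Fact q.Prime := ⟨hq⟩
  exact eis_smooth_inf_u4 (O := OE A K) M q K hq hodd hqM h4 h2
    (Fermat.Agent.S36.Haupt4.Fibre.finGaussC_OE A M hqM hA K z hz hzK) π hπ e he hqe
    (sigmaHom_mem_fracField (M * q) K A)

end Arithmetic

end Fermat.Agent.S44.L.EisNodeInst
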