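import Mathlib
import Fermat.Agent.S44.L.CentreChart
import Fermat.Agent.S44.L.Slope.Loc

/-!
# PROGRAM MR (S44), strand L, row ALT.9: the last link "chart reduction ⟶ `Loc.UnitAt`"

`S44/L/EisLoc` (with `S44/L/EisChart`) gives the Eisenstein function at a closed point `y` of a
chart `C = Chart O (α u')` of level `M p` as a relation between series over the residue field
`κ_O` of `O = OE A K`:

  `D̄ * redInf d = redInf c * redInf t ^ n`,  `c, d ∉ y`

(`D̄ = Δ̄ (Δ̄^p)⁻¹` the Gauss reduction of `D`, `t` the local equation of the other component,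
`n = 12` at a crossing point; no `t` at a smooth point).  The slope chain (`Slope.Loc`,
`Alt/Bricks.NodeForms`) consumes the same relation in the reduced function field
`redField M A ⊆ κ_A((q))`, for the chart `r = CentreChart.rInf : C → redField M A`, in the form
`Loc.UnitAt r y D̄ (r t ^ (12 : ℤ) * h ^ q)` resp. `Loc.UnitAt r y D̄ (h ^ q)`.  This file is the
passage (`kmap : κ_O((q)) → κ_A((q))`), for ANY coordinate `u'` (binder block of
`CentreChart.rInf`; `rInf4` and `rInf4Inf` are instances by `exact`):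

* `kmap_eisBar` : `kmap (Δ̄ (Δ̄^p)⁻¹) = Δ̄ (Δ̄^p)⁻¹`.
* `rInf_mul_eq_of_red` (`_unit`) : `D_r * redInf d = redInf c * redInf t ^ n` over `κ_O` gives
  `D̄ * r d = r c * r t ^ n` in `redField M A`, for `D̄ : redField M A` with `D̄ = kmap D_r`.
* `unitAt_rInf_of_red`, `unitAt_rInf_of_red_twelve`, `unitAt_rInf_of_red_unit` : the same as
  `Loc.UnitAt r y D̄ (r t ^ n * 1 ^ q)`, `Loc.UnitAt r y D̄ (r t ^ (12 : ℤ) * 1 ^ q)`,
  `Loc.UnitAt r y D̄ (1 ^ q)`.
* `eis_unitAt_node`, `eis_unitAt_smooth` : the two clauses for `D̄ = Δ̄ (Δ̄^p)⁻¹` (the `D̄` of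
  `Slope.Loc.SlopeLocStatement`).
-/

set_option autoImplicit false
set_option linter.unusedSectionVars false
set_option linter.unusedVariables false
set_option linter.style.haveILetI false
set_option synthInstance.maxHeartbeats 400000
set_option maxHeartbeats 1000000

open ModularCurve Polynomial

noncomputable section

namespace Fermat.Agent.S44.L.EisUnitAt

open Fermat.Agent.S18.K1Defs Fermat.Agent.S18.K1Main Fermat.Agent.S18.K1Top
open Fermat.Agent.S18.Wiring Fermat.Agent.S30
open Fermat.Agent.S34 Fermat.Agent.S34.TwoPrimesRank Fermat.Agent.S34.HauptU.Plug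
open Fermat.Agent.S34.TwoPrimesGauss
open Fermat.Agent.S44.Contract Fermat.Agent.S44.L.RedTransfer Fermat.Agent.S44.L.CentreChart

local notation "Qb" => AlgebraicClosure ℚ

/-! ### Generic lemmas (kept out of the `E`-level terms: no `rw` on chart expressions) -/

section Generic

/-- Transfer of `x' * a' = b' * c' ^ n` along a ring homomorphism into a field, read in a
subfield containing the four images. -/
theorem subfield_mul_eq_of_map {R F : Type*} [CommRing R] [Field F] (S : Subfield F)
    (φ : R →+* F) {x a b c : S} {x' a' b' c' : R} {n : ℕ}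
    (hx : (x : F) = φ x') (ha : (a : F) = φ a') (hb : (b : F) = φ b') (hc : (c : F) = φ c')
    (h : x' * a' = b' * c' ^ n) : x * a = b * c ^ n := by
  have h2 : φ x' * φ a' = φ b' * φ c' ^ n := by rw [← map_mul, h, map_mul, map_pow]
  apply Subtype.ext
  show (x : F) * (a : F) = (b : F) * (c : F) ^ n
  rw [hx, ha, hb, hc]
  exact h2

/-- Transfer of `x' * a' = b'` along a ring homomorphism into a field, read in a subfield. -/
theorem subfield_mul_eq_of_map_unit {R F : Type*} [CommRing R] [Field F] (S : Subfield F)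
    (φ : R →+* F) {x a b : S} {x' a' b' : R}
    (hx : (x : F) = φ x') (ha : (a : F) = φ a') (hb : (b : F) = φ b')
    (h : x' * a' = b') : x * a = b := by
  have h2 : φ x' * φ a' = φ b' := by rw [← map_mul, h]
  apply Subtype.ext
  show (x : F) * (a : F) = (b : F)
  rw [hx, ha, hb]
  exact h2

variable {k C : Type*} [Field k] [CommRing C] (r : C →+* k) (y : Ideal C)

/-- `f * r d = r c * r t ^ n` with `c, d ∉ y` is `f = unit_y * r t ^ n * 1 ^ q`. -/
theorem unitAt_of_mul_eq {f : k} {c d t : C} (hc : c ∉ y) (hd : d ∉ y) (n q : ℕ)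
    (h : f * r d = r c * r t ^ n) :
    Fermat.Agent.S44.L.Slope.Loc.UnitAt r y f (r t ^ n * (1 : k) ^ q) :=
  ⟨c, d, hc, hd, by rw [one_pow, mul_one]; exact h⟩

/-- `f * r d = r c * r t ^ 12` with `c, d ∉ y` is `f = unit_y * r t ^ (12 : ℤ) * 1 ^ q`. -/
theorem unitAt_of_mul_eq_twelve {f : k} {c d t : C} (hc : c ∉ y) (hd : d ∉ y) (q : ℕ)
    (h : f * r d = r c * r t ^ 12) :
    Fermat.Agent.S44.L.Slope.Loc.UnitAt r y f (r t ^ (12 : ℤ) * (1 : k) ^ q) :=
  ⟨c, d, hc, hd, by rw [one_pow, mul_one, zpow_ofNat]; exact h⟩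

/-- `f * r d = r c` with `c, d ∉ y` is `f = unit_y * 1 ^ q`. -/
theorem unitAt_of_mul_eq_unit {f : k} {c d : C} (hc : c ∉ y) (hd : d ∉ y) (q : ℕ)
    (h : f * r d = r c) :
    Fermat.Agent.S44.L.Slope.Loc.UnitAt r y f ((1 : k) ^ q) :=
  ⟨c, d, hc, hd, by rw [one_pow, mul_one]; exact h⟩

end Generic

/-- `kmap` of the reduced Eisenstein function `Δ̄ (Δ̄^p)⁻¹` over `κ_O` is the same series over
`κ_A` (the shape of `D̄` in `Slope.Loc.SlopeLocStatement`). -/
theorem kmap_eisBar (A : ValuationSubring Qb) (K : IntermediateField ℚ Qb) (p : ℕ) :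
    kmap A K (Fermat.Agent.S44.L.EisFormal.deltaL (IsLocalRing.ResidueField (OE A K)) *
        (Fermat.Agent.S44.L.EisFormal.deltaL (IsLocalRing.ResidueField (OE A K)) ^ p)⁻¹) =
      Fermat.Agent.S44.L.EisFormal.deltaL (IsLocalRing.ResidueField A) *
        (Fermat.Agent.S44.L.EisFormal.deltaL (IsLocalRing.ResidueField A) ^ p)⁻¹ := by
  have h : kmap A K (Fermat.Agent.S44.L.EisFormal.deltaL (IsLocalRing.ResidueField (OE A K))) =
      Fermat.Agent.S44.L.EisFormal.deltaL (IsLocalRing.ResidueField A) :=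
    Fermat.Agent.S44.L.EisFormal.coeffMap_deltaL (resMap A K)
  rw [map_mul, map_inv₀, map_pow, h]

variable (M p : ℕ) [NeZero M] [NeZero p] (A : ValuationSubring Qb)
  (K : IntermediateField ℚ Qb) [IsDiscreteValuationRing (OE A K)]
  [Fact p.Prime] (hA : A.LiesOverPrime p) (hred : HRed M p A K)
  (π : OE A K) (hπ : Irreducible π) (u' : LE M K) (U : LaurentSeries (OE A K))
  (hσu : sigmaHom (M * p) K (alphaHom M p K u') = GaussDVR.iota (OE A K) K U)

/-- **Transfer of a relation from `κ_O((q))` to the reduced function field.**  If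
`D_r * redInf d = redInf c * redInf t ^ n` over `κ_O` and `D̄ : redField M A` is `kmap D_r`, then
`D̄ * r d = r c * r t ^ n` for `r = CentreChart.rInf`. -/
theorem rInf_mul_eq_of_red :
    letI := algebraOL (OE A K) K (LE (M * p) K)
    haveI := isScalarTower_OL (OE A K) K (LE (M * p) K)
    ∀ (Db : redField M A) (Dr : LaurentSeries (IsLocalRing.ResidueField (OE A K)))
      (hDb : (Db : LaurentSeries (IsLocalRing.ResidueField A)) = kmap A K Dr)
      (c d t : Chart (OE A K) (alphaHom M p K u')) (n : ℕ)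
      (h : Dr * redInf π hπ (alphaHom M p K) (sigmaHom (M * p) K)
          (sigmaHom_algebraMap (M * p) K) (sigmaHom_mem_fracField (M * p) K A) u' U hσu d =
        redInf π hπ (alphaHom M p K) (sigmaHom (M * p) K)
          (sigmaHom_algebraMap (M * p) K) (sigmaHom_mem_fracField (M * p) K A) u' U hσu c *
        redInf π hπ (alphaHom M p K) (sigmaHom (M * p) K)
          (sigmaHom_algebraMap (M * p) K) (sigmaHom_mem_fracField (M * p) K A) u' U hσu t ^ n),
      Db * rInf M p A K hA hred π hπ u' U hσu d =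
        rInf M p A K hA hred π hπ u' U hσu c * rInf M p A K hA hred π hπ u' U hσu t ^ n := by
  letI := algebraOL (OE A K) K (LE (M * p) K)
  haveI := isScalarTower_OL (OE A K) K (LE (M * p) K)
  intro Db Dr hDb c d t n h
  exact subfield_mul_eq_of_map (redField M A) (kmap A K) hDb
    (coe_rInf M p A K hA hred π hπ u' U hσu d) (coe_rInf M p A K hA hred π hπ u' U hσu c)
    (coe_rInf M p A K hA hred π hπ u' U hσu t) h

/-- The same without the factor `t ^ n`. -/
theorem rInf_mul_eq_of_red_unit :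
    letI := algebraOL (OE A K) K (LE (M * p) K)
    haveI := isScalarTower_OL (OE A K) K (LE (M * p) K)
    ∀ (Db : redField M A) (Dr : LaurentSeries (IsLocalRing.ResidueField (OE A K)))
      (hDb : (Db : LaurentSeries (IsLocalRing.ResidueField A)) = kmap A K Dr)
      (c d : Chart (OE A K) (alphaHom M p K u'))
      (h : Dr * redInf π hπ (alphaHom M p K) (sigmaHom (M * p) K)
          (sigmaHom_algebraMap (M * p) K) (sigmaHom_mem_fracField (M * p) K A) u' U hσu d =
        redInf π hπ (alphaHom M p K) (sigmaHom (M * p) K)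
          (sigmaHom_algebraMap (M * p) K) (sigmaHom_mem_fracField (M * p) K A) u' U hσu c),
      Db * rInf M p A K hA hred π hπ u' U hσu d = rInf M p A K hA hred π hπ u' U hσu c := by
  letI := algebraOL (OE A K) K (LE (M * p) K)
  haveI := isScalarTower_OL (OE A K) K (LE (M * p) K)
  intro Db Dr hDb c d h
  exact subfield_mul_eq_of_map_unit (redField M A) (kmap A K) hDb
    (coe_rInf M p A K hA hred π hπ u' U hσu d) (coe_rInf M p A K hA hred π hπ u' U hσu c) h

/-- The same in the form `Loc.UnitAt`: `D̄ = unit_y * r t ^ n * h ^ q` with `h = 1`. -/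
theorem unitAt_rInf_of_red :
    letI := algebraOL (OE A K) K (LE (M * p) K)
    haveI := isScalarTower_OL (OE A K) K (LE (M * p) K)
    ∀ (y : Ideal (Chart (OE A K) (alphaHom M p K u')))
      (Db : redField M A) (Dr : LaurentSeries (IsLocalRing.ResidueField (OE A K)))
      (hDb : (Db : LaurentSeries (IsLocalRing.ResidueField A)) = kmap A K Dr)
      (t : Chart (OE A K) (alphaHom M p K u')) (n : ℕ)
      (h : ∃ c d : Chart (OE A K) (alphaHom M p K u'), c ∉ y ∧ d ∉ y ∧
        Dr * redInf π hπ (alphaHom M p K) (sigmaHom (M * p) K)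
          (sigmaHom_algebraMap (M * p) K) (sigmaHom_mem_fracField (M * p) K A) u' U hσu d =
        redInf π hπ (alphaHom M p K) (sigmaHom (M * p) K)
          (sigmaHom_algebraMap (M * p) K) (sigmaHom_mem_fracField (M * p) K A) u' U hσu c *
        redInf π hπ (alphaHom M p K) (sigmaHom (M * p) K)
          (sigmaHom_algebraMap (M * p) K) (sigmaHom_mem_fracField (M * p) K A) u' U hσu t ^ n)
      (q : ℕ),
      Fermat.Agent.S44.L.Slope.Loc.UnitAt (rInf M p A K hA hred π hπ u' U hσu) y Db
        (rInf M p A K hA hred π hπ u' U hσu t ^ n * (1 : redField M A) ^ q) := by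
  letI := algebraOL (OE A K) K (LE (M * p) K)
  haveI := isScalarTower_OL (OE A K) K (LE (M * p) K)
  intro y Db Dr hDb t n h q
  obtain ⟨c, d, hc, hd, h⟩ := h
  exact unitAt_of_mul_eq (rInf M p A K hA hred π hπ u' U hσu) y hc hd n q
    (rInf_mul_eq_of_red M p A K hA hred π hπ u' U hσu Db Dr hDb c d t n h)

/-- **The crossing form** (`n = 12`, the exponent a `ℤ`-literal as in `Alt/Bricks.NodeForms`):
`D̄ = unit_y * (r t) ^ (12 : ℤ) * h ^ q` with `h = 1`. -/
theorem unitAt_rInf_of_red_twelve :
    letI := algebraOL (OE A K) K (LE (M * p) K)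
    haveI := isScalarTower_OL (OE A K) K (LE (M * p) K)
    ∀ (y : Ideal (Chart (OE A K) (alphaHom M p K u')))
      (Db : redField M A) (Dr : LaurentSeries (IsLocalRing.ResidueField (OE A K)))
      (hDb : (Db : LaurentSeries (IsLocalRing.ResidueField A)) = kmap A K Dr)
      (t : Chart (OE A K) (alphaHom M p K u'))
      (h : ∃ c d : Chart (OE A K) (alphaHom M p K u'), c ∉ y ∧ d ∉ y ∧
        Dr * redInf π hπ (alphaHom M p K) (sigmaHom (M * p) K)
          (sigmaHom_algebraMap (M * p) K) (sigmaHom_mem_fracField (M * p) K A) u' U hσu d =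
        redInf π hπ (alphaHom M p K) (sigmaHom (M * p) K)
          (sigmaHom_algebraMap (M * p) K) (sigmaHom_mem_fracField (M * p) K A) u' U hσu c *
        redInf π hπ (alphaHom M p K) (sigmaHom (M * p) K)
          (sigmaHom_algebraMap (M * p) K) (sigmaHom_mem_fracField (M * p) K A) u' U hσu t ^ 12)
      (q : ℕ),
      Fermat.Agent.S44.L.Slope.Loc.UnitAt (rInf M p A K hA hred π hπ u' U hσu) y Db
        (rInf M p A K hA hred π hπ u' U hσu t ^ (12 : ℤ) * (1 : redField M A) ^ q) := by
  letI := algebraOL (OE A K) K (LE (M * p) K)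
  haveI := isScalarTower_OL (OE A K) K (LE (M * p) K)
  intro y Db Dr hDb t h q
  obtain ⟨c, d, hc, hd, h⟩ := h
  exact unitAt_of_mul_eq_twelve (rInf M p A K hA hred π hπ u' U hσu) y hc hd q
    (rInf_mul_eq_of_red M p A K hA hred π hπ u' U hσu Db Dr hDb c d t 12 h)

/-- **The smooth form**: `D̄ = unit_y * h ^ q` with `h = 1`. -/
theorem unitAt_rInf_of_red_unit :
    letI := algebraOL (OE A K) K (LE (M * p) K)
    haveI := isScalarTower_OL (OE A K) K (LE (M * p) K)
    ∀ (y : Ideal (Chart (OE A K) (alphaHom M p K u')))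
      (Db : redField M A) (Dr : LaurentSeries (IsLocalRing.ResidueField (OE A K)))
      (hDb : (Db : LaurentSeries (IsLocalRing.ResidueField A)) = kmap A K Dr)
      (h : ∃ c d : Chart (OE A K) (alphaHom M p K u'), c ∉ y ∧ d ∉ y ∧
        Dr * redInf π hπ (alphaHom M p K) (sigmaHom (M * p) K)
          (sigmaHom_algebraMap (M * p) K) (sigmaHom_mem_fracField (M * p) K A) u' U hσu d =
        redInf π hπ (alphaHom M p K) (sigmaHom (M * p) K)
          (sigmaHom_algebraMap (M * p) K) (sigmaHom_mem_fracField (M * p) K A) u' U hσu c)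
      (q : ℕ),
      Fermat.Agent.S44.L.Slope.Loc.UnitAt (rInf M p A K hA hred π hπ u' U hσu) y Db
        ((1 : redField M A) ^ q) := by
  letI := algebraOL (OE A K) K (LE (M * p) K)
  haveI := isScalarTower_OL (OE A K) K (LE (M * p) K)
  intro y Db Dr hDb h q
  obtain ⟨c, d, hc, hd, h⟩ := h
  exact unitAt_of_mul_eq_unit (rInf M p A K hA hred π hπ u' U hσu) y hc hd q
    (rInf_mul_eq_of_red_unit M p A K hA hred π hπ u' U hσu Db Dr hDb c d h)

/-- **EIS at a crossing point**: for `D̄ = Δ̄ (Δ̄^p)⁻¹` (the `D̄` of `Slope.Loc`), the relation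
`Δ̄ (Δ̄^p)⁻¹ * redInf d = redInf c * redInf t ^ 12` over `κ_O` (`c, d ∉ y`; the exit of
`EisLoc.eis_crossing_of_unram_pole` at `D = EisChart.eisE`, rewritten by `EisChart.red_eisE`)
gives the NODE clause of `Alt/Bricks.NodeForms` for `D̄`, with `τ = r t`, `h' = 1`. -/
theorem eis_unitAt_node :
    letI := algebraOL (OE A K) K (LE (M * p) K)
    haveI := isScalarTower_OL (OE A K) K (LE (M * p) K)
    ∀ (y : Ideal (Chart (OE A K) (alphaHom M p K u'))) (Db : redField M A)
      (hDb : (Db : LaurentSeries (IsLocalRing.ResidueField A)) =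
        Fermat.Agent.S44.L.EisFormal.deltaL (IsLocalRing.ResidueField A) *
          (Fermat.Agent.S44.L.EisFormal.deltaL (IsLocalRing.ResidueField A) ^ p)⁻¹)
      (t : Chart (OE A K) (alphaHom M p K u'))
      (h : ∃ c d : Chart (OE A K) (alphaHom M p K u'), c ∉ y ∧ d ∉ y ∧
        Fermat.Agent.S44.L.EisFormal.deltaL (IsLocalRing.ResidueField (OE A K)) *
            (Fermat.Agent.S44.L.EisFormal.deltaL (IsLocalRing.ResidueField (OE A K)) ^ p)⁻¹ *
          redInf π hπ (alphaHom M p K) (sigmaHom (M * p) K)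
            (sigmaHom_algebraMap (M * p) K) (sigmaHom_mem_fracField (M * p) K A) u' U hσu d =
        redInf π hπ (alphaHom M p K) (sigmaHom (M * p) K)
          (sigmaHom_algebraMap (M * p) K) (sigmaHom_mem_fracField (M * p) K A) u' U hσu c *
        redInf π hπ (alphaHom M p K) (sigmaHom (M * p) K)
          (sigmaHom_algebraMap (M * p) K) (sigmaHom_mem_fracField (M * p) K A) u' U hσu t ^ 12)
      (q : ℕ),
      Fermat.Agent.S44.L.Slope.Loc.UnitAt (rInf M p A K hA hred π hπ u' U hσu) y Db
        (rInf M p A K hA hred π hπ u' U hσu t ^ (12 : ℤ) * (1 : redField M A) ^ q) := by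
  letI := algebraOL (OE A K) K (LE (M * p) K)
  haveI := isScalarTower_OL (OE A K) K (LE (M * p) K)
  intro y Db hDb t h q
  exact unitAt_rInf_of_red_twelve M p A K hA hred π hπ u' U hσu y Db _
    (hDb.trans (kmap_eisBar A K p).symm) t h q

/-- **EIS at a smooth point**: the relation `Δ̄ (Δ̄^p)⁻¹ * redInf d = redInf c` over `κ_O`
(`c, d ∉ y`; the exit of `EisLoc.eis_smooth_inf_of_unram` at `D = EisChart.eisE`) gives the
SMOOTH clause of `Alt/Bricks.NodeForms` for `D̄`, with `h' = 1`. -/
theorem eis_unitAt_smooth :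
    letI := algebraOL (OE A K) K (LE (M * p) K)
    haveI := isScalarTower_OL (OE A K) K (LE (M * p) K)
    ∀ (y : Ideal (Chart (OE A K) (alphaHom M p K u'))) (Db : redField M A)
      (hDb : (Db : LaurentSeries (IsLocalRing.ResidueField A)) =
        Fermat.Agent.S44.L.EisFormal.deltaL (IsLocalRing.ResidueField A) *
          (Fermat.Agent.S44.L.EisFormal.deltaL (IsLocalRing.ResidueField A) ^ p)⁻¹)
      (h : ∃ c d : Chart (OE A K) (alphaHom M p K u'), c ∉ y ∧ d ∉ y ∧
        Fermat.Agent.S44.L.EisFormal.deltaL (IsLocalRing.ResidueField (OE A K)) *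
            (Fermat.Agent.S44.L.EisFormal.deltaL (IsLocalRing.ResidueField (OE A K)) ^ p)⁻¹ *
          redInf π hπ (alphaHom M p K) (sigmaHom (M * p) K)
            (sigmaHom_algebraMap (M * p) K) (sigmaHom_mem_fracField (M * p) K A) u' U hσu d =
        redInf π hπ (alphaHom M p K) (sigmaHom (M * p) K)
          (sigmaHom_algebraMap (M * p) K) (sigmaHom_mem_fracField (M * p) K A) u' U hσu c)
      (q : ℕ),
      Fermat.Agent.S44.L.Slope.Loc.UnitAt (rInf M p A K hA hred π hπ u' U hσu) y Db
        ((1 : redField M A) ^ q) := by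
  letI := algebraOL (OE A K) K (LE (M * p) K)
  haveI := isScalarTower_OL (OE A K) K (LE (M * p) K)
  intro y Db hDb h q
  exact unitAt_rInf_of_red_unit M p A K hA hred π hπ u' U hσu y Db _
    (hDb.trans (kmap_eisBar A K p).symm) h q

end Fermat.Agent.S44.L.EisUnitAt
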