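import Mathlib
import Fermat.Agent.S44.L.EisUnitAt
import Fermat.Agent.S44.L.EisNodeInst
import Fermat.Agent.S44.L.CentreChartU4
import Fermat.Agent.S44.L.CentreU4
import Fermat.Agent.S34.HauptU.LevelMAux
import Fermat.Agent.S30.E2.JInputsAll

/-!
# PROGRAM MR (S44), strand L, row FE.3: the `D̄`-forms at the closed points of the `u₄` chart

The Eisenstein function `D̄ = Δ̄ (Δ̄^p)⁻¹` of `Slope.Loc` / `Alt/Rho` at the closed points of the
`∞`-component of the chart `C = Chart (OE A K) (α u₄)` of level `M p` (`4 ∣ M`, `p > 3`,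
`p ∤ M`), for the reduction map `r = CentreChartU4.rInf4 : C → redField M A`, in the vocabulary
`Loc.UnitAt` of the slope chain:

* at a point of the `∞`-component only, off the cusps: `D̄ = unit_y` (`Loc.UnitAt r y D̄ (1 ^ p)`);
* at a crossing point: `D̄ = unit_y · (r t₂) ^ 12` (`Loc.UnitAt r y D̄ (r t₂ ^ (12 : ℤ) * 1 ^ p)`),
  `t₂ = U - V ^ p` the local equation of the `0`-component (the `t₂` of `NodeC1Inst.node_u4_OE`).

It is `EisNodeInst.eis_smooth_inf_u4_OE` / `eis_crossing_u4_OE` (relations over `κ_O`) pushed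
through `EisUnitAt.eis_unitAt_smooth` / `eis_unitAt_node`; the "off the cusps" inputs come from the
markers `(∀ c, r c = ū → c ∉ y)`, `(∀ c, r c = ū + 16 → c ∉ y)` of `Alt/Bricks.NodeForms`, and the
level-`M` fact `Prime (piC (jE M K) π)` on the `j`-chart is `LevelMAux.chartFacts_jE` (this is the
only place where `3 < p` is used: `1728 ∈ Oˣ`).

* `prime_piC_jE` : `π` is prime in the `j`-chart of level `M` over `OE A K`, `K ∋ ζ_M`.
* `eis_dforms_u4_of_prime` : the two forms, with `Prime (piC (jE M K) π)` as a hypothesis.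
* `eis_dforms_u4` : the two forms (`3 < p`).
-/

set_option autoImplicit false
set_option linter.unusedSectionVars false
set_option linter.unusedVariables false
set_option linter.style.haveILetI false
set_option linter.style.longLine false
set_option synthInstance.maxHeartbeats 400000
set_option maxHeartbeats 1000000

open ModularCurve Polynomial IntermediateField

noncomputable section

namespace Fermat.Agent.S44.L.EisUnitAtU4

open Fermat.Agent.S30 Fermat.Agent.S34 Fermat.Agent.S34.TwoPrimesGauss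
open Fermat.Agent.S36.PrinAt Fermat.Agent.S30.Model
open Fermat.Agent.S18.K1Defs Fermat.Agent.S18.K1Main
open Fermat.Agent.S34.TwoPrimesRank Fermat.Agent.S34.HauptU.Plug
open Fermat.Agent.S34.HauptU.LevelMAux
open Fermat.Agent.S36.Haupt4 Fermat.Agent.S36.LevelQInstAlt
open Fermat.Agent.S44.Contract Fermat.Agent.S44.L.RedTransfer
open Fermat.Agent.S44.L.CentreChart Fermat.Agent.S44.L.CentreChartU4

local notation "Qb" => AlgebraicClosure ℚ

/-! ### Generic lemmas -/

/-- `r (c + 16) = u + 16` from `r c = u`. -/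
theorem map_add_sixteen {R S : Type*} [Ring R] [Ring S] (r : R →+* S) {c : R} {u : S}
    (h : r c = u) : r (c + 16) = u + 16 := by
  rw [map_add, h, map_ofNat]

/-- Equality in a subfield from the equality of the coercions to a common value. -/
theorem subfield_eq_of_coe {F : Type*} [Field F] (S : Subfield F) {a b : S} {x : F}
    (ha : (a : F) = x) (hb : (b : F) = x) : a = b :=
  Subtype.ext (ha.trans hb.symm)

variable (A : ValuationSubring Qb) (M q : ℕ) [NeZero M] [NeZero q]

/-! ### The level-`M` fact on the `j`-chart -/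

/-- **`π` is prime in the `j`-chart of level `M`** over `OE A K`, for every number field
`K ∋ ζ_M` with `OE A K` a discrete valuation ring, `A` over a prime `q > 3`, `q ∤ M`. -/
theorem prime_piC_jE (hq : q.Prime) (h3 : 3 < q) (hqM : ¬ q ∣ M)
    (hA : A.LiesOverPrime q) (K : IntermediateField ℚ Qb)
    [IsDiscreteValuationRing (OE A K)] (z : Qb) (hz : IsPrimitiveRoot z M) (hzK : z ∈ K)
    (π : OE A K) (hπ : Irreducible π) :
    letI := algebraOL (OE A K) K (LE M K)
    Prime (piC (Fermat.Agent.S30.E2Deg.jE M K) π) := by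
  letI := algebraOL (OE A K) K (LE M K)
  haveI := isScalarTower_OL (OE A K) K (LE M K)
  have hMq : Nat.Coprime M q :=
    Nat.coprime_comm.mp ((Nat.Prime.coprime_iff_not_dvd hq).mpr hqM)
  have h' : JInputs M (OE A K) K 0 :=
    Fermat.Agent.S30.E2.JInputsAll.jInputsC_OE M A K hA hMq hz hzK 0
  have hcf := chartFacts_jE M K h' (isUnit_1728_OE A K hq hA h3) π hπ
  exact hcf.prime_zero

/-! ### The two forms -/

/-- **The `D̄`-forms at the `u₄` chart**, with the level-`M` fact on the `j`-chart as a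
hypothesis. -/
theorem eis_dforms_u4_of_prime (hq : q.Prime) (hodd : q ≠ 2) (hqM : ¬ q ∣ M) (h4 : 4 ∣ M)
    (hA : A.LiesOverPrime q) (K : IntermediateField ℚ Qb) [FiniteDimensional ℚ K]
    [IsDiscreteValuationRing (OE A K)] (z : Qb) (hz : IsPrimitiveRoot z M) (hzK : z ∈ K)
    (h2 : IsUnit (2 : OE A K)) (π : OE A K) (hπ : Irreducible π)
    (e : OE A K) (he : IsUnit e) (hqe : ((q : ℕ) : OE A K) = π * e)
    [Fact q.Prime] (hred : HRed M q A K)
    (Db : redField M A)
    (hDb : (Db : LaurentSeries (IsLocalRing.ResidueField A)) =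
      Fermat.Agent.S44.L.EisFormal.deltaL (IsLocalRing.ResidueField A) *
        (Fermat.Agent.S44.L.EisFormal.deltaL (IsLocalRing.ResidueField A) ^ q)⁻¹) :
    letI := algebraOL (OE A K) K (LE M K)
    letI := algebraOL (OE A K) K (LE (M * q) K)
    haveI := isScalarTower_OL (OE A K) K (LE M K)
    haveI := isScalarTower_OL (OE A K) K (LE (M * q) K)
    Prime (piC (Fermat.Agent.S30.E2Deg.jE M K) π) →
    ∀ y : Ideal (Chart (OE A K) (alphaHom M q K (u4E M K h4))), y.IsMaximal →
      RingHom.ker (rInf4 M q A K hA hred π hπ h4) ≤ y →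
      (∀ c, rInf4 M q A K hA hred π hπ h4 c = Fermat.Agent.S44.L.CentreU4.ub M A h4 → c ∉ y) →
      (∀ c, rInf4 M q A K hA hred π hπ h4 c = Fermat.Agent.S44.L.CentreU4.ub M A h4 + 16 →
        c ∉ y) →
      (¬ RingHom.ker (redZero π hπ (alphaHom M q K) (sigmaHom (M * q) K)
          (sigmaHom_algebraMap (M * q) K) (sigmaHom_mem_fracField (M * q) K A) (u4E M K h4)
          (u4 (OE A K)) (hσu_u4 M q K h4) (wHom M q K hq hqM) (wHom_algebraMap M q K hq hqM) q
          (sigmaHom_wHom_alpha M q K hq hqM)) ≤ y →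
        Fermat.Agent.S44.L.Slope.Loc.UnitAt (rInf4 M q A K hA hred π hπ h4) y Db
          ((1 : redField M A) ^ q)) ∧
      (RingHom.ker (redZero π hπ (alphaHom M q K) (sigmaHom (M * q) K)
          (sigmaHom_algebraMap (M * q) K) (sigmaHom_mem_fracField (M * q) K A) (u4E M K h4)
          (u4 (OE A K)) (hσu_u4 M q K h4) (wHom M q K hq hqM) (wHom_algebraMap M q K hq hqM) q
          (sigmaHom_wHom_alpha M q K hq hqM)) ≤ y →
        Fermat.Agent.S44.L.Slope.Loc.UnitAt (rInf4 M q A K hA hred π hπ h4) y Db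
          (rInf4 M q A K hA hred π hπ h4
            ((incl (alphaHom M q K) (alphaHom_algebraMap M q K) (u4E M K h4)
              (polyChart (u4E M K h4) X)) -
            (Fermat.Agent.S34.Modular.ChartZero.wChart (alphaHom M q K) (u4E M K h4)
              (wHom M q K hq hqM) (wHom_algebraMap M q K hq hqM) (wHom_wHom M q K hq hqM)
              (hwu_u4 M q K h2 hq hodd hqM h4)
              (incl (alphaHom M q K) (alphaHom_algebraMap M q K) (u4E M K h4)
                (polyChart (u4E M K h4) X))) ^ q) ^ (12 : ℤ) * (1 : redField M A) ^ q)) := by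
  letI := algebraOL (OE A K) K (LE M K)
  letI := algebraOL (OE A K) K (LE (M * q) K)
  haveI := isScalarTower_OL (OE A K) K (LE M K)
  haveI := isScalarTower_OL (OE A K) K (LE (M * q) K)
  intro hprimej y hy hker hu0 hu16
  -- `ker r = p_∞`
  have hI : RingHom.ker (redInf π hπ (alphaHom M q K) (sigmaHom (M * q) K)
      (sigmaHom_algebraMap (M * q) K) (sigmaHom_mem_fracField (M * q) K A) (u4E M K h4)
      (u4 (OE A K)) (hσu_u4 M q K h4)) ≤ y :=
    le_trans (le_of_eq (ker_rInf4 M q A K hA hred π hπ h4).symm) hker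
  -- off the cusps
  have hrU : rInf4 M q A K hA hred π hπ h4
      (incl (alphaHom M q K) (alphaHom_algebraMap M q K) (u4E M K h4)
        (polyChart (u4E M K h4) X)) = Fermat.Agent.S44.L.CentreU4.ub M A h4 :=
    subfield_eq_of_coe (redField M A) (rInf4_uC M q A K hA hred π hπ h4)
      (Fermat.Agent.S44.L.CentreU4.coe_ub M A h4)
  have hU0 : (incl (alphaHom M q K) (alphaHom_algebraMap M q K) (u4E M K h4)
      (polyChart (u4E M K h4) X)) ∉ y := hu0 _ hrU
  have hU16 : (incl (alphaHom M q K) (alphaHom_algebraMap M q K) (u4E M K h4)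
      (polyChart (u4E M K h4) X)) + 16 ∉ y :=
    hu16 _ (map_add_sixteen (rInf4 M q A K hA hred π hπ h4) hrU)
  refine ⟨fun hZ => ?_, fun hZ => ?_⟩
  · exact Fermat.Agent.S44.L.EisUnitAt.eis_unitAt_smooth M q A K hA hred π hπ (u4E M K h4)
      (u4 (OE A K)) (hσu_u4 M q K h4) y Db hDb
      (Fermat.Agent.S44.L.EisNodeInst.eis_smooth_inf_u4_OE A M q hq hodd hqM h4 hA K z hz hzK
        h2 π hπ e he hqe hprimej y hy hI hZ hU0 hU16) q
  · exact Fermat.Agent.S44.L.EisUnitAt.eis_unitAt_node M q A K hA hred π hπ (u4E M K h4)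
      (u4 (OE A K)) (hσu_u4 M q K h4) y Db hDb _
      (Fermat.Agent.S44.L.EisNodeInst.eis_crossing_u4_OE A M q hq hodd hqM h4 hA K z hz hzK
        h2 π hπ e he hqe hprimej y hy hI hZ) q

/-- **The `D̄`-forms at the closed points of the `∞`-component of the `u₄` chart** (row FE.3 of
the slope chain; context of `NodeC1Inst.node_u4_OE`, `q > 3`).  For `D̄ = Δ̄ (Δ̄^q)⁻¹` and
`r = rInf4`: off the cusps `ū = 0`, `ū = -16`, `D̄ = unit_y` at the points which are not on the
`0`-component, and `D̄ = unit_y · (r t₂) ^ 12` at the crossing points, `t₂ = U - V ^ q`. -/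
theorem eis_dforms_u4 (hq : q.Prime) (hodd : q ≠ 2) (hqM : ¬ q ∣ M) (h4 : 4 ∣ M)
    (hA : A.LiesOverPrime q) (K : IntermediateField ℚ Qb) [FiniteDimensional ℚ K]
    [IsDiscreteValuationRing (OE A K)] (z : Qb) (hz : IsPrimitiveRoot z M) (hzK : z ∈ K)
    (h2 : IsUnit (2 : OE A K)) (π : OE A K) (hπ : Irreducible π)
    (e : OE A K) (he : IsUnit e) (hqe : ((q : ℕ) : OE A K) = π * e)
    [Fact q.Prime] (hred : HRed M q A K) (h3 : 3 < q)
    (Db : redField M A)
    (hDb : (Db : LaurentSeries (IsLocalRing.ResidueField A)) =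
      Fermat.Agent.S44.L.EisFormal.deltaL (IsLocalRing.ResidueField A) *
        (Fermat.Agent.S44.L.EisFormal.deltaL (IsLocalRing.ResidueField A) ^ q)⁻¹) :
    letI := algebraOL (OE A K) K (LE M K)
    letI := algebraOL (OE A K) K (LE (M * q) K)
    haveI := isScalarTower_OL (OE A K) K (LE M K)
    haveI := isScalarTower_OL (OE A K) K (LE (M * q) K)
    ∀ y : Ideal (Chart (OE A K) (alphaHom M q K (u4E M K h4))), y.IsMaximal →
      RingHom.ker (rInf4 M q A K hA hred π hπ h4) ≤ y →
      (∀ c, rInf4 M q A K hA hred π hπ h4 c = Fermat.Agent.S44.L.CentreU4.ub M A h4 → c ∉ y) →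
      (∀ c, rInf4 M q A K hA hred π hπ h4 c = Fermat.Agent.S44.L.CentreU4.ub M A h4 + 16 →
        c ∉ y) →
      (¬ RingHom.ker (redZero π hπ (alphaHom M q K) (sigmaHom (M * q) K)
          (sigmaHom_algebraMap (M * q) K) (sigmaHom_mem_fracField (M * q) K A) (u4E M K h4)
          (u4 (OE A K)) (hσu_u4 M q K h4) (wHom M q K hq hqM) (wHom_algebraMap M q K hq hqM) q
          (sigmaHom_wHom_alpha M q K hq hqM)) ≤ y →
        Fermat.Agent.S44.L.Slope.Loc.UnitAt (rInf4 M q A K hA hred π hπ h4) y Db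
          ((1 : redField M A) ^ q)) ∧
      (RingHom.ker (redZero π hπ (alphaHom M q K) (sigmaHom (M * q) K)
          (sigmaHom_algebraMap (M * q) K) (sigmaHom_mem_fracField (M * q) K A) (u4E M K h4)
          (u4 (OE A K)) (hσu_u4 M q K h4) (wHom M q K hq hqM) (wHom_algebraMap M q K hq hqM) q
          (sigmaHom_wHom_alpha M q K hq hqM)) ≤ y →
        Fermat.Agent.S44.L.Slope.Loc.UnitAt (rInf4 M q A K hA hred π hπ h4) y Db
          (rInf4 M q A K hA hred π hπ h4
            ((incl (alphaHom M q K) (alphaHom_algebraMap M q K) (u4E M K h4)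
              (polyChart (u4E M K h4) X)) -
            (Fermat.Agent.S34.Modular.ChartZero.wChart (alphaHom M q K) (u4E M K h4)
              (wHom M q K hq hqM) (wHom_algebraMap M q K hq hqM) (wHom_wHom M q K hq hqM)
              (hwu_u4 M q K h2 hq hodd hqM h4)
              (incl (alphaHom M q K) (alphaHom_algebraMap M q K) (u4E M K h4)
                (polyChart (u4E M K h4) X))) ^ q) ^ (12 : ℤ) * (1 : redField M A) ^ q)) := by
  letI := algebraOL (OE A K) K (LE M K)
  letI := algebraOL (OE A K) K (LE (M * q) K)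
  haveI := isScalarTower_OL (OE A K) K (LE M K)
  haveI := isScalarTower_OL (OE A K) K (LE (M * q) K)
  exact eis_dforms_u4_of_prime A M q hq hodd hqM h4 hA K z hz hzK h2 π hπ e he hqe hred Db hDb
    (prime_piC_jE A M q hq h3 hqM hA K z hz hzK π hπ)

end Fermat.Agent.S44.L.EisUnitAtU4
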