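import Mathlib
import Fermat.Agent.S30.Congr

/-!
# PROGRAM MR (S44), strand L: residually independent elements are independent

Level-free in the level `N`.  `A` is a valuation subring of `ℚ̄`, `κ` its residue field,
`Congr.incl A : A((q)) → ℚ̄((q))` and `Congr.red A : A((q)) → κ((q))` the coefficientwise
inclusion and reduction.  For an intermediate field `F` of `ℚ̄((q)) / ℚ̄`:

* `redSetOf A F` : the reductions `Ū / V̄` of quotients of integral `q`-series of `F`
  (for `F = E4.Fb N` this is `Contract.redSet N A`, by `rfl`);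
* `GaussOn A F` : every nonzero element of `F` is `c · P / Q` with `P, Q` integral `q`-series of
  `F` with nonzero reductions (for `F = E4.Fb N` this is `E4.HasGaussNorm N A`).

Results:

* `redFieldOf`, `closure_redSetOf` : `redSetOf A F` is already a subfield of `κ((q))`;
* `exists_red_relation` : if `F₁` has Gauss normal forms, a nontrivial `F₁`-linear relation between
  the integral series `W i` reduces to a nontrivial relation between the `red (W i)` with
  coefficients in `redSetOf A F₁`;
* `card_le_of_linearIndependent_red` : **the degree bound**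
  `[redField₂ : redField₁] ≤ [F₂ : F₁]` for `F₁ ≤ F₂`, in family form: a family of the reduced
  field of `F₂` which is linearly independent over the reduced field of `F₁` has at most `n`
  members as soon as every `F₁`-linearly independent family of `F₂` has at most `n` members.
-/

set_option autoImplicit false

open HahnSeries ModularCurve

namespace Fermat.Agent.S44.L.ResIndep

open Fermat.Agent.S30

local notation "Qb" => AlgebraicClosure ℚ

variable (A : ValuationSubring Qb)

/-! ### Constants -/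

theorem incl_constA (a : A) : Congr.incl A (HahnSeries.C a) = HahnSeries.C (a : Qb) := by
  rw [HahnSeries.C_apply, HahnSeries.C_apply]
  exact coeffMap_single _ _ _

theorem red_constA (a : A) :
    Congr.red A (HahnSeries.C a) = HahnSeries.C (IsLocalRing.residue A a) := by
  rw [HahnSeries.C_apply, HahnSeries.C_apply]
  exact coeffMap_single _ _ _

theorem constQb_mem (F : IntermediateField Qb (LaurentSeries Qb)) (c : Qb) :
    (HahnSeries.C c : LaurentSeries Qb) ∈ F := by
  rw [HahnSeries.C_apply, ← algebraMap_laurentSeries_eq_single]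
  exact F.algebraMap_mem c

/-! ### The reduced set of an intermediate field -/

/-- The reductions `Ū / V̄` of the quotients of integral `q`-series of `F`. -/
def redSetOf (F : IntermediateField Qb (LaurentSeries Qb)) :
    Set (LaurentSeries (IsLocalRing.ResidueField A)) :=
  {φ | ∃ U V : LaurentSeries A, Congr.incl A U ∈ F ∧ Congr.incl A V ∈ F ∧
    Congr.red A V ≠ 0 ∧ φ * Congr.red A V = Congr.red A U}

/-- Gauss normal forms on `F`: every nonzero element of `F` is a constant times a quotient of two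
integral `q`-series of `F` with nonzero reductions. -/
def GaussOn (F : IntermediateField Qb (LaurentSeries Qb)) : Prop :=
  ∀ f : LaurentSeries Qb, f ∈ F → f ≠ 0 → ∃ (c : Qb) (P Q : LaurentSeries A),
    Congr.incl A P ∈ F ∧ Congr.incl A Q ∈ F ∧ c ≠ 0 ∧ Congr.red A P ≠ 0 ∧ Congr.red A Q ≠ 0 ∧
      f * Congr.incl A Q = HahnSeries.C c * Congr.incl A P

variable {A}

theorem zero_mem_redSetOf (F : IntermediateField Qb (LaurentSeries Qb)) :
    (0 : LaurentSeries (IsLocalRing.ResidueField A)) ∈ redSetOf A F :=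
  ⟨0, 1, by rw [map_zero]; exact F.zero_mem, by rw [map_one]; exact F.one_mem,
    by rw [map_one]; exact one_ne_zero, by rw [map_zero, zero_mul]⟩

theorem one_mem_redSetOf (F : IntermediateField Qb (LaurentSeries Qb)) :
    (1 : LaurentSeries (IsLocalRing.ResidueField A)) ∈ redSetOf A F :=
  ⟨1, 1, by rw [map_one]; exact F.one_mem, by rw [map_one]; exact F.one_mem,
    by rw [map_one]; exact one_ne_zero, by rw [map_one, one_mul]⟩

theorem add_mem_redSetOf {F : IntermediateField Qb (LaurentSeries Qb)}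
    {φ ψ : LaurentSeries (IsLocalRing.ResidueField A)} (hφ : φ ∈ redSetOf A F)
    (hψ : ψ ∈ redSetOf A F) : φ + ψ ∈ redSetOf A F := by
  obtain ⟨U, V, hU, hV, hV0, h⟩ := hφ
  obtain ⟨U', V', hU', hV', hV0', h'⟩ := hψ
  refine ⟨U * V' + U' * V, V * V', ?_, ?_, ?_, ?_⟩
  · rw [map_add, map_mul, map_mul]
    exact F.add_mem (F.mul_mem hU hV') (F.mul_mem hU' hV)
  · rw [map_mul]
    exact F.mul_mem hV hV'
  · rw [map_mul]
    exact mul_ne_zero hV0 hV0'
  · rw [map_add, map_mul, map_mul, map_mul, ← h, ← h']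
    ring

theorem neg_mem_redSetOf {F : IntermediateField Qb (LaurentSeries Qb)}
    {φ : LaurentSeries (IsLocalRing.ResidueField A)} (hφ : φ ∈ redSetOf A F) :
    -φ ∈ redSetOf A F := by
  obtain ⟨U, V, hU, hV, hV0, h⟩ := hφ
  refine ⟨-U, V, ?_, hV, hV0, ?_⟩
  · rw [map_neg]
    exact F.neg_mem hU
  · rw [map_neg, ← h, neg_mul]

theorem mul_mem_redSetOf {F : IntermediateField Qb (LaurentSeries Qb)}
    {φ ψ : LaurentSeries (IsLocalRing.ResidueField A)} (hφ : φ ∈ redSetOf A F)
    (hψ : ψ ∈ redSetOf A F) : φ * ψ ∈ redSetOf A F := by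
  obtain ⟨U, V, hU, hV, hV0, h⟩ := hφ
  obtain ⟨U', V', hU', hV', hV0', h'⟩ := hψ
  refine ⟨U * U', V * V', ?_, ?_, ?_, ?_⟩
  · rw [map_mul]
    exact F.mul_mem hU hU'
  · rw [map_mul]
    exact F.mul_mem hV hV'
  · rw [map_mul]
    exact mul_ne_zero hV0 hV0'
  · rw [map_mul, map_mul, ← h, ← h']
    ring

theorem inv_mem_redSetOf {F : IntermediateField Qb (LaurentSeries Qb)}
    {φ : LaurentSeries (IsLocalRing.ResidueField A)} (hφ : φ ∈ redSetOf A F) :
    φ⁻¹ ∈ redSetOf A F := by
  rcases eq_or_ne φ 0 with rfl | hφ0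
  · rw [inv_zero]
    exact zero_mem_redSetOf F
  obtain ⟨U, V, hU, hV, hV0, h⟩ := hφ
  refine ⟨V, U, hV, hU, ?_, ?_⟩
  · rw [← h]
    exact mul_ne_zero hφ0 hV0
  · rw [← h, ← mul_assoc, inv_mul_cancel₀ hφ0, one_mul]

variable (A)

/-- `redSetOf A F` as a subfield of `κ((q))`. -/
def redFieldOf (F : IntermediateField Qb (LaurentSeries Qb)) :
    Subfield (LaurentSeries (IsLocalRing.ResidueField A)) where
  carrier := redSetOf A F
  mul_mem' := mul_mem_redSetOf
  one_mem' := one_mem_redSetOf F
  add_mem' := add_mem_redSetOf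
  zero_mem' := zero_mem_redSetOf F
  neg_mem' := neg_mem_redSetOf
  inv_mem' := fun _ => inv_mem_redSetOf

theorem mem_redFieldOf {F : IntermediateField Qb (LaurentSeries Qb)}
    {φ : LaurentSeries (IsLocalRing.ResidueField A)} :
    φ ∈ redFieldOf A F ↔ φ ∈ redSetOf A F := Iff.rfl

/-- The subfield generated by `redSetOf A F` is `redSetOf A F` itself. -/
theorem closure_redSetOf (F : IntermediateField Qb (LaurentSeries Qb)) :
    Subfield.closure (redSetOf A F) = redFieldOf A F :=
  Subfield.closure_eq (redFieldOf A F)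

theorem mem_closure_redSetOf {F : IntermediateField Qb (LaurentSeries Qb)}
    {φ : LaurentSeries (IsLocalRing.ResidueField A)} :
    φ ∈ Subfield.closure (redSetOf A F) ↔ φ ∈ redSetOf A F := by
  rw [closure_redSetOf, mem_redFieldOf]

/-- Constants of `κ` lie in the reduced set. -/
theorem const_mem_redSetOf (F : IntermediateField Qb (LaurentSeries Qb))
    (c : IsLocalRing.ResidueField A) :
    (HahnSeries.C c : LaurentSeries (IsLocalRing.ResidueField A)) ∈ redSetOf A F := by
  obtain ⟨a, rfl⟩ := IsLocalRing.residue_surjective c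
  refine ⟨HahnSeries.C a, 1, ?_, ?_, ?_, ?_⟩
  · rw [incl_constA]
    exact constQb_mem F _
  · rw [map_one]
    exact F.one_mem
  · rw [map_one]
    exact one_ne_zero
  · rw [map_one, mul_one, red_constA]

/-! ### Reduction of linear relations -/

/-- **Reduction of a linear relation.**  If `F₁` has Gauss normal forms, then a nontrivial
relation `∑ c i * incl (W i) = 0` with coefficients `c i ∈ F₁` between integral `q`-series `W i`
gives a nontrivial relation `∑ g i * red (W i) = 0` with coefficients `g i` in the reduced set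
of `F₁`. -/
theorem exists_red_relation {F₁ : IntermediateField Qb (LaurentSeries Qb)} (hG : GaussOn A F₁)
    {ι : Type*} (s : Finset ι) (c : ι → LaurentSeries Qb) (hc : ∀ i ∈ s, c i ∈ F₁)
    (W : ι → LaurentSeries A) (hrel : ∑ i ∈ s, c i * Congr.incl A (W i) = 0)
    (hne : ∃ i ∈ s, c i ≠ 0) :
    ∃ g : ι → LaurentSeries (IsLocalRing.ResidueField A), (∀ i ∈ s, g i ∈ redSetOf A F₁) ∧
      (∃ i ∈ s, g i ≠ 0) ∧ ∑ i ∈ s, g i * Congr.red A (W i) = 0 := by
  classical
  -- Gauss normal forms of the nonzero coefficients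
  have hex : ∀ i : ι, ∃ (γ : Qb) (P Q : LaurentSeries A), i ∈ s → c i ≠ 0 →
      (Congr.incl A P ∈ F₁ ∧ Congr.incl A Q ∈ F₁ ∧ γ ≠ 0 ∧ Congr.red A P ≠ 0 ∧
        Congr.red A Q ≠ 0 ∧ c i * Congr.incl A Q = HahnSeries.C γ * Congr.incl A P) := by
    intro i
    by_cases hi : i ∈ s ∧ c i ≠ 0
    · obtain ⟨γ, P, Q, h⟩ := hG (c i) (hc i hi.1) hi.2
      exact ⟨γ, P, Q, fun _ _ => h⟩
    · exact ⟨0, 0, 0, fun h1 h2 => absurd ⟨h1, h2⟩ hi⟩
  choose γ P Q hPQ using hex
  set s' : Finset ι := s.filter (fun i => c i ≠ 0) with hs'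
  have hmem' : ∀ i, i ∈ s' ↔ i ∈ s ∧ c i ≠ 0 := fun i => by rw [hs', Finset.mem_filter]
  have hs'ne : s'.Nonempty := by
    obtain ⟨i, hi, hci⟩ := hne
    exact ⟨i, (hmem' i).2 ⟨hi, hci⟩⟩
  have hdata : ∀ i ∈ s', Congr.incl A (P i) ∈ F₁ ∧ Congr.incl A (Q i) ∈ F₁ ∧ γ i ≠ 0 ∧
      Congr.red A (P i) ≠ 0 ∧ Congr.red A (Q i) ≠ 0 ∧
      c i * Congr.incl A (Q i) = HahnSeries.C (γ i) * Congr.incl A (P i) :=
    fun i hi => hPQ i ((hmem' i).1 hi).1 ((hmem' i).1 hi).2
  -- the coefficient of largest absolute value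
  obtain ⟨i₀, hi₀, hmax⟩ := Finset.exists_max_image s' (fun i => A.valuation (γ i)) hs'ne
  have hγ₀ : γ i₀ ≠ 0 := (hdata i₀ hi₀).2.2.1
  have hexa : ∀ i : ι, ∃ a : A, i ∈ s' → (a : Qb) = γ i / γ i₀ := by
    intro i
    by_cases hi : i ∈ s'
    · have hle : A.valuation (γ i / γ i₀) ≤ 1 := by
        rw [map_div₀]
        exact div_le_one_of_le₀ (hmax i hi) zero_le
      exact ⟨⟨γ i / γ i₀, (A.valuation_le_one_iff _).1 hle⟩, fun _ => rfl⟩
    · exact ⟨0, fun h => absurd h hi⟩
  choose a ha using hexa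
  have ha₀ : a i₀ = 1 := by
    apply Subtype.ext
    rw [ha i₀ hi₀, div_self hγ₀]
    rfl
  -- clearing denominators
  set Q' : ι → LaurentSeries A := fun i => ∏ j ∈ s'.erase i, Q j with hQ'
  have hQall : ∀ i ∈ s', Q i * Q' i = ∏ j ∈ s', Q j := fun i hi => Finset.mul_prod_erase s' Q hi
  have hredQall : Congr.red A (∏ j ∈ s', Q j) ≠ 0 := by
    rw [map_prod]
    exact Finset.prod_ne_zero_iff.2 fun j hj => (hdata j hj).2.2.2.2.1
  -- the relation restricted to `s'`
  have hrel' : ∑ i ∈ s', c i * Congr.incl A (W i) = 0 := by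
    rw [← hrel, hs', Finset.sum_filter]
    refine Finset.sum_congr rfl fun i _ => ?_
    by_cases hci : c i = 0
    · simp [hci]
    · simp [hci]
  -- an integral relation
  have hint : ∑ i ∈ s', HahnSeries.C (a i) * P i * Q' i * W i = 0 := by
    apply Congr.incl_injective A
    rw [map_zero, map_sum]
    have hC : (HahnSeries.C (γ i₀) : LaurentSeries Qb) ≠ 0 := HahnSeries.C_ne_zero hγ₀
    apply mul_left_cancel₀ hC
    rw [mul_zero, Finset.mul_sum]
    have h0 : (∑ i ∈ s', c i * Congr.incl A (W i)) * Congr.incl A (∏ j ∈ s', Q j) = 0 := by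
      rw [hrel', zero_mul]
    rw [← h0, Finset.sum_mul]
    refine Finset.sum_congr rfl fun i hi => ?_
    obtain ⟨-, -, -, -, -, hci⟩ := hdata i hi
    have hCγ : (HahnSeries.C (γ i) : LaurentSeries Qb) =
        HahnSeries.C (γ i₀) * Congr.incl A (HahnSeries.C (a i)) := by
      rw [incl_constA, ← map_mul, ha i hi, mul_div_cancel₀ _ hγ₀]
    rw [← hQall i hi]
    simp only [map_mul]
    calc HahnSeries.C (γ i₀) * (Congr.incl A (HahnSeries.C (a i)) * Congr.incl A (P i) *
          Congr.incl A (Q' i) * Congr.incl A (W i))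
        = (HahnSeries.C (γ i₀) * Congr.incl A (HahnSeries.C (a i))) * Congr.incl A (P i) *
          Congr.incl A (Q' i) * Congr.incl A (W i) := by ring
      _ = (HahnSeries.C (γ i) * Congr.incl A (P i)) * Congr.incl A (Q' i) *
          Congr.incl A (W i) := by rw [← hCγ]
      _ = (c i * Congr.incl A (Q i)) * Congr.incl A (Q' i) * Congr.incl A (W i) := by rw [hci]
      _ = c i * Congr.incl A (W i) * (Congr.incl A (Q i) * Congr.incl A (Q' i)) := by ring
  have hred : ∑ i ∈ s', Congr.red A (HahnSeries.C (a i)) * Congr.red A (P i) *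
      Congr.red A (Q' i) * Congr.red A (W i) = 0 := by
    have := congrArg (Congr.red A) hint
    simpa only [map_sum, map_mul, map_zero] using this
  -- the reduced coefficients
  refine ⟨fun i => if i ∈ s' then
      Congr.red A (HahnSeries.C (a i)) * Congr.red A (P i) * (Congr.red A (Q i))⁻¹ else 0,
    ?_, ⟨i₀, ((hmem' i₀).1 hi₀).1, ?_⟩, ?_⟩
  · intro i _
    beta_reduce
    by_cases hi : i ∈ s'
    · obtain ⟨hP, hQ, -, -, hQ0, -⟩ := hdata i hi
      rw [if_pos hi]
      refine ⟨HahnSeries.C (a i) * P i, Q i, ?_, hQ, hQ0, ?_⟩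
      · rw [map_mul, incl_constA]
        exact F₁.mul_mem (constQb_mem F₁ _) hP
      · rw [map_mul, mul_assoc, inv_mul_cancel₀ hQ0, mul_one]
    · rw [if_neg hi]
      exact zero_mem_redSetOf F₁
  · obtain ⟨-, -, -, hP0, hQ0, -⟩ := hdata i₀ hi₀
    beta_reduce
    rw [if_pos hi₀, ha₀]
    have h1 : Congr.red A (HahnSeries.C (1 : A)) = 1 := by
      rw [show (HahnSeries.C (1 : A) : LaurentSeries A) = 1 from map_one _, map_one]
    rw [h1, one_mul]
    exact mul_ne_zero hP0 (inv_ne_zero hQ0)
  · have hsum : ∑ i ∈ s, (if i ∈ s' then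
          Congr.red A (HahnSeries.C (a i)) * Congr.red A (P i) * (Congr.red A (Q i))⁻¹ else 0) *
          Congr.red A (W i) =
        ∑ i ∈ s', Congr.red A (HahnSeries.C (a i)) * Congr.red A (P i) *
          (Congr.red A (Q i))⁻¹ * Congr.red A (W i) := by
      rw [hs', Finset.sum_filter]
      refine Finset.sum_congr rfl fun i hi => ?_
      by_cases hci : c i = 0
      · have : i ∉ s.filter (fun i => c i ≠ 0) := by simp [hci]
        simp [hci]
      · have : i ∈ s.filter (fun i => c i ≠ 0) := by simp [hci, hi]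
        simp [hci, hi]
    rw [hsum]
    apply mul_left_cancel₀ hredQall
    rw [mul_zero, Finset.mul_sum, ← hred]
    refine Finset.sum_congr rfl fun i hi => ?_
    obtain ⟨-, -, -, -, hQ0, -⟩ := hdata i hi
    rw [← hQall i hi, map_mul]
    field_simp

/-! ### The degree bound -/

/-- **Residually independent elements are independent: the degree bound.**  Let `F₁ ≤ F₂`,
`F₁` with Gauss normal forms, and suppose every `F₁`-linearly independent family of `F₂` has at
most `n` members (`[F₂ : F₁] ≤ n`).  Then every family of the reduced field of `F₂` which is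
linearly independent over the reduced field of `F₁` has at most `n` members. -/
theorem card_le_of_linearIndependent_red {F₁ F₂ : IntermediateField Qb (LaurentSeries Qb)}
    (hG : GaussOn A F₁) (n : ℕ)
    (hdeg : ∀ (m : ℕ) (x : Fin m → LaurentSeries Qb), (∀ i, x i ∈ F₂) →
      LinearIndependent F₁ x → m ≤ n)
    (m : ℕ) (f : Fin m → LaurentSeries (IsLocalRing.ResidueField A))
    (hf : ∀ i, f i ∈ Subfield.closure (redSetOf A F₂))
    (hli : LinearIndependent (Subfield.closure (redSetOf A F₁)) f) : m ≤ n := by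
  classical
  have hf' : ∀ i, ∃ U V : LaurentSeries A, Congr.incl A U ∈ F₂ ∧ Congr.incl A V ∈ F₂ ∧
      Congr.red A V ≠ 0 ∧ f i * Congr.red A V = Congr.red A U :=
    fun i => (mem_closure_redSetOf A).1 (hf i)
  choose U V hU hV hV0 hUV using hf'
  -- common denominator
  set W : Fin m → LaurentSeries A := fun i => U i * ∏ j ∈ Finset.univ.erase i, V j with hW
  have hVall : ∀ i, V i * ∏ j ∈ Finset.univ.erase i, V j = ∏ j, V j :=
    fun i => Finset.mul_prod_erase Finset.univ V (Finset.mem_univ i)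
  have hredVall : Congr.red A (∏ j, V j) ≠ 0 := by
    rw [map_prod]
    exact Finset.prod_ne_zero_iff.2 fun j _ => hV0 j
  have hredW : ∀ i, Congr.red A (W i) = f i * Congr.red A (∏ j, V j) := by
    intro i
    rw [hW, ← hVall i]
    simp only [map_mul]
    rw [← hUV i]
    ring
  have hWmem : ∀ i, Congr.incl A (W i) ∈ F₂ := by
    intro i
    rw [hW]
    simp only [map_mul, map_prod]
    exact F₂.mul_mem (hU i) (F₂.prod_mem fun j _ => hV j)
  refine hdeg m (fun i => Congr.incl A (W i)) hWmem ?_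
  by_contra hnli
  obtain ⟨c, hsum, i, hci⟩ := Fintype.not_linearIndependent_iff.1 hnli
  have hrel : ∑ i ∈ Finset.univ, (c i : LaurentSeries Qb) * Congr.incl A (W i) = 0 := by
    rw [← hsum]
    rfl
  obtain ⟨g, hg, ⟨i', -, hgi'⟩, hgsum⟩ := exists_red_relation A hG Finset.univ
    (fun i => (c i : LaurentSeries Qb)) (fun i _ => (c i).2) W hrel
    ⟨i, Finset.mem_univ i, fun h => hci (Subtype.ext h)⟩
  have hgf : ∑ i, g i * f i = 0 := by
    apply mul_right_cancel₀ hredVall
    rw [zero_mul, Finset.sum_mul, ← hgsum]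
    refine Finset.sum_congr rfl fun i _ => ?_
    rw [hredW i, mul_assoc]
  have hzero := Fintype.linearIndependent_iff.1 hli
    (fun i => ⟨g i, Subfield.subset_closure (hg i (Finset.mem_univ i))⟩)
    (by rw [← hgf]; rfl) i'
  exact hgi' (congrArg Subtype.val hzero)

end Fermat.Agent.S44.L.ResIndep
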