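import Mathlib
import Fermat.Agent.S24.Modular.M3
import Fermat.Agent.Lib.Gamma0Counts
import Fermat.Agent.S30.E4.GaussNorm
import Fermat.Agent.S44.L.ResIndep
import Fermat.Agent.S44.Contract
import Fermat.Agent.S44.L.Kappa

/-!
# PROGRAM MR (S44), strand L, row (L.DESC): the degree hypothesis of the level descent (helper71)

For `N1 ∣ N2` the function field `Fb N1` sits inside `Fb N2` (same `q`-series) and
`[Fb N2 : Fb N1] · ψ(N1) = ψ(N2)` (`S24`: `[Fb N : ℚ̄(j)] = ψ(N)`, tower law).  Hence
`[Fb (2 N) : Fb N] ≤ 3`, and by `ResIndep.card_le_of_linearIndependent_red` the same bound holds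
for the reduced function fields: `[redField (2 N) A : redField N A] ≤ 3`.

All degree bounds are stated in FAMILY FORM (no `Algebra` instance between the two fields is
chosen); `finite_and_finrank_le` converts a family bound for a pair of subfields `k1 ≤ k2` of a
field into `Module.Finite k1 k2 ∧ finrank k1 k2 ≤ n` for the `Subfield.inclusion` algebra.

* `fb_le`                 : `Fb N1 ≤ Fb N2` for `N1 ∣ N2`;
* `finrank_mul_psi`       : `[Fb N2 : Fb N1] · ψ(N1) = ψ(N2)` (inclusion algebra);
* `card_mul_psi_le`       : family form of the same;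
* `card_le_three`         : `[Fb M : Fb N] ≤ 3` for `M = 2 * N`, family form;
* `gaussOn`               : `ResIndep.GaussOn A (Fb N)` from `E4.hasGaussNorm`;
* `redField_le`           : `redField N1 A ≤ redField N2 A` for `N1 ∣ N2`;
* `card_red_le_three`     : `[redField M A : redField N A] ≤ 3` for `M = 2 * N`, family form;
* `finite_and_finrank_le` : family bound ⟹ `Module.Finite` and `finrank ≤ n` (level-free);
* `finrank_redField_two`  : `Module.Finite` and `finrank ≤ 3` for
  `redField N A ≤ redField M A`, `M = 2 * N`;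
* `redField_le_two`       : `redField N A ≤ redField (2 * N) A`;
* `isSeparable_of_finrank_lt` : degree `< p` in characteristic `p` is separable (level-free);
* `charP_redField`, `isSeparable_redField_two`, `coprime_finrank_redField_two` : the reduced
  field has characteristic `p`; `redField (2 N) A / redField N A` is separable of degree prime
  to `p` for `p ≥ 5`.
-/

set_option autoImplicit false

open HahnSeries ModularCurve IntermediateField

namespace Fermat.Agent.S44.L.DescDeg

open Fermat.Agent.S30 Fermat.Agent.S44.Contract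

local notation "Qb" => AlgebraicClosure ℚ

/-! ### The function fields -/

/-- `Fb N1 ≤ Fb N2` for `N1 ∣ N2` (same `q`-series). -/
theorem fb_le {N1 N2 : ℕ} [NeZero N1] [NeZero N2] (h : N1 ∣ N2) : E4.Fb N1 ≤ E4.Fb N2 := by
  show laurentBaseChange Qb _ ≤ laurentBaseChange Qb _
  rw [laurentBaseChange, IntermediateField.adjoin_le_iff]
  rintro _ ⟨y, hy, rfl⟩
  exact coeffEmb_mem_laurentBaseChange Qb (full_degeneracy_le h hy)

/-- The inclusion algebra `Fb N1 → Fb N2`. -/
@[reducible] noncomputable def fbAlgebra {N1 N2 : ℕ} [NeZero N1] [NeZero N2] (h : N1 ∣ N2) :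
    Algebra (E4.Fb N1) (E4.Fb N2) :=
  (IntermediateField.inclusion (fb_le h)).toRingHom.toAlgebra

theorem coe_fbAlgebra_smul {N1 N2 : ℕ} [NeZero N1] [NeZero N2] (h : N1 ∣ N2) (c : E4.Fb N1)
    (y : E4.Fb N2) :
    letI := fbAlgebra h
    ((c • y : E4.Fb N2) : LaurentSeries Qb) = (c : LaurentSeries Qb) * (y : LaurentSeries Qb) := by
  letI := fbAlgebra h
  rw [Algebra.smul_def, RingHom.algebraMap_toAlgebra, MulMemClass.coe_mul]
  rfl

/-- **`[Fb N2 : Fb N1] · ψ(N1) = ψ(N2)`** for `N1 ∣ N2`. -/
theorem finrank_mul_psi {N1 N2 : ℕ} [NeZero N1] [NeZero N2] (h : N1 ∣ N2) :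
    letI := fbAlgebra h
    Module.finrank (E4.Fb N1) (E4.Fb N2) * dedekindPsi N1 = dedekindPsi N2 := by
  letI : Algebra (E4.Fb N1) (E4.Fb N2) := fbAlgebra h
  let α : E4.Fb N1 →ₐ[Qb] E4.Fb N2 := IntermediateField.inclusion (fb_le h)
  let K1 : IntermediateField Qb (E4.Fb N1) := Qb⟮Fermat.Agent.S24.Modular.jF N1⟯
  letI : Algebra K1 (E4.Fb N2) :=
    ((algebraMap (E4.Fb N1) (E4.Fb N2)).comp (algebraMap K1 (E4.Fb N1))).toAlgebra
  haveI : IsScalarTower K1 (E4.Fb N1) (E4.Fb N2) := IsScalarTower.of_algebraMap_eq fun _ => rfl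
  have h3 : Module.finrank K1 (E4.Fb N1) * Module.finrank (E4.Fb N1) (E4.Fb N2)
      = Module.finrank K1 (E4.Fb N2) := Module.finrank_mul_finrank K1 (E4.Fb N1) (E4.Fb N2)
  have hj : α (Fermat.Agent.S24.Modular.jF N1) = Fermat.Agent.S24.Modular.jF N2 :=
    Subtype.ext rfl
  have hmap : K1.map α = Qb⟮Fermat.Agent.S24.Modular.jF N2⟯ := by
    rw [IntermediateField.adjoin_map, Set.image_singleton, hj]
  let e : K1 ≃+* Qb⟮Fermat.Agent.S24.Modular.jF N2⟯ :=
    ((IntermediateField.equivMap K1 α).trans (IntermediateField.equivOfEq hmap)).toRingEquiv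
  have h4 : Module.finrank K1 (E4.Fb N2)
      = Module.finrank Qb⟮Fermat.Agent.S24.Modular.jF N2⟯ (E4.Fb N2) := by
    refine Algebra.finrank_eq_of_equiv_equiv e (RingEquiv.refl (E4.Fb N2)) ?_
    ext x
    rfl
  have h1 : Module.finrank K1 (E4.Fb N1) = dedekindPsi N1 :=
    Fermat.Agent.S24.Modular.finrank_jF N1
  rw [h1, h4, Fermat.Agent.S24.Modular.finrank_jF N2] at h3
  rw [mul_comm]
  exact h3

theorem dedekindPsi_pos (N : ℕ) [NeZero N] : 0 < dedekindPsi N := by
  rw [← Fermat.Agent.S24.Modular.finrank_jF N]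
  haveI := Fermat.Agent.S24.Modular.finite_jF N
  exact Module.finrank_pos

/-- **The degree bound `[Fb N2 : Fb N1] · ψ(N1) ≤ ψ(N2)`, family form.** -/
theorem card_mul_psi_le {N1 N2 : ℕ} [NeZero N1] [NeZero N2] (h : N1 ∣ N2) (m : ℕ)
    (x : Fin m → LaurentSeries Qb) (hx : ∀ i, x i ∈ E4.Fb N2)
    (hli : LinearIndependent (E4.Fb N1) x) : m * dedekindPsi N1 ≤ dedekindPsi N2 := by
  letI : Algebra (E4.Fb N1) (E4.Fb N2) := fbAlgebra h
  have hdeg : Module.finrank (E4.Fb N1) (E4.Fb N2) * dedekindPsi N1 = dedekindPsi N2 :=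
    finrank_mul_psi h
  have hpos2 : 0 < dedekindPsi N2 := dedekindPsi_pos N2
  have hfr : 0 < Module.finrank (E4.Fb N1) (E4.Fb N2) := by
    rcases Nat.eq_zero_or_pos (Module.finrank (E4.Fb N1) (E4.Fb N2)) with h0 | h0
    · rw [h0, zero_mul] at hdeg
      omega
    · exact h0
  haveI : Module.Finite (E4.Fb N1) (E4.Fb N2) := Module.finite_of_finrank_pos hfr
  have hli' : LinearIndependent (E4.Fb N1) (fun i => (⟨x i, hx i⟩ : E4.Fb N2)) := by
    rw [Fintype.linearIndependent_iff]
    intro c hc i
    refine Fintype.linearIndependent_iff.1 hli c ?_ i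
    have h1 := congrArg (fun y : E4.Fb N2 => (y : LaurentSeries Qb)) hc
    simp only [AddSubmonoidClass.coe_finset_sum, ZeroMemClass.coe_zero] at h1
    rw [← h1]
    refine Finset.sum_congr rfl fun i _ => ?_
    rw [coe_fbAlgebra_smul h, IntermediateField.smul_def, smul_eq_mul]
  have hcard := hli'.fintype_card_le_finrank
  rw [Fintype.card_fin] at hcard
  calc m * dedekindPsi N1 ≤ Module.finrank (E4.Fb N1) (E4.Fb N2) * dedekindPsi N1 :=
        Nat.mul_le_mul_right _ hcard
    _ = dedekindPsi N2 := hdeg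

/-- **`[Fb (2 N) : Fb N] ≤ 3`, family form** (`ψ(2N) = 3 ψ(N)` or `2 ψ(N)`).  The level `M` is
a variable with `hM : M = 2 * N`, so that both spellings `2 * N` and `N * 2` are covered. -/
theorem card_le_three {N M : ℕ} [NeZero N] (hM : M = 2 * N) (m : ℕ)
    (x : Fin m → LaurentSeries Qb) (hx : ∀ i, x i ∈ E4.Fb M)
    (hli : LinearIndependent (E4.Fb N) x) : m ≤ 3 := by
  have hM' : M = N * 2 := by rw [hM, Nat.mul_comm]
  subst hM'
  haveI : NeZero (N * 2) := ⟨Nat.mul_ne_zero (NeZero.ne N) two_ne_zero⟩
  have h1 := card_mul_psi_le (Dvd.intro 2 rfl : N ∣ N * 2) m x hx hli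
  have hpos := dedekindPsi_pos N
  have hle : dedekindPsi (N * 2) ≤ 3 * dedekindPsi N := by
    rcases Classical.em (2 ∣ N) with h2 | h2
    · rw [Fermat.Agent.Lib.Gamma0Counts.dedekindPsi_mul_prime_of_dvd (NeZero.ne N)
        Nat.prime_two h2]
      omega
    · rw [Fermat.Agent.Lib.Gamma0Counts.dedekindPsi_mul_prime_of_not_dvd (NeZero.ne N)
        Nat.prime_two h2]
      omega
  have h2 : m * dedekindPsi N ≤ 3 * dedekindPsi N := h1.trans hle
  exact Nat.le_of_mul_le_mul_right h2 hpos

/-! ### The reduced fields -/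

/-- Gauss normal forms on `Fb N`, in the series form of `ResIndep`. -/
theorem gaussOn (N ℓ : ℕ) [Fact ℓ.Prime] (A : ValuationSubring Qb) (hA : A.LiesOverPrime ℓ) :
    ResIndep.GaussOn A (E4.Fb N) := by
  intro f hf hf0
  obtain ⟨c, P, Q, hP, hQ, hc, hP0, hQ0, h⟩ := E4.hasGaussNorm N ℓ A hA ⟨f, hf⟩
    (fun h0 => hf0 (congrArg Subtype.val h0))
  refine ⟨c, P, Q, hP, hQ, hc, hP0, hQ0, ?_⟩
  have h1 := congrArg (fun y : E4.Fb N => (y : LaurentSeries Qb)) h
  simp only [MulMemClass.coe_mul] at h1
  rw [h1, HahnSeries.C_apply, ← algebraMap_laurentSeries_eq_single]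
  rfl

/-- `redField N1 A ≤ redField N2 A` for `N1 ∣ N2`. -/
theorem redField_le {N1 N2 : ℕ} [NeZero N1] [NeZero N2] (h : N1 ∣ N2) (A : ValuationSubring Qb) :
    redField N1 A ≤ redField N2 A := by
  refine Subfield.closure_mono ?_
  rintro φ ⟨U, V, hU, hV, hV0, hφ⟩
  exact ⟨U, V, fb_le h hU, fb_le h hV, hV0, hφ⟩

/-- **`[redField (2 N) A : redField N A] ≤ 3`, family form** (`M = 2 * N`). -/
theorem card_red_le_three (p : ℕ) {N M : ℕ} [NeZero N] (hM : M = 2 * N) (hp : p.Prime)
    (A : ValuationSubring Qb) (hA : A.LiesOverPrime p) (m : ℕ)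
    (f : Fin m → LaurentSeries (IsLocalRing.ResidueField A))
    (hf : ∀ i, f i ∈ redField M A) (hli : LinearIndependent (redField N A) f) : m ≤ 3 := by
  haveI : Fact p.Prime := ⟨hp⟩
  exact ResIndep.card_le_of_linearIndependent_red A (gaussOn N p A hA) 3 (card_le_three hM) m f
    hf hli

/-! ### From a family bound to `finrank` (level-free) -/

/-- A pair of subfields `k1 ≤ k2` of a field such that every `k1`-linearly independent family
of `k2` has at most `n` members: `k2` is finite over `k1` of degree at most `n`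
(for the `Subfield.inclusion` algebra). -/
theorem finite_and_finrank_le {Ω : Type*} [Field Ω] (k1 k2 : Subfield Ω) (h : k1 ≤ k2) (n : ℕ)
    (H : ∀ (m : ℕ) (f : Fin m → Ω), (∀ i, f i ∈ k2) → LinearIndependent k1 f → m ≤ n) :
    letI := (Subfield.inclusion h).toAlgebra
    Module.Finite k1 k2 ∧ Module.finrank k1 k2 ≤ n := by
  classical
  letI : Algebra k1 k2 := (Subfield.inclusion h).toAlgebra
  have hsm : ∀ (c : k1) (y : k2), ((c • y : k2) : Ω) = c • (y : Ω) := by
    intro c y
    rw [Algebra.smul_def, RingHom.algebraMap_toAlgebra, MulMemClass.coe_mul, Subfield.smul_def,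
      smul_eq_mul]
    rfl
  have key : ∀ (m : ℕ) (g : Fin m → k2), LinearIndependent k1 g → m ≤ n := by
    intro m g hg
    refine H m (fun i => (g i : Ω)) (fun i => (g i).2) ?_
    rw [Fintype.linearIndependent_iff] at hg ⊢
    intro c hc i
    refine hg c (Subtype.ext ?_) i
    rw [ZeroMemClass.coe_zero, ← hc, AddSubmonoidClass.coe_finset_sum]
    exact Finset.sum_congr rfl fun i _ => hsm (c i) (g i)
  have hrank : Module.rank k1 k2 ≤ (n : Cardinal) := by
    refine rank_le fun s hs => ?_
    have h1 := key s.card (fun i => ((s.equivFin.symm i : s) : k2))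
      (hs.comp _ s.equivFin.symm.injective)
    exact h1
  have hfin : Module.Finite k1 k2 :=
    Module.rank_lt_aleph0_iff.1 (lt_of_le_of_lt hrank (Cardinal.nat_lt_aleph0 n))
  exact ⟨hfin, Module.finrank_le_of_rank_le hrank⟩

/-- **`redField (2 N) A` is finite of degree at most `3` over `redField N A`** (`M = 2 * N`),
for the `Subfield.inclusion` algebra of ANY proof `hle` of the inclusion. -/
theorem finrank_redField_two (p : ℕ) {N M : ℕ} [NeZero N] (hM : M = 2 * N) (hp : p.Prime)
    (A : ValuationSubring Qb) (hA : A.LiesOverPrime p) (hle : redField N A ≤ redField M A) :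
    letI := (Subfield.inclusion hle).toAlgebra
    Module.Finite (redField N A) (redField M A) ∧
      Module.finrank (redField N A) (redField M A) ≤ 3 :=
  finite_and_finrank_le (redField N A) (redField M A) hle 3 (card_red_le_three p hM hp A hA)

/-- The inclusion `redField N A ≤ redField (2 * N) A`. -/
theorem redField_le_two (N : ℕ) [NeZero N] (A : ValuationSubring Qb) :
    redField N A ≤ redField (2 * N) A :=
  haveI : NeZero (2 * N) := ⟨Nat.mul_ne_zero two_ne_zero (NeZero.ne N)⟩
  redField_le (Dvd.intro_left 2 rfl) A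

/-! ### Separability -/

/-- A finite extension of degree `< p` in characteristic `p` is separable (level-free). -/
theorem isSeparable_of_finrank_lt {K L : Type*} [Field K] [Field L] [Algebra K L] (p : ℕ)
    [Fact p.Prime] [CharP K p] [FiniteDimensional K L] (h : Module.finrank K L < p) :
    Algebra.IsSeparable K L := by
  rw [Algebra.isSeparable_def]
  intro x
  have hint : IsIntegral K x := IsIntegral.of_finite K x
  have hirr : Irreducible (minpoly K x) := minpoly.irreducible hint
  rcases Polynomial.separable_or p hirr with hs | ⟨-, g, hg, hgx⟩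
  · exact hs
  · exfalso
    have h1 : (minpoly K x).natDegree = g.natDegree * p := by
      rw [← hgx, Polynomial.natDegree_expand]
    have h2 : 0 < g.natDegree := hg.natDegree_pos
    have h3 : (minpoly K x).natDegree ≤ Module.finrank K L := minpoly.natDegree_le x
    have h4 : p ≤ g.natDegree * p := Nat.le_mul_of_pos_left p h2
    omega

/-- The reduced field has characteristic `p`. -/
theorem charP_redField (p N : ℕ) (hp : p.Prime) (A : ValuationSubring Qb)
    (hA : A.LiesOverPrime p) : CharP (redField N A) p := by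
  haveI hκ : CharP (IsLocalRing.ResidueField A) p := Kappa.charP_residueField hp hA
  haveI hL : CharP (LaurentSeries (IsLocalRing.ResidueField A)) p :=
    charP_of_injective_ringHom
      (f := (HahnSeries.C : IsLocalRing.ResidueField A →+*
        LaurentSeries (IsLocalRing.ResidueField A)))
      HahnSeries.C_injective p
  exact (RingHom.charP_iff (redField N A).subtype Subtype.val_injective p).2 hL

/-- **`redField (2 N) A` is separable over `redField N A`** for `p ≥ 5` (degree `≤ 3 < p`). -/
theorem isSeparable_redField_two (p : ℕ) {N M : ℕ} [NeZero N] (hM : M = 2 * N) (hp : p.Prime)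
    (h5 : 5 ≤ p) (A : ValuationSubring Qb) (hA : A.LiesOverPrime p)
    (hle : redField N A ≤ redField M A) :
    letI := (Subfield.inclusion hle).toAlgebra
    Algebra.IsSeparable (redField N A) (redField M A) := by
  letI : Algebra (redField N A) (redField M A) := (Subfield.inclusion hle).toAlgebra
  haveI : Fact p.Prime := ⟨hp⟩
  haveI : CharP (redField N A) p := charP_redField p N hp A hA
  obtain ⟨hfin, hdeg⟩ := finrank_redField_two p hM hp A hA hle
  haveI : FiniteDimensional (redField N A) (redField M A) := hfin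
  exact isSeparable_of_finrank_lt p (lt_of_le_of_lt hdeg (by omega))

/-- **The degree of `redField (2 N) A` over `redField N A` is prime to `p`** (`p ≥ 5`). -/
theorem coprime_finrank_redField_two (p : ℕ) {N M : ℕ} [NeZero N] (hM : M = 2 * N)
    (hp : p.Prime) (h5 : 5 ≤ p) (A : ValuationSubring Qb) (hA : A.LiesOverPrime p)
    (hle : redField N A ≤ redField M A) :
    letI := (Subfield.inclusion hle).toAlgebra
    Nat.Coprime (Module.finrank (redField N A) (redField M A)) p := by
  letI : Algebra (redField N A) (redField M A) := (Subfield.inclusion hle).toAlgebra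
  obtain ⟨hfin, hdeg⟩ := finrank_redField_two p hM hp A hA hle
  haveI : FiniteDimensional (redField N A) (redField M A) := hfin
  have hpos : 0 < Module.finrank (redField N A) (redField M A) := Module.finrank_pos
  refine Nat.Coprime.symm ((Nat.Prime.coprime_iff_not_dvd hp).2 fun hdvd => ?_)
  have := Nat.le_of_dvd hpos hdvd
  omega

end Fermat.Agent.S44.L.DescDeg
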