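import Mathlib
import Fermat.Agent.S44.L.IotaCalc
import Fermat.Agent.S36.InvAux
import Fermat.Agent.S44.L.DescDeg

/-!
# PROGRAM MR (S44), strand L: push-down of Kummer classes from the auxiliary level (helper197)

The geometric arguments of (L.NZ) run at the auxiliary level `4 N' p`; `IsNewEmb.inj` lives at
level `N' p`.  This file brings the relation `IotaCalc.Sim` ("equal modulo constants and
`p`-th powers") back along the level inclusion `lvl : Fb N → Fb M`.

* `sim_one_of_pow` : Bezout: `x ^ d ~ 1` with `d` prime to `p` implies `x ~ 1`.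
* `sim_one_of_lvl` : `lvl x ~ 1` at level `M` implies `x ~ 1` at level `N` when `[Fb M : Fb N]`
  is prime to `p` (norm: `S36/InvAux.exists_pow_of_lvl`).
* `finrankAlong_lvl_mul_psi`, `coprime_finrankAlong_four` : `[Fb M : Fb N] ψ(N) = ψ(M)`, so
  for `M = 4 N` the degree is `6` or `4`, prime to `p ≥ 5`.
* `sim_of_lvl` : `lvl x ~ lvl y` at level `4 N` implies `x ~ y` at level `N`.
* `eq_zero_of_sim_one_lvl`, `not_sim_zpow_lvl` : the exits of (L.NZ) at the auxiliary level.
-/

set_option autoImplicit false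

open WeierstrassCurve WeierstrassCurve.Affine WeierstrassCurve.Affine.Point
open HahnSeries ModularCurve AlgebraicCurve

namespace Fermat.Agent.S44.L.SimLvl

open Fermat.Agent.S30 Fermat.Agent.S30.E4 Fermat.Agent.S30.Producer Fermat.Agent.S44.Contract
open Fermat.Agent.S44.L.Top Fermat.Agent.S44.L.IotaCalc
open Fermat.Agent.S37.LevelPull (lvl coe_lvl)

local notation "Qb" => AlgebraicClosure ℚ

/-- **Bezout.**  If `x ^ d` is a constant times a `p`-th power and `d` is prime to `p`, then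
`x` is a constant times a `p`-th power. -/
theorem sim_one_of_pow {k F : Type*} [Field k] [Field F] [Algebra k F] {p d : ℕ}
    (hd : Nat.Coprime d p) {x : F} (hx : x ≠ 0) (h : Sim k p (x ^ d) 1) : Sim k p x 1 := by
  have hcop : IsCoprime (d : ℤ) (p : ℤ) := Nat.isCoprime_iff_coprime.2 hd
  obtain ⟨a, b, hab⟩ := hcop
  have hmod : (1 : ℤ) ≡ a * d [ZMOD (p : ℤ)] := by
    rw [Int.modEq_iff_dvd]
    exact ⟨-b, by linarith⟩
  have h1 : Sim k p (x ^ (1 : ℤ)) (x ^ (a * (d : ℤ))) := sim_zpow_of_modEq hx hmod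
  have h2 : Sim k p (x ^ (a * (d : ℤ))) 1 := by
    have h3 := h.zpow a
    rw [one_zpow, ← zpow_natCast, ← zpow_mul, mul_comm] at h3
    exact h3
  rw [zpow_one] at h1
  exact h1.trans h2

section Lvl

variable {N M : ℕ} [NeZero N] [NeZero M]

/-- **Push-down of triviality.**  If `lvl x` is a constant times a `p`-th power at level `M`
and the degree of the level inclusion is prime to `p`, then `x` is a constant times a `p`-th
power at level `N`. -/
theorem sim_one_of_lvl (h : N ∣ M) {p : ℕ} (hp : p ≠ 0)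
    (hd : Nat.Coprime (finrankAlong Qb (lvl h)) p) {x : Fb N} (hx : x ≠ 0)
    (hs : Sim Qb p (lvl h x) 1) : Sim Qb p x 1 := by
  obtain ⟨c, g, -, -, hcg⟩ := hs
  rw [mul_one] at hcg
  obtain ⟨c', y', h'⟩ := Fermat.Agent.S36.InvAux.exists_pow_of_lvl h x c g hcg
  refine sim_one_of_pow hd hx (sim_of_eq_mul hp (pow_ne_zero _ hx) (c := c') (g := y') ?_)
  rw [mul_one]
  exact h'

/-- **`[Fb M : Fb N] · ψ(N) = ψ(M)`** for the level inclusion. -/
theorem finrankAlong_lvl_mul_psi (h : N ∣ M) :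
    finrankAlong Qb (lvl h) * dedekindPsi N = dedekindPsi M :=
  Fermat.Agent.S44.L.DescDeg.finrank_mul_psi h

/-- For `M = 4 N` the degree of the level inclusion is `6` or `4`, hence prime to `p ≥ 5`. -/
theorem coprime_finrankAlong_four (hM : M = 4 * N) (h : N ∣ M) {p : ℕ} (hp : p.Prime)
    (hp5 : 5 ≤ p) : Nat.Coprime (finrankAlong Qb (lvl h)) p := by
  have hN0 : N ≠ 0 := NeZero.ne N
  have hN2 : N * 2 ≠ 0 := Nat.mul_ne_zero hN0 two_ne_zero
  have hpsi : dedekindPsi N ≠ 0 := (Fermat.Agent.S44.L.DescDeg.dedekindPsi_pos N).ne'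
  have hdeg := finrankAlong_lvl_mul_psi h
  have hM' : M = N * 2 * 2 := by rw [hM]; ring
  have h22 : dedekindPsi (N * 2 * 2) = dedekindPsi (N * 2) * 2 :=
    Fermat.Agent.Lib.Gamma0Counts.dedekindPsi_mul_prime_of_dvd hN2 Nat.prime_two
      (Dvd.intro_left N rfl)
  have hval : finrankAlong Qb (lvl h) = 6 ∨ finrankAlong Qb (lvl h) = 4 := by
    rcases Classical.em (2 ∣ N) with h2 | h2
    · right
      have h1 := Fermat.Agent.Lib.Gamma0Counts.dedekindPsi_mul_prime_of_dvd hN0
        Nat.prime_two h2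
      have h3 : finrankAlong Qb (lvl h) * dedekindPsi N = 4 * dedekindPsi N := by
        rw [hdeg, hM', h22, h1]; ring
      exact Nat.eq_of_mul_eq_mul_right (Nat.pos_of_ne_zero hpsi) h3
    · left
      have h1 := Fermat.Agent.Lib.Gamma0Counts.dedekindPsi_mul_prime_of_not_dvd hN0
        Nat.prime_two h2
      have h3 : finrankAlong Qb (lvl h) * dedekindPsi N = 6 * dedekindPsi N := by
        rw [hdeg, hM', h22, h1]; ring
      exact Nat.eq_of_mul_eq_mul_right (Nat.pos_of_ne_zero hpsi) h3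
  refine Nat.Coprime.symm ((Nat.Prime.coprime_iff_not_dvd hp).2 fun hdvd => ?_)
  rcases hval with h6 | h4
  · rw [h6] at hdvd
    have hle := Nat.le_of_dvd (by norm_num) hdvd
    have h56 : p = 5 ∨ p = 6 := by omega
    rcases h56 with rfl | rfl
    · norm_num at hdvd
    · norm_num at hp
  · rw [h4] at hdvd
    have hle := Nat.le_of_dvd (by norm_num) hdvd
    omega

/-- **Push-down of `Sim` from level `4 N` to level `N`.** -/
theorem sim_of_lvl (hM : M = 4 * N) (h : N ∣ M) {p : ℕ} (hp : p.Prime) (hp5 : 5 ≤ p)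
    {x y : Fb N} (hx : x ≠ 0) (hy : y ≠ 0) (hs : Sim Qb p (lvl h x) (lvl h y)) :
    Sim Qb p x y := by
  have hly : lvl h y ≠ 0 := (map_ne_zero (lvl h)).2 hy
  have h1 : Sim Qb p (lvl h (x / y)) 1 := by
    have h2 := hs.div (Sim.refl (k := Qb) (p := p) (lvl h y))
    rwa [div_self hly, ← map_div₀] at h2
  have h3 : Sim Qb p (x / y) 1 :=
    sim_one_of_lvl h hp.ne_zero (coprime_finrankAlong_four hM h hp hp5) (div_ne_zero hx hy) h1
  have h4 := h3.mul (Sim.refl (k := Qb) (p := p) y)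
  rwa [div_mul_cancel₀ x hy, one_mul] at h4

end Lvl

/-! ### The exits of (L.NZ) at the auxiliary level -/

section Iota

variable {P : FreyPackage} {N' : ℕ} [NeZero N'] [NeZero P.p] {W : WeierstrassCurve ℤ}
  {ι : (P.freyCurve⁄Qb).Point → FN (N' * P.p)} {M : ℕ} [NeZero M]

/-- If `ι Q`, viewed at the auxiliary level `4 N' p`, is a constant times a `p`-th power, then
`Q = 0`. -/
theorem eq_zero_of_sim_one_lvl (hι : IsNewEmb P N' W ι) (hM : M = 4 * (N' * P.p))
    (h : N' * P.p ∣ M) {Q : (P.freyCurve⁄Qb).Point} (hQ : P.p • Q = 0)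
    (hs : Sim Qb P.p (lvl h (ι Q)) 1) : Q = 0 := by
  have h1 : Sim Qb P.p (lvl h (ι Q)) (lvl h 1) := by rwa [map_one]
  exact eq_zero_of_sim_one hι hQ
    (sim_of_lvl hM h P.pp P.hp5 (hι.ne_zero Q hQ) one_ne_zero h1)

/-- **The contradiction closing NZ, at the auxiliary level.**  `ι R`, viewed at level
`4 N' p`, is not a constant times a power of `ι T` times a `p`-th power. -/
theorem not_sim_zpow_lvl (hι : IsNewEmb P N' W ι) {A : ValuationSubring Qb}
    {T R : (P.freyCurve⁄Qb).Point} {ζ b : Qb} (hE : EShapeData P A T R ζ b)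
    (hM : M = 4 * (N' * P.p)) (h : N' * P.p ∣ M) (n : ℤ) :
    ¬ Sim Qb P.p (lvl h (ι R)) (lvl h (ι T) ^ n) := by
  intro hs
  have hT : P.p • T = 0 := hE.1
  have hR : P.p • R = 0 := hE.2.1
  have h1 : Sim Qb P.p (lvl h (ι R)) (lvl h (ι T ^ n)) := by rwa [map_zpow₀]
  exact not_sim_zpow hι hE n
    (sim_of_lvl hM h P.pp P.hp5 (hι.ne_zero R hR) (zpow_ne_zero n (hι.ne_zero T hT)) h1)

end Iota

end Fermat.Agent.S44.L.SimLvl
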