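import Mathlib

/-!
# S44 / strand L, row (L.R3): `p`-th-power depth and the ping-pong (level-free, Mathlib only)

Bookkeeping layer of the fierce-norm row (helper53).  The primitive layer (the norm along a
degeneracy map raises the depth at the fierce branch) is the binder `hfierce` below; it is
produced in the semi-local chart vocabulary by `S44/L/FierceNorm` (helper44).

Setting: `L` a field (the function field of level `N' p`), `E` a field of constants,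
`B ⊆ L` a chart ring, `ϖ : B` the uniformiser of the base, `P` a prime of `B` containing `ϖ`
(a component of the special fibre), `l = p`.

* `MemPow ϖ P d y` : "`y ∈ ϖ ^ d B_P`" (elementwise form, the `CongMod` / `OneMod` shape).
* `DepthGE E l ϖ P d f` : "`f = c * g ^ l * (1 + y)` with `c` a nonzero constant, `g ≠ 0` and
  `y ∈ ϖ ^ d B_P`" (the `l`-th-power depth of `f` at `P` is at least `d`).
* `depthGE_succ_of_norm` : **the step.**  If the norm of `f` to `L1` is a constant times an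
  `l`-th power and `N (1 + y) = (1 + y) (1 + y')` with `y' ∈ ϖ ^ (d + 1) B_{P₁}` whenever
  `y ∈ ϖ ^ d B_{P₂}` (`d ≥ 1`), then depth `≥ d` at `P₂` implies depth `≥ d + 1` at `P₁`.
* `depthGE_all_of_steps`, `depthGE_all` : **ping-pong.**  With the step for the two degeneracy
  maps (the branches exchanged) and depth `≥ 1` at one branch, the depth is `≥ d` at both
  branches for every `d`.
* `DepthC`, `depthC_succ_of_norm`, `depthC_all` : the same with the constant recorded: if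
  `[L : L1] = l + 1` the constant at the split branch is the constant of the norm, so after the
  ping-pong the two constants are those of `N_α f`, `N_β f`, the same for every `d`.
* `exists_common` : with the same constant at both branches and weak approximation, one
  representative `f = c * g ^ l * (1 + y)` with `y ∈ ϖ ^ d B_P` at both branches.
-/

set_option autoImplicit false

namespace Fermat.Agent.S44.L.Depth

section MemPow

variable {L B : Type*} [Field L] [CommRing B] [Algebra B L]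

/-- "`y ∈ ϖ ^ d B_P`" (elementwise form). -/
def MemPow (ϖ : B) (P : Ideal B) (d : ℕ) (y : L) : Prop :=
  ∃ t e : B, t ∉ P ∧ algebraMap B L t * y = algebraMap B L (ϖ ^ d * e)

theorem memPow_zero (ϖ : B) (P : Ideal B) [P.IsPrime] (d : ℕ) : MemPow ϖ P d (0 : L) :=
  ⟨1, 0, fun h => Ideal.IsPrime.ne_top inferInstance (P.eq_top_of_isUnit_mem h isUnit_one),
    by simp⟩

theorem memPow_algebraMap (ϖ : B) (P : Ideal B) [P.IsPrime] (d : ℕ) (e : B) :
    MemPow ϖ P d (algebraMap B L (ϖ ^ d * e)) :=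
  ⟨1, e, fun h => Ideal.IsPrime.ne_top inferInstance (P.eq_top_of_isUnit_mem h isUnit_one),
    by simp⟩

theorem MemPow.mono {ϖ : B} {P : Ideal B} {d d' : ℕ} (h : d' ≤ d) {y : L}
    (hy : MemPow ϖ P d y) : MemPow ϖ P d' y := by
  obtain ⟨t, e, ht, hte⟩ := hy
  refine ⟨t, ϖ ^ (d - d') * e, ht, ?_⟩
  rw [hte, ← mul_assoc, ← pow_add, Nat.add_sub_cancel' h]

theorem MemPow.add {ϖ : B} {P : Ideal B} [P.IsPrime] {d : ℕ} {y z : L}
    (hy : MemPow ϖ P d y) (hz : MemPow ϖ P d z) : MemPow ϖ P d (y + z) := by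
  obtain ⟨t, e, ht, hte⟩ := hy
  obtain ⟨t', e', ht', hte'⟩ := hz
  refine ⟨t * t', t' * e + t * e', fun h => ?_, ?_⟩
  · rcases Ideal.IsPrime.mem_or_mem inferInstance h with h | h
    · exact ht h
    · exact ht' h
  · simp only [map_mul, map_add, map_pow] at hte hte' ⊢
    linear_combination algebraMap B L t' * hte + algebraMap B L t * hte'

theorem MemPow.neg {ϖ : B} {P : Ideal B} {d : ℕ} {y : L} (hy : MemPow ϖ P d y) :
    MemPow ϖ P d (-y) := by
  obtain ⟨t, e, ht, hte⟩ := hy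
  refine ⟨t, -e, ht, ?_⟩
  simp only [map_mul, map_neg, map_pow] at hte ⊢
  linear_combination -hte

theorem MemPow.mul {ϖ : B} {P : Ideal B} [P.IsPrime] {d d' : ℕ} {y z : L}
    (hy : MemPow ϖ P d y) (hz : MemPow ϖ P d' z) : MemPow ϖ P (d + d') (y * z) := by
  obtain ⟨t, e, ht, hte⟩ := hy
  obtain ⟨t', e', ht', hte'⟩ := hz
  refine ⟨t * t', e * e', fun h => ?_, ?_⟩
  · rcases Ideal.IsPrime.mem_or_mem inferInstance h with h | h
    · exact ht h
    · exact ht' h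
  · simp only [map_mul, map_pow] at hte hte' ⊢
    rw [pow_add]
    linear_combination algebraMap B L t' * z * hte +
      algebraMap B L (ϖ) ^ d * algebraMap B L e * hte'

/-- `(1 + y) (1 + z) - 1 ∈ ϖ ^ d B_P`. -/
theorem MemPow.one_add_mul {ϖ : B} {P : Ideal B} [P.IsPrime] {d : ℕ} {y z : L}
    (hy : MemPow ϖ P d y) (hz : MemPow ϖ P d z) : MemPow ϖ P d ((1 + y) * (1 + z) - 1) := by
  have h1 : (1 + y) * (1 + z) - 1 = y + z + y * z := by ring
  rw [h1]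
  exact (hy.add hz).add ((hy.mul hz).mono (Nat.le_add_right d d))

/-- `(1 + y) ^ n - 1 ∈ ϖ ^ d B_P`. -/
theorem MemPow.one_add_pow {ϖ : B} {P : Ideal B} [P.IsPrime] {d : ℕ} {y : L}
    (hy : MemPow ϖ P d y) (n : ℕ) : MemPow ϖ P d ((1 + y) ^ n - 1) := by
  induction n with
  | zero => simpa using memPow_zero (L := L) ϖ P d
  | succ n ih =>
    have h1 : (1 + y) ^ (n + 1) - 1 = (1 + ((1 + y) ^ n - 1)) * (1 + y) - 1 := by ring
    rw [h1]
    exact ih.one_add_mul hy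

/-- A one-unit is nonzero. -/
theorem MemPow.one_add_ne_zero (hinj : Function.Injective (algebraMap B L)) {ϖ : B}
    {P : Ideal B} (hϖ : ϖ ∈ P) {d : ℕ} (hd : 1 ≤ d) {y : L} (hy : MemPow ϖ P d y) :
    1 + y ≠ 0 := by
  obtain ⟨t, e, ht, hte⟩ := hy
  intro h0
  have hy' : y = -1 := by linear_combination h0
  rw [hy', mul_neg, mul_one, ← map_neg] at hte
  have h2 : -t = ϖ ^ d * e := hinj hte
  apply ht
  have h3 : t = -(ϖ ^ d * e) := by rw [← h2, neg_neg]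
  rw [h3]
  exact P.neg_mem (P.mul_mem_right _ (P.pow_mem_of_mem hϖ d hd))

/-- The inverse of a one-unit is a one-unit of the same depth. -/
theorem MemPow.inv_one_add (hinj : Function.Injective (algebraMap B L)) {ϖ : B}
    {P : Ideal B} (hϖ : ϖ ∈ P) {d : ℕ} (hd : 1 ≤ d) {y : L} (hy : MemPow ϖ P d y) :
    MemPow ϖ P d ((1 + y)⁻¹ - 1) := by
  have hne : 1 + y ≠ 0 := hy.one_add_ne_zero hinj hϖ hd
  obtain ⟨t, e, ht, hte⟩ := hy
  refine ⟨t + ϖ ^ d * e, -e, fun h => ht ?_, ?_⟩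
  · have h1 : t = (t + ϖ ^ d * e) - ϖ ^ d * e := by ring
    rw [h1]
    exact P.sub_mem h (P.mul_mem_right _ (P.pow_mem_of_mem hϖ d hd))
  · have h2 : algebraMap B L (t + ϖ ^ d * e) = algebraMap B L t * (1 + y) := by
      rw [map_add, ← hte]; ring
    rw [h2]
    have h3 : algebraMap B L t * (1 + y) * ((1 + y)⁻¹ - 1) = -(algebraMap B L t * y) := by
      field_simp
      ring
    rw [h3, hte, mul_neg, map_neg]

end MemPow

section Depth

variable {E L B : Type*} [Field E] [Field L] [CommRing B] [Algebra E L] [Algebra B L]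

variable (E) in
/-- "`f = c * g ^ l * (1 + y)` with `c` a nonzero constant, `g ≠ 0`, `y ∈ ϖ ^ d B_P`":
the `l`-th-power depth of `f` at `P` is at least `d`. -/
def DepthGE (l : ℕ) (ϖ : B) (P : Ideal B) (d : ℕ) (f : L) : Prop :=
  ∃ (c : E) (g y : L), c ≠ 0 ∧ g ≠ 0 ∧ f = algebraMap E L c * g ^ l * (1 + y) ∧ MemPow ϖ P d y

theorem DepthGE.mono {l : ℕ} {ϖ : B} {P : Ideal B} {d d' : ℕ} (h : d' ≤ d) {f : L}
    (hf : DepthGE E l ϖ P d f) : DepthGE E l ϖ P d' f := by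
  obtain ⟨c, g, y, hc, hg, hfy, hy⟩ := hf
  exact ⟨c, g, y, hc, hg, hfy, hy.mono h⟩

/-- Depth `≥ 0` holds as soon as `f - 1 ∈ B_P` (e.g. `f` a unit of `B_P`). -/
theorem depthGE_zero_of_memPow {l : ℕ} {ϖ : B} {P : Ideal B} {f : L}
    (hf : MemPow ϖ P 0 (f - 1)) : DepthGE E l ϖ P 0 f :=
  ⟨1, 1, f - 1, one_ne_zero, one_ne_zero, by simp, hf⟩

/-- Changing `f` by a nonzero constant and an `l`-th power does not change the depth. -/
theorem DepthGE.const_mul_pow_mul {l : ℕ} {ϖ : B} {P : Ideal B} {d : ℕ} {f : L}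
    (hf : DepthGE E l ϖ P d f) {a : E} (ha : a ≠ 0) {h : L} (hh : h ≠ 0) :
    DepthGE E l ϖ P d (algebraMap E L a * h ^ l * f) := by
  obtain ⟨c, g, y, hc, hg, hfy, hy⟩ := hf
  refine ⟨a * c, h * g, y, mul_ne_zero ha hc, mul_ne_zero hh hg, ?_, hy⟩
  rw [hfy, map_mul, mul_pow]
  ring

/-- A nonzero constant times an `l`-th power has depth `≥ d` for every `d`. -/
theorem depthGE_const_mul_pow {l : ℕ} (ϖ : B) (P : Ideal B) [P.IsPrime] (d : ℕ) {a : E}
    (ha : a ≠ 0) {h : L} (hh : h ≠ 0) : DepthGE E l ϖ P d (algebraMap E L a * h ^ l) :=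
  ⟨a, h, 0, ha, hh, by simp, memPow_zero ϖ P d⟩

/-- Depth `≥ d` at `P` WITH THE CONSTANT `c`: `f = c * g ^ l * (1 + y)`, `g ≠ 0`,
`y ∈ ϖ ^ d B_P`. -/
def DepthC (l : ℕ) (ϖ : B) (P : Ideal B) (d : ℕ) (c : E) (f : L) : Prop :=
  ∃ g y : L, g ≠ 0 ∧ f = algebraMap E L c * g ^ l * (1 + y) ∧ MemPow ϖ P d y

theorem DepthC.mono {l : ℕ} {ϖ : B} {P : Ideal B} {d d' : ℕ} (h : d' ≤ d) {c : E} {f : L}
    (hf : DepthC l ϖ P d c f) : DepthC l ϖ P d' c f := by
  obtain ⟨g, y, hg, hfy, hy⟩ := hf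
  exact ⟨g, y, hg, hfy, hy.mono h⟩

theorem DepthC.depthGE {l : ℕ} {ϖ : B} {P : Ideal B} {d : ℕ} {c : E} (hc : c ≠ 0) {f : L}
    (hf : DepthC l ϖ P d c f) : DepthGE E l ϖ P d f := by
  obtain ⟨g, y, hg, hfy, hy⟩ := hf
  exact ⟨c, g, y, hc, hg, hfy, hy⟩

theorem depthGE_iff_exists_depthC {l : ℕ} {ϖ : B} {P : Ideal B} {d : ℕ} {f : L} :
    DepthGE E l ϖ P d f ↔ ∃ c : E, c ≠ 0 ∧ DepthC l ϖ P d c f :=
  ⟨fun ⟨c, g, y, hc, hg, hfy, hy⟩ => ⟨c, hc, g, y, hg, hfy, hy⟩,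
    fun ⟨_, hc, h⟩ => h.depthGE hc⟩

/-- The constant may be changed by an `l`-th power of a nonzero constant. -/
theorem DepthC.const_mul_pow {l : ℕ} {ϖ : B} {P : Ideal B} {d : ℕ} {c : E} {f : L}
    (hf : DepthC l ϖ P d c f) {a : E} (ha : a ≠ 0) : DepthC l ϖ P d (c * a ^ l) f := by
  obtain ⟨g, y, hg, hfy, hy⟩ := hf
  have ha' : algebraMap E L a ≠ 0 := (map_ne_zero _).2 ha
  refine ⟨g * (algebraMap E L a)⁻¹, y, mul_ne_zero hg (inv_ne_zero ha'), ?_, hy⟩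
  rw [hfy, map_mul, map_pow, mul_pow, inv_pow]
  have hal : algebraMap E L a ^ l ≠ 0 := pow_ne_zero l ha'
  field_simp

end Depth

section Step

variable {E L1 L B : Type*} [Field E] [Field L1] [Field L] [CommRing B] [Algebra E L1]
  [Algebra E L] [Algebra L1 L] [IsScalarTower E L1 L] [FiniteDimensional L1 L] [Algebra B L]

/-- **The step of (L.R3).**  `P₂` the fierce branch, `P₁` the other branch of a degeneracy map
`L1 → L`.  If the norm of `f` is a constant times an `l`-th power, and the norm of a one-unit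
`1 + y` of depth `d ≥ 1` at `P₂` is `(1 + y) (1 + y')` with `y' ∈ ϖ ^ (d + 1) B_{P₁}`
(`hfierce`, the fierce-norm lemma), then depth `≥ d` at `P₂` implies depth `≥ d + 1` at `P₁`. -/
theorem depthGE_succ_of_norm (hinj : Function.Injective (algebraMap B L)) {l : ℕ} (hl : l ≠ 0)
    (ϖ : B) (P₁ P₂ : Ideal B) (hϖ : ϖ ∈ P₁)
    (hfierce : ∀ d : ℕ, 1 ≤ d → ∀ y : L, MemPow ϖ P₂ d y →
      ∃ y' : L, MemPow ϖ P₁ (d + 1) y' ∧
        algebraMap L1 L (Algebra.norm L1 (1 + y)) = (1 + y) * (1 + y'))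
    (f : L) (hf : f ≠ 0)
    (hN : ∃ (c : E) (k : L1), Algebra.norm L1 f = algebraMap E L1 c * k ^ l)
    (d : ℕ) (hd : 1 ≤ d) (h : DepthGE E l ϖ P₂ d f) : DepthGE E l ϖ P₁ (d + 1) f := by
  obtain ⟨c, g, y, hc, hg, hfy, hy⟩ := h
  obtain ⟨c₁, k, hck⟩ := hN
  obtain ⟨y', hy', hnorm⟩ := hfierce d hd y hy
  set n := Module.finrank L1 L with hn
  -- the norm of `f`
  have hNf : Algebra.norm L1 f ≠ 0 := Algebra.norm_ne_zero_iff.2 hf
  have hNg : Algebra.norm L1 g ≠ 0 := Algebra.norm_ne_zero_iff.2 hg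
  have hc' : algebraMap E L1 c ≠ 0 := (map_ne_zero _).2 hc
  have hc₁ : c₁ ≠ 0 := by
    rintro rfl
    rw [map_zero, zero_mul] at hck
    exact hNf hck
  have hk : k ≠ 0 := by
    rintro rfl
    rw [zero_pow hl, mul_zero] at hck
    exact hNf hck
  have hNc : Algebra.norm L1 (algebraMap E L c) = algebraMap E L1 c ^ n := by
    rw [IsScalarTower.algebraMap_apply E L1 L, Algebra.norm_algebraMap]
  have hsplit : Algebra.norm L1 f =
      algebraMap E L1 c ^ n * Algebra.norm L1 g ^ l * Algebra.norm L1 (1 + y) := by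
    rw [hfy, map_mul, map_mul, map_pow, hNc]
  have hNy : Algebra.norm L1 (1 + y) =
      algebraMap E L1 (c₁ / c ^ n) * (k / Algebra.norm L1 g) ^ l := by
    rw [map_div₀, map_pow, div_pow]
    field_simp
    rw [← hck, hsplit]
    ring
  -- the inverse of `1 + y'`
  have hd1 : 1 ≤ d + 1 := Nat.le_add_left 1 d
  have hne' : 1 + y' ≠ 0 := hy'.one_add_ne_zero hinj hϖ hd1
  have hy'' : MemPow ϖ P₁ (d + 1) ((1 + y')⁻¹ - 1) := hy'.inv_one_add hinj hϖ hd1
  have hy1 : 1 + y = algebraMap L1 L (Algebra.norm L1 (1 + y)) * (1 + y')⁻¹ := by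
    rw [hnorm, mul_assoc, mul_inv_cancel₀ hne', mul_one]
  refine ⟨c * (c₁ / c ^ n), g * algebraMap L1 L (k / Algebra.norm L1 g), (1 + y')⁻¹ - 1,
    mul_ne_zero hc (div_ne_zero hc₁ (pow_ne_zero _ hc)),
    mul_ne_zero hg ((map_ne_zero _).2 (div_ne_zero hk hNg)), ?_, hy''⟩
  have h2 : (1 : L) + ((1 + y')⁻¹ - 1) = (1 + y')⁻¹ := by ring
  rw [h2, hfy, hy1, hNy, map_mul (algebraMap L1 L), map_pow (algebraMap L1 L),
    ← IsScalarTower.algebraMap_apply E L1 L, map_mul (algebraMap E L), mul_pow]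
  ring

/-- **The step of (L.R3), with the constant.**  If moreover `[L : L1] = l + 1`, the constant at
`P₁` is THE CONSTANT OF THE NORM: `N f = c₁ * k ^ l` and depth `≥ d` at `P₂` (any constant) give
`f = c₁ * g ^ l * (1 + y)` with `y ∈ ϖ ^ (d + 1) B_{P₁}`. -/
theorem depthC_succ_of_norm (hinj : Function.Injective (algebraMap B L)) {l : ℕ} (hl : l ≠ 0)
    (hn : Module.finrank L1 L = l + 1)
    (ϖ : B) (P₁ P₂ : Ideal B) (hϖ : ϖ ∈ P₁)
    (hfierce : ∀ d : ℕ, 1 ≤ d → ∀ y : L, MemPow ϖ P₂ d y →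
      ∃ y' : L, MemPow ϖ P₁ (d + 1) y' ∧
        algebraMap L1 L (Algebra.norm L1 (1 + y)) = (1 + y) * (1 + y'))
    (f : L) (hf : f ≠ 0) {c₁ : E} {k : L1}
    (hck : Algebra.norm L1 f = algebraMap E L1 c₁ * k ^ l)
    (d : ℕ) (hd : 1 ≤ d) (h : DepthGE E l ϖ P₂ d f) : DepthC l ϖ P₁ (d + 1) c₁ f := by
  obtain ⟨c, g, y, hc, hg, hfy, hy⟩ := h
  obtain ⟨y', hy', hnorm⟩ := hfierce d hd y hy
  have hNf : Algebra.norm L1 f ≠ 0 := Algebra.norm_ne_zero_iff.2 hf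
  have hNg : Algebra.norm L1 g ≠ 0 := Algebra.norm_ne_zero_iff.2 hg
  have hc' : algebraMap E L1 c ≠ 0 := (map_ne_zero _).2 hc
  have hcL : algebraMap E L c ≠ 0 := (map_ne_zero _).2 hc
  have hk : k ≠ 0 := by
    rintro rfl
    rw [zero_pow hl, mul_zero] at hck
    exact hNf hck
  have hNc : Algebra.norm L1 (algebraMap E L c) = algebraMap E L1 c ^ (l + 1) := by
    rw [IsScalarTower.algebraMap_apply E L1 L, Algebra.norm_algebraMap, hn]
  have hsplit : Algebra.norm L1 f =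
      algebraMap E L1 c ^ (l + 1) * Algebra.norm L1 g ^ l * Algebra.norm L1 (1 + y) := by
    rw [hfy, map_mul, map_mul, map_pow, hNc]
  have hNy : Algebra.norm L1 (1 + y) =
      algebraMap E L1 c₁ * (k / Algebra.norm L1 g) ^ l / algebraMap E L1 c ^ (l + 1) := by
    rw [div_pow]
    field_simp
    rw [← hck, hsplit]
    ring
  have hd1 : 1 ≤ d + 1 := Nat.le_add_left 1 d
  have hne' : 1 + y' ≠ 0 := hy'.one_add_ne_zero hinj hϖ hd1
  have hy'' : MemPow ϖ P₁ (d + 1) ((1 + y')⁻¹ - 1) := hy'.inv_one_add hinj hϖ hd1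
  have hy1 : 1 + y = algebraMap L1 L (Algebra.norm L1 (1 + y)) * (1 + y')⁻¹ := by
    rw [hnorm, mul_assoc, mul_inv_cancel₀ hne', mul_one]
  refine ⟨g * algebraMap L1 L (k / Algebra.norm L1 g) * (algebraMap E L c)⁻¹, (1 + y')⁻¹ - 1,
    mul_ne_zero (mul_ne_zero hg ((map_ne_zero _).2 (div_ne_zero hk hNg))) (inv_ne_zero hcL),
    ?_, hy''⟩
  have h2 : (1 : L) + ((1 + y')⁻¹ - 1) = (1 + y')⁻¹ := by ring
  rw [h2, hfy, hy1, hNy, map_div₀ (algebraMap L1 L), map_mul (algebraMap L1 L),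
    map_pow (algebraMap L1 L), map_pow (algebraMap L1 L),
    ← IsScalarTower.algebraMap_apply E L1 L, ← IsScalarTower.algebraMap_apply E L1 L,
    mul_pow, mul_pow, inv_pow]
  have hcl : algebraMap E L c ^ l ≠ 0 := pow_ne_zero l hcL
  field_simp
  ring

end Step

section PingPong

/-- **Ping-pong, instance-free form.**  `Dinf d`, `D0 d` antitone in `d`, the two steps and
depth `≥ 1` at one branch give depth `≥ d` at both branches for every `d`. -/
theorem all_of_steps (Dinf D0 : ℕ → Prop)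
    (hinf_mono : ∀ d, Dinf (d + 1) → Dinf d) (h0_mono : ∀ d, D0 (d + 1) → D0 d)
    (hα : ∀ d, 1 ≤ d → D0 d → Dinf (d + 1)) (hβ : ∀ d, 1 ≤ d → Dinf d → D0 (d + 1))
    (h1 : Dinf 1 ∨ D0 1) : ∀ d, Dinf d ∧ D0 d := by
  have key : ∀ d, 1 ≤ d → Dinf d ∨ D0 d := by
    intro d hd
    induction d, hd using Nat.le_induction with
    | base => exact h1
    | succ d hd ih =>
      rcases ih with h | h
      · exact Or.inr (hβ d hd h)
      · exact Or.inl (hα d hd h)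
  have both : ∀ d, 1 ≤ d → Dinf d ∧ D0 d := by
    intro d hd
    rcases key (d + 1) (Nat.le_add_left 1 d) with h | h
    · exact ⟨hinf_mono d h, h0_mono d (hβ d hd (hinf_mono d h))⟩
    · exact ⟨hinf_mono d (hα d hd (h0_mono d h)), h0_mono d h⟩
  intro d
  rcases Nat.eq_zero_or_pos d with rfl | hd
  · exact ⟨hinf_mono 0 (both 1 le_rfl).1, h0_mono 0 (both 1 le_rfl).2⟩
  · exact both d hd

variable {E L B : Type*} [Field E] [Field L] [CommRing B] [Algebra E L] [Algebra B L]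

/-- **Ping-pong for `DepthGE`, from the two step implications.** -/
theorem depthGE_all_of_steps {l : ℕ} (ϖ : B) (Pinf P0 : Ideal B) (f : L)
    (hα : ∀ d, 1 ≤ d → DepthGE E l ϖ P0 d f → DepthGE E l ϖ Pinf (d + 1) f)
    (hβ : ∀ d, 1 ≤ d → DepthGE E l ϖ Pinf d f → DepthGE E l ϖ P0 (d + 1) f)
    (h1 : DepthGE E l ϖ Pinf 1 f ∨ DepthGE E l ϖ P0 1 f) :
    ∀ d, DepthGE E l ϖ Pinf d f ∧ DepthGE E l ϖ P0 d f :=
  all_of_steps _ _ (fun d h => h.mono (Nat.le_succ d)) (fun d h => h.mono (Nat.le_succ d))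
    hα hβ h1

variable {Linf L0 : Type*} [Field Linf] [Field L0] [Algebra E Linf] [Algebra E L0]
  [Algebra Linf L] [Algebra L0 L] [IsScalarTower E Linf L] [IsScalarTower E L0 L]
  [FiniteDimensional Linf L] [FiniteDimensional L0 L]

/-- **Ping-pong (L.R3).**  `Linf → L` and `L0 → L` the two degeneracy maps; `P0` is the fierce
branch of the first and `Pinf` the fierce branch of the second.  If both norms of `f` are a
constant times an `l`-th power and `f` has depth `≥ 1` at one branch, then `f` has depth `≥ d`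
at both branches for every `d`. -/
theorem depthGE_all (hinj : Function.Injective (algebraMap B L)) {l : ℕ} (hl : l ≠ 0)
    (ϖ : B) (Pinf P0 : Ideal B) (hinf : ϖ ∈ Pinf) (h0 : ϖ ∈ P0)
    (hα : ∀ d : ℕ, 1 ≤ d → ∀ y : L, MemPow ϖ P0 d y →
      ∃ y' : L, MemPow ϖ Pinf (d + 1) y' ∧
        algebraMap Linf L (Algebra.norm Linf (1 + y)) = (1 + y) * (1 + y'))
    (hβ : ∀ d : ℕ, 1 ≤ d → ∀ y : L, MemPow ϖ Pinf d y →
      ∃ y' : L, MemPow ϖ P0 (d + 1) y' ∧
        algebraMap L0 L (Algebra.norm L0 (1 + y)) = (1 + y) * (1 + y'))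
    (f : L) (hf : f ≠ 0)
    (hNα : ∃ (c : E) (k : Linf), Algebra.norm Linf f = algebraMap E Linf c * k ^ l)
    (hNβ : ∃ (c : E) (k : L0), Algebra.norm L0 f = algebraMap E L0 c * k ^ l)
    (h1 : DepthGE E l ϖ Pinf 1 f ∨ DepthGE E l ϖ P0 1 f) :
    ∀ d, DepthGE E l ϖ Pinf d f ∧ DepthGE E l ϖ P0 d f :=
  depthGE_all_of_steps ϖ Pinf P0 f
    (fun d hd h => depthGE_succ_of_norm hinj hl ϖ Pinf P0 hinf hα f hf hNα d hd h)
    (fun d hd h => depthGE_succ_of_norm hinj hl ϖ P0 Pinf h0 hβ f hf hNβ d hd h) h1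

/-- **Ping-pong (L.R3), with the constants.**  As `depthGE_all`, with `[L : Linf] = l + 1 =
[L : L0]`: for every `d`, `f = cα * g ^ l * (1 + y)` with `y ∈ ϖ ^ d B_{Pinf}` and
`f = cβ * g' ^ l * (1 + y')` with `y' ∈ ϖ ^ d B_{P0}`, where `cα`, `cβ` are the constants of the
two norms `N_α f = cα * k ^ l`, `N_β f = cβ * k' ^ l` (the same for all `d`). -/
theorem depthC_all (hinj : Function.Injective (algebraMap B L)) {l : ℕ} (hl : l ≠ 0)
    (hnα : Module.finrank Linf L = l + 1) (hnβ : Module.finrank L0 L = l + 1)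
    (ϖ : B) (Pinf P0 : Ideal B) (hinf : ϖ ∈ Pinf) (h0 : ϖ ∈ P0)
    (hα : ∀ d : ℕ, 1 ≤ d → ∀ y : L, MemPow ϖ P0 d y →
      ∃ y' : L, MemPow ϖ Pinf (d + 1) y' ∧
        algebraMap Linf L (Algebra.norm Linf (1 + y)) = (1 + y) * (1 + y'))
    (hβ : ∀ d : ℕ, 1 ≤ d → ∀ y : L, MemPow ϖ Pinf d y →
      ∃ y' : L, MemPow ϖ P0 (d + 1) y' ∧
        algebraMap L0 L (Algebra.norm L0 (1 + y)) = (1 + y) * (1 + y'))
    (f : L) (hf : f ≠ 0) {cα cβ : E} {kα : Linf} {kβ : L0}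
    (hNα : Algebra.norm Linf f = algebraMap E Linf cα * kα ^ l)
    (hNβ : Algebra.norm L0 f = algebraMap E L0 cβ * kβ ^ l)
    (h1 : DepthGE E l ϖ Pinf 1 f ∨ DepthGE E l ϖ P0 1 f) :
    ∀ d, DepthC l ϖ Pinf d cα f ∧ DepthC l ϖ P0 d cβ f := by
  have hall := depthGE_all hinj hl ϖ Pinf P0 hinf h0 hα hβ f hf ⟨cα, kα, hNα⟩ ⟨cβ, kβ, hNβ⟩ h1
  intro d
  have h := hall (d + 1)
  exact ⟨(depthC_succ_of_norm hinj hl hnα ϖ Pinf P0 hinf hα f hf hNα (d + 1)
      (Nat.le_add_left 1 d) h.2).mono (Nat.le_add_right d 2),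
    (depthC_succ_of_norm hinj hl hnβ ϖ P0 Pinf h0 hβ f hf hNβ (d + 1)
      (Nat.le_add_left 1 d) h.1).mono (Nat.le_add_right d 2)⟩

end PingPong

section Merge

variable {E L B : Type*} [Field E] [Field L] [CommRing B] [Algebra E L] [Algebra B L]

/-- **One representative for both branches.**  If `f = c * g₁ ^ l * (1 + y₁)` with
`y₁ ∈ ϖ ^ d B_{Pinf}` and `f = c * g₂ ^ l * (1 + y₂)` with `y₂ ∈ ϖ ^ d B_{P0}` (the SAME
constant `c`), and `g` approximates `g₁` at `Pinf` and `g₂` at `P0` to the order `d ≥ 1`, then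
`f = c * g ^ l * (1 + y)` with `y ∈ ϖ ^ d B_{Pinf}` and `y ∈ ϖ ^ d B_{P0}`. -/
theorem exists_common (hinj : Function.Injective (algebraMap B L)) (l : ℕ) (ϖ : B)
    (Pinf P0 : Ideal B) [Pinf.IsPrime] [P0.IsPrime] (hinf : ϖ ∈ Pinf) (h0 : ϖ ∈ P0)
    {d : ℕ} (hd : 1 ≤ d)
    (happrox : ∀ a b : L, a ≠ 0 → b ≠ 0 →
      ∃ g : L, g ≠ 0 ∧ MemPow ϖ Pinf d (g / a - 1) ∧ MemPow ϖ P0 d (g / b - 1))
    {c : E} {f g₁ g₂ y₁ y₂ : L} (hg₁ : g₁ ≠ 0) (hg₂ : g₂ ≠ 0)
    (hf₁ : f = algebraMap E L c * g₁ ^ l * (1 + y₁)) (hy₁ : MemPow ϖ Pinf d y₁)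
    (hf₂ : f = algebraMap E L c * g₂ ^ l * (1 + y₂)) (hy₂ : MemPow ϖ P0 d y₂) :
    ∃ g y : L, g ≠ 0 ∧ f = algebraMap E L c * g ^ l * (1 + y) ∧
      MemPow ϖ Pinf d y ∧ MemPow ϖ P0 d y := by
  by_cases hc0 : algebraMap E L c = 0
  · -- then `f = 0` and `g = 1`, `y = 0` do
    refine ⟨1, 0, one_ne_zero, ?_, memPow_zero ϖ Pinf d, memPow_zero ϖ P0 d⟩
    rw [hf₁, hc0, zero_mul, zero_mul, zero_mul, zero_mul]
  obtain ⟨g, hg, ha, hb⟩ := happrox g₁ g₂ hg₁ hg₂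
  -- `g₁ / g = (1 + (g / g₁ - 1))⁻¹` is a one-unit at `Pinf`, `g₂ / g` at `P0`
  have key : ∀ (P : Ideal B) [P.IsPrime], ϖ ∈ P → ∀ g' y' : L, g' ≠ 0 →
      MemPow ϖ P d (g / g' - 1) → MemPow ϖ P d y' →
      MemPow ϖ P d ((g' / g) ^ l * (1 + y') - 1) := by
    intro P _ hϖ g' y' hg' hgg' hy'
    have h1 : MemPow ϖ P d ((1 + (g / g' - 1))⁻¹ - 1) := hgg'.inv_one_add hinj hϖ hd
    have h2 : (1 + (g / g' - 1))⁻¹ = g' / g := by
      rw [add_sub_cancel, inv_div]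
    have h3 : MemPow ϖ P d ((1 + ((1 + (g / g' - 1))⁻¹ - 1)) ^ l - 1) := h1.one_add_pow l
    have h4 : (g' / g) ^ l * (1 + y') - 1 =
        (1 + ((1 + ((1 + (g / g' - 1))⁻¹ - 1)) ^ l - 1)) * (1 + y') - 1 := by
      rw [add_sub_cancel, add_sub_cancel, h2]
    rw [h4]
    exact h3.one_add_mul hy'
  have hgl : g ^ l ≠ 0 := pow_ne_zero l hg
  have h5 : (g₁ / g) ^ l * (1 + y₁) = (g₂ / g) ^ l * (1 + y₂) := by
    have hc : algebraMap E L c * (g₁ ^ l * (1 + y₁)) = algebraMap E L c * (g₂ ^ l * (1 + y₂)) := by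
      rw [← mul_assoc, ← mul_assoc]
      exact hf₁.symm.trans hf₂
    have hc' := mul_left_cancel₀ hc0 hc
    rw [div_pow, div_pow, div_mul_eq_mul_div, div_mul_eq_mul_div, hc']
  refine ⟨g, (g₁ / g) ^ l * (1 + y₁) - 1, hg, ?_, key Pinf hinf g₁ y₁ hg₁ ha hy₁, ?_⟩
  · rw [hf₁, add_sub_cancel, div_pow]
    field_simp
  · rw [h5]
    exact key P0 h0 g₂ y₂ hg₂ hb hy₂

end Merge

end Fermat.Agent.S44.L.Depth
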