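/-
S44 / Program MR, strand L, row (L.R3), primitive layer (helper44): NORMS AND TRACES AT A
"FIERCE" PRIME, level-free, semi-local form (no completion).

Setting of `S36/NormStepOne` (`B1` a noetherian domain with fraction field `L1`, `L / L1` finite
separable, `B` a domain with fraction field `L`, `φ : B1 → B` integral; `p` a prime of `B1`
generated by `π` at its generic point; `P₁`, `P₂` the only primes of `B` over `p`), with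

* `P₁` the ISO branch: `e = f = 1` (`hloc`, `hf`);
* `P₂` the FIERCE branch: the residue extension is radicial of exponent `ℓ`, `ℓ` the residue
  characteristic (`hℓ : (ℓ : B1) ∈ p`, `hrad : ∀ c, ∃ s ∉ p, r, φ s * c ^ ℓ - φ r ∈ P₂`);
* `[L : L1] = ℓ + 1`.

(The modular instance: `B1`, `B` chart rings of `X₀(M')`, `X₀(ℓ M')` over a DVR of residue
characteristic `ℓ`, `φ` a degeneracy map, `p` the special fibre, `P₁`, `P₂` its two components.)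

Exits (section `Concrete`; "`y ∈ a ^ k B_P`" is `∃ t e, t ∉ P ∧ t * y = a ^ k * e`):

* `norm_congr` (FN1) : `x ≡ r₁` at `P₁`, `x ^ ℓ ≡ r₂` at `P₂`  ⟹  `N x ≡ r₁ * r₂` modulo `π` at `p`;
* `trace_mem` (FN2)  : `y ∈ π ^ (d+1) B_{P₁}`, `y ∈ π ^ d B_{P₂}`  ⟹  `Tr y ∈ π ^ (d+1) (B1)_p`;
* `norm_one_add` (FN3) : the same `y`, `1 ≤ d`  ⟹  `N (1 + y) ≡ 1` modulo `π ^ (d+1)` at `p`;
* `norm_split` : `x = ρ₁ (1 + y₁) = ρ₂ (1 + y₂)`, `y₁ ∈ π ^ (d+1) B_{P₁}`, `y₂ ∈ π ^ d B_{P₂}`,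
  `1 ≤ d`  ⟹  `N x = ρ₁ ρ₂ ^ ℓ (1 + w)`, `w ∈ π ^ (d+1) (B1)_p`;
* `norm_sub_self` : `h ≡ 1` modulo `π ^ d` at `P₂`, `1 ≤ d`, `h` ARBITRARY at `P₁`  ⟹
  `N h - h ∈ π ^ (d+1) B_{P₁} · h`;
* `norm_eq_mul_one_add` (FN3') : `y ∈ π ^ d B_{P₂}`, `1 ≤ d`  ⟹  `N (1 + y) = (1 + y) (1 + y')`
  with `y' ∈ π ^ (d+1) B_{P₁}`  ("the norm raises the depth at the fierce branch": the junction
  binder `hfierce` of `S44/L/Depth`).

Method (as in `S36/NormStepOne`): the norm / trace is the product / sum over the embeddings into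
an algebraically closed field `Ω`; fix a prime `𝔓` of the integral closure of `B1` in `Ω` over
`σ₀(P₁)`; `σ₀` is the only embedding with centre `P₁`; the `ℓ` embeddings with centre `P₂` agree
modulo `𝔓` (`hrad` and `(a - b) ^ ℓ ≡ a ^ ℓ - b ^ ℓ` modulo `ℓ`), so the sum of their values is
`ℓ * (...) ≡ 0` modulo `𝔓`; finally `L1 ∩ π ^ k 𝔓 = π ^ (k+1) (B1)_p` and
`σ₀⁻¹ (π ^ k 𝔓) = π ^ (k+1) B_{P₁}` (order function at the iso branch).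
-/
import Mathlib
import Fermat.Agent.S36.RootGlue
import Fermat.Agent.S36.NormStep
import Fermat.Agent.S36.NormStepOne

set_option autoImplicit false

namespace Fermat.Agent.S44.L.FierceNorm

open Fermat.Agent.S36.RootGlue Fermat.Agent.S36.NormStep Fermat.Agent.S36.NormStepOne Polynomial

/-! ### The order at a locally principal prime, all exponents -/

section VR

variable {B1 L1 : Type*} [CommRing B1] [IsDomain B1] [IsNoetherianRing B1] [Field L1]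
  [Algebra B1 L1] [IsFractionRing B1 L1]

/-- **`(B1)_p` is a discrete valuation ring with uniformiser `π`** (elementwise form, exponent
`k`): `z ∈ π ^ (k+1) (B1)_p` or `π ^ k / z ∈ (B1)_p`. -/
theorem exists_vr_pow (π : B1) (p : Ideal B1) [hp : p.IsPrime] (hπp : π ∈ p)
    (hprin : ∀ x ∈ p, ∃ s, s ∉ p ∧ s * x ∈ Ideal.span {π}) (k : ℕ) (z : L1) :
    (∃ s e : B1, s ∉ p ∧ algebraMap B1 L1 s * z = algebraMap B1 L1 (π ^ (k + 1) * e)) ∨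
      (∃ s m : B1, s ∉ p ∧ algebraMap B1 L1 (s * π ^ k) = z * algebraMap B1 L1 m) := by
  have hone : (1 : B1) ∉ p := fun h => hp.ne_top (p.eq_top_of_isUnit_mem h isUnit_one)
  have hinj := IsFractionRing.injective B1 L1
  obtain ⟨u, v, hv, hz⟩ := IsFractionRing.div_surjective (A := B1) z
  have hv0 : v ≠ 0 := nonZeroDivisors.ne_zero hv
  have hV : algebraMap B1 L1 v ≠ 0 := fun h => hv0 (hinj (by rw [h, map_zero]))
  have hzV : z * algebraMap B1 L1 v = algebraMap B1 L1 u := by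
    rw [← hz, div_mul_cancel₀ _ hV]
  by_cases hu : u = 0
  · left
    refine ⟨1, 0, hone, ?_⟩
    have hz0 : z = 0 := by
      rw [hu, map_zero] at hzV
      exact (mul_eq_zero.1 hzV).resolve_right hV
    rw [hz0, mul_zero, mul_zero, map_zero]
  obtain ⟨i, su, eu, hsu, heu, hu'⟩ := exists_pow_mul_eq π p hπp hprin u hu
  obtain ⟨j, sv, ev, hsv, hev, hv'⟩ := exists_pow_mul_eq π p hπp hprin v hv0
  have hU := congrArg (algebraMap B1 L1) hu'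
  have hV' := congrArg (algebraMap B1 L1) hv'
  simp only [map_mul, map_pow] at hU hV'
  have hSV : algebraMap B1 L1 sv ≠ 0 := fun h => hsv (by
    rw [hinj (by rw [h, map_zero] : algebraMap B1 L1 sv = algebraMap B1 L1 0)]; exact p.zero_mem)
  rcases Nat.lt_or_ge (j + k) i with hji | hij
  · -- `i = j + k + d + 1`
    obtain ⟨d, rfl⟩ := Nat.exists_eq_add_of_lt hji
    left
    refine ⟨su * ev, π ^ d * eu * sv, fun h => (hp.mem_or_mem h).elim hsu hev, ?_⟩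
    apply mul_right_cancel₀ (mul_ne_zero hV hSV)
    simp only [map_mul, map_pow]
    have e1 : algebraMap B1 L1 π ^ (j + k + d + 1) =
        algebraMap B1 L1 π ^ (k + 1) * algebraMap B1 L1 π ^ d * algebraMap B1 L1 π ^ j := by
      rw [← pow_add, ← pow_add]; congr 1; omega
    rw [e1] at hU
    linear_combination
      (algebraMap B1 L1 su * algebraMap B1 L1 ev * algebraMap B1 L1 sv) * hzV +
      (algebraMap B1 L1 ev * algebraMap B1 L1 sv) * hU -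
      (algebraMap B1 L1 π ^ (k + 1) * algebraMap B1 L1 π ^ d * algebraMap B1 L1 eu *
        algebraMap B1 L1 sv) * hV'
  · -- `j + k = i + d`
    obtain ⟨d, hd⟩ := Nat.exists_eq_add_of_le hij
    right
    refine ⟨eu * sv, π ^ d * su * ev, fun h => (hp.mem_or_mem h).elim heu hsv, ?_⟩
    apply mul_right_cancel₀ hV
    simp only [map_mul, map_pow]
    have e1 : algebraMap B1 L1 π ^ j * algebraMap B1 L1 π ^ k =
        algebraMap B1 L1 π ^ i * algebraMap B1 L1 π ^ d := by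
      rw [← pow_add, ← pow_add, hd]
    linear_combination
      (algebraMap B1 L1 eu) * hV' * algebraMap B1 L1 π ^ k -
      (algebraMap B1 L1 π ^ d * algebraMap B1 L1 su * algebraMap B1 L1 ev) * hzV -
      (algebraMap B1 L1 π ^ d * algebraMap B1 L1 ev) * hU +
      (algebraMap B1 L1 eu * algebraMap B1 L1 ev) * e1

end VR

/-! ### The valuation-ring dichotomy from an order function -/

section VRGen

/-- If every nonzero element of `R` is `a ^ k` times a unit at the prime `P`, then `R_P` is a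
valuation ring with uniformiser `a` (elementwise form): `z ∈ a ^ (k+1) R_P` or
`a ^ k / z ∈ R_P`. -/
theorem exists_vr_pow_gen {R K : Type*} [CommRing R] [Field K] [Algebra R K]
    (hinj : Function.Injective (algebraMap R K))
    (hgen : ∀ z : K, ∃ c d : R, algebraMap R K d ≠ 0 ∧ z * algebraMap R K d = algebraMap R K c)
    (a : R) (P : Ideal R) [hP : P.IsPrime]
    (hord : ∀ x : R, x ≠ 0 → ∃ (k : ℕ) (s e : R), s ∉ P ∧ e ∉ P ∧ s * x = a ^ k * e)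
    (k : ℕ) (z : K) :
    (∃ s e : R, s ∉ P ∧ algebraMap R K s * z = algebraMap R K (a ^ (k + 1) * e)) ∨
      (∃ s m : R, s ∉ P ∧ algebraMap R K (s * a ^ k) = z * algebraMap R K m) := by
  have hone : (1 : R) ∉ P := fun h => hP.ne_top (P.eq_top_of_isUnit_mem h isUnit_one)
  obtain ⟨u, v, hV, hzV⟩ := hgen z
  have hv0 : v ≠ 0 := fun h => hV (by rw [h, map_zero])
  by_cases hu : u = 0
  · left
    refine ⟨1, 0, hone, ?_⟩
    have hz0 : z = 0 := by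
      rw [hu, map_zero] at hzV
      exact (mul_eq_zero.1 hzV).resolve_right hV
    rw [hz0, mul_zero, mul_zero, map_zero]
  obtain ⟨i, su, eu, hsu, heu, hu'⟩ := hord u hu
  obtain ⟨j, sv, ev, hsv, hev, hv'⟩ := hord v hv0
  have hU := congrArg (algebraMap R K) hu'
  have hV' := congrArg (algebraMap R K) hv'
  simp only [map_mul, map_pow] at hU hV'
  have hSV : algebraMap R K sv ≠ 0 := fun h => hsv (by
    rw [hinj (by rw [h, map_zero] : algebraMap R K sv = algebraMap R K 0)]; exact P.zero_mem)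
  rcases Nat.lt_or_ge (j + k) i with hji | hij
  · obtain ⟨d, rfl⟩ := Nat.exists_eq_add_of_lt hji
    left
    refine ⟨su * ev, a ^ d * eu * sv, fun h => (hP.mem_or_mem h).elim hsu hev, ?_⟩
    apply mul_right_cancel₀ (mul_ne_zero hV hSV)
    simp only [map_mul, map_pow]
    have e1 : algebraMap R K a ^ (j + k + d + 1) =
        algebraMap R K a ^ (k + 1) * algebraMap R K a ^ d * algebraMap R K a ^ j := by
      rw [← pow_add, ← pow_add]; congr 1; omega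
    rw [e1] at hU
    linear_combination
      (algebraMap R K su * algebraMap R K ev * algebraMap R K sv) * hzV +
      (algebraMap R K ev * algebraMap R K sv) * hU -
      (algebraMap R K a ^ (k + 1) * algebraMap R K a ^ d * algebraMap R K eu *
        algebraMap R K sv) * hV'
  · obtain ⟨d, hd⟩ := Nat.exists_eq_add_of_le hij
    right
    refine ⟨eu * sv, a ^ d * su * ev, fun h => (hP.mem_or_mem h).elim heu hsv, ?_⟩
    apply mul_right_cancel₀ hV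
    simp only [map_mul, map_pow]
    have e1 : algebraMap R K a ^ j * algebraMap R K a ^ k =
        algebraMap R K a ^ i * algebraMap R K a ^ d := by
      rw [← pow_add, ← pow_add, hd]
    linear_combination
      (algebraMap R K eu) * hV' * algebraMap R K a ^ k -
      (algebraMap R K a ^ d * algebraMap R K su * algebraMap R K ev) * hzV -
      (algebraMap R K a ^ d * algebraMap R K ev) * hU +
      (algebraMap R K eu * algebraMap R K ev) * e1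

end VRGen

/-! ### Divisibility by powers of `π` at a prime of the integral closure in `Ω` -/

section Dv

variable {B1 Ω : Type*} [CommRing B1] [Field Ω] [Algebra B1 Ω]

/-- `z ∈ π ^ k · (integral closure of B1 in Ω)_𝔓`. -/
def Dv (𝔓 : Ideal (integralClosure B1 Ω)) (π : B1) (k : ℕ) (z : Ω) : Prop :=
  ∃ u w : integralClosure B1 Ω, u ∉ 𝔓 ∧ (u : Ω) * z = algebraMap B1 Ω π ^ k * (w : Ω)

/-- `z ∈ π ^ k · 𝔓 (integral closure of B1 in Ω)_𝔓`. -/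
def DvP (𝔓 : Ideal (integralClosure B1 Ω)) (π : B1) (k : ℕ) (z : Ω) : Prop :=
  ∃ u w : integralClosure B1 Ω, u ∉ 𝔓 ∧ w ∈ 𝔓 ∧ (u : Ω) * z = algebraMap B1 Ω π ^ k * (w : Ω)

variable {𝔓 : Ideal (integralClosure B1 Ω)} {π : B1}

theorem DvP.dv {k : ℕ} {z : Ω} (h : DvP 𝔓 π k z) : Dv 𝔓 π k z := by
  obtain ⟨u, w, hu, -, h⟩ := h
  exact ⟨u, w, hu, h⟩

theorem dv_zero [h𝔓 : 𝔓.IsPrime] (k : ℕ) : Dv 𝔓 π k (0 : Ω) :=
  ⟨1, 0, fun h => h𝔓.ne_top ((Ideal.eq_top_iff_one _).2 h), by simp⟩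

theorem dvP_zero [h𝔓 : 𝔓.IsPrime] (k : ℕ) : DvP 𝔓 π k (0 : Ω) :=
  ⟨1, 0, fun h => h𝔓.ne_top ((Ideal.eq_top_iff_one _).2 h), 𝔓.zero_mem, by simp⟩

theorem dv_coe [h𝔓 : 𝔓.IsPrime] (w : integralClosure B1 Ω) : Dv 𝔓 π 0 (w : Ω) :=
  ⟨1, w, fun h => h𝔓.ne_top ((Ideal.eq_top_iff_one _).2 h), by simp⟩

theorem dv_one [h𝔓 : 𝔓.IsPrime] : Dv 𝔓 π 0 (1 : Ω) := by
  have := dv_coe (𝔓 := 𝔓) (π := π) (1 : integralClosure B1 Ω)
  simpa using this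

theorem dv_algebraMap [h𝔓 : 𝔓.IsPrime] (b : B1) : Dv 𝔓 π 0 (algebraMap B1 Ω b) :=
  dv_coe (algebraMap B1 (integralClosure B1 Ω) b)

theorem Dv.add [h𝔓 : 𝔓.IsPrime] {k : ℕ} {z z' : Ω} (h : Dv 𝔓 π k z) (h' : Dv 𝔓 π k z') :
    Dv 𝔓 π k (z + z') := by
  obtain ⟨u, w, hu, h⟩ := h
  obtain ⟨u', w', hu', h'⟩ := h'
  refine ⟨u * u', u' * w + u * w', fun hm => (h𝔓.mem_or_mem hm).elim hu hu', ?_⟩
  push_cast
  linear_combination (u' : Ω) * h + (u : Ω) * h'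

theorem Dv.neg {k : ℕ} {z : Ω} (h : Dv 𝔓 π k z) : Dv 𝔓 π k (-z) := by
  obtain ⟨u, w, hu, h⟩ := h
  refine ⟨u, -w, hu, ?_⟩
  push_cast
  linear_combination (-1 : Ω) * h

theorem Dv.sub [h𝔓 : 𝔓.IsPrime] {k : ℕ} {z z' : Ω} (h : Dv 𝔓 π k z) (h' : Dv 𝔓 π k z') :
    Dv 𝔓 π k (z - z') := by
  rw [sub_eq_add_neg]
  exact h.add h'.neg

theorem Dv.mul [h𝔓 : 𝔓.IsPrime] {a b : ℕ} {z z' : Ω} (h : Dv 𝔓 π a z) (h' : Dv 𝔓 π b z') :
    Dv 𝔓 π (a + b) (z * z') := by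
  obtain ⟨u, w, hu, h⟩ := h
  obtain ⟨u', w', hu', h'⟩ := h'
  refine ⟨u * u', w * w', fun hm => (h𝔓.mem_or_mem hm).elim hu hu', ?_⟩
  push_cast
  rw [pow_add]
  linear_combination (u' : Ω) * z' * h + algebraMap B1 Ω π ^ a * (w : Ω) * h'

theorem Dv.mono {k k' : ℕ} (hk : k' ≤ k) {z : Ω} (h : Dv 𝔓 π k z) : Dv 𝔓 π k' z := by
  obtain ⟨u, w, hu, h⟩ := h
  obtain ⟨d, rfl⟩ := Nat.exists_eq_add_of_le hk
  refine ⟨u, algebraMap B1 (integralClosure B1 Ω) π ^ d * w, hu, ?_⟩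
  push_cast
  rw [h, pow_add]
  ring

theorem Dv.sum [h𝔓 : 𝔓.IsPrime] {ι : Type*} {k : ℕ} (s : Finset ι) (a : ι → Ω)
    (h : ∀ i ∈ s, Dv 𝔓 π k (a i)) : Dv 𝔓 π k (∑ i ∈ s, a i) := by
  classical
  induction s using Finset.induction_on with
  | empty => simpa using dv_zero (𝔓 := 𝔓) (π := π) k
  | insert j s hj ih =>
    rw [Finset.sum_insert hj]
    exact (h j (Finset.mem_insert_self j s)).add
      (ih (fun i hi => h i (Finset.mem_insert_of_mem hi)))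

theorem Dv.prod [h𝔓 : 𝔓.IsPrime] {ι : Type*} (s : Finset ι) (a : ι → Ω)
    (h : ∀ i ∈ s, Dv 𝔓 π 0 (a i)) : Dv 𝔓 π 0 (∏ i ∈ s, a i) := by
  classical
  induction s using Finset.induction_on with
  | empty => simpa using dv_one (𝔓 := 𝔓) (π := π)
  | insert j s hj ih =>
    rw [Finset.prod_insert hj]
    exact (h j (Finset.mem_insert_self j s)).mul
      (ih (fun i hi => h i (Finset.mem_insert_of_mem hi)))

theorem Dv.pow [h𝔓 : 𝔓.IsPrime] {z : Ω} (h : Dv 𝔓 π 0 z) (n : ℕ) : Dv 𝔓 π 0 (z ^ n) := by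
  induction n with
  | zero => simpa using dv_one (𝔓 := 𝔓) (π := π)
  | succ n ih => rw [pow_succ]; exact ih.mul h

theorem DvP.add [h𝔓 : 𝔓.IsPrime] {k : ℕ} {z z' : Ω} (h : DvP 𝔓 π k z) (h' : DvP 𝔓 π k z') :
    DvP 𝔓 π k (z + z') := by
  obtain ⟨u, w, hu, hw, h⟩ := h
  obtain ⟨u', w', hu', hw', h'⟩ := h'
  refine ⟨u * u', u' * w + u * w', fun hm => (h𝔓.mem_or_mem hm).elim hu hu',
    𝔓.add_mem (𝔓.mul_mem_left _ hw) (𝔓.mul_mem_left _ hw'), ?_⟩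
  push_cast
  linear_combination (u' : Ω) * h + (u : Ω) * h'

theorem DvP.neg {k : ℕ} {z : Ω} (h : DvP 𝔓 π k z) : DvP 𝔓 π k (-z) := by
  obtain ⟨u, w, hu, hw, h⟩ := h
  refine ⟨u, -w, hu, 𝔓.neg_mem hw, ?_⟩
  push_cast
  linear_combination (-1 : Ω) * h

theorem DvP.sub [h𝔓 : 𝔓.IsPrime] {k : ℕ} {z z' : Ω} (h : DvP 𝔓 π k z) (h' : DvP 𝔓 π k z') :
    DvP 𝔓 π k (z - z') := by
  rw [sub_eq_add_neg]
  exact h.add h'.neg

theorem DvP.sum [h𝔓 : 𝔓.IsPrime] {ι : Type*} {k : ℕ} (s : Finset ι) (a : ι → Ω)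
    (h : ∀ i ∈ s, DvP 𝔓 π k (a i)) : DvP 𝔓 π k (∑ i ∈ s, a i) := by
  classical
  induction s using Finset.induction_on with
  | empty => simpa using dvP_zero (𝔓 := 𝔓) (π := π) k
  | insert j s hj ih =>
    rw [Finset.sum_insert hj]
    exact (h j (Finset.mem_insert_self j s)).add
      (ih (fun i hi => h i (Finset.mem_insert_of_mem hi)))

theorem Dv.mul_dvP [h𝔓 : 𝔓.IsPrime] {a b : ℕ} {z z' : Ω} (h : Dv 𝔓 π a z)
    (h' : DvP 𝔓 π b z') : DvP 𝔓 π (a + b) (z * z') := by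
  obtain ⟨u, w, hu, h⟩ := h
  obtain ⟨u', w', hu', hw', h'⟩ := h'
  refine ⟨u * u', w * w', fun hm => (h𝔓.mem_or_mem hm).elim hu hu', 𝔓.mul_mem_left _ hw', ?_⟩
  push_cast
  rw [pow_add]
  linear_combination (u' : Ω) * z' * h + algebraMap B1 Ω π ^ a * (w : Ω) * h'

/-- `π ^ (k+1) (...)_𝔓 ⊆ π ^ k 𝔓 (...)_𝔓` when `π ∈ 𝔓`. -/
theorem Dv.dvP (hπ𝔓 : algebraMap B1 (integralClosure B1 Ω) π ∈ 𝔓) {k : ℕ} {z : Ω}
    (h : Dv 𝔓 π (k + 1) z) : DvP 𝔓 π k z := by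
  obtain ⟨u, w, hu, h⟩ := h
  refine ⟨u, algebraMap B1 (integralClosure B1 Ω) π * w, hu, 𝔓.mul_mem_right _ hπ𝔓, ?_⟩
  push_cast
  rw [h, pow_succ]
  ring

/-- The difference of two products of `𝔓`-integral elements which are termwise congruent
modulo `𝔓`. -/
theorem dvP_prod_sub [h𝔓 : 𝔓.IsPrime] {ι : Type*} (s : Finset ι) (a b : ι → Ω)
    (ha : ∀ i ∈ s, Dv 𝔓 π 0 (a i)) (hb : ∀ i ∈ s, Dv 𝔓 π 0 (b i))
    (hab : ∀ i ∈ s, DvP 𝔓 π 0 (a i - b i)) : DvP 𝔓 π 0 (∏ i ∈ s, a i - ∏ i ∈ s, b i) := by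
  classical
  induction s using Finset.induction_on with
  | empty => simpa using dvP_zero (𝔓 := 𝔓) (π := π) 0
  | insert j s hj ih =>
    rw [Finset.prod_insert hj, Finset.prod_insert hj]
    have h1 := ih (fun i hi => ha i (Finset.mem_insert_of_mem hi))
      (fun i hi => hb i (Finset.mem_insert_of_mem hi))
      (fun i hi => hab i (Finset.mem_insert_of_mem hi))
    have h2 : Dv 𝔓 π 0 (∏ i ∈ s, b i) :=
      Dv.prod s b (fun i hi => hb i (Finset.mem_insert_of_mem hi))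
    have h3 := (ha j (Finset.mem_insert_self j s)).mul_dvP h1
    have h4 := h2.mul_dvP (hab j (Finset.mem_insert_self j s))
    have e : a j * ∏ i ∈ s, a i - b j * ∏ i ∈ s, b i =
        a j * (∏ i ∈ s, a i - ∏ i ∈ s, b i) + (∏ i ∈ s, b i) * (a j - b j) := by ring
    rw [e]
    exact h3.add h4

/-- `∏ (1 + a i) = 1 + ∑ a i` modulo `π ^ (2 d)` when all `a i ∈ π ^ d`. -/
theorem dv_prod_one_add [h𝔓 : 𝔓.IsPrime] {ι : Type*} (d : ℕ) (s : Finset ι) (a : ι → Ω)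
    (ha : ∀ i ∈ s, Dv 𝔓 π d (a i)) :
    Dv 𝔓 π (d + d) (∏ i ∈ s, (1 + a i) - 1 - ∑ i ∈ s, a i) ∧
      Dv 𝔓 π d (∏ i ∈ s, (1 + a i) - 1) := by
  classical
  induction s using Finset.induction_on with
  | empty =>
    constructor
    · simpa using dv_zero (𝔓 := 𝔓) (π := π) (d + d)
    · simpa using dv_zero (𝔓 := 𝔓) (π := π) d
  | insert j s hj ih =>
    obtain ⟨h1, h2⟩ := ih (fun i hi => ha i (Finset.mem_insert_of_mem hi))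
    have haj := ha j (Finset.mem_insert_self j s)
    rw [Finset.prod_insert hj, Finset.sum_insert hj]
    constructor
    · have e : (1 + a j) * ∏ i ∈ s, (1 + a i) - 1 - (a j + ∑ i ∈ s, a i) =
          (∏ i ∈ s, (1 + a i) - 1 - ∑ i ∈ s, a i) + a j * (∏ i ∈ s, (1 + a i) - 1) := by ring
      rw [e]
      exact h1.add (haj.mul h2)
    · have e : (1 + a j) * ∏ i ∈ s, (1 + a i) - 1 =
          (∏ i ∈ s, (1 + a i) - 1) + a j + a j * (∏ i ∈ s, (1 + a i) - 1) := by ring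
      rw [e]
      exact (h2.add haj).add ((haj.mul h2).mono (Nat.le_add_right d d))

end Dv

/-! ### Embeddings -/

section Abstract

variable {B1 B L1 L Ω : Type*} [CommRing B1] [IsDomain B1] [CommRing B]
  [Field L1] [Field L] [Field Ω] [IsAlgClosed Ω] [Algebra B1 L1] [IsFractionRing B1 L1]
  [Algebra B L] [Algebra L1 L] [Algebra L1 Ω] [Algebra B1 Ω] [IsScalarTower B1 L1 Ω]
  [FiniteDimensional L1 L] [Algebra.IsSeparable L1 L]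
  (φ : B1 →+* B) (hφ : ∀ b, algebraMap L1 L (algebraMap B1 L1 b) = algebraMap B L (φ b))
  (hint : φ.IsIntegral)

omit [IsDomain B1] [IsAlgClosed Ω] [IsFractionRing B1 L1] [FiniteDimensional L1 L]
  [Algebra.IsSeparable L1 L] in
include hφ hint in
/-- The value of an embedding on an element of `π ^ k B_P`, `P` the centre of the embedding. -/
theorem dv_emb (π : B1) (𝔓 : Ideal (integralClosure B1 Ω)) (σ : L →ₐ[L1] Ω) (k : ℕ) (x : L)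
    (t e : B) (ht : embHom φ hφ hint σ t ∉ 𝔓)
    (h : algebraMap B L t * x = algebraMap B L (φ π ^ k * e)) : Dv 𝔓 π k (σ x) := by
  refine ⟨embHom φ hφ hint σ t, embHom φ hφ hint σ e, ht, ?_⟩
  have h1 := congrArg σ h
  rw [map_mul, map_mul, map_mul, map_pow, map_pow, emb_map φ hφ] at h1
  exact h1

omit [IsDomain B1] [IsAlgClosed Ω] [IsFractionRing B1 L1] [FiniteDimensional L1 L]
  [Algebra.IsSeparable L1 L] in
include hφ hint in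
/-- **Two embeddings with the same radicial centre agree modulo `𝔓`.** -/
theorem embHom_sub_mem (ℓ : ℕ) (hℓp : ℓ.Prime) (p : Ideal B1) (hℓ : (ℓ : B1) ∈ p)
    (P₂ : Ideal B) (𝔓 : Ideal (integralClosure B1 Ω)) (h𝔓 : 𝔓.IsPrime)
    (h𝔓c : 𝔓.comap (algebraMap B1 (integralClosure B1 Ω)) = p)
    (hrad : ∀ c : B, ∃ s r : B1, s ∉ p ∧ φ s * c ^ ℓ - φ r ∈ P₂)
    (σ σ' : L →ₐ[L1] Ω) (hσ : 𝔓.comap (embHom φ hφ hint σ) = P₂)
    (hσ' : 𝔓.comap (embHom φ hφ hint σ') = P₂) (c : B) :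
    embHom φ hφ hint σ c - embHom φ hφ hint σ' c ∈ 𝔓 := by
  obtain ⟨s, r, hs, hc⟩ := hrad c
  have h1 : embHom φ hφ hint σ (φ s * c ^ ℓ - φ r) ∈ 𝔓 := by
    rw [← hσ] at hc
    exact hc
  have h2 : embHom φ hφ hint σ' (φ s * c ^ ℓ - φ r) ∈ 𝔓 := by
    rw [← hσ'] at hc
    exact hc
  rw [map_sub, map_mul, map_pow, embHom_map, embHom_map] at h1 h2
  set a := embHom φ hφ hint σ c with ha
  set b := embHom φ hφ hint σ' c with hb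
  have h3 : algebraMap B1 (integralClosure B1 Ω) s * (a ^ ℓ - b ^ ℓ) ∈ 𝔓 := by
    have := 𝔓.sub_mem h1 h2
    have e : algebraMap B1 (integralClosure B1 Ω) s * (a ^ ℓ - b ^ ℓ) =
        algebraMap B1 (integralClosure B1 Ω) s * a ^ ℓ - algebraMap B1 (integralClosure B1 Ω) r -
          (algebraMap B1 (integralClosure B1 Ω) s * b ^ ℓ -
            algebraMap B1 (integralClosure B1 Ω) r) := by ring
    rw [e]
    exact this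
  have h4 : a ^ ℓ - b ^ ℓ ∈ 𝔓 :=
    (h𝔓.mem_or_mem h3).resolve_left (fun h => hs (h𝔓c ▸ Ideal.mem_comap.2 h))
  obtain ⟨ρ, hρ⟩ := exists_add_pow_prime_eq hℓp (a - b) b
  have hℓ𝔓 : ((ℓ : ℕ) : integralClosure B1 Ω) ∈ 𝔓 := by
    have h5 : algebraMap B1 (integralClosure B1 Ω) (ℓ : B1) ∈ 𝔓 := by
      rw [← Ideal.mem_comap, h𝔓c]
      exact hℓ
    rwa [map_natCast] at h5
  have h6 : (a - b) ^ ℓ ∈ 𝔓 := by
    have e : (a - b) ^ ℓ = (a ^ ℓ - b ^ ℓ) - (ℓ : integralClosure B1 Ω) * ((a - b) * b * ρ) := by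
      rw [sub_add_cancel] at hρ
      linear_combination (-1 : integralClosure B1 Ω) * hρ
    rw [e]
    exact 𝔓.sub_mem h4 (𝔓.mul_mem_right _ hℓ𝔓)
  exact h𝔓.mem_of_pow_mem _ h6

omit [IsDomain B1] [IsAlgClosed Ω] [IsFractionRing B1 L1] [FiniteDimensional L1 L]
  [Algebra.IsSeparable L1 L] in
include hφ hint in
/-- Two embeddings with the same radicial centre `P₂` agree modulo `π ^ d 𝔓` on `π ^ d B_{P₂}`. -/
theorem dvP_emb_sub (ℓ : ℕ) (hℓp : ℓ.Prime) (π : B1) (p : Ideal B1) (hℓ : (ℓ : B1) ∈ p)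
    (P₂ : Ideal B) (𝔓 : Ideal (integralClosure B1 Ω)) (h𝔓 : 𝔓.IsPrime)
    (h𝔓c : 𝔓.comap (algebraMap B1 (integralClosure B1 Ω)) = p)
    (hrad : ∀ c : B, ∃ s r : B1, s ∉ p ∧ φ s * c ^ ℓ - φ r ∈ P₂)
    (σ σ' : L →ₐ[L1] Ω) (hσ : 𝔓.comap (embHom φ hφ hint σ) = P₂)
    (hσ' : 𝔓.comap (embHom φ hφ hint σ') = P₂) (d : ℕ) (y : L) (t e : B) (ht : t ∉ P₂)
    (h : algebraMap B L t * y = algebraMap B L (φ π ^ d * e)) :
    DvP 𝔓 π d (σ y - σ' y) := by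
  have ht1 : embHom φ hφ hint σ t ∉ 𝔓 := fun hm => ht (hσ ▸ Ideal.mem_comap.2 hm)
  have ht2 : embHom φ hφ hint σ' t ∉ 𝔓 := fun hm => ht (hσ' ▸ Ideal.mem_comap.2 hm)
  have he := embHom_sub_mem φ hφ hint ℓ hℓp p hℓ P₂ 𝔓 h𝔓 h𝔓c hrad σ σ' hσ hσ' e
  have ht' := embHom_sub_mem φ hφ hint ℓ hℓp p hℓ P₂ 𝔓 h𝔓 h𝔓c hrad σ σ' hσ hσ' t
  have h1 := congrArg σ h
  have h2 := congrArg σ' h
  rw [map_mul, map_mul, map_mul, map_pow, map_pow, emb_map φ hφ] at h1 h2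
  refine ⟨embHom φ hφ hint σ t * embHom φ hφ hint σ' t,
    embHom φ hφ hint σ' t * (embHom φ hφ hint σ e - embHom φ hφ hint σ' e) -
      embHom φ hφ hint σ' e * (embHom φ hφ hint σ t - embHom φ hφ hint σ' t),
    fun hm => (h𝔓.mem_or_mem hm).elim ht1 ht2,
    𝔓.sub_mem (𝔓.mul_mem_left _ he) (𝔓.mul_mem_left _ ht'), ?_⟩
  push_cast
  simp only [coe_embHom]
  linear_combination (σ' (algebraMap B L t)) * h1 - (σ (algebraMap B L t)) * h2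

omit [IsAlgClosed Ω] [FiniteDimensional L1 L] [Algebra.IsSeparable L1 L] in
/-- **Descent**: an element of `L1` which lies in `π ^ k 𝔓 (...)_𝔓` lies in
`π ^ (k+1) (B1)_p`. -/
theorem dvP_descent [IsNoetherianRing B1] (π : B1) (hπ : π ≠ 0) (p : Ideal B1) [p.IsPrime]
    (hπp : π ∈ p) (hprin : ∀ x ∈ p, ∃ s, s ∉ p ∧ s * x ∈ Ideal.span {π})
    (𝔓 : Ideal (integralClosure B1 Ω)) (h𝔓 : 𝔓.IsPrime)
    (h𝔓c : 𝔓.comap (algebraMap B1 (integralClosure B1 Ω)) = p) (k : ℕ) (z : L1)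
    (hz : DvP 𝔓 π k (algebraMap L1 Ω z)) :
    ∃ s e : B1, s ∉ p ∧ algebraMap B1 L1 s * z = algebraMap B1 L1 (π ^ (k + 1) * e) := by
  rcases exists_vr_pow (L1 := L1) π p hπp hprin k z with h | ⟨s, m, hs, hsm⟩
  · exact h
  · exfalso
    obtain ⟨u, w, hu, hw, huw⟩ := hz
    have hπΩ : algebraMap B1 Ω π ≠ 0 := fun h =>
      hπ (injective_algebraMap_B1 (L1 := L1) (Ω := Ω) (by rw [h, map_zero]))
    have h7 : algebraMap B1 Ω s * algebraMap B1 Ω π ^ k =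
        algebraMap L1 Ω z * algebraMap B1 Ω m := by
      have h8 := congrArg (algebraMap L1 Ω) hsm
      simp only [map_mul, map_pow, ← IsScalarTower.algebraMap_apply B1 L1 Ω] at h8
      exact h8
    have h9 : (u : Ω) * algebraMap B1 Ω s = (w : Ω) * algebraMap B1 Ω m := by
      apply mul_left_cancel₀ (pow_ne_zero k hπΩ)
      linear_combination (u : Ω) * h7 + algebraMap B1 Ω m * huw
    have h10 : u * algebraMap B1 (integralClosure B1 Ω) s =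
        w * algebraMap B1 (integralClosure B1 Ω) m := by
      apply Subtype.ext
      rw [Subalgebra.coe_mul, Subalgebra.coe_mul]
      exact h9
    have h11 : u * algebraMap B1 (integralClosure B1 Ω) s ∈ 𝔓 := by
      rw [h10]
      exact 𝔓.mul_mem_right _ hw
    rcases h𝔓.mem_or_mem h11 with h12 | h12
    · exact hu h12
    · exact hs (by rw [← h𝔓c]; exact Ideal.mem_comap.2 h12)

include hφ hint Ω in
/-- **The embedding data**: an embedding `σ₀` and a prime `𝔓` of the integral closure over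
`σ₀(P₁)`; `σ₀` is the only embedding with centre `P₁`, all the others have centre `P₂`. -/
theorem exists_setup [IsNoetherianRing B1] (hinjB : Function.Injective (algebraMap B L))
    (hgen : ∀ ℓ : L, ∃ c d : B, algebraMap B L d ≠ 0 ∧ ℓ * algebraMap B L d = algebraMap B L c)
    (π : B1) (hπ : π ≠ 0) (p : Ideal B1) [p.IsPrime] (hπp : π ∈ p)
    (hprin : ∀ x ∈ p, ∃ s, s ∉ p ∧ s * x ∈ Ideal.span {π})
    (P₁ P₂ : Ideal B) [P₁.IsPrime] (hP₁ : P₁.comap φ = p)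
    (hall : ∀ Q : Ideal B, Q.IsPrime → Q.comap φ = p → Q = P₁ ∨ Q = P₂)
    (hloc : ∀ c ∈ P₁, ∃ t : B, t ∉ P₁ ∧ φ π ∣ t * c)
    (hf : ∀ c : B, ∃ s r : B1, s ∉ p ∧ φ s * c - φ r ∈ P₁) :
    ∃ (σ₀ : L →ₐ[L1] Ω) (𝔓 : Ideal (integralClosure B1 Ω)), 𝔓.IsPrime ∧
      𝔓.comap (algebraMap B1 (integralClosure B1 Ω)) = p ∧
      𝔓.comap (embHom φ hφ hint σ₀) = P₁ ∧
      ∀ σ : L →ₐ[L1] Ω, σ ≠ σ₀ → 𝔓.comap (embHom φ hφ hint σ) = P₂ := by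
  classical
  have hcard : Fintype.card (L →ₐ[L1] Ω) = Module.finrank L1 L := AlgHom.card L1 L Ω
  have hne : Nonempty (L →ₐ[L1] Ω) := by
    have hpos : 0 < Module.finrank L1 L := Module.finrank_pos
    rw [← hcard] at hpos
    exact Fintype.card_pos_iff.1 hpos
  obtain ⟨σ₀⟩ := hne
  obtain ⟨𝔓, h𝔓, h𝔓P⟩ : ∃ 𝔓 : Ideal (integralClosure B1 Ω), 𝔓.IsPrime ∧
      𝔓.comap (embHom φ hφ hint σ₀) = P₁ := by
    let _ : Algebra B (integralClosure B1 Ω) := (embHom φ hφ hint σ₀).toAlgebra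
    have hint' : Algebra.IsIntegral B (integralClosure B1 Ω) := by
      refine ⟨fun z => ?_⟩
      obtain ⟨g, hgm, hgz⟩ := Algebra.IsIntegral.isIntegral (R := B1) z
      refine ⟨g.map φ, hgm.map φ, ?_⟩
      rw [Polynomial.eval₂_map]
      have hcomp : (algebraMap B (integralClosure B1 Ω)).comp φ =
          algebraMap B1 (integralClosure B1 Ω) := by
        ext b
        exact congrArg Subtype.val (embHom_map φ hφ hint σ₀ b)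
      rw [hcomp]
      exact hgz
    have hker : (⊥ : Ideal (integralClosure B1 Ω)).comap
        (algebraMap B (integralClosure B1 Ω)) ≤ P₁ := by
      intro c hc
      rw [Ideal.mem_comap, Ideal.mem_bot] at hc
      have h1 : σ₀ (algebraMap B L c) = 0 := congrArg Subtype.val hc
      have h2 : algebraMap B L c = 0 := (map_eq_zero σ₀).1 h1
      have h3 : c = 0 := hinjB (by rw [h2, map_zero])
      rw [h3]
      exact P₁.zero_mem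
    obtain ⟨𝔓, -, h𝔓, h𝔓P⟩ := Ideal.exists_ideal_over_prime_of_isIntegral P₁
      (⊥ : Ideal (integralClosure B1 Ω)) hker
    exact ⟨𝔓, h𝔓, h𝔓P⟩
  have h𝔓c : 𝔓.comap (algebraMap B1 (integralClosure B1 Ω)) = p := by
    rw [← comap_embHom φ hφ hint σ₀, h𝔓P, hP₁]
  refine ⟨σ₀, 𝔓, h𝔓, h𝔓c, h𝔓P, ?_⟩
  intro σ hσ
  exact (hall _ (Ideal.comap_isPrime _ 𝔓) (by rw [comap_embHom, h𝔓c])).resolve_left
    (fun h => hσ (emb_eq_of_comap_eq φ hφ hint hgen π hπ p hπp hprin P₁ 𝔓 h𝔓 h𝔓c hloc hf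
      σ σ₀ h h𝔓P))

omit [IsDomain B1] [IsFractionRing B1 L1] in
include hφ hint in
/-- **The sum of the conjugates** of `y ∈ π ^ (d+1) B_{P₁} ∩ π ^ d B_{P₂}` lies in `π ^ d 𝔓`. -/
theorem dvP_sum_emb (π : B1) (p : Ideal B1) (P₁ P₂ : Ideal B)
    (ℓ : ℕ) (hℓp : ℓ.Prime) (hℓ : (ℓ : B1) ∈ p) (hn : Module.finrank L1 L = ℓ + 1)
    (hrad : ∀ c : B, ∃ s r : B1, s ∉ p ∧ φ s * c ^ ℓ - φ r ∈ P₂)
    (σ₀ : L →ₐ[L1] Ω) (𝔓 : Ideal (integralClosure B1 Ω)) (h𝔓 : 𝔓.IsPrime)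
    (h𝔓c : 𝔓.comap (algebraMap B1 (integralClosure B1 Ω)) = p) (hπp : π ∈ p)
    (h𝔓P : 𝔓.comap (embHom φ hφ hint σ₀) = P₁)
    (hoth : ∀ σ : L →ₐ[L1] Ω, σ ≠ σ₀ → 𝔓.comap (embHom φ hφ hint σ) = P₂)
    (d : ℕ) (y : L) (t₁ e₁ t₂ e₂ : B) (ht₁ : t₁ ∉ P₁) (ht₂ : t₂ ∉ P₂)
    (h₁ : algebraMap B L t₁ * y = algebraMap B L (φ π ^ (d + 1) * e₁))
    (h₂ : algebraMap B L t₂ * y = algebraMap B L (φ π ^ d * e₂)) :
    DvP 𝔓 π d (∑ σ : L →ₐ[L1] Ω, σ y) := by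
  classical
  have hπ𝔓 : algebraMap B1 (integralClosure B1 Ω) π ∈ 𝔓 := by
    rw [← Ideal.mem_comap, h𝔓c]; exact hπp
  have hcard : Fintype.card (L →ₐ[L1] Ω) = Module.finrank L1 L := AlgHom.card L1 L Ω
  rw [← Finset.add_sum_erase Finset.univ _ (Finset.mem_univ σ₀)]
  have h0 : DvP 𝔓 π d (σ₀ y) :=
    (dv_emb φ hφ hint π 𝔓 σ₀ (d + 1) y t₁ e₁
      (fun hm => ht₁ (h𝔓P ▸ Ideal.mem_comap.2 hm)) h₁).dvP hπ𝔓
  refine h0.add ?_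
  set s : Finset (L →ₐ[L1] Ω) := Finset.univ.erase σ₀ with hs
  have hcs : s.card = ℓ := by
    rw [hs, Finset.card_erase_of_mem (Finset.mem_univ σ₀), Finset.card_univ, hcard, hn]
    rfl
  have hsne : s.Nonempty := by
    rw [← Finset.card_pos, hcs]
    exact hℓp.pos
  obtain ⟨σ₂, hσ₂⟩ := hsne
  have hc₂ : 𝔓.comap (embHom φ hφ hint σ₂) = P₂ := hoth σ₂ (Finset.ne_of_mem_erase hσ₂)
  have e : ∑ σ ∈ s, σ y = ∑ σ ∈ s, (σ y - σ₂ y) + (ℓ : Ω) * σ₂ y := by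
    rw [Finset.sum_sub_distrib, Finset.sum_const, hcs, nsmul_eq_mul]
    ring
  rw [e]
  refine (DvP.sum s _ (fun σ hσ => ?_)).add ?_
  · exact dvP_emb_sub φ hφ hint ℓ hℓp π p hℓ P₂ 𝔓 h𝔓 h𝔓c hrad σ σ₂
      (hoth σ (Finset.ne_of_mem_erase hσ)) hc₂ d y t₂ e₂ ht₂ h₂
  · have hℓ𝔓 : ((ℓ : ℕ) : integralClosure B1 Ω) ∈ 𝔓 := by
      have h5 : algebraMap B1 (integralClosure B1 Ω) (ℓ : B1) ∈ 𝔓 := by
        rw [← Ideal.mem_comap, h𝔓c]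
        exact hℓ
      rwa [map_natCast] at h5
    have h2 := congrArg σ₂ h₂
    rw [map_mul, map_mul, map_mul, map_pow, map_pow, emb_map φ hφ] at h2
    refine ⟨embHom φ hφ hint σ₂ t₂, (ℓ : integralClosure B1 Ω) * embHom φ hφ hint σ₂ e₂,
      fun hm => ht₂ (hc₂ ▸ Ideal.mem_comap.2 hm), 𝔓.mul_mem_right _ hℓ𝔓, ?_⟩
    push_cast
    simp only [coe_embHom]
    linear_combination (ℓ : Ω) * h2

include hφ hint Ω in
/-- **The trace at a fierce prime** (abstract form). -/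
theorem trace_aux [IsNoetherianRing B1] (hinjB : Function.Injective (algebraMap B L))
    (hgen : ∀ ℓ : L, ∃ c d : B, algebraMap B L d ≠ 0 ∧ ℓ * algebraMap B L d = algebraMap B L c)
    (π : B1) (hπ : π ≠ 0) (p : Ideal B1) [p.IsPrime] (hπp : π ∈ p)
    (hprin : ∀ x ∈ p, ∃ s, s ∉ p ∧ s * x ∈ Ideal.span {π})
    (P₁ P₂ : Ideal B) [P₁.IsPrime] (hP₁ : P₁.comap φ = p)
    (hall : ∀ Q : Ideal B, Q.IsPrime → Q.comap φ = p → Q = P₁ ∨ Q = P₂)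
    (hloc : ∀ c ∈ P₁, ∃ t : B, t ∉ P₁ ∧ φ π ∣ t * c)
    (hf : ∀ c : B, ∃ s r : B1, s ∉ p ∧ φ s * c - φ r ∈ P₁)
    (ℓ : ℕ) (hℓp : ℓ.Prime) (hℓ : (ℓ : B1) ∈ p) (hn : Module.finrank L1 L = ℓ + 1)
    (hrad : ∀ c : B, ∃ s r : B1, s ∉ p ∧ φ s * c ^ ℓ - φ r ∈ P₂)
    (d : ℕ) (y : L) (t₁ e₁ t₂ e₂ : B) (ht₁ : t₁ ∉ P₁) (ht₂ : t₂ ∉ P₂)
    (h₁ : algebraMap B L t₁ * y = algebraMap B L (φ π ^ (d + 1) * e₁))
    (h₂ : algebraMap B L t₂ * y = algebraMap B L (φ π ^ d * e₂)) :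
    ∃ s e : B1, s ∉ p ∧
      algebraMap B1 L1 s * Algebra.trace L1 L y = algebraMap B1 L1 (π ^ (d + 1) * e) := by
  obtain ⟨σ₀, 𝔓, h𝔓, h𝔓c, h𝔓P, hoth⟩ := exists_setup (Ω := Ω) φ hφ hint hinjB hgen π hπ p hπp
    hprin P₁ P₂ hP₁ hall hloc hf
  apply dvP_descent (Ω := Ω) π hπ p hπp hprin 𝔓 h𝔓 h𝔓c d
  rw [trace_eq_sum_embeddings Ω]
  exact dvP_sum_emb φ hφ hint π p P₁ P₂ ℓ hℓp hℓ hn hrad σ₀ 𝔓 h𝔓 h𝔓c hπp h𝔓P hoth d y
    t₁ e₁ t₂ e₂ ht₁ ht₂ h₁ h₂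

include hφ hint Ω in
/-- **The norm raises the depth at a fierce prime** (abstract form). -/
theorem norm_one_add_aux [IsNoetherianRing B1] (hinjB : Function.Injective (algebraMap B L))
    (hgen : ∀ ℓ : L, ∃ c d : B, algebraMap B L d ≠ 0 ∧ ℓ * algebraMap B L d = algebraMap B L c)
    (π : B1) (hπ : π ≠ 0) (p : Ideal B1) [p.IsPrime] (hπp : π ∈ p)
    (hprin : ∀ x ∈ p, ∃ s, s ∉ p ∧ s * x ∈ Ideal.span {π})
    (P₁ P₂ : Ideal B) [P₁.IsPrime] (hP₁ : P₁.comap φ = p)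
    (hall : ∀ Q : Ideal B, Q.IsPrime → Q.comap φ = p → Q = P₁ ∨ Q = P₂)
    (hloc : ∀ c ∈ P₁, ∃ t : B, t ∉ P₁ ∧ φ π ∣ t * c)
    (hf : ∀ c : B, ∃ s r : B1, s ∉ p ∧ φ s * c - φ r ∈ P₁)
    (ℓ : ℕ) (hℓp : ℓ.Prime) (hℓ : (ℓ : B1) ∈ p) (hn : Module.finrank L1 L = ℓ + 1)
    (hrad : ∀ c : B, ∃ s r : B1, s ∉ p ∧ φ s * c ^ ℓ - φ r ∈ P₂)
    (d : ℕ) (hd : 1 ≤ d) (y : L) (t₁ e₁ t₂ e₂ : B) (ht₁ : t₁ ∉ P₁) (ht₂ : t₂ ∉ P₂)
    (h₁ : algebraMap B L t₁ * y = algebraMap B L (φ π ^ (d + 1) * e₁))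
    (h₂ : algebraMap B L t₂ * y = algebraMap B L (φ π ^ d * e₂)) :
    ∃ s e : B1, s ∉ p ∧
      algebraMap B1 L1 s * (Algebra.norm L1 (1 + y) - 1) = algebraMap B1 L1 (π ^ (d + 1) * e) := by
  classical
  obtain ⟨σ₀, 𝔓, h𝔓, h𝔓c, h𝔓P, hoth⟩ := exists_setup (Ω := Ω) φ hφ hint hinjB hgen π hπ p hπp
    hprin P₁ P₂ hP₁ hall hloc hf
  have hπ𝔓 : algebraMap B1 (integralClosure B1 Ω) π ∈ 𝔓 := by
    rw [← Ideal.mem_comap, h𝔓c]; exact hπp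
  apply dvP_descent (Ω := Ω) π hπ p hπp hprin 𝔓 h𝔓 h𝔓c d
  have hnorm : algebraMap L1 Ω (Algebra.norm L1 (1 + y)) = ∏ σ : L →ₐ[L1] Ω, (1 + σ y) := by
    rw [Algebra.norm_eq_prod_embeddings L1 Ω]
    exact Finset.prod_congr rfl (fun σ _ => by rw [map_add, map_one])
  have hdv : ∀ σ : L →ₐ[L1] Ω, Dv 𝔓 π d (σ y) := by
    intro σ
    by_cases hσ : σ = σ₀
    · subst hσ
      exact (dv_emb φ hφ hint π 𝔓 σ (d + 1) y t₁ e₁
        (fun hm => ht₁ (h𝔓P ▸ Ideal.mem_comap.2 hm)) h₁).mono (Nat.le_succ d)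
    · exact dv_emb φ hφ hint π 𝔓 σ d y t₂ e₂
        (fun hm => ht₂ (hoth σ hσ ▸ Ideal.mem_comap.2 hm)) h₂
  obtain ⟨hA, -⟩ := dv_prod_one_add (𝔓 := 𝔓) (π := π) d Finset.univ
    (fun σ : L →ₐ[L1] Ω => σ y) (fun σ _ => hdv σ)
  have hA' : DvP 𝔓 π d (∏ σ : L →ₐ[L1] Ω, (1 + σ y) - 1 - ∑ σ : L →ₐ[L1] Ω, σ y) :=
    (hA.mono (by omega : d + 1 ≤ d + d)).dvP hπ𝔓
  have hsum := dvP_sum_emb φ hφ hint π p P₁ P₂ ℓ hℓp hℓ hn hrad σ₀ 𝔓 h𝔓 h𝔓c hπp h𝔓P hoth d y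
    t₁ e₁ t₂ e₂ ht₁ ht₂ h₁ h₂
  have hfin := hA'.add hsum
  rw [map_sub, map_one, hnorm]
  have e : ∏ σ : L →ₐ[L1] Ω, (1 + σ y) - 1 =
      ∏ σ : L →ₐ[L1] Ω, (1 + σ y) - 1 - ∑ σ : L →ₐ[L1] Ω, σ y + ∑ σ : L →ₐ[L1] Ω, σ y := by ring
  rw [e]
  exact hfin

include hφ hint Ω in
/-- **The norm modulo `π`, one iso branch and one fierce branch** (abstract form). -/
theorem norm_congr_aux [IsNoetherianRing B1] (hinjB : Function.Injective (algebraMap B L))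
    (hgen : ∀ ℓ : L, ∃ c d : B, algebraMap B L d ≠ 0 ∧ ℓ * algebraMap B L d = algebraMap B L c)
    (π : B1) (hπ : π ≠ 0) (p : Ideal B1) [p.IsPrime] (hπp : π ∈ p)
    (hprin : ∀ x ∈ p, ∃ s, s ∉ p ∧ s * x ∈ Ideal.span {π})
    (P₁ P₂ : Ideal B) [P₁.IsPrime] (hP₁ : P₁.comap φ = p)
    (hall : ∀ Q : Ideal B, Q.IsPrime → Q.comap φ = p → Q = P₁ ∨ Q = P₂)
    (hloc : ∀ c ∈ P₁, ∃ t : B, t ∉ P₁ ∧ φ π ∣ t * c)
    (hf : ∀ c : B, ∃ s r : B1, s ∉ p ∧ φ s * c - φ r ∈ P₁)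
    (ℓ : ℕ) (hℓp : ℓ.Prime) (hℓ : (ℓ : B1) ∈ p) (hn : Module.finrank L1 L = ℓ + 1)
    (hrad : ∀ c : B, ∃ s r : B1, s ∉ p ∧ φ s * c ^ ℓ - φ r ∈ P₂)
    (x : L) (r₁ r₂ : B1) (t₁ e₁ t₂ c₂ t₃ w₃ : B) (ht₁ : t₁ ∉ P₁) (ht₂ : t₂ ∉ P₂)
    (ht₃ : t₃ ∉ P₂) (hw₃ : w₃ ∈ P₂)
    (h₁ : algebraMap B L t₁ * (x - algebraMap B L (φ r₁)) = algebraMap B L (φ π * e₁))
    (h₂ : algebraMap B L t₂ * x = algebraMap B L c₂)
    (h₃ : algebraMap B L t₃ * (x ^ ℓ - algebraMap B L (φ r₂)) = algebraMap B L w₃) :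
    ∃ t' e' : B1, t' ∉ p ∧
      algebraMap B1 L1 t' * (Algebra.norm L1 x - algebraMap B1 L1 (r₁ * r₂)) =
        algebraMap B1 L1 (π * e') := by
  classical
  obtain ⟨σ₀, 𝔓, h𝔓, h𝔓c, h𝔓P, hoth⟩ := exists_setup (Ω := Ω) φ hφ hint hinjB hgen π hπ p hπp
    hprin P₁ P₂ hP₁ hall hloc hf
  have hπ𝔓 : algebraMap B1 (integralClosure B1 Ω) π ∈ 𝔓 := by
    rw [← Ideal.mem_comap, h𝔓c]; exact hπp
  have hcard : Fintype.card (L →ₐ[L1] Ω) = Module.finrank L1 L := AlgHom.card L1 L Ω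
  set s : Finset (L →ₐ[L1] Ω) := Finset.univ.erase σ₀ with hs
  have hcs : s.card = ℓ := by
    rw [hs, Finset.card_erase_of_mem (Finset.mem_univ σ₀), Finset.card_univ, hcard, hn]
    rfl
  have hsne : s.Nonempty := by
    rw [← Finset.card_pos, hcs]
    exact hℓp.pos
  obtain ⟨σ₂, hσ₂⟩ := hsne
  have hc₂ : 𝔓.comap (embHom φ hφ hint σ₂) = P₂ := hoth σ₂ (Finset.ne_of_mem_erase hσ₂)
  have h₂' : algebraMap B L t₂ * x = algebraMap B L (φ π ^ 0 * c₂) := by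
    rw [pow_zero, one_mul]; exact h₂
  -- the values of the embeddings with centre `P₂`
  have hint₂ : ∀ σ ∈ s, Dv 𝔓 π 0 (σ x) := fun σ hσ =>
    dv_emb φ hφ hint π 𝔓 σ 0 x t₂ c₂
      (fun hm => ht₂ (hoth σ (Finset.ne_of_mem_erase hσ) ▸ Ideal.mem_comap.2 hm)) h₂'
  have hdiff : ∀ σ ∈ s, DvP 𝔓 π 0 (σ x - σ₂ x) := fun σ hσ =>
    dvP_emb_sub φ hφ hint ℓ hℓp π p hℓ P₂ 𝔓 h𝔓 h𝔓c hrad σ σ₂
      (hoth σ (Finset.ne_of_mem_erase hσ)) hc₂ 0 x t₂ c₂ ht₂ h₂'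
  have hprod : DvP 𝔓 π 0 (∏ σ ∈ s, σ x - σ₂ x ^ ℓ) := by
    have := dvP_prod_sub (𝔓 := 𝔓) (π := π) s (fun σ => σ x) (fun _ => σ₂ x) hint₂
      (fun _ _ => hint₂ σ₂ hσ₂) hdiff
    rwa [Finset.prod_const, hcs] at this
  have hpow : DvP 𝔓 π 0 (σ₂ x ^ ℓ - algebraMap B1 Ω r₂) := by
    have h3 := congrArg σ₂ h₃
    rw [map_mul, map_sub, map_pow, emb_map φ hφ] at h3
    refine ⟨embHom φ hφ hint σ₂ t₃, embHom φ hφ hint σ₂ w₃,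
      fun hm => ht₃ (hc₂ ▸ Ideal.mem_comap.2 hm), ?_, ?_⟩
    · have : w₃ ∈ 𝔓.comap (embHom φ hφ hint σ₂) := by rw [hc₂]; exact hw₃
      exact Ideal.mem_comap.1 this
    · rw [pow_zero, one_mul]
      exact h3
  have hPi : DvP 𝔓 π 0 (∏ σ ∈ s, σ x - algebraMap B1 Ω r₂) := by
    have := hprod.add hpow
    have e : ∏ σ ∈ s, σ x - algebraMap B1 Ω r₂ =
        ∏ σ ∈ s, σ x - σ₂ x ^ ℓ + (σ₂ x ^ ℓ - algebraMap B1 Ω r₂) := by ring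
    rw [e]
    exact this
  have hPi0 : Dv 𝔓 π 0 (∏ σ ∈ s, σ x) := Dv.prod s _ hint₂
  have h0 : DvP 𝔓 π 0 (σ₀ x - algebraMap B1 Ω r₁) := by
    have h1' : algebraMap B L t₁ * (x - algebraMap B L (φ r₁)) =
        algebraMap B L (φ π ^ 1 * e₁) := by rw [pow_one]; exact h₁
    have := (dv_emb φ hφ hint π 𝔓 σ₀ 1 (x - algebraMap B L (φ r₁)) t₁ e₁
      (fun hm => ht₁ (h𝔓P ▸ Ideal.mem_comap.2 hm)) h1').dvP hπ𝔓
    rwa [map_sub, emb_map φ hφ] at this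
  have hx : algebraMap L1 Ω (Algebra.norm L1 x) = ∏ σ : L →ₐ[L1] Ω, σ x :=
    Algebra.norm_eq_prod_embeddings L1 Ω _
  have hmain : DvP 𝔓 π 0 (algebraMap L1 Ω (Algebra.norm L1 x - algebraMap B1 L1 (r₁ * r₂))) := by
    rw [map_sub, hx, ← IsScalarTower.algebraMap_apply B1 L1 Ω,
      ← Finset.mul_prod_erase Finset.univ _ (Finset.mem_univ σ₀), map_mul]
    have ha := hPi0.mul_dvP h0
    have hb := (dv_algebraMap (𝔓 := 𝔓) (π := π) r₁).mul_dvP hPi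
    have e : σ₀ x * ∏ σ ∈ Finset.univ.erase σ₀, σ x - algebraMap B1 Ω r₁ * algebraMap B1 Ω r₂ =
        (∏ σ ∈ s, σ x) * (σ₀ x - algebraMap B1 Ω r₁) +
          algebraMap B1 Ω r₁ * (∏ σ ∈ s, σ x - algebraMap B1 Ω r₂) := by
      rw [hs]; ring
    rw [e]
    exact ha.add hb
  obtain ⟨t', e', ht', hte'⟩ := dvP_descent (Ω := Ω) π hπ p hπp hprin 𝔓 h𝔓 h𝔓c 0 _ hmain
  refine ⟨t', e', ht', ?_⟩
  rw [hte', zero_add, pow_one]

omit [IsDomain B1] [IsFractionRing B1 L1] in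
include hφ hint in
/-- **The sum of the conjugates with centre `P₂`** of `y ∈ π ^ d B_{P₂}` lies in `π ^ d 𝔓`. -/
theorem dvP_sum_erase [DecidableEq (L →ₐ[L1] Ω)] (π : B1) (p : Ideal B1) (P₂ : Ideal B)
    (ℓ : ℕ) (hℓp : ℓ.Prime) (hℓ : (ℓ : B1) ∈ p) (hn : Module.finrank L1 L = ℓ + 1)
    (hrad : ∀ c : B, ∃ s r : B1, s ∉ p ∧ φ s * c ^ ℓ - φ r ∈ P₂)
    (σ₀ : L →ₐ[L1] Ω) (𝔓 : Ideal (integralClosure B1 Ω)) (h𝔓 : 𝔓.IsPrime)
    (h𝔓c : 𝔓.comap (algebraMap B1 (integralClosure B1 Ω)) = p)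
    (hoth : ∀ σ : L →ₐ[L1] Ω, σ ≠ σ₀ → 𝔓.comap (embHom φ hφ hint σ) = P₂)
    (d : ℕ) (y : L) (t₂ e₂ : B) (ht₂ : t₂ ∉ P₂)
    (h₂ : algebraMap B L t₂ * y = algebraMap B L (φ π ^ d * e₂)) :
    DvP 𝔓 π d (∑ σ ∈ (Finset.univ.erase σ₀ : Finset (L →ₐ[L1] Ω)), σ y) := by
  have hcard : Fintype.card (L →ₐ[L1] Ω) = Module.finrank L1 L := AlgHom.card L1 L Ω
  set s : Finset (L →ₐ[L1] Ω) := Finset.univ.erase σ₀ with hs
  have hcs : s.card = ℓ := by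
    rw [hs, Finset.card_erase_of_mem (Finset.mem_univ σ₀), Finset.card_univ, hcard, hn]
    rfl
  have hsne : s.Nonempty := by
    rw [← Finset.card_pos, hcs]
    exact hℓp.pos
  obtain ⟨σ₂, hσ₂⟩ := hsne
  have hc₂ : 𝔓.comap (embHom φ hφ hint σ₂) = P₂ := hoth σ₂ (Finset.ne_of_mem_erase hσ₂)
  have e : ∑ σ ∈ s, σ y = ∑ σ ∈ s, (σ y - σ₂ y) + (ℓ : Ω) * σ₂ y := by
    rw [Finset.sum_sub_distrib, Finset.sum_const, hcs, nsmul_eq_mul]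
    ring
  rw [e]
  refine (DvP.sum s _ (fun σ hσ => ?_)).add ?_
  · exact dvP_emb_sub φ hφ hint ℓ hℓp π p hℓ P₂ 𝔓 h𝔓 h𝔓c hrad σ σ₂
      (hoth σ (Finset.ne_of_mem_erase hσ)) hc₂ d y t₂ e₂ ht₂ h₂
  · have hℓ𝔓 : ((ℓ : ℕ) : integralClosure B1 Ω) ∈ 𝔓 := by
      have h5 : algebraMap B1 (integralClosure B1 Ω) (ℓ : B1) ∈ 𝔓 := by
        rw [← Ideal.mem_comap, h𝔓c]
        exact hℓ
      rwa [map_natCast] at h5
    have h2 := congrArg σ₂ h₂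
    rw [map_mul, map_mul, map_mul, map_pow, map_pow, emb_map φ hφ] at h2
    refine ⟨embHom φ hφ hint σ₂ t₂, (ℓ : integralClosure B1 Ω) * embHom φ hφ hint σ₂ e₂,
      fun hm => ht₂ (hc₂ ▸ Ideal.mem_comap.2 hm), 𝔓.mul_mem_right _ hℓ𝔓, ?_⟩
    push_cast
    simp only [coe_embHom]
    linear_combination (ℓ : Ω) * h2

include hφ hint Ω in
/-- **The norm of an element of the shape `ρ₁ (1 + y₁)` at the iso branch and `ρ₂ (1 + y₂)` at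
the fierce branch** (abstract form): `N x = ρ₁ ρ₂ ^ ℓ (1 + w)`, `w ∈ π ^ (d+1) (B1)_p`. -/
theorem norm_split_aux [IsNoetherianRing B1] (hinjB : Function.Injective (algebraMap B L))
    (hgen : ∀ ℓ : L, ∃ c d : B, algebraMap B L d ≠ 0 ∧ ℓ * algebraMap B L d = algebraMap B L c)
    (π : B1) (hπ : π ≠ 0) (p : Ideal B1) [hp : p.IsPrime] (hπp : π ∈ p)
    (hprin : ∀ x ∈ p, ∃ s, s ∉ p ∧ s * x ∈ Ideal.span {π})
    (P₁ P₂ : Ideal B) [P₁.IsPrime] (hP₁ : P₁.comap φ = p)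
    (hall : ∀ Q : Ideal B, Q.IsPrime → Q.comap φ = p → Q = P₁ ∨ Q = P₂)
    (hloc : ∀ c ∈ P₁, ∃ t : B, t ∉ P₁ ∧ φ π ∣ t * c)
    (hf : ∀ c : B, ∃ s r : B1, s ∉ p ∧ φ s * c - φ r ∈ P₁)
    (ℓ : ℕ) (hℓp : ℓ.Prime) (hℓ : (ℓ : B1) ∈ p) (hn : Module.finrank L1 L = ℓ + 1)
    (hrad : ∀ c : B, ∃ s r : B1, s ∉ p ∧ φ s * c ^ ℓ - φ r ∈ P₂)
    (d : ℕ) (hd : 1 ≤ d) (x : L) (ρ₁ ρ₂ : L1) (y₁ y₂ : L)
    (hx₁ : x = algebraMap L1 L ρ₁ * (1 + y₁)) (hx₂ : x = algebraMap L1 L ρ₂ * (1 + y₂))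
    (t₁ e₁ t₂ e₂ : B) (ht₁ : t₁ ∉ P₁) (ht₂ : t₂ ∉ P₂)
    (h₁ : algebraMap B L t₁ * y₁ = algebraMap B L (φ π ^ (d + 1) * e₁))
    (h₂ : algebraMap B L t₂ * y₂ = algebraMap B L (φ π ^ d * e₂)) :
    ∃ w : L1, Algebra.norm L1 x = ρ₁ * ρ₂ ^ ℓ * (1 + w) ∧
      ∃ s e : B1, s ∉ p ∧ algebraMap B1 L1 s * w = algebraMap B1 L1 (π ^ (d + 1) * e) := by
  classical
  have hone : (1 : B1) ∉ p := fun h => hp.ne_top ((Ideal.eq_top_iff_one _).2 h)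
  by_cases h0 : ρ₁ * ρ₂ ^ ℓ = 0
  · refine ⟨0, ?_, 1, 0, hone, by simp⟩
    have hx0 : x = 0 := by
      rcases mul_eq_zero.1 h0 with h | h
      · rw [hx₁, h, map_zero, zero_mul]
      · rw [hx₂, (pow_eq_zero_iff hℓp.ne_zero).1 h, map_zero, zero_mul]
    rw [hx0, h0, zero_mul]
    exact Algebra.norm_zero
  obtain ⟨σ₀, 𝔓, h𝔓, h𝔓c, h𝔓P, hoth⟩ := exists_setup (Ω := Ω) φ hφ hint hinjB hgen π hπ p hπp
    hprin P₁ P₂ hP₁ hall hloc hf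
  have hπ𝔓 : algebraMap B1 (integralClosure B1 Ω) π ∈ 𝔓 := by
    rw [← Ideal.mem_comap, h𝔓c]; exact hπp
  have hcard : Fintype.card (L →ₐ[L1] Ω) = Module.finrank L1 L := AlgHom.card L1 L Ω
  set s : Finset (L →ₐ[L1] Ω) := Finset.univ.erase σ₀ with hs
  have hcs : s.card = ℓ := by
    rw [hs, Finset.card_erase_of_mem (Finset.mem_univ σ₀), Finset.card_univ, hcard, hn]
    rfl
  refine ⟨Algebra.norm L1 x / (ρ₁ * ρ₂ ^ ℓ) - 1, ?_, ?_⟩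
  · rw [add_sub_cancel, mul_comm, div_mul_cancel₀ _ h0]
  apply dvP_descent (Ω := Ω) π hπ p hπp hprin 𝔓 h𝔓 h𝔓c d
  have e1 : σ₀ x = algebraMap L1 Ω ρ₁ * (1 + σ₀ y₁) := by
    rw [hx₁, map_mul, map_add, map_one, AlgHom.commutes]
  have e2 : ∀ σ ∈ s, σ x = algebraMap L1 Ω ρ₂ * (1 + σ y₂) := fun σ _ => by
    rw [hx₂, map_mul, map_add, map_one, AlgHom.commutes]
  have hprodx : ∏ σ ∈ s, σ x = algebraMap L1 Ω ρ₂ ^ ℓ * ∏ σ ∈ s, (1 + σ y₂) := by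
    rw [Finset.prod_congr rfl e2, Finset.prod_mul_distrib, Finset.prod_const, hcs]
  have hnorm : algebraMap L1 Ω (Algebra.norm L1 x) =
      algebraMap L1 Ω (ρ₁ * ρ₂ ^ ℓ) * ((1 + σ₀ y₁) * ∏ σ ∈ s, (1 + σ y₂)) := by
    rw [Algebra.norm_eq_prod_embeddings L1 Ω,
      ← Finset.mul_prod_erase Finset.univ _ (Finset.mem_univ σ₀), ← hs, e1, hprodx, map_mul,
      map_pow]
    ring
  have hne : algebraMap L1 Ω (ρ₁ * ρ₂ ^ ℓ) ≠ 0 := (_root_.map_ne_zero _).2 h0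
  have hval : algebraMap L1 Ω (Algebra.norm L1 x / (ρ₁ * ρ₂ ^ ℓ) - 1) =
      (∏ σ ∈ s, (1 + σ y₂)) * σ₀ y₁ + (∏ σ ∈ s, (1 + σ y₂) - 1) := by
    rw [map_sub, map_div₀, map_one, hnorm, mul_div_cancel_left₀ _ hne]
    ring
  rw [hval]
  have hdv₂ : ∀ σ ∈ s, Dv 𝔓 π d (σ y₂) := fun σ hσ =>
    dv_emb φ hφ hint π 𝔓 σ d y₂ t₂ e₂
      (fun hm => ht₂ (hoth σ (Finset.ne_of_mem_erase hσ) ▸ Ideal.mem_comap.2 hm)) h₂
  have h01 : DvP 𝔓 π d (σ₀ y₁) :=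
    (dv_emb φ hφ hint π 𝔓 σ₀ (d + 1) y₁ t₁ e₁
      (fun hm => ht₁ (h𝔓P ▸ Ideal.mem_comap.2 hm)) h₁).dvP hπ𝔓
  have hprod0 : Dv 𝔓 π 0 (∏ σ ∈ s, (1 + σ y₂)) :=
    Dv.prod s _ (fun σ hσ =>
      (dv_one (𝔓 := 𝔓) (π := π)).add ((hdv₂ σ hσ).mono (Nat.zero_le d)))
  obtain ⟨hA, -⟩ := dv_prod_one_add (𝔓 := 𝔓) (π := π) d s
    (fun σ : L →ₐ[L1] Ω => σ y₂) hdv₂
  have hA' : DvP 𝔓 π d (∏ σ ∈ s, (1 + σ y₂) - 1 - ∑ σ ∈ s, σ y₂) :=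
    (hA.mono (by omega : d + 1 ≤ d + d)).dvP hπ𝔓
  have hsum : DvP 𝔓 π d (∑ σ ∈ s, σ y₂) :=
    dvP_sum_erase φ hφ hint π p P₂ ℓ hℓp hℓ hn hrad σ₀ 𝔓 h𝔓 h𝔓c hoth d y₂ t₂ e₂ ht₂ h₂
  have hB : DvP 𝔓 π d (∏ σ ∈ s, (1 + σ y₂) - 1) := by
    have := hA'.add hsum
    rwa [sub_add_cancel] at this
  have hC := hprod0.mul_dvP h01
  rw [zero_add] at hC
  exact hC.add hB

omit [IsAlgClosed Ω] [FiniteDimensional L1 L] [Algebra.IsSeparable L1 L] in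
include hφ hint in
/-- **The order at the iso branch**: a nonzero element of `B` is `π ^ k` times a unit at
`P₁`. -/
theorem exists_pow_mul_eq_iso [IsNoetherianRing B1]
    (hinjB : Function.Injective (algebraMap B L))
    (π : B1) (hπ : π ≠ 0) (p : Ideal B1) [p.IsPrime] (hπp : π ∈ p)
    (hprin : ∀ x ∈ p, ∃ s, s ∉ p ∧ s * x ∈ Ideal.span {π})
    (P₁ : Ideal B) [hP₁' : P₁.IsPrime]
    (hloc : ∀ c ∈ P₁, ∃ t : B, t ∉ P₁ ∧ φ π ∣ t * c)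
    (σ₀ : L →ₐ[L1] Ω) (𝔓 : Ideal (integralClosure B1 Ω)) (h𝔓 : 𝔓.IsPrime)
    (h𝔓c : 𝔓.comap (algebraMap B1 (integralClosure B1 Ω)) = p)
    (h𝔓P : 𝔓.comap (embHom φ hφ hint σ₀) = P₁) (c : B) (hc : c ≠ 0) :
    ∃ (k : ℕ) (t c' : B), t ∉ P₁ ∧ c' ∉ P₁ ∧ t * c = φ π ^ k * c' := by
  have hone : (1 : B) ∉ P₁ := fun h => hP₁'.ne_top ((Ideal.eq_top_iff_one _).2 h)
  have key : ∀ (N : ℕ) (c : B), (∀ t e : B, t ∉ P₁ → t * c ≠ φ π ^ N * e) →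
      ∃ (k : ℕ) (t c' : B), t ∉ P₁ ∧ c' ∉ P₁ ∧ t * c = φ π ^ k * c' := by
    intro N
    induction N with
    | zero =>
      intro c hN
      exact absurd (show (1 : B) * c = φ π ^ 0 * c by rw [pow_zero]) (hN 1 c hone)
    | succ N ih =>
      intro c hN
      by_cases hcP : c ∈ P₁
      · obtain ⟨t, ht, e, hte⟩ := hloc c hcP
        have hN' : ∀ t' e' : B, t' ∉ P₁ → t' * e ≠ φ π ^ N * e' := by
          intro t' e' ht' h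
          refine hN (t' * t) e' (fun hm => (hP₁'.mem_or_mem hm).elim ht' ht) ?_
          rw [pow_succ]
          linear_combination t' * hte + φ π * h
        obtain ⟨k, t₁, c', ht₁, hc', h1⟩ := ih e hN'
        refine ⟨k + 1, t₁ * t, c', fun hm => (hP₁'.mem_or_mem hm).elim ht₁ ht, hc', ?_⟩
        rw [pow_succ]
        linear_combination t₁ * hte + φ π * h1
      · exact ⟨0, 1, c, hone, hcP, by rw [pow_zero]⟩
  by_contra hcon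
  have hall' : ∀ N : ℕ, ∃ t e : B, t ∉ P₁ ∧ t * c = φ π ^ N * e := by
    intro N
    by_contra hN
    exact hcon (key N c (fun t e ht hte => hN ⟨t, e, ht, hte⟩))
  have hD : embHom φ hφ hint σ₀ c = 0 := by
    apply eq_zero_of_forall_pow (L1 := L1) π hπ p hπp hprin 𝔓 h𝔓 h𝔓c
    intro N
    obtain ⟨t, e, ht, hte⟩ := hall' N
    refine ⟨embHom φ hφ hint σ₀ t, embHom φ hφ hint σ₀ e,
      fun hm => ht (h𝔓P ▸ Ideal.mem_comap.2 hm), ?_⟩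
    have h := congrArg (embHom φ hφ hint σ₀) hte
    rw [map_mul, map_mul, map_pow, embHom_map] at h
    exact h
  have h1 : σ₀ (algebraMap B L c) = 0 := by
    have h := congrArg Subtype.val hD
    exact h
  have h2 : algebraMap B L c = 0 := (_root_.map_eq_zero σ₀).1 h1
  exact hc (hinjB (by rw [h2, map_zero]))

omit [IsAlgClosed Ω] [FiniteDimensional L1 L] [Algebra.IsSeparable L1 L] in
include hφ hint in
/-- **Descent at the iso branch**: an element of `L` whose `σ₀`-value lies in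
`π ^ k 𝔓 (...)_𝔓` lies in `π ^ (k+1) B_{P₁}`. -/
theorem dvP_descent_iso [IsNoetherianRing B1] (hinjB : Function.Injective (algebraMap B L))
    (hgen : ∀ ℓ : L, ∃ c d : B, algebraMap B L d ≠ 0 ∧ ℓ * algebraMap B L d = algebraMap B L c)
    (π : B1) (hπ : π ≠ 0) (p : Ideal B1) [p.IsPrime] (hπp : π ∈ p)
    (hprin : ∀ x ∈ p, ∃ s, s ∉ p ∧ s * x ∈ Ideal.span {π})
    (P₁ : Ideal B) [P₁.IsPrime]
    (hloc : ∀ c ∈ P₁, ∃ t : B, t ∉ P₁ ∧ φ π ∣ t * c)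
    (σ₀ : L →ₐ[L1] Ω) (𝔓 : Ideal (integralClosure B1 Ω)) (h𝔓 : 𝔓.IsPrime)
    (h𝔓c : 𝔓.comap (algebraMap B1 (integralClosure B1 Ω)) = p)
    (h𝔓P : 𝔓.comap (embHom φ hφ hint σ₀) = P₁) (k : ℕ) (z : L)
    (hz : DvP 𝔓 π k (σ₀ z)) :
    ∃ t e : B, t ∉ P₁ ∧ algebraMap B L t * z = algebraMap B L (φ π ^ (k + 1) * e) := by
  rcases exists_vr_pow_gen hinjB hgen (φ π) P₁
      (fun x hx => exists_pow_mul_eq_iso φ hφ hint hinjB π hπ p hπp hprin P₁ hloc σ₀ 𝔓 h𝔓 h𝔓c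
        h𝔓P x hx) k z with h | ⟨t, m, ht, htm⟩
  · exact h
  · exfalso
    obtain ⟨u, w, hu, hw, huw⟩ := hz
    have hπΩ : algebraMap B1 Ω π ≠ 0 := fun h =>
      hπ (injective_algebraMap_B1 (L1 := L1) (Ω := Ω) (by rw [h, map_zero]))
    have h7 := congrArg σ₀ htm
    simp only [map_mul, map_pow, emb_map φ hφ] at h7
    have h9 : (u : Ω) * σ₀ (algebraMap B L t) = (w : Ω) * σ₀ (algebraMap B L m) := by
      apply mul_left_cancel₀ (pow_ne_zero k hπΩ)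
      linear_combination (u : Ω) * h7 + σ₀ (algebraMap B L m) * huw
    have h10 : u * embHom φ hφ hint σ₀ t = w * embHom φ hφ hint σ₀ m := by
      apply Subtype.ext
      rw [Subalgebra.coe_mul, Subalgebra.coe_mul, coe_embHom, coe_embHom]
      exact h9
    have h11 : u * embHom φ hφ hint σ₀ t ∈ 𝔓 := by
      rw [h10]
      exact 𝔓.mul_mem_right _ hw
    rcases h𝔓.mem_or_mem h11 with h12 | h12
    · exact hu h12
    · exact ht (h𝔓P ▸ Ideal.mem_comap.2 h12)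

omit [IsDomain B1] [IsFractionRing B1 L1] in
include hφ hint in
/-- The product of the `1 + σ y` over the conjugates with centre `P₂`, `y ∈ π ^ d B_{P₂}`,
`1 ≤ d`, is `1` modulo `π ^ d 𝔓`. -/
theorem dvP_prod_erase [DecidableEq (L →ₐ[L1] Ω)] (π : B1) (p : Ideal B1) (hπp : π ∈ p)
    (P₂ : Ideal B)
    (ℓ : ℕ) (hℓp : ℓ.Prime) (hℓ : (ℓ : B1) ∈ p) (hn : Module.finrank L1 L = ℓ + 1)
    (hrad : ∀ c : B, ∃ s r : B1, s ∉ p ∧ φ s * c ^ ℓ - φ r ∈ P₂)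
    (σ₀ : L →ₐ[L1] Ω) (𝔓 : Ideal (integralClosure B1 Ω)) (h𝔓 : 𝔓.IsPrime)
    (h𝔓c : 𝔓.comap (algebraMap B1 (integralClosure B1 Ω)) = p)
    (hoth : ∀ σ : L →ₐ[L1] Ω, σ ≠ σ₀ → 𝔓.comap (embHom φ hφ hint σ) = P₂)
    (d : ℕ) (hd : 1 ≤ d) (y : L) (t₂ e₂ : B) (ht₂ : t₂ ∉ P₂)
    (h₂ : algebraMap B L t₂ * y = algebraMap B L (φ π ^ d * e₂)) :
    DvP 𝔓 π d (∏ σ ∈ (Finset.univ.erase σ₀ : Finset (L →ₐ[L1] Ω)), (1 + σ y) - 1) := by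
  have hπ𝔓 : algebraMap B1 (integralClosure B1 Ω) π ∈ 𝔓 := by
    rw [← Ideal.mem_comap, h𝔓c]; exact hπp
  have hdv₂ : ∀ σ ∈ (Finset.univ.erase σ₀ : Finset (L →ₐ[L1] Ω)), Dv 𝔓 π d (σ y) :=
    fun σ hσ => dv_emb φ hφ hint π 𝔓 σ d y t₂ e₂
      (fun hm => ht₂ (hoth σ (Finset.ne_of_mem_erase hσ) ▸ Ideal.mem_comap.2 hm)) h₂
  obtain ⟨hA, -⟩ := dv_prod_one_add (𝔓 := 𝔓) (π := π) d (Finset.univ.erase σ₀)
    (fun σ : L →ₐ[L1] Ω => σ y) hdv₂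
  have hA' := (hA.mono (by omega : d + 1 ≤ d + d)).dvP hπ𝔓
  have hsum := dvP_sum_erase φ hφ hint π p P₂ ℓ hℓp hℓ hn hrad σ₀ 𝔓 h𝔓 h𝔓c hoth d y
    t₂ e₂ ht₂ h₂
  have h := hA'.add hsum
  rwa [sub_add_cancel] at h

include hφ hint Ω in
/-- **`h ≡ 1` modulo `π ^ d` at the fierce branch ⟹ `N h / h ≡ 1` modulo `π ^ (d+1)` at the
iso branch** (abstract form; `h` is arbitrary at the iso branch). -/
theorem norm_sub_self_aux [IsNoetherianRing B1] (hinjB : Function.Injective (algebraMap B L))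
    (hgen : ∀ ℓ : L, ∃ c d : B, algebraMap B L d ≠ 0 ∧ ℓ * algebraMap B L d = algebraMap B L c)
    (π : B1) (hπ : π ≠ 0) (p : Ideal B1) [p.IsPrime] (hπp : π ∈ p)
    (hprin : ∀ x ∈ p, ∃ s, s ∉ p ∧ s * x ∈ Ideal.span {π})
    (P₁ P₂ : Ideal B) [P₁.IsPrime] (hP₁ : P₁.comap φ = p)
    (hall : ∀ Q : Ideal B, Q.IsPrime → Q.comap φ = p → Q = P₁ ∨ Q = P₂)
    (hloc : ∀ c ∈ P₁, ∃ t : B, t ∉ P₁ ∧ φ π ∣ t * c)
    (hf : ∀ c : B, ∃ s r : B1, s ∉ p ∧ φ s * c - φ r ∈ P₁)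
    (ℓ : ℕ) (hℓp : ℓ.Prime) (hℓ : (ℓ : B1) ∈ p) (hn : Module.finrank L1 L = ℓ + 1)
    (hrad : ∀ c : B, ∃ s r : B1, s ∉ p ∧ φ s * c ^ ℓ - φ r ∈ P₂)
    (d : ℕ) (hd : 1 ≤ d) (h : L) (h0 : h ≠ 0) (t₂ e₂ : B) (ht₂ : t₂ ∉ P₂)
    (h₂ : algebraMap B L t₂ * (h - 1) = algebraMap B L (φ π ^ d * e₂)) :
    ∃ t e : B, t ∉ P₁ ∧ algebraMap B L t * (algebraMap L1 L (Algebra.norm L1 h) - h) =
      algebraMap B L (φ π ^ (d + 1) * e) * h := by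
  classical
  obtain ⟨σ₀, 𝔓, h𝔓, h𝔓c, h𝔓P, hoth⟩ := exists_setup (Ω := Ω) φ hφ hint hinjB hgen π hπ p hπp
    hprin P₁ P₂ hP₁ hall hloc hf
  have hprod := dvP_prod_erase φ hφ hint π p hπp P₂ ℓ hℓp hℓ hn hrad σ₀ 𝔓 h𝔓 h𝔓c hoth d hd
    (h - 1) t₂ e₂ ht₂ h₂
  have hnorm : algebraMap L1 Ω (Algebra.norm L1 h) =
      σ₀ h * ∏ σ ∈ Finset.univ.erase σ₀, (1 + σ (h - 1)) := by
    rw [Algebra.norm_eq_prod_embeddings L1 Ω,
      ← Finset.mul_prod_erase Finset.univ _ (Finset.mem_univ σ₀)]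
    congr 1
    exact Finset.prod_congr rfl (fun σ _ => by rw [map_sub, map_one, add_sub_cancel])
  have hσh : σ₀ h ≠ 0 := (_root_.map_ne_zero σ₀).2 h0
  have hz : σ₀ ((algebraMap L1 L (Algebra.norm L1 h) - h) / h) =
      ∏ σ ∈ Finset.univ.erase σ₀, (1 + σ (h - 1)) - 1 := by
    rw [map_div₀, map_sub, AlgHom.commutes, hnorm, div_eq_iff hσh]
    ring
  have hz' : DvP 𝔓 π d (σ₀ ((algebraMap L1 L (Algebra.norm L1 h) - h) / h)) := by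
    rw [hz]
    exact hprod
  obtain ⟨t, e, ht, hte⟩ := dvP_descent_iso φ hφ hint hinjB hgen π hπ p hπp hprin P₁ hloc σ₀ 𝔓
    h𝔓 h𝔓c h𝔓P d _ hz'
  refine ⟨t, e, ht, ?_⟩
  rw [← hte, mul_assoc, div_mul_cancel₀ _ h0]

end Abstract

/-! ### Concrete forms -/

section Concrete

variable {B1 B L1 L : Type*} [CommRing B1] [IsDomain B1] [IsNoetherianRing B1] [CommRing B]
  [IsDomain B] [Field L1] [Field L] [Algebra B1 L1] [IsFractionRing B1 L1] [Algebra B L]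
  [IsFractionRing B L] [Algebra L1 L] [FiniteDimensional L1 L] [Algebra.IsSeparable L1 L]
  (φ : B1 →+* B) (hφ : ∀ b, algebraMap L1 L (algebraMap B1 L1 b) = algebraMap B L (φ b))
  (hint : φ.IsIntegral)

omit [IsDomain B1] [IsNoetherianRing B1] [Algebra B1 L1] [IsFractionRing B1 L1] [Algebra L1 L]
  [FiniteDimensional L1 L] [Algebra.IsSeparable L1 L] [Field L1] in
theorem exists_gen (ℓ : L) : ∃ c d : B, algebraMap B L d ≠ 0 ∧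
    ℓ * algebraMap B L d = algebraMap B L c := by
  have hinjB : Function.Injective (algebraMap B L) := IsFractionRing.injective B L
  obtain ⟨c, d, hd, hℓ⟩ := IsFractionRing.div_surjective (A := B) ℓ
  have hd0 : algebraMap B L d ≠ 0 := fun h =>
    nonZeroDivisors.ne_zero hd (hinjB (by rw [h, map_zero]))
  exact ⟨c, d, hd0, by rw [← hℓ, div_mul_cancel₀ _ hd0]⟩

include hφ hint in
/-- **(FN1) The norm modulo `π` at a prime with an iso branch `P₁` and a fierce branch `P₂`.**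
`x ≡ r₁` at `P₁`, `x` integral at `P₂` with `x ^ ℓ ≡ r₂` modulo `P₂`:
`N x ≡ r₁ * r₂` modulo `π` at `p`. -/
theorem norm_congr (π : B1) (hπ : π ≠ 0) (p : Ideal B1) [p.IsPrime] (hπp : π ∈ p)
    (hprin : ∀ x ∈ p, ∃ s, s ∉ p ∧ s * x ∈ Ideal.span {π})
    (P₁ P₂ : Ideal B) [P₁.IsPrime] (hP₁ : P₁.comap φ = p)
    (hall : ∀ Q : Ideal B, Q.IsPrime → Q.comap φ = p → Q = P₁ ∨ Q = P₂)
    (hloc : ∀ c ∈ P₁, ∃ t : B, t ∉ P₁ ∧ φ π ∣ t * c)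
    (hf : ∀ c : B, ∃ s r : B1, s ∉ p ∧ φ s * c - φ r ∈ P₁)
    (ℓ : ℕ) (hℓp : ℓ.Prime) (hℓ : (ℓ : B1) ∈ p) (hn : Module.finrank L1 L = ℓ + 1)
    (hrad : ∀ c : B, ∃ s r : B1, s ∉ p ∧ φ s * c ^ ℓ - φ r ∈ P₂)
    (x : L) (r₁ r₂ : B1) (hx₁ : CongMod (φ π) P₁ x (φ r₁))
    (hx₂ : ∃ t c : B, t ∉ P₂ ∧ algebraMap B L t * x = algebraMap B L c)
    (hx₃ : ∃ t w : B, t ∉ P₂ ∧ w ∈ P₂ ∧
      algebraMap B L t * (x ^ ℓ - algebraMap B L (φ r₂)) = algebraMap B L w) :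
    CongMod π p (Algebra.norm L1 x) (r₁ * r₂) := by
  obtain ⟨t₁, e₁, ht₁, h₁⟩ := hx₁
  obtain ⟨t₂, c₂, ht₂, h₂⟩ := hx₂
  obtain ⟨t₃, w₃, ht₃, hw₃, h₃⟩ := hx₃
  let _ : Algebra B1 (AlgebraicClosure L) :=
    ((algebraMap L1 (AlgebraicClosure L)).comp (algebraMap B1 L1)).toAlgebra
  have : IsScalarTower B1 L1 (AlgebraicClosure L) :=
    IsScalarTower.of_algebraMap_eq (fun _ => rfl)
  exact norm_congr_aux (Ω := AlgebraicClosure L) φ hφ hint (IsFractionRing.injective B L)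
    exists_gen π hπ p hπp hprin P₁ P₂ hP₁ hall hloc hf ℓ hℓp hℓ hn hrad x r₁ r₂
    t₁ e₁ t₂ c₂ t₃ w₃ ht₁ ht₂ ht₃ hw₃ h₁ h₂ h₃

include hφ hint in
/-- **(FN2) The trace at a fierce prime.**  `y ∈ π ^ (d+1) B_{P₁}` (iso branch) and
`y ∈ π ^ d B_{P₂}` (fierce branch): `Tr y ∈ π ^ (d+1) (B1)_p`. -/
theorem trace_mem (π : B1) (hπ : π ≠ 0) (p : Ideal B1) [p.IsPrime] (hπp : π ∈ p)
    (hprin : ∀ x ∈ p, ∃ s, s ∉ p ∧ s * x ∈ Ideal.span {π})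
    (P₁ P₂ : Ideal B) [P₁.IsPrime] (hP₁ : P₁.comap φ = p)
    (hall : ∀ Q : Ideal B, Q.IsPrime → Q.comap φ = p → Q = P₁ ∨ Q = P₂)
    (hloc : ∀ c ∈ P₁, ∃ t : B, t ∉ P₁ ∧ φ π ∣ t * c)
    (hf : ∀ c : B, ∃ s r : B1, s ∉ p ∧ φ s * c - φ r ∈ P₁)
    (ℓ : ℕ) (hℓp : ℓ.Prime) (hℓ : (ℓ : B1) ∈ p) (hn : Module.finrank L1 L = ℓ + 1)
    (hrad : ∀ c : B, ∃ s r : B1, s ∉ p ∧ φ s * c ^ ℓ - φ r ∈ P₂)
    (d : ℕ) (y : L)
    (hy₁ : ∃ t e : B, t ∉ P₁ ∧ algebraMap B L t * y = algebraMap B L (φ π ^ (d + 1) * e))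
    (hy₂ : ∃ t e : B, t ∉ P₂ ∧ algebraMap B L t * y = algebraMap B L (φ π ^ d * e)) :
    ∃ s e : B1, s ∉ p ∧
      algebraMap B1 L1 s * Algebra.trace L1 L y = algebraMap B1 L1 (π ^ (d + 1) * e) := by
  obtain ⟨t₁, e₁, ht₁, h₁⟩ := hy₁
  obtain ⟨t₂, e₂, ht₂, h₂⟩ := hy₂
  let _ : Algebra B1 (AlgebraicClosure L) :=
    ((algebraMap L1 (AlgebraicClosure L)).comp (algebraMap B1 L1)).toAlgebra
  have : IsScalarTower B1 L1 (AlgebraicClosure L) :=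
    IsScalarTower.of_algebraMap_eq (fun _ => rfl)
  exact trace_aux (Ω := AlgebraicClosure L) φ hφ hint (IsFractionRing.injective B L)
    exists_gen π hπ p hπp hprin P₁ P₂ hP₁ hall hloc hf ℓ hℓp hℓ hn hrad d y
    t₁ e₁ t₂ e₂ ht₁ ht₂ h₁ h₂

include hφ hint in
/-- **(FN3) The norm raises the depth at a fierce prime.**  `y ∈ π ^ (d+1) B_{P₁}` (iso
branch), `y ∈ π ^ d B_{P₂}` (fierce branch), `1 ≤ d`: `N (1 + y) ≡ 1` modulo `π ^ (d+1)` at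
`p`. -/
theorem norm_one_add (π : B1) (hπ : π ≠ 0) (p : Ideal B1) [p.IsPrime] (hπp : π ∈ p)
    (hprin : ∀ x ∈ p, ∃ s, s ∉ p ∧ s * x ∈ Ideal.span {π})
    (P₁ P₂ : Ideal B) [P₁.IsPrime] (hP₁ : P₁.comap φ = p)
    (hall : ∀ Q : Ideal B, Q.IsPrime → Q.comap φ = p → Q = P₁ ∨ Q = P₂)
    (hloc : ∀ c ∈ P₁, ∃ t : B, t ∉ P₁ ∧ φ π ∣ t * c)
    (hf : ∀ c : B, ∃ s r : B1, s ∉ p ∧ φ s * c - φ r ∈ P₁)
    (ℓ : ℕ) (hℓp : ℓ.Prime) (hℓ : (ℓ : B1) ∈ p) (hn : Module.finrank L1 L = ℓ + 1)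
    (hrad : ∀ c : B, ∃ s r : B1, s ∉ p ∧ φ s * c ^ ℓ - φ r ∈ P₂)
    (d : ℕ) (hd : 1 ≤ d) (y : L)
    (hy₁ : ∃ t e : B, t ∉ P₁ ∧ algebraMap B L t * y = algebraMap B L (φ π ^ (d + 1) * e))
    (hy₂ : ∃ t e : B, t ∉ P₂ ∧ algebraMap B L t * y = algebraMap B L (φ π ^ d * e)) :
    ∃ s e : B1, s ∉ p ∧
      algebraMap B1 L1 s * (Algebra.norm L1 (1 + y) - 1) = algebraMap B1 L1 (π ^ (d + 1) * e) := by
  obtain ⟨t₁, e₁, ht₁, h₁⟩ := hy₁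
  obtain ⟨t₂, e₂, ht₂, h₂⟩ := hy₂
  let _ : Algebra B1 (AlgebraicClosure L) :=
    ((algebraMap L1 (AlgebraicClosure L)).comp (algebraMap B1 L1)).toAlgebra
  have : IsScalarTower B1 L1 (AlgebraicClosure L) :=
    IsScalarTower.of_algebraMap_eq (fun _ => rfl)
  exact norm_one_add_aux (Ω := AlgebraicClosure L) φ hφ hint (IsFractionRing.injective B L)
    exists_gen π hπ p hπp hprin P₁ P₂ hP₁ hall hloc hf ℓ hℓp hℓ hn hrad d hd y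
    t₁ e₁ t₂ e₂ ht₁ ht₂ h₁ h₂

include hφ hint in
/-- **(FN3g) The norm of an element of the shape `ρ₁ (1 + y₁)` at the iso branch and
`ρ₂ (1 + y₂)` at the fierce branch**, `y₁ ∈ π ^ (d+1) B_{P₁}`, `y₂ ∈ π ^ d B_{P₂}`, `1 ≤ d`:
`N x = ρ₁ ρ₂ ^ ℓ (1 + w)` with `w ∈ π ^ (d+1) (B1)_p`. -/
theorem norm_split (π : B1) (hπ : π ≠ 0) (p : Ideal B1) [p.IsPrime] (hπp : π ∈ p)
    (hprin : ∀ x ∈ p, ∃ s, s ∉ p ∧ s * x ∈ Ideal.span {π})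
    (P₁ P₂ : Ideal B) [P₁.IsPrime] (hP₁ : P₁.comap φ = p)
    (hall : ∀ Q : Ideal B, Q.IsPrime → Q.comap φ = p → Q = P₁ ∨ Q = P₂)
    (hloc : ∀ c ∈ P₁, ∃ t : B, t ∉ P₁ ∧ φ π ∣ t * c)
    (hf : ∀ c : B, ∃ s r : B1, s ∉ p ∧ φ s * c - φ r ∈ P₁)
    (ℓ : ℕ) (hℓp : ℓ.Prime) (hℓ : (ℓ : B1) ∈ p) (hn : Module.finrank L1 L = ℓ + 1)
    (hrad : ∀ c : B, ∃ s r : B1, s ∉ p ∧ φ s * c ^ ℓ - φ r ∈ P₂)
    (d : ℕ) (hd : 1 ≤ d) (x : L) (ρ₁ ρ₂ : L1) (y₁ y₂ : L)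
    (hx₁ : x = algebraMap L1 L ρ₁ * (1 + y₁)) (hx₂ : x = algebraMap L1 L ρ₂ * (1 + y₂))
    (hy₁ : ∃ t e : B, t ∉ P₁ ∧ algebraMap B L t * y₁ = algebraMap B L (φ π ^ (d + 1) * e))
    (hy₂ : ∃ t e : B, t ∉ P₂ ∧ algebraMap B L t * y₂ = algebraMap B L (φ π ^ d * e)) :
    ∃ w : L1, Algebra.norm L1 x = ρ₁ * ρ₂ ^ ℓ * (1 + w) ∧
      ∃ s e : B1, s ∉ p ∧ algebraMap B1 L1 s * w = algebraMap B1 L1 (π ^ (d + 1) * e) := by
  obtain ⟨t₁, e₁, ht₁, h₁⟩ := hy₁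
  obtain ⟨t₂, e₂, ht₂, h₂⟩ := hy₂
  let _ : Algebra B1 (AlgebraicClosure L) :=
    ((algebraMap L1 (AlgebraicClosure L)).comp (algebraMap B1 L1)).toAlgebra
  have : IsScalarTower B1 L1 (AlgebraicClosure L) :=
    IsScalarTower.of_algebraMap_eq (fun _ => rfl)
  exact norm_split_aux (Ω := AlgebraicClosure L) φ hφ hint (IsFractionRing.injective B L)
    exists_gen π hπ p hπp hprin P₁ P₂ hP₁ hall hloc hf ℓ hℓp hℓ hn hrad d hd x ρ₁ ρ₂ y₁ y₂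
    hx₁ hx₂ t₁ e₁ t₂ e₂ ht₁ ht₂ h₁ h₂

include hφ hint in
/-- **(FN4) `h ≡ 1` modulo `π ^ d` at the fierce branch ⟹ `N h / h ≡ 1` modulo `π ^ (d+1)` at
the iso branch**, for `h` ARBITRARY at the iso branch (`1 ≤ d`). -/
theorem norm_sub_self (π : B1) (hπ : π ≠ 0) (p : Ideal B1) [p.IsPrime] (hπp : π ∈ p)
    (hprin : ∀ x ∈ p, ∃ s, s ∉ p ∧ s * x ∈ Ideal.span {π})
    (P₁ P₂ : Ideal B) [P₁.IsPrime] (hP₁ : P₁.comap φ = p)
    (hall : ∀ Q : Ideal B, Q.IsPrime → Q.comap φ = p → Q = P₁ ∨ Q = P₂)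
    (hloc : ∀ c ∈ P₁, ∃ t : B, t ∉ P₁ ∧ φ π ∣ t * c)
    (hf : ∀ c : B, ∃ s r : B1, s ∉ p ∧ φ s * c - φ r ∈ P₁)
    (ℓ : ℕ) (hℓp : ℓ.Prime) (hℓ : (ℓ : B1) ∈ p) (hn : Module.finrank L1 L = ℓ + 1)
    (hrad : ∀ c : B, ∃ s r : B1, s ∉ p ∧ φ s * c ^ ℓ - φ r ∈ P₂)
    (d : ℕ) (hd : 1 ≤ d) (h : L) (h0 : h ≠ 0)
    (h2 : ∃ t e : B, t ∉ P₂ ∧ algebraMap B L t * (h - 1) = algebraMap B L (φ π ^ d * e)) :
    ∃ t e : B, t ∉ P₁ ∧ algebraMap B L t * (algebraMap L1 L (Algebra.norm L1 h) - h) =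
      algebraMap B L (φ π ^ (d + 1) * e) * h := by
  obtain ⟨t₂, e₂, ht₂, h₂⟩ := h2
  let _ : Algebra B1 (AlgebraicClosure L) :=
    ((algebraMap L1 (AlgebraicClosure L)).comp (algebraMap B1 L1)).toAlgebra
  have : IsScalarTower B1 L1 (AlgebraicClosure L) :=
    IsScalarTower.of_algebraMap_eq (fun _ => rfl)
  exact norm_sub_self_aux (Ω := AlgebraicClosure L) φ hφ hint (IsFractionRing.injective B L)
    exists_gen π hπ p hπp hprin P₁ P₂ hP₁ hall hloc hf ℓ hℓp hℓ hn hrad d hd h h0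
    t₂ e₂ ht₂ h₂

include hφ hint in
/-- **(FN3') The norm raises the depth, with NO hypothesis at the iso branch.**
`y ∈ π ^ d B_{P₂}` (fierce branch), `1 ≤ d`: `N (1 + y) = (1 + y) (1 + y')` with
`y' ∈ π ^ (d+1) B_{P₁}` (iso branch). -/
theorem norm_eq_mul_one_add (π : B1) (hπ : π ≠ 0) (p : Ideal B1) [p.IsPrime] (hπp : π ∈ p)
    (hprin : ∀ x ∈ p, ∃ s, s ∉ p ∧ s * x ∈ Ideal.span {π})
    (P₁ P₂ : Ideal B) [hP₁' : P₁.IsPrime] (hP₁ : P₁.comap φ = p)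
    (hall : ∀ Q : Ideal B, Q.IsPrime → Q.comap φ = p → Q = P₁ ∨ Q = P₂)
    (hloc : ∀ c ∈ P₁, ∃ t : B, t ∉ P₁ ∧ φ π ∣ t * c)
    (hf : ∀ c : B, ∃ s r : B1, s ∉ p ∧ φ s * c - φ r ∈ P₁)
    (ℓ : ℕ) (hℓp : ℓ.Prime) (hℓ : (ℓ : B1) ∈ p) (hn : Module.finrank L1 L = ℓ + 1)
    (hrad : ∀ c : B, ∃ s r : B1, s ∉ p ∧ φ s * c ^ ℓ - φ r ∈ P₂)
    (d : ℕ) (hd : 1 ≤ d) (y : L)
    (h2 : ∃ t e : B, t ∉ P₂ ∧ algebraMap B L t * y = algebraMap B L (φ π ^ d * e)) :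
    ∃ y' : L, (∃ t e : B, t ∉ P₁ ∧ algebraMap B L t * y' = algebraMap B L (φ π ^ (d + 1) * e)) ∧
      algebraMap L1 L (Algebra.norm L1 (1 + y)) = (1 + y) * (1 + y') := by
  by_cases h0 : 1 + y = 0
  · refine ⟨0, ⟨1, 0, fun h => hP₁'.ne_top ((Ideal.eq_top_iff_one _).2 h), by simp⟩, ?_⟩
    rw [h0, Algebra.norm_zero, map_zero, zero_mul]
  · obtain ⟨t, e, ht, hte⟩ := norm_sub_self φ hφ hint π hπ p hπp hprin P₁ P₂ hP₁ hall hloc hf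
      ℓ hℓp hℓ hn hrad d hd (1 + y) h0 (by rw [add_sub_cancel_left]; exact h2)
    refine ⟨(algebraMap L1 L (Algebra.norm L1 (1 + y)) - (1 + y)) / (1 + y), ⟨t, e, ht, ?_⟩, ?_⟩
    · rw [← mul_div_assoc, hte, mul_div_assoc, div_self h0, mul_one]
    · rw [mul_add, mul_one, ← mul_div_assoc, mul_div_cancel_left₀ _ h0, add_sub_cancel]

end Concrete

end Fermat.Agent.S44.L.FierceNorm
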