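/-
S44 / Program MR, strand L, row (L.R3), chart-level instance (helper44): THE FIERCE BLOCK OF
`S44/L/FierceNorm` FOR THE TWO GAUSS PRIMES OF A CHART RING.

* `hfierce_of_red` (no `q`-series): `B1 → B` integral, `π` prime in `B1`, two reduction maps
  `r₁, r₂ : B → K` (a domain) which restrict along `φ` to `rM` and `F ∘ rM` (`rM : B1 → K` the
  reduction of `B1`, `ker rM = (π)`; `F : K → K` is "`q ↦ q ^ ℓ`"), with the exits of a
  two-primes package (SAT `ker r₁ ∩ ker r₂ = (π)`, the primes over `(π)` are `ker r₁`, `ker r₂`,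
  ONTO `r₁ (B) ⊆ rM (B1)`, a separator), `[L : L1] = ℓ + 1`, `π ∣ ℓ`, and the radicial input
  `F (rM s) * r₂ c ^ ℓ = F (rM r)`.  Conclusion: the junction binder `hfierce` of
  `S44/L/Depth.depthGE_succ_of_norm` (`P₁ := ker r₁` the iso branch, `P₂ := ker r₂` the fierce
  branch).

* `hfierce_alpha`, `hfierce_beta`: the same in the vocabulary of `S34/TwoPrimesGauss`
  (`Chart O u' → Chart O (α u')`, `redInf`, `redZero`, `redM`, `incl`, the Atkin–Lehner
  automorphism `w`), for the two degeneracy maps `α` and `β = w ∘ α`; the hypotheses are the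
  five exits of `TwoPrimesGauss.package` (any variant supplies them) and ONE new input `hfr`:
  the `ℓ`-th power of a reduced function of level `M` is a reduced function of level `M` in
  `q ^ ℓ` (stability of the reduced field under the coefficient Frobenius).
-/
import Mathlib
import Fermat.Agent.S44.L.FierceNorm
import Fermat.Agent.S44.L.Depth
import Fermat.Agent.S34.TwoPrimesGauss

set_option autoImplicit false
set_option linter.unusedSectionVars false

namespace Fermat.Agent.S44.L.FierceChart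

open Fermat.Agent.S44.L

/-! ### The fierce block from two reduction maps (no `q`-series) -/

section Abstract

variable {B1 B L1 L : Type*} [CommRing B1] [IsDomain B1] [IsNoetherianRing B1] [CommRing B]
  [IsDomain B] [Field L1] [Field L] [Algebra B1 L1] [IsFractionRing B1 L1] [Algebra B L]
  [IsFractionRing B L] [Algebra L1 L] [FiniteDimensional L1 L] [Algebra.IsSeparable L1 L]
  (φ : B1 →+* B) (hφ : ∀ b, algebraMap L1 L (algebraMap B1 L1 b) = algebraMap B L (φ b))
  (hint : φ.IsIntegral)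

include hφ hint in
/-- **The norm raises the depth, from two reduction maps.**  `r₁`, `r₂ : B → K` are the
reductions at the two primes over `(π)`; along `φ` the first restricts to the reduction `rM` of
`B1` (iso branch) and the second to `F ∘ rM` (`F` = "`q ↦ q ^ ℓ`", fierce branch). -/
theorem hfierce_of_red (π : B1) (hπ : Prime π) {K : Type*} [CommRing K] [IsDomain K]
    (r₁ r₂ : B →+* K) (rM : B1 →+* K) (F : K →+* K)
    (h₁ : ∀ a, r₁ (φ a) = rM a) (h₂ : ∀ a, r₂ (φ a) = F (rM a))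
    (hπM : rM π = 0) (hcentre : ∀ a, rM a = 0 → π ∣ a)
    (hsat : ∀ c : B, r₁ c = 0 → r₂ c = 0 → φ π ∣ c)
    (hker : ∀ Q : Ideal B, Q.IsPrime → Q.comap φ = Ideal.span {π} →
      Q = RingHom.ker r₁ ∨ Q = RingHom.ker r₂)
    (hsep : ∃ c : B, r₂ c = 0 ∧ r₁ c ≠ 0)
    (honto : ∀ c : B, ∃ a : B1, r₁ c = rM a)
    (ℓ : ℕ) (hℓp : ℓ.Prime) (hℓ : π ∣ (ℓ : B1)) (hn : Module.finrank L1 L = ℓ + 1)
    (hrad : ∀ c : B, ∃ s r : B1, rM s ≠ 0 ∧ F (rM s) * r₂ c ^ ℓ = F (rM r)) :
    ∀ d : ℕ, 1 ≤ d → ∀ y : L, Depth.MemPow (φ π) (RingHom.ker r₂) d y →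
      ∃ y' : L, Depth.MemPow (φ π) (RingHom.ker r₁) (d + 1) y' ∧
        algebraMap L1 L (Algebra.norm L1 (1 + y)) = (1 + y) * (1 + y') := by
  have hp : (Ideal.span {π}).IsPrime := (Ideal.span_singleton_prime hπ.ne_zero).2 hπ
  have hP₁ : (RingHom.ker r₁).IsPrime := RingHom.ker_isPrime r₁
  have hmemp : ∀ a : B1, a ∈ Ideal.span {π} ↔ rM a = 0 := by
    intro a
    rw [Ideal.mem_span_singleton]
    constructor
    · rintro ⟨b, rfl⟩
      rw [map_mul, hπM, zero_mul]
    · exact hcentre a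
  have hcomap : (RingHom.ker r₁).comap φ = Ideal.span {π} := by
    ext a
    rw [Ideal.mem_comap, RingHom.mem_ker, h₁, hmemp]
  have hprin : ∀ x ∈ Ideal.span {π}, ∃ s, s ∉ Ideal.span {π} ∧ s * x ∈ Ideal.span {π} :=
    fun x hx => ⟨1, fun h => hp.ne_top ((Ideal.eq_top_iff_one _).2 h), by rwa [one_mul]⟩
  have hloc : ∀ c ∈ RingHom.ker r₁, ∃ t : B, t ∉ RingHom.ker r₁ ∧ φ π ∣ t * c := by
    intro c hc
    obtain ⟨t, ht2, ht1⟩ := hsep
    refine ⟨t, fun h => ht1 (RingHom.mem_ker.1 h), hsat _ ?_ ?_⟩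
    · rw [map_mul, RingHom.mem_ker.1 hc, mul_zero]
    · rw [map_mul, ht2, zero_mul]
  have hf : ∀ c : B, ∃ s r : B1, s ∉ Ideal.span {π} ∧ φ s * c - φ r ∈ RingHom.ker r₁ := by
    intro c
    obtain ⟨a, ha⟩ := honto c
    refine ⟨1, a, fun h => hp.ne_top ((Ideal.eq_top_iff_one _).2 h), ?_⟩
    rw [RingHom.mem_ker, map_sub, map_mul, map_one, map_one, one_mul, h₁, ha, sub_self]
  have hrad' : ∀ c : B, ∃ s r : B1, s ∉ Ideal.span {π} ∧
      φ s * c ^ ℓ - φ r ∈ RingHom.ker r₂ := by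
    intro c
    obtain ⟨s, r, hs, hsr⟩ := hrad c
    refine ⟨s, r, fun h => hs ((hmemp s).1 h), ?_⟩
    rw [RingHom.mem_ker, map_sub, map_mul, map_pow, h₂, h₂, hsr, sub_self]
  intro d hd y hy
  exact FierceNorm.norm_eq_mul_one_add φ hφ hint π hπ.ne_zero (Ideal.span {π})
    (Ideal.mem_span_singleton_self π) hprin (RingHom.ker r₁) (RingHom.ker r₂) hcomap hker
    hloc hf ℓ hℓp (Ideal.mem_span_singleton.2 hℓ) hn hrad' d hd y hy

end Abstract

/-! ### The two Gauss primes of a chart ring (vocabulary of `S34/TwoPrimesGauss`) -/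

section Chart

open ModularCurve Polynomial
open Fermat.Agent.S30 Fermat.Agent.S34.TwoPrimesGauss

variable {O E : Type*} [CommRing O] [IsDomain O] [IsDiscreteValuationRing O] [Field E]
  [Algebra O E] [FaithfulSMul O E]
  {L' L : Type*} [Field L'] [Field L] [Algebra O L'] [Algebra O L]
  (ϖ : O) (hϖ : Irreducible ϖ)
  (α : L' →+* L) (hαO : ∀ r : O, α (algebraMap O L' r) = algebraMap O L r)
  (σ : L →+* LaurentSeries E)
  (hσO : ∀ r : O, σ (algebraMap O L r) = HahnSeries.C (algebraMap O E r))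
  (hσfrac : ∀ x : L, σ x ∈ GaussDVR.fracField O E)
  (u' : L') (U : LaurentSeries O) (hσu : σ (α u') = GaussDVR.iota O E U)
  (w : L ≃+* L) (hwO : ∀ r : O, w (algebraMap O L r) = algebraMap O L r)
  (ℓ : ℕ) [NeZero ℓ]
  (hwα : ∀ x : L', σ (w (α x)) = qExpand E ℓ (σ (α x)))

local notation "rI" => redInf ϖ hϖ α σ hσO hσfrac u' U hσu
local notation "rZ" => redZero ϖ hϖ α σ hσO hσfrac u' U hσu w hwO ℓ hwα
local notation "rM" => redM ϖ hϖ α hαO σ hσO hσfrac u' U hσu
local notation "ι" => incl α hαO u'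

/-- The automorphism `w` on the chart ring `C = Chart O (α u')`. -/
def wChart (hwint : ∀ c : L, IsIntegral (Algebra.adjoin O {α u'}) c →
    IsIntegral (Algebra.adjoin O {α u'}) (w c)) : Chart O (α u') →+* Chart O (α u') where
  toFun c := ⟨w (c : L), hwint c c.2⟩
  map_one' := Subtype.ext (map_one w)
  map_mul' _ _ := Subtype.ext (map_mul w _ _)
  map_zero' := Subtype.ext (map_zero w)
  map_add' _ _ := Subtype.ext (map_add w _ _)

theorem redInf_wChart (hwint : ∀ c : L, IsIntegral (Algebra.adjoin O {α u'}) c →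
    IsIntegral (Algebra.adjoin O {α u'}) (w c)) (c : Chart O (α u')) :
    rI (wChart α u' w hwint c) = rZ c := rfl

theorem redZero_wChart (hww : ∀ z : L, w (w z) = z)
    (hwint : ∀ c : L, IsIntegral (Algebra.adjoin O {α u'}) c →
      IsIntegral (Algebra.adjoin O {α u'}) (w c)) (c : Chart O (α u')) :
    rZ (wChart α u' w hwint c) = rI c := by
  show GaussDVR.red O E _ = GaussDVR.red O E _
  congr 1
  exact Subtype.ext (congrArg σ (hww (c : L)))

theorem wChart_wChart (hww : ∀ z : L, w (w z) = z)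
    (hwint : ∀ c : L, IsIntegral (Algebra.adjoin O {α u'}) c →
      IsIntegral (Algebra.adjoin O {α u'}) (w c)) (c : Chart O (α u')) :
    wChart α u' w hwint (wChart α u' w hwint c) = c := Subtype.ext (hww c)

/-- The chart ring of level `ℓ M` is integral over the chart ring of level `M`. -/
theorem incl_isIntegral : (incl (O := O) α hαO u').IsIntegral := by
  intro c
  obtain ⟨q, hq, hqc⟩ := polyChart_isIntegralElem (O := O) (α u') c
  have hcomp : (incl α hαO u').comp (polyChart (O := O) u') = polyChart (O := O) (α u') := by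
    refine RingHom.ext fun p => Subtype.ext ?_
    exact RingHom.congr_fun (aeval_alpha α hαO u') p
  refine ⟨q.map (polyChart (O := O) u'), hq.map _, ?_⟩
  rw [Polynomial.eval₂_map, hcomp]
  exact hqc

theorem wChart_comp_incl_isIntegral (hww : ∀ z : L, w (w z) = z)
    (hwint : ∀ c : L, IsIntegral (Algebra.adjoin O {α u'}) c →
      IsIntegral (Algebra.adjoin O {α u'}) (w c)) :
    ((wChart α u' w hwint).comp (incl (O := O) α hαO u')).IsIntegral := by
  intro c
  obtain ⟨p, hp, hpc⟩ := incl_isIntegral (O := O) α hαO u' (wChart α u' w hwint c)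
  refine ⟨p, hp, ?_⟩
  have h := congrArg (wChart α u' w hwint) hpc
  rw [Polynomial.hom_eval₂, map_zero, wChart_wChart α u' w hww hwint] at h
  exact h

/-- `ℓ` is divisible by `ϖ` in the chart ring. -/
theorem piC_dvd_natCast (hℓϖ : ϖ ∣ (ℓ : O)) : piC u' ϖ ∣ ((ℓ : ℕ) : Chart O u') := by
  obtain ⟨b, hb⟩ := hℓϖ
  refine ⟨algebraMap (Algebra.adjoin O {u'}) (Chart O u')
    (algebraMap O (Algebra.adjoin O {u'}) b), ?_⟩
  have h : ((ℓ : ℕ) : Chart O u') = algebraMap (Algebra.adjoin O {u'}) (Chart O u')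
      (algebraMap O (Algebra.adjoin O {u'}) (ℓ : O)) := by
    rw [map_natCast, map_natCast]
  rw [h, hb, map_mul, map_mul]

/-- The primes of the chart ring over `(ϖ)`, in comap form. -/
theorem eq_ker_of_comap
    (hker : ∀ Q : Ideal (Chart O (α u')), Q.IsPrime → piC (α u') ϖ ∈ Q →
      (∀ a : Chart O u', ι a ∈ Q → piC u' ϖ ∣ a) → Q = RingHom.ker rI ∨ Q = RingHom.ker rZ)
    (Q : Ideal (Chart O (α u'))) (hQ : Q.IsPrime)
    (hc : Q.comap ι = Ideal.span {piC u' ϖ}) : Q = RingHom.ker rI ∨ Q = RingHom.ker rZ := by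
  refine hker Q hQ ?_ ?_
  · have h : piC u' ϖ ∈ Q.comap ι := by
      rw [hc]; exact Ideal.mem_span_singleton_self _
    rw [Ideal.mem_comap, incl_piC] at h
    exact h
  · intro a ha
    have h : a ∈ Q.comap ι := Ideal.mem_comap.2 ha
    rw [hc, Ideal.mem_span_singleton] at h
    exact h

/-- **The norm along `α` raises the depth**: `y ∈ ϖ ^ d C_{p_0}` (fierce branch of `α`),
`1 ≤ d`: `N_α (1 + y) = (1 + y) (1 + y')` with `y' ∈ ϖ ^ (d+1) C_{p_∞}`.  Inputs: the exits of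
the two-primes package (`hcentre`, SAT, the two primes, ONTO, a separator), the degree
`[L : L'] = ℓ + 1`, `ϖ ∣ ℓ`, and `hfr`: the `ℓ`-th power of a reduced function of level `M` is
a reduced function of level `M` in `q ^ ℓ`. -/
theorem hfierce_alpha [IsNoetherianRing (Chart O u')] [IsFractionRing (Chart O u') L']
    [IsFractionRing (Chart O (α u')) L] [Algebra L' L] (hα : ∀ x, algebraMap L' L x = α x)
    [FiniteDimensional L' L] [Algebra.IsSeparable L' L]
    (hprime : Prime (piC u' ϖ))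
    (hcentre : ∀ a : Chart O u', rM a = 0 → piC u' ϖ ∣ a)
    (hsat : ∀ c : Chart O (α u'), rI c = 0 → rZ c = 0 → piC (α u') ϖ ∣ c)
    (hker : ∀ Q : Ideal (Chart O (α u')), Q.IsPrime → piC (α u') ϖ ∈ Q →
      (∀ a : Chart O u', ι a ∈ Q → piC u' ϖ ∣ a) → Q = RingHom.ker rI ∨ Q = RingHom.ker rZ)
    (honto : ∀ c : Chart O (α u'), ∃ a : Chart O u', rI (c - ι a) = 0)
    (hsepZ : ∃ c : Chart O (α u'), rZ c = 0 ∧ rI c ≠ 0)
    (hwint : ∀ c : L, IsIntegral (Algebra.adjoin O {α u'}) c →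
      IsIntegral (Algebra.adjoin O {α u'}) (w c))
    (hℓp : ℓ.Prime) (hℓϖ : ϖ ∣ (ℓ : O)) (hn : Module.finrank L' L = ℓ + 1)
    (hfr : ∀ a : Chart O u', ∃ s r : Chart O u', rM s ≠ 0 ∧
      qExpand (IsLocalRing.ResidueField O) ℓ (rM s) * rM a ^ ℓ =
        qExpand (IsLocalRing.ResidueField O) ℓ (rM r)) :
    ∀ d : ℕ, 1 ≤ d → ∀ y : L, Depth.MemPow (piC (α u') ϖ) (RingHom.ker rZ) d y →
      ∃ y' : L, Depth.MemPow (piC (α u') ϖ) (RingHom.ker rI) (d + 1) y' ∧
        algebraMap L' L (Algebra.norm L' (1 + y)) = (1 + y) * (1 + y') := by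
  have hontoI : ∀ c : Chart O (α u'), ∃ a : Chart O u', rI c = rM a := by
    intro c
    obtain ⟨a, ha⟩ := honto c
    refine ⟨a, ?_⟩
    rw [map_sub, sub_eq_zero] at ha
    rw [ha]
    rfl
  have key := hfierce_of_red (L1 := L') (L := L) ι (fun b => hα _) (incl_isIntegral α hαO u')
    (piC u' ϖ) hprime rI rZ rM (qExpand (IsLocalRing.ResidueField O) ℓ)
    (fun a => rfl) (fun a => redZero_incl ϖ hϖ α hαO σ hσO hσfrac u' U hσu w hwO ℓ hwα a)
    (redHom_piC (σ.comp α) (sigmaM_O α hαO σ hσO) ϖ hϖ (fun x => hσfrac (α x)) u' U hσu)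
    hcentre
    (fun c h1 h2 => by rw [incl_piC]; exact hsat c h1 h2)
    (eq_ker_of_comap ϖ hϖ α hαO σ hσO hσfrac u' U hσu w hwO ℓ hwα hker)
    hsepZ hontoI ℓ hℓp (piC_dvd_natCast ϖ u' ℓ hℓϖ) hn
    (fun c => by
      obtain ⟨a, ha⟩ := hontoI (wChart α u' w hwint c)
      obtain ⟨s, r, hs, hsr⟩ := hfr a
      refine ⟨s, r, hs, ?_⟩
      rw [← redInf_wChart ϖ hϖ α σ hσO hσfrac u' U hσu w hwO ℓ hwα hwint c, ha]
      exact hsr)
  rw [incl_piC] at key
  exact key

/-- **The norm along `β = w ∘ α` raises the depth**: `y ∈ ϖ ^ d C_{p_∞}` (fierce branch of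
`β`), `1 ≤ d`: `N_β (1 + y) = (1 + y) (1 + y')` with `y' ∈ ϖ ^ (d+1) C_{p_0}`. -/
theorem hfierce_beta [IsNoetherianRing (Chart O u')] [IsFractionRing (Chart O u') L']
    [IsFractionRing (Chart O (α u')) L] [Algebra L' L] (hβ : ∀ x, algebraMap L' L x = w (α x))
    [FiniteDimensional L' L] [Algebra.IsSeparable L' L]
    (hww : ∀ z : L, w (w z) = z)
    (hprime : Prime (piC u' ϖ))
    (hcentre : ∀ a : Chart O u', rM a = 0 → piC u' ϖ ∣ a)
    (hsat : ∀ c : Chart O (α u'), rI c = 0 → rZ c = 0 → piC (α u') ϖ ∣ c)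
    (hker : ∀ Q : Ideal (Chart O (α u')), Q.IsPrime → piC (α u') ϖ ∈ Q →
      (∀ a : Chart O u', ι a ∈ Q → piC u' ϖ ∣ a) → Q = RingHom.ker rI ∨ Q = RingHom.ker rZ)
    (honto : ∀ c : Chart O (α u'), ∃ a : Chart O u', rI (c - ι a) = 0)
    (hsepI : ∃ c : Chart O (α u'), rI c = 0 ∧ rZ c ≠ 0)
    (hwint : ∀ c : L, IsIntegral (Algebra.adjoin O {α u'}) c →
      IsIntegral (Algebra.adjoin O {α u'}) (w c))
    (hℓp : ℓ.Prime) (hℓϖ : ϖ ∣ (ℓ : O)) (hn : Module.finrank L' L = ℓ + 1)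
    (hfr : ∀ a : Chart O u', ∃ s r : Chart O u', rM s ≠ 0 ∧
      qExpand (IsLocalRing.ResidueField O) ℓ (rM s) * rM a ^ ℓ =
        qExpand (IsLocalRing.ResidueField O) ℓ (rM r)) :
    ∀ d : ℕ, 1 ≤ d → ∀ y : L, Depth.MemPow (piC (α u') ϖ) (RingHom.ker rI) d y →
      ∃ y' : L, Depth.MemPow (piC (α u') ϖ) (RingHom.ker rZ) (d + 1) y' ∧
        algebraMap L' L (Algebra.norm L' (1 + y)) = (1 + y) * (1 + y') := by
  have hontoI : ∀ c : Chart O (α u'), ∃ a : Chart O u', rI c = rM a := by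
    intro c
    obtain ⟨a, ha⟩ := honto c
    refine ⟨a, ?_⟩
    rw [map_sub, sub_eq_zero] at ha
    rw [ha]
    rfl
  have hπ' : ((wChart α u' w hwint).comp ι) (piC u' ϖ) = piC (α u') ϖ := by
    apply Subtype.ext
    show w (α (algebraMap O L' ϖ)) = algebraMap O L ϖ
    rw [hαO, hwO]
  have hww2 : (wChart α u' w hwint).comp (wChart α u' w hwint) = RingHom.id _ :=
    RingHom.ext (fun c => wChart_wChart α u' w hww hwint c)
  have hkerβ : ∀ Q : Ideal (Chart O (α u')), Q.IsPrime →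
      Q.comap ((wChart α u' w hwint).comp ι) = Ideal.span {piC u' ϖ} →
      Q = RingHom.ker rZ ∨ Q = RingHom.ker rI := by
    intro Q hQ hc
    have hQ' : (Q.comap (wChart α u' w hwint)).IsPrime := Ideal.comap_isPrime _ _
    have hc' : (Q.comap (wChart α u' w hwint)).comap ι = Ideal.span {piC u' ϖ} := by
      rw [Ideal.comap_comap]; exact hc
    have hQQ : (Q.comap (wChart α u' w hwint)).comap (wChart α u' w hwint) = Q := by
      rw [Ideal.comap_comap, hww2, Ideal.comap_id]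
    rcases eq_ker_of_comap ϖ hϖ α hαO σ hσO hσfrac u' U hσu w hwO ℓ hwα hker _ hQ' hc'
      with h | h
    · left
      rw [← hQQ, h]
      ext c
      rw [Ideal.mem_comap, RingHom.mem_ker, RingHom.mem_ker,
        redInf_wChart ϖ hϖ α σ hσO hσfrac u' U hσu w hwO ℓ hwα hwint c]
    · right
      rw [← hQQ, h]
      ext c
      rw [Ideal.mem_comap, RingHom.mem_ker, RingHom.mem_ker,
        redZero_wChart ϖ hϖ α σ hσO hσfrac u' U hσu w hwO ℓ hwα hww hwint c]
  have key := hfierce_of_red (L1 := L') (L := L) ((wChart α u' w hwint).comp ι)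
    (fun b => hβ _) (wChart_comp_incl_isIntegral α hαO u' w hww hwint)
    (piC u' ϖ) hprime rZ rI rM (qExpand (IsLocalRing.ResidueField O) ℓ)
    (fun a => redZero_wChart ϖ hϖ α σ hσO hσfrac u' U hσu w hwO ℓ hwα hww hwint (ι a))
    (fun a => by
      rw [RingHom.comp_apply, redInf_wChart ϖ hϖ α σ hσO hσfrac u' U hσu w hwO ℓ hwα hwint]
      exact redZero_incl ϖ hϖ α hαO σ hσO hσfrac u' U hσu w hwO ℓ hwα a)
    (redHom_piC (σ.comp α) (sigmaM_O α hαO σ hσO) ϖ hϖ (fun x => hσfrac (α x)) u' U hσu)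
    hcentre
    (fun c h1 h2 => by rw [hπ']; exact hsat c h2 h1)
    hkerβ hsepI
    (fun c => by
      obtain ⟨a, ha⟩ := hontoI (wChart α u' w hwint c)
      exact ⟨a, by rw [← redInf_wChart ϖ hϖ α σ hσO hσfrac u' U hσu w hwO ℓ hwα hwint c, ha]⟩)
    ℓ hℓp (piC_dvd_natCast ϖ u' ℓ hℓϖ) hn
    (fun c => by
      obtain ⟨a, ha⟩ := hontoI c
      obtain ⟨s, r, hs, hsr⟩ := hfr a
      exact ⟨s, r, hs, by rw [ha]; exact hsr⟩)
  rw [hπ'] at key
  exact key

end Chart

end Fermat.Agent.S44.L.FierceChart
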