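/-
S44 / Program MR, strand L, row (L.R3), chart level (helper44): THE RADICIAL INPUT `hfr` OF
`S44/L/FierceChart.hfierce_alpha` / `hfierce_beta` FROM A FROBENIUS LIFT.

Vocabulary of `S34/TwoPrimesGauss` and `S34/Modular/Kronecker`: `σO : O → O` a ring
endomorphism inducing the `ℓ`-power map on the residue field, `σE : E → E` extending it,
`Φ : L' → L'` a ring endomorphism of the level-`M` field acting on `q`-expansions through the
coefficients (`σ (α (Φ x)) = coeffMap σE (σ (α x))`) and preserving integrality over `O[u']`.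
Then, by the Kronecker congruence `red ((σE y)(q^ℓ)) = (red y)^ℓ`, for `a` in the level-`M`
chart ring: `(rM a)^ℓ = (rM (Φ a))(q^ℓ)`, which is `hfr` with `s = 1`, `r = Φ a`.
(E-level supplier: `S36/BaseFrob` — `sOK`, `resK`, `galK` of a Frobenius element.)
-/
import Mathlib
import Fermat.Agent.S44.L.FierceChart
import Fermat.Agent.S34.Modular.Kronecker

set_option autoImplicit false
set_option linter.unusedSectionVars false

namespace Fermat.Agent.S44.L.FierceFrob

open ModularCurve Polynomial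
open Fermat.Agent.S30 Fermat.Agent.S34.TwoPrimesGauss

variable {O E : Type*} [CommRing O] [IsDomain O] [IsDiscreteValuationRing O] [Field E]
  [Algebra O E] [FaithfulSMul O E]
  {L' L : Type*} [Field L'] [Field L] [Algebra O L'] [Algebra O L]
  (ϖ : O) (hϖ : Irreducible ϖ)
  (α : L' →+* L) (hαO : ∀ r : O, α (algebraMap O L' r) = algebraMap O L r)
  (σ : L →+* LaurentSeries E)
  (hσO : ∀ r : O, σ (algebraMap O L r) = HahnSeries.C (algebraMap O E r))
  (hσfrac : ∀ x : L, σ x ∈ GaussDVR.fracField O E)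
  (u' : L') (U : LaurentSeries O) (hσu : σ (α u') = GaussDVR.iota O E U)
  (ℓ : ℕ) [NeZero ℓ]

local notation "rM" => redM ϖ hϖ α hαO σ hσO hσfrac u' U hσu

/-- **`hfr` from a Frobenius lift acting on coefficients.** -/
theorem hfr_of_frob [Fact ℓ.Prime] [CharP (IsLocalRing.ResidueField O) ℓ]
    (σO : O →+* O)
    (hres : ∀ a : O, IsLocalRing.residue O (σO a) = IsLocalRing.residue O a ^ ℓ)
    (σE : E →+* E) (hσE : ∀ a : O, σE (algebraMap O E a) = algebraMap O E (σO a))
    (Φ : L' →+* L') (hΦ : ∀ x : L', σ (α (Φ x)) = coeffMap σE (σ (α x)))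
    (hΦint : ∀ x : L', IsIntegral (Algebra.adjoin O {u'}) x →
      IsIntegral (Algebra.adjoin O {u'}) (Φ x)) :
    ∀ a : Chart O u', ∃ s r : Chart O u', rM s ≠ 0 ∧
      qExpand (IsLocalRing.ResidueField O) ℓ (rM s) * rM a ^ ℓ =
        qExpand (IsLocalRing.ResidueField O) ℓ (rM r) := by
  intro a
  have hmem : ∀ x : Chart O u', σ (α (x : L')) ∈ GaussDVR.V O E := fun x =>
    (toV (σ.comp α) (sigmaM_O α hαO σ hσO) ϖ hϖ (fun x => hσfrac (α x)) u' U hσu x).2
  have key : ∀ x : Chart O u', rM x = GaussDVR.red O E ⟨σ (α (x : L')), hmem x⟩ :=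
    fun x => rfl
  refine ⟨1, ⟨Φ (a : L'), hΦint _ a.2⟩, ?_, ?_⟩
  · rw [map_one]; exact one_ne_zero
  · rw [map_one, map_one, one_mul, key a, key ⟨Φ (a : L'), hΦint _ a.2⟩]
    have h1 := Fermat.Agent.S34.Modular.Kronecker.red_qExpand_coeffMap ℓ σO hres σE hσE
      (hmem a)
    have h2 := Fermat.Agent.S34.Modular.Kronecker.red_qExpand (O := O) (E := E) ℓ
      (hmem ⟨Φ (a : L'), hΦint _ a.2⟩)
    rw [← h2, ← h1]
    congr 1
    exact Subtype.ext (congrArg (qExpand E ℓ) (hΦ (a : L')).symm)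

end Fermat.Agent.S44.L.FierceFrob
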