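import Fermat.Agent.S44.L.DepthFierce

/-!
# S44 / strand L, row (L.R3): the ping-pong with the constants, three ready-to-call forms

All three conclude, for every `d`:

  `DepthC ℓ ϖ Pinf d ca f ∧ DepthC ℓ ϖ P0 d cb f`,

i.e. `f = ca * g ^ ℓ * (1 + y)` with `y ∈ ϖ ^ d B_{Pinf}` and `f = cb * g' ^ ℓ * (1 + y')` with
`y' ∈ ϖ ^ d B_{P0}`, where `ca`, `cb` are the constants of the two norms of `f`.

* `depthC_all_of_steps` : instance-free; the two step implications are hypotheses (for consumers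
  with two `letI := algebraAlong ..` blocks).
* `depthC_all_ringHom` : ONE base field `L'` with two ring homomorphisms `a b : L' →+* L` (the
  two degeneracy maps); the algebra structures `a.toAlgebra`, `b.toAlgebra` are introduced
  inside, the two fierce-norm binders are hypotheses (`FierceChart.hfierce_alpha`,
  `FierceChart.hfierce_beta` or `DepthFierce.hfierce_block` feed them).
* `r3_all` : two fierce blocks of `S44/L/FierceNorm` (two chart maps `φa : Ba → B`,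
  `φb : Bb → B`, the branches exchanged), everything discharged.
-/

set_option autoImplicit false
set_option linter.style.haveILetI false

namespace Fermat.Agent.S44.L.R3All

open Fermat.Agent.S44.L.Depth Fermat.Agent.S44.L.DepthFierce

section Steps

variable {E L B : Type*} [Field E] [Field L] [CommRing B] [Algebra E L] [Algebra B L]

/-- **Ping-pong with the constants, from the two step implications** (instance-free). -/
theorem depthC_all_of_steps {l : ℕ} (ϖ : B) (Pinf P0 : Ideal B) (f : L) {ca cb : E}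
    (hα : ∀ d, 1 ≤ d → DepthGE E l ϖ P0 d f → DepthC l ϖ Pinf (d + 1) ca f)
    (hβ : ∀ d, 1 ≤ d → DepthGE E l ϖ Pinf d f → DepthC l ϖ P0 (d + 1) cb f)
    (hca : ca ≠ 0) (hcb : cb ≠ 0)
    (h1 : DepthGE E l ϖ Pinf 1 f ∨ DepthGE E l ϖ P0 1 f) :
    ∀ d, DepthC l ϖ Pinf d ca f ∧ DepthC l ϖ P0 d cb f := by
  have hall := depthGE_all_of_steps (E := E) ϖ Pinf P0 f
    (fun d hd h => (hα d hd h).depthGE hca) (fun d hd h => (hβ d hd h).depthGE hcb) h1
  intro d
  have h := hall (d + 1)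
  exact ⟨(hα (d + 1) (Nat.le_add_left 1 d) h.2).mono (Nat.le_add_right d 2),
    (hβ (d + 1) (Nat.le_add_left 1 d) h.1).mono (Nat.le_add_right d 2)⟩

end Steps

section RingHom

variable {E L' L B : Type*} [Field E] [Field L'] [Field L] [CommRing B] [Algebra E L']
  [Algebra E L] [Algebra B L]

/-- **Ping-pong with the constants along two ring homomorphisms** `a b : L' →+* L` (the two
degeneracy maps; `P0` the fierce branch of `a`, `Pinf` the fierce branch of `b`).  The norms are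
those of the algebra structures `a.toAlgebra`, `b.toAlgebra`. -/
theorem depthC_all_ringHom (a b : L' →+* L)
    (haE : ∀ c : E, a (algebraMap E L' c) = algebraMap E L c)
    (hbE : ∀ c : E, b (algebraMap E L' c) = algebraMap E L c)
    (hfa : letI := a.toAlgebra; FiniteDimensional L' L)
    (hfb : letI := b.toAlgebra; FiniteDimensional L' L)
    (hinj : Function.Injective (algebraMap B L)) {l : ℕ} (hl : l ≠ 0)
    (hna : letI := a.toAlgebra; Module.finrank L' L = l + 1)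
    (hnb : letI := b.toAlgebra; Module.finrank L' L = l + 1)
    (ϖ : B) (Pinf P0 : Ideal B) (hinf : ϖ ∈ Pinf) (h0 : ϖ ∈ P0)
    (hα : ∀ d : ℕ, 1 ≤ d → ∀ y : L, MemPow ϖ P0 d y →
      ∃ y' : L, MemPow ϖ Pinf (d + 1) y' ∧
        a (letI := a.toAlgebra; Algebra.norm L' (1 + y)) = (1 + y) * (1 + y'))
    (hβ : ∀ d : ℕ, 1 ≤ d → ∀ y : L, MemPow ϖ Pinf d y →
      ∃ y' : L, MemPow ϖ P0 (d + 1) y' ∧
        b (letI := b.toAlgebra; Algebra.norm L' (1 + y)) = (1 + y) * (1 + y'))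
    (f : L) (hf : f ≠ 0) {ca cb : E} {ka kb : L'}
    (hNa : (letI := a.toAlgebra; Algebra.norm L' f) = algebraMap E L' ca * ka ^ l)
    (hNb : (letI := b.toAlgebra; Algebra.norm L' f) = algebraMap E L' cb * kb ^ l)
    (h1 : DepthGE E l ϖ Pinf 1 f ∨ DepthGE E l ϖ P0 1 f) :
    ∀ d, DepthC l ϖ Pinf d ca f ∧ DepthC l ϖ P0 d cb f := by
  have hne : ∀ (g : L' →+* L) (_ : letI := g.toAlgebra; FiniteDimensional L' L) {c : E}
      {k : L'}, (letI := g.toAlgebra; Algebra.norm L' f) = algebraMap E L' c * k ^ l → c ≠ 0 := by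
    intro g hg c k hN
    letI := g.toAlgebra
    haveI : FiniteDimensional L' L := hg
    rintro rfl
    rw [map_zero, zero_mul] at hN
    exact hf (Algebra.norm_eq_zero_iff.1 hN)
  refine depthC_all_of_steps ϖ Pinf P0 f ?_ ?_ (hne a hfa hNa) (hne b hfb hNb) h1
  · intro d hd h
    letI := a.toAlgebra
    haveI : FiniteDimensional L' L := hfa
    haveI : IsScalarTower E L' L := IsScalarTower.of_algebraMap_eq (fun c => (haE c).symm)
    exact depthC_succ_of_norm hinj hl hna ϖ Pinf P0 hinf hα f hf hNa d hd h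
  · intro d hd h
    letI := b.toAlgebra
    haveI : FiniteDimensional L' L := hfb
    haveI : IsScalarTower E L' L := IsScalarTower.of_algebraMap_eq (fun c => (hbE c).symm)
    exact depthC_succ_of_norm hinj hl hnb ϖ P0 Pinf h0 hβ f hf hNb d hd h

end RingHom

section Blocks

variable {E Ba Bb B La Lb L : Type*} [Field E]
  [CommRing Ba] [IsDomain Ba] [IsNoetherianRing Ba]
  [CommRing Bb] [IsDomain Bb] [IsNoetherianRing Bb]
  [CommRing B] [IsDomain B] [Field La] [Field Lb] [Field L]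
  [Algebra Ba La] [IsFractionRing Ba La] [Algebra Bb Lb] [IsFractionRing Bb Lb]
  [Algebra B L] [IsFractionRing B L]
  [Algebra La L] [FiniteDimensional La L] [Algebra.IsSeparable La L]
  [Algebra Lb L] [FiniteDimensional Lb L] [Algebra.IsSeparable Lb L]
  [Algebra E La] [Algebra E Lb] [Algebra E L] [IsScalarTower E La L] [IsScalarTower E Lb L]
  (φa : Ba →+* B) (hφa : ∀ b, algebraMap La L (algebraMap Ba La b) = algebraMap B L (φa b))
  (hinta : φa.IsIntegral)
  (φb : Bb →+* B) (hφb : ∀ b, algebraMap Lb L (algebraMap Bb Lb b) = algebraMap B L (φb b))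
  (hintb : φb.IsIntegral)

include hφa hinta hφb hintb in
/-- **(L.R3) in one call, block form.**  `φa`, `φb` the two degeneracy maps of chart rings;
`Pinf` is the iso branch of `φa` and the fierce branch of `φb`, `P0` the other way round; both
send the uniformiser to `ϖ`.  If `N_a f = ca * ka ^ ℓ`, `N_b f = cb * kb ^ ℓ` and `f` has depth
`≥ 1` at one branch, then for every `d`: `f = ca * g ^ ℓ * (1 + y)` with `y ∈ ϖ ^ d B_{Pinf}` and
`f = cb * g' ^ ℓ * (1 + y')` with `y' ∈ ϖ ^ d B_{P0}`. -/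
theorem r3_all (ϖ : B) (Pinf P0 : Ideal B) [Pinf.IsPrime] [P0.IsPrime]
    (ℓ : ℕ) (hℓp : ℓ.Prime)
    -- the block of `φa` : iso branch `Pinf`, fierce branch `P0`
    (πa : Ba) (hπa : πa ≠ 0) (hϖa : φa πa = ϖ) (pa : Ideal Ba) [pa.IsPrime] (hπpa : πa ∈ pa)
    (hprina : ∀ x ∈ pa, ∃ s, s ∉ pa ∧ s * x ∈ Ideal.span {πa})
    (hPa : Pinf.comap φa = pa)
    (halla : ∀ Q : Ideal B, Q.IsPrime → Q.comap φa = pa → Q = Pinf ∨ Q = P0)
    (hloca : ∀ c ∈ Pinf, ∃ t : B, t ∉ Pinf ∧ φa πa ∣ t * c)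
    (hfa : ∀ c : B, ∃ s r : Ba, s ∉ pa ∧ φa s * c - φa r ∈ Pinf)
    (hℓa : (ℓ : Ba) ∈ pa) (hna : Module.finrank La L = ℓ + 1)
    (hrada : ∀ c : B, ∃ s r : Ba, s ∉ pa ∧ φa s * c ^ ℓ - φa r ∈ P0)
    -- the block of `φb` : iso branch `P0`, fierce branch `Pinf`
    (πb : Bb) (hπb : πb ≠ 0) (hϖb : φb πb = ϖ) (pb : Ideal Bb) [pb.IsPrime] (hπpb : πb ∈ pb)
    (hprinb : ∀ x ∈ pb, ∃ s, s ∉ pb ∧ s * x ∈ Ideal.span {πb})
    (hPb : P0.comap φb = pb)
    (hallb : ∀ Q : Ideal B, Q.IsPrime → Q.comap φb = pb → Q = P0 ∨ Q = Pinf)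
    (hlocb : ∀ c ∈ P0, ∃ t : B, t ∉ P0 ∧ φb πb ∣ t * c)
    (hfb : ∀ c : B, ∃ s r : Bb, s ∉ pb ∧ φb s * c - φb r ∈ P0)
    (hℓb : (ℓ : Bb) ∈ pb) (hnb : Module.finrank Lb L = ℓ + 1)
    (hradb : ∀ c : B, ∃ s r : Bb, s ∉ pb ∧ φb s * c ^ ℓ - φb r ∈ Pinf)
    -- the function
    (f : L) (hf0 : f ≠ 0) {ca cb : E} {ka : La} {kb : Lb}
    (hNa : Algebra.norm La f = algebraMap E La ca * ka ^ ℓ)
    (hNb : Algebra.norm Lb f = algebraMap E Lb cb * kb ^ ℓ)
    (h1 : DepthGE E ℓ ϖ Pinf 1 f ∨ DepthGE E ℓ ϖ P0 1 f) :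
    ∀ d, DepthC ℓ ϖ Pinf d ca f ∧ DepthC ℓ ϖ P0 d cb f := by
  have hinfϖ : ϖ ∈ Pinf := by
    rw [← hϖa, ← Ideal.mem_comap, hPa]; exact hπpa
  have h0ϖ : ϖ ∈ P0 := by
    rw [← hϖb, ← Ideal.mem_comap, hPb]; exact hπpb
  have hα := hfierce_block φa hφa hinta πa hπa pa hπpa hprina Pinf P0 hPa halla hloca hfa
    ℓ hℓp hℓa hna hrada
  have hβ := hfierce_block φb hφb hintb πb hπb pb hπpb hprinb P0 Pinf hPb hallb hlocb hfb
    ℓ hℓp hℓb hnb hradb
  rw [hϖa] at hα
  rw [hϖb] at hβ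
  exact depthC_all (IsFractionRing.injective B L) hℓp.ne_zero hna hnb ϖ Pinf P0 hinfϖ h0ϖ
    hα hβ f hf0 hNa hNb h1

end Blocks

end Fermat.Agent.S44.L.R3All
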