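import Fermat.Agent.S44.L.FierceChart
import Fermat.Agent.S44.L.R3All

/-!
# S44 / strand L, row (L.R3): the ping-pong at chart level (vocabulary of `S34/TwoPrimesGauss`)

`r3_chart` : in the variable block of `S34/TwoPrimesGauss` (`Chart O u' → Chart O (α u')`,
`redInf`, `redZero`, `redM`, `incl`, the Atkin–Lehner automorphism `w`), with the two
degeneracy maps `α` and `β = w ∘ α` (algebra structures `α.toAlgebra`,
`((w : L →+* L).comp α).toAlgebra`), the exits of the two-primes package and the Frobenius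
stability `hfr` of the reduced field (the hypotheses of `FierceChart.hfierce_alpha` /
`hfierce_beta`): if `N_α f = ca * ka ^ ℓ`, `N_β f = cb * kb ^ ℓ` (`ca cb` constants in a field
`K`) and `f` has depth `≥ 1` at one of the two Gauss primes, then for every `d`

  `f = ca * g ^ ℓ * (1 + y)`, `y ∈ ϖ ^ d C_{p_∞}`   and   `f = cb * g' ^ ℓ * (1 + y')`,
  `y' ∈ ϖ ^ d C_{p_0}`.

This is `R3All.depthC_all_ringHom` fed with `FierceChart.hfierce_alpha` and
`FierceChart.hfierce_beta`.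
-/

set_option autoImplicit false
set_option linter.unusedSectionVars false
set_option linter.style.haveILetI false

namespace Fermat.Agent.S44.L.R3Chart

open ModularCurve Polynomial
open Fermat.Agent.S30 Fermat.Agent.S34.TwoPrimesGauss
open Fermat.Agent.S44.L Fermat.Agent.S44.L.Depth

variable {O E : Type*} [CommRing O] [IsDomain O] [IsDiscreteValuationRing O] [Field E]
  [Algebra O E] [FaithfulSMul O E]
  {L' L : Type*} [Field L'] [Field L] [Algebra O L'] [Algebra O L]
  (ϖ : O) (hϖ : Irreducible ϖ)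
  (α : L' →+* L) (hαO : ∀ r : O, α (algebraMap O L' r) = algebraMap O L r)
  (σ : L →+* LaurentSeries E)
  (hσO : ∀ r : O, σ (algebraMap O L r) = HahnSeries.C (algebraMap O E r))
  (hσfrac : ∀ x : L, σ x ∈ GaussDVR.fracField O E)
  (u' : L') (U : LaurentSeries O) (hσu : σ (α u') = GaussDVR.iota O E U)
  (w : L ≃+* L) (hwO : ∀ r : O, w (algebraMap O L r) = algebraMap O L r)
  (ℓ : ℕ) [NeZero ℓ]
  (hwα : ∀ x : L', σ (w (α x)) = qExpand E ℓ (σ (α x)))

local notation "rI" => redInf ϖ hϖ α σ hσO hσfrac u' U hσu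
local notation "rZ" => redZero ϖ hϖ α σ hσO hσfrac u' U hσu w hwO ℓ hwα
local notation "rM" => redM ϖ hϖ α hαO σ hσO hσfrac u' U hσu
local notation "ι" => incl α hαO u'

/-- **(L.R3) at chart level.** -/
theorem r3_chart {K : Type*} [Field K] [Algebra K L'] [Algebra K L]
    (hKα : ∀ c : K, α (algebraMap K L' c) = algebraMap K L c)
    (hKw : ∀ c : K, w (algebraMap K L c) = algebraMap K L c)
    [IsNoetherianRing (Chart O u')] [IsFractionRing (Chart O u') L']
    [IsFractionRing (Chart O (α u')) L]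
    (hfinα : letI := α.toAlgebra; FiniteDimensional L' L)
    (hsepα : letI := α.toAlgebra; Algebra.IsSeparable L' L)
    (hnα : letI := α.toAlgebra; Module.finrank L' L = ℓ + 1)
    (hfinβ : letI := ((w : L →+* L).comp α).toAlgebra; FiniteDimensional L' L)
    (hsepβ : letI := ((w : L →+* L).comp α).toAlgebra; Algebra.IsSeparable L' L)
    (hnβ : letI := ((w : L →+* L).comp α).toAlgebra; Module.finrank L' L = ℓ + 1)
    (hww : ∀ z : L, w (w z) = z)
    (hprime : Prime (piC u' ϖ))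
    (hcentre : ∀ a : Chart O u', rM a = 0 → piC u' ϖ ∣ a)
    (hsat : ∀ c : Chart O (α u'), rI c = 0 → rZ c = 0 → piC (α u') ϖ ∣ c)
    (hker : ∀ Q : Ideal (Chart O (α u')), Q.IsPrime → piC (α u') ϖ ∈ Q →
      (∀ a : Chart O u', ι a ∈ Q → piC u' ϖ ∣ a) → Q = RingHom.ker rI ∨ Q = RingHom.ker rZ)
    (honto : ∀ c : Chart O (α u'), ∃ a : Chart O u', rI (c - ι a) = 0)
    (hsepZ : ∃ c : Chart O (α u'), rZ c = 0 ∧ rI c ≠ 0)
    (hsepI : ∃ c : Chart O (α u'), rI c = 0 ∧ rZ c ≠ 0)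
    (hwint : ∀ c : L, IsIntegral (Algebra.adjoin O {α u'}) c →
      IsIntegral (Algebra.adjoin O {α u'}) (w c))
    (hℓp : ℓ.Prime) (hℓϖ : ϖ ∣ (ℓ : O))
    (hfr : ∀ a : Chart O u', ∃ s r : Chart O u', rM s ≠ 0 ∧
      qExpand (IsLocalRing.ResidueField O) ℓ (rM s) * rM a ^ ℓ =
        qExpand (IsLocalRing.ResidueField O) ℓ (rM r))
    (f : L) (hf : f ≠ 0) {ca cb : K} {ka kb : L'}
    (hNa : (letI := α.toAlgebra; Algebra.norm L' f) = algebraMap K L' ca * ka ^ ℓ)
    (hNb : (letI := ((w : L →+* L).comp α).toAlgebra; Algebra.norm L' f) =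
      algebraMap K L' cb * kb ^ ℓ)
    (h1 : DepthGE K ℓ (piC (α u') ϖ) (RingHom.ker rI) 1 f ∨
      DepthGE K ℓ (piC (α u') ϖ) (RingHom.ker rZ) 1 f) :
    ∀ d, DepthC ℓ (piC (α u') ϖ) (RingHom.ker rI) d ca f ∧
      DepthC ℓ (piC (α u') ϖ) (RingHom.ker rZ) d cb f := by
  have hπI : piC (α u') ϖ ∈ RingHom.ker rI := by
    rw [RingHom.mem_ker]
    exact redHom_piC σ hσO ϖ hϖ hσfrac (α u') U hσu
  have hπZ : piC (α u') ϖ ∈ RingHom.ker rZ := by
    rw [RingHom.mem_ker]
    exact redHom_piC (σ.comp (w : L →+* L)) (sigmaW_O σ hσO w hwO) ϖ hϖ (fun x => hσfrac (w x))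
      (α u') (qExpand O ℓ U) (sigmaW_u α σ u' U hσu w ℓ hwα)
  refine R3All.depthC_all_ringHom α ((w : L →+* L).comp α) hKα
    (fun c => by rw [RingHom.comp_apply, hKα]; exact hKw c) hfinα hfinβ
    (IsFractionRing.injective _ L) hℓp.ne_zero hnα hnβ (piC (α u') ϖ) (RingHom.ker rI)
    (RingHom.ker rZ) hπI hπZ ?_ ?_ f hf hNa hNb h1
  · letI := α.toAlgebra
    haveI : FiniteDimensional L' L := hfinα
    haveI : Algebra.IsSeparable L' L := hsepα
    exact FierceChart.hfierce_alpha ϖ hϖ α hαO σ hσO hσfrac u' U hσu w hwO ℓ hwα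
      (fun x => rfl) hprime hcentre hsat hker honto hsepZ hwint hℓp hℓϖ hnα hfr
  · letI := ((w : L →+* L).comp α).toAlgebra
    haveI : FiniteDimensional L' L := hfinβ
    haveI : Algebra.IsSeparable L' L := hsepβ
    exact FierceChart.hfierce_beta ϖ hϖ α hαO σ hσO hσfrac u' U hσu w hwO ℓ hwα
      (fun x => rfl) hww hprime hcentre hsat hker honto hsepI hwint hℓp hℓϖ hnβ hfr

end Fermat.Agent.S44.L.R3Chart
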