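import Mathlib
import Fermat.Agent.S34.Sat
import Fermat.Agent.S34.HauptU.LevelMAux
import Fermat.Agent.S34.Modular.ChartZero
import Fermat.Agent.S36.StableBaseFrob
import Fermat.Agent.S44.L.R3Chart
import Fermat.Agent.S44.L.FierceFrob

/-!
# S44 / Program MR, strand L, row (L.R3): the E-level instance of `R3Chart.r3_chart`

Objects = the argument list of `S34/Sat.sat_j`: `O = OE A E`, `L' = LE M E`, `L = LE (M ℓ) E`,
`α = TwoPrimesRank.alphaHom M ℓ E`, `σ = Plug.sigmaHom (M ℓ) E`, `w = Plug.wHom M ℓ E hℓ hℓM`,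
`u' = jE M E`, `U = jqModC O`; `ℓ` is the residue characteristic of `A`.  `E` is ANY subfield
of `ℚ̄` with `A ∩ E` a discrete valuation ring (ramified or not).

* `hfr_of_stable`, `hfr_jE_of_stable`, `hfr_jE_of_stable_OL` : the Frobenius stability `hfr` of
  the reduced level-`M` chart when `E` is stable under a Frobenius element at `A`.
* `finrank_beta`, `finite_beta` : `β = w ∘ α` has degree `ℓ + 1`.
* `gauss_of_memPow` : chart-free form of `Depth.MemPow` at the kernel of a reduction map.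
* `r3_jE` (`DepthC` exit), `r3_jE_gauss` (chart-free exit), `r3_jE_gauss_of_root` (chart facts
  from a primitive `M`-th root of unity in `E`): `hfr`, the two norm equations and depth `≥ 1`
  at one Gauss prime are hypotheses.

Elaboration note: at `O = OE A E` the statements mentioning `Chart O u ⧸ _` or `RingHom.ker`
need `maxSynthPendingDepth 3`.
-/

set_option autoImplicit false
set_option linter.unusedSectionVars false
set_option linter.unusedVariables false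
set_option linter.style.haveILetI false
set_option synthInstance.maxHeartbeats 400000
set_option maxSynthPendingDepth 3
set_option maxHeartbeats 1600000

open ModularCurve Polynomial

noncomputable section

namespace Fermat.Agent.S44.L.R3Inst

open Fermat.Agent.S18.K1Defs Fermat.Agent.S30 Fermat.Agent.S30.E2Deg
open Fermat.Agent.S34 Fermat.Agent.S34.TwoPrimesRank Fermat.Agent.S34.HauptU.Plug
open Fermat.Agent.S34.TwoPrimesGauss Fermat.Agent.S34.Sat
open Fermat.Agent.S36.StableBase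
open Fermat.Agent.S44.L Fermat.Agent.S44.L.Depth

local notation "Qb" => AlgebraicClosure ℚ
local notation "Gq" => (AlgebraicClosure ℚ ≃ₐ[ℚ] AlgebraicClosure ℚ)

/-! ### `hfr` over a Frobenius-stable base -/

/-- **`hfr` at E-level.** -/
theorem hfr_of_stable (A : ValuationSubring Qb) {K : IntermediateField ℚ Qb}
    [IsDiscreteValuationRing (OE A K)] {L : Type*} [Field L] [Algebra (OE A K) L]
    (ℓ : ℕ) [NeZero ℓ] (hℓ : ℓ.Prime) (hA : A.LiesOverPrime ℓ) {φ : Gq}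
    (hφ : A.IsFrobeniusAt φ ℓ) (h : Stable K φ) (M : ℕ) [Algebra (OE A K) (LE M K)]
    [IsScalarTower (OE A K) K (LE M K)]
    (ϖ : OE A K) (hϖ : Irreducible ϖ) (α : LE M K →+* L)
    (hαO : ∀ r : OE A K, α (algebraMap (OE A K) (LE M K) r) = algebraMap (OE A K) L r)
    (σ : L →+* LaurentSeries K)
    (hσO : ∀ r : OE A K, σ (algebraMap (OE A K) L r) = HahnSeries.C (algebraMap (OE A K) K r))
    (hσfrac : ∀ x : L, σ x ∈ GaussDVR.fracField (OE A K) K)
    (u' : LE M K) (U : LaurentSeries (OE A K)) (hσu : σ (α u') = GaussDVR.iota (OE A K) K U)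
    (hσα : ∀ x : LE M K, σ (α x) = (x : LaurentSeries K))
    (x₀ : LaurentSeries ℚ) (hx₀ : (u' : LaurentSeries K) = coeffEmb K x₀) :
    ∀ a : Chart (OE A K) u', ∃ s r : Chart (OE A K) u',
      redM ϖ hϖ α hαO σ hσO hσfrac u' U hσu s ≠ 0 ∧
      qExpand (IsLocalRing.ResidueField (OE A K)) ℓ
          (redM ϖ hϖ α hαO σ hσO hσfrac u' U hσu s) *
          redM ϖ hϖ α hαO σ hσO hσfrac u' U hσu a ^ ℓ =
        qExpand (IsLocalRing.ResidueField (OE A K)) ℓ
          (redM ϖ hϖ α hαO σ hσO hσfrac u' U hσu r) := by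
  haveI : Fact ℓ.Prime := ⟨hℓ⟩
  haveI := charP_residue_OK A K hA
  exact FierceFrob.hfr_of_frob ϖ hϖ α hαO σ hσO hσfrac u' U hσu ℓ
    (sOK A ⟨φ, hφ.mem_decompositionSubgroup⟩ h) (residue_sOK_frob A hφ h)
    ((resK φ h : K ≃ₐ[ℚ] K) : K →+* K)
    (resK_algebraMap_OK A ⟨φ, hφ.mem_decompositionSubgroup⟩ h)
    ((galK M φ h : LE M K ≃+* LE M K) : LE M K →+* LE M K)
    (fun x => by rw [hσα, hσα]; exact coe_galK M φ h x)
    (fun x hx => isIntegral_galK A M φ hφ.mem_decompositionSubgroup h u'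
      (galK_eq_self_of_coeffEmb M φ h u' x₀ hx₀) hx)

/-! ### Degree of `β = w ∘ α` -/

/-- The degree along `w ∘ α` is the degree along `α`. -/
theorem finrank_comp_equiv {L' L : Type*} [Field L'] [Field L] (α : L' →+* L) (w : L ≃+* L) :
    (letI := ((w : L →+* L).comp α).toAlgebra; Module.finrank L' L) =
      (letI := α.toAlgebra; Module.finrank L' L) := by
  refine (@Algebra.finrank_eq_of_equiv_equiv L' L _ _ α.toAlgebra L' L _ _
    ((w : L →+* L).comp α).toAlgebra (RingEquiv.refl L') w ?_).symm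
  ext x
  rfl

/-- Transport of the norm along an equality of structure maps. -/
theorem norm_congr_hom {L' L : Type*} [Field L'] [Field L] {g₁ g₂ : L' →+* L} (h : g₁ = g₂)
    (x : L) :
    (letI := g₁.toAlgebra; Algebra.norm L' x) = (letI := g₂.toAlgebra; Algebra.norm L' x) := by
  subst h
  rfl

/-- In a discrete valuation ring, a uniformiser divides every element of the maximal ideal. -/
theorem dvd_of_mem_maximalIdeal {O : Type*} [CommRing O] [IsDomain O]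
    [IsDiscreteValuationRing O] {π : O} (hπ : Irreducible π) {x : O}
    (hx : x ∈ IsLocalRing.maximalIdeal O) : π ∣ x := by
  rw [(IsDiscreteValuationRing.irreducible_iff_uniformizer π).mp hπ] at hx
  exact Ideal.mem_span_singleton.mp hx

/-- The chart ring is noetherian. -/
theorem isNoetherianRing_chart {O E L : Type*} [CommRing O] [IsDomain O]
    [IsDiscreteValuationRing O] [Field E] [CharZero E] [Algebra O E] [IsFractionRing O E]
    [Field L] [Algebra E L] [Algebra O L] [IsScalarTower O E L] (t : L)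
    (ht : Transcendental E t) [FiniteDimensional (IntermediateField.adjoin E {t}) L] :
    IsNoetherianRing (Chart O t) := by
  have hfin := Model.ChartProv.chart_finite (O := O) (E := E) t ht
  have hNA : IsNoetherianRing (Algebra.adjoin O ({t} : Set L)) :=
    Model.GlueChart.isNoetherianRing_adjoin_singleton t
  exact IsNoetherianRing.of_finite (Algebra.adjoin O ({t} : Set L)) (Chart O t)

/-! ### Chart-free form of `MemPow` at the kernel of a reduction map -/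

section Gauss

variable {O E : Type*} [CommRing O] [IsDomain O] [IsDiscreteValuationRing O] [Field E]
  [Algebra O E] [FaithfulSMul O E] {L : Type*} [Field L] [Algebra O L]
  (σ : L →+* LaurentSeries E)
  (hσO : ∀ r : O, σ (algebraMap O L r) = HahnSeries.C (algebraMap O E r))
  (ϖ : O) (hϖ : Irreducible ϖ) (hσfrac : ∀ x : L, σ x ∈ GaussDVR.fracField O E)
  (u : L) (U : LaurentSeries O) (hσu : σ u = GaussDVR.iota O E U)

/-- `y ∈ ϖ ^ d C_P` for `P` the kernel of the reduction map attached to `σ` implies that the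
`q`-expansion `σ y` is `ϖ ^ d` times a Gauss-integral series. -/
theorem gauss_of_memPow (d : ℕ) (y : L)
    (h : MemPow (piC u ϖ) (RingHom.ker (redHom σ hσO ϖ hϖ hσfrac u U hσu)) d y) :
    ∃ v : LaurentSeries E, v ∈ GaussDVR.V O E ∧
      σ y = HahnSeries.C (algebraMap O E ϖ) ^ d * v := by
  obtain ⟨t, e, ht, hte⟩ := h
  have ht' : GaussDVR.red O E (toV σ hσO ϖ hϖ hσfrac u U hσu t) ≠ 0 :=
    fun h0 => ht (RingHom.mem_ker.mpr h0)
  have hinv := GaussDVR.inv_mem O E (toV σ hσO ϖ hϖ hσfrac u U hσu t) ht'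
  rw [coe_toV] at hinv
  have ht0 : σ (t : L) ≠ 0 := by
    intro h0
    apply ht'
    have : toV σ hσO ϖ hϖ hσfrac u U hσu t = 0 := Subtype.ext h0
    rw [this, map_zero]
  have he : σ (e : L) ∈ GaussDVR.V O E := (toV σ hσO ϖ hϖ hσfrac u U hσu e).2
  refine ⟨σ (e : L) * (σ (t : L))⁻¹, Subring.mul_mem _ he hinv, ?_⟩
  have h1 : σ (t : L) * σ y = HahnSeries.C (algebraMap O E ϖ) ^ d * σ (e : L) := by
    have h2 := congrArg σ hte
    have h3 : algebraMap (Chart O u) L (piC u ϖ ^ d * e) = algebraMap O L ϖ ^ d * (e : L) := by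
      rw [map_mul, map_pow]
      rfl
    rw [h3, map_mul, map_mul, map_pow, hσO] at h2
    exact h2
  rw [← mul_assoc, ← h1, mul_comm (σ (t : L)) (σ y), mul_assoc, mul_inv_cancel₀ ht0, mul_one]

end Gauss

/-! ### The instance at the `j`-chart -/

section Main

variable (M ℓ : ℕ) [NeZero M] [NeZero ℓ] (hℓ : ℓ.Prime) (hℓM : ¬ ℓ ∣ M)
  (A : ValuationSubring Qb) (E : IntermediateField ℚ Qb)
  [IsDiscreteValuationRing (OE A E)]
  [Algebra (OE A E) (LE M E)] [IsScalarTower (OE A E) E (LE M E)]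
  [Algebra (OE A E) (LE (M * ℓ) E)] [IsScalarTower (OE A E) E (LE (M * ℓ) E)]
  (π : OE A E) (hπ : Irreducible π)

/-- The reduction at the component `∞` of the level-`M ℓ` chart of `j` (`redInf` at the
argument list of `Sat.sat_j`). -/
abbrev rInf : Chart (OE A E) (alphaHom M ℓ E (jE M E)) →+*
    LaurentSeries (IsLocalRing.ResidueField (OE A E)) :=
  redInf π hπ (alphaHom M ℓ E) (sigmaHom (M * ℓ) E) (sigmaHom_algebraMap (M * ℓ) E)
    (sigmaHom_mem_fracField (M * ℓ) E A) (jE M E) (jqModC (OE A E)) (hσu_j M ℓ E)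

/-- The reduction at the component `0` (`redZero` at the argument list of `Sat.sat_j`). -/
abbrev rZero : Chart (OE A E) (alphaHom M ℓ E (jE M E)) →+*
    LaurentSeries (IsLocalRing.ResidueField (OE A E)) :=
  redZero π hπ (alphaHom M ℓ E) (sigmaHom (M * ℓ) E) (sigmaHom_algebraMap (M * ℓ) E)
    (sigmaHom_mem_fracField (M * ℓ) E A) (jE M E) (jqModC (OE A E)) (hσu_j M ℓ E)
    (wHom M ℓ E hℓ hℓM) (wHom_algebraMap M ℓ E hℓ hℓM) ℓ (sigmaHom_wHom_alpha M ℓ E hℓ hℓM)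

/-- The reduction of the level-`M` chart of `j` (`redM` at the argument list of `Sat.sat_j`). -/
abbrev rLvl : Chart (OE A E) (jE M E) →+* LaurentSeries (IsLocalRing.ResidueField (OE A E)) :=
  redM π hπ (alphaHom M ℓ E) (alphaHom_algebraMap M ℓ E) (sigmaHom (M * ℓ) E)
    (sigmaHom_algebraMap (M * ℓ) E) (sigmaHom_mem_fracField (M * ℓ) E A) (jE M E)
    (jqModC (OE A E)) (hσu_j M ℓ E)

/-- `β = w ∘ α` as a ring homomorphism. -/
abbrev betaHom : LE M E →+* LE (M * ℓ) E :=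
  ((wHom M ℓ E hℓ hℓM : LE (M * ℓ) E ≃+* LE (M * ℓ) E) : LE (M * ℓ) E →+* LE (M * ℓ) E).comp
    (alphaHom M ℓ E)

theorem betaHom_apply (x : LE M E) : betaHom M ℓ hℓ hℓM E x = heckeBetaBar E M ℓ x :=
  wHom_alpha M ℓ E hℓ hℓM x

theorem betaHom_eq : betaHom M ℓ hℓ hℓM E = (heckeBetaBar E M ℓ : LE M E →+* LE (M * ℓ) E) :=
  RingHom.ext fun x => betaHom_apply M ℓ hℓ hℓM E x

theorem finrank_beta :
    letI := (betaHom M ℓ hℓ hℓM E).toAlgebra
    Module.finrank (LE M E) (LE (M * ℓ) E) = ℓ + 1 :=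
  (finrank_comp_equiv (alphaHom M ℓ E) (wHom M ℓ E hℓ hℓM)).trans (finrank_alpha M ℓ E hℓ hℓM)

theorem finite_beta :
    letI := (betaHom M ℓ hℓ hℓM E).toAlgebra
    Module.Finite (LE M E) (LE (M * ℓ) E) := by
  letI : Algebra (LE M E) (LE (M * ℓ) E) := (betaHom M ℓ hℓ hℓM E).toAlgebra
  apply Module.finite_of_finrank_pos
  rw [finrank_beta M ℓ hℓ hℓM E]
  omega

/-- **`hfr` at the `j`-chart over a Frobenius-stable base** (`E` stable under a Frobenius
element `φ` at `A`; e.g. `E` stable under the decomposition group, or normal over `ℚ`). -/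
theorem hfr_jE_of_stable (hp : ℓ.Prime) (hA : A.LiesOverPrime ℓ) {φ : Gq}
    (hφ : A.IsFrobeniusAt φ ℓ) (hst : Stable E φ) :
    ∀ a : Chart (OE A E) (jE M E), ∃ s r : Chart (OE A E) (jE M E),
      rLvl M ℓ A E π hπ s ≠ 0 ∧
      qExpand (IsLocalRing.ResidueField (OE A E)) ℓ (rLvl M ℓ A E π hπ s) *
          rLvl M ℓ A E π hπ a ^ ℓ =
        qExpand (IsLocalRing.ResidueField (OE A E)) ℓ (rLvl M ℓ A E π hπ r) :=
  hfr_of_stable A ℓ hp hA hφ hst M π hπ (alphaHom M ℓ E) (alphaHom_algebraMap M ℓ E)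
    (sigmaHom (M * ℓ) E) (sigmaHom_algebraMap (M * ℓ) E)
    (sigmaHom_mem_fracField (M * ℓ) E A) (jE M E) (jqModC (OE A E)) (hσu_j M ℓ E)
    (sigma_alpha M ℓ E) jq (E2Deg.coe_jE M E)

/-- **(L.R3) at E-level, chart of `j`** (`DepthC` exit).  `E` is any subfield of `ℚ̄` with
`A ∩ E` a discrete valuation ring; `hprime`, `hnormal` (the level-`M` chart facts), the
Frobenius stability `hfr` of the reduced level-`M` chart, the two norm equations and depth
`≥ 1` at one Gauss prime are hypotheses. -/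
theorem r3_jE (hA : A.LiesOverPrime ℓ)
    (hprime : Prime (piC (jE M E) π))
    (hnormal : IsIntegrallyClosed (Chart (OE A E) (jE M E) ⧸ Ideal.span {piC (jE M E) π}))
    (hfr : ∀ a : Chart (OE A E) (jE M E), ∃ s r : Chart (OE A E) (jE M E),
      rLvl M ℓ A E π hπ s ≠ 0 ∧
      qExpand (IsLocalRing.ResidueField (OE A E)) ℓ (rLvl M ℓ A E π hπ s) *
          rLvl M ℓ A E π hπ a ^ ℓ =
        qExpand (IsLocalRing.ResidueField (OE A E)) ℓ (rLvl M ℓ A E π hπ r))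
    (f : LE (M * ℓ) E) (hf : f ≠ 0) {ca cb : E} {ka kb : LE M E}
    (hNa : (letI := (alphaHom M ℓ E).toAlgebra; Algebra.norm (LE M E) f) =
      algebraMap E (LE M E) ca * ka ^ ℓ)
    (hNb : (letI := (betaHom M ℓ hℓ hℓM E).toAlgebra; Algebra.norm (LE M E) f) =
      algebraMap E (LE M E) cb * kb ^ ℓ)
    (h1 : DepthGE E ℓ (piC (alphaHom M ℓ E (jE M E)) π)
        (RingHom.ker (rInf M ℓ A E π hπ)) 1 f ∨
      DepthGE E ℓ (piC (alphaHom M ℓ E (jE M E)) π)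
        (RingHom.ker (rZero M ℓ hℓ hℓM A E π hπ)) 1 f) :
    ∀ d, DepthC ℓ (piC (alphaHom M ℓ E (jE M E)) π) (RingHom.ker (rInf M ℓ A E π hπ)) d ca f ∧
      DepthC ℓ (piC (alphaHom M ℓ E (jE M E)) π)
        (RingHom.ker (rZero M ℓ hℓ hℓM A E π hπ)) d cb f := by
  haveI : Fact ℓ.Prime := ⟨hℓ⟩
  haveI := charP_residue_OE' A E hℓ hA
  haveI : FiniteDimensional (IntermediateField.adjoin E {jE M E}) (LE M E) := E2Deg.finite_LE M E
  haveI : IsNoetherianRing (Chart (OE A E) (jE M E)) :=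
    isNoetherianRing_chart (O := OE A E) (E := E) (jE M E) (E2Deg.transcendental_jE M E)
  haveI : IsFractionRing (Chart (OE A E) (jE M E)) (LE M E) := isFractionRing_chart_jE M E
  haveI : IsFractionRing (Chart (OE A E) (alphaHom M ℓ E (jE M E))) (LE (M * ℓ) E) :=
    isFractionRing_chart (M * ℓ) E _ (by
      rw [← sigmaHom_apply, sigma_alpha, E2Deg.coe_jE])
  have hord := hord_j (OE A E)
  have htr : ∀ p : (IsLocalRing.ResidueField (OE A E))[X], p ≠ 0 →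
      p.eval₂ HahnSeries.C (GaussDVR.rho (OE A E) (jqModC (OE A E))) ≠ 0 :=
    fun p hp => ExpandIndep.eval₂_ne_zero_of_order_ne_zero _ hord p hp
  have hℓπ : π ∣ ((ℓ : ℕ) : OE A E) := by
    apply dvd_of_mem_maximalIdeal hπ
    rw [← IsLocalRing.residue_eq_zero_iff, map_natCast]
    exact CharP.cast_eq_zero _ ℓ
  have hsepα : letI := (alphaHom M ℓ E).toAlgebra
      Algebra.IsSeparable (LE M E) (LE (M * ℓ) E) := by
    letI : Algebra (LE M E) (LE (M * ℓ) E) := (alphaHom M ℓ E).toAlgebra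
    haveI : Module.Finite (LE M E) (LE (M * ℓ) E) := finite_alpha M ℓ E hℓ hℓM
    infer_instance
  have hsepβ : letI := (betaHom M ℓ hℓ hℓM E).toAlgebra
      Algebra.IsSeparable (LE M E) (LE (M * ℓ) E) := by
    letI : Algebra (LE M E) (LE (M * ℓ) E) := (betaHom M ℓ hℓ hℓM E).toAlgebra
    haveI : Module.Finite (LE M E) (LE (M * ℓ) E) := finite_beta M ℓ hℓ hℓM E
    infer_instance
  exact R3Chart.r3_chart π hπ (alphaHom M ℓ E) (alphaHom_algebraMap M ℓ E)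
    (sigmaHom (M * ℓ) E) (sigmaHom_algebraMap (M * ℓ) E) (sigmaHom_mem_fracField (M * ℓ) E A)
    (jE M E) (jqModC (OE A E)) (hσu_j M ℓ E) (wHom M ℓ E hℓ hℓM)
    (wHom_algebraMap M ℓ E hℓ hℓM) ℓ (sigmaHom_wHom_alpha M ℓ E hℓ hℓM)
    (K := E) (fun c => (heckeAlphaBar E M ℓ).commutes c)
    (fun c => (wE M ℓ E hℓ hℓM).commutes c)
    (finite_alpha M ℓ E hℓ hℓM) hsepα (finrank_alpha M ℓ E hℓ hℓM)
    (finite_beta M ℓ hℓ hℓM E) hsepβ (finrank_beta M ℓ hℓ hℓM E)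
    (wHom_wHom M ℓ E hℓ hℓM) hprime
    (fun a ha => dvd_of_redM_eq_zero π hπ (alphaHom M ℓ E) (alphaHom_algebraMap M ℓ E)
      (sigmaHom (M * ℓ) E) (sigmaHom_algebraMap (M * ℓ) E)
      (sigmaHom_mem_fracField (M * ℓ) E A) (jE M E) (jqModC (OE A E)) (hσu_j M ℓ E) hprime htr
      a ha)
    (dvd_of_redInf_redZero π hπ (alphaHom M ℓ E) (alphaHom_algebraMap M ℓ E)
      (sigmaHom (M * ℓ) E) (sigmaHom_algebraMap (M * ℓ) E)
      (sigmaHom_mem_fracField (M * ℓ) E A) (jE M E) (jqModC (OE A E)) (hσu_j M ℓ E)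
      (wHom M ℓ E hℓ hℓM) (wHom_algebraMap M ℓ E hℓ hℓM) ℓ (sigmaHom_wHom_alpha M ℓ E hℓ hℓM)
      (wHom_wHom M ℓ E hℓ hℓM) hprime (hcop_j _ ℓ) (hord_j _) hℓ.two_le (hfrob_j _ ℓ hℓ)
      (hwu_j M ℓ E hℓ hℓM) (hrank_j M ℓ E hℓ hℓM))
    (fun Q hQ hπQ hQc => eq_ker_or_eq_ker π hπ (alphaHom M ℓ E) (alphaHom_algebraMap M ℓ E)
      (sigmaHom (M * ℓ) E) (sigmaHom_algebraMap (M * ℓ) E)
      (sigmaHom_mem_fracField (M * ℓ) E A) (jE M E) (jqModC (OE A E)) (hσu_j M ℓ E)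
      (wHom M ℓ E hℓ hℓM) (wHom_algebraMap M ℓ E hℓ hℓM) ℓ (sigmaHom_wHom_alpha M ℓ E hℓ hℓM)
      (wHom_wHom M ℓ E hℓ hℓM) hprime (hcop_j _ ℓ) (hord_j _) hℓ.two_le (hfrob_j _ ℓ hℓ)
      (hwu_j M ℓ E hℓ hℓM) (hrank_j M ℓ E hℓ hℓM) Q hπQ hQc)
    (exists_redInf_sub_eq_zero π hπ (alphaHom M ℓ E) (alphaHom_algebraMap M ℓ E)
      (sigmaHom (M * ℓ) E) (sigmaHom_algebraMap (M * ℓ) E)
      (sigmaHom_mem_fracField (M * ℓ) E A) (jE M E) (jqModC (OE A E)) (hσu_j M ℓ E)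
      (wHom M ℓ E hℓ hℓM) (wHom_algebraMap M ℓ E hℓ hℓM) ℓ (sigmaHom_wHom_alpha M ℓ E hℓ hℓM)
      (wHom_wHom M ℓ E hℓ hℓM) hprime (hcop_j _ ℓ) (hord_j _) hℓ.two_le (hfrob_j _ ℓ hℓ)
      (hwu_j M ℓ E hℓ hℓM) (hrank_j M ℓ E hℓ hℓM) hnormal)
    (exists_sep_zero π hπ (alphaHom M ℓ E) (alphaHom_algebraMap M ℓ E)
      (sigmaHom (M * ℓ) E) (sigmaHom_algebraMap (M * ℓ) E)
      (sigmaHom_mem_fracField (M * ℓ) E A) (jE M E) (jqModC (OE A E)) (hσu_j M ℓ E)
      (wHom M ℓ E hℓ hℓM) (wHom_algebraMap M ℓ E hℓ hℓM) ℓ (sigmaHom_wHom_alpha M ℓ E hℓ hℓM)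
      (wHom_wHom M ℓ E hℓ hℓM) hprime (hcop_j _ ℓ) (hord_j _) hℓ.two_le (hfrob_j _ ℓ hℓ)
      (hwu_j M ℓ E hℓ hℓM) (hrank_j M ℓ E hℓ hℓM))
    (exists_sep_inf π hπ (alphaHom M ℓ E) (alphaHom_algebraMap M ℓ E)
      (sigmaHom (M * ℓ) E) (sigmaHom_algebraMap (M * ℓ) E)
      (sigmaHom_mem_fracField (M * ℓ) E A) (jE M E) (jqModC (OE A E)) (hσu_j M ℓ E)
      (wHom M ℓ E hℓ hℓM) (wHom_algebraMap M ℓ E hℓ hℓM) ℓ (sigmaHom_wHom_alpha M ℓ E hℓ hℓM)
      (wHom_wHom M ℓ E hℓ hℓM) hprime (hcop_j _ ℓ) (hord_j _) hℓ.two_le (hfrob_j _ ℓ hℓ)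
      (hwu_j M ℓ E hℓ hℓM) (hrank_j M ℓ E hℓ hℓM))
    (fun c hc => Modular.ChartZero.isIntegral_swap (wHom M ℓ E hℓ hℓM)
      (wHom_algebraMap M ℓ E hℓ hℓM) _ (hwu_j M ℓ E hℓ hℓM) hc)
    hℓ hℓπ hfr f hf hNa hNb h1

/-- **(L.R3) at E-level, chart-free exit (NZ.1 GEN)**: for every `d`,
`f = ca * g ^ ℓ * (1 + y)` with `σ y ∈ π ^ d • V` and `f = cb * g' ^ ℓ * (1 + y')` with
`σ (w y') ∈ π ^ d • V` (`V` the Gauss ring of `A ∩ E`). -/
theorem r3_jE_gauss (hA : A.LiesOverPrime ℓ)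
    (hprime : Prime (piC (jE M E) π))
    (hnormal : IsIntegrallyClosed (Chart (OE A E) (jE M E) ⧸ Ideal.span {piC (jE M E) π}))
    (hfr : ∀ a : Chart (OE A E) (jE M E), ∃ s r : Chart (OE A E) (jE M E),
      rLvl M ℓ A E π hπ s ≠ 0 ∧
      qExpand (IsLocalRing.ResidueField (OE A E)) ℓ (rLvl M ℓ A E π hπ s) *
          rLvl M ℓ A E π hπ a ^ ℓ =
        qExpand (IsLocalRing.ResidueField (OE A E)) ℓ (rLvl M ℓ A E π hπ r))
    (f : LE (M * ℓ) E) (hf : f ≠ 0) {ca cb : E} {ka kb : LE M E}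
    (hNa : (letI := (alphaHom M ℓ E).toAlgebra; Algebra.norm (LE M E) f) =
      algebraMap E (LE M E) ca * ka ^ ℓ)
    (hNb : (letI := (betaHom M ℓ hℓ hℓM E).toAlgebra; Algebra.norm (LE M E) f) =
      algebraMap E (LE M E) cb * kb ^ ℓ)
    (h1 : DepthGE E ℓ (piC (alphaHom M ℓ E (jE M E)) π)
        (RingHom.ker (rInf M ℓ A E π hπ)) 1 f ∨
      DepthGE E ℓ (piC (alphaHom M ℓ E (jE M E)) π)
        (RingHom.ker (rZero M ℓ hℓ hℓM A E π hπ)) 1 f) (d : ℕ) :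
    (∃ g y : LE (M * ℓ) E, g ≠ 0 ∧ f = algebraMap E (LE (M * ℓ) E) ca * g ^ ℓ * (1 + y) ∧
      ∃ v : LaurentSeries E, v ∈ GaussDVR.V (OE A E) E ∧
        (y : LaurentSeries E) = HahnSeries.C (algebraMap (OE A E) E π) ^ d * v) ∧
    (∃ g y : LE (M * ℓ) E, g ≠ 0 ∧ f = algebraMap E (LE (M * ℓ) E) cb * g ^ ℓ * (1 + y) ∧
      ∃ v : LaurentSeries E, v ∈ GaussDVR.V (OE A E) E ∧
        ((wHom M ℓ E hℓ hℓM y : LE (M * ℓ) E) : LaurentSeries E) =
          HahnSeries.C (algebraMap (OE A E) E π) ^ d * v) := by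
  obtain ⟨⟨g, y, hg, hfg, hy⟩, ⟨g', y', hg', hfg', hy'⟩⟩ :=
    r3_jE M ℓ hℓ hℓM A E π hπ hA hprime hnormal hfr f hf hNa hNb h1 d
  refine ⟨⟨g, y, hg, hfg, ?_⟩, ⟨g', y', hg', hfg', ?_⟩⟩
  · exact gauss_of_memPow (sigmaHom (M * ℓ) E) (sigmaHom_algebraMap (M * ℓ) E) π hπ
      (sigmaHom_mem_fracField (M * ℓ) E A) _ (jqModC (OE A E)) (hσu_j M ℓ E) d y hy
  · exact gauss_of_memPow ((sigmaHom (M * ℓ) E).comp
        ((wHom M ℓ E hℓ hℓM : LE (M * ℓ) E ≃+* LE (M * ℓ) E) : LE (M * ℓ) E →+* LE (M * ℓ) E))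
      (sigmaW_O (sigmaHom (M * ℓ) E) (sigmaHom_algebraMap (M * ℓ) E) (wHom M ℓ E hℓ hℓM)
        (wHom_algebraMap M ℓ E hℓ hℓM)) π hπ
      (fun x => sigmaHom_mem_fracField (M * ℓ) E A (wHom M ℓ E hℓ hℓM x)) _
      (qExpand (OE A E) ℓ (jqModC (OE A E)))
      (sigmaW_u (alphaHom M ℓ E) (sigmaHom (M * ℓ) E) (jE M E) (jqModC (OE A E))
        (hσu_j M ℓ E) (wHom M ℓ E hℓ hℓM) ℓ (sigmaHom_wHom_alpha M ℓ E hℓ hℓM)) d y' hy'

end Main

/-! ### The level-`M` chart facts from one primitive `M`-th root of unity -/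

/-- The level-`M` chart facts of the coordinate `j` over `A ∩ E`, for ANY number field `E`
containing a primitive `M`-th root of unity (`A` over `ℓ > 3`, `ℓ ∤ M`). -/
theorem chartFacts_jE_of_root (M ℓ : ℕ) [NeZero M] (hℓ : ℓ.Prime) (hℓM : ¬ ℓ ∣ M) (h3 : 3 < ℓ)
    (A : ValuationSubring Qb) (hA : A.LiesOverPrime ℓ) {z : Qb} (hz : IsPrimitiveRoot z M)
    (E : IntermediateField ℚ Qb) [FiniteDimensional ℚ E] [IsDiscreteValuationRing (OE A E)]
    (hzE : z ∈ E) (π : OE A E) (hπ : Irreducible π) :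
    letI := Fermat.Agent.S18.K1Main.algebraOL (OE A E) E (LE M E)
    HauptU.LevelMAux.ChartFacts E π (jE M E) (jE M E)⁻¹ := by
  haveI : Fact ℓ.Prime := ⟨hℓ⟩
  letI := Fermat.Agent.S18.K1Main.algebraOL (OE A E) E (LE M E)
  haveI := Fermat.Agent.S18.K1Main.isScalarTower_OL (OE A E) E (LE M E)
  have hMℓ : Nat.Coprime M ℓ := Nat.coprime_comm.mp ((Nat.Prime.coprime_iff_not_dvd hℓ).mpr hℓM)
  have h' : Fermat.Agent.S18.K1Main.JInputs M (OE A E) E 0 :=
    E2.JInputsAll.jInputsC_OE M A E hA hMℓ hz hzE 0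
  exact HauptU.LevelMAux.chartFacts_jE M E h'
    (Fermat.Agent.S18.K1Main.isUnit_1728_OE A E hℓ hA h3) π hπ

/-- **NZ.1 (GEN), root-of-unity form**: `r3_jE_gauss` at the canonical algebra structures
`K1Main.algebraOL`, with the level-`M` chart facts discharged from a primitive `M`-th root of
unity in `E`. -/
theorem r3_jE_gauss_of_root (M ℓ : ℕ) [NeZero M] [NeZero ℓ] (hℓ : ℓ.Prime) (hℓM : ¬ ℓ ∣ M)
    (h3 : 3 < ℓ) (A : ValuationSubring Qb) (hA : A.LiesOverPrime ℓ) {z : Qb}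
    (hz : IsPrimitiveRoot z M) (E : IntermediateField ℚ Qb) [FiniteDimensional ℚ E]
    [IsDiscreteValuationRing (OE A E)] (hzE : z ∈ E) (π : OE A E) (hπ : Irreducible π) :
    letI := Fermat.Agent.S18.K1Main.algebraOL (OE A E) E (LE M E)
    letI := Fermat.Agent.S18.K1Main.algebraOL (OE A E) E (LE (M * ℓ) E)
    haveI := Fermat.Agent.S18.K1Main.isScalarTower_OL (OE A E) E (LE M E)
    haveI := Fermat.Agent.S18.K1Main.isScalarTower_OL (OE A E) E (LE (M * ℓ) E)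
    (∀ a : Chart (OE A E) (jE M E), ∃ s r : Chart (OE A E) (jE M E),
      rLvl M ℓ A E π hπ s ≠ 0 ∧
      qExpand (IsLocalRing.ResidueField (OE A E)) ℓ (rLvl M ℓ A E π hπ s) *
          rLvl M ℓ A E π hπ a ^ ℓ =
        qExpand (IsLocalRing.ResidueField (OE A E)) ℓ (rLvl M ℓ A E π hπ r)) →
    ∀ (f : LE (M * ℓ) E), f ≠ 0 → ∀ (ca cb : E) (ka kb : LE M E),
      (letI := (alphaHom M ℓ E).toAlgebra; Algebra.norm (LE M E) f) =
        algebraMap E (LE M E) ca * ka ^ ℓ →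
      (letI := (betaHom M ℓ hℓ hℓM E).toAlgebra; Algebra.norm (LE M E) f) =
        algebraMap E (LE M E) cb * kb ^ ℓ →
      (DepthGE E ℓ (piC (alphaHom M ℓ E (jE M E)) π)
          (RingHom.ker (rInf M ℓ A E π hπ)) 1 f ∨
        DepthGE E ℓ (piC (alphaHom M ℓ E (jE M E)) π)
          (RingHom.ker (rZero M ℓ hℓ hℓM A E π hπ)) 1 f) →
      ∀ d : ℕ,
        (∃ g y : LE (M * ℓ) E, g ≠ 0 ∧
          f = algebraMap E (LE (M * ℓ) E) ca * g ^ ℓ * (1 + y) ∧
          ∃ v : LaurentSeries E, v ∈ GaussDVR.V (OE A E) E ∧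
            (y : LaurentSeries E) = HahnSeries.C (algebraMap (OE A E) E π) ^ d * v) ∧
        (∃ g y : LE (M * ℓ) E, g ≠ 0 ∧
          f = algebraMap E (LE (M * ℓ) E) cb * g ^ ℓ * (1 + y) ∧
          ∃ v : LaurentSeries E, v ∈ GaussDVR.V (OE A E) E ∧
            ((wHom M ℓ E hℓ hℓM y : LE (M * ℓ) E) : LaurentSeries E) =
              HahnSeries.C (algebraMap (OE A E) E π) ^ d * v) := by
  letI := Fermat.Agent.S18.K1Main.algebraOL (OE A E) E (LE M E)
  letI := Fermat.Agent.S18.K1Main.algebraOL (OE A E) E (LE (M * ℓ) E)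
  haveI := Fermat.Agent.S18.K1Main.isScalarTower_OL (OE A E) E (LE M E)
  haveI := Fermat.Agent.S18.K1Main.isScalarTower_OL (OE A E) E (LE (M * ℓ) E)
  intro hfr f hf ca cb ka kb hNa hNb h1 d
  have hfacts := chartFacts_jE_of_root M ℓ hℓ hℓM h3 A hA hz E hzE π hπ
  exact r3_jE_gauss M ℓ hℓ hℓM A E π hπ hA hfacts.prime_zero hfacts.normal_zero hfr f hf
    hNa hNb h1 d

/-- **`hfr` at the `j`-chart over a Frobenius-stable base, at the canonical algebra
structures** (the input of the transfer of `hfr` to a ramified extension of the base). -/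
theorem hfr_jE_of_stable_OL (M ℓ : ℕ) [NeZero M] [NeZero ℓ] (hℓ : ℓ.Prime)
    (A : ValuationSubring Qb) (hA : A.LiesOverPrime ℓ) (E : IntermediateField ℚ Qb)
    [IsDiscreteValuationRing (OE A E)] {φ : Gq} (hφ : A.IsFrobeniusAt φ ℓ) (hst : Stable E φ)
    (π : OE A E) (hπ : Irreducible π) :
    letI := Fermat.Agent.S18.K1Main.algebraOL (OE A E) E (LE M E)
    letI := Fermat.Agent.S18.K1Main.algebraOL (OE A E) E (LE (M * ℓ) E)
    haveI := Fermat.Agent.S18.K1Main.isScalarTower_OL (OE A E) E (LE M E)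
    haveI := Fermat.Agent.S18.K1Main.isScalarTower_OL (OE A E) E (LE (M * ℓ) E)
    ∀ a : Chart (OE A E) (jE M E), ∃ s r : Chart (OE A E) (jE M E),
      rLvl M ℓ A E π hπ s ≠ 0 ∧
      qExpand (IsLocalRing.ResidueField (OE A E)) ℓ (rLvl M ℓ A E π hπ s) *
          rLvl M ℓ A E π hπ a ^ ℓ =
        qExpand (IsLocalRing.ResidueField (OE A E)) ℓ (rLvl M ℓ A E π hπ r) := by
  letI := Fermat.Agent.S18.K1Main.algebraOL (OE A E) E (LE M E)
  letI := Fermat.Agent.S18.K1Main.algebraOL (OE A E) E (LE (M * ℓ) E)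
  haveI := Fermat.Agent.S18.K1Main.isScalarTower_OL (OE A E) E (LE M E)
  haveI := Fermat.Agent.S18.K1Main.isScalarTower_OL (OE A E) E (LE (M * ℓ) E)
  exact hfr_jE_of_stable M ℓ A E π hπ hℓ hA hφ hst

end Fermat.Agent.S44.L.R3Inst
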