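import Mathlib
import Fermat.Agent.S44.L.R3Norm
import Fermat.Agent.S44.L.IotaCalc
import Fermat.Agent.S36.KummerConst

/-!
# S44 / strand L, row (L.R3): the `E`-level norm equations over EVERY coefficient field

`R3Norm.exists_norm_E` gives the `E`-level norm equations `N_{α_E} f = ca * ka ^ p`,
`N_{β_E} f = cb * kb ^ p` only over the fields `E` containing a finite set `S` of algebraic
numbers depending on the witnesses.  Here the finite set is removed
(`S36.KummerConst.exists_const_mul_pow_level`: Kummer theory over the constant field), and the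
equations are shown to depend only on the class modulo constants and `p`-th powers
(`IotaCalc.Sim`).

* `exists_const_mul_pow_free` : `y : LE N E` with `upE y = c * g ^ n` over `ℚ̄` is `c' * k ^ n`
  with `c' : E`, `k : LE N E`, for every intermediate field `E`.
* `exists_norm_E_free` : the conclusion of `R3Norm.exists_norm_E` for every `E` and every
  `f : LE (N' p) E`.
* `norm_sim_generic`, `norm_alpha_sim`, `norm_beta_sim` : "the norm is a constant times a
  `p`-th power" only depends on the `Sim` class.
* `exists_norm_E_of_sim` : the `E`-level norm equations for every `f : LE (N' p) E` whose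
  extension of constants is `Sim`-equivalent to `ι Q`, `ι` an `IsNewEmb` embedding.
-/

set_option autoImplicit false
set_option linter.unusedSectionVars false
set_option linter.style.haveILetI false
set_option synthInstance.maxHeartbeats 400000
set_option maxHeartbeats 400000

open WeierstrassCurve WeierstrassCurve.Affine WeierstrassCurve.Affine.Point
open ModularCurve AlgebraicCurve HahnSeries

noncomputable section

namespace Fermat.Agent.S44.L.R3NormFree

open Fermat.Agent.S30 Fermat.Agent.S30.Producer Fermat.Agent.S18.K1Defs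
open Fermat.Agent.S34 Fermat.Agent.S34.TwoPrimesRank Fermat.Agent.S34.Modular.SwapE
open Fermat.Agent.S34.HauptU.Plug Fermat.Agent.S44.Contract
open Fermat.Agent.S44.L.R3Norm Fermat.Agent.S44.L.IotaCalc

/-! ### Descent of `y = c * g ^ n` without a finite set -/

/-- **Descent of an equation `y = c * g ^ n` over every `E`** (`R3Norm.exists_const_mul_pow`
without the finite set). -/
theorem exists_const_mul_pow_free (N : ℕ) {n : ℕ} (hn : 0 < n) (E : IntermediateField ℚ Qb)
    (c : Qb) (g : FN N) (y : LE N E)
    (hy : upE N E y = algebraMap Qb (FN N) c * g ^ n) :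
    ∃ (c' : E) (k : LE N E), y = algebraMap E (LE N E) c' * k ^ n :=
  Fermat.Agent.S36.KummerConst.exists_const_mul_pow_level N E hn y c g
    ((coe_upE N E y).symm.trans (congrArg (fun z : FN N => (z : LaurentSeries Qb)) hy))

/-! ### The norm equations over every `E` -/

section Norms

variable (N' p : ℕ) [NeZero N'] [NeZero p]

/-- **The `E`-level norm equations over every `E`**: the conclusion of `R3Norm.exists_norm_E`
for every intermediate field `E` and every `f : LE (N' p) E` (no finite set). -/
theorem exists_norm_E_free (hp : p.Prime) (hpN : ¬ p ∣ N') (E : IntermediateField ℚ Qb)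
    (f : LE (N' * p) E) (c c' : Qb) (g g' : FN N')
    (hNa : (letI := algebraAlong (heckeAlphaBar Qb N' p);
        Algebra.norm (FN N') (upE (N' * p) E f)) = algebraMap Qb (FN N') c * g ^ p)
    (hNb : (letI := algebraAlong (heckeBetaBar Qb N' p);
        Algebra.norm (FN N') (upE (N' * p) E f)) = algebraMap Qb (FN N') c' * g' ^ p) :
    ∃ (ca cb : E) (ka kb : LE N' E),
      (letI := (alphaHom N' p E).toAlgebra; Algebra.norm (LE N' E) f)
        = algebraMap E (LE N' E) ca * ka ^ p ∧
      (letI := ((wHom N' p E hp hpN : LE (N' * p) E →+* LE (N' * p) E).comp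
          (alphaHom N' p E)).toAlgebra; Algebra.norm (LE N' E) f)
        = algebraMap E (LE N' E) cb * kb ^ p := by
  have h1 := upE_norm_alpha N' p hp hpN E f
  have h2 := upE_norm_beta N' p hp hpN E f
  obtain ⟨ca, ka, ha⟩ := exists_const_mul_pow_free N' hp.pos E c g _ (h1.trans hNa)
  obtain ⟨cb, kb, hb⟩ := exists_const_mul_pow_free N' hp.pos E c' g' _ (h2.trans hNb)
  exact ⟨ca, cb, ka, kb, ha, hb⟩

end Norms

/-! ### The norm equations only depend on the `Sim` class -/

/-- Generic: "the norm is a constant times a `p`-th power" only depends on the class modulo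
constants and `p`-th powers. -/
theorem norm_sim_generic {k F F' : Type*} [Field k] [Field F] [Field F'] [Algebra k F]
    [Algebra k F'] (φ : F →ₐ[k] F') {p : ℕ}
    (hd : 0 < (letI := algebraAlong φ; Module.finrank F F'))
    {x y : F'} (hs : Sim k p x y)
    (hx : ∃ (c : k) (g : F),
      (letI := algebraAlong φ; Algebra.norm F x) = algebraMap k F c * g ^ p) :
    ∃ (c : k) (g : F),
      (letI := algebraAlong φ; Algebra.norm F y) = algebraMap k F c * g ^ p := by
  letI := algebraAlong φ
  haveI := isScalarTower_along φ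
  haveI : Module.Finite F F' := Module.finite_of_finrank_pos hd
  obtain ⟨a, h, ha, hh, hxy⟩ := hs
  obtain ⟨c, g, hN⟩ := hx
  have hN' : Algebra.norm F x = algebraMap k F c * g ^ p := hN
  have hNh : Algebra.norm F h ≠ 0 := Algebra.norm_ne_zero_iff.mpr hh
  have hconst : Algebra.norm F (algebraMap k F' a)
      = algebraMap k F (a ^ Module.finrank F F') := by
    rw [IsScalarTower.algebraMap_apply k F F', Algebra.norm_algebraMap, map_pow]
  have hA : algebraMap k F (a ^ Module.finrank F F') ≠ 0 :=
    (map_ne_zero (algebraMap k F)).mpr (pow_ne_zero _ ha)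
  have hE1 : algebraMap k F c * g ^ p
      = algebraMap k F (a ^ Module.finrank F F') * Algebra.norm F y * Algebra.norm F h ^ p := by
    rw [← hN', hxy, map_mul, map_mul, map_pow, hconst]
  refine ⟨(a ^ Module.finrank F F')⁻¹ * c, g * (Algebra.norm F h)⁻¹, ?_⟩
  show Algebra.norm F y
      = algebraMap k F ((a ^ Module.finrank F F')⁻¹ * c) * (g * (Algebra.norm F h)⁻¹) ^ p
  have h1 : Algebra.norm F y = (algebraMap k F (a ^ Module.finrank F F'))⁻¹
      * (algebraMap k F c * g ^ p) * (Algebra.norm F h ^ p)⁻¹ := by
    rw [hE1]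
    field_simp
  rw [h1, map_mul, map_inv₀, mul_pow, inv_pow]
  ring

section Sim

variable (N' p : ℕ) [NeZero N'] [NeZero p]

/-- The norm equation along `α` only depends on the `Sim` class. -/
theorem norm_alpha_sim (hp : p.Prime) (hpN : ¬ p ∣ N') {x y : FN (N' * p)}
    (hs : Sim Qb p x y)
    (hx : ∃ (c : Qb) (g : FN N'),
      (letI := algebraAlong (heckeAlphaBar Qb N' p); Algebra.norm (FN N') x)
        = algebraMap Qb (FN N') c * g ^ p) :
    ∃ (c : Qb) (g : FN N'),
      (letI := algebraAlong (heckeAlphaBar Qb N' p); Algebra.norm (FN N') y)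
        = algebraMap Qb (FN N') c * g ^ p := by
  have hd : 0 < (letI := algebraAlong (heckeAlphaBar Qb N' p);
      Module.finrank (FN N') (FN (N' * p))) := by
    have h := E4.HeckeNorm.finrankAlong_alpha N' p hp hpN
    unfold finrankAlong at h
    rw [h]
    exact Nat.succ_pos p
  exact norm_sim_generic (heckeAlphaBar Qb N' p) hd hs hx

/-- The norm equation along `β` only depends on the `Sim` class. -/
theorem norm_beta_sim (hp : p.Prime) (hpN : ¬ p ∣ N') {x y : FN (N' * p)}
    (hs : Sim Qb p x y)
    (hx : ∃ (c : Qb) (g : FN N'),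
      (letI := algebraAlong (heckeBetaBar Qb N' p); Algebra.norm (FN N') x)
        = algebraMap Qb (FN N') c * g ^ p) :
    ∃ (c : Qb) (g : FN N'),
      (letI := algebraAlong (heckeBetaBar Qb N' p); Algebra.norm (FN N') y)
        = algebraMap Qb (FN N') c * g ^ p := by
  have hd : 0 < (letI := algebraAlong (heckeBetaBar Qb N' p);
      Module.finrank (FN N') (FN (N' * p))) := by
    rw [finrank_beta_bar N' p hp hpN]
    exact Nat.succ_pos p
  exact norm_sim_generic (heckeBetaBar Qb N' p) hd hs hx

end Sim

/-! ### The exit for `p`-new embeddings -/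

/-- **The `E`-level norm equations for a `p`-new embedding, over every `E`**: for every
intermediate field `E` and every `f : LE (N' p) E` whose extension of constants is
`Sim`-equivalent to `ι Q`. -/
theorem exists_norm_E_of_sim (P : FreyPackage) (N' : ℕ) [NeZero N'] [NeZero P.p]
    (W : WeierstrassCurve ℤ) (hpN : ¬ P.p ∣ N')
    (ι : (P.freyCurve⁄Qb).Point → FN (N' * P.p)) (hι : IsNewEmb P N' W ι)
    (Q : (P.freyCurve⁄Qb).Point) (hQ : P.p • Q = 0)
    (E : IntermediateField ℚ Qb) (f : LE (N' * P.p) E)
    (hs : Sim Qb P.p (ι Q) (upE (N' * P.p) E f)) :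
    ∃ (ca cb : E) (ka kb : LE N' E),
      (letI := (alphaHom N' P.p E).toAlgebra; Algebra.norm (LE N' E) f)
        = algebraMap E (LE N' E) ca * ka ^ P.p ∧
      (letI := ((wHom N' P.p E P.pp hpN : LE (N' * P.p) E →+* LE (N' * P.p) E).comp
          (alphaHom N' P.p E)).toAlgebra; Algebra.norm (LE N' E) f)
        = algebraMap E (LE N' E) cb * kb ^ P.p := by
  obtain ⟨c, g, hNa⟩ := norm_alpha_sim N' P.p P.pp hpN hs (hι.normAlpha Q hQ)
  obtain ⟨c', g', hNb⟩ := norm_beta_sim N' P.p P.pp hpN hs (hι.normBeta Q hQ)
  exact exists_norm_E_free N' P.p P.pp hpN E f c c' g g' hNa hNb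

/-- The same with `upE f = ι Q` (the hypothesis shape of `R3Norm.exists_norm_E_of_isNewEmb`). -/
theorem exists_norm_E_of_isNewEmb_free (P : FreyPackage) (N' : ℕ) [NeZero N'] [NeZero P.p]
    (W : WeierstrassCurve ℤ) (hpN : ¬ P.p ∣ N')
    (ι : (P.freyCurve⁄Qb).Point → FN (N' * P.p)) (hι : IsNewEmb P N' W ι)
    (Q : (P.freyCurve⁄Qb).Point) (hQ : P.p • Q = 0)
    (E : IntermediateField ℚ Qb) (f : LE (N' * P.p) E)
    (hf : upE (N' * P.p) E f = ι Q) :
    ∃ (ca cb : E) (ka kb : LE N' E),
      (letI := (alphaHom N' P.p E).toAlgebra; Algebra.norm (LE N' E) f)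
        = algebraMap E (LE N' E) ca * ka ^ P.p ∧
      (letI := ((wHom N' P.p E P.pp hpN : LE (N' * P.p) E →+* LE (N' * P.p) E).comp
          (alphaHom N' P.p E)).toAlgebra; Algebra.norm (LE N' E) f)
        = algebraMap E (LE N' E) cb * kb ^ P.p :=
  exists_norm_E_of_sim P N' W hpN ι hι Q hQ E f (Sim.of_eq hf.symm)

end Fermat.Agent.S44.L.R3NormFree
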