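import Mathlib
import Fermat.Agent.S44.L.R3NormFree
import Fermat.Agent.S36.AuxSquare

/-!
# S44 / strand L, row (L.R3): the `E`-level norm equations at an auxiliary level

For a `p`-new embedding `ι` at level `N' p` and an auxiliary level `M = N' a` (`a` prime to
`p`), the `E`-level norm equations hold for every `f : LE (M p) E` whose extension of constants
is `Sim`-equivalent to the level pull `lvl (ι Q)`, over EVERY intermediate field `E`.

* `upF_eq_upE` : the two spellings of the extension of constants (`S36.InvFun.upF`,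
  `S34.Modular.SwapE.upE`) agree.
* `exists_norm_E_of_sim_upF` : `R3NormFree.exists_norm_E_of_sim` in the `upF` spelling.
* `norm_alpha_lvl`, `norm_beta_lvl` : "the norm is a constant times a `q`-th power" passes to
  the auxiliary level (`S36.AuxSquare.normA_lvl`, `normB_lvl`).
* `exists_norm_E_of_sim_lvl` : the exit at the auxiliary level `M` (a variable with
  `hM : M = N' * a`).
-/

set_option autoImplicit false
set_option linter.unusedSectionVars false
set_option linter.style.haveILetI false
set_option synthInstance.maxHeartbeats 400000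
set_option maxHeartbeats 400000

open WeierstrassCurve WeierstrassCurve.Affine WeierstrassCurve.Affine.Point
open ModularCurve AlgebraicCurve HahnSeries

noncomputable section

namespace Fermat.Agent.S44.L.R3NormLvl

open Fermat.Agent.S30 Fermat.Agent.S30.Producer Fermat.Agent.S18.K1Defs
open Fermat.Agent.S34 Fermat.Agent.S34.TwoPrimesRank Fermat.Agent.S34.Modular.SwapE
open Fermat.Agent.S34.HauptU.Plug Fermat.Agent.S44.Contract
open Fermat.Agent.S44.L.R3Norm Fermat.Agent.S44.L.IotaCalc Fermat.Agent.S44.L.R3NormFree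
open Fermat.Agent.S36 Fermat.Agent.S36.InvFun
open Fermat.Agent.S37.LevelPull (lvl coe_lvl)

/-! ### The two spellings of the extension of constants -/

/-- `S36.InvFun.upF` and `S34.Modular.SwapE.upE` are the same map. -/
theorem upF_eq_upE (N : ℕ) [NeZero N] (E : IntermediateField ℚ Qb) (f : LE N E) :
    InvFun.upF N E f = upE N E f :=
  Subtype.ext rfl

/-- `R3NormFree.exists_norm_E_of_sim` in the `upF` spelling. -/
theorem exists_norm_E_of_sim_upF (P : FreyPackage) (N' : ℕ) [NeZero N'] [NeZero P.p]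
    (W : WeierstrassCurve ℤ) (hpN : ¬ P.p ∣ N')
    (ι : (P.freyCurve⁄Qb).Point → FN (N' * P.p)) (hι : IsNewEmb P N' W ι)
    (Q : (P.freyCurve⁄Qb).Point) (hQ : P.p • Q = 0)
    (E : IntermediateField ℚ Qb) (f : LE (N' * P.p) E)
    (hs : Sim Qb P.p (ι Q) (InvFun.upF (N' * P.p) E f)) :
    ∃ (ca cb : E) (ka kb : LE N' E),
      (letI := (alphaHom N' P.p E).toAlgebra; Algebra.norm (LE N' E) f)
        = algebraMap E (LE N' E) ca * ka ^ P.p ∧
      (letI := ((wHom N' P.p E P.pp hpN : LE (N' * P.p) E →+* LE (N' * P.p) E).comp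
          (alphaHom N' P.p E)).toAlgebra; Algebra.norm (LE N' E) f)
        = algebraMap E (LE N' E) cb * kb ^ P.p := by
  rw [upF_eq_upE] at hs
  exact exists_norm_E_of_sim P N' W hpN ι hι Q hQ E f hs

/-! ### The norm equations at an auxiliary level -/

section Lvl

variable (L q a : ℕ) [NeZero L] [NeZero q] [NeZero a]

/-- "The norm along `α` is a constant times a `q`-th power" passes to the auxiliary level. -/
theorem norm_alpha_lvl (hq : q.Prime) (hcop : Nat.Coprime a q) {x : FN (L * q)}
    (hx : ∃ (c : Qb) (g : FN L),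
      (letI := algebraAlong (heckeAlphaBar Qb L q); Algebra.norm (FN L) x)
        = algebraMap Qb (FN L) c * g ^ q) :
    ∃ (c : Qb) (g : FN (L * a)),
      (letI := algebraAlong (heckeAlphaBar Qb (L * a) q);
        Algebra.norm (FN (L * a)) (lvl (InvAux.dvd_aux_mul L q a) x))
        = algebraMap Qb (FN (L * a)) c * g ^ q := by
  obtain ⟨c, g, hN⟩ := hx
  refine ⟨c, lvl (InvAux.dvd_aux L a) g, ?_⟩
  have h1 := AuxSquare.normA_lvl L q a hq hcop x
  have h2 : normA L q x = algebraMap Qb (FN L) c * g ^ q := hN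
  rw [h2, map_mul, map_pow, AlgHom.commutes] at h1
  exact h1

/-- "The norm along `β` is a constant times a `q`-th power" passes to the auxiliary level. -/
theorem norm_beta_lvl (hq : q.Prime) (hcop : Nat.Coprime a q) {x : FN (L * q)}
    (hx : ∃ (c : Qb) (g : FN L),
      (letI := algebraAlong (heckeBetaBar Qb L q); Algebra.norm (FN L) x)
        = algebraMap Qb (FN L) c * g ^ q) :
    ∃ (c : Qb) (g : FN (L * a)),
      (letI := algebraAlong (heckeBetaBar Qb (L * a) q);
        Algebra.norm (FN (L * a)) (lvl (InvAux.dvd_aux_mul L q a) x))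
        = algebraMap Qb (FN (L * a)) c * g ^ q := by
  obtain ⟨c, g, hN⟩ := hx
  refine ⟨c, lvl (InvAux.dvd_aux L a) g, ?_⟩
  have h1 := AuxSquare.normB_lvl L q a hq hcop x
  have h2 : normB L q x = algebraMap Qb (FN L) c * g ^ q := hN
  rw [h2, map_mul, map_pow, AlgHom.commutes] at h1
  exact h1

end Lvl

/-- **The `E`-level norm equations at the auxiliary level `N' * a`**, for a `p`-new embedding
at level `N' p`: for every intermediate field `E` and every `f : LE (N' a p) E` whose extension
of constants is `Sim`-equivalent to the level pull of `ι Q`. -/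
theorem exists_norm_E_of_sim_lvl_aux (P : FreyPackage) (N' : ℕ) [NeZero N'] [NeZero P.p]
    (W : WeierstrassCurve ℤ) (hpN : ¬ P.p ∣ N')
    (ι : (P.freyCurve⁄Qb).Point → FN (N' * P.p)) (hι : IsNewEmb P N' W ι)
    (Q : (P.freyCurve⁄Qb).Point) (hQ : P.p • Q = 0)
    (a : ℕ) [NeZero a] (hcop : Nat.Coprime a P.p) (hpM : ¬ P.p ∣ N' * a)
    (E : IntermediateField ℚ Qb) (f : LE (N' * a * P.p) E)
    (hs : Sim Qb P.p (lvl (InvAux.dvd_aux_mul N' P.p a) (ι Q))
      (InvFun.upF (N' * a * P.p) E f)) :
    ∃ (ca cb : E) (ka kb : LE (N' * a) E),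
      (letI := (alphaHom (N' * a) P.p E).toAlgebra; Algebra.norm (LE (N' * a) E) f)
        = algebraMap E (LE (N' * a) E) ca * ka ^ P.p ∧
      (letI := ((wHom (N' * a) P.p E P.pp hpM :
          LE (N' * a * P.p) E →+* LE (N' * a * P.p) E).comp
          (alphaHom (N' * a) P.p E)).toAlgebra; Algebra.norm (LE (N' * a) E) f)
        = algebraMap E (LE (N' * a) E) cb * kb ^ P.p := by
  rw [upF_eq_upE] at hs
  obtain ⟨c, g, hNa⟩ := norm_alpha_sim (N' * a) P.p P.pp hpM hs
    (norm_alpha_lvl N' P.p a P.pp hcop (hι.normAlpha Q hQ))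
  obtain ⟨c', g', hNb⟩ := norm_beta_sim (N' * a) P.p P.pp hpM hs
    (norm_beta_lvl N' P.p a P.pp hcop (hι.normBeta Q hQ))
  exact exists_norm_E_free (N' * a) P.p P.pp hpM E f c c' g g' hNa hNb

/-- **The exit at the auxiliary level `M`** (`M` a variable with `hM : M = N' * a`, so that
both `4 * N'` and `N' * 4` are covered; `hdvd` any proof of `N' * p ∣ M * p`). -/
theorem exists_norm_E_of_sim_lvl (P : FreyPackage) (N' : ℕ) [NeZero N'] [NeZero P.p]
    (W : WeierstrassCurve ℤ) (hpN : ¬ P.p ∣ N')
    (ι : (P.freyCurve⁄Qb).Point → FN (N' * P.p)) (hι : IsNewEmb P N' W ι)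
    (Q : (P.freyCurve⁄Qb).Point) (hQ : P.p • Q = 0)
    (a M : ℕ) [NeZero a] [NeZero M] (hM : M = N' * a) (hcop : Nat.Coprime a P.p)
    (hpM : ¬ P.p ∣ M) (hdvd : N' * P.p ∣ M * P.p)
    (E : IntermediateField ℚ Qb) (f : LE (M * P.p) E)
    (hs : Sim Qb P.p (lvl hdvd (ι Q)) (InvFun.upF (M * P.p) E f)) :
    ∃ (ca cb : E) (ka kb : LE M E),
      (letI := (alphaHom M P.p E).toAlgebra; Algebra.norm (LE M E) f)
        = algebraMap E (LE M E) ca * ka ^ P.p ∧
      (letI := ((wHom M P.p E P.pp hpM : LE (M * P.p) E →+* LE (M * P.p) E).comp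
          (alphaHom M P.p E)).toAlgebra; Algebra.norm (LE M E) f)
        = algebraMap E (LE M E) cb * kb ^ P.p := by
  subst hM
  exact exists_norm_E_of_sim_lvl_aux P N' W hpN ι hι Q hQ a hcop hpM E f hs

end Fermat.Agent.S44.L.R3NormLvl
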