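import Mathlib
import Fermat.Agent.S44.L.TopProof
import Fermat.Agent.S44.L.Kappa
import Fermat.Agent.S44.H.Bricks

/-!
# PROGRAM MR (S44), strand L, brick (L.DESC): descent of `p ∣ ord` along a finite extension

Row MR.L.Desc (helper224; second helper89).  "`p ∣ ord_w g`" (`Top.PDivAt p w g`: `g` is a unit
of `w` times a `p`-th power) descends from a finite extension `K / k` of degree prime to `p` to
`k`: if `g ∈ k` is `PDivAt` at every valuation subring of `K` lying over `w`, then `g` is
`PDivAt` at `w`.  Proof: `N_{K/k}(g) = g ^ [K : k]`, the norm brick `H.NormPDivStatement`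
(strand H, brick H.5; a named hypothesis here), and Bezout for `[K : k]` and `p`.

* Part 1 (level-free core): `isSeparable_of_finrank_lt` (degree `< p` in characteristic `p`
  is separable), `pDivAt_of_forall_comap` (degree prime to `p`, separable),
  `pDivAt_of_forall_comap_of_finrank_lt` (degree `< p`, characteristic `p`).
* Part 2 (two subfields `K₁ ≤ K₂` of a common field, degree bound in FAMILY form: every
  `K₁`-linearly independent finite family of elements of `K₂` has at most `n < p` members):
  `finite_and_finrank_le`, `pDivAt_of_subfield`.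
* Part 3 (the reduced function fields `redField N₁ A ≤ redField N₂ A` of `Contract`):
  `redField_mono`, `isFinitePl_comap_iff`, `pDivAt_desc_at`, `pDivAt_desc_finite`,
  `pDivAt_desc_cusp`.  Named hypotheses: `H.NormPDivStatement`, `H.DvrStatement`,
  `H.RedFinStatement` and the family-form degree bound.
-/

set_option autoImplicit false

namespace Fermat.Agent.S44.L.Desc

open Fermat.Agent.S30 Fermat.Agent.S30.Producer Fermat.Agent.S44.Contract
open Fermat.Agent.S44.L.Top Fermat.Agent.S44.L.TopProof

/-! ### Part 1: the level-free core -/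

section Core

/-- In characteristic `p`, a finite extension of degree `< p` is separable. -/
theorem isSeparable_of_finrank_lt {k K : Type*} [Field k] [Field K] [Algebra k K]
    [FiniteDimensional k K] (p : ℕ) [CharP k p] (h : Module.finrank k K < p) :
    Algebra.IsSeparable k K := by
  refine ⟨fun x => ?_⟩
  have hint : IsIntegral k x := IsIntegral.of_finite k x
  have hirr : Irreducible (minpoly k x) := minpoly.irreducible hint
  rcases Polynomial.separable_or p hirr with hs | ⟨-, g, hg, hgx⟩
  · exact hs
  · exfalso
    have h1 : (minpoly k x).natDegree = g.natDegree * p := by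
      rw [← hgx, Polynomial.natDegree_expand]
    have h2 : 0 < g.natDegree := hg.natDegree_pos
    have h3 : (minpoly k x).natDegree ≤ Module.finrank k K := minpoly.natDegree_le x
    have h4 : p ≤ g.natDegree * p := Nat.le_mul_of_pos_left p h2
    omega

/-- `PDivAt p w 0` (junk value; `p ≠ 0`). -/
theorem pDivAt_zero {k : Type*} [Field k] {p : ℕ} (hp : p ≠ 0) (w : ValuationSubring k) :
    PDivAt p w (0 : k) :=
  ⟨1, 0, by rw [zero_pow hp, mul_zero], w.one_mem, by rw [inv_one]; exact w.one_mem⟩

/-- Everything is `PDivAt` at the trivial valuation subring. -/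
theorem pDivAt_top {k : Type*} [Field k] (p : ℕ) (g : k) :
    PDivAt p (⊤ : ValuationSubring k) g :=
  ⟨g, 1, by rw [one_pow, mul_one], ValuationSubring.mem_top _, ValuationSubring.mem_top _⟩

/-- **Descent of `p ∣ ord`, core.**  `K / k` finite separable of degree prime to `p`, `w` a
trivial or discrete valuation subring of `k`, `g ∈ k`.  If `g` is a unit times a `p`-th power at
every valuation subring of `K` lying over `w`, then `g` is a unit times a `p`-th power at `w`. -/
theorem pDivAt_of_forall_comap (hN : H.NormPDivStatement) {k K : Type} [Field k] [Field K]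
    [Algebra k K] [FiniteDimensional k K] [Algebra.IsSeparable k K] {p : ℕ} (hp : p.Prime)
    (hd : ¬ p ∣ Module.finrank k K) (w : ValuationSubring k)
    (hw : w = ⊤ ∨ IsDiscreteValuationRing w) (g : k)
    (h : ∀ W : ValuationSubring K, W.comap (algebraMap k K) = w →
      PDivAt p W (algebraMap k K g)) :
    PDivAt p w g := by
  by_cases hg : g = 0
  · rw [hg]; exact pDivAt_zero hp.ne_zero w
  rcases hw with rfl | hdvr
  · exact pDivAt_top p g
  · have h1 : PDivAt p w (Algebra.norm k (algebraMap k K g)) :=
      hN k K p w hdvr (algebraMap k K g) ((map_ne_zero _).2 hg) h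
    rw [Algebra.norm_algebraMap] at h1
    have h2 : PDivAt p w (g ^ ((Module.finrank k K : ℕ) : ℤ)) := by rwa [zpow_natCast]
    exact pDivAt_of_zpow hg hp (by exact_mod_cast hd) h2

/-- **Descent of `p ∣ ord`, core, degree `< p` in characteristic `p`** (separability is then
automatic). -/
theorem pDivAt_of_forall_comap_of_finrank_lt (hN : H.NormPDivStatement) {k K : Type} [Field k]
    [Field K] [Algebra k K] [FiniteDimensional k K] {p : ℕ} [CharP k p] (hp : p.Prime)
    (hlt : Module.finrank k K < p) (w : ValuationSubring k)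
    (hw : w = ⊤ ∨ IsDiscreteValuationRing w) (g : k)
    (h : ∀ W : ValuationSubring K, W.comap (algebraMap k K) = w →
      PDivAt p W (algebraMap k K g)) :
    PDivAt p w g := by
  have : Algebra.IsSeparable k K := isSeparable_of_finrank_lt p hlt
  have hpos : 0 < Module.finrank k K := Module.finrank_pos
  exact pDivAt_of_forall_comap hN hp (Nat.not_dvd_of_pos_of_lt hpos hlt) w hw g h

end Core

/-! ### Part 2: two subfields of a common field -/

section Subfield

variable {Ω : Type*} [Field Ω]

/-- The inclusion of subfields does not change the underlying element. -/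
theorem coe_inclusion {K₁ K₂ : Subfield Ω} (h12 : K₁ ≤ K₂) (x : K₁) :
    ((Subfield.inclusion h12 x : K₂) : Ω) = (x : Ω) := rfl

/-- A subfield of a field of characteristic `p` has characteristic `p`. -/
theorem charP_subfield (K₁ : Subfield Ω) (p : ℕ) [CharP Ω p] : CharP K₁ p :=
  ⟨fun x => by
    rw [← CharP.cast_eq_zero_iff Ω p x]
    constructor
    · intro h
      have := congrArg (Subtype.val : K₁ → Ω) h
      simpa using this
    · intro h
      exact Subtype.ext (by simpa using h)⟩

/-- **Finiteness and degree bound from the family form.**  If every `K₁`-linearly independent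
finite family of elements of `K₂` has at most `n` members, then `K₂` is finite over `K₁` of
degree `≤ n` (for the inclusion algebra structure). -/
theorem finite_and_finrank_le (K₁ K₂ : Subfield Ω) (h12 : K₁ ≤ K₂) (n : ℕ)
    (hdeg : ∀ (m : ℕ) (f : Fin m → Ω), (∀ i, f i ∈ K₂) → LinearIndependent K₁ f → m ≤ n) :
    letI : Algebra K₁ K₂ := (Subfield.inclusion h12).toAlgebra
    FiniteDimensional K₁ K₂ ∧ Module.finrank K₁ K₂ ≤ n := by
  let _ : Algebra K₁ K₂ := (Subfield.inclusion h12).toAlgebra
  let ι : K₂ →ₗ[K₁] Ω :=
    { toFun := fun x => (x : Ω)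
      map_add' := fun _ _ => rfl
      map_smul' := fun _ _ => rfl }
  have hι : LinearMap.ker ι = ⊥ :=
    LinearMap.ker_eq_bot.2 fun x y hxy => Subtype.ext hxy
  have hrank : Module.rank K₁ K₂ ≤ (n : Cardinal) := by
    apply rank_le
    intro s hs
    have h1 : LinearIndependent K₁ fun i : s => ι (i : K₂) := hs.map' ι hι
    have h2 := h1.comp (fun j : Fin s.card => s.equivFin.symm j) (Equiv.injective _)
    exact hdeg s.card _ (fun i => ((s.equivFin.symm i : s) : K₂).2) h2
  have hfin : Module.Finite K₁ K₂ :=
    Module.rank_lt_aleph0_iff.mp (lt_of_le_of_lt hrank (Cardinal.natCast_lt_aleph0))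
  exact ⟨hfin, Module.finrank_le_of_rank_le hrank⟩

/-- **Descent of `p ∣ ord` between two subfields** `K₁ ≤ K₂` of a field of characteristic `p`,
degree bound `n < p` in family form. -/
theorem pDivAt_of_subfield (hN : H.NormPDivStatement) {Ω : Type} [Field Ω] {p : ℕ} [CharP Ω p]
    (hp : p.Prime) (K₁ K₂ : Subfield Ω) (h12 : K₁ ≤ K₂) (n : ℕ) (hn : n < p)
    (hdeg : ∀ (m : ℕ) (f : Fin m → Ω), (∀ i, f i ∈ K₂) → LinearIndependent K₁ f → m ≤ n)
    (w : ValuationSubring K₁) (hw : w = ⊤ ∨ IsDiscreteValuationRing w) (g : K₁)
    (h : ∀ W : ValuationSubring K₂, W.comap (Subfield.inclusion h12) = w →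
      PDivAt p W (Subfield.inclusion h12 g)) :
    PDivAt p w g := by
  let _ : Algebra K₁ K₂ := (Subfield.inclusion h12).toAlgebra
  obtain ⟨hfin, hle⟩ := finite_and_finrank_le K₁ K₂ h12 n hdeg
  have : FiniteDimensional K₁ K₂ := hfin
  have : CharP K₁ p := charP_subfield K₁ p
  exact pDivAt_of_forall_comap_of_finrank_lt hN hp (lt_of_le_of_lt hle hn) w hw g h

end Subfield

/-! ### Part 3: the reduced function fields -/

section Red

variable {A : ValuationSubring Qb}

/-- The reduced function fields are monotone in the function field. -/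
theorem redField_mono {N₁ N₂ : ℕ} (hFb : E4.Fb N₁ ≤ E4.Fb N₂) (A : ValuationSubring Qb) :
    redField N₁ A ≤ redField N₂ A := by
  apply Subfield.closure_mono
  rintro φ ⟨U, V, hU, hV, hV0, hφ⟩
  exact ⟨U, V, hFb hU, hFb hV, hV0, hφ⟩

/-- `κ((q))` has characteristic `p`. -/
theorem charP_laurent {p : ℕ} (hp : p.Prime) (hA : A.LiesOverPrime p) :
    CharP (LaurentSeries (IsLocalRing.ResidueField A)) p := by
  have := Kappa.charP_residueField hp hA
  exact charP_of_injective_ringHom
    (f := (HahnSeries.C : IsLocalRing.ResidueField A →+* LaurentSeries (IsLocalRing.ResidueField A)))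
    HahnSeries.C_injective p

/-- Valuation subrings of the reduced field are trivial or discrete (from the H bricks). -/
theorem top_or_dvr (hDvr : H.DvrStatement) (hFin : H.RedFinStatement) {p N : ℕ} [NeZero N]
    (hp : p.Prime) (hA : A.LiesOverPrime p) (w : ValuationSubring (redField N A)) :
    w = ⊤ ∨ IsDiscreteValuationRing w := by
  obtain ⟨κ₀, t, hκ₀, -, -, -, hfd⟩ := hFin p N hp A hA
  refine hDvr (redField N A) κ₀ t hfd w fun s hs => ?_
  obtain ⟨c, hc⟩ := (hκ₀ s).1 hs
  by_cases hc0 : c = 0
  · have hs0 : s = 0 := Subtype.ext (by rw [hc, hc0, map_zero]; rfl)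
    rw [hs0]; exact w.zero_mem
  · exact (Kappa.unit_of_coe_eq_C hp hA w s hc0 hc).1

/-- A valuation subring of the larger reduced field is finite (non-cuspidal) iff its
restriction to the smaller one is. -/
theorem isFinitePl_comap_iff (hFin : H.RedFinStatement) {p N₁ N₂ : ℕ} [NeZero N₁]
    (hp : p.Prime) (hA : A.LiesOverPrime p) (h12 : redField N₁ A ≤ redField N₂ A)
    (W : ValuationSubring (redField N₂ A)) :
    IsFinitePl N₁ A (W.comap (Subfield.inclusion h12)) ↔ IsFinitePl N₂ A W := by
  constructor
  · rintro ⟨jb, hjb, hmem⟩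
    refine ⟨Subfield.inclusion h12 jb, ?_, ValuationSubring.mem_comap.1 hmem⟩
    rw [coe_inclusion]; exact hjb
  · rintro ⟨jb, hjb, hmem⟩
    obtain ⟨-, t, -, -, ht, -, -⟩ := hFin p N₁ hp A hA
    refine ⟨t, ht, ValuationSubring.mem_comap.2 ?_⟩
    have e : Subfield.inclusion h12 t = jb := by
      apply Subtype.ext
      rw [coe_inclusion, hjb, ht]
    rw [e]; exact hmem

/-- **(L.DESC), at one place.**  `redField N₁ A ≤ redField N₂ A` with the family-form degree
bound `n < p`; `g` in the smaller field is `PDivAt` at `w` as soon as it is `PDivAt` at every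
valuation subring of the larger field lying over `w`. -/
theorem pDivAt_desc_at (hN : H.NormPDivStatement) (hDvr : H.DvrStatement)
    (hFin : H.RedFinStatement) {p N₁ N₂ : ℕ} [NeZero N₁] (hp : p.Prime)
    (hA : A.LiesOverPrime p) (h12 : redField N₁ A ≤ redField N₂ A) (n : ℕ) (hn : n < p)
    (hdeg : ∀ (m : ℕ) (f : Fin m → LaurentSeries (IsLocalRing.ResidueField A)),
      (∀ i, f i ∈ redField N₂ A) → LinearIndependent (redField N₁ A) f → m ≤ n)
    (w : ValuationSubring (redField N₁ A)) (g : redField N₁ A)
    (h : ∀ W : ValuationSubring (redField N₂ A), W.comap (Subfield.inclusion h12) = w →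
      PDivAt p W (Subfield.inclusion h12 g)) :
    PDivAt p w g := by
  have := charP_laurent hp hA
  exact pDivAt_of_subfield hN hp (redField N₁ A) (redField N₂ A) h12 n hn hdeg w
    (top_or_dvr hDvr hFin hp hA w) g h

/-- **(L.DESC), finite places.**  If `g` is `PDivAt` at every FINITE valuation subring of the
larger reduced field, it is `PDivAt` at every finite valuation subring of the smaller one. -/
theorem pDivAt_desc_finite (hN : H.NormPDivStatement) (hDvr : H.DvrStatement)
    (hFin : H.RedFinStatement) {p N₁ N₂ : ℕ} [NeZero N₁] (hp : p.Prime)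
    (hA : A.LiesOverPrime p) (h12 : redField N₁ A ≤ redField N₂ A) (n : ℕ) (hn : n < p)
    (hdeg : ∀ (m : ℕ) (f : Fin m → LaurentSeries (IsLocalRing.ResidueField A)),
      (∀ i, f i ∈ redField N₂ A) → LinearIndependent (redField N₁ A) f → m ≤ n)
    (g : redField N₁ A)
    (h : ∀ W : ValuationSubring (redField N₂ A), IsFinitePl N₂ A W →
      PDivAt p W (Subfield.inclusion h12 g))
    (w : ValuationSubring (redField N₁ A)) (hw : IsFinitePl N₁ A w) : PDivAt p w g :=
  pDivAt_desc_at hN hDvr hFin hp hA h12 n hn hdeg w g fun W hW =>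
    h W ((isFinitePl_comap_iff hFin hp hA h12 W).1 (by rw [hW]; exact hw))

/-- **(L.DESC), cusps.**  If `g` is `PDivAt` at every NON-finite valuation subring of the larger
reduced field, it is `PDivAt` at every non-finite valuation subring of the smaller one. -/
theorem pDivAt_desc_cusp (hN : H.NormPDivStatement) (hDvr : H.DvrStatement)
    (hFin : H.RedFinStatement) {p N₁ N₂ : ℕ} [NeZero N₁] (hp : p.Prime)
    (hA : A.LiesOverPrime p) (h12 : redField N₁ A ≤ redField N₂ A) (n : ℕ) (hn : n < p)
    (hdeg : ∀ (m : ℕ) (f : Fin m → LaurentSeries (IsLocalRing.ResidueField A)),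
      (∀ i, f i ∈ redField N₂ A) → LinearIndependent (redField N₁ A) f → m ≤ n)
    (g : redField N₁ A)
    (h : ∀ W : ValuationSubring (redField N₂ A), ¬ IsFinitePl N₂ A W →
      PDivAt p W (Subfield.inclusion h12 g))
    (w : ValuationSubring (redField N₁ A)) (hw : ¬ IsFinitePl N₁ A w) : PDivAt p w g :=
  pDivAt_desc_at hN hDvr hFin hp hA h12 n hn hdeg w g fun W hW =>
    h W fun hWfin => hw (by rw [← hW]; exact (isFinitePl_comap_iff hFin hp hA h12 W).2 hWfin)

end Red

end Fermat.Agent.S44.L.Desc
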