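import Mathlib
import Fermat.Agent.S44.L.Desc
import Fermat.Agent.S44.L.DescDeg
import Fermat.Agent.S44.H.NormPDiv
import Fermat.Agent.S44.H.Dvr
import Fermat.Agent.S44.L.ThetaKerFin

/-!
# PROGRAM MR (S44), strand L, row (L.DESC): the level-doubling descent, unconditional (helper71)

`desc_two` is the literal of `Cut.DescStatement` (MR RULING #3): for `g ∈ redField N A`,
`g ≠ 0`, "`p ∣ ord` at every non-finite (resp. finite) valuation subring of
`redField (2 * N) A`" descends to `redField N A`.

Wiring only: `Desc.pDivAt_desc_cusp / pDivAt_desc_finite` (helper224) with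
* the degree bound `[redField (2 N) A : redField N A] ≤ 3 < 5 ≤ p` (`DescDeg.card_red_le_three`),
* `H.NormPDiv.normPDiv`, `H.Dvr.dvr`, `ThetaKerFin.redFinStatement`.

`desc_four` is the two-step corollary `N → 2 N → 2 (2 N)`, stated for a general level `M` with
`hM : M = 4 * N`.
-/

set_option autoImplicit false

open HahnSeries ModularCurve

namespace Fermat.Agent.S44.L.DescFinal

open Fermat.Agent.S30 Fermat.Agent.S30.Producer Fermat.Agent.S44.Contract
open Fermat.Agent.S44.L.Top

/-- **(L.DESC), one level-doubling step** (the literal of `Cut.DescStatement`). -/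
theorem desc_two : ∀ (p N : ℕ) [NeZero N] [NeZero p], p.Prime → 5 ≤ p → ¬ p ∣ N →
    ∀ A : ValuationSubring Qb, A.LiesOverPrime p →
    ∀ (g : redField N A) (g2 : redField (2 * N) A),
      (g2 : LaurentSeries (IsLocalRing.ResidueField A))
        = (g : LaurentSeries (IsLocalRing.ResidueField A)) → g ≠ 0 →
      ((∀ w2 : ValuationSubring (redField (2 * N) A), ¬ IsFinitePl (2 * N) A w2 →
          PDivAt p w2 g2) →
        ∀ w : ValuationSubring (redField N A), ¬ IsFinitePl N A w → PDivAt p w g) ∧
      ((∀ w2 : ValuationSubring (redField (2 * N) A), IsFinitePl (2 * N) A w2 →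
          PDivAt p w2 g2) →
        ∀ w : ValuationSubring (redField N A), IsFinitePl N A w → PDivAt p w g) := by
  intro p N _ _ hp h5 _ A hA g g2 hg2 _
  have h12 : redField N A ≤ redField (2 * N) A := DescDeg.redField_le_two N A
  have hg2' : g2 = Subfield.inclusion h12 g :=
    Subtype.ext (hg2.trans (Desc.coe_inclusion h12 g).symm)
  have hdeg := DescDeg.card_red_le_three p (rfl : 2 * N = 2 * N) hp A hA
  have h3 : 3 < p := by omega
  rw [hg2']
  exact ⟨fun h w hw => Desc.pDivAt_desc_cusp Fermat.Agent.S44.H.NormPDiv.normPDiv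
      Fermat.Agent.S44.H.Dvr.dvr ThetaKerFin.redFinStatement hp hA h12 3 h3 hdeg g h w hw,
    fun h w hw => Desc.pDivAt_desc_finite Fermat.Agent.S44.H.NormPDiv.normPDiv
      Fermat.Agent.S44.H.Dvr.dvr ThetaKerFin.redFinStatement hp hA h12 3 h3 hdeg g h w hw⟩

/-- **(L.DESC), two steps `N → 2 N → 4 N`**, for a level `M` with `hM : M = 4 * N`. -/
theorem desc_four (p N M : ℕ) [NeZero N] [NeZero p] (hM : M = 4 * N) (hp : p.Prime)
    (h5 : 5 ≤ p) (hpN : ¬ p ∣ N) (A : ValuationSubring Qb) (hA : A.LiesOverPrime p)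
    (g : redField N A) (g4 : redField M A)
    (hg4 : (g4 : LaurentSeries (IsLocalRing.ResidueField A))
      = (g : LaurentSeries (IsLocalRing.ResidueField A))) (hg : g ≠ 0) :
    ((∀ w4 : ValuationSubring (redField M A), ¬ IsFinitePl M A w4 → PDivAt p w4 g4) →
        ∀ w : ValuationSubring (redField N A), ¬ IsFinitePl N A w → PDivAt p w g) ∧
      ((∀ w4 : ValuationSubring (redField M A), IsFinitePl M A w4 → PDivAt p w4 g4) →
        ∀ w : ValuationSubring (redField N A), IsFinitePl N A w → PDivAt p w g) := by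
  have hM' : M = 2 * (2 * N) := by rw [hM]; ring
  subst hM'
  haveI : NeZero (2 * N) := ⟨Nat.mul_ne_zero two_ne_zero (NeZero.ne N)⟩
  have hp2 : ¬ p ∣ 2 * N := by
    intro hd
    rcases (Nat.Prime.dvd_mul hp).1 hd with h2 | hN
    · have := Nat.le_of_dvd (by norm_num) h2
      omega
    · exact hpN hN
  have h12 : redField N A ≤ redField (2 * N) A := DescDeg.redField_le_two N A
  set g2 : redField (2 * N) A := Subfield.inclusion h12 g with hg2def
  have hg2 : (g2 : LaurentSeries (IsLocalRing.ResidueField A))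
      = (g : LaurentSeries (IsLocalRing.ResidueField A)) := Desc.coe_inclusion h12 g
  have hg2ne : g2 ≠ 0 := (map_ne_zero (Subfield.inclusion h12)).2 hg
  obtain ⟨hc1, hf1⟩ := desc_two p N hp h5 hpN A hA g g2 hg2 hg
  obtain ⟨hc2, hf2⟩ := desc_two p (2 * N) hp h5 hp2 A hA g2 g4 (hg4.trans hg2.symm) hg2ne
  exact ⟨fun h => hc1 (hc2 h), fun h => hf1 (hf2 h)⟩

end Fermat.Agent.S44.L.DescFinal
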