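import Mathlib
import Fermat.Agent.S44.L.Slope.Cut
import Fermat.Agent.S44.L.DescFinal

/-!
# PROGRAM MR (S44), strand L, row (L.DESC): the exit `descStatement : Cut.DescStatement`
(helper71)

`Slope.Cut.DescStatement` (the level `N2` is a variable with `N2 = 2 * N`) is
`DescFinal.desc_two` after `subst`.  `descStatement` is the constant consumed by
`Slope.Cut.slopeStatement2_of_cut`.
-/

set_option autoImplicit false

namespace Fermat.Agent.S44.L.DescExit

/-- **(L.DESC)** One level-doubling step of the descent of "`p ∣ ord` at all cusps / at all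
finite places": the `Prop` of `S44/L/Slope/Cut.lean`, unconditionally. -/
theorem descStatement : Fermat.Agent.S44.L.Slope.Cut.DescStatement := by
  intro p N N2 _ _ hN2 hp h5 hpN A hA g g2 hg2 hg
  subst hN2
  exact Fermat.Agent.S44.L.DescFinal.desc_two p N hp h5 hpN A hA g g2 hg2 hg

end Fermat.Agent.S44.L.DescExit
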