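import Mathlib
import Fermat.Agent.S44.L.EisFun
import Fermat.Agent.S44.L.TopLemmas

/-!
# PROGRAM MR (S44), strand L: the reduction of the Eisenstein function lies in `redField N' A`

`D = eisFun N' p = Δ(q)/Δ(q^p) ∈ FN (N' p)` has the reduction `D̄ = Δ̄ · (Δ̄^p)⁻¹ = Δ̄^(1-p)`
(`EisFun.redAt_eisFun`, a statement about Laurent series).  Given `Top.RedStatement` (every
nonzero function of level `N' p` has a reduction in the reduced field of level `N'`) and the
uniqueness of reductions up to a constant, `D̄` ITSELF lies in `redField N' A`: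

* `eisBar_mem_redField` : `Δ̄ · (Δ̄^p)⁻¹ ∈ redField N' A`;
* `exists_eisBar`       : the element `Dbar : redField N' A` asked for by `Top.SlopeStatement`,
  with `RedAt (N' p) A D Dbar` and the explicit value of its `q`-expansion;
* `eisBar_slope_data`   : the first clauses of `Top.SlopeStatement` for `D`, `Dbar`, `m = 12`.
-/

set_option autoImplicit false

open HahnSeries ModularCurve

namespace Fermat.Agent.S44.L.EisRed

open Fermat.Agent.S30 Fermat.Agent.S30.Producer Fermat.Agent.S44.Contract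
open Fermat.Agent.S44.L.Top Fermat.Agent.S44.L.EisFormal Fermat.Agent.S44.L.EisFun

/-- **`D̄ = Δ̄ (Δ̄^p)⁻¹` lies in the reduced field of level `N'`** (given RED). -/
theorem eisBar_mem_redField (hRed : RedStatement) (p N' : ℕ) [NeZero N'] [NeZero p]
    (hp : p.Prime) (hp5 : 5 ≤ p) (hpN : ¬ p ∣ N') (A : ValuationSubring Qb)
    (hA : A.LiesOverPrime p) :
    deltaL (IsLocalRing.ResidueField A) * (deltaL (IsLocalRing.ResidueField A) ^ p)⁻¹
      ∈ redField N' A := by
  obtain ⟨f, hf⟩ := hRed p N' hp hp5 hpN A hA (eisFun N' p hp) (eisFun_ne_zero N' p hp)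
  obtain ⟨e, he, hee⟩ := TopLemmas.RedAt.unique (redAt_eisFun N' p hp A hA) hf
  rw [hee]
  exact (redField N' A).mul_mem (TopLemmas.C_mem_redField N' A e) f.2

/-- **The reduction of the Eisenstein function as an element of the reduced field.** -/
theorem exists_eisBar (hRed : RedStatement) (p N' : ℕ) [NeZero N'] [NeZero p]
    (hp : p.Prime) (hp5 : 5 ≤ p) (hpN : ¬ p ∣ N') (A : ValuationSubring Qb)
    (hA : A.LiesOverPrime p) :
    ∃ Dbar : redField N' A,
      (Dbar : LaurentSeries (IsLocalRing.ResidueField A))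
        = deltaL (IsLocalRing.ResidueField A) * (deltaL (IsLocalRing.ResidueField A) ^ p)⁻¹ ∧
      RedAt (N' * p) A (eisFun N' p hp) (Dbar : LaurentSeries (IsLocalRing.ResidueField A)) :=
  ⟨⟨_, eisBar_mem_redField hRed p N' hp hp5 hpN A hA⟩, rfl, redAt_eisFun N' p hp A hA⟩

/-- The clauses of `Top.SlopeStatement` that concern `D` alone (`D ≠ 0`, `m = 12`, `RedAt`,
the Hecke clause), for `D = eisFun N' p` and any `Dbar` as in `exists_eisBar`. -/
theorem eisBar_slope_data (hRed : RedStatement) (p N' : ℕ) [NeZero N'] [NeZero p]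
    (hp : p.Prime) (hp5 : 5 ≤ p) (hpN : ¬ p ∣ N') (A : ValuationSubring Qb)
    (hA : A.LiesOverPrime p) :
    ∃ (D : FN (N' * p)) (Dbar : redField N' A) (m : ℕ),
      D = eisFun N' p hp ∧ m = 12 ∧
      (Dbar : LaurentSeries (IsLocalRing.ResidueField A))
        = deltaL (IsLocalRing.ResidueField A) * (deltaL (IsLocalRing.ResidueField A) ^ p)⁻¹ ∧
      D ≠ 0 ∧ 0 < m ∧ ¬ p ∣ m ∧
      RedAt (N' * p) A D (Dbar : LaurentSeries (IsLocalRing.ResidueField A)) ∧
      (∀ ℓ : ℕ, ℓ.Prime → ¬ ℓ ∣ N' * p → ∃ (c : Qb) (k : FN (N' * p)),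
        E4.heckeFb (N' * p) ℓ D = algebraMap Qb (FN (N' * p)) c * D ^ (ℓ + 1) * k ^ p) := by
  obtain ⟨Dbar, hD, hR⟩ := exists_eisBar hRed p N' hp hp5 hpN A hA
  refine ⟨eisFun N' p hp, Dbar, 12, rfl, rfl, hD, eisFun_ne_zero N' p hp, by norm_num, ?_, hR,
    fun ℓ hℓ hℓN => heckeFb_eisFun_slope N' p hp hℓ hℓN⟩
  intro hdvd
  rcases (Nat.Prime.dvd_mul hp).mp (show p ∣ 4 * 3 from hdvd) with h | h
  · have := Nat.le_of_dvd (by norm_num) h
    omega
  · have := Nat.le_of_dvd (by norm_num) h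
    omega

end Fermat.Agent.S44.L.EisRed
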