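import Mathlib

set_option autoImplicit false

namespace Fermat.Agent.S44.L.ASForm

open Polynomial

section Poly

variable {R : Type*} [CommRing R]

/-- The Artin–Schreier form `((1 + lam * Z) ^ p - 1) / lam ^ p` of the Kummer equation, written
with `p = nu * lam ^ (p - 1)`:
`Z ^ p + ∑_{0 < i < p} (C(p, i) / p) * nu * lam ^ (i - 1) * Z ^ i`. -/
noncomputable def asPoly (p : ℕ) (lam nu : R) : R[X] :=
  X ^ p + ∑ i ∈ Finset.Ico 1 p, C (((p.choose i / p : ℕ) : R) * nu * lam ^ (i - 1)) * X ^ i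

theorem degree_asPoly_tail_lt (p : ℕ) (lam nu : R) :
    (∑ i ∈ Finset.Ico 1 p, C (((p.choose i / p : ℕ) : R) * nu * lam ^ (i - 1)) * X ^ i).degree
      < (p : WithBot ℕ) := by
  refine (degree_sum_le _ _).trans_lt ?_
  refine (Finset.sup_lt_iff (WithBot.bot_lt_coe p)).2 fun i hi => ?_
  refine (degree_C_mul_X_pow_le i _).trans_lt ?_
  exact WithBot.coe_lt_coe.2 (Finset.mem_Ico.1 hi).2

theorem asPoly_monic (p : ℕ) (lam nu : R) : (asPoly p lam nu).Monic :=
  monic_X_pow_add (degree_asPoly_tail_lt p lam nu)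

theorem natDegree_asPoly [Nontrivial R] (p : ℕ) (lam nu : R) :
    (asPoly p lam nu).natDegree = p := by
  unfold asPoly
  rw [natDegree_add_eq_left_of_degree_lt, natDegree_X_pow]
  rw [degree_X_pow]
  exact degree_asPoly_tail_lt p lam nu

/-- **The defining identity**: `lam ^ p * F(Z) = (1 + lam * Z) ^ p - 1`. -/
theorem C_mul_asPoly {p : ℕ} (hp : p.Prime) {lam nu : R} (h : (p : R) = nu * lam ^ (p - 1)) :
    C (lam ^ p) * asPoly p lam nu = (1 + C lam * X) ^ p - 1 := by
  have hp1 : 1 ≤ p := hp.one_lt.le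
  rw [add_comm (1 : R[X]), add_pow, Finset.sum_range_succ, Finset.range_eq_Ico,
    Finset.sum_eq_sum_Ico_succ_bot hp.pos]
  simp only [one_pow, mul_one, pow_zero, Nat.choose_zero_right, Nat.cast_one, Nat.choose_self,
    Nat.sub_self, Nat.sub_zero, zero_add]
  unfold asPoly
  rw [mul_add, Finset.mul_sum, mul_pow, ← C_pow]
  have hterm : ∀ i ∈ Finset.Ico 1 p,
      C (lam ^ p) * (C (((p.choose i / p : ℕ) : R) * nu * lam ^ (i - 1)) * X ^ i) =
        (C lam * X) ^ i * (p.choose i : R[X]) := by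
    intro i hi
    obtain ⟨hi1, hip⟩ := Finset.mem_Ico.1 hi
    have hdvd : p ∣ p.choose i := hp.dvd_choose_self (by omega) hip
    have hch : (p.choose i : R) = ((p.choose i / p : ℕ) : R) * (nu * lam ^ (p - 1)) := by
      rw [← h, ← Nat.cast_mul, Nat.div_mul_cancel hdvd]
    have hpow : lam ^ p * lam ^ (i - 1) = lam ^ i * lam ^ (p - 1) := by
      rw [← pow_add, ← pow_add]
      congr 1
      omega
    rw [mul_pow, ← C_pow, ← C_eq_natCast, hch, ← mul_assoc, ← C_mul, mul_right_comm _ (X ^ i),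
      ← C_mul]
    congr 2
    linear_combination ((p.choose i / p : ℕ) : R) * nu * hpow
  rw [Finset.sum_congr rfl hterm]
  ring

/-- `F(Z) = Z ^ p + nu * Z + lam * G(Z)`: modulo `lam` (and `nu ≡ -1`) it is `Z ^ p - Z`. -/
theorem asPoly_eq {p : ℕ} (hp : p.Prime) (lam nu : R) :
    asPoly p lam nu = X ^ p + C nu * X + C lam *
      ∑ i ∈ Finset.Ico 2 p, C (((p.choose i / p : ℕ) : R) * nu * lam ^ (i - 2)) * X ^ i := by
  unfold asPoly
  rw [Finset.sum_eq_sum_Ico_succ_bot hp.one_lt, Finset.mul_sum]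
  have h1 : p.choose 1 / p = 1 := by rw [Nat.choose_one_right, Nat.div_self hp.pos]
  have hterm : ∀ i ∈ Finset.Ico (1 + 1) p,
      C (((p.choose i / p : ℕ) : R) * nu * lam ^ (i - 1)) * X ^ i =
        C lam * (C (((p.choose i / p : ℕ) : R) * nu * lam ^ (i - 2)) * X ^ i) := by
    intro i hi
    obtain ⟨hi2, -⟩ := Finset.mem_Ico.1 hi
    have hpow : lam ^ (i - 1) = lam * lam ^ (i - 2) := by
      rw [← pow_succ']
      congr 1
      omega
    rw [← mul_assoc, ← C_mul, hpow]
    congr 2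
    ring
  rw [Finset.sum_congr rfl hterm, h1]
  simp only [Nat.cast_one, one_mul, Nat.sub_self, pow_zero, mul_one, pow_one]
  ring

/-- Evaluation form: `lam ^ p * F(z) = (1 + lam * z) ^ p - 1`. -/
theorem aeval_asPoly {A : Type*} [CommRing A] [Algebra R A] {p : ℕ} (hp : p.Prime) {lam nu : R}
    (h : (p : R) = nu * lam ^ (p - 1)) (z : A) :
    algebraMap R A (lam ^ p) * aeval z (asPoly p lam nu) =
      (1 + algebraMap R A lam * z) ^ p - 1 := by
  have := congrArg (aeval z) (C_mul_asPoly hp h)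
  simpa using this

/-- The derivative: `lam ^ p * F'(Z) = lam ^ p * nu * (1 + lam * Z) ^ (p - 1)`. -/
theorem C_mul_derivative_asPoly {p : ℕ} (hp : p.Prime) {lam nu : R}
    (h : (p : R) = nu * lam ^ (p - 1)) :
    C (lam ^ p) * derivative (asPoly p lam nu) =
      C (lam ^ p) * (C nu * (1 + C lam * X) ^ (p - 1)) := by
  have h1 := congrArg derivative (C_mul_asPoly hp h)
  rw [derivative_C_mul, derivative_sub, derivative_one, sub_zero, derivative_pow,
    derivative_add, derivative_one, zero_add, derivative_C_mul, derivative_X, mul_one] at h1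
  rw [h1, h]
  have hpow : lam ^ p = lam ^ (p - 1) * lam := by
    rw [← pow_succ]
    congr 1
    have := hp.pos
    omega
  rw [hpow]
  simp only [C_mul, C_pow]
  ring

theorem derivative_asPoly [IsDomain R] {p : ℕ} (hp : p.Prime) {lam nu : R} (hlam : lam ≠ 0)
    (h : (p : R) = nu * lam ^ (p - 1)) :
    derivative (asPoly p lam nu) = C nu * (1 + C lam * X) ^ (p - 1) :=
  mul_left_cancel₀ (C_ne_zero.2 (pow_ne_zero p hlam)) (C_mul_derivative_asPoly hp h)


/-! ### The deck transformation `z ↦ ζ * z + 1`, `ζ = 1 + lam` -/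

/-- The deck shift: `lam ^ p * F(ζ * Z + 1) = lam ^ p * F(Z)` when `ζ = 1 + lam` is a `p`-th root
of unity. -/
theorem C_mul_asPoly_comp_shift {p : ℕ} (hp : p.Prime) {lam nu : R}
    (h : (p : R) = nu * lam ^ (p - 1)) (hz : (1 + lam) ^ p = 1) :
    C (lam ^ p) * (asPoly p lam nu).comp (C (1 + lam) * X + 1) =
      C (lam ^ p) * asPoly p lam nu := by
  have h1 := congrArg (fun q : R[X] => q.comp (C (1 + lam) * X + 1)) (C_mul_asPoly hp h)
  simp only [mul_comp, C_comp, sub_comp, pow_comp, add_comp, one_comp, X_comp] at h1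
  rw [h1, C_mul_asPoly hp h]
  have h2 : (1 + C lam * (C (1 + lam) * X + 1) : R[X]) = C (1 + lam) * (1 + C lam * X) := by
    simp only [C_add, C_1]
    ring
  rw [h2, mul_pow, ← C_pow, hz, C_1, one_mul]

theorem asPoly_comp_shift [IsDomain R] {p : ℕ} (hp : p.Prime) {lam nu : R} (hlam : lam ≠ 0)
    (h : (p : R) = nu * lam ^ (p - 1)) (hz : (1 + lam) ^ p = 1) :
    (asPoly p lam nu).comp (C (1 + lam) * X + 1) = asPoly p lam nu :=
  mul_left_cancel₀ (C_ne_zero.2 (pow_ne_zero p hlam)) (C_mul_asPoly_comp_shift hp h hz)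

/-- Evaluation form of the deck shift. -/
theorem aeval_asPoly_shift {A : Type*} [CommRing A] [Algebra R A] {p : ℕ} (hp : p.Prime)
    {lam nu : R} (h : (p : R) = nu * lam ^ (p - 1)) (hz : (1 + lam) ^ p = 1) (z : A) :
    algebraMap R A (lam ^ p) * aeval (algebraMap R A (1 + lam) * z + 1) (asPoly p lam nu) =
      algebraMap R A (lam ^ p) * aeval z (asPoly p lam nu) := by
  have := congrArg (aeval z) (C_mul_asPoly_comp_shift hp h hz)
  simpa [aeval_comp] using this

/-! ### `∏_{j < p} (Z - j) ≡ Z ^ p - Z` modulo `p` -/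

theorem prod_X_sub_C_zmod (p : ℕ) [Fact p.Prime] :
    ∏ a : ZMod p, (X - C a) = (X ^ p - X : (ZMod p)[X]) := by
  have hs := GaloisField.splits_zmod_X_pow_sub_X p
  have hm : (X ^ p - X : (ZMod p)[X]).Monic :=
    monic_X_pow_sub (by
      rw [degree_X]
      exact_mod_cast (Fact.out : p.Prime).one_lt)
  have hr : roots (X ^ p - X : (ZMod p)[X]) = Finset.univ.val := by
    have := FiniteField.roots_X_pow_card_sub_X (ZMod p)
    rwa [ZMod.card p] at this
  conv_rhs => rw [hs.eq_prod_roots_of_monic hm, hr]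
  rfl

theorem prod_range_X_sub_C_zmod (p : ℕ) [Fact p.Prime] :
    ∏ j ∈ Finset.range p, (X - C ((j : ℕ) : ZMod p)) = (X ^ p - X : (ZMod p)[X]) := by
  rw [← prod_X_sub_C_zmod p]
  refine Finset.prod_bij (fun j _ => ((j : ℕ) : ZMod p)) (fun _ _ => Finset.mem_univ _) ?_ ?_
    (fun _ _ => rfl)
  · intro i hi j hj hij
    rw [ZMod.natCast_eq_natCast_iff'] at hij
    rwa [Nat.mod_eq_of_lt (Finset.mem_range.1 hi), Nat.mod_eq_of_lt (Finset.mem_range.1 hj)] at hij
  · intro a _
    exact ⟨a.val, Finset.mem_range.2 (ZMod.val_lt a), ZMod.natCast_zmod_val a⟩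

/-- Over `ℤ`: `∏_{j < p} (Z - j) = Z ^ p - Z + p * G`. -/
theorem exists_prod_range_int {p : ℕ} (hp : p.Prime) :
    ∃ G : ℤ[X], ∏ j ∈ Finset.range p, (X - C ((j : ℕ) : ℤ)) = X ^ p - X + C (p : ℤ) * G := by
  have : Fact p.Prime := ⟨hp⟩
  have hdvd : C (p : ℤ) ∣ ∏ j ∈ Finset.range p, (X - C ((j : ℕ) : ℤ)) - (X ^ p - X) := by
    rw [C_dvd_iff_dvd_coeff]
    intro i
    rw [← ZMod.intCast_zmod_eq_zero_iff_dvd, ← eq_intCast (Int.castRingHom (ZMod p)),
      ← coeff_map]
    have hmap : (∏ j ∈ Finset.range p, (X - C ((j : ℕ) : ℤ)) - (X ^ p - X)).map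
        (Int.castRingHom (ZMod p)) = 0 := by
      rw [Polynomial.map_sub, Polynomial.map_prod]
      simp only [Polynomial.map_sub, Polynomial.map_pow, map_X, map_C]
      simp only [eq_intCast, Int.cast_natCast]
      rw [prod_range_X_sub_C_zmod p, sub_self]
    rw [hmap, coeff_zero]
  obtain ⟨G, hG⟩ := hdvd
  exact ⟨G, by rw [← hG]; ring⟩

/-- Over any commutative ring: `∏_{j < p} (Z - j) = Z ^ p - Z + p * G`. -/
theorem exists_prod_range (R : Type*) [CommRing R] {p : ℕ} (hp : p.Prime) :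
    ∃ G : R[X], ∏ j ∈ Finset.range p, (X - C ((j : ℕ) : R)) = X ^ p - X + C (p : R) * G := by
  obtain ⟨G, hG⟩ := exists_prod_range_int hp
  refine ⟨G.map (Int.castRingHom R), ?_⟩
  have := congrArg (Polynomial.map (Int.castRingHom R)) hG
  simpa [Polynomial.map_prod] using this

/-- Evaluation form: `∏_{j < p} (z - j) = z ^ p - z + p * g`. -/
theorem exists_prod_range_eval {A : Type*} [CommRing A] {p : ℕ} (hp : p.Prime) (z : A) :
    ∃ g : A, ∏ j ∈ Finset.range p, (z - ((j : ℕ) : A)) = z ^ p - z + (p : A) * g := by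
  obtain ⟨G, hG⟩ := exists_prod_range A hp
  refine ⟨G.eval z, ?_⟩
  have := congrArg (Polynomial.eval z) hG
  simpa [eval_prod] using this

theorem exists_mul_sub_add_of_lt {A : Type*} [CommRing A] {p : ℕ} (hp : p.Prime) {i j : ℕ}
    (hi : i < p) (hji : j < i) :
    ∃ a b : A, a * (((i : ℕ) : A) - ((j : ℕ) : A)) + b * (p : A) = 1 := by
  have hcop : Nat.Coprime (i - j) p :=
    Nat.Coprime.symm ((Nat.Prime.coprime_iff_not_dvd hp).2
      (Nat.not_dvd_of_pos_of_lt (by omega) (by omega)))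
  obtain ⟨a, b, hab⟩ := Nat.isCoprime_iff_coprime.2 hcop
  refine ⟨(a : A), (b : A), ?_⟩
  have := congrArg (Int.cast : ℤ → A) hab
  push_cast [Nat.cast_sub hji.le] at this
  exact this

/-- The integers `0, 1, …, p - 1` are pairwise distinct modulo any proper ideal containing `p`:
`i - j` is a unit modulo `p` for `i ≠ j` below `p`. -/
theorem exists_mul_sub_add {A : Type*} [CommRing A] {p : ℕ} (hp : p.Prime) {i j : ℕ} (hi : i < p)
    (hj : j < p) (hij : i ≠ j) :
    ∃ a b : A, a * (((i : ℕ) : A) - ((j : ℕ) : A)) + b * (p : A) = 1 := by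
  rcases lt_or_gt_of_ne hij with h | h
  · obtain ⟨a, b, hab⟩ := exists_mul_sub_add_of_lt (A := A) hp hj h
    exact ⟨-a, b, by linear_combination hab⟩
  · exact exists_mul_sub_add_of_lt hp hi h

end Poly

end Fermat.Agent.S44.L.ASForm
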