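import Mathlib

/-!
# PROGRAM MR (S44), strand L: `R[π]` is integrally closed over a base with REDUCED fibre

Level-free commutative algebra, Mathlib only (helper159).

Setting: `R` an integrally closed domain, `L` a field over `R`, `π : L` integral over `R`,
`ϖ : R` with `R / ϖ` REDUCED (`ϖ ∣ x ^ m → ϖ ∣ x`; `ϖ` need not be prime), `ϖ` dividing the
constant coefficient of the minimal polynomial of `π`, and `ϖ = η * π ^ n` with `η` a unit of
`R[π]` (`π` "Eisenstein at `ϖ`": `π ^ n = ϖ * θ(π)`, `θ(π)` a unit).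

* `mul_mem_of_pow_mem`         : `R[π] / π` is reduced.
* `mem_adjoin_of_mul_mem`      : `z` integral over `R` and `π z ∈ R[π]` give `z ∈ R[π]`.
* `mem_adjoin_of_pow_smul_mem` : `z` integral and `ϖ ^ N z ∈ R[π]` give `z ∈ R[π]`
  (the analogue of Mathlib's `mem_adjoin_of_smul_prime_pow_smul_of_minpoly_isEisensteinAt` with
  "`R / ϖ` reduced" in place of "`ϖ` prime").
* `mem_adjoin_of_isIntegral`, `integralClosure_eq_adjoin` : with a power basis whose
  discriminant divides a power of `ϖ`, the integral closure of `R` in `L` is `R[π]`.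
* `dvd_of_algebraMap_eq_mul`, `exists_eq_algebraMap_add_mul` : `R / ϖ → R[π] / π` is bijective.

Application (cover-free ALT of L.SLOPE / L.NZ): `R = Chart O u` the chart ring of level `M p`
over the unramified base `O` (`p` is not prime in it: two components; the fibre is reduced),
`π` the Eisenstein uniformiser of `O_* = O[π]`, `π ^ p = p θ(π)`: the chart over `O_*` is
`(Chart O u)[π]`, with fibre `(Chart O u) / p` at `π`.
-/

set_option autoImplicit false

namespace Fermat.Agent.S44.L.AdjoinClosed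

open Polynomial

section Core

variable {R L : Type*} [CommRing R] [IsDomain R] [IsIntegrallyClosed R] [Field L] [Algebra R L]
  [FaithfulSMul R L]

omit [IsDomain R] [IsIntegrallyClosed R] [FaithfulSMul R L] in
/-- Every element of `R[π]` is `g(π)`. -/
theorem exists_aeval_eq {π y : L} (hy : y ∈ Algebra.adjoin R ({π} : Set L)) :
    ∃ g : R[X], aeval π g = y := by
  rw [Algebra.adjoin_singleton_eq_range_aeval] at hy
  exact hy

omit [IsDomain R] [IsIntegrallyClosed R] [FaithfulSMul R L] in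
theorem aeval_mem (π : L) (g : R[X]) : aeval π g ∈ Algebra.adjoin R ({π} : Set L) := by
  rw [Algebra.adjoin_singleton_eq_range_aeval]
  exact ⟨g, rfl⟩

omit [IsDomain R] [IsIntegrallyClosed R] [FaithfulSMul R L] in
/-- `g(π) = g(0) + π * (g / X)(π)`. -/
theorem aeval_eq_coeff_zero_add (π : L) (g : R[X]) :
    aeval π g = algebraMap R L (g.coeff 0) + π * aeval π g.divX := by
  conv_lhs => rw [← divX_mul_X_add g]
  rw [map_add, map_mul, aeval_X, aeval_C]
  ring

omit [IsDomain R] [IsIntegrallyClosed R] [FaithfulSMul R L] in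
/-- `R → R[π] / π` is onto. -/
theorem exists_eq_algebraMap_add_mul {π y : L} (hy : y ∈ Algebra.adjoin R ({π} : Set L)) :
    ∃ (c : R) (y' : L), y' ∈ Algebra.adjoin R ({π} : Set L) ∧ y = algebraMap R L c + π * y' := by
  obtain ⟨g, rfl⟩ := exists_aeval_eq hy
  exact ⟨g.coeff 0, aeval π g.divX, aeval_mem π _, aeval_eq_coeff_zero_add π g⟩

/-- `π R[π] ∩ R ⊆ ϖ R`: if `c = π * h` with `h ∈ R[π]` and `ϖ` divides the constant coefficient
of the minimal polynomial of `π`, then `ϖ ∣ c`. -/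
theorem dvd_of_algebraMap_eq_mul {π : L} (hint : IsIntegral R π) {ϖ : R}
    (hf0 : ϖ ∣ (minpoly R π).coeff 0) {c : R} {h : L}
    (hh : h ∈ Algebra.adjoin R ({π} : Set L)) (hc : algebraMap R L c = π * h) : ϖ ∣ c := by
  obtain ⟨q, rfl⟩ := exists_aeval_eq hh
  have h0 : aeval π (C c - X * q) = 0 := by
    rw [map_sub, map_mul, aeval_X, aeval_C, hc, sub_self]
  obtain ⟨r, hr⟩ := minpoly.isIntegrallyClosed_dvd hint h0
  have hcoef : (C c - X * q).coeff 0 = c := by
    rw [coeff_sub, coeff_C_zero, coeff_X_mul_zero, sub_zero]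
  have h2 : c = (minpoly R π).coeff 0 * r.coeff 0 := by
    rw [← hcoef, hr, mul_coeff_zero]
  rw [h2]
  exact Dvd.dvd.mul_right hf0 _

/-- **`R[π] / π` is reduced.**  If `R / ϖ` is reduced, `ϖ` divides the constant coefficient of
the minimal polynomial of `π` and `ϖ ∈ π R[π]`, then `y ^ m ∈ π R[π]` implies `y ∈ π R[π]`. -/
theorem mul_mem_of_pow_mem {π : L} (hint : IsIntegral R π) {ϖ : R}
    (hred : ∀ (x : R) (m : ℕ), ϖ ∣ x ^ m → ϖ ∣ x)
    (hf0 : ϖ ∣ (minpoly R π).coeff 0)
    {a : L} (ha : a ∈ Algebra.adjoin R ({π} : Set L)) (hϖa : algebraMap R L ϖ = π * a)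
    {y : L} (hy : y ∈ Algebra.adjoin R ({π} : Set L)) {m : ℕ}
    (h : ∃ h ∈ Algebra.adjoin R ({π} : Set L), y ^ m = π * h) :
    ∃ y' ∈ Algebra.adjoin R ({π} : Set L), y = π * y' := by
  obtain ⟨g, rfl⟩ := exists_aeval_eq hy
  obtain ⟨h, hh, hym⟩ := h
  obtain ⟨q, rfl⟩ := exists_aeval_eq hh
  have h0 : aeval π (g ^ m - X * q) = 0 := by
    rw [map_sub, map_pow, map_mul, aeval_X, hym, sub_self]
  obtain ⟨r, hr⟩ := minpoly.isIntegrallyClosed_dvd hint h0
  have hcoef : (g ^ m - X * q).coeff 0 = g.coeff 0 ^ m := by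
    rw [coeff_sub, coeff_X_mul_zero, sub_zero, coeff_zero_eq_eval_zero, eval_pow,
      ← coeff_zero_eq_eval_zero]
  have hdiv : ϖ ∣ g.coeff 0 ^ m := by
    rw [← hcoef, hr, mul_coeff_zero]
    exact Dvd.dvd.mul_right hf0 _
  obtain ⟨c, hc0⟩ := hred _ _ hdiv
  refine ⟨a * algebraMap R L c + aeval π g.divX,
    Subalgebra.add_mem _ (Subalgebra.mul_mem _ ha (Subalgebra.algebraMap_mem _ c))
      (aeval_mem π _), ?_⟩
  rw [aeval_eq_coeff_zero_add π g, hc0, map_mul, hϖa]
  ring

/-- **One descent step.**  `z` integral over `R` and `π z ∈ R[π]` give `z ∈ R[π]`. -/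
theorem mem_adjoin_of_mul_mem {π : L} (hint : IsIntegral R π) (hπ0 : π ≠ 0) {ϖ : R}
    (hred : ∀ (x : R) (m : ℕ), ϖ ∣ x ^ m → ϖ ∣ x)
    (hf0 : ϖ ∣ (minpoly R π).coeff 0)
    {a : L} (ha : a ∈ Algebra.adjoin R ({π} : Set L)) (hϖa : algebraMap R L ϖ = π * a)
    {z : L} (hz : IsIntegral R z) (hπz : π * z ∈ Algebra.adjoin R ({π} : Set L)) :
    z ∈ Algebra.adjoin R ({π} : Set L) := by
  obtain ⟨P, hPm, hP0⟩ := hz
  have hπS : π ∈ Algebra.adjoin R ({π} : Set L) := Algebra.subset_adjoin (Set.mem_singleton π)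
  have hsum : ∑ i ∈ Finset.range P.natDegree, algebraMap R L (P.coeff i) * z ^ i
      + z ^ P.natDegree = 0 := by
    have h := hP0
    rw [eval₂_eq_sum_range, Finset.sum_range_succ, hPm.coeff_natDegree, map_one, one_mul] at h
    exact h
  have hzm : z ^ P.natDegree
      = -∑ i ∈ Finset.range P.natDegree, algebraMap R L (P.coeff i) * z ^ i := by
    linear_combination hsum
  have key : (π * z) ^ P.natDegree = π * (-∑ i ∈ Finset.range P.natDegree,
      algebraMap R L (P.coeff i) * π ^ (P.natDegree - 1 - i) * (π * z) ^ i) := by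
    rw [mul_pow, hzm, mul_neg, mul_neg, Finset.mul_sum, Finset.mul_sum]
    congr 1
    refine Finset.sum_congr rfl fun i hi => ?_
    have hi' : i < P.natDegree := Finset.mem_range.mp hi
    have e : P.natDegree = 1 + (P.natDegree - 1 - i) + i := by omega
    have e2 : π ^ P.natDegree = π * π ^ (P.natDegree - 1 - i) * π ^ i := by
      conv_lhs => rw [e]
      rw [pow_add, pow_add, pow_one]
    rw [e2, mul_pow]
    ring
  obtain ⟨y', hy', hyy'⟩ := mul_mem_of_pow_mem hint hred hf0 ha hϖa hπz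
    ⟨_, Subalgebra.neg_mem _ (Subalgebra.sum_mem _ fun i _ =>
      Subalgebra.mul_mem _ (Subalgebra.mul_mem _ (Subalgebra.algebraMap_mem _ _)
        (Subalgebra.pow_mem _ hπS _)) (Subalgebra.pow_mem _ hπz _)), key⟩
  rw [mul_left_cancel₀ hπ0 hyy']
  exact hy'

/-- **Integral elements with bounded `ϖ`-denominators lie in `R[π]`.**  `R` integrally closed,
`R / ϖ` reduced, `ϖ` dividing the constant coefficient of the minimal polynomial of `π`,
`ϖ = η * π ^ n` with `η` a unit of `R[π]`: if `z` is integral over `R` and `ϖ ^ N z ∈ R[π]`,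
then `z ∈ R[π]`. -/
theorem mem_adjoin_of_pow_smul_mem {π : L} (hint : IsIntegral R π) {ϖ : R} (hϖ0 : ϖ ≠ 0)
    (hred : ∀ (x : R) (m : ℕ), ϖ ∣ x ^ m → ϖ ∣ x)
    (hf0 : ϖ ∣ (minpoly R π).coeff 0) {n : ℕ} (hn : n ≠ 0) {η η' : L}
    (hη : η ∈ Algebra.adjoin R ({π} : Set L)) (hη' : η' ∈ Algebra.adjoin R ({π} : Set L))
    (hηη' : η * η' = 1) (hϖπ : algebraMap R L ϖ = η * π ^ n)
    {z : L} (hz : IsIntegral R z) {N : ℕ}
    (hN : algebraMap R L (ϖ ^ N) * z ∈ Algebra.adjoin R ({π} : Set L)) :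
    z ∈ Algebra.adjoin R ({π} : Set L) := by
  have hπ0 : π ≠ 0 := by
    rintro rfl
    rw [zero_pow hn, mul_zero] at hϖπ
    exact hϖ0 (FaithfulSMul.algebraMap_injective R L (by rw [hϖπ, map_zero]))
  have hπS : π ∈ Algebra.adjoin R ({π} : Set L) := Algebra.subset_adjoin (Set.mem_singleton π)
  have ha : η * π ^ (n - 1) ∈ Algebra.adjoin R ({π} : Set L) :=
    Subalgebra.mul_mem _ hη (Subalgebra.pow_mem _ hπS _)
  have hϖa : algebraMap R L ϖ = π * (η * π ^ (n - 1)) := by
    obtain ⟨k, rfl⟩ := Nat.exists_eq_succ_of_ne_zero hn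
    rw [hϖπ, Nat.succ_sub_one, pow_succ]
    ring
  have h1 : π ^ (n * N) * z ∈ Algebra.adjoin R ({π} : Set L) := by
    have h2 : η' ^ N * η ^ N = 1 := by rw [← mul_pow, mul_comm, hηη', one_pow]
    have h3 : π ^ (n * N) * z = η' ^ N * (algebraMap R L (ϖ ^ N) * z) := by
      rw [map_pow, hϖπ, mul_pow, ← pow_mul]
      linear_combination (-(π ^ (n * N) * z)) * h2
    rw [h3]
    exact Subalgebra.mul_mem _ (Subalgebra.pow_mem _ hη' _) hN
  have key : ∀ k : ℕ, π ^ k * z ∈ Algebra.adjoin R ({π} : Set L) →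
      z ∈ Algebra.adjoin R ({π} : Set L) := by
    intro k
    induction k with
    | zero => intro h; simpa using h
    | succ k ih =>
      intro h
      apply ih
      refine mem_adjoin_of_mul_mem hint hπ0 hred hf0 ha hϖa ((hint.pow k).mul hz) ?_
      rw [← mul_assoc, ← pow_succ']
      exact h
  exact key _ h1

end Core

section Discr

variable {R K L : Type*} [CommRing R] [IsDomain R] [IsIntegrallyClosed R]
  [Field K] [Algebra R K] [IsFractionRing R K] [Field L] [Algebra K L] [Algebra R L]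
  [IsScalarTower R K L] [Algebra.IsSeparable K L]

/-- **The integral closure is `R[π]`** (element form).  `B` a power basis of `L / K` with
integral generator `π`, whose discriminant divides a power of `ϖ`; `R / ϖ` reduced, `ϖ` dividing
the constant coefficient of the minimal polynomial of `π`, `ϖ = η * π ^ n` with `η` a unit of
`R[π]`.  Then every element of `L` integral over `R` lies in `R[π]`. -/
theorem mem_adjoin_of_isIntegral (B : PowerBasis K L) (hint : IsIntegral R B.gen) {ϖ : R}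
    (hϖ0 : ϖ ≠ 0) (hred : ∀ (x : R) (m : ℕ), ϖ ∣ x ^ m → ϖ ∣ x)
    (hf0 : ϖ ∣ (minpoly R B.gen).coeff 0) {n : ℕ} (hn : n ≠ 0) {η η' : L}
    (hη : η ∈ Algebra.adjoin R ({B.gen} : Set L)) (hη' : η' ∈ Algebra.adjoin R ({B.gen} : Set L))
    (hηη' : η * η' = 1) (hϖπ : algebraMap R L ϖ = η * B.gen ^ n)
    {d e : R} {N : ℕ} (hd : algebraMap R K d = Algebra.discr K B.basis) (hde : d * e = ϖ ^ N)
    {z : L} (hz : IsIntegral R z) : z ∈ Algebra.adjoin R ({B.gen} : Set L) := by
  have hfaith : FaithfulSMul R L := by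
    rw [faithfulSMul_iff_algebraMap_injective, IsScalarTower.algebraMap_eq R K L]
    exact (FaithfulSMul.algebraMap_injective K L).comp (IsFractionRing.injective R K)
  have hfin : Module.Finite K L := B.finite
  have h1 := Algebra.discr_mul_isIntegral_mem_adjoin K hint hz
  rw [← hd, Algebra.smul_def, ← IsScalarTower.algebraMap_apply] at h1
  refine mem_adjoin_of_pow_smul_mem hint hϖ0 hred hf0 hn hη hη' hηη' hϖπ hz (N := N) ?_
  have h2 : algebraMap R L (ϖ ^ N) * z = algebraMap R L e * (algebraMap R L d * z) := by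
    rw [← hde, map_mul]
    ring
  rw [h2]
  exact Subalgebra.mul_mem _ (Subalgebra.algebraMap_mem _ e) h1

/-- **The integral closure is `R[π]`** (subalgebra form). -/
theorem integralClosure_eq_adjoin (B : PowerBasis K L) (hint : IsIntegral R B.gen) {ϖ : R}
    (hϖ0 : ϖ ≠ 0) (hred : ∀ (x : R) (m : ℕ), ϖ ∣ x ^ m → ϖ ∣ x)
    (hf0 : ϖ ∣ (minpoly R B.gen).coeff 0) {n : ℕ} (hn : n ≠ 0) {η η' : L}
    (hη : η ∈ Algebra.adjoin R ({B.gen} : Set L)) (hη' : η' ∈ Algebra.adjoin R ({B.gen} : Set L))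
    (hηη' : η * η' = 1) (hϖπ : algebraMap R L ϖ = η * B.gen ^ n)
    {d e : R} {N : ℕ} (hd : algebraMap R K d = Algebra.discr K B.basis) (hde : d * e = ϖ ^ N) :
    integralClosure R L = Algebra.adjoin R ({B.gen} : Set L) := by
  refine le_antisymm (fun z hz => ?_) ?_
  · exact mem_adjoin_of_isIntegral B hint hϖ0 hred hf0 hn hη hη' hηη' hϖπ hd hde hz
  · refine Algebra.adjoin_le ?_
    intro x hx
    rw [Set.mem_singleton_iff] at hx
    rw [hx]
    exact hint

end Discr

end Fermat.Agent.S44.L.AdjoinClosed
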