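import Mathlib
import Fermat.Agent.S44.L.Node

/-!
# (L.N) The node formula (export of `Node.lean` for SLOPE)

`R` a noetherian local domain with maximal ideal `(s, t)`, `s`, `t` non-associated primes
(a regular node; `R` is then factorial), `F = Frac R`.

* `node_formula`: `f ∈ Fˣ` with all orders away from `s`, `t` divisible by `p` is
  `u * s ^ i * t ^ j * (x / y) ^ p` with `u ∈ Rˣ`, `i j : ℤ`, and `x`, `y` prime to `s` and `t`.
* `node_formula_red`: reduction along the branch `t`, for any residue map `φ : R → k` with kernel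
  `(t)`: if `f / (s t) ^ j = A / B` with `t ∤ B` then
  `φ A / φ B = φ u * φ s ^ (i - j) * (φ x / φ y) ^ p`.
* `node_formula_red'`: the same along the branch `s`.
* `zpow_order_unique`: `i` (resp. `j`) is the order of `f` along `s` (resp. `t`).
* `hhor_of_base`: the horizontal hypothesis of `node_lemma` gives that of `node_formula`.
-/

namespace Fermat.Agent.S44.L.Node

set_option linter.unusedVariables false

open IsLocalRing
open Fermat.Agent.S44.L.LocalPrincipal

section Formula

variable {R : Type*} [CommRing R] [IsDomain R]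
  {F : Type*} [Field F] [Algebra R F] [IsFractionRing R F]

/-- Splitting off the `s`- and `t`-parts of a nonzero element. -/
theorem exists_eq_pow_mul_pow_mul [WfDvdMonoid R] {s t : R} (hs : Prime s) (ht : Prime t)
    {c : R} (hc : c ≠ 0) :
    ∃ (a b : ℕ) (x : R), ¬ s ∣ x ∧ ¬ t ∣ x ∧ c = s ^ a * t ^ b * x := by
  obtain ⟨a, c', hc', rfl⟩ := WfDvdMonoid.max_power_factor hc hs.irreducible
  have hc'0 : c' ≠ 0 := right_ne_zero_of_mul hc
  obtain ⟨b, x, hx, rfl⟩ := WfDvdMonoid.max_power_factor hc'0 ht.irreducible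
  exact ⟨a, b, x, fun hd => hc' (Dvd.dvd.mul_left hd _), hx, by ring⟩

omit [IsDomain R] in
/-- One half of `zpow_order_unique`. -/
theorem zpow_order_le {s : R} (hs : Prime s) {a b a' b' : R} (ha' : ¬ s ∣ a') (hb : ¬ s ∣ b)
    (hb'0 : b' ≠ 0) {n n' : ℤ}
    (h : algebraMap R F a / algebraMap R F b * algebraMap R F s ^ n
      = algebraMap R F a' / algebraMap R F b' * algebraMap R F s ^ n') : n ≤ n' := by
  by_contra hlt
  rw [not_le] at hlt
  obtain ⟨m, hm⟩ : ∃ m : ℕ, n = n' + ((m + 1 : ℕ) : ℤ) := ⟨(n - n' - 1).toNat, by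
    push_cast
    omega⟩
  have hinj := IsFractionRing.injective R F
  have hS : algebraMap R F s ≠ 0 := (map_ne_zero_iff _ hinj).mpr hs.ne_zero
  have hb0 : b ≠ 0 := fun h0 => hb (h0 ▸ dvd_zero s)
  have hbF : algebraMap R F b ≠ 0 := (map_ne_zero_iff _ hinj).mpr hb0
  have hb'F : algebraMap R F b' ≠ 0 := (map_ne_zero_iff _ hinj).mpr hb'0
  have hz : algebraMap R F s ^ n' ≠ 0 := zpow_ne_zero _ hS
  rw [hm, zpow_add₀ hS, zpow_natCast, div_mul_eq_mul_div, div_mul_eq_mul_div,
    div_eq_div_iff hbF hb'F] at h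
  have h2 : algebraMap R F (a * b' * s ^ (m + 1)) = algebraMap R F (a' * b) := by
    simp only [map_mul, map_pow]
    apply mul_left_cancel₀ hz
    linear_combination h
  have h3 := hinj h2
  have h4 : s ∣ a' * b := ⟨a * b' * s ^ m, by rw [← h3]; ring⟩
  exact (hs.dvd_or_dvd h4).elim ha' hb

omit [IsDomain R] in
/-- The order along a prime is well defined: `(a / b) s ^ n = (a' / b') s ^ n'` with
`a, b, a', b'` prime to `s` forces `n = n'`. -/
theorem zpow_order_unique {s : R} (hs : Prime s) {a b a' b' : R} (ha : ¬ s ∣ a) (hb : ¬ s ∣ b)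
    (ha' : ¬ s ∣ a') (hb' : ¬ s ∣ b') {n n' : ℤ}
    (h : algebraMap R F a / algebraMap R F b * algebraMap R F s ^ n
      = algebraMap R F a' / algebraMap R F b' * algebraMap R F s ^ n') : n = n' :=
  le_antisymm (zpow_order_le hs ha' hb (fun h0 => hb' (by rw [h0]; exact dvd_zero s)) h)
    (zpow_order_le hs ha hb' (fun h0 => hb (by rw [h0]; exact dvd_zero s)) h.symm)

/-- **Node formula, reduction along the branch `t`.**  If `f = u * s ^ i * t ^ j * (x / y) ^ p`
with `x`, `y` prime to `t`, and `f / (s t) ^ j = A / B` with `B` prime to `t`, then for every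
residue map `φ : R → k` with kernel `(t)`:
`φ A / φ B = φ u * φ s ^ (i - j) * (φ x / φ y) ^ p`. -/
theorem node_formula_red {p : ℕ} {s t : R} (hs : Prime s) (ht : Prime t)
    (hne : ¬ Associated s t) {f : F} {u : R} {i j : ℤ} {x y : R} (hx : ¬ t ∣ x) (hy : ¬ t ∣ y)
    (hf : f = algebraMap R F u * algebraMap R F s ^ i * algebraMap R F t ^ j *
        (algebraMap R F x / algebraMap R F y) ^ p)
    {k : Type*} [Field k] (φ : R →+* k) (hφ : ∀ r : R, φ r = 0 ↔ t ∣ r)
    {A B : R} (hB : ¬ t ∣ B)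
    (hAB : algebraMap R F B * f
      = algebraMap R F A * (algebraMap R F s * algebraMap R F t) ^ j) :
    φ A / φ B = φ u * φ s ^ (i - j) * (φ x / φ y) ^ p := by
  have hinj := IsFractionRing.injective R F
  have hst : ¬ t ∣ s := fun hd => hne (ht.associated_of_dvd hs hd).symm
  have hS : algebraMap R F s ≠ 0 := (map_ne_zero_iff _ hinj).mpr hs.ne_zero
  have hT : algebraMap R F t ≠ 0 := (map_ne_zero_iff _ hinj).mpr ht.ne_zero
  have hy0 : y ≠ 0 := fun h0 => hy (h0 ▸ dvd_zero t)
  have hY : algebraMap R F y ≠ 0 := (map_ne_zero_iff _ hinj).mpr hy0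
  have hφs : φ s ≠ 0 := fun h0 => hst ((hφ s).mp h0)
  have hφy : φ y ≠ 0 := fun h0 => hy ((hφ y).mp h0)
  have hφB : φ B ≠ 0 := fun h0 => hB ((hφ B).mp h0)
  obtain ⟨n, m, hnm⟩ : ∃ n m : ℕ, i - j = (n : ℤ) - m :=
    ⟨(i - j).toNat, (j - i).toNat, by omega⟩
  have hi : i = j + n - m := by omega
  have hSj : algebraMap R F s ^ j ≠ 0 := zpow_ne_zero _ hS
  have hTj : algebraMap R F t ^ j ≠ 0 := zpow_ne_zero _ hT
  have hSm : algebraMap R F s ^ m ≠ 0 := pow_ne_zero _ hS
  have e1 : algebraMap R F (B * u * s ^ n * x ^ p) = algebraMap R F (A * y ^ p * s ^ m) := by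
    simp only [map_mul, map_pow]
    rw [hf, hi, zpow_sub₀ hS, zpow_add₀ hS, mul_zpow, zpow_natCast, zpow_natCast, div_pow] at hAB
    field_simp at hAB
    linear_combination hAB
  have e3 := congrArg φ (hinj e1)
  simp only [map_mul, map_pow] at e3
  rw [hnm, zpow_sub₀ hφs, zpow_natCast, zpow_natCast, div_pow]
  field_simp
  linear_combination (-1 : k) * e3

/-- **Node formula, reduction along the branch `s`.** -/
theorem node_formula_red' {p : ℕ} {s t : R} (hs : Prime s) (ht : Prime t)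
    (hne : ¬ Associated s t) {f : F} {u : R} {i j : ℤ} {x y : R} (hx : ¬ s ∣ x) (hy : ¬ s ∣ y)
    (hf : f = algebraMap R F u * algebraMap R F s ^ i * algebraMap R F t ^ j *
        (algebraMap R F x / algebraMap R F y) ^ p)
    {k : Type*} [Field k] (φ : R →+* k) (hφ : ∀ r : R, φ r = 0 ↔ s ∣ r)
    {A B : R} (hB : ¬ s ∣ B)
    (hAB : algebraMap R F B * f
      = algebraMap R F A * (algebraMap R F s * algebraMap R F t) ^ i) :
    φ A / φ B = φ u * φ t ^ (j - i) * (φ x / φ y) ^ p :=
  node_formula_red ht hs (fun h => hne h.symm) hx hy (hf.trans (by ring)) φ hφ hB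
    (hAB.trans (by rw [mul_comm (algebraMap R F s)]))

end Formula

section Node

variable {R : Type*} [CommRing R] [IsDomain R] [IsLocalRing R] [IsNoetherianRing R]
  {F : Type*} [Field F] [Algebra R F] [IsFractionRing R F]

omit [IsLocalRing R] [IsNoetherianRing R] in
/-- The horizontal hypothesis of `node_lemma` (primes not dividing the uniformiser of the base)
gives the horizontal hypothesis of `node_formula` (primes not associated to `s` or `t`). -/
theorem hhor_of_base {O : Type*} [CommRing O] [Algebra O R] {ϖ : O} {s t : R}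
    (hs : Prime s) (ht : Prime t)
    (hst : Associated (s * t) (algebraMap O R ϖ)) {P : R → Prop}
    (hhor : ∀ q : R, Prime q → ¬ q ∣ algebraMap O R ϖ → P q) :
    ∀ g : R, Prime g → ¬ Associated g s → ¬ Associated g t → P g := by
  intro g hg hgs hgt
  refine hhor g hg ?_
  obtain ⟨v, hv⟩ := hst
  rw [← hv]
  intro hd
  rcases hg.dvd_or_dvd hd with hd | hd
  · rcases hg.dvd_or_dvd hd with hd | hd
    · exact hgs (hg.associated_of_dvd hs hd)
    · exact hgt (hg.associated_of_dvd ht hd)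
  · exact hg.not_isUnit (isUnit_of_dvd_unit hd v.isUnit)

/-- **(L.N) The node formula.**  `R` a noetherian local domain with maximal ideal `(s, t)`,
`s`, `t` non-associated primes, `F = Frac R`.  If `f ∈ Fˣ` has all orders at the primes other
than `s`, `t` divisible by `p`, then `f = u * s ^ i * t ^ j * E ^ p` with `u ∈ Rˣ`, `i j : ℤ` and
`E = x / y` a unit at `(s)` and at `(t)`. -/
theorem node_formula {p : ℕ} (hp : p ≠ 0) {s t : R} (hs : Prime s) (ht : Prime t)
    (hne : ¬ Associated s t) (hm : maximalIdeal R = Ideal.span {s, t}) {f : F} (hf : f ≠ 0)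
    (hhor : ∀ g : R, Prime g → ¬ Associated g s → ¬ Associated g t →
      ∃ (a b : R) (h : F), ¬ g ∣ a ∧ ¬ g ∣ b ∧
        algebraMap R F b * f = algebraMap R F a * h ^ p) :
    ∃ (u : Rˣ) (i j : ℤ) (x y : R), ¬ s ∣ x ∧ ¬ t ∣ x ∧ ¬ s ∣ y ∧ ¬ t ∣ y ∧
      f = algebraMap R F u * algebraMap R F s ^ i * algebraMap R F t ^ j *
        (algebraMap R F x / algebraMap R F y) ^ p := by
  have hinj := IsFractionRing.injective R F
  have : IsDomain (R ⧸ Ideal.span {s}) := isDomain_quot hs
  have : IsPrincipalIdealRing (R ⧸ Ideal.span {s}) := isPrincipalIdealRing_quot hs hm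
  have : UniqueFactorizationMonoid R := quot_ufm hs.ne_zero
  obtain ⟨u, i, j, h, hfe⟩ := exists_eq_unit_mul_pow_mul_pow_mul_pow s t hp hf hhor
  have hh : h ≠ 0 := by
    rintro rfl
    rw [zero_pow hp, mul_zero] at hfe
    exact hf hfe
  obtain ⟨n, d, hd, rfl⟩ := IsFractionRing.div_surjective R h
  have hd0 : d ≠ 0 := nonZeroDivisors.ne_zero hd
  have hn0 : n ≠ 0 := by
    rintro rfl
    exact hh (by simp)
  obtain ⟨a₁, b₁, x, hsx, htx, rfl⟩ := exists_eq_pow_mul_pow_mul hs ht hn0
  obtain ⟨a₂, b₂, y, hsy, hty, rfl⟩ := exists_eq_pow_mul_pow_mul hs ht hd0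
  have hS : algebraMap R F s ≠ 0 := (map_ne_zero_iff _ hinj).mpr hs.ne_zero
  have hT : algebraMap R F t ≠ 0 := (map_ne_zero_iff _ hinj).mpr ht.ne_zero
  have hy0 : y ≠ 0 := fun h0 => hsy (h0 ▸ dvd_zero s)
  have hY : algebraMap R F y ≠ 0 := (map_ne_zero_iff _ hinj).mpr hy0
  refine ⟨u, (i : ℤ) + ((a₁ : ℤ) - a₂) * p, (j : ℤ) + ((b₁ : ℤ) - b₂) * p, x, y, hsx, htx, hsy,
    hty, ?_⟩
  rw [hfe, zpow_add₀ hS, zpow_add₀ hT, zpow_mul, zpow_mul, zpow_sub₀ hS, zpow_sub₀ hT]
  simp only [zpow_natCast, map_mul, map_pow]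
  have e : algebraMap R F s ^ a₁ * algebraMap R F t ^ b₁ * algebraMap R F x /
        (algebraMap R F s ^ a₂ * algebraMap R F t ^ b₂ * algebraMap R F y)
      = algebraMap R F s ^ a₁ / algebraMap R F s ^ a₂
        * (algebraMap R F t ^ b₁ / algebraMap R F t ^ b₂)
        * (algebraMap R F x / algebraMap R F y) := by
    field_simp
  rw [e]
  ring

end Node

end Fermat.Agent.S44.L.Node
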