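import Mathlib
import Fermat.Agent.S44.L.EisUnif
import Fermat.Agent.S19.Cech.LaurentBC
import Fermat.Agent.S44.L.AltChartBC

/-!
# PROGRAM MR (S44), strand L, cover-free twin: `Chart Os (α u₄) = ⊕_{i<q} πs^i · Chart O (α u₄)`
(helper270)

The instance `b j = πs ^ j` of `S44/L/AltChartBC.chart_u4_iff`.

`Qb = AlgebraicClosure ℚ`, `A` a valuation subring of `Qb` over the odd prime `q`, `K ≤ K'`
number fields, `K` unramified (`q = ϖ * unit` in `O = OE A K`), `π ∈ K'` with
`|π| ^ q = |q|` and every element of `K'` a `K`-combination of `π ^ i`, `i < q` (`hexp`; the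
Eisenstein situation `K' = K(b)`, `π = b / c - 1`).  `πs` is `π` as an element of `Os = OE A K'`.

Number level (twins of the statements of `S44/L/KummerBase`, from `S44/L/EisUnif`):

* `exists_valuation_eq_zpow` : `|a| ∈ |q| ^ ℤ` for `a ∈ Kˣ`;
* `sum_pow_eq_zero` : `1, π, …, π ^ (q - 1)` are linearly independent over `K`;
* `exists_expansion_OE` : `Os = ⊕_{i<q} O πs ^ i`;
* `exists_sub_inclOE`, `not_isUnit_pi` : residue degree one.

Chart level, levels `(M, M q)`, `4 ∣ M`, `q ∤ M`: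

* `chart_u4_pow_iff` : `x` is integral over `Os[α u₄]` iff `x = ∑ j, πs ^ j * lvl (c j)` with
  the `c j` integral over `O[α u₄]`;
* `exists_coords_pow`, `isIntegral_of_coords_pow`, `coords_pow_unique` : the same in the
  `Finset.range q` form, existence / converse / uniqueness.
-/

set_option autoImplicit false
set_option linter.unusedSectionVars false
set_option linter.unusedVariables false
set_option linter.style.haveILetI false
set_option synthInstance.maxHeartbeats 400000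
set_option maxHeartbeats 1000000

open ModularCurve Polynomial

noncomputable section

namespace Fermat.Agent.S44.L.AltChartBCPow

open Fermat.Agent.S18.K1Defs Fermat.Agent.S18.K1Main Fermat.Agent.S30 Fermat.Agent.S30.Model
open Fermat.Agent.S34 Fermat.Agent.S34.TwoPrimesGauss Fermat.Agent.S34.TwoPrimesRank
open Fermat.Agent.S34.HauptU.Plug Fermat.Agent.S34.HauptU.LevelMAux
open Fermat.Agent.S36.Haupt4 Fermat.Agent.S36.CycloBase
open Fermat.Agent.Lib.ChartBaseChange Fermat.Agent.S19.Cech.BCChart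

local notation "Qb" => AlgebraicClosure ℚ

/-! ### Level-free: sums of powers lie in the adjoined algebra -/

/-- `∑ i < n, c i * π ^ i ∈ C[π]`. -/
theorem sum_mem_adjoin {C Ls : Type*} [CommRing C] [CommRing Ls] [Algebra C Ls] (π : Ls)
    (n : ℕ) (c : ℕ → C) :
    ∑ i ∈ Finset.range n, algebraMap C Ls (c i) * π ^ i ∈ Algebra.adjoin C ({π} : Set Ls) :=
  Subalgebra.sum_mem _ fun i _ =>
    Subalgebra.mul_mem _ (Subalgebra.algebraMap_mem _ _)
      (Subalgebra.pow_mem _ (Algebra.subset_adjoin (Set.mem_singleton π)) i)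

/-! ### Number level -/

section Number

variable (A : ValuationSubring Qb)

/-- The embedding `A ∩ K → Qb`. -/
def toQ (K : IntermediateField ℚ Qb) : OE A K →+* Qb :=
  (algebraMap K Qb).comp (OE A K).subtype

theorem toQ_apply (K : IntermediateField ℚ Qb) (x : OE A K) :
    toQ A K x = (((x : K)) : Qb) := rfl

theorem toQ_injective (K : IntermediateField ℚ Qb) : Function.Injective (toQ A K) :=
  fun _ _ hxy => Subtype.ext (Subtype.ext hxy)

theorem toQ_inclOE {K K' : IntermediateField ℚ Qb} (h : K ≤ K') (x : OE A K) :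
    toQ A K' (inclOE A h x) = toQ A K x := rfl

/-- `|π| < 1`. -/
theorem valuation_pi_lt_one {q : ℕ} (hA : A.LiesOverPrime q) {π : Qb}
    (hval : A.valuation π ^ q = A.valuation ((q : ℕ) : Qb)) : A.valuation π < 1 := by
  have hq1 : A.valuation ((q : ℕ) : Qb) < 1 := A.mem_nonunits_iff.mp hA
  by_contra hge
  rw [not_lt] at hge
  have h1 : 1 ≤ A.valuation π ^ q := one_le_pow₀ hge
  rw [hval] at h1
  exact absurd hq1 (not_lt.mpr h1)

/-- `π ≠ 0`. -/
theorem pi_ne_zero {q : ℕ} (hq : q.Prime) {π : Qb}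
    (hval : A.valuation π ^ q = A.valuation ((q : ℕ) : Qb)) : π ≠ 0 := by
  intro h0
  rw [h0, map_zero, zero_pow hq.ne_zero] at hval
  have h1 : ((q : ℕ) : Qb) = 0 := (map_eq_zero A.valuation).mp hval.symm
  exact hq.ne_zero (by exact_mod_cast h1)

/-- **Valuations of an unramified field**: `|a| ∈ |q| ^ ℤ` for `a ∈ Kˣ`, when `q = ϖ * unit`
in the discrete valuation ring `OE A K`. -/
theorem exists_valuation_eq_zpow (K : IntermediateField ℚ Qb)
    [IsDiscreteValuationRing (OE A K)] (q : ℕ) (ϖ : OE A K) (hϖ : Irreducible ϖ) (e : OE A K)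
    (he : IsUnit e) (hqe : ((q : ℕ) : OE A K) = ϖ * e) (a : K) (ha : a ≠ 0) :
    ∃ m : ℤ, A.valuation (algebraMap K Qb a) = A.valuation ((q : ℕ) : Qb) ^ m := by
  have hvϖ : A.valuation (toQ A K ϖ) = A.valuation ((q : ℕ) : Qb) := by
    have h1 := congrArg (toQ A K) hqe
    rw [map_natCast, map_mul] at h1
    have h2 : A.valuation (toQ A K e) = 1 :=
      (Fermat.Agent.S36.UnramBase.isUnit_OE_iff A K e).mp he
    rw [h1, map_mul, h2, mul_one]
  have key : ∀ b : K, b ≠ 0 → A.valuation (algebraMap K Qb b) ≤ 1 →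
      ∃ n : ℕ, A.valuation (algebraMap K Qb b) = A.valuation ((q : ℕ) : Qb) ^ n := by
    intro b hb hv
    have hbA : b ∈ OE A K := (A.valuation_le_one_iff _).mp hv
    have hb'0 : (⟨b, hbA⟩ : OE A K) ≠ 0 := fun h0 => hb (congrArg Subtype.val h0)
    obtain ⟨n, u, hu⟩ := IsDiscreteValuationRing.eq_unit_mul_pow_irreducible hb'0 hϖ
    refine ⟨n, ?_⟩
    have h1 := congrArg (toQ A K) hu
    rw [map_mul, map_pow] at h1
    have h2 : A.valuation (toQ A K (u : OE A K)) = 1 :=
      (Fermat.Agent.S36.UnramBase.isUnit_OE_iff A K _).mp u.isUnit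
    have h3 : toQ A K ⟨b, hbA⟩ = algebraMap K Qb b := rfl
    rw [← h3, h1, map_mul, h2, one_mul, map_pow, hvϖ]
  rcases le_total (A.valuation (algebraMap K Qb a)) 1 with hv | hv
  · obtain ⟨n, hn⟩ := key a ha hv
    exact ⟨n, by rw [hn, zpow_natCast]⟩
  · have hv' : A.valuation (algebraMap K Qb a⁻¹) ≤ 1 := by
      rw [map_inv₀, map_inv₀]
      exact inv_le_one_of_one_le₀ hv
    obtain ⟨n, hn⟩ := key a⁻¹ (inv_ne_zero ha) hv'
    refine ⟨-(n : ℤ), ?_⟩
    rw [zpow_neg, zpow_natCast, ← hn, map_inv₀, map_inv₀, inv_inv]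

variable {K K' : IntermediateField ℚ Qb} (h : K ≤ K') [IsDiscreteValuationRing (OE A K)]
  {q : ℕ} (hq : q.Prime) (hA : A.LiesOverPrime q)
  (ϖ : OE A K) (hϖ : Irreducible ϖ) (e : OE A K) (he : IsUnit e)
  (hqe : ((q : ℕ) : OE A K) = ϖ * e)
  {π : Qb} (hval : A.valuation π ^ q = A.valuation ((q : ℕ) : Qb))

include hq hA hϖ he hqe hval in
/-- `1, π, …, π ^ (q - 1)` are linearly independent over `K`. -/
theorem linearIndependent_pow : LinearIndependent K (fun i : Fin q => π ^ (i : ℕ)) :=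
  Fermat.Agent.S44.L.EisUnif.linearIndependent_of_distinct A.valuation _
    (fun i => pow_ne_zero _ (pi_ne_zero A hq hval))
    (fun i j a b ha hb hab => Fin.ext
      (Fermat.Agent.S44.L.EisUnif.pow_coset_inj A.valuation
        (exists_valuation_eq_zpow A K q ϖ hϖ e he hqe) (pi_ne_zero A hq hval)
        (valuation_pi_lt_one A hA hval) hval i.2 j.2 ha hb hab))

include hq hA hϖ he hqe hval in
/-- **Uniqueness of the expansion**, `Qb` form. -/
theorem sum_pow_eq_zero (c : Fin q → K)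
    (hc : ∑ j : Fin q, ((c j : K) : Qb) * π ^ (j : ℕ) = 0) : ∀ j, c j = 0 := by
  have hli := linearIndependent_pow A hq hA ϖ hϖ e he hqe hval
  refine Fintype.linearIndependent_iff.mp hli c ?_
  rw [← hc]
  exact Finset.sum_congr rfl (fun j _ => Algebra.smul_def _ _)

include hq hA hϖ he hqe hval in
/-- **`Os = ⊕_{i<q} O πs ^ i`**: the coefficients of an integral element are integral. -/
theorem exists_expansion_OE
    (hexp : ∀ y ∈ K', ∃ c : ℕ → K, y = ∑ i ∈ Finset.range q, ((c i : K) : Qb) * π ^ i)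
    (πs : OE A K') (hπs : (((πs : OE A K') : K') : Qb) = π) (y : OE A K') :
    ∃ c : ℕ → OE A K, y = ∑ i ∈ Finset.range q, inclOE A h (c i) * πs ^ i := by
  obtain ⟨c, hc⟩ := hexp (toQ A K' y) (y : K').2
  have hγ := exists_valuation_eq_zpow A K q ϖ hϖ e he hqe
  have hle : A.valuation (∑ i : Fin q, algebraMap K Qb (c i) * π ^ (i : ℕ)) ≤ 1 := by
    have h1 : ∑ i : Fin q, algebraMap K Qb (c i) * π ^ (i : ℕ) = toQ A K' y :=
      (hc.trans (Finset.sum_range _)).symm
    rw [h1]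
    exact (A.valuation_le_one_iff _).mpr y.2
  have hint : ∀ i, i < q → c i ∈ OE A K := by
    intro i hi
    have h2 := Fermat.Agent.S44.L.EisUnif.coeff_le_one A.valuation hγ (pi_ne_zero A hq hval)
      (valuation_pi_lt_one A hA hval) hval (fun i : Fin q => c i) hle ⟨i, hi⟩
    exact (A.valuation_le_one_iff _).mp h2
  refine ⟨fun i => if hi : i < q then ⟨c i, hint i hi⟩ else 0, ?_⟩
  apply toQ_injective A K'
  rw [hc, map_sum]
  refine Finset.sum_congr rfl (fun i hi => ?_)
  have h3 : toQ A K' (inclOE A h (⟨c i, hint i (Finset.mem_range.mp hi)⟩ : OE A K))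
      = ((c i : K) : Qb) := rfl
  have h4 : toQ A K' πs = π := hπs
  beta_reduce
  rw [map_mul, map_pow, h4, dif_pos (Finset.mem_range.mp hi), h3]

include hA hval in
/-- `πs` is not a unit. -/
theorem not_isUnit_pi (πs : OE A K') (hπs : (((πs : OE A K') : K') : Qb) = π) :
    ¬ IsUnit πs := by
  intro hu
  have h1 := (Fermat.Agent.S36.UnramBase.isUnit_OE_iff A K' πs).mp hu
  rw [hπs] at h1
  exact (ne_of_lt (valuation_pi_lt_one A hA hval)) h1

include hq hA hϖ he hqe hval in
/-- **Residue degree one.** -/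
theorem exists_sub_inclOE
    (hexp : ∀ y ∈ K', ∃ c : ℕ → K, y = ∑ i ∈ Finset.range q, ((c i : K) : Qb) * π ^ i)
    (πs : OE A K') (hπs : (((πs : OE A K') : K') : Qb) = π) (y : OE A K') :
    ∃ c : OE A K, πs ∣ y - inclOE A h c := by
  obtain ⟨c, hc⟩ := exists_expansion_OE A h hq hA ϖ hϖ e he hqe hval hexp πs hπs y
  obtain ⟨n, hn⟩ := Nat.exists_eq_succ_of_ne_zero hq.ne_zero
  refine ⟨c 0, ∑ i ∈ Finset.range n, inclOE A h (c (i + 1)) * πs ^ i, ?_⟩
  rw [hc, hn, Finset.sum_range_succ', pow_zero, mul_one, add_sub_cancel_right, Finset.mul_sum]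
  refine Finset.sum_congr rfl (fun i _ => ?_)
  ring

include hq hA hϖ he hqe hval in
/-- The binder `hres` of `AltChartBC.chart_u4_iff`. -/
theorem hres_pow
    (hexp : ∀ y ∈ K', ∃ c : ℕ → K, y = ∑ i ∈ Finset.range q, ((c i : K) : Qb) * π ^ i)
    (πs : OE A K') (hπs : (((πs : OE A K') : K') : Qb) = π) :
    ∀ a : OE A K', ∃ a' : OE A K, ¬ IsUnit (a - inclOE A h a') := by
  intro a
  obtain ⟨c, w, hw⟩ := exists_sub_inclOE A h hq hA ϖ hϖ e he hqe hval hexp πs hπs a
  refine ⟨c, fun hu => not_isUnit_pi A hA hval πs hπs ?_⟩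
  rw [hw] at hu
  exact isUnit_of_mul_isUnit_left hu

include hq hA hϖ he hqe hval in
/-- The binder `hspanO` of `AltChartBC.chart_u4_iff` at `b j = πs ^ j`. -/
theorem hspanO_pow
    (hexp : ∀ y ∈ K', ∃ c : ℕ → K, y = ∑ i ∈ Finset.range q, ((c i : K) : Qb) * π ^ i)
    (πs : OE A K') (hπs : (((πs : OE A K') : K') : Qb) = π) :
    ∀ a : OE A K', ∃ a' : Fin q → OE A K, a = ∑ j, inclOE A h (a' j) * πs ^ (j : ℕ) := by
  intro a
  obtain ⟨c, hc⟩ := exists_expansion_OE A h hq hA ϖ hϖ e he hqe hval hexp πs hπs a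
  exact ⟨fun j => c j, hc.trans (Finset.sum_range _)⟩

/-- The coordinate `πs ^ j` in `Qb`. -/
theorem coe_pow_pi (πs : OE A K') (hπs : (((πs : OE A K') : K') : Qb) = π) (j : ℕ) :
    ((((πs ^ j : OE A K')) : K') : Qb) = π ^ j := by
  have h1 : toQ A K' (πs ^ j) = π ^ j := by
    rw [map_pow]
    exact congrArg (· ^ j) hπs
  exact h1

/-- Field-level spanning, in the form of `S19/Cech/LaurentBC.exists_coords`. -/
theorem hspan_pow
    (hexp : ∀ y ∈ K', ∃ c : ℕ → K, y = ∑ i ∈ Finset.range q, ((c i : K) : Qb) * π ^ i)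
    (πs : OE A K') (hπs : (((πs : OE A K') : K') : Qb) = π) :
    ∀ x : K', ∃ c : Fin q → K,
      x = ∑ j : Fin q, (((πs ^ (j : ℕ) : OE A K')) : K') * IntermediateField.inclusion h (c j) := by
  intro x
  obtain ⟨c, hc⟩ := hexp (x : Qb) x.2
  refine ⟨fun j => c j, ?_⟩
  apply (algebraMap K' Qb).injective
  have h1 : algebraMap K' Qb x = (x : Qb) := rfl
  rw [h1, hc, Finset.sum_range, map_sum]
  refine Finset.sum_congr rfl (fun j _ => ?_)
  have h2 : algebraMap K' Qb ((((πs ^ (j : ℕ) : OE A K')) : K') *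
      IntermediateField.inclusion h (c j)) = π ^ (j : ℕ) * ((c j : K) : Qb) := by
    rw [map_mul]
    have h3 : algebraMap K' Qb (((πs ^ (j : ℕ) : OE A K')) : K') = π ^ (j : ℕ) :=
      coe_pow_pi A πs hπs j
    rw [h3]
    rfl
  rw [h2, mul_comm]

include hq hA hϖ he hqe hval in
/-- Field-level independence, in the form of `S19/Cech/LaurentBC.coords_unique`. -/
theorem hind_pow (πs : OE A K') (hπs : (((πs : OE A K') : K') : Qb) = π) :
    ∀ c : Fin q → K,
      ∑ j : Fin q, (((πs ^ (j : ℕ) : OE A K')) : K') * IntermediateField.inclusion h (c j) = 0 →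
        ∀ j, c j = 0 := by
  intro c hc
  refine sum_pow_eq_zero A hq hA ϖ hϖ e he hqe hval c ?_
  have h1 := congrArg (algebraMap K' Qb) hc
  rw [map_sum, map_zero] at h1
  rw [← h1]
  refine Finset.sum_congr rfl (fun j _ => ?_)
  have h2 : algebraMap K' Qb ((((πs ^ (j : ℕ) : OE A K')) : K') *
      IntermediateField.inclusion h (c j)) = π ^ (j : ℕ) * ((c j : K) : Qb) := by
    rw [map_mul]
    have h3 : algebraMap K' Qb (((πs ^ (j : ℕ) : OE A K')) : K') = π ^ (j : ℕ) :=
      coe_pow_pi A πs hπs j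
    rw [h3]
    rfl
  rw [h2, mul_comm]

end Number

/-! ### Chart level -/

section Chart

variable (M q : ℕ) [NeZero M] [NeZero q] (A : ValuationSubring Qb)

/-- **`Chart Os (α u₄) = ⊕_{j<q} πs ^ j · lvl (Chart O (α u₄))`** (`InSpan` form). -/
theorem chart_u4_pow_iff (hq : q.Prime) (hodd : q ≠ 2) (hqM : ¬ q ∣ M) (h4 : 4 ∣ M)
    (hA : A.LiesOverPrime q) {K K' : IntermediateField ℚ Qb} (h : K ≤ K')
    [FiniteDimensional ℚ K] [IsDiscreteValuationRing (OE A K)]
    [IsDiscreteValuationRing (OE A K')]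
    (z : Qb) (hz : IsPrimitiveRoot z M) (hzK : z ∈ K)
    (ϖ : OE A K) (hϖ : Irreducible ϖ) (e : OE A K) (he : IsUnit e)
    (hqe : ((q : ℕ) : OE A K) = ϖ * e)
    {π : Qb} (hval : A.valuation π ^ q = A.valuation ((q : ℕ) : Qb))
    (hexp : ∀ y ∈ K', ∃ c : ℕ → K, y = ∑ i ∈ Finset.range q, ((c i : K) : Qb) * π ^ i)
    (πs : OE A K') (hπs : (((πs : OE A K') : K') : Qb) = π) :
    letI := algebraOL (OE A K) K (LE (M * q) K)
    letI := algebraOL (OE A K') K' (LE (M * q) K')
    letI := (inclOE A h).toAlgebra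
    ∀ x : LE (M * q) K',
      IsIntegral (Algebra.adjoin (OE A K')
        ({alphaHom M q K' (u4E M K' h4)} : Set (LE (M * q) K'))) x ↔
        InSpan (OE A K) (lvl (M * q) h) (fun j : Fin q => πs ^ (j : ℕ))
          ({alphaHom M q K (u4E M K h4)} : Set (LE (M * q) K)) x := by
  letI := algebraOL (OE A K) K (LE (M * q) K)
  letI := algebraOL (OE A K') K' (LE (M * q) K')
  letI := (inclOE A h).toAlgebra
  exact Fermat.Agent.S44.L.AltChartBC.chart_u4_iff M q A hq hodd hqM h4 hA h z hz hzK ϖ hϖ e he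
    hqe (fun j : Fin q => πs ^ (j : ℕ))
    (hspanO_pow A h hq hA ϖ hϖ e he hqe hval hexp πs hπs)
    (hres_pow A h hq hA ϖ hϖ e he hqe hval hexp πs hπs)
    (fun c hc => Fermat.Agent.S19.Cech.LaurentBC.coords_unique h
      (fun j : Fin q => (((πs ^ (j : ℕ) : OE A K')) : K'))
      (hind_pow A h hq hA ϖ hϖ e he hqe hval πs hπs) c hc)
    (fun x hx => Fermat.Agent.S19.Cech.LaurentBC.exists_coords (M * q) h
      (fun j : Fin q => (((πs ^ (j : ℕ) : OE A K')) : K'))
      (hspan_pow A h hexp πs hπs) x hx)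

/-- **Existence of the coordinates**, `Finset.range q` form: every element of the chart over
`Os` is `∑ i < q, lvl (c i) * πs ^ i` with the `c i` in the chart over `O`. -/
theorem exists_coords_pow (hq : q.Prime) (hodd : q ≠ 2) (hqM : ¬ q ∣ M) (h4 : 4 ∣ M)
    (hA : A.LiesOverPrime q) {K K' : IntermediateField ℚ Qb} (h : K ≤ K')
    [FiniteDimensional ℚ K] [IsDiscreteValuationRing (OE A K)]
    [IsDiscreteValuationRing (OE A K')]
    (z : Qb) (hz : IsPrimitiveRoot z M) (hzK : z ∈ K)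
    (ϖ : OE A K) (hϖ : Irreducible ϖ) (e : OE A K) (he : IsUnit e)
    (hqe : ((q : ℕ) : OE A K) = ϖ * e)
    {π : Qb} (hval : A.valuation π ^ q = A.valuation ((q : ℕ) : Qb))
    (hexp : ∀ y ∈ K', ∃ c : ℕ → K, y = ∑ i ∈ Finset.range q, ((c i : K) : Qb) * π ^ i)
    (πs : OE A K') (hπs : (((πs : OE A K') : K') : Qb) = π) :
    letI := algebraOL (OE A K) K (LE (M * q) K)
    letI := algebraOL (OE A K') K' (LE (M * q) K')
    ∀ x : LE (M * q) K',
      IsIntegral (Algebra.adjoin (OE A K')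
        ({alphaHom M q K' (u4E M K' h4)} : Set (LE (M * q) K'))) x →
      ∃ c : ℕ → LE (M * q) K,
        (∀ i, IsIntegral (Algebra.adjoin (OE A K)
          ({alphaHom M q K (u4E M K h4)} : Set (LE (M * q) K))) (c i)) ∧
        x = ∑ i ∈ Finset.range q,
          lvl (M * q) h (c i) * algebraMap (OE A K') (LE (M * q) K') πs ^ i := by
  letI := algebraOL (OE A K) K (LE (M * q) K)
  letI := algebraOL (OE A K') K' (LE (M * q) K')
  letI := (inclOE A h).toAlgebra
  intro x hx
  obtain ⟨c, hc, hxc⟩ := (chart_u4_pow_iff M q A hq hodd hqM h4 hA h z hz hzK ϖ hϖ e he hqe hval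
    hexp πs hπs x).mp hx
  refine ⟨fun i => if hi : i < q then c ⟨i, hi⟩ else 0, fun i => ?_, ?_⟩
  · beta_reduce
    by_cases hi : i < q
    · rw [dif_pos hi]; exact hc ⟨i, hi⟩
    · rw [dif_neg hi]; exact isIntegral_zero
  · rw [hxc, Finset.sum_range]
    refine Finset.sum_congr rfl (fun j _ => ?_)
    beta_reduce
    rw [dif_pos j.2, map_pow]
    exact mul_comm _ _

/-- **Converse**: every `∑ i < q, lvl (c i) * πs ^ i` with the `c i` in the chart over `O` lies
in the chart over `Os`. -/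
theorem isIntegral_of_coords_pow (hq : q.Prime) (hodd : q ≠ 2) (hqM : ¬ q ∣ M) (h4 : 4 ∣ M)
    (hA : A.LiesOverPrime q) {K K' : IntermediateField ℚ Qb} (h : K ≤ K')
    [FiniteDimensional ℚ K] [IsDiscreteValuationRing (OE A K)]
    [IsDiscreteValuationRing (OE A K')]
    (z : Qb) (hz : IsPrimitiveRoot z M) (hzK : z ∈ K)
    (ϖ : OE A K) (hϖ : Irreducible ϖ) (e : OE A K) (he : IsUnit e)
    (hqe : ((q : ℕ) : OE A K) = ϖ * e)
    {π : Qb} (hval : A.valuation π ^ q = A.valuation ((q : ℕ) : Qb))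
    (hexp : ∀ y ∈ K', ∃ c : ℕ → K, y = ∑ i ∈ Finset.range q, ((c i : K) : Qb) * π ^ i)
    (πs : OE A K') (hπs : (((πs : OE A K') : K') : Qb) = π) :
    letI := algebraOL (OE A K) K (LE (M * q) K)
    letI := algebraOL (OE A K') K' (LE (M * q) K')
    ∀ c : ℕ → LE (M * q) K,
      (∀ i, i < q → IsIntegral (Algebra.adjoin (OE A K)
        ({alphaHom M q K (u4E M K h4)} : Set (LE (M * q) K))) (c i)) →
      IsIntegral (Algebra.adjoin (OE A K')
        ({alphaHom M q K' (u4E M K' h4)} : Set (LE (M * q) K')))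
        (∑ i ∈ Finset.range q,
          lvl (M * q) h (c i) * algebraMap (OE A K') (LE (M * q) K') πs ^ i) := by
  letI := algebraOL (OE A K) K (LE (M * q) K)
  letI := algebraOL (OE A K') K' (LE (M * q) K')
  letI := (inclOE A h).toAlgebra
  intro c hc
  refine (chart_u4_pow_iff M q A hq hodd hqM h4 hA h z hz hzK ϖ hϖ e he hqe hval
    hexp πs hπs _).mpr ⟨fun j : Fin q => c j, fun j => hc j j.2, ?_⟩
  rw [Finset.sum_range]
  refine Finset.sum_congr rfl (fun j _ => ?_)
  beta_reduce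
  rw [map_pow]
  exact mul_comm _ _

/-- **Uniqueness of the coordinates**, `Finset.range q` form. -/
theorem coords_pow_unique (hq : q.Prime) (hA : A.LiesOverPrime q)
    {K K' : IntermediateField ℚ Qb} (h : K ≤ K') [IsDiscreteValuationRing (OE A K)]
    (ϖ : OE A K) (hϖ : Irreducible ϖ) (e : OE A K) (he : IsUnit e)
    (hqe : ((q : ℕ) : OE A K) = ϖ * e)
    {π : Qb} (hval : A.valuation π ^ q = A.valuation ((q : ℕ) : Qb))
    (πs : OE A K') (hπs : (((πs : OE A K') : K') : Qb) = π) (N : ℕ) [NeZero N] :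
    letI := algebraOL (OE A K') K' (LE N K')
    ∀ c : ℕ → LE N K,
      ∑ i ∈ Finset.range q, lvl N h (c i) * algebraMap (OE A K') (LE N K') πs ^ i = 0 →
        ∀ i, i < q → c i = 0 := by
  letI := algebraOL (OE A K') K' (LE N K')
  intro c hc i hi
  have hu := Fermat.Agent.S44.L.AltChartBC.coords_unique N A h (fun j : Fin q => πs ^ (j : ℕ))
    (fun c hc => Fermat.Agent.S19.Cech.LaurentBC.coords_unique h
      (fun j : Fin q => (((πs ^ (j : ℕ) : OE A K')) : K'))
      (hind_pow A h hq hA ϖ hϖ e he hqe hval πs hπs) c hc)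
    (fun j : Fin q => c j) (by
      refine Eq.trans ?_ hc
      rw [Finset.sum_range]
      refine Finset.sum_congr rfl (fun j _ => ?_)
      rw [map_pow]
      exact mul_comm _ _)
  exact hu ⟨i, hi⟩

end Chart

end Fermat.Agent.S44.L.AltChartBCPow
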