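import Mathlib
import Fermat.Agent.S44.L.AltChartBCPow
import Fermat.Agent.S44.L.AltChartBCInf

/-!
# PROGRAM MR (S44), strand L: the coordinates `b j = πs ^ j` — named binders, and the chart at
infinity (helper270)

Complement of `S44/L/AltChartBCPow` (same binder block: `K ≤ K'` number fields, `K` unramified
`q = ϖ * unit`, `π ∈ K'` with `|π| ^ q = |q|`, `hexp`, `πs = π` in `OE A K'`).

* `hindL_pow`, `hspanL_pow` : the binders `hindL`, `hspanL` of `AltChartBC.chart_u4_iff` /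
  `AltChartBCInf.chart_s4_iff` / `Alt/HordInst` at `b j = πs ^ j` (with `hspanO_pow`, `hres_pow`
  of `AltChartBCPow` these are the four basis binders).
* `exists_coords_u4_fin`, `exists_coords_s4_fin`, `exists_coords_s4_fin'` : the `hcoords` binder
  of `Alt/HordInst.hord_lvl_of_horiz` at `b j = πs ^ j`, for the chart of `α u₄` and for the
  chart at infinity in its two spellings.
* `exists_coords_s4_pow'`, `isIntegral_of_coords_s4_pow'` : the chart at infinity
  (coordinate `(α u₄)⁻¹`) in the `Finset.range q` form: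
  `Chart Os (α u₄)⁻¹ = ⊕_{i<q} πs ^ i · lvl (Chart O (α u₄)⁻¹)`.
-/

set_option autoImplicit false
set_option linter.unusedSectionVars false
set_option linter.unusedVariables false
set_option linter.style.haveILetI false
set_option synthInstance.maxHeartbeats 400000
set_option maxHeartbeats 1000000

open ModularCurve Polynomial

noncomputable section

namespace Fermat.Agent.S44.L.AltChartBCPowInf

open Fermat.Agent.S18.K1Defs Fermat.Agent.S18.K1Main Fermat.Agent.S30 Fermat.Agent.S30.Model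
open Fermat.Agent.S34 Fermat.Agent.S34.TwoPrimesGauss Fermat.Agent.S34.TwoPrimesRank
open Fermat.Agent.S34.HauptU.Plug Fermat.Agent.S34.HauptU.LevelMAux
open Fermat.Agent.S36.Haupt4 Fermat.Agent.S36.CycloBase
open Fermat.Agent.Lib.ChartBaseChange Fermat.Agent.S19.Cech.BCChart
open Fermat.Agent.S44.L.AltChartBCPow

local notation "Qb" => AlgebraicClosure ℚ

/-! ### The two Laurent-level binders at `b j = πs ^ j` -/

section Binders

variable (A : ValuationSubring Qb) {K K' : IntermediateField ℚ Qb} (h : K ≤ K')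
  [IsDiscreteValuationRing (OE A K)] {q : ℕ} (hq : q.Prime) (hA : A.LiesOverPrime q)
  (ϖ : OE A K) (hϖ : Irreducible ϖ) (e : OE A K) (he : IsUnit e)
  (hqe : ((q : ℕ) : OE A K) = ϖ * e)
  {π : Qb} (hval : A.valuation π ^ q = A.valuation ((q : ℕ) : Qb))

include hq hA hϖ he hqe hval in
/-- The binder `hindL` at `b j = πs ^ j`. -/
theorem hindL_pow (πs : OE A K') (hπs : (((πs : OE A K') : K') : Qb) = π) :
    ∀ c : Fin q → LaurentSeries K,
      ∑ j : Fin q, algebraMap K' (LaurentSeries K') (((πs ^ (j : ℕ) : OE A K')) : K') *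
        coeffMap (IntermediateField.inclusion h : K →+* K') (c j) = 0 → ∀ j, c j = 0 :=
  fun c hc => Fermat.Agent.S19.Cech.LaurentBC.coords_unique h
    (fun j : Fin q => (((πs ^ (j : ℕ) : OE A K')) : K'))
    (hind_pow A h hq hA ϖ hϖ e he hqe hval πs hπs) c hc

/-- The binder `hspanL` at `b j = πs ^ j`, level `N`. -/
theorem hspanL_pow
    (hexp : ∀ y ∈ K', ∃ c : ℕ → K, y = ∑ i ∈ Finset.range q, ((c i : K) : Qb) * π ^ i)
    (πs : OE A K') (hπs : (((πs : OE A K') : K') : Qb) = π) (N : ℕ) :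
    ∀ x : LaurentSeries K', x ∈ LE N K' → ∃ c : Fin q → LaurentSeries K,
      (∀ j, c j ∈ LE N K) ∧
        x = ∑ j : Fin q, algebraMap K' (LaurentSeries K') (((πs ^ (j : ℕ) : OE A K')) : K') *
          coeffMap (IntermediateField.inclusion h : K →+* K') (c j) :=
  fun x hx => Fermat.Agent.S19.Cech.LaurentBC.exists_coords N h
    (fun j : Fin q => (((πs ^ (j : ℕ) : OE A K')) : K'))
    (hspan_pow A h hexp πs hπs) x hx

end Binders

/-! ### Chart level -/

section Chart

variable (M q : ℕ) [NeZero M] [NeZero q] (A : ValuationSubring Qb)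

/-- The `hcoords` binder of `Alt/HordInst.hord_lvl_of_horiz` at `b j = πs ^ j`, chart of
`α u₄`. -/
theorem exists_coords_u4_fin (hq : q.Prime) (hodd : q ≠ 2) (hqM : ¬ q ∣ M) (h4 : 4 ∣ M)
    (hA : A.LiesOverPrime q) {K K' : IntermediateField ℚ Qb} (h : K ≤ K')
    [FiniteDimensional ℚ K] [IsDiscreteValuationRing (OE A K)]
    [IsDiscreteValuationRing (OE A K')]
    (z : Qb) (hz : IsPrimitiveRoot z M) (hzK : z ∈ K)
    (ϖ : OE A K) (hϖ : Irreducible ϖ) (e : OE A K) (he : IsUnit e)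
    (hqe : ((q : ℕ) : OE A K) = ϖ * e)
    {π : Qb} (hval : A.valuation π ^ q = A.valuation ((q : ℕ) : Qb))
    (hexp : ∀ y ∈ K', ∃ c : ℕ → K, y = ∑ i ∈ Finset.range q, ((c i : K) : Qb) * π ^ i)
    (πs : OE A K') (hπs : (((πs : OE A K') : K') : Qb) = π) :
    letI := algebraOL (OE A K) K (LE (M * q) K)
    letI := algebraOL (OE A K') K' (LE (M * q) K')
    ∀ x : LE (M * q) K',
      IsIntegral (Algebra.adjoin (OE A K')
        ({alphaHom M q K' (u4E M K' h4)} : Set (LE (M * q) K'))) x →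
      ∃ c : Fin q → LE (M * q) K,
        (∀ j, IsIntegral (Algebra.adjoin (OE A K)
          ({alphaHom M q K (u4E M K h4)} : Set (LE (M * q) K))) (c j)) ∧
        x = ∑ j : Fin q, algebraMap (OE A K') (LE (M * q) K') (πs ^ (j : ℕ)) *
          lvl (M * q) h (c j) :=
  Fermat.Agent.S44.L.AltChartBC.exists_coords_u4 M q A hq hodd hqM h4 hA h z hz hzK ϖ hϖ e he
    hqe (fun j : Fin q => πs ^ (j : ℕ))
    (hspanO_pow A h hq hA ϖ hϖ e he hqe hval hexp πs hπs)
    (hres_pow A h hq hA ϖ hϖ e he hqe hval hexp πs hπs)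
    (hindL_pow A h hq hA ϖ hϖ e he hqe hval πs hπs)
    (hspanL_pow A h hexp πs hπs (M * q))

/-- The `hcoords` binder at `b j = πs ^ j`, chart at infinity, coordinate spelled
`alphaHom M q K (u4E M K h4)⁻¹`. -/
theorem exists_coords_s4_fin (hq : q.Prime) (hodd : q ≠ 2) (hqM : ¬ q ∣ M) (h4 : 4 ∣ M)
    (hA : A.LiesOverPrime q) {K K' : IntermediateField ℚ Qb} (h : K ≤ K')
    [FiniteDimensional ℚ K] [IsDiscreteValuationRing (OE A K)]
    [IsDiscreteValuationRing (OE A K')]
    (z : Qb) (hz : IsPrimitiveRoot z M) (hzK : z ∈ K)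
    (ϖ : OE A K) (hϖ : Irreducible ϖ) (e : OE A K) (he : IsUnit e)
    (hqe : ((q : ℕ) : OE A K) = ϖ * e)
    {π : Qb} (hval : A.valuation π ^ q = A.valuation ((q : ℕ) : Qb))
    (hexp : ∀ y ∈ K', ∃ c : ℕ → K, y = ∑ i ∈ Finset.range q, ((c i : K) : Qb) * π ^ i)
    (πs : OE A K') (hπs : (((πs : OE A K') : K') : Qb) = π) :
    letI := algebraOL (OE A K) K (LE (M * q) K)
    letI := algebraOL (OE A K') K' (LE (M * q) K')
    ∀ x : LE (M * q) K',
      IsIntegral (Algebra.adjoin (OE A K')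
        ({alphaHom M q K' (u4E M K' h4)⁻¹} : Set (LE (M * q) K'))) x →
      ∃ c : Fin q → LE (M * q) K,
        (∀ j, IsIntegral (Algebra.adjoin (OE A K)
          ({alphaHom M q K (u4E M K h4)⁻¹} : Set (LE (M * q) K))) (c j)) ∧
        x = ∑ j : Fin q, algebraMap (OE A K') (LE (M * q) K') (πs ^ (j : ℕ)) *
          lvl (M * q) h (c j) :=
  Fermat.Agent.S44.L.AltChartBCInf.exists_coords_s4 M q A hq hodd hqM h4 hA h z hz hzK ϖ hϖ
    (fun j : Fin q => πs ^ (j : ℕ))
    (hspanO_pow A h hq hA ϖ hϖ e he hqe hval hexp πs hπs)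
    (hres_pow A h hq hA ϖ hϖ e he hqe hval hexp πs hπs)
    (hindL_pow A h hq hA ϖ hϖ e he hqe hval πs hπs)
    (hspanL_pow A h hexp πs hπs (M * q))

/-- The `hcoords` binder at `b j = πs ^ j`, chart at infinity, coordinate spelled
`(alphaHom M q K (u4E M K h4))⁻¹`. -/
theorem exists_coords_s4_fin' (hq : q.Prime) (hodd : q ≠ 2) (hqM : ¬ q ∣ M) (h4 : 4 ∣ M)
    (hA : A.LiesOverPrime q) {K K' : IntermediateField ℚ Qb} (h : K ≤ K')
    [FiniteDimensional ℚ K] [IsDiscreteValuationRing (OE A K)]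
    [IsDiscreteValuationRing (OE A K')]
    (z : Qb) (hz : IsPrimitiveRoot z M) (hzK : z ∈ K)
    (ϖ : OE A K) (hϖ : Irreducible ϖ) (e : OE A K) (he : IsUnit e)
    (hqe : ((q : ℕ) : OE A K) = ϖ * e)
    {π : Qb} (hval : A.valuation π ^ q = A.valuation ((q : ℕ) : Qb))
    (hexp : ∀ y ∈ K', ∃ c : ℕ → K, y = ∑ i ∈ Finset.range q, ((c i : K) : Qb) * π ^ i)
    (πs : OE A K') (hπs : (((πs : OE A K') : K') : Qb) = π) :
    letI := algebraOL (OE A K) K (LE (M * q) K)
    letI := algebraOL (OE A K') K' (LE (M * q) K')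
    ∀ x : LE (M * q) K',
      IsIntegral (Algebra.adjoin (OE A K')
        ({(alphaHom M q K' (u4E M K' h4))⁻¹} : Set (LE (M * q) K'))) x →
      ∃ c : Fin q → LE (M * q) K,
        (∀ j, IsIntegral (Algebra.adjoin (OE A K)
          ({(alphaHom M q K (u4E M K h4))⁻¹} : Set (LE (M * q) K))) (c j)) ∧
        x = ∑ j : Fin q, algebraMap (OE A K') (LE (M * q) K') (πs ^ (j : ℕ)) *
          lvl (M * q) h (c j) :=
  Fermat.Agent.S44.L.AltChartBCInf.exists_coords_s4' M q A hq hodd hqM h4 hA h z hz hzK ϖ hϖ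
    (fun j : Fin q => πs ^ (j : ℕ))
    (hspanO_pow A h hq hA ϖ hϖ e he hqe hval hexp πs hπs)
    (hres_pow A h hq hA ϖ hϖ e he hqe hval hexp πs hπs)
    (hindL_pow A h hq hA ϖ hϖ e he hqe hval πs hπs)
    (hspanL_pow A h hexp πs hπs (M * q))

/-- **Chart at infinity, existence of the coordinates**, `Finset.range q` form: every element of
the chart of `(α u₄)⁻¹` over `Os` is `∑ i < q, lvl (c i) * πs ^ i` with the `c i` in the chart
of `(α u₄)⁻¹` over `O`. -/
theorem exists_coords_s4_pow' (hq : q.Prime) (hodd : q ≠ 2) (hqM : ¬ q ∣ M) (h4 : 4 ∣ M)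
    (hA : A.LiesOverPrime q) {K K' : IntermediateField ℚ Qb} (h : K ≤ K')
    [FiniteDimensional ℚ K] [IsDiscreteValuationRing (OE A K)]
    [IsDiscreteValuationRing (OE A K')]
    (z : Qb) (hz : IsPrimitiveRoot z M) (hzK : z ∈ K)
    (ϖ : OE A K) (hϖ : Irreducible ϖ) (e : OE A K) (he : IsUnit e)
    (hqe : ((q : ℕ) : OE A K) = ϖ * e)
    {π : Qb} (hval : A.valuation π ^ q = A.valuation ((q : ℕ) : Qb))
    (hexp : ∀ y ∈ K', ∃ c : ℕ → K, y = ∑ i ∈ Finset.range q, ((c i : K) : Qb) * π ^ i)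
    (πs : OE A K') (hπs : (((πs : OE A K') : K') : Qb) = π) :
    letI := algebraOL (OE A K) K (LE (M * q) K)
    letI := algebraOL (OE A K') K' (LE (M * q) K')
    ∀ x : LE (M * q) K',
      IsIntegral (Algebra.adjoin (OE A K')
        ({(alphaHom M q K' (u4E M K' h4))⁻¹} : Set (LE (M * q) K'))) x →
      ∃ c : ℕ → LE (M * q) K,
        (∀ i, IsIntegral (Algebra.adjoin (OE A K)
          ({(alphaHom M q K (u4E M K h4))⁻¹} : Set (LE (M * q) K))) (c i)) ∧
        x = ∑ i ∈ Finset.range q,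
          lvl (M * q) h (c i) * algebraMap (OE A K') (LE (M * q) K') πs ^ i := by
  letI := algebraOL (OE A K) K (LE (M * q) K)
  letI := algebraOL (OE A K') K' (LE (M * q) K')
  intro x hx
  obtain ⟨c, hc, hxc⟩ := exists_coords_s4_fin' M q A hq hodd hqM h4 hA h z hz hzK ϖ hϖ e he hqe
    hval hexp πs hπs x hx
  refine ⟨fun i => if hi : i < q then c ⟨i, hi⟩ else 0, fun i => ?_, ?_⟩
  · beta_reduce
    by_cases hi : i < q
    · rw [dif_pos hi]; exact hc ⟨i, hi⟩
    · rw [dif_neg hi]; exact isIntegral_zero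
  · rw [hxc, Finset.sum_range]
    refine Finset.sum_congr rfl (fun j _ => ?_)
    beta_reduce
    rw [dif_pos j.2, map_pow]
    exact mul_comm _ _

/-- **Chart at infinity, converse**: every `∑ i < q, lvl (c i) * πs ^ i` with the `c i` in the
chart of `(α u₄)⁻¹` over `O` lies in the chart of `(α u₄)⁻¹` over `Os`. -/
theorem isIntegral_of_coords_s4_pow' (hq : q.Prime) (hodd : q ≠ 2) (hqM : ¬ q ∣ M)
    (h4 : 4 ∣ M)
    (hA : A.LiesOverPrime q) {K K' : IntermediateField ℚ Qb} (h : K ≤ K')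
    [FiniteDimensional ℚ K] [IsDiscreteValuationRing (OE A K)]
    [IsDiscreteValuationRing (OE A K')]
    (z : Qb) (hz : IsPrimitiveRoot z M) (hzK : z ∈ K)
    (ϖ : OE A K) (hϖ : Irreducible ϖ) (e : OE A K) (he : IsUnit e)
    (hqe : ((q : ℕ) : OE A K) = ϖ * e)
    {π : Qb} (hval : A.valuation π ^ q = A.valuation ((q : ℕ) : Qb))
    (hexp : ∀ y ∈ K', ∃ c : ℕ → K, y = ∑ i ∈ Finset.range q, ((c i : K) : Qb) * π ^ i)
    (πs : OE A K') (hπs : (((πs : OE A K') : K') : Qb) = π) :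
    letI := algebraOL (OE A K) K (LE (M * q) K)
    letI := algebraOL (OE A K') K' (LE (M * q) K')
    ∀ c : ℕ → LE (M * q) K,
      (∀ i, i < q → IsIntegral (Algebra.adjoin (OE A K)
        ({(alphaHom M q K (u4E M K h4))⁻¹} : Set (LE (M * q) K))) (c i)) →
      IsIntegral (Algebra.adjoin (OE A K')
        ({(alphaHom M q K' (u4E M K' h4))⁻¹} : Set (LE (M * q) K')))
        (∑ i ∈ Finset.range q,
          lvl (M * q) h (c i) * algebraMap (OE A K') (LE (M * q) K') πs ^ i) := by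
  letI := algebraOL (OE A K) K (LE (M * q) K)
  letI := algebraOL (OE A K') K' (LE (M * q) K')
  letI := (inclOE A h).toAlgebra
  intro c hc
  refine (Fermat.Agent.S44.L.AltChartBCInf.chart_s4_iff' M q A hq hodd hqM h4 hA h z hz hzK ϖ hϖ
    (fun j : Fin q => πs ^ (j : ℕ))
    (hspanO_pow A h hq hA ϖ hϖ e he hqe hval hexp πs hπs)
    (hres_pow A h hq hA ϖ hϖ e he hqe hval hexp πs hπs)
    (hindL_pow A h hq hA ϖ hϖ e he hqe hval πs hπs)
    (hspanL_pow A h hexp πs hπs (M * q)) _).mpr ⟨fun j : Fin q => c j, fun j => hc j j.2, ?_⟩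
  rw [Finset.sum_range]
  refine Finset.sum_congr rfl (fun j _ => ?_)
  beta_reduce
  rw [map_pow]
  exact mul_comm _ _

end Chart

end Fermat.Agent.S44.L.AltChartBCPowInf
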