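import Mathlib
import Fermat.Agent.S44.L.ASForm
import Fermat.Agent.S36.MidCusp

/-!
# S44 / strand L, row (L.AS): the split standard-étale form of `T ^ p = 1 + y` at depth `p + 1`

`B` a commutative ring, `ζ ∈ B` with `Φ_p(ζ) = 0`, `λ = ζ - 1`.

* `exists_nu` (universal, proved in `ℤ[X] / Φ_p` and pushed to `B`): `p = ν * λ ^ (p - 1)` with
  `ν + 1 = λ * c`.
* data form (`lam nu c : B`, `h : p = nu * lam ^ (p - 1)`, `hc : nu + 1 = lam * c`):
  `asQ`, `asPhi`,
  (AS1) `natDegree_asQ_lt`, `as1 : (1 + lam Z) ^ p - 1 = lam ^ p * (Z ^ p - Z + lam * Q)`;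
  (AS2) `asPhi_monic`, `asPhi_eq_asPoly`, `exists_asPhi_eq_prod`
        (`Φ ≡ ∏_{j < p} (Z - j)` mod `lam`), `exists_derivative_asPhi` (`Φ' ≡ -1` mod `lam`);
  (AS3) `root_of_asPhi` : a root `z` of `Φ` gives the root `1 + lam z` of `T ^ p = 1 + lam^(p+1) y`.
* `exists_as` : the packaged statement for `ζ` with `∑_{i < p} ζ ^ i = 0`.
-/

set_option autoImplicit false
set_option linter.style.haveILetI false

namespace Fermat.Agent.S44.L.ArtinSchreier

open Polynomial Fermat.Agent.S44.L.ASForm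

/-! ### The universal identity `p = ν (ζ - 1)^(p-1)`, `ν ≡ -1` -/

section Universal

/-- In a domain, for a primitive `p`-th root of unity: `p = ν (ζ - 1)^(p-1)`, `ν + 1 = (ζ - 1) c`. -/
theorem exists_nu_of_isPrimitiveRoot {R : Type*} [CommRing R] [IsDomain R] {p : ℕ}
    (hp : p.Prime) (hp0 : (p : R) ≠ 0) (ζ : R) (hζ : IsPrimitiveRoot ζ p) :
    ∃ ν c : R, (p : R) = ν * (ζ - 1) ^ (p - 1) ∧ ν + 1 = (ζ - 1) * c := by
  obtain ⟨u, hu⟩ := Fermat.Agent.S36.MidCusp.exists_sub_one_pow_eq p hp ζ hζ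
  obtain ⟨n, rfl⟩ : ∃ n, p = n + 1 := ⟨p - 1, (Nat.succ_pred_eq_of_pos hp.pos).symm⟩
  rw [Nat.add_sub_cancel] at hu ⊢
  have ha : ((n + 1 : ℕ) : R) = (1 - ζ) ^ n *
      ∏ k ∈ Finset.range n, ∑ i ∈ Finset.range (k + 1), ζ ^ i := by
    have h1 := hζ.prod_one_sub_pow_eq_order
    have h2 : ∀ k ∈ Finset.range n,
        (1 - ζ ^ (k + 1)) = (1 - ζ) * ∑ i ∈ Finset.range (k + 1), ζ ^ i := by
      intro k _
      have := geom_sum_mul ζ (k + 1)
      linear_combination this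
    rw [Finset.prod_congr rfl h2, Finset.prod_mul_distrib, Finset.prod_const, Finset.card_range]
      at h1
    rw [h1]
    push_cast
    ring
  set U : R := ∏ k ∈ Finset.range n, ∑ i ∈ Finset.range (k + 1), ζ ^ i with hU
  have hneg : (1 - ζ) ^ n = (-1) ^ n * (ζ - 1) ^ n := by
    rw [← mul_pow]; congr 1; ring
  refine ⟨(-1) ^ n * U, (-1) ^ n * U * u, ?_, ?_⟩
  · rw [ha, hneg]; ring
  · have h3 : ((n + 1 : ℕ) : R) * 1 = ((n + 1 : ℕ) : R) * ((-1) ^ n * U * (-1 + (ζ - 1) * u)) := by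
      conv_lhs => rw [mul_one, ha, hneg, hu]
      ring
    have h4 := mul_left_cancel₀ hp0 h3
    linear_combination h4

/-- **Universal form.**  In any commutative ring, for `ζ` with `Φ_p(ζ) = 0`:
`p = ν (ζ - 1)^(p-1)` with `ν + 1 = (ζ - 1) c`. -/
theorem exists_nu (B : Type*) [CommRing B] {p : ℕ} (hp : p.Prime) (ζ : B)
    (hζ : ∑ i ∈ Finset.range p, ζ ^ i = 0) :
    ∃ ν c : B, (p : B) = ν * (ζ - 1) ^ (p - 1) ∧ ν + 1 = (ζ - 1) * c := by
  haveI : Fact p.Prime := ⟨hp⟩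
  set f : ℤ[X] := cyclotomic p ℤ with hf
  have hirr : Irreducible f := cyclotomic.irreducible hp.pos
  haveI : IsDomain (AdjoinRoot f) := AdjoinRoot.isDomain_of_prime hirr.prime
  have hdeg : f.degree ≠ 0 := by
    rw [hf, degree_cyclotomic, Nat.totient_prime hp]
    have := hp.two_le
    exact_mod_cast (by omega : p - 1 ≠ 0)
  have hinj : Function.Injective (AdjoinRoot.of f) := AdjoinRoot.of.injective_of_degree_ne_zero hdeg
  have hp0 : ((p : ℕ) : AdjoinRoot f) ≠ 0 := by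
    have h1 : ((p : ℕ) : AdjoinRoot f) = AdjoinRoot.of f (p : ℤ) := by simp
    rw [h1]
    intro h0
    have h2 : ((p : ℕ) : ℤ) = 0 := hinj (by rw [h0, map_zero])
    exact hp.ne_zero (by exact_mod_cast h2)
  haveI : NeZero ((p : ℕ) : AdjoinRoot f) := ⟨hp0⟩
  have hroot : IsPrimitiveRoot (AdjoinRoot.root f) p := by
    rw [← isRoot_cyclotomic_iff, ← map_cyclotomic_int p (AdjoinRoot f), IsRoot.def, eval_map]
    have h1 : (Int.castRingHom (AdjoinRoot f)) = AdjoinRoot.of f := RingHom.ext_int _ _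
    rw [h1]
    exact AdjoinRoot.eval₂_root f
  obtain ⟨ν, c, h1, h2⟩ := exists_nu_of_isPrimitiveRoot hp hp0 (AdjoinRoot.root f) hroot
  have hev : f.eval₂ (Int.castRingHom B) ζ = 0 := by
    rw [hf, cyclotomic_prime ℤ p, eval₂_finsetSum]
    simp only [eval₂_X_pow]
    exact hζ
  let φ : AdjoinRoot f →+* B := AdjoinRoot.lift (Int.castRingHom B) ζ hev
  have hφroot : φ (AdjoinRoot.root f) = ζ := AdjoinRoot.lift_root hev
  refine ⟨φ ν, φ c, ?_, ?_⟩
  · have := congrArg φ h1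
    rwa [map_natCast, map_mul, map_pow, map_sub, map_one, hφroot] at this
  · have := congrArg φ h2
    rwa [map_add, map_one, map_mul, map_sub, map_one, hφroot] at this

/-- The same for a root of the cyclotomic polynomial. -/
theorem exists_nu_of_isRoot (B : Type*) [CommRing B] {p : ℕ} (hp : p.Prime) (ζ : B)
    (hζ : IsRoot (cyclotomic p B) ζ) :
    ∃ ν c : B, (p : B) = ν * (ζ - 1) ^ (p - 1) ∧ ν + 1 = (ζ - 1) * c := by
  haveI : Fact p.Prime := ⟨hp⟩
  refine exists_nu B hp ζ ?_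
  rw [IsRoot.def, cyclotomic_prime B p, eval_finsetSum] at hζ
  simpa using hζ

end Universal

/-! ### Data form -/

section Data

variable {B : Type*} [CommRing B]

/-- The polynomial `Q` of (AS1): `(1 + lam Z)^p - 1 = lam^p (Z^p - Z + lam Q)`. -/
noncomputable def asQ (p : ℕ) (lam nu c : B) : B[X] :=
  C c * X + ∑ i ∈ Finset.Ico 2 p, C (((p.choose i / p : ℕ) : B) * nu * lam ^ (i - 2)) * X ^ i

/-- The Artin–Schreier polynomial `Φ = Z^p - Z + lam Q - lam y` of (AS2). -/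
noncomputable def asPhi (p : ℕ) (lam nu c y : B) : B[X] :=
  X ^ p - X + C lam * asQ p lam nu c - C (lam * y)

theorem natDegree_asQ_lt {p : ℕ} (hp : p.Prime) (lam nu c : B) :
    (asQ p lam nu c).natDegree < p := by
  unfold asQ
  refine (natDegree_add_le _ _).trans_lt (max_lt ?_ ?_)
  · exact (natDegree_C_mul_le _ _).trans_lt (natDegree_X_le.trans_lt hp.one_lt)
  · have hle : (∑ i ∈ Finset.Ico 2 p,
        C (((p.choose i / p : ℕ) : B) * nu * lam ^ (i - 2)) * X ^ i).natDegree ≤ p - 1 := by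
      refine natDegree_sum_le_of_forall_le _ _ fun i hi => ?_
      refine (natDegree_C_mul_X_pow_le _ _).trans ?_
      have := (Finset.mem_Ico.1 hi).2
      omega
    have := hp.pos
    omega

/-- `Φ = F - lam y` where `F = asPoly p lam nu` is the Artin–Schreier form of `ASForm`. -/
theorem asPhi_eq_asPoly {p : ℕ} (hp : p.Prime) {lam nu c : B} (hc : nu + 1 = lam * c) (y : B) :
    asPhi p lam nu c y = asPoly p lam nu - C (lam * y) := by
  have hC : (C nu : B[X]) = -1 + C lam * C c := by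
    rw [← C_mul, ← C_1, ← C_neg, ← C_add]
    congr 1
    linear_combination hc
  unfold asPhi asQ
  rw [asPoly_eq hp lam nu, hC]
  ring

/-- **(AS1)** `(1 + lam Z)^p - 1 = lam^p (Z^p - Z + lam Q)`. -/
theorem as1 {p : ℕ} (hp : p.Prime) {lam nu c : B} (h : (p : B) = nu * lam ^ (p - 1))
    (hc : nu + 1 = lam * c) :
    (1 + C lam * X) ^ p - 1 = C (lam ^ p) * (X ^ p - X + C lam * asQ p lam nu c) := by
  rw [← C_mul_asPoly hp h]
  have := asPhi_eq_asPoly hp hc (0 : B)
  unfold asPhi at this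
  rw [mul_zero, C_0, sub_zero, sub_zero] at this
  rw [this]

theorem asPhi_monic {p : ℕ} (hp : p.Prime) (lam nu c y : B) : (asPhi p lam nu c y).Monic := by
  have hdeg : (-X + C lam * asQ p lam nu c - C (lam * y) : B[X]).degree < (p : WithBot ℕ) := by
    refine (degree_sub_le _ _).trans_lt (max_lt ((degree_add_le _ _).trans_lt (max_lt ?_ ?_)) ?_)
    · rw [degree_neg]
      exact degree_X_le.trans_lt (by exact_mod_cast hp.one_lt)
    · have h1 : (C lam * asQ p lam nu c).natDegree < p :=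
        (natDegree_C_mul_le _ _).trans_lt (natDegree_asQ_lt hp lam nu c)
      exact degree_le_natDegree.trans_lt (by exact_mod_cast h1)
    · exact degree_C_le.trans_lt (by exact_mod_cast hp.pos)
  have e : asPhi p lam nu c y = X ^ p + (-X + C lam * asQ p lam nu c - C (lam * y)) := by
    unfold asPhi; ring
  rw [e]
  exact monic_X_pow_add hdeg

/-- `p ∈ lam B` (for `p = nu lam^(p-1)`, `p ≥ 2`). -/
theorem exists_natCast_eq_mul {p : ℕ} (hp : p.Prime) {lam nu : B}
    (h : (p : B) = nu * lam ^ (p - 1)) : ∃ e : B, (p : B) = lam * e := by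
  refine ⟨nu * lam ^ (p - 2), ?_⟩
  rw [h]
  have : p - 1 = (p - 2) + 1 := by have := hp.two_le; omega
  rw [this, pow_succ]
  ring

/-- **(AS2), split form**: `Φ ≡ ∏_{j < p} (Z - j)` modulo `lam`. -/
theorem exists_asPhi_eq_prod {p : ℕ} (hp : p.Prime) {lam nu : B}
    (h : (p : B) = nu * lam ^ (p - 1)) (c y : B) :
    ∃ G : B[X], asPhi p lam nu c y =
      ∏ j ∈ Finset.range p, (X - C ((j : ℕ) : B)) + C lam * G := by
  obtain ⟨G₀, hG₀⟩ := exists_prod_range B hp
  obtain ⟨e, he⟩ := exists_natCast_eq_mul hp h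
  refine ⟨asQ p lam nu c - C y - C e * G₀, ?_⟩
  rw [hG₀, he]
  unfold asPhi
  simp only [C_mul]
  ring

/-- **(AS2), étale form**: `Φ' ≡ -1` modulo `lam`. -/
theorem exists_derivative_asPhi {p : ℕ} (hp : p.Prime) {lam nu : B}
    (h : (p : B) = nu * lam ^ (p - 1)) (c y : B) :
    ∃ D : B[X], derivative (asPhi p lam nu c y) = -1 + C lam * D := by
  obtain ⟨e, he⟩ := exists_natCast_eq_mul hp h
  refine ⟨C e * X ^ (p - 1) + derivative (asQ p lam nu c), ?_⟩
  unfold asPhi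
  rw [derivative_sub, derivative_add, derivative_sub, derivative_X_pow, derivative_X,
    derivative_C_mul, derivative_C, he]
  simp only [C_mul]
  ring

/-- **(AS3)** a root `z` of `Φ` gives the root `1 + lam z` of `T^p = 1 + lam^(p+1) y`. -/
theorem root_of_asPhi {A : Type*} [CommRing A] [Algebra B A] {p : ℕ} (hp : p.Prime)
    {lam nu c : B} (h : (p : B) = nu * lam ^ (p - 1)) (hc : nu + 1 = lam * c) (y : B) (z : A)
    (hz : aeval z (asPhi p lam nu c y) = 0) :
    (1 + algebraMap B A lam * z) ^ p = 1 + algebraMap B A (lam ^ (p + 1) * y) := by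
  have h1 := aeval_asPoly (A := A) hp h z
  rw [asPhi_eq_asPoly hp hc, map_sub, aeval_C, sub_eq_zero] at hz
  rw [hz] at h1
  rw [pow_succ, mul_assoc, map_mul]
  linear_combination -h1

end Data

/-! ### The packaged statement -/

/-- **(L.AS)**, packaged: for `ζ` with `Φ_p(ζ) = 0` and `λ = ζ - 1` there is `Q` of degree `< p`
with (AS1) `(1 + λ Z)^p - 1 = λ^p (Z^p - Z + λ Q)`, and for every `y` the polynomial
`Φ = Z^p - Z + λ Q - λ y` is monic, `≡ ∏_{j<p} (Z - j)` and of derivative `≡ -1` modulo `λ`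
(AS2), and every root `z` of `Φ` in a `B`-algebra gives the root `1 + λ z` of
`T^p = 1 + λ^(p+1) y` (AS3). -/
theorem exists_as (B : Type*) [CommRing B] {p : ℕ} (hp : p.Prime) (ζ : B)
    (hζ : ∑ i ∈ Finset.range p, ζ ^ i = 0) :
    ∃ Q : B[X], Q.natDegree < p ∧
      (1 + C (ζ - 1) * X) ^ p - 1 = C ((ζ - 1) ^ p) * (X ^ p - X + C (ζ - 1) * Q) ∧
      ∀ y : B, (X ^ p - X + C (ζ - 1) * Q - C ((ζ - 1) * y)).Monic ∧
        (∃ G : B[X], X ^ p - X + C (ζ - 1) * Q - C ((ζ - 1) * y) =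
          ∏ j ∈ Finset.range p, (X - C ((j : ℕ) : B)) + C (ζ - 1) * G) ∧
        (∃ D : B[X], derivative (X ^ p - X + C (ζ - 1) * Q - C ((ζ - 1) * y)) =
          -1 + C (ζ - 1) * D) ∧
        ∀ (A : Type _) [CommRing A] [Algebra B A] (z : A),
          aeval z (X ^ p - X + C (ζ - 1) * Q - C ((ζ - 1) * y)) = 0 →
            (1 + algebraMap B A (ζ - 1) * z) ^ p =
              1 + algebraMap B A ((ζ - 1) ^ (p + 1) * y) := by
  obtain ⟨ν, c, h, hc⟩ := exists_nu B hp ζ hζ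
  refine ⟨asQ p (ζ - 1) ν c, natDegree_asQ_lt hp _ _ _, as1 hp h hc, fun y => ⟨?_, ?_, ?_, ?_⟩⟩
  · exact asPhi_monic hp (ζ - 1) ν c y
  · exact exists_asPhi_eq_prod hp h c y
  · exact exists_derivative_asPhi hp h c y
  · intro A _ _ z hz
    exact root_of_asPhi hp h hc y z hz

end Fermat.Agent.S44.L.ArtinSchreier
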