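import Mathlib
import Fermat.Agent.S44.L.NodeGlue
import Fermat.Agent.S44.L.PthRootRam

/-!
# PROGRAM MR (S44), strand L: the closed-point depth induction over a ramified base

Level-free (helper253).  `O` a discrete valuation ring with uniformiser `π`, `p = η π ^ p`
(`η` a unit), perfect residue field (`hperf`); `E = Frac O`, `K ⊇ E` a field (a function field
over `E`).

* `IsUnif V ϖ` : the subring `V` of `K` is a discrete valuation ring with uniformiser `ϖ`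
  (`IsBranch π V` : moreover `V ⊇ O` and `ϖ` is the image of `π`) - the local ring of a vertical
  component of a model.
* `GenDepth E p π V D f` : `f = c g ^ p (1 + π ^ D y)`, `c ∈ Eˣ`, `y ∈ V` (generic depth `D`).
* `PtDepth E p π A d γ f` : `f = γ G ^ p (1 + π ^ d r)`, `r ∈ A` (depth `d` at a closed point
  with local ring `A`, constant `γ`).

Branch lemmas (`exists_const_of_lt`, `exists_pow_of_eq`, `exists_const_of_succ`): on a branch
with generic depth `D`, the `d`-th order coefficient `r` of ANY depth-`d` representation with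
constant `γ` is, modulo `π V`: a constant `ρ ∈ O` depending only on the branch and `γ`
(`d < p`, `d = p + 1`), resp. a `p`-th power (`d = p`).

`ptDepth_lift` : the closed-point lift with a PRESCRIBED constant, `H(1) ⇒ H(p + 2)`: at a
closed point with local ring `A` lying on the main branch `V₁` (where `f` has generic depth
`p + 2` with the constant `c`) and possibly on a second branch `V₂` (generic depth `p + 2` with
some constant), depth `1` with the constant `c` lifts to depth `p + 2` with the SAME `c`.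
`PtDepth.mono` is the crossing step: depth at a node contained in `V₂` is generic depth at `V₂`
with the same constant.
-/

set_option autoImplicit false
set_option linter.unusedSectionVars false

namespace Fermat.Agent.S44.L.BranchDepth

open Fermat.Agent.S44.L

/-! ### Discrete valuation subrings with a given uniformiser -/

section Unif

variable {K : Type*} [Field K]

/-- `V` is a discrete valuation ring of `K` with uniformiser `ϖ`. -/
def IsUnif (V : Subring K) (ϖ : K) : Prop :=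
  ϖ ∈ V ∧ ϖ⁻¹ ∉ V ∧ ∀ x : K, x ≠ 0 → ∃ (k : ℤ) (a : K), a ∈ V ∧ a⁻¹ ∈ V ∧ x = ϖ ^ k * a

variable {V : Subring K} {ϖ : K}

theorem IsUnif.ne_zero (h : IsUnif V ϖ) : ϖ ≠ 0 := by
  rintro rfl
  exact h.2.1 (by rw [inv_zero]; exact V.zero_mem)

theorem IsUnif.zpow_mem_iff (h : IsUnif V ϖ) (m : ℤ) : ϖ ^ m ∈ V ↔ 0 ≤ m := by
  have h0 := h.ne_zero
  constructor
  · intro hm
    by_contra hneg
    obtain ⟨n, rfl⟩ : ∃ n : ℕ, m = -((n + 1 : ℕ) : ℤ) := ⟨(-m - 1).toNat, by omega⟩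
    apply h.2.1
    have e : ϖ⁻¹ = ϖ ^ n * ϖ ^ (-((n + 1 : ℕ) : ℤ)) := by
      rw [zpow_neg, zpow_natCast, pow_succ, mul_inv, ← mul_assoc,
        mul_inv_cancel₀ (pow_ne_zero n h0), one_mul]
    rw [e]
    exact V.mul_mem (V.pow_mem h.1 n) hm
  · intro hm
    obtain ⟨n, rfl⟩ : ∃ n : ℕ, m = (n : ℤ) := ⟨m.toNat, by omega⟩
    rw [zpow_natCast]
    exact V.pow_mem h.1 n

/-- An element of `V` is a multiple of `ϖ` or a unit. -/
theorem IsUnif.mul_or_unit (h : IsUnif V ϖ) {x : K} (hx : x ∈ V) :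
    (∃ y ∈ V, x = ϖ * y) ∨ (x ≠ 0 ∧ x⁻¹ ∈ V) := by
  by_cases hx0 : x = 0
  · exact Or.inl ⟨0, V.zero_mem, by rw [hx0, mul_zero]⟩
  obtain ⟨k, a, ha, ha', hxa⟩ := h.2.2 x hx0
  have ha0 : a ≠ 0 := by
    rintro rfl
    exact hx0 (by rw [hxa, mul_zero])
  have hk : ϖ ^ k ∈ V := by
    have e : ϖ ^ k = x * a⁻¹ := by rw [hxa, mul_assoc, mul_inv_cancel₀ ha0, mul_one]
    rw [e]
    exact V.mul_mem hx ha'
  obtain ⟨n, rfl⟩ : ∃ n : ℕ, k = (n : ℤ) := ⟨k.toNat, by have := (h.zpow_mem_iff k).mp hk; omega⟩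
  rw [zpow_natCast] at hxa
  rcases n with _ | n
  · right
    rw [pow_zero, one_mul] at hxa
    rw [hxa]
    exact ⟨ha0, ha'⟩
  · left
    exact ⟨ϖ ^ n * a, V.mul_mem (V.pow_mem h.1 n) ha, by rw [hxa, pow_succ]; ring⟩

theorem IsUnif.not_mul_eq_one (h : IsUnif V ϖ) {y : K} (hy : y ∈ V) : ϖ * y ≠ 1 := by
  intro h1
  apply h.2.1
  rw [inv_eq_of_mul_eq_one_right h1]
  exact hy

/-- `1 + ϖ y` is a unit of `V`. -/
theorem IsUnif.one_add_unit (h : IsUnif V ϖ) {y : K} (hy : y ∈ V) :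
    1 + ϖ * y ≠ 0 ∧ (1 + ϖ * y)⁻¹ ∈ V := by
  have hx : 1 + ϖ * y ∈ V := V.add_mem V.one_mem (V.mul_mem h.1 hy)
  rcases h.mul_or_unit hx with ⟨y', hy', e⟩ | hu
  · exfalso
    exact h.not_mul_eq_one (V.sub_mem hy' hy) (by linear_combination -e)
  · exact hu

/-- `V / ϖ V` is reduced. -/
theorem IsUnif.mem_of_pow (h : IsUnif V ϖ) {x : K} (hx : x ∈ V) {n : ℕ}
    (hxn : ∃ y ∈ V, x ^ n = ϖ * y) : ∃ y ∈ V, x = ϖ * y := by
  rcases h.mul_or_unit hx with hl | ⟨hx0, hx'⟩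
  · exact hl
  · exfalso
    obtain ⟨y, hy, e⟩ := hxn
    refine h.not_mul_eq_one (V.mul_mem hy (V.pow_mem hx' n)) ?_
    rw [← mul_assoc, ← e, ← mul_pow, mul_inv_cancel₀ hx0, one_pow]

/-- A `n`-th root of a unit of `V` is a unit of `V`. -/
theorem IsUnif.unit_of_pow_unit (h : IsUnif V ϖ) {a : K} (ha : a ≠ 0) {n : ℕ} (hn : n ≠ 0)
    (h1 : a ^ n ∈ V) (h2 : (a ^ n)⁻¹ ∈ V) : a ∈ V ∧ a⁻¹ ∈ V := by
  have h0 := h.ne_zero
  obtain ⟨k, b, hb, hb', hab⟩ := h.2.2 a ha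
  have hb0 : b ≠ 0 := by
    rintro rfl
    exact ha (by rw [hab, mul_zero])
  have e1 : ϖ ^ (k * (n : ℤ)) = a ^ n * (b⁻¹) ^ n := by
    rw [hab, mul_pow, zpow_mul, zpow_natCast, mul_assoc, ← mul_pow, mul_inv_cancel₀ hb0, one_pow,
      mul_one]
  have e2 : ϖ ^ (-(k * (n : ℤ))) = (a ^ n)⁻¹ * b ^ n := by
    rw [zpow_neg, e1, mul_inv, inv_pow b n, inv_inv]
  have hk1 : 0 ≤ k * (n : ℤ) := (h.zpow_mem_iff _).mp (by
    rw [e1]; exact V.mul_mem h1 (V.pow_mem hb' n))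
  have hk2 : 0 ≤ -(k * (n : ℤ)) := (h.zpow_mem_iff _).mp (by
    rw [e2]; exact V.mul_mem h2 (V.pow_mem hb n))
  have hk : k = 0 := by
    have h3 : k * (n : ℤ) = 0 := by omega
    rcases mul_eq_zero.mp h3 with h4 | h4
    · exact h4
    · exact absurd (by exact_mod_cast h4) hn
  rw [hk, zpow_zero, one_mul] at hab
  rw [hab]
  exact ⟨hb, hb'⟩

/-- Frobenius is injective on `V / ϖ V` (`ϖ ∣ p`, `p` odd). -/
theorem IsUnif.sub_of_pow_sub_pow (h : IsUnif V ϖ) {p : ℕ} (hp : p.Prime) (hp2 : p ≠ 2)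
    (hpϖ : ∃ y ∈ V, (p : K) = ϖ * y) {x y : K} (hx : x ∈ V) (hy : y ∈ V)
    (hxy : ∃ z ∈ V, x ^ p - y ^ p = ϖ * z) : ∃ z ∈ V, x - y = ϖ * z := by
  obtain ⟨r, hr⟩ := exists_add_pow_prime_eq hp (⟨x, hx⟩ : V) (-⟨y, hy⟩)
  have hodd : (-(⟨y, hy⟩ : V)) ^ p = -(⟨y, hy⟩ : V) ^ p := Odd.neg_pow (hp.odd_of_ne_two hp2) _
  rw [hodd] at hr
  have hr' := congrArg Subtype.val hr
  push_cast at hr'
  obtain ⟨z, hz, e⟩ := hxy
  obtain ⟨t, ht, et⟩ := hpϖ
  refine h.mem_of_pow (V.sub_mem hx hy) (n := p) ⟨z + t * x * (-y) * (r : K), ?_, ?_⟩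
  · exact V.add_mem hz (V.mul_mem (V.mul_mem (V.mul_mem ht hx) (V.neg_mem hy)) r.2)
  · have e' : x - y = x + -y := by ring
    rw [e', hr', et]
    linear_combination e

/-- `x ≡ y mod ϖ V ⇒ x ^ n ≡ y ^ n mod ϖ V`. -/
theorem pow_sub_pow_mem {x y : K} (hx : x ∈ V) (hy : y ∈ V)
    (hxy : ∃ z ∈ V, x - y = ϖ * z) (n : ℕ) : ∃ z ∈ V, x ^ n - y ^ n = ϖ * z := by
  obtain ⟨q, hq⟩ := sub_dvd_pow_sub_pow (⟨x, hx⟩ : V) ⟨y, hy⟩ n
  have hq' := congrArg Subtype.val hq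
  push_cast at hq'
  obtain ⟨z, hz, e⟩ := hxy
  exact ⟨z * q, V.mul_mem hz q.2, by rw [hq', e]; ring⟩

end Unif

/-! ### Branches over a discrete valuation ring `O` -/

section Branch

variable {O : Type*} [CommRing O] [IsDomain O] [IsDiscreteValuationRing O]
  {K : Type*} [Field K] [Algebra O K]

/-- `V` is the local ring of a vertical component: a discrete valuation ring of `K` containing
`O`, with uniformiser (the image of) `π`. -/
def IsBranch (π : O) (V : Subring K) : Prop :=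
  (∀ a : O, algebraMap O K a ∈ V) ∧ (algebraMap O K π)⁻¹ ∉ V ∧
    ∀ x : K, x ≠ 0 → ∃ (k : ℤ) (a : K), a ∈ V ∧ a⁻¹ ∈ V ∧ x = algebraMap O K π ^ k * a

variable {π : O} {V : Subring K}

theorem IsBranch.isUnif (h : IsBranch π V) : IsUnif V (algebraMap O K π) :=
  ⟨h.1 π, h.2.1, h.2.2⟩

theorem isUnit_of_not_dvd (hπ : Irreducible π) {a : O} (h : ¬ π ∣ a) : IsUnit a := by
  have ha0 : a ≠ 0 := by
    rintro rfl
    exact h (dvd_zero _)
  obtain ⟨i, u, hu⟩ := IsDiscreteValuationRing.eq_unit_mul_pow_irreducible ha0 hπ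
  rcases i with _ | i
  · rw [hu, pow_zero, mul_one]
    exact u.isUnit
  · exact absurd ⟨u * π ^ i, by rw [hu, pow_succ]; ring⟩ h

/-- A constant of `O` which is divisible by `π ^ d` in `V` is divisible by `π ^ d` in `O`. -/
theorem IsBranch.dvd_of_eq_pow_mul (hV : IsBranch π V) (hπ : Irreducible π) (a : O) (d : ℕ)
    (v : K) (hv : v ∈ V) (h : algebraMap O K a = algebraMap O K π ^ d * v) : π ^ d ∣ a := by
  by_cases ha0 : a = 0
  · rw [ha0]
    exact dvd_zero _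
  obtain ⟨i, u, hu⟩ := IsDiscreteValuationRing.eq_unit_mul_pow_irreducible ha0 hπ
  by_cases hdi : d ≤ i
  · rw [hu]
    exact Dvd.dvd.mul_left (pow_dvd_pow π hdi) _
  · exfalso
    obtain ⟨m, rfl⟩ : ∃ m, d = i + 1 + m := ⟨d - (i + 1), by omega⟩
    have hϖ0 := hV.isUnif.ne_zero
    refine hV.isUnif.not_mul_eq_one
      (y := algebraMap O K π ^ m * v * algebraMap O K ((u⁻¹ : Oˣ) : O))
      (V.mul_mem (V.mul_mem (V.pow_mem (hV.1 π) m) hv) (hV.1 _)) ?_
    rw [hu, map_mul, map_pow] at h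
    have h1 : algebraMap O K (u : O) * algebraMap O K ((u⁻¹ : Oˣ) : O) = 1 := by
      rw [← map_mul, Units.mul_inv, map_one]
    have h2 : algebraMap O K (u : O) = algebraMap O K π ^ (1 + m) * v := by
      apply mul_right_cancel₀ (pow_ne_zero i hϖ0)
      rw [h]
      ring
    calc algebraMap O K π * (algebraMap O K π ^ m * v * algebraMap O K ((u⁻¹ : Oˣ) : O))
        = (algebraMap O K π ^ (1 + m) * v) * algebraMap O K ((u⁻¹ : Oˣ) : O) := by ring
      _ = 1 := by rw [← h2, h1]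

theorem IsBranch.dvd_of_eq_mul (hV : IsBranch π V) (hπ : Irreducible π) (a : O)
    (v : K) (hv : v ∈ V) (h : algebraMap O K a = algebraMap O K π * v) : π ∣ a := by
  have h1 := hV.dvd_of_eq_pow_mul hπ a 1 v hv (by rw [pow_one]; exact h)
  rwa [pow_one] at h1

/-- `(1 + π a₁) ^ p = 1 + π ^ p (a₁ ^ p + η π a₁ + π ^ 2 M)` in `V`. -/
theorem IsBranch.pow_expansion (hV : IsBranch π V) {p : ℕ} (hp : p.Prime) {η : O}
    (hpπ : (p : O) = η * π ^ p) {a₁ : K} (ha₁ : a₁ ∈ V) :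
    ∃ M ∈ V, (1 + algebraMap O K π * a₁) ^ p = 1 + algebraMap O K π ^ p *
      (a₁ ^ p + algebraMap O K η * algebraMap O K π * a₁ + algebraMap O K π ^ 2 * M) := by
  obtain ⟨q, hq⟩ := PthRootRam.one_add_pow_expansion (R := V) p hp
    (⟨algebraMap O K π, hV.1 π⟩ * ⟨a₁, ha₁⟩)
  have hq' := congrArg Subtype.val hq
  push_cast at hq'
  have hpK : (p : K) = algebraMap O K η * algebraMap O K π ^ p := by
    rw [← map_pow, ← map_mul, ← hpπ, map_natCast]
  refine ⟨algebraMap O K η * a₁ ^ 2 * (q : K),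
    V.mul_mem (V.mul_mem (hV.1 η) (V.pow_mem ha₁ 2)) q.2, ?_⟩
  rw [hq', hpK]
  ring

/-- From the normal-form equation: `π ^ m ∣ e' - 1` for `m ≤ d, p, D`. -/
theorem IsBranch.dvd_sub_one_of_eq (hV : IsBranch π V) (hπ : Irreducible π) {e' : O}
    {N y r : K} (hN : N ∈ V) (hy : y ∈ V) (hr : r ∈ V) {p D d m : ℕ} (hmp : m ≤ p) (hmD : m ≤ D)
    (hmd : m ≤ d)
    (heq : algebraMap O K e' * (1 + algebraMap O K π ^ p * N) * (1 + algebraMap O K π ^ D * y)
      = 1 + algebraMap O K π ^ d * r) : π ^ m ∣ e' - 1 := by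
  obtain ⟨i, rfl⟩ : ∃ i, p = m + i := ⟨p - m, by omega⟩
  obtain ⟨j, rfl⟩ : ∃ j, D = m + j := ⟨D - m, by omega⟩
  obtain ⟨l, rfl⟩ : ∃ l, d = m + l := ⟨d - m, by omega⟩
  have hϖ := hV.1 π
  refine hV.dvd_of_eq_pow_mul hπ (e' - 1) m
    (algebraMap O K π ^ l * r - algebraMap O K e' * (algebraMap O K π ^ i * N
      + algebraMap O K π ^ j * y + algebraMap O K π ^ (m + i + j) * N * y)) ?_ ?_
  · exact V.sub_mem (V.mul_mem (V.pow_mem hϖ l) hr) (V.mul_mem (hV.1 e')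
      (V.add_mem (V.add_mem (V.mul_mem (V.pow_mem hϖ i) hN) (V.mul_mem (V.pow_mem hϖ j) hy))
        (V.mul_mem (V.mul_mem (V.pow_mem hϖ _) hN) hy)))
  · rw [map_sub, map_one]
    linear_combination heq

end Branch

/-! ### Constants: the fraction field `E` of `O` -/

section Const

variable {O : Type*} [CommRing O] [IsDomain O] [IsDiscreteValuationRing O]
  (E : Type*) [Field E] [Algebra O E] [IsFractionRing O E]
  {K : Type*} [Field K] [Algebra O K] [Algebra E K] [IsScalarTower O E K]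

/-- Generic depth `D` of `f` on the branch `V`: `f = c g ^ p (1 + π ^ D y)`, `y ∈ V`. -/
def GenDepth (p : ℕ) (π : O) (V : Subring K) (D : ℕ) (f : K) : Prop :=
  ∃ (c : E) (g y : K), c ≠ 0 ∧ g ≠ 0 ∧ y ∈ V ∧
    f = algebraMap E K c * g ^ p * (1 + algebraMap O K π ^ D * y)

/-- Depth `d` of `f` at a closed point with local ring `A`, with the constant `γ`:
`f = γ G ^ p (1 + π ^ d r)`, `r ∈ A`. -/
def PtDepth (p : ℕ) (π : O) (A : Subring K) (d : ℕ) (γ : E) (f : K) : Prop :=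
  ∃ (G r : K), r ∈ A ∧ f = algebraMap E K γ * G ^ p * (1 + algebraMap O K π ^ d * r)

include E in
theorem algebraMap_injective_tower : Function.Injective (algebraMap O K) := by
  rw [IsScalarTower.algebraMap_eq O E K]
  exact (algebraMap E K).injective.comp (IsFractionRing.injective O E)

/-- A nonzero constant is `π ^ n` times a unit of `O`. -/
theorem exists_zpow_unit {π : O} (hπ : Irreducible π) (c : E) (hc : c ≠ 0) :
    ∃ (n : ℤ) (e : Oˣ), algebraMap E K c = algebraMap O K π ^ n * algebraMap O K (e : O) := by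
  have hinj : Function.Injective (algebraMap O K) := algebraMap_injective_tower E
  obtain ⟨a, b, hb, rfl⟩ := IsFractionRing.div_surjective (A := O) c
  have hb0 : b ≠ 0 := nonZeroDivisors.ne_zero hb
  have ha0 : a ≠ 0 := by
    rintro rfl
    exact hc (by simp)
  obtain ⟨i, u, hu⟩ := IsDiscreteValuationRing.eq_unit_mul_pow_irreducible ha0 hπ
  obtain ⟨j, u', hu'⟩ := IsDiscreteValuationRing.eq_unit_mul_pow_irreducible hb0 hπ
  refine ⟨(i : ℤ) - j, u * u'⁻¹, ?_⟩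
  have hϖ0 : algebraMap O K π ≠ 0 := (map_ne_zero_iff _ hinj).mpr hπ.ne_zero
  have hu'0 : algebraMap O K (u' : O) ≠ 0 := (map_ne_zero_iff _ hinj).mpr u'.ne_zero
  have h1 : algebraMap O K (u' : O) * algebraMap O K ((u'⁻¹ : Oˣ) : O) = 1 := by
    rw [← map_mul, Units.mul_inv, map_one]
  rw [map_div₀, ← IsScalarTower.algebraMap_apply, ← IsScalarTower.algebraMap_apply, hu, hu',
    zpow_sub₀ hϖ0, zpow_natCast, zpow_natCast]
  simp only [map_mul, map_pow, Units.val_mul]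
  rw [div_eq_iff (mul_ne_zero hu'0 (pow_ne_zero _ hϖ0)), div_mul_eq_mul_div, div_mul_eq_mul_div,
    eq_div_iff (pow_ne_zero _ hϖ0)]
  linear_combination (-(algebraMap O K (u : O) * algebraMap O K π ^ i * algebraMap O K π ^ j)) * h1

/-- **Normal form on a branch.**  Given the generic datum `f = c g ^ p (1 + π ^ D y)` and a
constant `γ`, there is `e' ∈ 1 + π O` (depending only on `c / γ`) such that every depth-`d`
representation `f = γ G ^ p (1 + π ^ d r)` with `r ∈ V` gives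
`e' (1 + π a₁) ^ p (1 + π ^ D y) = 1 + π ^ d r` for some `a₁ ∈ V`. -/
theorem exists_normal_form {p : ℕ} (hp : p.Prime) (hp2 : p ≠ 2) {π : O} (hπ : Irreducible π)
    (hpπ : π ∣ (p : O)) (hperf : ∀ a : O, ∃ b : O, π ∣ a - b ^ p)
    {V : Subring K} (hV : IsBranch π V) {D : ℕ} (hD : 1 ≤ D) {f : K} {c : E} {g y : K}
    (hc : c ≠ 0) (hg : g ≠ 0) (hy : y ∈ V)
    (hf : f = algebraMap E K c * g ^ p * (1 + algebraMap O K π ^ D * y))
    {γ : E} (hγ : γ ≠ 0) {d : ℕ} (hd : 1 ≤ d) :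
    ∃ e' : O, π ∣ e' - 1 ∧ ∀ G r : K, r ∈ V →
      f = algebraMap E K γ * G ^ p * (1 + algebraMap O K π ^ d * r) →
      ∃ a₁ ∈ V, algebraMap O K e' * (1 + algebraMap O K π * a₁) ^ p
        * (1 + algebraMap O K π ^ D * y) = 1 + algebraMap O K π ^ d * r := by
  have hU := hV.isUnif
  have hϖ0 := hU.ne_zero
  obtain ⟨n, e₀, hce⟩ := exists_zpow_unit E (K := K) hπ (c / γ) (div_ne_zero hc hγ)
  obtain ⟨ε, hε⟩ := hperf ((e₀⁻¹ : Oˣ) : O)
  have hεu : IsUnit ε := by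
    apply isUnit_of_not_dvd hπ
    intro hd'
    have h1 : π ∣ ((e₀⁻¹ : Oˣ) : O) := by
      have h2 := dvd_add hε (Dvd.dvd.pow hd' hp.ne_zero)
      rwa [sub_add_cancel] at h2
    exact hπ.not_isUnit (isUnit_of_dvd_unit h1 (e₀⁻¹).isUnit)
  obtain ⟨ε', hεε'⟩ := hεu.exists_right_inv
  have he' : π ∣ (e₀ : O) * ε ^ p - 1 := by
    obtain ⟨t, ht⟩ := hε
    refine ⟨-(e₀ : O) * t, ?_⟩
    have h1 : (e₀ : O) * ((e₀⁻¹ : Oˣ) : O) = 1 := Units.mul_inv e₀
    linear_combination (-(e₀ : O)) * ht + h1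
  refine ⟨e₀ * ε ^ p, he', ?_⟩
  intro G r hr hfG
  obtain ⟨t, ht⟩ := he'
  obtain ⟨s, hs⟩ := hpπ
  -- the two 1-units
  have eD : algebraMap O K π * (algebraMap O K π ^ (D - 1) * y) = algebraMap O K π ^ D * y := by
    rw [← mul_assoc, ← pow_succ', Nat.sub_add_cancel hD]
  have ed : algebraMap O K π * (algebraMap O K π ^ (d - 1) * r) = algebraMap O K π ^ d * r := by
    rw [← mul_assoc, ← pow_succ', Nat.sub_add_cancel hd]
  obtain ⟨hU₁0, hU₁'⟩ := hU.one_add_unit (V.mul_mem (V.pow_mem hU.1 (D - 1)) hy)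
  obtain ⟨hU₂0, hU₂'⟩ := hU.one_add_unit (V.mul_mem (V.pow_mem hU.1 (d - 1)) hr)
  rw [eD] at hU₁0 hU₁'
  rw [ed] at hU₂0 hU₂'
  have hU₁V : 1 + algebraMap O K π ^ D * y ∈ V :=
    V.add_mem V.one_mem (V.mul_mem (V.pow_mem hU.1 D) hy)
  have hU₂V : 1 + algebraMap O K π ^ d * r ∈ V :=
    V.add_mem V.one_mem (V.mul_mem (V.pow_mem hU.1 d) hr)
  have hcK : algebraMap E K c ≠ 0 := (map_ne_zero _).mpr hc
  have hγK : algebraMap E K γ ≠ 0 := (map_ne_zero _).mpr hγ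
  have hf0 : f ≠ 0 := by
    rw [hf]
    exact mul_ne_zero (mul_ne_zero hcK (pow_ne_zero _ hg)) hU₁0
  have hG0 : G ≠ 0 := by
    rintro rfl
    apply hf0
    rw [hfG, zero_pow hp.ne_zero, mul_zero, zero_mul]
  -- the unit `a`
  obtain ⟨k, a, ha, ha', hxa⟩ := hU.2.2 (g / G) (div_ne_zero hg hG0)
  have ha0 : a ≠ 0 := by
    rintro rfl
    exact div_ne_zero hg hG0 (by rw [hxa, mul_zero])
  have he₀K : algebraMap O K (e₀ : O) * algebraMap O K ((e₀⁻¹ : Oˣ) : O) = 1 := by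
    rw [← map_mul, Units.mul_inv, map_one]
  have he₀0 : algebraMap O K (e₀ : O) ≠ 0 := left_ne_zero_of_mul_eq_one he₀K
  -- the main equation
  have hmain : algebraMap O K π ^ n * algebraMap O K (e₀ : O) * (g / G) ^ p
      * (1 + algebraMap O K π ^ D * y) = 1 + algebraMap O K π ^ d * r := by
    rw [← hce, map_div₀, div_pow]
    have h3 := hf.symm.trans hfG
    have hGp : G ^ p ≠ 0 := pow_ne_zero _ hG0
    field_simp
    linear_combination h3
  rw [hxa, mul_pow, ← zpow_natCast (algebraMap O K π ^ k) p, ← zpow_mul] at hmain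
  obtain ⟨W, hW⟩ : ∃ W : K, W = algebraMap O K (e₀ : O) * a ^ p
      * (1 + algebraMap O K π ^ D * y) := ⟨_, rfl⟩
  have hWV : W ∈ V := by
    rw [hW]
    exact V.mul_mem (V.mul_mem (hV.1 _) (V.pow_mem ha p)) hU₁V
  have hW0 : W ≠ 0 := by
    rw [hW]
    exact mul_ne_zero (mul_ne_zero he₀0 (pow_ne_zero _ ha0)) hU₁0
  have hW' : W⁻¹ ∈ V := by
    have e : W⁻¹ = algebraMap O K ((e₀⁻¹ : Oˣ) : O) * a⁻¹ ^ p
        * (1 + algebraMap O K π ^ D * y)⁻¹ := by
      rw [hW, mul_inv, mul_inv, inv_pow, inv_eq_of_mul_eq_one_right he₀K]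
    rw [e]
    exact V.mul_mem (V.mul_mem (hV.1 _) (V.pow_mem ha' p)) hU₁'
  have hz : algebraMap O K π ^ (n + k * (p : ℤ)) * W = 1 + algebraMap O K π ^ d * r := by
    rw [zpow_add₀ hϖ0, hW]
    linear_combination hmain
  have hz1 : algebraMap O K π ^ (n + k * (p : ℤ)) ∈ V := by
    have e : algebraMap O K π ^ (n + k * (p : ℤ)) = (1 + algebraMap O K π ^ d * r) * W⁻¹ := by
      rw [← hz, mul_assoc, mul_inv_cancel₀ hW0, mul_one]
    rw [e]
    exact V.mul_mem hU₂V hW'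
  have hz2 : algebraMap O K π ^ (-(n + k * (p : ℤ))) ∈ V := by
    have e : algebraMap O K π ^ (-(n + k * (p : ℤ)))
        = W * (1 + algebraMap O K π ^ d * r)⁻¹ := by
      rw [zpow_neg, ← hz, mul_inv, mul_comm W, mul_assoc, inv_mul_cancel₀ hW0, mul_one]
    rw [e]
    exact V.mul_mem hWV hU₂'
  have hnk : n + k * (p : ℤ) = 0 := by
    have h1 := (hU.zpow_mem_iff _).mp hz1
    have h2 := (hU.zpow_mem_iff _).mp hz2
    omega
  rw [hnk, zpow_zero, one_mul] at hz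
  -- `b := a / ε`
  obtain ⟨b, hb⟩ : ∃ b : K, b = a * algebraMap O K ε' := ⟨_, rfl⟩
  have hbV : b ∈ V := by
    rw [hb]
    exact V.mul_mem ha (hV.1 _)
  have hεK : algebraMap O K ε * algebraMap O K ε' = 1 := by rw [← map_mul, hεε', map_one]
  have hb1 : algebraMap O K ((e₀ : O) * ε ^ p) * b ^ p * (1 + algebraMap O K π ^ D * y)
      = 1 + algebraMap O K π ^ d * r := by
    rw [← hz, hW, hb, map_mul, map_pow, mul_pow]
    have h2 : algebraMap O K ε ^ p * algebraMap O K ε' ^ p = 1 := by rw [← mul_pow, hεK, one_pow]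
    linear_combination (algebraMap O K (e₀ : O) * a ^ p * (1 + algebraMap O K π ^ D * y)) * h2
  have hE' : algebraMap O K ((e₀ : O) * ε ^ p) = 1 + algebraMap O K π * algebraMap O K t := by
    have h3 := congrArg (algebraMap O K) ht
    simp only [map_sub, map_one, map_mul] at h3
    rw [map_mul]
    linear_combination h3
  obtain ⟨hE0, hE'inv⟩ := hU.one_add_unit (hV.1 t)
  have hbp : ∃ z ∈ V, b ^ p - 1 ^ p = algebraMap O K π * z := by
    refine ⟨(algebraMap O K π ^ (d - 1) * r - algebraMap O K t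
        - (1 + algebraMap O K π * algebraMap O K t) * (algebraMap O K π ^ (D - 1) * y))
        * ((1 + algebraMap O K π * algebraMap O K t)⁻¹ * (1 + algebraMap O K π ^ D * y)⁻¹),
      ?_, ?_⟩
    · exact V.mul_mem (V.sub_mem (V.sub_mem (V.mul_mem (V.pow_mem hU.1 _) hr) (hV.1 t))
        (V.mul_mem (V.add_mem V.one_mem (V.mul_mem hU.1 (hV.1 t)))
          (V.mul_mem (V.pow_mem hU.1 _) hy))) (V.mul_mem hE'inv hU₁')
    · rw [one_pow]
      rw [hE'] at hb1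
      have hX : algebraMap O K π * (algebraMap O K π ^ (d - 1) * r - algebraMap O K t
          - (1 + algebraMap O K π * algebraMap O K t) * (algebraMap O K π ^ (D - 1) * y))
          = (1 + algebraMap O K π ^ d * r)
            - (1 + algebraMap O K π * algebraMap O K t) * (1 + algebraMap O K π ^ D * y) := by
        rw [← ed, ← eD]
        ring
      have hinv : ((1 + algebraMap O K π * algebraMap O K t) * (1 + algebraMap O K π ^ D * y))
          * ((1 + algebraMap O K π * algebraMap O K t)⁻¹ * (1 + algebraMap O K π ^ D * y)⁻¹)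
          = 1 := by
        rw [mul_mul_mul_comm, mul_inv_cancel₀ hE0, mul_inv_cancel₀ hU₁0, one_mul]
      calc b ^ p - 1
          = ((1 + algebraMap O K π * algebraMap O K t) * b ^ p * (1 + algebraMap O K π ^ D * y)
              - (1 + algebraMap O K π * algebraMap O K t) * (1 + algebraMap O K π ^ D * y))
            * ((1 + algebraMap O K π * algebraMap O K t)⁻¹
              * (1 + algebraMap O K π ^ D * y)⁻¹) := by
            linear_combination (-(b ^ p - 1)) * hinv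
        _ = ((1 + algebraMap O K π ^ d * r)
              - (1 + algebraMap O K π * algebraMap O K t) * (1 + algebraMap O K π ^ D * y))
            * ((1 + algebraMap O K π * algebraMap O K t)⁻¹
              * (1 + algebraMap O K π ^ D * y)⁻¹) := by rw [hb1]
        _ = _ := by rw [← hX]; ring
  obtain ⟨a₁, ha₁, hba⟩ := hU.sub_of_pow_sub_pow hp hp2
    ⟨algebraMap O K s, hV.1 s, by rw [← map_mul, ← hs, map_natCast]⟩ hbV V.one_mem hbp
  refine ⟨a₁, ha₁, ?_⟩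
  have hb2 : b = 1 + algebraMap O K π * a₁ := by linear_combination hba
  rw [← hb2]
  exact hb1

/-- **Branch lemma, `d < p`.**  The `d`-th order coefficient of any depth-`d` representation
with constant `γ` is congruent modulo `π V` to ONE constant `ρ ∈ O`. -/
theorem exists_const_of_lt {p : ℕ} (hp : p.Prime) (hp3 : 3 ≤ p) {π η : O} (hπ : Irreducible π)
    (hpπ : (p : O) = η * π ^ p) (hperf : ∀ a : O, ∃ b : O, π ∣ a - b ^ p)
    {V : Subring K} (hV : IsBranch π V) {D : ℕ} {f : K} (hgen : GenDepth E p π V D f)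
    {γ : E} (hγ : γ ≠ 0) {d : ℕ} (hd1 : 1 ≤ d) (hdp : d < p) (hdD : d < D) :
    ∃ ρ : O, ∀ G r : K, r ∈ V →
      f = algebraMap E K γ * G ^ p * (1 + algebraMap O K π ^ d * r) →
      ∃ y ∈ V, r - algebraMap O K ρ = algebraMap O K π * y := by
  obtain ⟨c, g, y, hc, hg, hy, hf⟩ := hgen
  have hpπ' : π ∣ (p : O) := ⟨η * π ^ (p - 1), by
    rw [hpπ]
    have e : π ^ p = π ^ (p - 1) * π := by rw [← pow_succ, Nat.sub_add_cancel hp.pos]
    rw [e]; ring⟩
  obtain ⟨e', -, hnf⟩ := exists_normal_form E hp (by omega) hπ hpπ' hperf hV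
    (by omega : 1 ≤ D) hc hg hy hf hγ hd1
  have hϖ0 := hV.isUnif.ne_zero
  have hϖ := hV.1 π
  -- the key computation, for a given divisor `e₂`
  have key : ∀ G r : K, r ∈ V →
      f = algebraMap E K γ * G ^ p * (1 + algebraMap O K π ^ d * r) →
      π ^ d ∣ e' - 1 ∧ ∀ e₂ : O, e' - 1 = π ^ d * e₂ →
        ∃ y ∈ V, r - algebraMap O K e₂ = algebraMap O K π * y := by
    intro G r hr hfG
    obtain ⟨a₁, ha₁, heq⟩ := hnf G r hr hfG
    obtain ⟨M, hM, hexp⟩ := hV.pow_expansion hp hpπ ha₁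
    rw [hexp] at heq
    obtain ⟨N, hN⟩ : ∃ N : K, N = a₁ ^ p + algebraMap O K η * algebraMap O K π * a₁
        + algebraMap O K π ^ 2 * M := ⟨_, rfl⟩
    have hNV : N ∈ V := by
      rw [hN]
      exact V.add_mem (V.add_mem (V.pow_mem ha₁ p) (V.mul_mem (V.mul_mem (hV.1 η) hϖ) ha₁))
        (V.mul_mem (V.pow_mem hϖ 2) hM)
    rw [← hN] at heq
    refine ⟨hV.dvd_sub_one_of_eq hπ hNV hy hr hdp.le hdD.le le_rfl heq, ?_⟩
    intro e₂ he₂
    obtain ⟨i, rfl⟩ : ∃ i, p = d + 1 + i := ⟨p - (d + 1), by omega⟩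
    obtain ⟨j, rfl⟩ : ∃ j, D = d + 1 + j := ⟨D - (d + 1), by omega⟩
    have hE : algebraMap O K e' = 1 + algebraMap O K π ^ d * algebraMap O K e₂ := by
      have h3 := congrArg (algebraMap O K) he₂
      simp only [map_sub, map_one, map_mul, map_pow] at h3
      linear_combination h3
    rw [hE] at heq
    refine ⟨(1 + algebraMap O K π ^ d * algebraMap O K e₂) * (algebraMap O K π ^ i * N
      + algebraMap O K π ^ j * y + algebraMap O K π ^ (d + 1 + i + j) * N * y), ?_, ?_⟩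
    · exact V.mul_mem (V.add_mem V.one_mem (V.mul_mem (V.pow_mem hϖ d) (hV.1 e₂)))
        (V.add_mem (V.add_mem (V.mul_mem (V.pow_mem hϖ i) hNV) (V.mul_mem (V.pow_mem hϖ j) hy))
          (V.mul_mem (V.mul_mem (V.pow_mem hϖ _) hNV) hy))
    · apply mul_left_cancel₀ (pow_ne_zero d hϖ0)
      linear_combination -heq
  by_cases hdiv : π ^ d ∣ e' - 1
  · obtain ⟨e₂, he₂⟩ := hdiv
    exact ⟨e₂, fun G r hr hfG => (key G r hr hfG).2 e₂ he₂⟩
  · exact ⟨0, fun G r hr hfG => absurd (key G r hr hfG).1 hdiv⟩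

/-- **Branch lemma, `d = p`.**  The `p`-th order coefficient of any depth-`p` representation
is a `p`-th power modulo `π V`. -/
theorem exists_pow_of_eq {p : ℕ} (hp : p.Prime) (hp3 : 3 ≤ p) {π η : O} (hπ : Irreducible π)
    (hpπ : (p : O) = η * π ^ p) (hperf : ∀ a : O, ∃ b : O, π ∣ a - b ^ p)
    {V : Subring K} (hV : IsBranch π V) {D : ℕ} {f : K} (hgen : GenDepth E p π V D f)
    {γ : E} (hγ : γ ≠ 0) (hpD : p < D) (G r : K) (hr : r ∈ V)
    (hfG : f = algebraMap E K γ * G ^ p * (1 + algebraMap O K π ^ p * r)) :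
    ∃ h ∈ V, ∃ y ∈ V, r - h ^ p = algebraMap O K π * y := by
  obtain ⟨c, g, y, hc, hg, hy, hf⟩ := hgen
  have epp : π ^ p = π ^ (p - 1) * π := by rw [← pow_succ, Nat.sub_add_cancel hp.pos]
  have hpπ' : π ∣ (p : O) := ⟨η * π ^ (p - 1), by rw [hpπ, epp]; ring⟩
  obtain ⟨e', -, hnf⟩ := exists_normal_form E hp (by omega) hπ hpπ' hperf hV
    (by omega : 1 ≤ D) hc hg hy hf hγ hp.one_le
  have hϖ0 := hV.isUnif.ne_zero
  have hϖ := hV.1 π
  obtain ⟨a₁, ha₁, heq⟩ := hnf G r hr hfG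
  obtain ⟨M, hM, hexp⟩ := hV.pow_expansion hp hpπ ha₁
  rw [hexp] at heq
  obtain ⟨N, hN⟩ : ∃ N : K, N = a₁ ^ p + algebraMap O K η * algebraMap O K π * a₁
      + algebraMap O K π ^ 2 * M := ⟨_, rfl⟩
  have hNV : N ∈ V := by
    rw [hN]
    exact V.add_mem (V.add_mem (V.pow_mem ha₁ p) (V.mul_mem (V.mul_mem (hV.1 η) hϖ) ha₁))
      (V.mul_mem (V.pow_mem hϖ 2) hM)
  rw [← hN] at heq
  obtain ⟨e₂, he₂⟩ := hV.dvd_sub_one_of_eq hπ hNV hy hr le_rfl hpD.le le_rfl heq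
  obtain ⟨β, t, ht⟩ := hperf e₂
  obtain ⟨r₀, hr₀⟩ := exists_add_pow_prime_eq hp (⟨algebraMap O K β, hV.1 β⟩ : V) ⟨a₁, ha₁⟩
  have hr₀' := congrArg Subtype.val hr₀
  push_cast at hr₀'
  have hpK : (p : K) = algebraMap O K π * (algebraMap O K η * algebraMap O K π ^ (p - 1)) := by
    rw [← map_pow, ← map_mul, ← map_mul, ← map_natCast (algebraMap O K), hpπ, epp]
    congr 1
    ring
  have hE : algebraMap O K e' = 1 + algebraMap O K π ^ p * algebraMap O K e₂ := by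
    have h3 := congrArg (algebraMap O K) he₂
    simp only [map_sub, map_one, map_mul, map_pow] at h3
    linear_combination h3
  have ht' : algebraMap O K e₂ - algebraMap O K β ^ p = algebraMap O K π * algebraMap O K t := by
    have h3 := congrArg (algebraMap O K) ht
    simp only [map_sub, map_mul, map_pow] at h3
    exact h3
  rw [hE] at heq
  obtain ⟨j, rfl⟩ : ∃ j, D = p + 1 + j := ⟨D - (p + 1), by omega⟩
  have eK : algebraMap O K π ^ p = algebraMap O K π ^ (p - 1) * algebraMap O K π := by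
    rw [← pow_succ, Nat.sub_add_cancel hp.pos]
  -- `r - e₂ - a₁ ^ p ∈ π V`
  obtain ⟨z, hz⟩ : ∃ z : K, z = algebraMap O K η * a₁ + algebraMap O K π * M
      + algebraMap O K π ^ (p - 1) * algebraMap O K e₂ * N
      + (1 + algebraMap O K π ^ p * algebraMap O K e₂) * (algebraMap O K π ^ j * y
        * (1 + algebraMap O K π ^ p * N)) := ⟨_, rfl⟩
  have hzV : z ∈ V := by
    rw [hz]
    exact V.add_mem (V.add_mem (V.add_mem (V.mul_mem (hV.1 η) ha₁) (V.mul_mem hϖ hM))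
      (V.mul_mem (V.mul_mem (V.pow_mem hϖ _) (hV.1 e₂)) hNV))
      (V.mul_mem (V.add_mem V.one_mem (V.mul_mem (V.pow_mem hϖ p) (hV.1 e₂)))
        (V.mul_mem (V.mul_mem (V.pow_mem hϖ j) hy)
          (V.add_mem V.one_mem (V.mul_mem (V.pow_mem hϖ p) hNV))))
  have h1 : r - algebraMap O K e₂ - a₁ ^ p = algebraMap O K π * z := by
    apply mul_left_cancel₀ (pow_ne_zero p hϖ0)
    rw [hz]
    rw [hN] at heq ⊢
    linear_combination -heq + (algebraMap O K π ^ p * algebraMap O K e₂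
      * (a₁ ^ p + algebraMap O K η * algebraMap O K π * a₁ + algebraMap O K π ^ 2 * M)) * eK
  refine ⟨algebraMap O K β + a₁, V.add_mem (hV.1 β) ha₁,
    z + algebraMap O K t - algebraMap O K η * algebraMap O K π ^ (p - 1) * algebraMap O K β * a₁
      * (r₀ : K), ?_, ?_⟩
  · exact V.sub_mem (V.add_mem hzV (hV.1 t)) (V.mul_mem (V.mul_mem (V.mul_mem
      (V.mul_mem (hV.1 η) (V.pow_mem hϖ _)) (hV.1 β)) ha₁) r₀.2)
  · rw [hr₀', hpK]
    linear_combination h1 + ht'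

/-- **Branch lemma, `d = p + 1`.**  The `(p + 1)`-st order coefficient of any depth-`(p + 1)`
representation with constant `γ` is congruent modulo `π V` to ONE constant `ρ ∈ O`. -/
theorem exists_const_of_succ {p : ℕ} (hp : p.Prime) (hp3 : 3 ≤ p) {π η : O} (hπ : Irreducible π)
    (hpπ : (p : O) = η * π ^ p) (hperf : ∀ a : O, ∃ b : O, π ∣ a - b ^ p)
    {V : Subring K} (hV : IsBranch π V) {D : ℕ} {f : K} (hgen : GenDepth E p π V D f)
    {γ : E} (hγ : γ ≠ 0) (hpD : p + 2 ≤ D) :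
    ∃ ρ : O, ∀ G r : K, r ∈ V →
      f = algebraMap E K γ * G ^ p * (1 + algebraMap O K π ^ (p + 1) * r) →
      ∃ y ∈ V, r - algebraMap O K ρ = algebraMap O K π * y := by
  obtain ⟨c, g, y, hc, hg, hy, hf⟩ := hgen
  have epp : π ^ p = π ^ (p - 1) * π := by rw [← pow_succ, Nat.sub_add_cancel hp.pos]
  have hpπ' : π ∣ (p : O) := ⟨η * π ^ (p - 1), by rw [hpπ, epp]; ring⟩
  obtain ⟨e', -, hnf⟩ := exists_normal_form E hp (by omega) hπ hpπ' hperf hV
    (by omega : 1 ≤ D) hc hg hy hf hγ (by omega : 1 ≤ p + 1)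
  have hU := hV.isUnif
  have hϖ0 := hU.ne_zero
  have hϖ := hV.1 π
  obtain ⟨j, rfl⟩ : ∃ j, D = p + 2 + j := ⟨D - (p + 2), by omega⟩
  have eK : algebraMap O K π ^ p = algebraMap O K π ^ (p - 1) * algebraMap O K π := by
    rw [← pow_succ, Nat.sub_add_cancel hp.pos]
  have eK2 : algebraMap O K π ^ p = algebraMap O K π ^ (p - 2) * algebraMap O K π ^ 2 := by
    rw [← pow_add, Nat.sub_add_cancel (by omega : 2 ≤ p)]
  have hpK : (p : K) = algebraMap O K π * (algebraMap O K η * algebraMap O K π ^ (p - 1)) := by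
    rw [← map_pow, ← map_mul, ← map_mul, ← map_natCast (algebraMap O K), hpπ, epp]
    congr 1
    ring
  -- the key computation, for a given divisor `e₂` and a given root `α` of `-e₂` mod `π`
  have key : ∀ G r : K, r ∈ V →
      f = algebraMap E K γ * G ^ p * (1 + algebraMap O K π ^ (p + 1) * r) →
      π ^ p ∣ e' - 1 ∧ ∀ e₂ α t : O, e' - 1 = π ^ p * e₂ → -e₂ - α ^ p = π * t →
        ∃ y ∈ V, r - algebraMap O K (-t + η * α) = algebraMap O K π * y := by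
    intro G r hr hfG
    obtain ⟨a₁, ha₁, heq⟩ := hnf G r hr hfG
    obtain ⟨M, hM, hexp⟩ := hV.pow_expansion hp hpπ ha₁
    rw [hexp] at heq
    obtain ⟨N, hN⟩ : ∃ N : K, N = a₁ ^ p + algebraMap O K η * algebraMap O K π * a₁
        + algebraMap O K π ^ 2 * M := ⟨_, rfl⟩
    have hNV : N ∈ V := by
      rw [hN]
      exact V.add_mem (V.add_mem (V.pow_mem ha₁ p) (V.mul_mem (V.mul_mem (hV.1 η) hϖ) ha₁))
        (V.mul_mem (V.pow_mem hϖ 2) hM)
    rw [← hN] at heq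
    refine ⟨hV.dvd_sub_one_of_eq hπ hNV hy hr le_rfl (by omega) (by omega) heq, ?_⟩
    intro e₂ α t he₂ ht
    have hE : algebraMap O K e' = 1 + algebraMap O K π ^ p * algebraMap O K e₂ := by
      have h3 := congrArg (algebraMap O K) he₂
      simp only [map_sub, map_one, map_mul, map_pow] at h3
      linear_combination h3
    have ht' : -algebraMap O K e₂ - algebraMap O K α ^ p
        = algebraMap O K π * algebraMap O K t := by
      have h3 := congrArg (algebraMap O K) ht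
      simp only [map_sub, map_neg, map_mul, map_pow] at h3
      exact h3
    rw [hE] at heq
    -- `a₁ ^ p - α ^ p ∈ π V`
    have h1 : ∃ z ∈ V, a₁ ^ p - algebraMap O K α ^ p = algebraMap O K π * z := by
      refine ⟨r - algebraMap O K η * a₁ - algebraMap O K π * M
        - algebraMap O K π ^ (p - 1) * algebraMap O K e₂ * N
        - (1 + algebraMap O K π ^ p * algebraMap O K e₂) * (algebraMap O K π ^ (1 + j) * y
          * (1 + algebraMap O K π ^ p * N)) + algebraMap O K t, ?_, ?_⟩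
      · exact V.add_mem (V.sub_mem (V.sub_mem (V.sub_mem (V.sub_mem hr (V.mul_mem (hV.1 η) ha₁))
          (V.mul_mem hϖ hM)) (V.mul_mem (V.mul_mem (V.pow_mem hϖ _) (hV.1 e₂)) hNV))
          (V.mul_mem (V.add_mem V.one_mem (V.mul_mem (V.pow_mem hϖ p) (hV.1 e₂)))
            (V.mul_mem (V.mul_mem (V.pow_mem hϖ _) hy)
              (V.add_mem V.one_mem (V.mul_mem (V.pow_mem hϖ p) hNV))))) (hV.1 t)
      · apply mul_left_cancel₀ (pow_ne_zero p hϖ0)
        linear_combination heq + algebraMap O K π ^ p * ht'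
          - (algebraMap O K π ^ p * algebraMap O K e₂ * N) * eK - algebraMap O K π ^ p * hN
    obtain ⟨a₂, ha₂, hba⟩ := hU.sub_of_pow_sub_pow hp (by omega)
      ⟨algebraMap O K η * algebraMap O K π ^ (p - 1),
        V.mul_mem (hV.1 η) (V.pow_mem hϖ _), hpK⟩ ha₁ (hV.1 α) h1
    obtain ⟨m, hm⟩ := NodeGlue.sq_dvd_add_pow_sub_pow (R := V)
      (s := ⟨algebraMap O K π, hϖ⟩) (p := p)
      ⟨⟨algebraMap O K η * algebraMap O K π ^ (p - 1),
        V.mul_mem (hV.1 η) (V.pow_mem hϖ _)⟩, by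
          apply Subtype.ext
          push_cast
          exact hpK⟩ ⟨algebraMap O K α, hV.1 α⟩ ⟨a₂, ha₂⟩
    have hm' := congrArg Subtype.val hm
    push_cast at hm'
    have ha₁' : a₁ = algebraMap O K α + algebraMap O K π * a₂ := by linear_combination hba
    rw [← ha₁'] at hm'
    refine ⟨(m : K) + algebraMap O K η * a₂ + M
      + algebraMap O K π ^ (p - 2) * algebraMap O K e₂ * N
      + (1 + algebraMap O K π ^ p * algebraMap O K e₂) * (algebraMap O K π ^ j * y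
          * (1 + algebraMap O K π ^ p * N)), ?_, ?_⟩
    · exact V.add_mem (V.add_mem (V.add_mem (V.add_mem m.2 (V.mul_mem (hV.1 η) ha₂)) hM)
        (V.mul_mem (V.mul_mem (V.pow_mem hϖ _) (hV.1 e₂)) hNV))
        (V.mul_mem (V.add_mem V.one_mem (V.mul_mem (V.pow_mem hϖ p) (hV.1 e₂)))
          (V.mul_mem (V.mul_mem (V.pow_mem hϖ j) hy)
            (V.add_mem V.one_mem (V.mul_mem (V.pow_mem hϖ p) hNV))))
    · apply mul_left_cancel₀ (pow_ne_zero (p + 1) hϖ0)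
      simp only [map_add, map_neg, map_mul]
      linear_combination -heq + (algebraMap O K π ^ p * algebraMap O K e₂ * N) * eK2
        + algebraMap O K π ^ p * hN + algebraMap O K π ^ p * hm'
        + (algebraMap O K π ^ (p + 1) * algebraMap O K η) * ha₁'
        - algebraMap O K π ^ p * ht'
  by_cases hdiv : π ^ p ∣ e' - 1
  · obtain ⟨e₂, he₂⟩ := hdiv
    obtain ⟨α, t, ht⟩ := hperf (-e₂)
    exact ⟨-t + η * α, fun G r hr hfG => (key G r hr hfG).2 e₂ α t he₂ ht⟩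
  · exact ⟨0, fun G r hr hfG => absurd (key G r hr hfG).1 hdiv⟩

/-! ### Closed points -/

theorem PtDepth.mono {p : ℕ} {π : O} {A A' : Subring K} (h : A ≤ A') {d : ℕ} {γ : E} {f : K}
    (hf : PtDepth E p π A d γ f) : PtDepth E p π A' d γ f := by
  obtain ⟨G, r, hr, e⟩ := hf
  exact ⟨G, r, h hr, e⟩

theorem PtDepth.of_le {p : ℕ} {π : O} {A : Subring K} (hπA : algebraMap O K π ∈ A) {d d' : ℕ}
    (h : d' ≤ d) {γ : E} {f : K} (hf : PtDepth E p π A d γ f) : PtDepth E p π A d' γ f := by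
  obtain ⟨G, r, hr, e⟩ := hf
  obtain ⟨i, rfl⟩ := Nat.exists_eq_add_of_le h
  exact ⟨G, algebraMap O K π ^ i * r, A.mul_mem (A.pow_mem hπA i) hr, by rw [e]; ring⟩

/-- Depth at a subring of `V` with a nonzero constant is generic depth on `V` (`f ≠ 0`). -/
theorem genDepth_of_ptDepth {p : ℕ} (hp : p.Prime) {π : O} {V : Subring K} {D : ℕ} {c : E}
    (hc : c ≠ 0) {f : K} (hf0 : f ≠ 0) (hf : PtDepth E p π V D c f) : GenDepth E p π V D f := by
  obtain ⟨g, y, hy, e⟩ := hf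
  refine ⟨c, g, y, hc, ?_, hy, e⟩
  rintro rfl
  apply hf0
  rw [e, zero_pow hp.ne_zero, mul_zero, zero_mul]

/-- **Main branch.**  If `γ = c` is the constant of the generic datum itself, the coefficient `r`
of any depth-`d` representation with constant `c` lies in `π V` (`d < p` or `d = p + 1`). -/
theorem mem_of_main {p : ℕ} (hp : p.Prime) (hp3 : 3 ≤ p) {π η : O} (hπ : Irreducible π)
    (hpπ : (p : O) = η * π ^ p) (hperf : ∀ a : O, ∃ b : O, π ∣ a - b ^ p)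
    {V : Subring K} (hV : IsBranch π V) {f : K} {c : E} (hc : c ≠ 0) {g y : K} (hg : g ≠ 0)
    (hy : y ∈ V) (hf : f = algebraMap E K c * g ^ p * (1 + algebraMap O K π ^ (p + 2) * y))
    {d : ℕ} (hd1 : 1 ≤ d) (hd : d < p ∨ d = p + 1) (G r : K) (hr : r ∈ V)
    (hfG : f = algebraMap E K c * G ^ p * (1 + algebraMap O K π ^ d * r)) :
    ∃ y' ∈ V, r = algebraMap O K π * y' := by
  have hgen : GenDepth E p π V (p + 2) f := ⟨c, g, y, hc, hg, hy, hf⟩
  have hϖ := hV.1 π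
  obtain ⟨ρ, hρ⟩ : ∃ ρ : O, ∀ G r : K, r ∈ V →
      f = algebraMap E K c * G ^ p * (1 + algebraMap O K π ^ d * r) →
      ∃ y ∈ V, r - algebraMap O K ρ = algebraMap O K π * y := by
    rcases hd with hd | rfl
    · exact exists_const_of_lt E hp hp3 hπ hpπ hperf hV hgen hc hd1 hd (by omega)
    · exact exists_const_of_succ E hp hp3 hπ hpπ hperf hV hgen hc le_rfl
  obtain ⟨i, hi⟩ : ∃ i, p + 2 = d + 1 + i := ⟨p + 2 - (d + 1), by omega⟩
  obtain ⟨y₀, hy₀, e₀⟩ := hρ g (algebraMap O K π ^ (1 + i) * y)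
    (V.mul_mem (V.pow_mem hϖ _) hy) (by rw [hf, hi]; ring)
  have hρπ : π ∣ ρ := hV.dvd_of_eq_mul hπ ρ (algebraMap O K π ^ i * y - y₀)
    (V.sub_mem (V.mul_mem (V.pow_mem hϖ _) hy) hy₀) (by linear_combination -e₀)
  obtain ⟨ρ', rfl⟩ := hρπ
  obtain ⟨y₁, hy₁, e₁⟩ := hρ G r hr hfG
  exact ⟨y₁ + algebraMap O K ρ', V.add_mem hy₁ (hV.1 ρ'), by
    rw [map_mul] at e₁; linear_combination e₁⟩

/-- **Step `d ≠ p` at a closed point** (`d < p` or `d = p + 1`): the coefficient `r` of a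
depth-`d` representation with the main constant `c` is divisible by `π` in `A`. -/
theorem exists_eq_mul_of_ne {p : ℕ} (hp : p.Prime) (hp3 : 3 ≤ p) {π η : O} (hπ : Irreducible π)
    (hpπ : (p : O) = η * π ^ p) (hperf : ∀ a : O, ∃ b : O, π ∣ a - b ^ p)
    {V₁ V₂ A : Subring K} (hV₁ : IsBranch π V₁) (hV₂ : IsBranch π V₂) {on₂ : Prop}
    {f : K} {c : E} (hc : c ≠ 0) {g₁ y₁ : K} (hg₁ : g₁ ≠ 0) (hy₁ : y₁ ∈ V₁)
    (hf₁ : f = algebraMap E K c * g₁ ^ p * (1 + algebraMap O K π ^ (p + 2) * y₁))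
    (hother : on₂ → GenDepth E p π V₂ (p + 2) f)
    (hAO : ∀ a : O, algebraMap O K a ∈ A) (hsub₁ : A ≤ V₁) (hsub₂ : on₂ → A ≤ V₂)
    (hglue : ∀ a ∈ A, (∃ y ∈ V₁, a = algebraMap O K π * y) →
      (on₂ → ∃ y ∈ V₂, a = algebraMap O K π * y) → ∃ a' ∈ A, a = algebraMap O K π * a')
    (hmeet : on₂ → ∀ a₁ ∈ A, ∀ a₂ ∈ A, (∃ y ∈ V₁, a₁ = algebraMap O K π * y) →
      (∃ y ∈ V₂, a₂ = algebraMap O K π * y) → a₁ + a₂ ≠ 1)
    {d : ℕ} (hd1 : 1 ≤ d) (hd : d < p ∨ d = p + 1) (G r : K) (hr : r ∈ A)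
    (hfG : f = algebraMap E K c * G ^ p * (1 + algebraMap O K π ^ d * r)) :
    ∃ a' ∈ A, r = algebraMap O K π * a' := by
  have h1 := mem_of_main E hp hp3 hπ hpπ hperf hV₁ hc hg₁ hy₁ hf₁ hd1 hd G r (hsub₁ hr) hfG
  refine hglue r hr h1 ?_
  intro h2
  obtain ⟨ρ, hρ⟩ : ∃ ρ : O, ∀ G r : K, r ∈ V₂ →
      f = algebraMap E K c * G ^ p * (1 + algebraMap O K π ^ d * r) →
      ∃ y ∈ V₂, r - algebraMap O K ρ = algebraMap O K π * y := by
    rcases hd with hd | rfl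
    · exact exists_const_of_lt E hp hp3 hπ hpπ hperf hV₂ (hother h2) hc hd1 hd (by omega)
    · exact exists_const_of_succ E hp hp3 hπ hpπ hperf hV₂ (hother h2) hc le_rfl
  obtain ⟨y₂, hy₂, e₂⟩ := hρ G r (hsub₂ h2 hr) hfG
  by_cases hρπ : π ∣ ρ
  · obtain ⟨ρ', rfl⟩ := hρπ
    exact ⟨y₂ + algebraMap O K ρ', V₂.add_mem hy₂ (hV₂.1 ρ'), by
      rw [map_mul] at e₂; linear_combination e₂⟩
  · exfalso
    obtain ⟨u, hu⟩ := (isUnit_of_not_dvd hπ hρπ).exists_right_inv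
    have huK : algebraMap O K ρ * algebraMap O K u = 1 := by rw [← map_mul, hu, map_one]
    obtain ⟨y₁', hy₁', e₁⟩ := h1
    refine hmeet h2 (r * algebraMap O K u) (A.mul_mem hr (hAO u))
      (-(r - algebraMap O K ρ) * algebraMap O K u)
      (A.mul_mem (A.neg_mem (A.sub_mem hr (hAO ρ))) (hAO u))
      ⟨y₁' * algebraMap O K u, V₁.mul_mem hy₁' (hV₁.1 u), by rw [e₁]; ring⟩
      ⟨-y₂ * algebraMap O K u, V₂.mul_mem (V₂.neg_mem hy₂) (hV₂.1 u), by rw [e₂]; ring⟩ ?_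
    linear_combination huK

/-- **Step `d = p` at a closed point**: the coefficient `r` of a depth-`p` representation is a
`p`-th power modulo `π A`. -/
theorem exists_eq_pow_add_of_eq {p : ℕ} (hp : p.Prime) (hp3 : 3 ≤ p) {π η : O}
    (hπ : Irreducible π) (hpπ : (p : O) = η * π ^ p) (hperf : ∀ a : O, ∃ b : O, π ∣ a - b ^ p)
    {V₁ V₂ A : Subring K} (hV₁ : IsBranch π V₁) (hV₂ : IsBranch π V₂) {on₂ : Prop}
    {f : K} {c : E} (hc : c ≠ 0) (hgen₁ : GenDepth E p π V₁ (p + 2) f)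
    (hother : on₂ → GenDepth E p π V₂ (p + 2) f)
    (hsub₁ : A ≤ V₁) (hsub₂ : on₂ → A ≤ V₂)
    (hglue : ∀ a ∈ A, (∃ y ∈ V₁, a = algebraMap O K π * y) →
      (on₂ → ∃ y ∈ V₂, a = algebraMap O K π * y) → ∃ a' ∈ A, a = algebraMap O K π * a')
    (hroot₁ : ∀ r ∈ A, ∀ h ∈ V₁, (∃ y ∈ V₁, r - h ^ p = algebraMap O K π * y) →
      ∃ a ∈ A, ∃ y ∈ V₁, r - a ^ p = algebraMap O K π * y)
    (hroot₂ : on₂ → ∀ r ∈ A, ∀ h ∈ V₂, (∃ y ∈ V₂, r - h ^ p = algebraMap O K π * y) →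
      ∃ a ∈ A, ∃ y ∈ V₂, r - a ^ p = algebraMap O K π * y)
    (hsum : on₂ → ∀ a₁ ∈ A, ∀ a₂ ∈ A, (∃ b₁ ∈ A, ∃ b₂ ∈ A,
      (∃ y ∈ V₁, b₁ = algebraMap O K π * y) ∧ (∃ y ∈ V₂, b₂ = algebraMap O K π * y) ∧
        a₁ ^ p - a₂ ^ p = b₁ + b₂) →
      ∃ a ∈ A, (∃ y ∈ V₁, a - a₁ = algebraMap O K π * y) ∧
        (∃ y ∈ V₂, a - a₂ = algebraMap O K π * y))
    (G r : K) (hr : r ∈ A)
    (hfG : f = algebraMap E K c * G ^ p * (1 + algebraMap O K π ^ p * r)) :
    ∃ a ∈ A, ∃ r' ∈ A, r - a ^ p = algebraMap O K π * r' := by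
  obtain ⟨h₁, hh₁, z₁, hz₁, e₁⟩ := exists_pow_of_eq E hp hp3 hπ hpπ hperf hV₁ hgen₁ hc
    (by omega) G r (hsub₁ hr) hfG
  obtain ⟨a₁, ha₁, w₁, hw₁, f₁⟩ := hroot₁ r hr h₁ hh₁ ⟨z₁, hz₁, e₁⟩
  by_cases h2 : on₂
  · obtain ⟨h₂, hh₂, z₂, hz₂, e₂⟩ := exists_pow_of_eq E hp hp3 hπ hpπ hperf hV₂ (hother h2) hc
      (by omega) G r (hsub₂ h2 hr) hfG
    obtain ⟨a₂, ha₂, w₂, hw₂, f₂⟩ := hroot₂ h2 r hr h₂ hh₂ ⟨z₂, hz₂, e₂⟩
    obtain ⟨a, ha, ⟨v₁, hv₁, g₁⟩, ⟨v₂, hv₂, g₂⟩⟩ := hsum h2 a₁ ha₁ a₂ ha₂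
      ⟨a₁ ^ p - r, A.sub_mem (A.pow_mem ha₁ p) hr, r - a₂ ^ p, A.sub_mem hr (A.pow_mem ha₂ p),
        ⟨-w₁, V₁.neg_mem hw₁, by linear_combination -f₁⟩, ⟨w₂, hw₂, f₂⟩, by ring⟩
    have k₁ : ∃ y ∈ V₁, r - a ^ p = algebraMap O K π * y := by
      obtain ⟨z, hz, e⟩ := pow_sub_pow_mem (hsub₁ ha) (hsub₁ ha₁) ⟨v₁, hv₁, g₁⟩ p
      exact ⟨w₁ - z, V₁.sub_mem hw₁ hz, by linear_combination f₁ - e⟩
    have k₂ : ∃ y ∈ V₂, r - a ^ p = algebraMap O K π * y := by
      obtain ⟨z, hz, e⟩ := pow_sub_pow_mem (hsub₂ h2 ha) (hsub₂ h2 ha₂) ⟨v₂, hv₂, g₂⟩ p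
      exact ⟨w₂ - z, V₂.sub_mem hw₂ hz, by linear_combination f₂ - e⟩
    obtain ⟨r', hr', e⟩ := hglue (r - a ^ p) (A.sub_mem hr (A.pow_mem ha p)) k₁ (fun _ => k₂)
    exact ⟨a, ha, r', hr', e⟩
  · obtain ⟨r', hr', e⟩ := hglue (r - a₁ ^ p) (A.sub_mem hr (A.pow_mem ha₁ p)) ⟨w₁, hw₁, f₁⟩
      (fun h => absurd h h2)
    exact ⟨a₁, ha₁, r', hr', e⟩

/-- Absorbing a `p`-th power at depth `p`: `1 + π ^ p (a ^ p + π r') = (1 + π a) ^ p (1 + π ^
(p + 1) r'')`. -/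
theorem ptDepth_succ_of_pow {p : ℕ} (hp : p.Prime) {π η : O} (hpπ : (p : O) = η * π ^ p)
    {V A : Subring K} (hV : IsBranch π V) (hAO : ∀ a : O, algebraMap O K a ∈ A) (hsub : A ≤ V)
    (hjac : ∀ a ∈ A, (1 + algebraMap O K π * a)⁻¹ ∈ A) {f : K} {c : E} {G r a r' : K}
    (ha : a ∈ A) (hr' : r' ∈ A) (e : r - a ^ p = algebraMap O K π * r')
    (hfG : f = algebraMap E K c * G ^ p * (1 + algebraMap O K π ^ p * r)) :
    PtDepth E p π A (p + 1) c f := by
  obtain ⟨q, hq⟩ := PthRootRam.one_add_pow_expansion (R := A) p hp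
    (⟨algebraMap O K π, hAO π⟩ * ⟨a, ha⟩)
  have hq' := congrArg Subtype.val hq
  push_cast at hq'
  have hpK : (p : K) = algebraMap O K η * algebraMap O K π ^ p := by
    rw [← map_pow, ← map_mul, ← hpπ, map_natCast]
  obtain ⟨hu0, -⟩ := hV.isUnif.one_add_unit (hsub ha)
  have hu' := hjac a ha
  have hinv : (1 + algebraMap O K π * a) ^ p * ((1 + algebraMap O K π * a)⁻¹) ^ p = 1 := by
    rw [← mul_pow, mul_inv_cancel₀ hu0, one_pow]
  refine ⟨G * (1 + algebraMap O K π * a),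
    (r' - algebraMap O K η * a - algebraMap O K π * (algebraMap O K η * a ^ 2 * (q : K)))
      * ((1 + algebraMap O K π * a)⁻¹) ^ p, ?_, ?_⟩
  · exact A.mul_mem (A.sub_mem (A.sub_mem hr' (A.mul_mem (hAO η) ha))
      (A.mul_mem (hAO π) (A.mul_mem (A.mul_mem (hAO η) (A.pow_mem ha 2)) q.2))) (A.pow_mem hu' p)
  · rw [hpK] at hq'
    have key : 1 + algebraMap O K π ^ p * r = (1 + algebraMap O K π * a) ^ p
        * (1 + algebraMap O K π ^ (p + 1)
          * ((r' - algebraMap O K η * a - algebraMap O K π * (algebraMap O K η * a ^ 2 * (q : K)))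
            * ((1 + algebraMap O K π * a)⁻¹) ^ p)) := by
      linear_combination algebraMap O K π ^ p * e - hq'
        - (algebraMap O K π ^ (p + 1) * (r' - algebraMap O K η * a
          - algebraMap O K π * (algebraMap O K η * a ^ 2 * (q : K)))) * hinv
    rw [hfG, key, mul_pow]
    ring

/-- **Closed-point lift with a prescribed constant, `H(1) ⇒ H(p + 2)`.**

`A` is the local ring of a closed point, a subring of `K` containing `O`; `V₁` is the main branch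
through the point (`A ≤ V₁`), on which `f` has depth `p + 2` with the constant `c`; if `on₂`
holds, `V₂` is a second branch through the point, on which `f` has generic depth `p + 2` with
some constant.  Hypotheses on the point: `1 + π A ⊆ Aˣ` (`hjac`); `A / π A` is reduced with
minimal primes the branches (`hglue`); the branch rings `A / P_i` have the `p`-th roots of their
fraction fields (`hroot₁`, `hroot₂`); at a node, `p`-th roots on the two branches which agree at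
the point glue (`hsum`), and `P₁ + P₂` is a proper ideal (`hmeet`).

Then depth `1` at the point with the constant `c` lifts to depth `p + 2` with the same `c`. -/
theorem ptDepth_lift {p : ℕ} (hp : p.Prime) (hp3 : 3 ≤ p) {π η : O} (hπ : Irreducible π)
    (hpπ : (p : O) = η * π ^ p) (hperf : ∀ a : O, ∃ b : O, π ∣ a - b ^ p)
    {V₁ V₂ A : Subring K} (hV₁ : IsBranch π V₁) (hV₂ : IsBranch π V₂) {on₂ : Prop}
    {f : K} {c : E} (hc : c ≠ 0)
    (hmain : PtDepth E p π V₁ (p + 2) c f)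
    (hother : on₂ → GenDepth E p π V₂ (p + 2) f)
    (hAO : ∀ a : O, algebraMap O K a ∈ A) (hsub₁ : A ≤ V₁) (hsub₂ : on₂ → A ≤ V₂)
    (hjac : ∀ a ∈ A, (1 + algebraMap O K π * a)⁻¹ ∈ A)
    (hglue : ∀ a ∈ A, (∃ y ∈ V₁, a = algebraMap O K π * y) →
      (on₂ → ∃ y ∈ V₂, a = algebraMap O K π * y) → ∃ a' ∈ A, a = algebraMap O K π * a')
    (hroot₁ : ∀ r ∈ A, ∀ h ∈ V₁, (∃ y ∈ V₁, r - h ^ p = algebraMap O K π * y) →
      ∃ a ∈ A, ∃ y ∈ V₁, r - a ^ p = algebraMap O K π * y)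
    (hroot₂ : on₂ → ∀ r ∈ A, ∀ h ∈ V₂, (∃ y ∈ V₂, r - h ^ p = algebraMap O K π * y) →
      ∃ a ∈ A, ∃ y ∈ V₂, r - a ^ p = algebraMap O K π * y)
    (hsum : on₂ → ∀ a₁ ∈ A, ∀ a₂ ∈ A, (∃ b₁ ∈ A, ∃ b₂ ∈ A,
      (∃ y ∈ V₁, b₁ = algebraMap O K π * y) ∧ (∃ y ∈ V₂, b₂ = algebraMap O K π * y) ∧
        a₁ ^ p - a₂ ^ p = b₁ + b₂) →
      ∃ a ∈ A, (∃ y ∈ V₁, a - a₁ = algebraMap O K π * y) ∧
        (∃ y ∈ V₂, a - a₂ = algebraMap O K π * y))
    (hmeet : on₂ → ∀ a₁ ∈ A, ∀ a₂ ∈ A, (∃ y ∈ V₁, a₁ = algebraMap O K π * y) →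
      (∃ y ∈ V₂, a₂ = algebraMap O K π * y) → a₁ + a₂ ≠ 1)
    (hstart : PtDepth E p π A 1 c f) : PtDepth E p π A (p + 2) c f := by
  by_cases hf0 : f = 0
  · exact ⟨0, 0, A.zero_mem, by rw [hf0, zero_pow hp.ne_zero, mul_zero, zero_mul]⟩
  obtain ⟨g₁, y₁, hy₁, hf₁⟩ := hmain
  have hg₁ : g₁ ≠ 0 := by
    rintro rfl
    apply hf0
    rw [hf₁, zero_pow hp.ne_zero, mul_zero, zero_mul]
  have hgen₁ : GenDepth E p π V₁ (p + 2) f := ⟨c, g₁, y₁, hc, hg₁, hy₁, hf₁⟩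
  have step : ∀ d : ℕ, 1 ≤ d → d ≤ p + 1 → PtDepth E p π A d c f →
      PtDepth E p π A (d + 1) c f := by
    intro d hd1 hd2 hd
    obtain ⟨G, r, hr, hfG⟩ := hd
    by_cases hdp : d = p
    · rw [hdp] at hfG ⊢
      obtain ⟨a, ha, r', hr', e⟩ := exists_eq_pow_add_of_eq E hp hp3 hπ hpπ hperf hV₁ hV₂ hc
        hgen₁ hother hsub₁ hsub₂ hglue hroot₁ hroot₂ hsum G r hr hfG
      exact ptDepth_succ_of_pow E hp hpπ hV₁ hAO hsub₁ hjac ha hr' e hfG
    · obtain ⟨a', ha', e⟩ := exists_eq_mul_of_ne E hp hp3 hπ hpπ hperf hV₁ hV₂ hc hg₁ hy₁ hf₁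
        hother hAO hsub₁ hsub₂ hglue hmeet hd1 (by omega) G r hr hfG
      exact ⟨G, a', ha', by rw [hfG, e]; ring⟩
  have all : ∀ d : ℕ, 1 ≤ d → d ≤ p + 2 → PtDepth E p π A d c f := by
    intro d hd1
    induction d, hd1 using Nat.le_induction with
    | base => intro _; exact hstart
    | succ n hn ih => intro h; exact step n hn (by omega) (ih (by omega))
  exact all (p + 2) (by omega) le_rfl

end Const

end Fermat.Agent.S44.L.BranchDepth
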