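import Mathlib
import Fermat.Agent.S44.L.CentreU4
import Fermat.Agent.S44.L.CentreChartU4

/-!
# PROGRAM MR (S44), strand L: the centre of a place on the two `u₄`-charts

The three packaged calls of `CentreU4` (helper170) at the chart maps `CentreChartU4.rInf4` /
`rInf4Inf` and the constants `CentreChart.constSub M A K`, every hypothesis discharged except
the `E`-level statement `hred : HRed M p A K`.  For a valuation subring `w` of the reduced
function field `redField M A` (`4 ∣ M`, `A` over `p ≠ 2`):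

* `centre_finite` : `w ≠ ⊤` finite (non-cuspidal) ⟹ a maximal ideal `y ⊇ p_∞` of the `u₄`-chart
  of level `M p` with `U ∉ y`, `U + 16 ∉ y` (the binder block of `NodeC1Inst.node_u4_OE` /
  `smooth_inf_u4_OE`), such that `w` dominates the image of the local ring at `y`;
* `centre_cusp` : `w` not finite, `ū₄ ∈ w` ⟹ the same with `U ∈ y ∨ U + 16 ∈ y`;
* `centre_inf` : `ū₄ ∉ w` ⟹ a maximal ideal `y ⊇ p_∞` of the chart at infinity with `1/U ∈ y`.

In each case the three outputs `(∀ c, r c ∈ w)`, `(∀ c ∉ y, (r c)⁻¹ ∈ w)`,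
`(∀ c ∈ y, r c = 0 ∨ (r c)⁻¹ ∉ w)` are those consumed by `Centre.pDivAt_of_centre`.
-/

set_option autoImplicit false
set_option linter.unusedSectionVars false
set_option linter.unusedVariables false
set_option linter.style.haveILetI false
set_option synthInstance.maxHeartbeats 400000
set_option maxHeartbeats 1000000

open ModularCurve Polynomial

noncomputable section

namespace Fermat.Agent.S44.L.CentreAtU4

open Fermat.Agent.S18.K1Defs Fermat.Agent.S18.K1Main Fermat.Agent.S18.K1Top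
open Fermat.Agent.S30
open Fermat.Agent.S34 Fermat.Agent.S34.TwoPrimesRank Fermat.Agent.S34.HauptU.Plug
open Fermat.Agent.S34.TwoPrimesGauss
open Fermat.Agent.S36.Haupt4 Fermat.Agent.S36.LevelQInstAlt
open Fermat.Agent.S44.Contract Fermat.Agent.S44.L.RedTransfer Fermat.Agent.S44.L.CentreChart
open Fermat.Agent.S44.L.CentreChartU4

local notation "Qb" => AlgebraicClosure ℚ

/-! ### The three packaged calls of `CentreU4` for an abstract chart ring

Stated for `Chart O u` over abstract `O`, `L` so that the instance arguments of the chart ring are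
matched syntactically when these lemmas are applied at `O = OE A K`, `L = LE (M p) K`. -/

section Bridge

variable {M : ℕ} [NeZero M] {A : ValuationSubring Qb} {p : ℕ} (hp : p.Prime)
  (hA : A.LiesOverPrime p)
  {O L : Type*} [CommRing O] [Field L] [Algebra O L]

include hp hA in
theorem finite_chart (hp2 : p ≠ 2) (h4 : 4 ∣ M) (κ₀ : Subfield (redField M A))
    (hκ₀ : ∀ s ∈ κ₀, ∃ e : IsLocalRing.ResidueField A,
      ((s : redField M A) : LaurentSeries (IsLocalRing.ResidueField A)) = HahnSeries.C e)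
    (w : ValuationSubring (redField M A)) (hw : w ≠ ⊤) (hfin : Top.IsFinitePl M A w)
    (u : L) (r : Chart O u →+* redField M A) (hκr : ∀ s ∈ κ₀, ∃ c : Chart O u, r c = s)
    (hur : ∃ c : Chart O u, r c = CentreU4.ub M A h4)
    (hint : ∀ c : Chart O u, IsIntegral ↥(Algebra.adjoin κ₀ {CentreU4.ub M A h4}) (r c))
    (I : Ideal (Chart O u)) (hI : RingHom.ker r = I)
    (uc : Chart O u) (huc : r uc = CentreU4.ub M A h4) :
    ∃ y : Ideal (Chart O u), y.IsMaximal ∧ I ≤ y ∧ (∀ c, r c ∈ w) ∧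
      (∀ c, c ∉ y → (r c)⁻¹ ∈ w) ∧ (∀ c, c ∈ y → r c = 0 ∨ (r c)⁻¹ ∉ w) ∧
      uc ∉ y ∧ uc + 16 ∉ y := by
  obtain ⟨y, hy, hker, h1, h2, h3, h5, h6⟩ :=
    CentreU4.exists_centre_finite hp hA hp2 h4 κ₀ hκ₀ w hw hfin r hκr hur hint
  refine ⟨y, hy, hI ▸ hker, h1, h2, h3, h5 uc huc, h6 _ ?_⟩
  rw [map_add, huc, map_ofNat]

include hp hA in
theorem cusp_chart (hp2 : p ≠ 2) (h4 : 4 ∣ M) (κ₀ : Subfield (redField M A))
    (hκ₀ : ∀ s ∈ κ₀, ∃ e : IsLocalRing.ResidueField A,
      ((s : redField M A) : LaurentSeries (IsLocalRing.ResidueField A)) = HahnSeries.C e)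
    (w : ValuationSubring (redField M A)) (hfin : ¬ Top.IsFinitePl M A w)
    (hu : CentreU4.ub M A h4 ∈ w)
    (u : L) (r : Chart O u →+* redField M A) (hκr : ∀ s ∈ κ₀, ∃ c : Chart O u, r c = s)
    (hur : ∃ c : Chart O u, r c = CentreU4.ub M A h4)
    (hint : ∀ c : Chart O u, IsIntegral ↥(Algebra.adjoin κ₀ {CentreU4.ub M A h4}) (r c))
    (I : Ideal (Chart O u)) (hI : RingHom.ker r = I)
    (uc : Chart O u) (huc : r uc = CentreU4.ub M A h4) :
    ∃ y : Ideal (Chart O u), y.IsMaximal ∧ I ≤ y ∧ (∀ c, r c ∈ w) ∧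
      (∀ c, c ∉ y → (r c)⁻¹ ∈ w) ∧ (∀ c, c ∈ y → r c = 0 ∨ (r c)⁻¹ ∉ w) ∧
      (uc ∈ y ∨ uc + 16 ∈ y) := by
  obtain ⟨y, hy, hker, h1, h2, h3, h5⟩ :=
    CentreU4.exists_centre_cusp hp hA hp2 h4 κ₀ hκ₀ w hfin hu r hκr hur hint
  refine ⟨y, hy, hI ▸ hker, h1, h2, h3, ?_⟩
  rcases h5 with h5 | h5
  · exact Or.inl (h5 uc huc)
  · refine Or.inr (h5 _ ?_)
    rw [map_add, huc, map_ofNat]

include hp hA in
theorem inf_chart (h4 : 4 ∣ M) (κ₀ : Subfield (redField M A))
    (hκ₀ : ∀ s ∈ κ₀, ∃ e : IsLocalRing.ResidueField A,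
      ((s : redField M A) : LaurentSeries (IsLocalRing.ResidueField A)) = HahnSeries.C e)
    (w : ValuationSubring (redField M A)) (hu : CentreU4.ub M A h4 ∉ w)
    (u : L) (r : Chart O u →+* redField M A) (hκr : ∀ s ∈ κ₀, ∃ c : Chart O u, r c = s)
    (hur : ∃ c : Chart O u, r c = (CentreU4.ub M A h4)⁻¹)
    (hint : ∀ c : Chart O u, IsIntegral ↥(Algebra.adjoin κ₀ {(CentreU4.ub M A h4)⁻¹}) (r c))
    (I : Ideal (Chart O u)) (hI : RingHom.ker r = I)
    (tc : Chart O u) (htc : r tc = (CentreU4.ub M A h4)⁻¹) :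
    ∃ y : Ideal (Chart O u), y.IsMaximal ∧ I ≤ y ∧ (∀ c, r c ∈ w) ∧
      (∀ c, c ∉ y → (r c)⁻¹ ∈ w) ∧ (∀ c, c ∈ y → r c = 0 ∨ (r c)⁻¹ ∉ w) ∧ tc ∈ y := by
  obtain ⟨y, hy, hker, h1, h2, h3, h5⟩ :=
    CentreU4.exists_centre_inf hp hA h4 κ₀ hκ₀ w hu r hκr hur hint
  exact ⟨y, hy, hI ▸ hker, h1, h2, h3, h5 tc htc⟩

end Bridge

variable (M p : ℕ) [NeZero M] [NeZero p] (A : ValuationSubring Qb)
  (K : IntermediateField ℚ Qb) [IsDiscreteValuationRing (OE A K)]

/-- The elements of `constSub` are constants. -/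
theorem constSub_const (s : redField M A) (hs : s ∈ constSub M A K) :
    ∃ e : IsLocalRing.ResidueField A,
      ((s : redField M A) : LaurentSeries (IsLocalRing.ResidueField A)) = HahnSeries.C e := by
  obtain ⟨x, hx⟩ := (mem_constSub_iff M A K s).mp hs
  exact ⟨resMap A K x, hx⟩

variable [Fact p.Prime] (hA : A.LiesOverPrime p) (hred : HRed M p A K)
  (π : OE A K) (hπ : Irreducible π) (h4 : 4 ∣ M)

/-- The coordinate `U` of the `u₄`-chart goes to `ub`. -/
theorem rInf4_uC_eq :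
    letI := algebraOL (OE A K) K (LE M K)
    letI := algebraOL (OE A K) K (LE (M * p) K)
    haveI := isScalarTower_OL (OE A K) K (LE M K)
    haveI := isScalarTower_OL (OE A K) K (LE (M * p) K)
    rInf4 M p A K hA hred π hπ h4
        (incl (alphaHom M p K) (alphaHom_algebraMap M p K) (u4E M K h4)
          (polyChart (u4E M K h4) X)) = CentreU4.ub M A h4 := by
  letI := algebraOL (OE A K) K (LE M K)
  letI := algebraOL (OE A K) K (LE (M * p) K)
  haveI := isScalarTower_OL (OE A K) K (LE M K)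
  haveI := isScalarTower_OL (OE A K) K (LE (M * p) K)
  exact Subtype.ext (rInf4_uC M p A K hA hred π hπ h4)

/-- The coordinate `1/U` of the chart at infinity goes to `ub⁻¹`. -/
theorem rInf4Inf_tC_eq :
    letI := algebraOL (OE A K) K (LE M K)
    letI := algebraOL (OE A K) K (LE (M * p) K)
    haveI := isScalarTower_OL (OE A K) K (LE M K)
    haveI := isScalarTower_OL (OE A K) K (LE (M * p) K)
    rInf4Inf M p A K hA hred π hπ h4
        (incl (alphaHom M p K) (alphaHom_algebraMap M p K) (u4E M K h4)⁻¹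
          (polyChart (u4E M K h4)⁻¹ X)) = (CentreU4.ub M A h4)⁻¹ := by
  letI := algebraOL (OE A K) K (LE M K)
  letI := algebraOL (OE A K) K (LE (M * p) K)
  haveI := isScalarTower_OL (OE A K) K (LE M K)
  haveI := isScalarTower_OL (OE A K) K (LE (M * p) K)
  apply Subtype.ext
  rw [rInf4Inf_tC M p A K hA hred π hπ h4, ← CentreU4.coe_ub M A h4]
  rfl

/-- **The centre of a finite place** on the `u₄`-chart: a maximal ideal `y ⊇ p_∞` with
`U ∉ y`, `U + 16 ∉ y`. -/
theorem centre_finite (hp2 : p ≠ 2) (w : ValuationSubring (redField M A)) (hw : w ≠ ⊤)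
    (hfin : Top.IsFinitePl M A w) :
    letI := algebraOL (OE A K) K (LE M K)
    letI := algebraOL (OE A K) K (LE (M * p) K)
    haveI := isScalarTower_OL (OE A K) K (LE M K)
    haveI := isScalarTower_OL (OE A K) K (LE (M * p) K)
    ∃ y : Ideal (Chart (OE A K) (alphaHom M p K (u4E M K h4))), y.IsMaximal ∧
      RingHom.ker (redInf π hπ (alphaHom M p K) (sigmaHom (M * p) K)
        (sigmaHom_algebraMap (M * p) K) (sigmaHom_mem_fracField (M * p) K A)
        (u4E M K h4) (u4 (OE A K)) (hσu_u4 M p K h4)) ≤ y ∧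
      (∀ c, rInf4 M p A K hA hred π hπ h4 c ∈ w) ∧
      (∀ c, c ∉ y → (rInf4 M p A K hA hred π hπ h4 c)⁻¹ ∈ w) ∧
      (∀ c, c ∈ y → rInf4 M p A K hA hred π hπ h4 c = 0 ∨
        (rInf4 M p A K hA hred π hπ h4 c)⁻¹ ∉ w) ∧
      incl (alphaHom M p K) (alphaHom_algebraMap M p K) (u4E M K h4)
        (polyChart (u4E M K h4) X) ∉ y ∧
      incl (alphaHom M p K) (alphaHom_algebraMap M p K) (u4E M K h4)
        (polyChart (u4E M K h4) X) + 16 ∉ y := by
  letI := algebraOL (OE A K) K (LE M K)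
  letI := algebraOL (OE A K) K (LE (M * p) K)
  haveI := isScalarTower_OL (OE A K) K (LE M K)
  haveI := isScalarTower_OL (OE A K) K (LE (M * p) K)
  exact finite_chart (Fact.out : p.Prime) hA hp2 h4 (constSub M A K)
    (constSub_const M A K) w hw hfin (alphaHom M p K (u4E M K h4))
    (rInf4 M p A K hA hred π hπ h4)
    (hκr4 M p A K hA hred π hπ h4 (constSub M A K) (constSub_le M A K))
    (hur4 M p A K hA hred π hπ h4 (CentreU4.ub M A h4) (CentreU4.coe_ub M A h4))
    (hint4 M p A K hA hred π hπ h4 (constSub M A K) (le_constSub M A K)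
      (CentreU4.ub M A h4) (CentreU4.coe_ub M A h4))
    _ (ker_rInf4 M p A K hA hred π hπ h4) _ (rInf4_uC_eq M p A K hA hred π hπ h4)

/-- **The centre of a cuspidal place with `ū₄` finite** on the `u₄`-chart: a maximal ideal
`y ⊇ p_∞` with `U ∈ y` or `U + 16 ∈ y`. -/
theorem centre_cusp (hp2 : p ≠ 2) (w : ValuationSubring (redField M A))
    (hfin : ¬ Top.IsFinitePl M A w) (hu : CentreU4.ub M A h4 ∈ w) :
    letI := algebraOL (OE A K) K (LE M K)
    letI := algebraOL (OE A K) K (LE (M * p) K)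
    haveI := isScalarTower_OL (OE A K) K (LE M K)
    haveI := isScalarTower_OL (OE A K) K (LE (M * p) K)
    ∃ y : Ideal (Chart (OE A K) (alphaHom M p K (u4E M K h4))), y.IsMaximal ∧
      RingHom.ker (redInf π hπ (alphaHom M p K) (sigmaHom (M * p) K)
        (sigmaHom_algebraMap (M * p) K) (sigmaHom_mem_fracField (M * p) K A)
        (u4E M K h4) (u4 (OE A K)) (hσu_u4 M p K h4)) ≤ y ∧
      (∀ c, rInf4 M p A K hA hred π hπ h4 c ∈ w) ∧
      (∀ c, c ∉ y → (rInf4 M p A K hA hred π hπ h4 c)⁻¹ ∈ w) ∧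
      (∀ c, c ∈ y → rInf4 M p A K hA hred π hπ h4 c = 0 ∨
        (rInf4 M p A K hA hred π hπ h4 c)⁻¹ ∉ w) ∧
      (incl (alphaHom M p K) (alphaHom_algebraMap M p K) (u4E M K h4)
        (polyChart (u4E M K h4) X) ∈ y ∨
      incl (alphaHom M p K) (alphaHom_algebraMap M p K) (u4E M K h4)
        (polyChart (u4E M K h4) X) + 16 ∈ y) := by
  letI := algebraOL (OE A K) K (LE M K)
  letI := algebraOL (OE A K) K (LE (M * p) K)
  haveI := isScalarTower_OL (OE A K) K (LE M K)
  haveI := isScalarTower_OL (OE A K) K (LE (M * p) K)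
  exact cusp_chart (Fact.out : p.Prime) hA hp2 h4 (constSub M A K)
    (constSub_const M A K) w hfin hu (alphaHom M p K (u4E M K h4))
    (rInf4 M p A K hA hred π hπ h4)
    (hκr4 M p A K hA hred π hπ h4 (constSub M A K) (constSub_le M A K))
    (hur4 M p A K hA hred π hπ h4 (CentreU4.ub M A h4) (CentreU4.coe_ub M A h4))
    (hint4 M p A K hA hred π hπ h4 (constSub M A K) (le_constSub M A K)
      (CentreU4.ub M A h4) (CentreU4.coe_ub M A h4))
    _ (ker_rInf4 M p A K hA hred π hπ h4) _ (rInf4_uC_eq M p A K hA hred π hπ h4)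

/-- **The centre of a place with `ū₄ = ∞`** on the chart at infinity: a maximal ideal
`y ⊇ p_∞` with `1/U ∈ y`. -/
theorem centre_inf (w : ValuationSubring (redField M A)) (hu : CentreU4.ub M A h4 ∉ w) :
    letI := algebraOL (OE A K) K (LE M K)
    letI := algebraOL (OE A K) K (LE (M * p) K)
    haveI := isScalarTower_OL (OE A K) K (LE M K)
    haveI := isScalarTower_OL (OE A K) K (LE (M * p) K)
    ∃ y : Ideal (Chart (OE A K) (alphaHom M p K (u4E M K h4)⁻¹)), y.IsMaximal ∧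
      RingHom.ker (redInf π hπ (alphaHom M p K) (sigmaHom (M * p) K)
        (sigmaHom_algebraMap (M * p) K) (sigmaHom_mem_fracField (M * p) K A)
        (u4E M K h4)⁻¹ (HauptU.E.posO (OE A K) Fermat.Agent.S36.SqChart.Coord4.s4Z)
        (Fermat.Agent.S36.SqChart.Coord4.hσ1u_s4 M K p h4)) ≤ y ∧
      (∀ c, rInf4Inf M p A K hA hred π hπ h4 c ∈ w) ∧
      (∀ c, c ∉ y → (rInf4Inf M p A K hA hred π hπ h4 c)⁻¹ ∈ w) ∧
      (∀ c, c ∈ y → rInf4Inf M p A K hA hred π hπ h4 c = 0 ∨
        (rInf4Inf M p A K hA hred π hπ h4 c)⁻¹ ∉ w) ∧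
      incl (alphaHom M p K) (alphaHom_algebraMap M p K) (u4E M K h4)⁻¹
        (polyChart (u4E M K h4)⁻¹ X) ∈ y := by
  letI := algebraOL (OE A K) K (LE M K)
  letI := algebraOL (OE A K) K (LE (M * p) K)
  haveI := isScalarTower_OL (OE A K) K (LE M K)
  haveI := isScalarTower_OL (OE A K) K (LE (M * p) K)
  exact inf_chart (Fact.out : p.Prime) hA h4 (constSub M A K)
    (constSub_const M A K) w hu (alphaHom M p K (u4E M K h4)⁻¹)
    (rInf4Inf M p A K hA hred π hπ h4)
    (hκr4Inf M p A K hA hred π hπ h4 (constSub M A K) (constSub_le M A K))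
    (hur4Inf M p A K hA hred π hπ h4 (CentreU4.ub M A h4) (CentreU4.coe_ub M A h4))
    (hint4Inf M p A K hA hred π hπ h4 (constSub M A K) (le_constSub M A K)
      (CentreU4.ub M A h4) (CentreU4.coe_ub M A h4))
    _ (ker_rInf4Inf M p A K hA hred π hπ h4) _ (rInf4Inf_tC_eq M p A K hA hred π hπ h4)

end Fermat.Agent.S44.L.CentreAtU4
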