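import Mathlib

/-!
# Program MR (S44), strand L: the cocycle core of (★)

Level-free algebra (Mathlib only).  `Ω` is a field (the function field of the `ℤ/p`-cover over
`ℚ̄`), `g` a field endomorphism (the deck transformation), `τ` a field endomorphism commuting
with `g` (an inertia element acting through the constants).  Data:

* `s ^ p = t`, `g s = z * s`  (the Kummer generator of the cover by the toric class `t`);
* `F' = c * x * H ^ p` with `c` a constant  (the descended representative `F'` of the pull-back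
  of the class `x`);
* `τ F' = F'`  (`F'` is defined over the unramified base);
* `τ x = cτ * x * t ^ a * kτ ^ p` with `cτ` a constant and `kτ` fixed by `g`
  (`σ R = R + a T` on the `E`-side).

Then `G₀ := g H / H` satisfies `G₀ ^ p = g F' / F'` (`ratio_pow`) and
`z ^ a * τ G₀ = G₀` (`pow_mul_map_ratio`): the Kummer cocycle of the constant
`g F' / F' = G₀ ^ p` is `τ ↦ z ^ (-a τ)`.  If moreover `b` is a constant with `τ b = ζ ^ a * b`
for the same `a` and `z = ζ ^ m` (`EShape`: `b ^ p` a unit), then `G := G₀ * b ^ m` is fixed by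
every `τ` and `g F' * (b ^ p) ^ m = F' * G ^ p` (`exists_fixed_pow`): the constant relating
`g F'` and `F'` modulo `p`-th powers of the descended field is the UNIT `(b ^ p) ^ m`.
-/

set_option autoImplicit false

namespace Fermat.Agent.S44.L.CocycleCore

variable {Ω : Type*} [Field Ω]

/-- `(g H / H) ^ p = g F' / F'` for `F' = c * x * H ^ p` with `c`, `x` fixed by `g`. -/
theorem ratio_pow (p : ℕ) (g : Ω →+* Ω) {x c H F' : Ω} (hgx : g x = x) (hgc : g c = c)
    (hF : F' = c * x * H ^ p) (hx0 : x ≠ 0) (hc0 : c ≠ 0) (hH0 : H ≠ 0) :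
    (g H / H) ^ p = g F' / F' := by
  have hgF : g F' = c * x * g H ^ p := by
    rw [hF, map_mul, map_mul, map_pow, hgx, hgc]
  have hHp : H ^ p ≠ 0 := pow_ne_zero _ hH0
  rw [hgF, hF, div_pow]
  field_simp

/-- **The cocycle identity.**  See the module docstring.  The only use of "constants" is the
hypothesis `hroot`: the `p`-th roots of the constant `c / (τ c * cτ)` are fixed by `g`. -/
theorem pow_mul_map_ratio (p : ℕ) (g τ : Ω →+* Ω) (hcomm : ∀ y, g (τ y) = τ (g y))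
    {s t x c H F' z cτ kτ : Ω} {a : ℕ}
    (hs0 : s ≠ 0) (hH0 : H ≠ 0) (hx0 : x ≠ 0) (hc0 : c ≠ 0) (hk0 : kτ ≠ 0) (hcτ0 : cτ ≠ 0)
    (hst : s ^ p = t) (hgs : g s = z * s) (hgk : g kτ = kτ)
    (hF : F' = c * x * H ^ p) (hτF : τ F' = F')
    (hτx : τ x = cτ * x * t ^ a * kτ ^ p)
    (hroot : ∀ e : Ω, e ^ p = c / (τ c * cτ) → g e = e) :
    z ^ a * τ (g H / H) = g H / H := by
  have hτc0 : τ c ≠ 0 := (map_ne_zero τ).mpr hc0
  have hτH0 : τ H ≠ 0 := (map_ne_zero τ).mpr hH0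
  have hgH0 : g H ≠ 0 := (map_ne_zero g).mpr hH0
  have ht0 : t ≠ 0 := hst ▸ pow_ne_zero _ hs0
  have hsa0 : s ^ a ≠ 0 := pow_ne_zero _ hs0
  -- the `p`-th power of `τ H`
  have h1 : τ c * (cτ * x * t ^ a * kτ ^ p) * τ H ^ p = c * x * H ^ p := by
    have h := hτF
    rw [hF, map_mul, map_mul, map_pow, hτx] at h
    exact h
  -- the auxiliary constant
  set e : Ω := τ H * kτ * s ^ a / H with he
  have hep : e ^ p = c / (τ c * cτ) := by
    have hsp : (s ^ a) ^ p = t ^ a := by rw [← pow_mul, mul_comm, pow_mul, hst]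
    rw [he, div_pow, mul_pow, mul_pow, hsp]
    rw [div_eq_div_iff (pow_ne_zero _ hH0) (mul_ne_zero hτc0 hcτ0)]
    apply mul_right_cancel₀ hx0
    linear_combination h1
  have hge : g e = e := hroot e hep
  have h2 : g (τ H) * kτ * (z * s) ^ a / g H = τ H * kτ * s ^ a / H := by
    have h : g e = g (τ H) * kτ * (z * s) ^ a / g H := by
      rw [he, map_div₀, map_mul, map_mul, map_pow, hgk, hgs]
    rw [← h, hge]
  have h3 : g (τ H) * z ^ a * H = τ H * g H := by
    rw [div_eq_div_iff hgH0 hH0, mul_pow] at h2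
    have hk : kτ * s ^ a ≠ 0 := mul_ne_zero hk0 hsa0
    apply mul_right_cancel₀ hk
    linear_combination h2
  rw [map_div₀, ← hcomm H, mul_div_assoc', div_eq_div_iff hτH0 hH0]
  linear_combination h3

/-- **Unit form of the descent congruence.**  With a constant `b` on which every `τ ∈ I` acts by
`τ b = ζ ^ a * b` for the SAME exponent `a` as in `τ x = cτ * x * t ^ a * kτ ^ p`, and
`z = ζ ^ m`: the element `G := (g H / H) * b ^ m` is fixed by all `τ ∈ I` and
`g F' * (b ^ p) ^ m = F' * G ^ p`. -/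
theorem exists_fixed_pow (p : ℕ) (g : Ω →+* Ω) (I : Set (Ω →+* Ω))
    (hcomm : ∀ τ ∈ I, ∀ y, g (τ y) = τ (g y))
    {s t x c H F' z ζ b : Ω} {m : ℕ}
    (hs0 : s ≠ 0) (hH0 : H ≠ 0) (hx0 : x ≠ 0) (hc0 : c ≠ 0) (hb0 : b ≠ 0)
    (hst : s ^ p = t) (hgs : g s = z * s) (hz : z = ζ ^ m)
    (hgx : g x = x) (hgc : g c = c)
    (hF : F' = c * x * H ^ p)
    (hI : ∀ τ ∈ I, τ F' = F' ∧ ∃ (a : ℕ) (cτ kτ : Ω), cτ ≠ 0 ∧ kτ ≠ 0 ∧ g kτ = kτ ∧
      τ x = cτ * x * t ^ a * kτ ^ p ∧ τ b = ζ ^ a * b ∧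
      ∀ e : Ω, e ^ p = c / (τ c * cτ) → g e = e) :
    ∃ G : Ω, G ≠ 0 ∧ (∀ τ ∈ I, τ G = G) ∧ g F' * (b ^ p) ^ m = F' * G ^ p := by
  have hgH0 : g H ≠ 0 := (map_ne_zero g).mpr hH0
  have hF0 : F' ≠ 0 := by
    rw [hF]
    exact mul_ne_zero (mul_ne_zero hc0 hx0) (pow_ne_zero _ hH0)
  refine ⟨g H / H * b ^ m, mul_ne_zero (div_ne_zero hgH0 hH0) (pow_ne_zero _ hb0), ?_, ?_⟩
  · intro τ hτ
    obtain ⟨hτF, a, cτ, kτ, hcτ0, hk0, hgk, hτx, hτb, hroot⟩ := hI τ hτ
    have h := pow_mul_map_ratio p g τ (hcomm τ hτ) hs0 hH0 hx0 hc0 hk0 hcτ0 hst hgs hgk hF hτF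
      hτx hroot
    rw [map_mul, map_pow, hτb, mul_pow, ← pow_mul, mul_comm a m, pow_mul, ← hz]
    calc τ (g H / H) * (z ^ a * b ^ m) = z ^ a * τ (g H / H) * b ^ m := by ring
      _ = g H / H * b ^ m := by rw [h]
  · have h := ratio_pow p g hgx hgc hF hx0 hc0 hH0
    have hb : (b ^ p) ^ m = (b ^ m) ^ p := by rw [← pow_mul, ← pow_mul, mul_comm]
    rw [mul_pow, h, hb]
    field_simp

end Fermat.Agent.S44.L.CocycleCore
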