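import Mathlib
import Fermat.Agent.S34.Conn

/-!
# Program MR (S44), strand L: connectedness of the special fibre, RADICAL form

Level-free variant of `Fermat.Agent.S34.Conn.separated_trivial` (helper41).

The landed `separated_trivial` assumes that the special fibre of the normal model of `L` is
REDUCED (`hred0`, `hredinf`: an integral element lying in the maximal ideal of every component is
divisible by `π`).  For a degree-`p` Kummer extension `T ^ p = H` in residue characteristic `p`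
over an unramified base this fails: over each vertical valuation there is one split sheet and one
sheet of ramification index `p - 1`.  Here the hypothesis is weakened to

  `x` integral over the chart, `x ∈ 𝔪_W` for all `W ∈ 𝒱`  ⟹  `x ^ N / π` integral for some `N`

(true for every normal model: `𝒱` = all components, with multiplicities).  The proof lifts the
idempotents modulo the radical (`E = 1 - (1 - e ^ N) ^ N`) and then calls the landed
`CechP1.connected`.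

* `PiDiv S π x` : `x ∈ π · (integral closure of S)`.
* `piDiv_lift_sq_sub` : the idempotent lift.
* `piDiv_of_pow_of_cube` : an element `d` with `d ^ 3 ≡ d` and `d ^ M ≡ 0` modulo `π` is `≡ 0`.
* `separated_trivial_rad` : **connectedness, radical form**.
-/

set_option autoImplicit false

namespace Fermat.Agent.S44.L.ConnRad

open Fermat.Agent.S30.Model Fermat.Agent.S34.Conn

variable {O L : Type*} [CommRing O] [Field L] [Algebra O L]

/-- `x` is `π` times an element integral over `S`. -/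
def PiDiv (S : Subalgebra O L) (π : O) (x : L) : Prop :=
  ∃ w : L, IsIntegral S w ∧ x = algebraMap O L π * w

namespace PiDiv

variable {S T : Subalgebra O L} {π : O} {x y : L}

theorem add (hx : PiDiv S π x) (hy : PiDiv S π y) : PiDiv S π (x + y) := by
  obtain ⟨w, hw, rfl⟩ := hx
  obtain ⟨w', hw', rfl⟩ := hy
  exact ⟨w + w', hw.add hw', by ring⟩

theorem neg (hx : PiDiv S π x) : PiDiv S π (-x) := by
  obtain ⟨w, hw, rfl⟩ := hx
  exact ⟨-w, hw.neg, by ring⟩

theorem sub (hx : PiDiv S π x) (hy : PiDiv S π y) : PiDiv S π (x - y) := by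
  obtain ⟨w, hw, rfl⟩ := hx
  obtain ⟨w', hw', rfl⟩ := hy
  exact ⟨w - w', hw.sub hw', by ring⟩

theorem mul_right (hx : PiDiv S π x) (hy : IsIntegral S y) : PiDiv S π (x * y) := by
  obtain ⟨w, hw, rfl⟩ := hx
  exact ⟨w * y, hw.mul hy, by ring⟩

theorem mul_left (hy : IsIntegral S y) (hx : PiDiv S π x) : PiDiv S π (y * x) := by
  rw [mul_comm]; exact hx.mul_right hy

theorem mono (h : S ≤ T) (hx : PiDiv S π x) : PiDiv T π x := by
  obtain ⟨w, hw, rfl⟩ := hx
  exact ⟨w, CechP1.isIntegral_mono h hw, rfl⟩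

end PiDiv

/-! ### The idempotent lift -/

section Lift

variable (S : Subalgebra O L) (π : O)

theorem isIntegral_geom_sum {e : L} (he : IsIntegral S e) (n : ℕ) :
    IsIntegral S (∑ i ∈ Finset.range n, e ^ i) :=
  IsIntegral.sum _ fun i _ => he.pow i

/-- The lift `E = 1 - (1 - e ^ N) ^ N` is a multiple of `e ^ N`. -/
theorem lift_eq_mul (e : L) (N : ℕ) :
    1 - (1 - e ^ N) ^ N = (∑ i ∈ Finset.range N, (1 - e ^ N) ^ i) * e ^ N := by
  have h1 := geom_sum_mul (1 - e ^ N) N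
  linear_combination h1

/-- `1 - e ^ N` is a multiple of `1 - e`. -/
theorem one_sub_pow_eq_mul (e : L) (N : ℕ) :
    1 - e ^ N = (∑ i ∈ Finset.range N, e ^ i) * (1 - e) := by
  have h2 := geom_sum_mul e N
  linear_combination h2

/-- The lift is idempotent modulo `(e ^ 2 - e) ^ N`. -/
theorem lift_sq_sub (e : L) (N : ℕ) :
    (1 - (1 - e ^ N) ^ N) ^ 2 - (1 - (1 - e ^ N) ^ N) =
      (e ^ 2 - e) ^ N * (-((∑ i ∈ Finset.range N, (1 - e ^ N) ^ i) *
        (∑ i ∈ Finset.range N, e ^ i) ^ N * (-1) ^ N)) := by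
  have hE := lift_eq_mul e N
  have hz := one_sub_pow_eq_mul e N
  have hz' : (1 - e ^ N) ^ N = (∑ i ∈ Finset.range N, e ^ i) ^ N * ((-1) ^ N * (e - 1) ^ N) := by
    rw [hz, mul_pow, ← neg_pow, neg_sub]
  have he2 : (e ^ 2 - e) ^ N = e ^ N * (e - 1) ^ N := by
    rw [← mul_pow]; congr 1; ring
  set G := ∑ i ∈ Finset.range N, (1 - e ^ N) ^ i with hG
  set Q := ∑ i ∈ Finset.range N, e ^ i with hQ
  have key : (1 - (1 - e ^ N) ^ N) ^ 2 - (1 - (1 - e ^ N) ^ N)
      = -((1 - (1 - e ^ N) ^ N) * (1 - e ^ N) ^ N) := by ring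
  rw [key, he2]
  rw [hE, hz']
  ring

theorem piDiv_lift_sq_sub {e : L} (he : IsIntegral S e) {N : ℕ}
    (h : PiDiv S π ((e ^ 2 - e) ^ N)) :
    PiDiv S π ((1 - (1 - e ^ N) ^ N) ^ 2 - (1 - (1 - e ^ N) ^ N)) := by
  rw [lift_sq_sub]
  refine h.mul_right (IsIntegral.neg ?_)
  refine ((isIntegral_geom_sum S ?_ N).mul ((isIntegral_geom_sum S he N).pow N)).mul ?_
  · exact isIntegral_one.sub (he.pow N)
  · exact (isIntegral_one.neg).pow N

theorem isIntegral_lift {e : L} (he : IsIntegral S e) (N : ℕ) :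
    IsIntegral S (1 - (1 - e ^ N) ^ N) :=
  isIntegral_one.sub ((isIntegral_one.sub (he.pow N)).pow N)

end Lift

/-! ### Idempotents congruent modulo the radical -/

section Cube

variable (S : Subalgebra O L) (π : O)

theorem piDiv_cube_sub {a b : L} (ha : IsIntegral S a) (hb : IsIntegral S b)
    (ha2 : PiDiv S π (a ^ 2 - a)) (hb2 : PiDiv S π (b ^ 2 - b)) :
    PiDiv S π ((a - b) ^ 3 - (a - b)) := by
  have e : (a - b) ^ 3 - (a - b)
      = (a ^ 2 - a) * (a + 1 - 3 * b) + (b ^ 2 - b) * (3 * a - b - 1) := by ring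
  rw [e]
  have h3 : IsIntegral S (3 : L) := by
    have : (3 : L) = 1 + 1 + 1 := by norm_num
    rw [this]; exact (isIntegral_one.add isIntegral_one).add isIntegral_one
  exact (ha2.mul_right (((ha.add isIntegral_one).sub (h3.mul hb)))).add
    (hb2.mul_right (((h3.mul ha).sub hb).sub isIntegral_one))

theorem piDiv_pow_three_pow_sub {d : L} (hd : IsIntegral S d)
    (h3 : PiDiv S π (d ^ 3 - d)) (k : ℕ) : PiDiv S π (d ^ 3 ^ k - d) := by
  induction k with
  | zero => exact ⟨0, isIntegral_zero, by simp⟩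
  | succ k ih =>
    have e : d ^ 3 ^ (k + 1) - d
        = (d ^ 3 ^ k - d) * ((d ^ 3 ^ k) ^ 2 + d ^ 3 ^ k * d + d ^ 2) + (d ^ 3 - d) := by
      rw [pow_succ 3 k, pow_mul]; ring
    rw [e]
    exact (ih.mul_right ((((hd.pow _).pow 2).add ((hd.pow _).mul hd)).add (hd.pow 2))).add h3

/-- If `d ^ 3 ≡ d` and `d ^ M ≡ 0` modulo `π`, then `d ≡ 0` modulo `π`. -/
theorem piDiv_of_pow_of_cube {d : L} (hd : IsIntegral S d)
    (h3 : PiDiv S π (d ^ 3 - d)) {M : ℕ} (hM : PiDiv S π (d ^ M)) : PiDiv S π d := by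
  have hlt : M ≤ 3 ^ M := (Nat.lt_pow_self (by norm_num : 1 < 3)).le
  have h1 : PiDiv S π (d ^ 3 ^ M) := by
    have e : d ^ 3 ^ M = d ^ M * d ^ (3 ^ M - M) := by
      rw [← pow_add, Nat.add_sub_cancel' hlt]
    rw [e]
    exact hM.mul_right (hd.pow _)
  have h2 := piDiv_pow_three_pow_sub S π hd h3 M
  have e : d = d ^ 3 ^ M - (d ^ 3 ^ M - d) := by ring
  rw [e]
  exact h1.sub h2

end Cube

/-! ### Connectedness, radical form -/

section Main

/-- The radical hypothesis on the overlap follows from the one on the chart `u`. -/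
theorem rad_overlap (π : O) (u : L) (hu : u ≠ 0) (𝒱 : Set (ValuationSubring L))
    (hu𝒱 : ∀ W ∈ 𝒱, u ∈ W ∧ u⁻¹ ∈ W)
    (hrad0 : ∀ x : L, IsIntegral (Algebra.adjoin O ({u} : Set L)) x →
      (∀ W ∈ 𝒱, x ∈ W.nonunits) →
      ∃ N : ℕ, IsIntegral (Algebra.adjoin O ({u} : Set L)) (x ^ N / algebraMap O L π))
    (x : L) (hx : IsIntegral (Algebra.adjoin O ({u, u⁻¹} : Set L)) x)
    (hx𝒱 : ∀ W ∈ 𝒱, x ∈ W.nonunits) :
    ∃ N : ℕ, IsIntegral (Algebra.adjoin O ({u, u⁻¹} : Set L)) (x ^ N / algebraMap O L π) := by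
  obtain ⟨n, hn⟩ := CechP1.exists_pow_mul_isIntegral u hu x hx
  obtain ⟨N, hN⟩ := hrad0 _ hn fun W hW =>
    mul_mem_nonunits' W (pow_mem (hu𝒱 W hW).1 n) (hx𝒱 W hW)
  refine ⟨N, ?_⟩
  have h2 : IsIntegral (Algebra.adjoin O ({u, u⁻¹} : Set L))
      ((u ^ n * x) ^ N / algebraMap O L π) :=
    CechP1.isIntegral_mono (Algebra.adjoin_mono (by simp)) hN
  have h3 : IsIntegral (Algebra.adjoin O ({u, u⁻¹} : Set L)) (u⁻¹ ^ (n * N)) :=
    (CechP1.isIntegral_adjoin_of_mem (Algebra.subset_adjoin (by simp))).pow _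
  have e : x ^ N / algebraMap O L π = u⁻¹ ^ (n * N) * ((u ^ n * x) ^ N / algebraMap O L π) := by
    have h4 : u⁻¹ ^ (n * N) * (u ^ n) ^ N = 1 := by
      rw [pow_mul, ← mul_pow, ← mul_pow, inv_mul_cancel₀ hu, one_pow, one_pow]
    calc x ^ N / algebraMap O L π
        = (u⁻¹ ^ (n * N) * (u ^ n) ^ N) * x ^ N / algebraMap O L π := by rw [h4, one_mul]
      _ = u⁻¹ ^ (n * N) * ((u ^ n * x) ^ N / algebraMap O L π) := by rw [mul_pow]; ring
  rw [e]
  exact h3.mul h2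

/-- From the radical hypothesis: a power (with positive exponent) is divisible by `π`. -/
theorem exists_piDiv_pow (S : Subalgebra O L) (π : O) (hπL : algebraMap O L π ≠ 0) {x : L}
    (hx : IsIntegral S x) (h : ∃ N : ℕ, IsIntegral S (x ^ N / algebraMap O L π)) :
    ∃ M : ℕ, 0 < M ∧ PiDiv S π (x ^ M) := by
  obtain ⟨N, hN⟩ := h
  refine ⟨N + 1, Nat.succ_pos N, x ^ N / algebraMap O L π * x, hN.mul hx, ?_⟩
  rw [pow_succ]
  field_simp

/-- **Connectedness of the special fibre, radical form.**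
Same statement as `S34.Conn.separated_trivial`, but the special fibre of the normal model of `L`
need not be reduced: an integral element lying in the maximal ideal of every component has a
POWER divisible by `π` (`hrad0`, `hradinf`). -/
theorem separated_trivial_rad [IsNoetherianRing O] (π : O) (hπ : Prime π)
    (hinj : Function.Injective (algebraMap O L))
    (hOL : ∀ x : L, IsIntegral O x → ∃ a : O, algebraMap O L a = x)
    (u : L) (hu : u ≠ 0)
    [Module.Finite (Algebra.adjoin O ({u} : Set L))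
      (integralClosure (Algebra.adjoin O ({u} : Set L)) L)]
    (𝒱 : Set (ValuationSubring L)) (hfin : 𝒱.Finite)
    (hO𝒱 : ∀ W ∈ 𝒱, ∀ a : O, algebraMap O L a ∈ W)
    (hu𝒱 : ∀ W ∈ 𝒱, u ∈ W ∧ u⁻¹ ∈ W)
    (hπ𝒱 : ∀ W ∈ 𝒱, algebraMap O L π ∈ W.nonunits)
    (hrad0 : ∀ x : L, IsIntegral (Algebra.adjoin O ({u} : Set L)) x →
      (∀ W ∈ 𝒱, x ∈ W.nonunits) →
      ∃ N : ℕ, IsIntegral (Algebra.adjoin O ({u} : Set L)) (x ^ N / algebraMap O L π))
    (hradinf : ∀ x : L, IsIntegral (Algebra.adjoin O ({u⁻¹} : Set L)) x →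
      (∀ W ∈ 𝒱, x ∈ W.nonunits) →
      ∃ N : ℕ, IsIntegral (Algebra.adjoin O ({u⁻¹} : Set L)) (x ^ N / algebraMap O L π))
    (Z : Set (ValuationSubring L))
    (hsep0 : ∀ W ∈ 𝒱, ∀ W' ∈ 𝒱, W ∈ Z → W' ∉ Z →
      Comax (Algebra.adjoin O ({u} : Set L)) W W')
    (hsepinf : ∀ W ∈ 𝒱, ∀ W' ∈ 𝒱, W ∈ Z → W' ∉ Z →
      Comax (Algebra.adjoin O ({u⁻¹} : Set L)) W W') :
    (∀ W ∈ 𝒱, W ∈ Z) ∨ (∀ W ∈ 𝒱, W ∉ Z) := by
  classical
  by_contra hcon
  rw [not_or] at hcon
  obtain ⟨h1, h2⟩ := hcon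
  push Not at h1 h2
  obtain ⟨W1, hW1, hW1Z⟩ := h1
  obtain ⟨W2, hW2, hW2Z⟩ := h2
  have hπL : algebraMap O L π ≠ 0 := fun h => hπ.ne_zero (hinj (by rw [h, map_zero]))
  set S0 : Subalgebra O L := Algebra.adjoin O ({u} : Set L) with hS0
  set S1 : Subalgebra O L := Algebra.adjoin O ({u⁻¹} : Set L) with hS1
  set S01 : Subalgebra O L := Algebra.adjoin O ({u, u⁻¹} : Set L) with hS01
  set A : Finset (ValuationSubring L) := hfin.toFinset.filter (· ∈ Z) with hA
  set B : Finset (ValuationSubring L) := hfin.toFinset.filter (· ∉ Z) with hB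
  have hA' : ∀ W, W ∈ A ↔ W ∈ 𝒱 ∧ W ∈ Z := fun W => by
    rw [hA, Finset.mem_filter, Set.Finite.mem_toFinset]
  have hB' : ∀ W, W ∈ B ↔ W ∈ 𝒱 ∧ W ∉ Z := fun W => by
    rw [hB, Finset.mem_filter, Set.Finite.mem_toFinset]
  have hle0 : S0 ≤ S01 := Algebra.adjoin_mono (by simp)
  have hleinf : S1 ≤ S01 := Algebra.adjoin_mono (by simp)
  have hint01 : ∀ W ∈ 𝒱, ∀ x : L, IsIntegral S01 x → x ∈ W :=
    fun W hW x hx => mem_of_isIntegral_overlap W u (hO𝒱 W hW) (hu𝒱 W hW) hx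
  have hint0 : ∀ W ∈ 𝒱, ∀ x : L, IsIntegral S0 x → x ∈ W :=
    fun W hW x hx => hint01 W hW x (CechP1.isIntegral_mono hle0 hx)
  have hintinf : ∀ W ∈ 𝒱, ∀ x : L, IsIntegral S1 x → x ∈ W :=
    fun W hW x hx => hint01 W hW x (CechP1.isIntegral_mono hleinf hx)
  obtain ⟨e0, he0, he0A, he0B⟩ := exists_sep S0 A B
    (fun W hW => hint0 W ((hA' W).mp hW).1) (fun W hW => hint0 W ((hB' W).mp hW).1)
    (fun W hW W' hW' => hsep0 W ((hA' W).mp hW).1 W' ((hB' W').mp hW').1 ((hA' W).mp hW).2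
      ((hB' W').mp hW').2)
  obtain ⟨e1, he1, he1A, he1B⟩ := exists_sep S1 A B
    (fun W hW => hintinf W ((hA' W).mp hW).1) (fun W hW => hintinf W ((hB' W).mp hW).1)
    (fun W hW W' hW' => hsepinf W ((hA' W).mp hW).1 W' ((hB' W').mp hW').1 ((hA' W).mp hW).2
      ((hB' W').mp hW').2)
  -- idempotent modulo the maximal ideals of all components
  have hidem : ∀ (e : L) (W : ValuationSubring L), W ∈ 𝒱 → (W ∈ A → e ∈ W.nonunits) →
      (W ∈ B → e - 1 ∈ W.nonunits) → e ^ 2 - e ∈ W.nonunits := by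
    intro e W hW hAe hBe
    have e' : e ^ 2 - e = e * (e - 1) := by ring
    rw [e']
    by_cases hZ : W ∈ Z
    · have h := hAe ((hA' W).mpr ⟨hW, hZ⟩)
      exact mul_mem_nonunits W h (sub_mem (mem_of_mem_nonunits W h) W.one_mem)
    · have h := hBe ((hB' W).mpr ⟨hW, hZ⟩)
      exact mul_mem_nonunits' W (mem_of_sub_one_mem W h) h
  -- the lifts
  obtain ⟨N0, hN0pos, hN0⟩ := exists_piDiv_pow S0 π hπL ((he0.pow 2).sub he0)
    (hrad0 _ ((he0.pow 2).sub he0) fun W hW => hidem e0 W hW (he0A W) (he0B W))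
  obtain ⟨N1, hN1pos, hN1⟩ := exists_piDiv_pow S1 π hπL ((he1.pow 2).sub he1)
    (hradinf _ ((he1.pow 2).sub he1) fun W hW => hidem e1 W hW (he1A W) (he1B W))
  set E0 : L := 1 - (1 - e0 ^ N0) ^ N0 with hE0
  set E1 : L := 1 - (1 - e1 ^ N1) ^ N1 with hE1
  have hE0int : IsIntegral S0 E0 := isIntegral_lift S0 he0 N0
  have hE1int : IsIntegral S1 E1 := isIntegral_lift S1 he1 N1
  have h0 : PiDiv S0 π (E0 ^ 2 - E0) := piDiv_lift_sq_sub S0 π he0 hN0
  have h1 : PiDiv S1 π (E1 ^ 2 - E1) := piDiv_lift_sq_sub S1 π he1 hN1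
  -- values of the lifts on the components
  have hliftA : ∀ (S : Subalgebra O L) (e : L) (N : ℕ), 0 < N → IsIntegral S e →
      ∀ W : ValuationSubring L, (∀ x : L, IsIntegral S x → x ∈ W) → e ∈ W.nonunits →
        1 - (1 - e ^ N) ^ N ∈ W.nonunits := by
    intro S e N hN he W hW hmem
    rw [lift_eq_mul]
    refine mul_mem_nonunits' W (hW _ (isIntegral_geom_sum S (isIntegral_one.sub (he.pow N)) N)) ?_
    obtain ⟨n, rfl⟩ : ∃ n, N = n + 1 := ⟨N - 1, by omega⟩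
    rw [pow_succ]
    exact mul_mem_nonunits' W (pow_mem (mem_of_mem_nonunits W hmem) n) hmem
  have hliftB : ∀ (S : Subalgebra O L) (e : L) (N : ℕ), 0 < N → IsIntegral S e →
      ∀ W : ValuationSubring L, (∀ x : L, IsIntegral S x → x ∈ W) → e - 1 ∈ W.nonunits →
        1 - (1 - e ^ N) ^ N - 1 ∈ W.nonunits := by
    intro S e N hN he W hW hmem
    have hz : 1 - e ^ N ∈ W.nonunits := by
      rw [one_sub_pow_eq_mul]
      have h' : (1 : L) - e = -(e - 1) := by ring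
      rw [h']
      exact mul_mem_nonunits' W (hW _ (isIntegral_geom_sum S he N)) (neg_mem hmem)
    have e' : 1 - (1 - e ^ N) ^ N - 1 = -(1 - e ^ N) ^ N := by ring
    rw [e']
    obtain ⟨n, rfl⟩ : ∃ n, N = n + 1 := ⟨N - 1, by omega⟩
    rw [pow_succ]
    exact neg_mem (mul_mem_nonunits' W (pow_mem (mem_of_mem_nonunits W hz) n) hz)
  have hE0A : ∀ W ∈ A, E0 ∈ W.nonunits := fun W hW =>
    hliftA S0 e0 N0 hN0pos he0 W (hint0 W ((hA' W).mp hW).1) (he0A W hW)
  have hE0B : ∀ W ∈ B, E0 - 1 ∈ W.nonunits := fun W hW =>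
    hliftB S0 e0 N0 hN0pos he0 W (hint0 W ((hB' W).mp hW).1) (he0B W hW)
  have hE1A : ∀ W ∈ A, E1 ∈ W.nonunits := fun W hW =>
    hliftA S1 e1 N1 hN1pos he1 W (hintinf W ((hA' W).mp hW).1) (he1A W hW)
  have hE1B : ∀ W ∈ B, E1 - 1 ∈ W.nonunits := fun W hW =>
    hliftB S1 e1 N1 hN1pos he1 W (hintinf W ((hB' W).mp hW).1) (he1B W hW)
  -- agreement on the overlap
  have hE0int' : IsIntegral S01 E0 := CechP1.isIntegral_mono hle0 hE0int
  have hE1int' : IsIntegral S01 E1 := CechP1.isIntegral_mono hleinf hE1int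
  have hdint : IsIntegral S01 (E0 - E1) := hE0int'.sub hE1int'
  have hd𝒱 : ∀ W ∈ 𝒱, E0 - E1 ∈ W.nonunits := by
    intro W hW
    by_cases hZ : W ∈ Z
    · exact sub_mem (hE0A W ((hA' W).mpr ⟨hW, hZ⟩)) (hE1A W ((hA' W).mpr ⟨hW, hZ⟩))
    · have e' : E0 - E1 = (E0 - 1) - (E1 - 1) := by ring
      rw [e']
      exact sub_mem (hE0B W ((hB' W).mpr ⟨hW, hZ⟩)) (hE1B W ((hB' W).mpr ⟨hW, hZ⟩))
  obtain ⟨M, -, hM⟩ := exists_piDiv_pow S01 π hπL hdint
    (rad_overlap π u hu 𝒱 hu𝒱 hrad0 _ hdint hd𝒱)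
  have h01 : PiDiv S01 π (E0 - E1) :=
    piDiv_of_pow_of_cube S01 π hdint
      (piDiv_cube_sub S01 π hE0int' hE1int' (h0.mono hle0) (h1.mono hleinf)) hM
  rcases CechP1.connected π hπ hinj hOL u hu (CechP1.hfin_of_finite u) E0 E1 hE0int hE1int
      h0 h1 h01 with ⟨⟨w, hw, hew⟩, -⟩ | ⟨⟨w, hw, hew⟩, -⟩
  · -- `E0 ≡ 0`, but `E0 ≡ 1` at `W1 ∉ Z`
    have ha : E0 ∈ W1.nonunits := by
      rw [hew]; exact mul_mem_nonunits W1 (hπ𝒱 W1 hW1) (hint0 W1 hW1 w hw)
    have hb : E0 - 1 ∈ W1.nonunits := hE0B W1 ((hB' W1).mpr ⟨hW1, hW1Z⟩)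
    have : (1 : L) ∈ W1.nonunits := by
      have := sub_mem ha hb
      simpa using this
    exact one_notMem_nonunits W1 this
  · -- `E0 ≡ 1`, but `E0 ≡ 0` at `W2 ∈ Z`
    have ha : E0 - 1 ∈ W2.nonunits := by
      rw [hew]; exact mul_mem_nonunits W2 (hπ𝒱 W2 hW2) (hint0 W2 hW2 w hw)
    have hb : E0 ∈ W2.nonunits := hE0A W2 ((hA' W2).mpr ⟨hW2, hW2Z⟩)
    have : (1 : L) ∈ W2.nonunits := by
      have := sub_mem hb ha
      simpa using this
    exact one_notMem_nonunits W2 this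

end Main

end Fermat.Agent.S44.L.ConnRad
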