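import Fermat.Agent.S44.L.Depth
import Fermat.Agent.S44.L.FierceNorm

/-!
# S44 / strand L, row (L.R3): the depth step in the fierce block (junction file)

`Depth.depthGE_succ_of_norm` / `Depth.depthC_succ_of_norm` with their binder `hfierce` discharged
by `FierceNorm.norm_eq_mul_one_add`, in the binder block of `S44/L/FierceNorm`
(= the block of `S36/NormStepOne.congMod_norm_of_degree_one` + the fierce data `ℓ`, `hℓ`, `hn`,
`hrad`).  `P₁` is the branch of local degree one, `P₂` the fierce branch; `E` is a field of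
constants.

* `hfierce_block` : the binder `hfierce` itself.
* `depthGE_succ_block` : depth `≥ d` at `P₂` (`d ≥ 1`) and `N f = c * k ^ ℓ` give depth
  `≥ d + 1` at `P₁`.
* `depthC_succ_block` : the same with the constant `c` of the norm recorded.

The ping-pong is `Depth.depthGE_all` / `Depth.depthC_all` applied to two instances of the block
(one per degeneracy map, the branches exchanged).
-/

set_option autoImplicit false

namespace Fermat.Agent.S44.L.DepthFierce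

open Fermat.Agent.S44.L.Depth

variable {B1 B L1 L : Type*} [CommRing B1] [IsDomain B1] [IsNoetherianRing B1] [CommRing B]
  [IsDomain B] [Field L1] [Field L] [Algebra B1 L1] [IsFractionRing B1 L1] [Algebra B L]
  [IsFractionRing B L] [Algebra L1 L] [FiniteDimensional L1 L] [Algebra.IsSeparable L1 L]
  (φ : B1 →+* B) (hφ : ∀ b, algebraMap L1 L (algebraMap B1 L1 b) = algebraMap B L (φ b))
  (hint : φ.IsIntegral)

include hφ hint in
/-- The binder `hfierce` of `Depth.depthGE_succ_of_norm`, in the fierce block. -/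
theorem hfierce_block (π : B1) (hπ : π ≠ 0) (p : Ideal B1) [p.IsPrime] (hπp : π ∈ p)
    (hprin : ∀ x ∈ p, ∃ s, s ∉ p ∧ s * x ∈ Ideal.span {π})
    (P₁ P₂ : Ideal B) [P₁.IsPrime] (hP₁ : P₁.comap φ = p)
    (hall : ∀ Q : Ideal B, Q.IsPrime → Q.comap φ = p → Q = P₁ ∨ Q = P₂)
    (hloc : ∀ c ∈ P₁, ∃ t : B, t ∉ P₁ ∧ φ π ∣ t * c)
    (hf : ∀ c : B, ∃ s r : B1, s ∉ p ∧ φ s * c - φ r ∈ P₁)
    (ℓ : ℕ) (hℓp : ℓ.Prime) (hℓ : (ℓ : B1) ∈ p) (hn : Module.finrank L1 L = ℓ + 1)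
    (hrad : ∀ c : B, ∃ s r : B1, s ∉ p ∧ φ s * c ^ ℓ - φ r ∈ P₂) :
    ∀ d : ℕ, 1 ≤ d → ∀ y : L, MemPow (φ π) P₂ d y →
      ∃ y' : L, MemPow (φ π) P₁ (d + 1) y' ∧
        algebraMap L1 L (Algebra.norm L1 (1 + y)) = (1 + y) * (1 + y') :=
  fun d hd y h2 => FierceNorm.norm_eq_mul_one_add φ hφ hint π hπ p hπp hprin P₁ P₂ hP₁ hall
    hloc hf ℓ hℓp hℓ hn hrad d hd y h2

variable {E : Type*} [Field E] [Algebra E L1] [Algebra E L] [IsScalarTower E L1 L]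

include hφ hint in
/-- **The depth step in the fierce block.** -/
theorem depthGE_succ_block (π : B1) (hπ : π ≠ 0) (p : Ideal B1) [p.IsPrime] (hπp : π ∈ p)
    (hprin : ∀ x ∈ p, ∃ s, s ∉ p ∧ s * x ∈ Ideal.span {π})
    (P₁ P₂ : Ideal B) [P₁.IsPrime] (hP₁ : P₁.comap φ = p)
    (hall : ∀ Q : Ideal B, Q.IsPrime → Q.comap φ = p → Q = P₁ ∨ Q = P₂)
    (hloc : ∀ c ∈ P₁, ∃ t : B, t ∉ P₁ ∧ φ π ∣ t * c)
    (hf : ∀ c : B, ∃ s r : B1, s ∉ p ∧ φ s * c - φ r ∈ P₁)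
    (ℓ : ℕ) (hℓp : ℓ.Prime) (hℓ : (ℓ : B1) ∈ p) (hn : Module.finrank L1 L = ℓ + 1)
    (hrad : ∀ c : B, ∃ s r : B1, s ∉ p ∧ φ s * c ^ ℓ - φ r ∈ P₂)
    (f : L) (hf0 : f ≠ 0)
    (hN : ∃ (c : E) (k : L1), Algebra.norm L1 f = algebraMap E L1 c * k ^ ℓ)
    (d : ℕ) (hd : 1 ≤ d) (h : DepthGE E ℓ (φ π) P₂ d f) : DepthGE E ℓ (φ π) P₁ (d + 1) f :=
  depthGE_succ_of_norm (IsFractionRing.injective B L) hℓp.ne_zero (φ π) P₁ P₂
    (by rw [← Ideal.mem_comap, hP₁]; exact hπp)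
    (hfierce_block φ hφ hint π hπ p hπp hprin P₁ P₂ hP₁ hall hloc hf ℓ hℓp hℓ hn hrad)
    f hf0 hN d hd h

include hφ hint in
/-- **The depth step in the fierce block, with the constant of the norm.** -/
theorem depthC_succ_block (π : B1) (hπ : π ≠ 0) (p : Ideal B1) [p.IsPrime] (hπp : π ∈ p)
    (hprin : ∀ x ∈ p, ∃ s, s ∉ p ∧ s * x ∈ Ideal.span {π})
    (P₁ P₂ : Ideal B) [P₁.IsPrime] (hP₁ : P₁.comap φ = p)
    (hall : ∀ Q : Ideal B, Q.IsPrime → Q.comap φ = p → Q = P₁ ∨ Q = P₂)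
    (hloc : ∀ c ∈ P₁, ∃ t : B, t ∉ P₁ ∧ φ π ∣ t * c)
    (hf : ∀ c : B, ∃ s r : B1, s ∉ p ∧ φ s * c - φ r ∈ P₁)
    (ℓ : ℕ) (hℓp : ℓ.Prime) (hℓ : (ℓ : B1) ∈ p) (hn : Module.finrank L1 L = ℓ + 1)
    (hrad : ∀ c : B, ∃ s r : B1, s ∉ p ∧ φ s * c ^ ℓ - φ r ∈ P₂)
    (f : L) (hf0 : f ≠ 0) {c₁ : E} {k : L1}
    (hck : Algebra.norm L1 f = algebraMap E L1 c₁ * k ^ ℓ)
    (d : ℕ) (hd : 1 ≤ d) (h : DepthGE E ℓ (φ π) P₂ d f) : DepthC ℓ (φ π) P₁ (d + 1) c₁ f :=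
  depthC_succ_of_norm (IsFractionRing.injective B L) hℓp.ne_zero hn (φ π) P₁ P₂
    (by rw [← Ideal.mem_comap, hP₁]; exact hπp)
    (hfierce_block φ hφ hint π hπ p hπp hprin P₁ P₂ hP₁ hall hloc hf ℓ hℓp hℓ hn hrad)
    f hf0 hck d hd h

end Fermat.Agent.S44.L.DepthFierce
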