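import Mathlib
import Fermat.Agent.S44.L.PthRootRam
import Fermat.Agent.S44.L.NodeGlue

/-!
# PROGRAM MR (S44), strand L: from depth `≥ p + 2` to the shape `1 + p ^ 2 w` (ramified base)

Level-free (helper253).  `A` a local ring, `π` a non-unit, `p = η π ^ p` with `η` a unit,
`p ≥ 3`.  "Hensel without completion": for `d ≥ p + 2`,

  `(1 + π ^ (d - p) r / η) ^ p = 1 + π ^ d r + π ^ (d + 1) T`,

so `f = G ^ p (1 + π ^ d r)` with `r ∈ A` is `G' ^ p (1 + π ^ (d + 1) r')` with `r' ∈ A`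
(`depth_succ`), hence `G'' ^ p (1 + p ^ 2 w)` with `w ∈ A` (`exists_sq_of_depth`).  With `A` the
local ring of a chart at a maximal ideal `𝔪` this is the landed datum `PthPoint.PowAt`
(`powAt_of_depth`) consumed by `PthRootRam.exists_pow_eq_of_pointwise_ram`.
-/

set_option autoImplicit false

namespace Fermat.Agent.S44.L.DepthHensel

open Fermat.Agent.S44.L

section Ring

variable {A : Type*} [CommRing A]

/-- `(1 + π ^ (d - p) (η' r)) ^ p = 1 + π ^ d r + π ^ (d + 1) T` for `d ≥ p + 2`. -/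
theorem pow_one_add (p : ℕ) (hp : p.Prime) (hp3 : 3 ≤ p) (π η η' : A) (hηη : η * η' = 1)
    (hpπ : (p : A) = η * π ^ p) (d : ℕ) (hd : p + 2 ≤ d) (r : A) :
    ∃ T : A, (1 + π ^ (d - p) * (η' * r)) ^ p = 1 + π ^ d * r + π ^ (d + 1) * T := by
  obtain ⟨q, hq⟩ := PthRootRam.one_add_pow_expansion p hp (π ^ (d - p) * (η' * r))
  rw [hq, hpπ]
  obtain ⟨m, rfl⟩ : ∃ m, d = p + 2 + m := ⟨d - (p + 2), by omega⟩
  obtain ⟨n, rfl⟩ : ∃ n, p = n + 3 := ⟨p - 3, by omega⟩
  have e : n + 3 + 2 + m - (n + 3) = m + 2 := by omega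
  rw [e]
  refine ⟨π ^ (m + 1) * η' * r ^ 2 * q + π ^ (m * n + 2 * m + n) * (η' * r) ^ (n + 3), ?_⟩
  linear_combination (π ^ (n + m + 5) * r * (1 + π ^ (m + 2) * (η' * r) * q)) * hηη

variable [IsLocalRing A] {K : Type*} [Field K] [Algebra A K]

/-- **One step**: depth `d ≥ p + 2` gives depth `d + 1`. -/
theorem depth_succ (p : ℕ) (hp : p.Prime) (hp3 : 3 ≤ p) (π η η' : A) (hπ : ¬ IsUnit π)
    (hηη : η * η' = 1) (hpπ : (p : A) = η * π ^ p) (f G : K) (d : ℕ) (hd : p + 2 ≤ d) (r : A)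
    (hf : f = G ^ p * algebraMap A K (1 + π ^ d * r)) :
    ∃ (G' : K) (r' : A), f = G' ^ p * algebraMap A K (1 + π ^ (d + 1) * r') := by
  obtain ⟨T, hT⟩ := pow_one_add p hp hp3 π η η' hηη hpπ d hd r
  have hv : IsUnit (1 + π ^ (d - p) * (η' * r)) := by
    have hnu : ¬ IsUnit (-(π ^ (d - p) * (η' * r))) := by
      intro hu
      have h1 : IsUnit (π ^ (d - p) * (η' * r)) := by simpa using hu.neg
      have h2 : IsUnit (π ^ (d - p)) := isUnit_of_mul_isUnit_left h1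
      exact hπ ((isUnit_pow_iff (by omega)).mp h2)
    exact (IsLocalRing.isUnit_or_isUnit_of_add_one
      (a := 1 + π ^ (d - p) * (η' * r)) (b := -(π ^ (d - p) * (η' * r))) (by ring)).resolve_right
      hnu
  obtain ⟨v', hv'⟩ := hv.exists_right_inv
  have hvp : (1 + π ^ (d - p) * (η' * r)) ^ p * v' ^ p = 1 := by rw [← mul_pow, hv', one_pow]
  refine ⟨G * algebraMap A K (1 + π ^ (d - p) * (η' * r)), -(T * v' ^ p), ?_⟩
  have e : (1 : A) + π ^ d * r
      = (1 + π ^ (d - p) * (η' * r)) ^ p * (1 + π ^ (d + 1) * (-(T * v' ^ p))) := by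
    linear_combination -hT + (π ^ (d + 1) * T) * hvp
  rw [hf, e, map_mul, map_pow, mul_pow, mul_assoc]

/-- **Depth `≥ p + 2` gives the shape `1 + p ^ 2 w`.** -/
theorem exists_sq_of_depth (p : ℕ) (hp : p.Prime) (hp3 : 3 ≤ p) (π η : A) (hπ : ¬ IsUnit π)
    (hη : IsUnit η) (hpπ : (p : A) = η * π ^ p) (f G : K) (d : ℕ) (hd : p + 2 ≤ d) (r : A)
    (hf : f = G ^ p * algebraMap A K (1 + π ^ d * r)) :
    ∃ (G' : K) (w : A), f = G' ^ p * (1 + (p : K) ^ 2 * algebraMap A K w) := by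
  obtain ⟨η', hηη⟩ := hη.exists_right_inv
  have key : ∀ d' : ℕ, d ≤ d' →
      ∃ (G' : K) (r' : A), f = G' ^ p * algebraMap A K (1 + π ^ d' * r') := by
    intro d' hdd'
    induction d', hdd' using Nat.le_induction with
    | base => exact ⟨G, r, hf⟩
    | succ k hk ih =>
      obtain ⟨G₁, r₁, h₁⟩ := ih
      exact depth_succ p hp hp3 π η η' hπ hηη hpπ f G₁ k (by omega) r₁ h₁
  obtain ⟨G', r', h'⟩ := key (d + 2 * p) (Nat.le_add_right d _)
  refine ⟨G', η' ^ 2 * π ^ d * r', ?_⟩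
  have e : (1 : A) + π ^ (d + 2 * p) * r' = 1 + (p : A) ^ 2 * (η' ^ 2 * π ^ d * r') := by
    have h1 : (η * η') ^ 2 = 1 := by rw [hηη, one_pow]
    rw [hpπ]
    linear_combination (-(π ^ (d + 2 * p) * r')) * h1
  rw [h', e, map_add, map_one, map_mul, map_pow, map_natCast]

end Ring

/-! ### The datum `PthPoint.PowAt` -/

section PowAt

variable {O K : Type*} [CommRing O] [Field K] [Algebra O K]

/-- `PthPoint.PowAt` from depth `≥ p + 2` at a closed point: `A` (any model of) the local ring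
of the chart at `𝔪`, `π ∈ A` a non-unit with `p = η π ^ p`, `H = G ^ p (1 + π ^ d r)`, `r ∈ A`,
`d ≥ p + 2`. -/
theorem powAt_of_depth (S : Subalgebra O K) (p : ℕ) (hp : p.Prime) (hp3 : 3 ≤ p) (H : K)
    (𝔪 : Ideal (integralClosure S K)) [𝔪.IsPrime] (A : Type*) [CommRing A]
    [Algebra (integralClosure S K) A] [IsLocalization.AtPrime A 𝔪] [Algebra A K]
    [IsScalarTower (integralClosure S K) A K] (π η : A) (hπ : ¬ IsUnit π) (hη : IsUnit η)
    (hpπ : (p : A) = η * π ^ p) (G : K) (d : ℕ) (hd : p + 2 ≤ d) (r : A)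
    (hH : H = G ^ p * (1 + algebraMap A K π ^ d * algebraMap A K r)) :
    PthPoint.PowAt S p H 𝔪 := by
  have : IsLocalRing A := IsLocalization.AtPrime.isLocalRing A 𝔪
  obtain ⟨G', w, h⟩ := exists_sq_of_depth (K := K) p hp hp3 π η hπ hη hpπ H G d hd r
    (by rw [hH, map_add, map_one, map_mul, map_pow])
  exact NodeGlue.powAt_of_atPrime S p H 𝔪 A G' w h

end PowAt

end Fermat.Agent.S44.L.DepthHensel
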