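import Mathlib
import Fermat.Agent.S44.L.DiscrLoc

/-!
# Discriminant criterion (C4): unramified in residue characteristic zero (level-free)

PROGRAM MR (S44), strand L, brick (L.PUR), criterion (C4) in the binder block of
`S44/L/Purity.lean` (helper209).  `g` a prime element of `R` with `R ⧸ (g)` of characteristic
zero, `b` an `R`-basis of `S`.  If every prime `Q` of `S` over `(g)` is locally generated by `g`
then `g` does not divide `Algebra.discr R b`.  Proof: localise at `(g)`
(`DiscrLoc.not_dvd_discr_of_isUnit_localization`, `DiscrLoc.unr_localization`) and apply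
`DiscrUnr.isUnit_discr_of_unr_of_charZero` over the local ring `R_(g)`.
-/

set_option autoImplicit false

namespace Fermat.Agent.S44.L.DiscrZero

open IsLocalRing Module Fermat.Agent.S44.L.DiscrUnr Fermat.Agent.S44.L.DiscrLoc

/-- If `R ⧸ q` has characteristic zero, the nonzero natural numbers are units of `R_q`. -/
theorem isUnit_natCast_localization {R : Type*} [CommRing R] (q : Ideal R) [q.IsPrime]
    [CharZero (R ⧸ q)] (n : ℕ) (hn : n ≠ 0) : IsUnit (n : Localization.AtPrime q) := by
  have h1 : (n : R) ∉ q := by
    intro h
    have h2 : ((n : ℕ) : R ⧸ q) = 0 := by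
      rw [← map_natCast (Ideal.Quotient.mk q)]
      exact Ideal.Quotient.eq_zero_iff_mem.mpr h
    exact hn (Nat.cast_eq_zero.mp h2)
  have h3 := IsLocalization.map_units (Localization.AtPrime q) (⟨(n : R), h1⟩ : q.primeCompl)
  rwa [map_natCast] at h3

/-- **(C4) Unramified in residue characteristic zero.**  `g` a prime element of `R` with
`R ⧸ (g)` of characteristic zero, `b` an `R`-basis of `S`.  If every prime `Q` of `S` over `(g)`
is locally generated by `g`, then `g` does not divide the discriminant of `b`. -/
theorem not_dvd_discr_of_charZero {R S : Type*} [CommRing R] [IsDomain R] [CommRing S]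
    [Algebra R S] {ι : Type*} [Fintype ι] [DecidableEq ι] (b : Module.Basis ι R S) {g : R}
    (hg : Prime g) [CharZero (R ⧸ Ideal.span {g})]
    (hU : ∀ Q : Ideal S, Q.IsPrime → Q.comap (algebraMap R S) = Ideal.span {g} →
      ∀ x ∈ Q, ∃ s : S, s ∉ Q ∧ s * x ∈ (Ideal.span {g}).map (algebraMap R S)) :
    ¬ g ∣ Algebra.discr R b := by
  have hq : (Ideal.span {g}).IsPrime := (Ideal.span_singleton_prime hg.ne_zero).mpr hg
  apply not_dvd_discr_of_isUnit_localization b hg
  have hfin : Module.Finite (Localization.AtPrime (Ideal.span {g}))
      (Localization (Algebra.algebraMapSubmonoid S (Ideal.span {g}).primeCompl)) :=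
    Module.Finite.of_basis (b.localizationLocalization _ (Ideal.span {g}).primeCompl _)
  exact isUnit_discr_of_unr_of_charZero _
    (fun P hP x hx => unr_localization (Ideal.span {g}) hU P hP x hx)
    (isUnit_natCast_localization (Ideal.span {g}))

end Fermat.Agent.S44.L.DiscrZero
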