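import Mathlib
import Fermat.Agent.S44.G.Ram
import Fermat.Agent.S44.L.KummerSplit
import Fermat.Agent.S36.CoefFix

/-!
# The base of the Eisenstein case (strand L of S44, cover-free route)

`A` is a valuation subring of `ℚ̄` over the prime `p`, `I` its inertia group, `v` its valuation,
and `π ∈ ℚ̄` has `v π ^ p = v p` (for instance `π = b / c - 1` in the Eisenstein case of
`S44/L/EisDich.lean`).

* `exists_max_term` : for `a i` fixed by `I`, the terms `a i * π ^ i` (`i < p`) have pairwise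
  distinct valuations, so `v (∑ i < p, a i π ^ i)` is the largest of them.  Corollaries:
  `sum_eq_zero_iff`, `sum_mem_iff` (`O_* = ⊕ O π ^ i`), `valuation_sum_lt_one_iff`,
  `eq_zero_of_eval_eq_zero` (`π` has degree `≥ p` over the inertia field).
* `exists_mem_inertia_map_eq` : in the Eisenstein case `I` is transitive on the `p` roots
  `ζ ^ j b` of `X ^ p - b ^ p`.
* `exists_poly_b`, `exists_poly` : every number fixed by the stabiliser `H` of `b` in `I` is
  `P(b)`, resp. `P(π)`, with `P` of degree `< p` with coefficients fixed by `I`.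
* `exists_base_field` : number fields `E ≤ Ks` with `E` fixed by `I`, `Ks = E(π)`, containing
  prescribed finite sets of `I`-fixed resp. `H`-fixed numbers.
* `exists_valuation_eq_zpow`, `exists_residue_rep`, `irreducible_pi` : the valuation ring
  `A ∩ Ks` has uniformiser `π` and the residue field of `A ∩ E`.
-/

set_option autoImplicit false

open scoped IntermediateField
open Polynomial

namespace Fermat.Agent.S44.L.EisBase

local notation "Qb" => AlgebraicClosure ℚ
local notation "GQb" => (AlgebraicClosure ℚ ≃ₐ[ℚ] AlgebraicClosure ℚ)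

open Fermat.Agent.S44.G

/-! ### Valuations of `∑ a i π ^ i` -/

section Val

variable (A : ValuationSubring Qb) {p : ℕ} (hp : p.Prime) (hA : A.LiesOverPrime p)
  {π : Qb} (hπ : A.valuation π ^ p = A.valuation (p : Qb))

include hA in
theorem valuation_p_lt_one : A.valuation (p : Qb) < 1 := A.mem_nonunits_iff.mp hA

include hp in
theorem valuation_p_pos : 0 < A.valuation (p : Qb) := by
  rw [zero_lt_iff, Ne, map_eq_zero]
  exact_mod_cast hp.ne_zero

include hp hπ in
theorem pi_ne_zero : π ≠ 0 := by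
  rintro rfl
  rw [map_zero, zero_pow hp.ne_zero] at hπ
  exact (valuation_p_pos A hp).ne hπ

include hA hπ in
theorem valuation_pi_lt_one : A.valuation π < 1 := by
  by_contra h
  rw [not_lt] at h
  have h1 : 1 ≤ A.valuation π ^ p := one_le_pow₀ h
  rw [hπ] at h1
  exact absurd (valuation_p_lt_one A hA) (not_lt.mpr h1)

include hp hA in
theorem strictAnti_zpow : StrictAnti (fun i : ℤ => A.valuation (p : Qb) ^ i) :=
  zpow_right_strictAnti₀ (valuation_p_pos A hp) (valuation_p_lt_one A hA)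

include hp hπ in
/-- The `p`-th power of the valuation of a term. -/
theorem term_pow {a : Qb} {n : ℤ} (hn : A.valuation a = A.valuation (p : Qb) ^ n) (i : ℕ) :
    A.valuation (a * π ^ i) ^ p = A.valuation (p : Qb) ^ (n * p + i) := by
  have h0 : A.valuation (p : Qb) ≠ 0 := (valuation_p_pos A hp).ne'
  calc A.valuation (a * π ^ i) ^ p
      = (A.valuation a) ^ p * (A.valuation π ^ p) ^ i := by
        rw [map_mul, map_pow, mul_pow, ← pow_mul, ← pow_mul, mul_comm i p]
    _ = A.valuation (p : Qb) ^ (n * p + i) := by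
        rw [hn, hπ, zpow_add₀ h0, zpow_mul, zpow_natCast, zpow_natCast]

include hp hA hπ in
/-- Terms with distinct exponents `< p` have distinct valuations. -/
theorem term_ne {a a' : Qb} (ha0 : a ≠ 0) (ha'0 : a' ≠ 0)
    (ha : ∀ τ ∈ A.inertiaSubgroupIn ℚ, τ a = a) (ha' : ∀ τ ∈ A.inertiaSubgroupIn ℚ, τ a' = a')
    {i i' : ℕ} (hi : i < p) (hi' : i' < p) (hne : i ≠ i') :
    A.valuation (a * π ^ i) ≠ A.valuation (a' * π ^ i') := by
  obtain ⟨n, hn⟩ := Ram.exists_valuation_eq_zpow_of_fixed A hp hA a ha0 ha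
  obtain ⟨n', hn'⟩ := Ram.exists_valuation_eq_zpow_of_fixed A hp hA a' ha'0 ha'
  intro h
  have h1 : A.valuation (p : Qb) ^ (n * p + i) = A.valuation (p : Qb) ^ (n' * p + i') := by
    rw [← term_pow A hp hπ hn i, ← term_pow A hp hπ hn' i', h]
  have h2 : n * p + i = n' * p + i' := (strictAnti_zpow A hp hA).injective h1
  apply hne
  have h3 : ((i : ℤ) + n * p) % p = ((i' : ℤ) + n' * p) % p := by
    rw [add_comm, h2, add_comm]
  rw [Int.add_mul_emod_self_right, Int.add_mul_emod_self_right,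
    Int.emod_eq_of_lt (by positivity) (by exact_mod_cast hi),
    Int.emod_eq_of_lt (by positivity) (by exact_mod_cast hi')] at h3
  exact_mod_cast h3

include hp hA hπ in
/-- **The valuation of `∑ i < p, a i π ^ i`** (`a i` fixed by inertia) is the largest of the
valuations of its terms. -/
theorem exists_max_term (a : ℕ → Qb) (ha : ∀ i, ∀ τ ∈ A.inertiaSubgroupIn ℚ, τ (a i) = a i)
    (hne : ∃ i < p, a i ≠ 0) :
    ∃ i₀ < p, a i₀ ≠ 0 ∧
      A.valuation (∑ i ∈ Finset.range p, a i * π ^ i) = A.valuation (a i₀ * π ^ i₀) ∧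
      ∀ i < p, A.valuation (a i * π ^ i) ≤ A.valuation (a i₀ * π ^ i₀) := by
  classical
  have hπ0 : π ≠ 0 := pi_ne_zero A hp hπ
  set s : Finset ℕ := (Finset.range p).filter (fun i => a i ≠ 0) with hs
  have hsne : s.Nonempty := by
    obtain ⟨i, hi, hai⟩ := hne
    exact ⟨i, Finset.mem_filter.mpr ⟨Finset.mem_range.mpr hi, hai⟩⟩
  obtain ⟨i₀, hi₀s, hmax⟩ :=
    Finset.exists_max_image s (fun i => A.valuation (a i * π ^ i)) hsne
  obtain ⟨hi₀r, hai₀⟩ := Finset.mem_filter.mp hi₀s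
  have hi₀ : i₀ < p := Finset.mem_range.mp hi₀r
  have hterm0 : A.valuation (a i₀ * π ^ i₀) ≠ 0 := by
    rw [Ne, map_eq_zero]
    exact mul_ne_zero hai₀ (pow_ne_zero _ hπ0)
  have hlt : ∀ i ∈ (Finset.range p).erase i₀,
      A.valuation (a i * π ^ i) < A.valuation (a i₀ * π ^ i₀) := by
    intro i hi
    obtain ⟨hne', hir⟩ := Finset.mem_erase.mp hi
    by_cases hai : a i = 0
    · rw [hai, zero_mul, map_zero]
      exact zero_lt_iff.mpr hterm0
    · have hle := hmax i (Finset.mem_filter.mpr ⟨hir, hai⟩)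
      exact lt_of_le_of_ne hle
        (term_ne A hp hA hπ hai hai₀ (ha i) (ha i₀) (Finset.mem_range.mp hir) hi₀ hne')
  refine ⟨i₀, hi₀, hai₀, ?_, ?_⟩
  · rw [← Finset.add_sum_erase _ _ hi₀r]
    exact A.valuation.map_add_eq_of_lt_left (A.valuation.map_sum_lt hterm0 hlt)
  · intro i hi
    by_cases hii : i = i₀
    · rw [hii]
    · exact (hlt i (Finset.mem_erase.mpr ⟨hii, Finset.mem_range.mpr hi⟩)).le

include hp hA hπ in
/-- `1, π, …, π ^ (p - 1)` are linearly independent over the inertia field. -/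
theorem sum_eq_zero_iff (a : ℕ → Qb) (ha : ∀ i, ∀ τ ∈ A.inertiaSubgroupIn ℚ, τ (a i) = a i) :
    ∑ i ∈ Finset.range p, a i * π ^ i = 0 ↔ ∀ i < p, a i = 0 := by
  constructor
  · intro h
    by_contra hcon
    push Not at hcon
    obtain ⟨i₀, -, hai₀, hv, -⟩ := exists_max_term A hp hA hπ a ha hcon
    rw [h, map_zero] at hv
    have : a i₀ * π ^ i₀ = 0 := by
      rw [← map_eq_zero A.valuation, ← hv]
    exact (mul_ne_zero hai₀ (pow_ne_zero _ (pi_ne_zero A hp hπ))) this
  · intro h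
    exact Finset.sum_eq_zero (fun i hi => by rw [h i (Finset.mem_range.mp hi), zero_mul])

include hp hA hπ in
/-- A term of valuation `≤ 1` has an integral coefficient. -/
theorem mem_of_term_le_one {a : Qb} (ha : ∀ τ ∈ A.inertiaSubgroupIn ℚ, τ a = a) {i : ℕ}
    (hi : i < p) (h : A.valuation (a * π ^ i) ≤ 1) : a ∈ A := by
  by_cases ha0 : a = 0
  · rw [ha0]; exact A.zero_mem
  obtain ⟨n, hn⟩ := Ram.exists_valuation_eq_zpow_of_fixed A hp hA a ha0 ha
  have h1 : A.valuation (p : Qb) ^ (n * p + i) ≤ A.valuation (p : Qb) ^ (0 : ℤ) := by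
    rw [← term_pow A hp hπ hn i, zpow_zero]
    exact pow_le_one₀ zero_le h
  have h2 : (0 : ℤ) ≤ n * p + i := (strictAnti_zpow A hp hA).le_iff_ge.mp h1
  have h3 : (0 : ℤ) ≤ n := by
    by_contra hneg
    rw [not_le] at hneg
    have h4 : n * (p : ℤ) ≤ -1 * p := mul_le_mul_of_nonneg_right (by omega) (by positivity)
    have h5 : (i : ℤ) < p := by exact_mod_cast hi
    omega
  rw [← A.valuation_le_one_iff, hn, ← zpow_zero (A.valuation (p : Qb))]
  exact (strictAnti_zpow A hp hA).antitone h3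

include hp hA hπ in
/-- **`A ∩ Ks = ⊕ (A ∩ E) π ^ i`**: a sum `∑ i < p, a i π ^ i` with `a i` fixed by inertia is
integral iff every `a i` is. -/
theorem sum_mem_iff (a : ℕ → Qb) (ha : ∀ i, ∀ τ ∈ A.inertiaSubgroupIn ℚ, τ (a i) = a i) :
    ∑ i ∈ Finset.range p, a i * π ^ i ∈ A ↔ ∀ i < p, a i ∈ A := by
  have hπA : π ∈ A := (A.valuation_le_one_iff π).mp (valuation_pi_lt_one A hA hπ).le
  constructor
  · intro h i hi
    by_cases hall : ∃ i < p, a i ≠ 0
    · obtain ⟨i₀, -, -, hv, hle⟩ := exists_max_term A hp hA hπ a ha hall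
      refine mem_of_term_le_one A hp hA hπ (ha i) hi ((hle i hi).trans ?_)
      rw [← hv]
      exact (A.valuation_le_one_iff _).mpr h
    · push Not at hall
      rw [hall i hi]; exact A.zero_mem
  · intro h
    exact sum_mem (fun i hi => mul_mem (h i (Finset.mem_range.mp hi)) (pow_mem hπA i))

include hp hA hπ in
/-- **Divisibility by `π`**: `∑ i < p, a i π ^ i` has valuation `< 1` iff `a 0` has and every
`a i` is integral. -/
theorem valuation_sum_lt_one_iff (a : ℕ → Qb)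
    (ha : ∀ i, ∀ τ ∈ A.inertiaSubgroupIn ℚ, τ (a i) = a i) :
    A.valuation (∑ i ∈ Finset.range p, a i * π ^ i) < 1 ↔
      A.valuation (a 0) < 1 ∧ ∀ i < p, a i ∈ A := by
  have hπlt : A.valuation π < 1 := valuation_pi_lt_one A hA hπ
  constructor
  · intro h
    by_cases hall : ∃ i < p, a i ≠ 0
    · obtain ⟨i₀, -, -, hv, hle⟩ := exists_max_term A hp hA hπ a ha hall
      rw [hv] at h
      refine ⟨?_, fun i hi => mem_of_term_le_one A hp hA hπ (ha i) hi ((hle i hi).trans h.le)⟩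
      have := (hle 0 hp.pos).trans_lt h
      rwa [pow_zero, mul_one] at this
    · push Not at hall
      refine ⟨?_, fun i hi => by rw [hall i hi]; exact A.zero_mem⟩
      rw [hall 0 hp.pos, map_zero]
      exact zero_lt_one
  · rintro ⟨h0, h⟩
    refine A.valuation.map_sum_lt one_ne_zero (fun i hi => ?_)
    rcases Nat.eq_zero_or_pos i with rfl | hipos
    · rwa [pow_zero, mul_one]
    · rw [map_mul, map_pow]
      have h1 : A.valuation (a i) ≤ 1 :=
        (A.valuation_le_one_iff _).mpr (h i (Finset.mem_range.mp hi))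
      have h2 : A.valuation π ^ i < 1 := pow_lt_one₀ zero_le hπlt hipos.ne'
      calc A.valuation (a i) * A.valuation π ^ i ≤ 1 * A.valuation π ^ i :=
            mul_le_mul' h1 le_rfl
        _ = A.valuation π ^ i := one_mul _
        _ < 1 := h2

include hp hA hπ in
/-- **`π` has degree `≥ p` over the inertia field**: a polynomial of degree `< p` with
coefficients fixed by inertia which vanishes at `π` is zero. -/
theorem eq_zero_of_eval_eq_zero (h : Qb[X])
    (hfix : ∀ τ : GQb, τ ∈ A.inertiaSubgroupIn ℚ → h.map ((τ : Qb ≃ₐ[ℚ] Qb) : Qb →+* Qb) = h)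
    (hdeg : h.natDegree < p) (hroot : h.eval π = 0) : h = 0 := by
  have hcoef : ∀ i, ∀ τ ∈ A.inertiaSubgroupIn ℚ, τ (h.coeff i) = h.coeff i := by
    intro i τ hτ
    have := congrArg (fun q : Qb[X] => q.coeff i) (hfix τ hτ)
    simpa [Polynomial.coeff_map] using this
  rw [Polynomial.eval_eq_sum_range' hdeg] at hroot
  have h0 := (sum_eq_zero_iff A hp hA hπ (fun i => h.coeff i) hcoef).mp hroot
  ext i
  rw [Polynomial.coeff_zero]
  by_cases hi : i < p
  · exact h0 i hi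
  · exact Polynomial.coeff_eq_zero_of_natDegree_lt (lt_of_lt_of_le hdeg (not_lt.mp hi))

end Val

/-! ### The inertia group is transitive on the roots, and the fixed field of the stabiliser -/

section Orbit

variable (A : ValuationSubring Qb) {p : ℕ} (hp : p.Prime) (hA : A.LiesOverPrime p)
  {ζ : Qb} (hζ : IsPrimitiveRoot ζ p) {b c : Qb}

include hζ in
theorem injOn_roots (hb0 : b ≠ 0) :
    Set.InjOn (fun j : ℕ => ζ ^ j * b) (Finset.range p : Set ℕ) := by
  intro i hi j hj h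
  have h1 : ζ ^ i = ζ ^ j := mul_right_cancel₀ hb0 h
  exact hζ.pow_inj (Finset.mem_range.mp (Finset.mem_coe.mp hi))
    (Finset.mem_range.mp (Finset.mem_coe.mp hj)) h1

include hζ in
theorem pow_mod_mul (j : ℕ) : ζ ^ (j % p) * b = ζ ^ j * b := by
  conv_rhs => rw [← Nat.mod_add_div j p, pow_add, pow_mul, hζ.pow_eq_one, one_pow, mul_one]

include hp hA hζ in
/-- **Transitivity.**  In the Eisenstein case (`|b / c - 1| ^ p = |p|`, `c` a unit fixed by
inertia) the inertia group is transitive on the roots `ζ ^ j b`. -/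
theorem exists_mem_inertia_map_eq (hb0 : b ≠ 0) (hc0 : c ≠ 0)
    (hcfix : ∀ τ ∈ A.inertiaSubgroupIn ℚ, τ c = c)
    (hbI : ∀ τ ∈ A.inertiaSubgroupIn ℚ, ∃ j : ℕ, τ b = ζ ^ j * b)
    (hπ : A.valuation (b / c - 1) ^ p = A.valuation (p : Qb)) (j : ℕ) :
    ∃ σ ∈ A.inertiaSubgroupIn ℚ, σ b = ζ ^ j * b := by
  classical
  set Rt : Finset Qb := (Finset.range p).image (fun j : ℕ => ζ ^ j * b) with hRt
  set O : Finset Qb := Rt.filter (fun β => ∃ σ ∈ A.inertiaSubgroupIn ℚ, σ b = β) with hO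
  have hRtcard : Rt.card = p := by
    rw [hRt, Finset.card_image_of_injOn (injOn_roots hζ hb0), Finset.card_range]
  have hmemRt : ∀ j : ℕ, ζ ^ j * b ∈ Rt := by
    intro j
    rw [← pow_mod_mul hζ j]
    exact Finset.mem_image_of_mem _ (Finset.mem_range.mpr (Nat.mod_lt _ hp.pos))
  have hbO : b ∈ O := by
    refine Finset.mem_filter.mpr ⟨?_, 1, one_mem _, rfl⟩
    have := hmemRt 0
    rwa [pow_zero, one_mul] at this
  -- inertia maps the orbit into itself
  have hmaps : ∀ τ ∈ A.inertiaSubgroupIn ℚ, ∀ β ∈ O, τ β ∈ O := by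
    intro τ hτ β hβ
    obtain ⟨-, σ, hσ, rfl⟩ := Finset.mem_filter.mp hβ
    obtain ⟨j', hj'⟩ := hbI (τ * σ) (mul_mem hτ hσ)
    refine Finset.mem_filter.mpr ⟨?_, τ * σ, mul_mem hτ hσ, rfl⟩
    have : τ (σ b) = ζ ^ j' * b := hj'
    rw [this]
    exact hmemRt j'
  have himage : ∀ τ ∈ A.inertiaSubgroupIn ℚ, O.image (fun β => τ β) = O := by
    intro τ hτ
    refine Finset.eq_of_subset_of_card_le ?_ ?_
    · intro y hy
      obtain ⟨β, hβ, rfl⟩ := Finset.mem_image.mp hy
      exact hmaps τ hτ β hβ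
    · rw [Finset.card_image_of_injective _ τ.injective]
  -- the orbit polynomial
  set g : Qb[X] := ∏ β ∈ O, (X - C β) with hg
  have hgmonic : g.Monic := Polynomial.monic_prod_X_sub_C _ _
  have hgdeg : g.natDegree = O.card := by
    rw [hg]
    exact Polynomial.natDegree_finsetProd_X_sub_C_eq_card _ _
  have hgroot : g.eval b = 0 := by
    rw [hg, Polynomial.eval_prod]
    exact Finset.prod_eq_zero hbO (by simp)
  have hgfix : ∀ τ : GQb, τ ∈ A.inertiaSubgroupIn ℚ →
      g.map ((τ : Qb ≃ₐ[ℚ] Qb) : Qb →+* Qb) = g := by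
    intro τ hτ
    rw [hg, Polynomial.map_prod]
    conv_rhs => rw [← himage τ hτ]
    rw [Finset.prod_image (fun x _ y _ h => τ.injective h)]
    refine Finset.prod_congr rfl (fun β _ => ?_)
    simp
  -- substitute `b = c (π + 1)`
  set q : Qb[X] := C c * (X + 1) with hq
  have hqdeg : q.natDegree = 1 := by
    rw [hq, Polynomial.natDegree_C_mul hc0]
    exact Polynomial.natDegree_X_add_C 1
  set h : Qb[X] := g.comp q with hh
  have hhroot : h.eval (b / c - 1) = 0 := by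
    rw [hh, Polynomial.eval_comp, hq]
    have : (C c * (X + 1) : Qb[X]).eval (b / c - 1) = b := by
      simp only [Polynomial.eval_mul, Polynomial.eval_C, Polynomial.eval_add, Polynomial.eval_X,
        Polynomial.eval_one]
      field_simp
      ring
    rw [this, hgroot]
  have hhfix : ∀ τ : GQb, τ ∈ A.inertiaSubgroupIn ℚ →
      h.map ((τ : Qb ≃ₐ[ℚ] Qb) : Qb →+* Qb) = h := by
    intro τ hτ
    rw [hh, Polynomial.map_comp, hgfix τ hτ, hq]
    congr 1
    have hc' : ((τ : Qb ≃ₐ[ℚ] Qb) : Qb →+* Qb) c = c := hcfix τ hτ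
    simp [hc']
  have hhdeg : h.natDegree = O.card := by
    rw [hh, Polynomial.natDegree_comp, hqdeg, mul_one, hgdeg]
  have hh0 : h ≠ 0 := by
    rw [hh, Ne, Polynomial.comp_eq_zero_iff]
    rintro (h1 | ⟨-, h2⟩)
    · exact hgmonic.ne_zero h1
    · have : q.natDegree = 0 := by rw [h2]; exact Polynomial.natDegree_C _
      omega
  have hcard : p ≤ O.card := by
    by_contra hlt
    rw [not_le] at hlt
    exact hh0 (eq_zero_of_eval_eq_zero A hp hA hπ h hhfix (by rw [hhdeg]; exact hlt) hhroot)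
  have hORt : O = Rt :=
    Finset.eq_of_subset_of_card_le (Finset.filter_subset _ _) (by rw [hRtcard]; exact hcard)
  have hmem : ζ ^ j * b ∈ O := by rw [hORt]; exact hmemRt j
  exact (Finset.mem_filter.mp hmem).2

include hp hζ in
/-- **The fixed field of the stabiliser of `b`.**  If the inertia group `I` is transitive on
the roots `ζ ^ j b`, every number fixed by the stabiliser of `b` in `I` is `P(b)` for a
polynomial `P` of degree `< p` with coefficients fixed by `I`. -/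
theorem exists_poly_b (hb0 : b ≠ 0)
    (hbI : ∀ τ ∈ A.inertiaSubgroupIn ℚ, ∃ j : ℕ, τ b = ζ ^ j * b)
    (htrans : ∀ j : ℕ, ∃ σ ∈ A.inertiaSubgroupIn ℚ, σ b = ζ ^ j * b)
    (x : Qb) (hx : ∀ σ ∈ A.inertiaSubgroupIn ℚ, σ b = b → σ x = x) :
    ∃ P : Qb[X],
      (∀ τ : GQb, τ ∈ A.inertiaSubgroupIn ℚ → P.map ((τ : Qb ≃ₐ[ℚ] Qb) : Qb →+* Qb) = P) ∧
      P.natDegree < p ∧ P.eval b = x := by
  classical
  choose σ hσI hσb using htrans
  -- the conjugate of `x` only depends on the image of `b`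
  have key : ∀ τ ∈ A.inertiaSubgroupIn ℚ, ∀ j : ℕ, τ b = ζ ^ j * b → τ x = σ j x := by
    intro τ hτ j hj
    have h1 : ((σ j)⁻¹ * τ) b = b := by
      show (σ j)⁻¹ (τ b) = b
      rw [hj, ← hσb j]
      exact (σ j).symm_apply_apply b
    have h2 : ((σ j)⁻¹ * τ) x = x :=
      hx _ (mul_mem (inv_mem (hσI j)) hτ) h1
    have h3 : (σ j)⁻¹ (τ x) = x := h2
    calc τ x = σ j ((σ j)⁻¹ (τ x)) := ((σ j).apply_symm_apply (τ x)).symm
      _ = σ j x := by rw [h3]
  set v : ℕ → Qb := fun j => ζ ^ j * b with hv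
  have hvinj : Set.InjOn v (Finset.range p : Set ℕ) := injOn_roots hζ hb0
  set P : Qb[X] := Lagrange.interpolate (Finset.range p) v (fun j => σ j x) with hP
  have hPdeg : P.degree < p := by
    have := Lagrange.degree_interpolate_lt (s := Finset.range p) (v := v) (fun j => σ j x) hvinj
    rwa [Finset.card_range] at this
  have hPnode : ∀ j < p, P.eval (v j) = σ j x := fun j hj =>
    Lagrange.eval_interpolate_at_node (fun j => σ j x) hvinj (Finset.mem_range.mpr hj)
  refine ⟨P, ?_, ?_, ?_⟩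
  · intro τ hτ
    set Q : Qb[X] := P.map ((τ : Qb ≃ₐ[ℚ] Qb) : Qb →+* Qb) - P with hQ
    set s : Finset Qb := (Finset.range p).image (fun j => τ (v j)) with hs
    have hscard : s.card = p := by
      rw [hs, Finset.card_image_of_injOn, Finset.card_range]
      intro i hi j hj h
      exact hvinj hi hj (τ.injective h)
    have hQdeg : Q.degree < s.card := by
      rw [hscard]
      refine lt_of_le_of_lt (Polynomial.degree_sub_le _ _) (max_lt ?_ hPdeg)
      exact lt_of_le_of_lt Polynomial.degree_map_le hPdeg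
    have hQ0 : Q = 0 := by
      refine Polynomial.eq_zero_of_degree_lt_of_eval_finset_eq_zero s hQdeg ?_
      intro y hy
      obtain ⟨j, hj, rfl⟩ := Finset.mem_image.mp hy
      have hj' : j < p := Finset.mem_range.mp hj
      obtain ⟨j', hj'b⟩ := hbI (τ * σ j) (mul_mem hτ (hσI j))
      have h1 : τ (v j) = v (j' % p) := by
        show τ (ζ ^ j * b) = ζ ^ (j' % p) * b
        rw [pow_mod_mul hζ j', ← hσb j]
        exact hj'b
      have h2 : (τ * σ j) b = ζ ^ (j' % p) * b := by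
        rw [pow_mod_mul hζ j']; exact hj'b
      have h3 : τ (σ j x) = σ (j' % p) x := key (τ * σ j) (mul_mem hτ (hσI j)) (j' % p) h2
      rw [hQ, Polynomial.eval_sub]
      have h4 : (P.map ((τ : Qb ≃ₐ[ℚ] Qb) : Qb →+* Qb)).eval (τ (v j)) = τ (P.eval (v j)) :=
        Polynomial.eval_map_apply (f := ((τ : Qb ≃ₐ[ℚ] Qb) : Qb →+* Qb)) (v j)
      rw [h4, hPnode j hj', h3, h1, hPnode (j' % p) (Nat.mod_lt _ hp.pos), sub_self]
    exact sub_eq_zero.mp hQ0
  · by_cases hP0 : P = 0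
    · rw [hP0, Polynomial.natDegree_zero]; exact hp.pos
    · exact (Polynomial.natDegree_lt_iff_degree_lt hP0).mpr hPdeg
  · have h0 : v 0 = b := by simp [hv]
    have h1 : σ 0 x = x := hx (σ 0) (hσI 0) (by rw [hσb 0, pow_zero, one_mul])
    rw [← h0, hPnode 0 hp.pos, h1]

include hp hA hζ in
/-- **The fixed field of the stabiliser of `b`, in powers of `π = b / c - 1`** (Eisenstein
case): every number fixed by the stabiliser of `b` in the inertia group `I` is `P(π)` for a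
polynomial `P` of degree `< p` with coefficients fixed by `I`. -/
theorem exists_poly (hb0 : b ≠ 0) (hc0 : c ≠ 0)
    (hcfix : ∀ τ ∈ A.inertiaSubgroupIn ℚ, τ c = c)
    (hbI : ∀ τ ∈ A.inertiaSubgroupIn ℚ, ∃ j : ℕ, τ b = ζ ^ j * b)
    (hπ : A.valuation (b / c - 1) ^ p = A.valuation (p : Qb))
    (x : Qb) (hx : ∀ σ ∈ A.inertiaSubgroupIn ℚ, σ b = b → σ x = x) :
    ∃ P : Qb[X],
      (∀ τ : GQb, τ ∈ A.inertiaSubgroupIn ℚ → P.map ((τ : Qb ≃ₐ[ℚ] Qb) : Qb →+* Qb) = P) ∧
      P.natDegree < p ∧ P.eval (b / c - 1) = x := by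
  obtain ⟨P, hPfix, hPdeg, hPb⟩ := exists_poly_b A hp hζ hb0 hbI
    (exists_mem_inertia_map_eq A hp hA hζ hb0 hc0 hcfix hbI hπ) x hx
  set q : Qb[X] := C c * (X + 1) with hq
  have hqdeg : q.natDegree = 1 := by
    rw [hq, Polynomial.natDegree_C_mul hc0]
    exact Polynomial.natDegree_X_add_C 1
  refine ⟨P.comp q, ?_, ?_, ?_⟩
  · intro τ hτ
    rw [Polynomial.map_comp, hPfix τ hτ, hq]
    congr 1
    have hc' : ((τ : Qb ≃ₐ[ℚ] Qb) : Qb →+* Qb) c = c := hcfix τ hτ
    simp [hc']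
  · rw [Polynomial.natDegree_comp, hqdeg, mul_one]; exact hPdeg
  · rw [Polynomial.eval_comp, hq]
    have : (C c * (X + 1) : Qb[X]).eval (b / c - 1) = b := by
      simp only [Polynomial.eval_mul, Polynomial.eval_C, Polynomial.eval_add, Polynomial.eval_X,
        Polynomial.eval_one]
      field_simp
      ring
    rw [this, hPb]

end Orbit

/-! ### The number fields `E ≤ Ks = E(π)` -/

section Field

open ModularCurve
open Fermat.Agent.S30.E4

variable (A : ValuationSubring Qb) {p : ℕ} (hp : p.Prime) (hA : A.LiesOverPrime p)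
  {ζ : Qb} (hζ : IsPrimitiveRoot ζ p) {b c : Qb}

/-- The stabiliser of `b` in the inertia group of `A`. -/
def stab (A : ValuationSubring Qb) (b : Qb) : Subgroup GQb where
  carrier := {σ | σ ∈ A.inertiaSubgroupIn ℚ ∧ σ b = b}
  mul_mem' := by
    rintro σ τ ⟨hσ, hσb⟩ ⟨hτ, hτb⟩
    refine ⟨mul_mem hσ hτ, ?_⟩
    show σ (τ b) = b
    rw [hτb, hσb]
  one_mem' := ⟨one_mem _, rfl⟩
  inv_mem' := by
    rintro σ ⟨hσ, hσb⟩
    refine ⟨inv_mem hσ, ?_⟩
    show σ⁻¹ b = b
    conv_lhs => rw [← hσb]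
    exact σ.symm_apply_apply b

theorem mem_stab {A : ValuationSubring Qb} {b : Qb} {σ : GQb} :
    σ ∈ stab A b ↔ σ ∈ A.inertiaSubgroupIn ℚ ∧ σ b = b := Iff.rfl

/-- Elements of `E(π)` are polynomials of degree `< p` in `π` over `E`, when
`(π + 1) ^ p ∈ E`. -/
theorem exists_poly_of_mem_sup (E : IntermediateField ℚ Qb) {π : Qb} (hpos : 0 < p)
    (hπE : (π + 1) ^ p ∈ E) {x : Qb} (hx : x ∈ E ⊔ ℚ⟮π⟯) :
    ∃ P : Qb[X], (∀ i, P.coeff i ∈ E) ∧ P.natDegree < p ∧ P.eval π = x := by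
  have halg : Algebra.IsAlgebraic ℚ Qb := AlgebraicClosure.isAlgebraic ℚ
  have halgE : Algebra.IsAlgebraic E Qb := inferInstance
  have hle : E ⊔ ℚ⟮π⟯ ≤ (IntermediateField.adjoin E {π}).restrictScalars ℚ := by
    refine sup_le (fun y hy => ?_) (IntermediateField.adjoin_le_iff.mpr ?_)
    · rw [IntermediateField.mem_restrictScalars]
      exact IntermediateField.algebraMap_mem _ (⟨y, hy⟩ : E)
    · intro y hy
      rw [Set.mem_singleton_iff] at hy
      rw [hy]
      show π ∈ (IntermediateField.adjoin E {π}).restrictScalars ℚ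
      rw [IntermediateField.mem_restrictScalars]
      exact IntermediateField.mem_adjoin_simple_self E π
  have hx1 : x ∈ IntermediateField.adjoin E {π} := by
    have := hle hx
    rwa [IntermediateField.mem_restrictScalars] at this
  have hx2 : x ∈ Algebra.adjoin E {π} := by
    have h1 := IntermediateField.adjoin_simple_toSubalgebra_of_isAlgebraic
      (Algebra.IsAlgebraic.isAlgebraic (R := E) π)
    rw [← h1]
    exact hx1
  rw [Algebra.adjoin_singleton_eq_range_aeval] at hx2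
  obtain ⟨q, hq⟩ := hx2
  -- the monic polynomial `(X + 1) ^ p - (π + 1) ^ p` of `π` over `E`
  set t : E := ⟨(π + 1) ^ p, hπE⟩ with ht
  set g : E[X] := (X + 1) ^ p - C t with hg
  have hXp : ((X + 1 : E[X]) ^ p).Monic := (Polynomial.monic_X_add_C (1 : E)).pow p
  have hXdeg : ((X + 1 : E[X]) ^ p).natDegree = p := by
    have h1 : ((X + C (1 : E)) ^ p).natDegree = p := by
      rw [Polynomial.natDegree_pow, Polynomial.natDegree_X_add_C, mul_one]
    simpa using h1
  have hgmonic : g.Monic := by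
    refine Polynomial.Monic.sub_of_left hXp ?_
    rw [Polynomial.degree_eq_natDegree hXp.ne_zero, hXdeg]
    exact lt_of_le_of_lt Polynomial.degree_C_le (by exact_mod_cast hpos)
  have hgdeg : g.natDegree = p := by
    rw [hg, Polynomial.natDegree_sub_C, hXdeg]
  have hgroot : Polynomial.aeval π g = 0 := by
    rw [hg, map_sub, map_pow, map_add, Polynomial.aeval_X, map_one, Polynomial.aeval_C]
    exact sub_self _
  have hg1 : g ≠ 1 := by
    intro h
    rw [h, Polynomial.natDegree_one] at hgdeg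
    omega
  set q' : E[X] := q %ₘ g with hq'
  refine ⟨q'.map (algebraMap E Qb), fun i => ?_, ?_, ?_⟩
  · rw [Polynomial.coeff_map]
    exact (q'.coeff i).2
  · refine lt_of_le_of_lt Polynomial.natDegree_map_le ?_
    rw [← hgdeg]
    exact Polynomial.natDegree_modByMonic_lt q hgmonic hg1
  · rw [Polynomial.eval_map, ← Polynomial.aeval_def,
      Polynomial.aeval_modByMonic_eq_self_of_root hgroot]
    exact hq

include hp hA hζ in
/-- **The base fields of the Eisenstein case.**  `E` is a number field fixed by the inertia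
group (so `A ∩ E` is an unramified discrete valuation ring), `Ks = E(π)`, `π = b / c - 1`;
`E` contains a prescribed finite set `T` of inertia-fixed numbers and `Ks` a prescribed finite
set `S` of numbers fixed by the stabiliser of `b`. -/
theorem exists_base_field (hb0 : b ≠ 0) (hc0 : c ≠ 0)
    (hcfix : ∀ τ ∈ A.inertiaSubgroupIn ℚ, τ c = c)
    (hbI : ∀ τ ∈ A.inertiaSubgroupIn ℚ, ∃ j : ℕ, τ b = ζ ^ j * b)
    (hπ : A.valuation (b / c - 1) ^ p = A.valuation (p : Qb))
    (S : Finset Qb) (hS : ∀ s ∈ S, ∀ σ ∈ A.inertiaSubgroupIn ℚ, σ b = b → σ s = s)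
    (T : Finset Qb) (hT : ∀ t ∈ T, ∀ σ ∈ A.inertiaSubgroupIn ℚ, σ t = t) :
    ∃ E Ks : IntermediateField ℚ Qb, FiniteDimensional ℚ E ∧ FiniteDimensional ℚ Ks ∧ E ≤ Ks ∧
      (∀ τ ∈ A.inertiaSubgroupIn ℚ, ∀ x ∈ E, τ x = x) ∧ (∀ t ∈ T, t ∈ E) ∧ c ∈ E ∧
      b ^ p ∈ E ∧ b ∈ Ks ∧ b / c - 1 ∈ Ks ∧ (∀ s ∈ S, s ∈ Ks) ∧
      (∀ σ ∈ A.inertiaSubgroupIn ℚ, σ b = b → ∀ x ∈ Ks, σ x = x) ∧
      ∀ x ∈ Ks, ∃ P : Qb[X], (∀ i, P.coeff i ∈ E) ∧ P.natDegree < p ∧
        P.eval (b / c - 1) = x := by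
  classical
  set π : Qb := b / c - 1 with hπdef
  have hbpfix : ∀ τ ∈ A.inertiaSubgroupIn ℚ, τ (b ^ p) = b ^ p := by
    intro τ hτ
    obtain ⟨j, hj⟩ := hbI τ hτ
    rw [map_pow, hj, mul_pow, ← pow_mul, mul_comm j, pow_mul, hζ.pow_eq_one, one_pow, one_mul]
  choose! Pf hPf using fun s (hs : s ∈ S) =>
    exists_poly A hp hA hζ hb0 hc0 hcfix hbI hπ s (hS s hs)
  -- the generators of `E`
  set G : Finset Qb := T ∪ {c, b ^ p} ∪
    S.biUnion (fun s => (Finset.range p).image (fun i => (Pf s).coeff i)) with hG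
  have hGfix : ∀ g ∈ G, ∀ τ ∈ A.inertiaSubgroupIn ℚ, τ g = g := by
    intro g hg τ hτ
    rw [hG, Finset.mem_union, Finset.mem_union] at hg
    rcases hg with (hg | hg) | hg
    · exact hT g hg τ hτ
    · rw [Finset.mem_insert, Finset.mem_singleton] at hg
      rcases hg with rfl | rfl
      · exact hcfix τ hτ
      · exact hbpfix τ hτ
    · obtain ⟨s, hs, hg⟩ := Finset.mem_biUnion.mp hg
      obtain ⟨i, -, rfl⟩ := Finset.mem_image.mp hg
      have := congrArg (fun q : Qb[X] => q.coeff i) ((hPf s hs).1 τ hτ)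
      simpa [Polynomial.coeff_map] using this
  set E : IntermediateField ℚ Qb := IntermediateField.adjoin ℚ (G : Set Qb) with hE
  have hint : ∀ x : Qb, IsIntegral ℚ x := fun x =>
    ((AlgebraicClosure.isAlgebraic ℚ).isAlgebraic x).isIntegral
  have hEfin : FiniteDimensional ℚ E :=
    IntermediateField.finiteDimensional_adjoin (fun x _ => hint x)
  have hGE : ∀ g ∈ G, g ∈ E := fun g hg =>
    IntermediateField.subset_adjoin ℚ _ (Finset.mem_coe.mpr hg)
  have hEfix : ∀ τ ∈ A.inertiaSubgroupIn ℚ, ∀ x ∈ E, τ x = x := by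
    intro τ hτ x hx
    have hle : E ≤ IntermediateField.fixedField (A.inertiaSubgroupIn ℚ) := by
      rw [hE, IntermediateField.adjoin_le_iff]
      intro g hg
      exact (IntermediateField.mem_fixedField_iff _ g).mpr
        (fun τ hτ => hGfix g (Finset.mem_coe.mp hg) τ hτ)
    exact (IntermediateField.mem_fixedField_iff _ x).mp (hle hx) τ hτ
  have hcE : c ∈ E := hGE c (by rw [hG]; simp)
  have hbpE : b ^ p ∈ E := hGE (b ^ p) (by rw [hG]; simp)
  have hπfin : FiniteDimensional ℚ ℚ⟮π⟯ := IntermediateField.adjoin.finiteDimensional (hint π)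
  set Ks : IntermediateField ℚ Qb := E ⊔ ℚ⟮π⟯ with hKs
  have hKsfin : FiniteDimensional ℚ Ks := IntermediateField.finiteDimensional_sup E ℚ⟮π⟯
  have hEKs : E ≤ Ks := le_sup_left
  have hπKs : π ∈ Ks :=
    (le_sup_right : ℚ⟮π⟯ ≤ Ks) (IntermediateField.mem_adjoin_simple_self ℚ π)
  have hπ1 : π + 1 = b / c := by rw [hπdef]; ring
  have hπE : (π + 1) ^ p ∈ E := by
    rw [hπ1, div_pow]
    exact div_mem hbpE (pow_mem hcE p)
  have hdec : ∀ x ∈ Ks, ∃ P : Qb[X], (∀ i, P.coeff i ∈ E) ∧ P.natDegree < p ∧ P.eval π = x :=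
    fun x hx => exists_poly_of_mem_sup E hp.pos hπE hx
  have hbKs : b ∈ Ks := by
    have h1 : b = c * (π + 1) := by rw [hπ1]; field_simp
    rw [h1]
    exact mul_mem (hEKs hcE) (add_mem hπKs (one_mem _))
  have hSKs : ∀ s ∈ S, s ∈ Ks := by
    intro s hs
    obtain ⟨-, hdeg, hev⟩ := hPf s hs
    rw [← hev, Polynomial.eval_eq_sum_range' hdeg]
    refine sum_mem (fun i hi => mul_mem (hEKs (hGE _ ?_)) (pow_mem hπKs i))
    rw [hG]
    exact Finset.mem_union_right _ (Finset.mem_biUnion.mpr ⟨s, hs, Finset.mem_image_of_mem _ hi⟩)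
  have hKsfix : ∀ σ ∈ A.inertiaSubgroupIn ℚ, σ b = b → ∀ x ∈ Ks, σ x = x := by
    intro σ hσ hσb x hx
    obtain ⟨P, hPE, hPdeg, rfl⟩ := hdec x hx
    have hσπ : σ π = π := by
      rw [hπdef, map_sub, map_div₀, hσb, hcfix σ hσ, map_one]
    rw [Polynomial.eval_eq_sum_range' hPdeg, map_sum]
    refine Finset.sum_congr rfl (fun i _ => ?_)
    rw [map_mul, map_pow, hσπ, hEfix σ hσ _ (hPE i)]
  exact ⟨E, Ks, hEfin, hKsfin, hEKs, hEfix, fun t ht => hGE t (by rw [hG]; simp [ht]), hcE, hbpE,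
    hbKs, hπKs, hSKs, hKsfix, hdec⟩

include hp hA hζ in
/-- **Descent to `Ks = E(π)`.**  A series of `laurentBaseChange ℚ̄ F₀` fixed by the
coefficientwise action of the stabiliser of `b` in the inertia group is defined over
`Ks = E(π)`, `E` a number field fixed by the inertia group. -/
theorem exists_rep (hb0 : b ≠ 0) (hc0 : c ≠ 0)
    (hcfix : ∀ τ ∈ A.inertiaSubgroupIn ℚ, τ c = c)
    (hbI : ∀ τ ∈ A.inertiaSubgroupIn ℚ, ∃ j : ℕ, τ b = ζ ^ j * b)
    (hπ : A.valuation (b / c - 1) ^ p = A.valuation (p : Qb))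
    (F₀ : IntermediateField ℚ (LaurentSeries ℚ)) {z : LaurentSeries Qb}
    (hz : z ∈ laurentBaseChange Qb F₀)
    (hinv : ∀ τ : GQb, τ ∈ A.inertiaSubgroupIn ℚ → τ b = b →
      coeffMap ((τ : Qb ≃ₐ[ℚ] Qb) : Qb →+* Qb) z = z)
    (T : Finset Qb) (hT : ∀ t ∈ T, ∀ σ ∈ A.inertiaSubgroupIn ℚ, σ t = t) :
    ∃ E Ks : IntermediateField ℚ Qb, FiniteDimensional ℚ E ∧ FiniteDimensional ℚ Ks ∧ E ≤ Ks ∧
      (∀ τ ∈ A.inertiaSubgroupIn ℚ, ∀ x ∈ E, τ x = x) ∧ (∀ t ∈ T, t ∈ E) ∧ c ∈ E ∧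
      b ^ p ∈ E ∧ b ∈ Ks ∧ b / c - 1 ∈ Ks ∧
      (∀ σ ∈ A.inertiaSubgroupIn ℚ, σ b = b → ∀ x ∈ Ks, σ x = x) ∧
      (∀ x ∈ Ks, ∃ P : Qb[X], (∀ i, P.coeff i ∈ E) ∧ P.natDegree < p ∧
        P.eval (b / c - 1) = x) ∧
      ∃ y : LaurentSeries Ks, y ∈ laurentBaseChange Ks F₀ ∧
        coeffMap (algebraMap Ks Qb) y = z := by
  classical
  obtain ⟨K₀, hK₀fin, hK₀fix, -, y₀, -, hy₀z⟩ :=
    Fermat.Agent.S36.Descent.exists_numberField_rep F₀ (stab A b) hz
      (fun τ hτ => hinv τ hτ.1 hτ.2) ∅ (by simp)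
  have : FiniteDimensional ℚ K₀ := hK₀fin
  obtain ⟨α, hα⟩ := Field.exists_primitive_element ℚ K₀
  have hαfix : ∀ σ ∈ A.inertiaSubgroupIn ℚ, σ b = b → σ (α : Qb) = (α : Qb) :=
    fun σ hσ hσb => hK₀fix σ ⟨hσ, hσb⟩ _ α.2
  obtain ⟨E, Ks, hEfin, hKsfin, hEKs, hEfix, hTE, hcE, hbpE, hbKs, hπKs, hSKs, hKsfix, hdec⟩ :=
    exists_base_field A hp hA hζ hb0 hc0 hcfix hbI hπ {(α : Qb)}
      (fun s hs σ hσ hσb => by rw [Finset.mem_singleton.mp hs]; exact hαfix σ hσ hσb) T hT
  have hK₀Ks : K₀ ≤ Ks := by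
    have h1 := IntermediateField.lift_adjoin_simple ℚ K₀ α
    have h2 : K₀ = ℚ⟮(α : Qb)⟯ := by
      rw [← h1]
      exact (IntermediateField.lift_top ℚ K₀).symm.trans
        (congrArg IntermediateField.lift hα.symm)
    rw [h2, IntermediateField.adjoin_simple_le_iff]
    exact hSKs _ (Finset.mem_singleton_self _)
  have hcoeff : ∀ n : ℤ, z.coeff n ∈ Ks := by
    intro n
    have h2 : z.coeff n = ((y₀.coeff n : K₀) : Qb) := by
      rw [← hy₀z]
      rfl
    rw [h2]
    exact hK₀Ks (y₀.coeff n).2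
  exact ⟨E, Ks, hEfin, hKsfin, hEKs, hEfix, hTE, hcE, hbpE, hbKs, hπKs, hKsfix, hdec,
    Fermat.Agent.S36.Descent.exists_rep_of_coeff_mem F₀ Ks hz hcoeff⟩

include hp hA hζ in
/-- **Descent to `Ks = E(π)`, level `N`.**  A function of level `N` fixed by `gal N σ` for every
`σ` of the stabiliser of `b` in the inertia group is defined over `Ks = E(π)`. -/
theorem exists_rep_level (hb0 : b ≠ 0) (hc0 : c ≠ 0)
    (hcfix : ∀ τ ∈ A.inertiaSubgroupIn ℚ, τ c = c)
    (hbI : ∀ τ ∈ A.inertiaSubgroupIn ℚ, ∃ j : ℕ, τ b = ζ ^ j * b)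
    (hπ : A.valuation (b / c - 1) ^ p = A.valuation (p : Qb))
    (N : ℕ) (f0 : Fb N)
    (hinv : ∀ τ : GQb, τ ∈ A.inertiaSubgroupIn ℚ → τ b = b → gal N τ f0 = f0)
    (T : Finset Qb) (hT : ∀ t ∈ T, ∀ σ ∈ A.inertiaSubgroupIn ℚ, σ t = t) :
    ∃ E Ks : IntermediateField ℚ Qb, FiniteDimensional ℚ E ∧ FiniteDimensional ℚ Ks ∧ E ≤ Ks ∧
      (∀ τ ∈ A.inertiaSubgroupIn ℚ, ∀ x ∈ E, τ x = x) ∧ (∀ t ∈ T, t ∈ E) ∧ c ∈ E ∧
      b ^ p ∈ E ∧ b ∈ Ks ∧ b / c - 1 ∈ Ks ∧
      (∀ σ ∈ A.inertiaSubgroupIn ℚ, σ b = b → ∀ x ∈ Ks, σ x = x) ∧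
      (∀ x ∈ Ks, ∃ P : Qb[X], (∀ i, P.coeff i ∈ E) ∧ P.natDegree < p ∧
        P.eval (b / c - 1) = x) ∧
      ∃ y : LaurentSeries Ks, y ∈ laurentBaseChange Ks (modularFunctionFieldFull N) ∧
        coeffMap (algebraMap Ks Qb) y = (f0 : LaurentSeries Qb) := by
  refine exists_rep A hp hA hζ hb0 hc0 hcfix hbI hπ (modularFunctionFieldFull N) f0.2
    (fun τ hτ hτb => ?_) T hT
  have h := congrArg (fun x : Fb N => (x : LaurentSeries Qb)) (hinv τ hτ hτb)
  simpa only [coe_gal] using h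

end Field

end Fermat.Agent.S44.L.EisBase
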