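import Mathlib

/-!
# PROGRAM MR (S44), strand L: the divisor of a "modular unit" at a point of a regular model

Level-free, Mathlib only.  `R` a factorial domain (the local ring of the regular model at a
closed point), `F = Frac R`, `D ∈ Fˣ` (the Eisenstein function `Δ(q)/Δ(q^p)`).

* `GInt g x`, `GUnit g x` : `x ∈ F` is integral, resp. a unit, at the prime element `g`
  (`x = a / b` with `b`, resp. `a` and `b`, prime to `g`).
* `gInt_of_isIntegral_adjoin` : an element integral over `K[j]` is integral at `g` as soon as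
  the constants `K` and `j` are (the localisation of an integrally closed domain at a prime
  element is integrally closed).
* `gUnit_of_isIntegral_adjoin` : if `D` and `D⁻¹` are integral over `K[j]`, `D` is a unit at `g`
  (horizontal primes over finite points; input: `EisInt.isIntegral_eisD(_inv)`).
* `exists_unit_eq_of_forall_gUnit` : a unit at every prime element is a unit of `R`
  (smooth points of the component at infinity).
* `exists_unit_mul_pow_of_gUnit` : if `D` is a unit at every prime not associated to `t` and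
  `D / t ^ n` is a unit at `t`, then `D = u * t ^ n` with `u ∈ Rˣ` (crossing points: `t` the
  local equation of the component at zero, `n = 12`).
* `map_div_eq_of_eq_unit_mul_pow` : the reduction of `D = u * t ^ n` along any ring hom
  `φ : R → k` is `φ u * φ t ^ n`.
-/

set_option autoImplicit false
set_option linter.unusedSectionVars false

namespace Fermat.Agent.S44.L.EisGUnit

open Polynomial nonZeroDivisors

section Basic

variable {R : Type*} [CommRing R] [IsDomain R] {F : Type*} [Field F] [Algebra R F]
  [IsFractionRing R F]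

/-- `x` is integral at the prime `g`: `x = a / b` with `b` prime to `g`. -/
def GInt (g : R) (x : F) : Prop :=
  ∃ a b : R, ¬ g ∣ b ∧ algebraMap R F b * x = algebraMap R F a

/-- `x` is a unit at the prime `g`: `x = a / b` with `a`, `b` prime to `g`. -/
def GUnit (g : R) (x : F) : Prop :=
  ∃ a b : R, ¬ g ∣ a ∧ ¬ g ∣ b ∧ algebraMap R F b * x = algebraMap R F a

theorem GUnit.gInt {g : R} {x : F} (h : GUnit g x) : GInt g x := by
  obtain ⟨a, b, -, hb, h⟩ := h
  exact ⟨a, b, hb, h⟩

theorem gInt_algebraMap {g : R} (hg : Prime g) (r : R) : GInt g (algebraMap R F r) :=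
  ⟨r, 1, hg.not_dvd_one, by rw [map_one, one_mul]⟩

/-- The complement of the prime ideal `(g)`. -/
def complOf {g : R} (hg : Prime g) : Submonoid R where
  carrier := {s | ¬ g ∣ s}
  one_mem' := hg.not_dvd_one
  mul_mem' := fun ha hb hd => (hg.dvd_or_dvd hd).elim ha hb

theorem complOf_le {g : R} (hg : Prime g) : complOf hg ≤ R⁰ := by
  intro s hs
  exact mem_nonZeroDivisors_of_ne_zero (fun h0 => hs (h0 ▸ dvd_zero g))

/-- The localisation `R_(g)` as a subalgebra of `F`. -/
noncomputable def locAt (F : Type*) [Field F] [Algebra R F] [IsFractionRing R F] {g : R}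
    (hg : Prime g) : Subalgebra R F :=
  Localization.subalgebra.ofField F (complOf hg) (complOf_le hg)

theorem mem_locAt_iff {g : R} (hg : Prime g) (x : F) : x ∈ locAt F hg ↔ GInt g x := by
  have hiff : x ∈ locAt F hg ↔
      ∃ (a s : R) (_ : s ∈ complOf hg), x = algebraMap R F a * (algebraMap R F s)⁻¹ := Iff.rfl
  rw [hiff]
  constructor
  · rintro ⟨a, s, hs, rfl⟩
    have hs0 : algebraMap R F s ≠ 0 := by
      intro h0
      have : s = 0 := IsFractionRing.injective R F (by rw [h0, map_zero])
      exact hs (this ▸ dvd_zero g)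
    exact ⟨a, s, hs, by field_simp⟩
  · rintro ⟨a, b, hb, h⟩
    have hb0 : algebraMap R F b ≠ 0 := by
      intro h0
      have : b = 0 := IsFractionRing.injective R F (by rw [h0, map_zero])
      exact hb (this ▸ dvd_zero g)
    refine ⟨a, b, hb, ?_⟩
    rw [← h]
    field_simp

theorem GInt.add {g : R} (hg : Prime g) {x y : F} (hx : GInt g x) (hy : GInt g y) :
    GInt g (x + y) :=
  (mem_locAt_iff hg _).mp
    ((locAt F hg).add_mem ((mem_locAt_iff hg x).mpr hx) ((mem_locAt_iff hg y).mpr hy))

theorem GInt.mul {g : R} (hg : Prime g) {x y : F} (hx : GInt g x) (hy : GInt g y) :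
    GInt g (x * y) :=
  (mem_locAt_iff hg _).mp
    ((locAt F hg).mul_mem ((mem_locAt_iff hg x).mpr hx) ((mem_locAt_iff hg y).mpr hy))

/-- **`R_(g)` is integrally closed in `F`** (`R` integrally closed): an element integral over a
subring of elements integral at `g` is integral at `g`. -/
theorem gInt_of_isIntegral [IsIntegrallyClosed R] {g : R} (hg : Prime g) (T : Subring F)
    (hT : ∀ y ∈ T, GInt g y) {x : F} (hx : IsIntegral T x) : GInt g x := by
  have hloc : IsLocalization (complOf hg) (locAt F hg) :=
    Localization.subalgebra.isLocalization_ofField F (complOf hg) (complOf_le hg)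
  have : IsIntegrallyClosed (locAt F hg) :=
    isIntegrallyClosed_of_isLocalization (locAt F hg) (complOf hg) (complOf_le hg)
  obtain ⟨Q, hQ, h0⟩ := hx
  let ι : T →+* locAt F hg :=
    { toFun := fun y => ⟨y.1, (mem_locAt_iff hg y.1).mpr (hT y.1 y.2)⟩
      map_one' := rfl
      map_mul' := fun _ _ => rfl
      map_zero' := rfl
      map_add' := fun _ _ => rfl }
  have hcomp : (algebraMap (locAt F hg) F).comp ι = algebraMap T F := rfl
  have hint : IsIntegral (locAt F hg) x :=
    ⟨Q.map ι, hQ.map ι, by rw [eval₂_map, hcomp]; exact h0⟩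
  obtain ⟨y, hy⟩ := (IsIntegrallyClosed.isIntegral_iff (R := locAt F hg) (K := F)).mp hint
  rw [← hy]
  exact (mem_locAt_iff hg _).mp y.2

/-- An element integral over `K[j]` is integral at `g` as soon as the constants and `j` are. -/
theorem gInt_of_isIntegral_adjoin [IsIntegrallyClosed R] {g : R} (hg : Prime g)
    {K : Type*} [Field K] [Algebra K F] (j : F) (hj : GInt g j)
    (hK : ∀ c : K, GInt g (algebraMap K F c)) {x : F}
    (hx : IsIntegral (Algebra.adjoin K {j}) x) : GInt g x := by
  have key : ∀ y, y ∈ Algebra.adjoin K {j} → GInt g y := by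
    intro y hy
    induction hy using Algebra.adjoin_induction with
    | mem y hy =>
      rw [Set.mem_singleton_iff] at hy
      rw [hy]
      exact hj
    | algebraMap c => exact hK c
    | add y z _ _ hy hz => exact GInt.add hg hy hz
    | mul y z _ _ hy hz => exact GInt.mul hg hy hz
  exact gInt_of_isIntegral hg (Algebra.adjoin K {j}).toSubring
    (fun y hy => key y (Subalgebra.mem_toSubring.mp hy)) hx

/-- Integral at `g` with inverse integral at `g`: a unit at `g`. -/
theorem gUnit_of_gInt_inv {g : R} (hg : Prime g) {x : F} (hx0 : x ≠ 0) (hx : GInt g x)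
    (hxi : GInt g x⁻¹) : GUnit g x := by
  obtain ⟨a, b, hb, h⟩ := hx
  obtain ⟨a', b', hb', h'⟩ := hxi
  refine ⟨a, b, ?_, hb, h⟩
  intro hd
  have e : algebraMap R F (a * a') = algebraMap R F (b * b') := by
    rw [map_mul, map_mul, ← h, ← h']
    field_simp
  have e' := IsFractionRing.injective R F e
  have : g ∣ b * b' := by
    rw [← e']
    exact Dvd.dvd.mul_right hd a'
  exact (hg.dvd_or_dvd this).elim hb hb'

/-- **`D` and `D⁻¹` integral over `K[j]`: `D` is a unit at `g`**, as soon as the constants and
`j` are integral at `g`. -/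
theorem gUnit_of_isIntegral_adjoin [IsIntegrallyClosed R] {g : R} (hg : Prime g)
    {K : Type*} [Field K] [Algebra K F] (j : F) (hj : GInt g j)
    (hK : ∀ c : K, GInt g (algebraMap K F c)) {D : F} (hD0 : D ≠ 0)
    (hD : IsIntegral (Algebra.adjoin K {j}) D) (hDi : IsIntegral (Algebra.adjoin K {j}) D⁻¹) :
    GUnit g D :=
  gUnit_of_gInt_inv hg hD0 (gInt_of_isIntegral_adjoin hg j hj hK hD)
    (gInt_of_isIntegral_adjoin hg j hj hK hDi)

end Basic

section UFD

variable {R : Type*} [CommRing R] [IsDomain R] [UniqueFactorizationMonoid R]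
  {F : Type*} [Field F] [Algebra R F] [IsFractionRing R F]

theorem isUnit_of_forall_prime_not_dvd {x : R} (hx0 : x ≠ 0)
    (h : ∀ g : R, Prime g → ¬ g ∣ x) : IsUnit x := by
  by_contra hu
  obtain ⟨i, hi, hix⟩ := WfDvdMonoid.exists_irreducible_factor hu hx0
  exact h i (UniqueFactorizationMonoid.irreducible_iff_prime.mp hi) hix

/-- In a reduced fraction `D = A / B`, a prime at which `D` is a unit divides neither `A` nor
`B`. -/
theorem not_dvd_of_gUnit {g : R} (hg : Prime g) {A B : R} (hrel : IsRelPrime A B) {D : F}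
    (hAB : algebraMap R F B * D = algebraMap R F A) (hu : GUnit g D) : ¬ g ∣ A ∧ ¬ g ∣ B := by
  obtain ⟨a, b, ha, hb, h⟩ := hu
  have e : algebraMap R F (b * A) = algebraMap R F (a * B) := by
    rw [map_mul, map_mul, ← hAB, ← h]
    ring
  have e' := IsFractionRing.injective R F e
  constructor
  · intro hA
    have h1 : g ∣ a * B := by
      rw [← e']
      exact Dvd.dvd.mul_left hA b
    have hB : g ∣ B := (hg.dvd_or_dvd h1).resolve_left ha
    exact hg.not_isUnit (hrel hA hB)
  · intro hB
    have h1 : g ∣ b * A := by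
      rw [e']
      exact Dvd.dvd.mul_left hB a
    have hA : g ∣ A := (hg.dvd_or_dvd h1).resolve_left hb
    exact hg.not_isUnit (hrel hA hB)

/-- **A nonzero element that is a unit at every prime element is a unit of `R`.** -/
theorem exists_unit_eq_of_forall_gUnit {D : F} (hD0 : D ≠ 0)
    (h : ∀ g : R, Prime g → GUnit g D) : ∃ u : Rˣ, D = algebraMap R F u := by
  obtain ⟨A, ⟨B, hB⟩, hrel, hD⟩ := IsFractionRing.exists_reduced_fraction R D
  have hinj := IsFractionRing.injective R F
  have hB0 : B ≠ 0 := nonZeroDivisors.ne_zero hB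
  have hBF : algebraMap R F B ≠ 0 := (map_ne_zero_iff _ hinj).mpr hB0
  have hAB : algebraMap R F B * D = algebraMap R F A := by
    rw [← hD, IsFractionRing.mk'_eq_div]
    field_simp
  have hA0 : A ≠ 0 := by
    rintro rfl
    rw [map_zero] at hAB
    exact hD0 ((mul_eq_zero.mp hAB).resolve_left hBF)
  have hAu : IsUnit A :=
    isUnit_of_forall_prime_not_dvd hA0 fun g hg => (not_dvd_of_gUnit hg hrel hAB (h g hg)).1
  have hBu : IsUnit B :=
    isUnit_of_forall_prime_not_dvd hB0 fun g hg => (not_dvd_of_gUnit hg hrel hAB (h g hg)).2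
  obtain ⟨uA, rfl⟩ := hAu
  obtain ⟨uB, rfl⟩ := hBu
  refine ⟨uA * uB⁻¹, ?_⟩
  have h1 : algebraMap R F ((uB : R)) * algebraMap R F ((uB⁻¹ : Rˣ) : R) = 1 := by
    rw [← map_mul, Units.mul_inv, map_one]
  rw [Units.val_mul, map_mul]
  apply mul_left_cancel₀ hBF
  rw [hAB]
  linear_combination (-(algebraMap R F (uA : R))) * h1

/-- `GUnit` only depends on the prime up to association. -/
theorem GUnit.of_associated {g t : R} (h : Associated g t) {x : F} (hx : GUnit t x) :
    GUnit g x := by
  obtain ⟨a, b, ha, hb, e⟩ := hx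
  exact ⟨a, b, fun hd => ha (h.symm.dvd.trans hd), fun hd => hb (h.symm.dvd.trans hd), e⟩

omit [UniqueFactorizationMonoid R] in
/-- Dividing by a power of an element prime to `g` preserves `GUnit g`. -/
theorem GUnit.div_pow {g t : R} (hg : Prime g) (hgt : ¬ g ∣ t) (n : ℕ) {x : F}
    (hx : GUnit g x) : GUnit g (x / algebraMap R F t ^ n) := by
  obtain ⟨a, b, ha, hb, e⟩ := hx
  have ht0 : t ≠ 0 := fun h0 => hgt (h0 ▸ dvd_zero g)
  have htF : algebraMap R F t ≠ 0 := (map_ne_zero_iff _ (IsFractionRing.injective R F)).mpr ht0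
  refine ⟨a, b * t ^ n, ha, fun hd => ?_, ?_⟩
  · rcases hg.dvd_or_dvd hd with h | h
    · exact hb h
    · exact hgt (hg.dvd_of_dvd_pow h)
  · rw [map_mul, map_pow, ← e]
    field_simp

/-- **The divisor of a modular unit at a crossing point.**  If `D ≠ 0` is a unit at every prime
element not associated to `t`, and `D / t ^ n` is a unit at `t`, then `D = u * t ^ n` with
`u ∈ Rˣ`. -/
theorem exists_unit_mul_pow_of_gUnit {t : R} (ht : Prime t) (n : ℕ) {D : F} (hD0 : D ≠ 0)
    (hhor : ∀ g : R, Prime g → ¬ Associated g t → GUnit g D)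
    (htn : GUnit t (D / algebraMap R F t ^ n)) :
    ∃ u : Rˣ, D = algebraMap R F u * algebraMap R F t ^ n := by
  have htF : algebraMap R F t ≠ 0 :=
    (map_ne_zero_iff _ (IsFractionRing.injective R F)).mpr ht.ne_zero
  have hD'0 : D / algebraMap R F t ^ n ≠ 0 := div_ne_zero hD0 (pow_ne_zero n htF)
  obtain ⟨u, hu⟩ := exists_unit_eq_of_forall_gUnit hD'0 (fun g hg => by
    by_cases hass : Associated g t
    · exact GUnit.of_associated hass htn
    · exact GUnit.div_pow hg (fun hd => hass (hg.associated_of_dvd ht hd)) n (hhor g hg hass))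
  refine ⟨u, ?_⟩
  rw [← hu]
  field_simp

omit [UniqueFactorizationMonoid R] in
/-- **Reduction of `D = u * t ^ n`**: for every ring hom `φ` from `R` and every representation
`b * D = a`: `φ a = φ b * φ u * φ t ^ n`. -/
theorem map_eq_of_eq_unit_mul_pow {k : Type*} [CommRing k] (φ : R →+* k) {D : F} {u : Rˣ}
    {t : R} {n : ℕ} (hD : D = algebraMap R F u * algebraMap R F t ^ n) {a b : R}
    (hab : algebraMap R F b * D = algebraMap R F a) : φ a = φ b * φ u * φ t ^ n := by
  have e : algebraMap R F a = algebraMap R F (b * u * t ^ n) := by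
    rw [← hab, hD, map_mul, map_mul, map_pow]
    ring
  rw [IsFractionRing.injective R F e, map_mul, map_mul, map_pow]

end UFD

end Fermat.Agent.S44.L.EisGUnit
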