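import Mathlib
import Fermat.Agent.S24.Modular.ThetaInst
import Fermat.Agent.S28.LExpForms
import Fermat.Agent.S30.HeckeGood
import Fermat.Agent.S37.Fn.RegInt
import Fermat.Agent.S44.L.EisFormal
import Fermat.Agent.Lib.Ramanujan

/-!
# PROGRAM MR (S44), strand L: holomorphic avatars are regular at the finite places

The analytic dictionary of S24 in the direction "holomorphic on `ℍ` ⟹ regular at every place
of `F_N / ℚ̄` where `j` is finite" (the converse of `S44/D/DictHol`), and its instance for the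
Eisenstein function `D = Δ(q)/Δ(q^p)` (helper51's `EisFormal.eisD`, helper77's `eisFun`), whose
avatar `τ ↦ Δ(τ)/Δ(pτ)` is holomorphic and nowhere zero on `ℍ` (helper144).

* `mem_of_thetaData`, `ord_nonneg_of_theta_mul` : if `G = a / b` (`a, b ∈ A₀(N)`) and
  `θ a = H · θ b` with `H` holomorphic on `ℍ`, then `0 ≤ ord_v G` at every place `v` with
  `0 ≤ ord_v j`.  Proof: the index-many embeddings `ρ_i = (· ∘ γ_i⁻¹) ∘ θ : A₀(N) → Hol(ℍ)`
  with the order function at a point `τ₀` above the residue of `j` form a full system over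
  `ℚ̄(j)` (`S24.FibreCount.mem_of_forall_nonneg`).
* `isIntegral_of_theta_mul` : such a `G` is integral over `ℚ̄[j]`.
* `hasQ_deltaL`, `hasQ_scale` : `Δ` has `q`-expansion `EisFormal.deltaL`; `q ↦ q^d` is `τ ↦ dτ`.
* `ord_eisD_eq_zero` : PLACE FORM of "`D` is a modular unit": `ord_v D = 0` at every finite
  place, for any `D ∈ F_M` with `q`-expansion `EisFormal.eisD`.  (The integrality of `D`, `D⁻¹`
  over `ℚ̄[j]` as formal series is helper77's `S44/L/EisInt`; it is not re-proved here.)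
-/

set_option autoImplicit false
set_option linter.style.haveILetI false

noncomputable section

namespace Fermat.Agent.S44.L.EisUnit

open ModularCurve AlgebraicCurve IntermediateField CongruenceSubgroup UpperHalfPlane
open Fermat.Agent.S24.HolH Fermat.Agent.S24.JHol Fermat.Agent.S24.JFun
open Fermat.Agent.S24.Modular Fermat.Agent.S24.Theta Fermat.Agent.S24.FibreCount
open Fermat.Agent.S24.StabAbs
open Fermat.Agent.S24.Generic.G3Adapter
open scoped MatrixGroups Manifold

local notation "𝕢" => Function.Periodic.qParam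
local notation "Δ" => ModularForm.discriminant

/-! ### Holomorphic avatars are regular at the finite places -/

/-- **Holomorphic ⟹ regular over `j = c`.**  If `G = a / b` with `a, b` in the uniformised
subalgebra and `θ a = H · θ b` for a holomorphic `H`, then `G` lies in the valuation ring of
every place over `j = c`. -/
theorem mem_of_thetaData {N : ℕ} [NeZero N] (D : ThetaData N) {G : FN N} {a b : D.F₀}
    (hb : (b : FN N) ≠ 0) (hab : G * (b : FN N) = (a : FN N)) {H : HolH}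
    (hH : D.θ a = H * D.θ b) (v : Place Kbar (FN N)) (c : Kbar)
    (hv : 0 < v.ord (jF N - algebraMap Kbar (FN N) c)) : G ∈ v.toValuationSubring := by
  classical
  rcases eq_or_ne G 0 with rfl | hG0
  · exact zero_mem _
  letI : Fintype (SL(2, ℤ) ⧸ Gamma0 N) := Fintype.ofFinite _
  have hb0 : b ≠ 0 := fun h0 => hb (by rw [h0]; rfl)
  have ha0 : a ≠ 0 := by
    intro h0
    rw [h0] at hab
    exact mul_ne_zero hG0 hb hab
  have hθa : D.θ a ≠ 0 := (map_ne_zero_iff _ D.θ_inj).mpr ha0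
  have hH0 : H ≠ 0 := by
    rintro rfl
    rw [zero_mul] at hH
    exact hθa hH
  obtain ⟨τ0, hτ0⟩ := jFun_surjective (D.emb c)
  have hmul : ∀ x y : HolH, x ≠ 0 → y ≠ 0 → ordZ τ0 (x * y) = ordZ τ0 x + ordZ τ0 y :=
    fun x y hx hy => ordZ_mul τ0 hx hy
  have hadd : ∀ x y : HolH, x ≠ 0 → y ≠ 0 → x + y ≠ 0 →
      min (ordZ τ0 x) (ordZ τ0 y) ≤ ordZ τ0 (x + y) :=
    fun x y hx hy hxy => min_le_ordZ_add τ0 hx hy hxy
  haveI hfrac : IsFractionRing D.F₀ (FN N) := isFractionRing_of_forall D.F₀ D.hF₀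
  have hinjR : Function.Injective (algebraMap HolH (FractionRing HolH)) :=
    IsFractionRing.injective HolH (FractionRing HolH)
  have hginj : ∀ i, Function.Injective ((algebraMap HolH (FractionRing HolH)).comp (D.ρ i)) :=
    fun i => hinjR.comp (D.ρ_injective i)
  let ι : (SL(2, ℤ) ⧸ Gamma0 N) → FN N →+* FractionRing HolH :=
    fun i => IsFractionRing.lift (K := FN N) (hginj i)
  have hι_alg : ∀ i (x : D.F₀),
      ι i (x : FN N) = algebraMap HolH (FractionRing HolH) (D.ρ i x) :=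
    fun i x => IsFractionRing.lift_algebraMap (hginj i) x
  have hρ0 : ∀ i (x : D.F₀), x ≠ 0 → D.ρ i x ≠ 0 := fun i x hx =>
    (map_ne_zero_iff _ (D.ρ_injective i)).mpr hx
  have hw : IsOrd (ordFrac (ordZ τ0)) := isOrd_ordFrac hmul hadd
  have hfin0 : FiniteDimensional Kbar⟮jF N⟯ (FN N) := finite_jF N
  haveI hfin : Module.Finite Kbar⟮jF N - algebraMap Kbar (FN N) c⟯ (FN N) :=
    Fermat.Agent.S24.AdjoinShift.finiteDimensional_sub_algebraMap (jF N) c hfin0
  have ht0 : jF N - algebraMap Kbar (FN N) c ≠ 0 := by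
    intro h0
    rw [h0, v.ord_zero] at hv
    exact lt_irrefl _ hv
  have hnum : ((D.num c : D.F₀) : FN N) = jF N - algebraMap Kbar (FN N) c := rfl
  have hconst : ∀ c' : Kbar,
      ((algebraMap Kbar D.F₀ c' : D.F₀) : FN N) = algebraMap Kbar (FN N) c' := fun _ => rfl
  have hjne : jHol - algebraMap ℂ HolH (D.emb c) ≠ 0 := jHol_sub_ne_zero _
  refine mem_of_forall_nonneg (K := Kbar) ι hw ?_ ?_ ?_ ?_ ?_ ht0 ?_ v hv G ?_
  · intro i j hij
    apply D.ρ_ne
    refine RingHom.ext fun x => ?_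
    apply hinjR
    rw [← hι_alg, ← hι_alg, hij]
  · rw [Fermat.Agent.S24.AdjoinShift.finrank_sub_algebraMap, finrank_jF,
      ← Nat.card_eq_fintype_card, Fermat.Agent.S24.Comb.card_quotient_Gamma0]
  · intro i j c'
    rw [← hconst, hι_alg, hι_alg, D.ρ_const, D.ρ_const]
  · intro i c' hc'
    have hne : algebraMap ℂ HolH (D.emb c') ≠ 0 :=
      (map_ne_zero_iff _ (algebraMap ℂ HolH).injective).mpr
        ((map_ne_zero_iff _ D.emb.injective).mpr hc')
    rw [← hconst, hι_alg, D.ρ_const, ordFrac_algebraMap hmul hne]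
    exact ordZ_algebraMap ((map_ne_zero_iff _ D.emb.injective).mpr hc')
  · intro i j
    rw [← hnum, hι_alg, hι_alg, D.ρ_num, D.ρ_num]
  · intro i
    rw [← hnum, hι_alg, D.ρ_num, ordFrac_algebraMap hmul hjne]
    refine (ordZ_pos_iff hjne).mpr ?_
    show jFun τ0 - D.emb c = 0
    rw [hτ0, sub_self]
  · intro i
    have h1 : ι i G * ι i (b : FN N) = ι i (a : FN N) := by rw [← map_mul, hab]
    rw [hι_alg, hι_alg] at h1
    have hb' : algebraMap HolH (FractionRing HolH) (D.ρ i b) ≠ 0 :=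
      (map_ne_zero_iff _ hinjR).mpr (hρ0 i b hb0)
    have h2 : ι i G = algebraMap HolH (FractionRing HolH) (D.ρ i a) /
        algebraMap HolH (FractionRing HolH) (D.ρ i b) := by
      rw [eq_div_iff hb']
      exact h1
    rw [h2, ordFrac_div hmul (hρ0 i a ha0) (hρ0 i b hb0)]
    have h3 : D.ρ i a = compSL (Quotient.out i)⁻¹ H * D.ρ i b := by
      rw [D.ρ_apply, D.ρ_apply, hH, map_mul]
    have h4 : compSL (Quotient.out i)⁻¹ H ≠ 0 :=
      (map_ne_zero_iff _ (compSL_injective _)).mpr hH0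
    rw [h3, ordZ_mul τ0 h4 (hρ0 i b hb0)]
    have := ordZ_nonneg τ0 (compSL (Quotient.out i)⁻¹ H)
    omega

/-- **Holomorphic ⟹ regular at every finite place** (`ThetaData` form). -/
theorem ord_nonneg_of_thetaData {N : ℕ} [NeZero N] (D : ThetaData N) {G : FN N} {a b : D.F₀}
    (hb : (b : FN N) ≠ 0) (hab : G * (b : FN N) = (a : FN N)) {H : HolH}
    (hH : D.θ a = H * D.θ b) (v : Place Kbar (FN N)) (hv : 0 ≤ v.ord (jF N)) :
    0 ≤ v.ord G := by
  rcases eq_or_ne G 0 with rfl | hG0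
  · rw [v.ord_zero]
  have hx0 := transcendental_jF N
  have hjF0 : jF N ≠ 0 := fun h => hx0 (h ▸ isAlgebraic_zero)
  have hmem : jF N ∈ v.toValuationSubring := (Fermat.Agent.S24.FF.ord_nonneg_iff v hjF0).mp hv
  obtain ⟨c, hc⟩ := Fermat.Agent.S24.FF.exists_residue (trdeg_FN N) v hmem
  have hvc : 0 < v.ord (jF N - algebraMap Kbar (FN N) c) := by
    rcases hc with hc | hc
    · exfalso
      apply hx0
      rw [hc]
      exact isAlgebraic_algebraMap c
    · exact hc
  exact (Fermat.Agent.S24.FF.ord_nonneg_iff v hG0).mpr (mem_of_thetaData D hb hab hH v c hvc)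

/-- **Holomorphic ⟹ regular at every finite place.**  If `G = a / b` with `a, b ∈ A₀(N)` and
`θ a = H · θ b` for a holomorphic function `H` on `ℍ`, then `0 ≤ ord_v G` at every place `v`
of `F_N` at which `j` is finite. -/
theorem ord_nonneg_of_theta_mul {N : ℕ} [NeZero N] {G : FN N} {a b : A0 N} (hb : b ≠ 0)
    (hab : G * (b : FN N) = (a : FN N)) {H : HolH}
    (hH : theta iotaBar N a = H * theta iotaBar N b) (v : Place Kbar (FN N))
    (hv : 0 ≤ v.ord (jF N)) : 0 ≤ v.ord G :=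
  ord_nonneg_of_thetaData (thetaData N) (a := a) (b := b) (fun h => hb (Subtype.ext h)) hab hH
    v hv

/-! ### The `q`-expansion of `Δ` and of `Δ(d τ)` -/

theorem deltaL_eq_deltaR : EisFormal.deltaL ℂ = Fermat.Agent.S28.Defs.deltaR ℂ := by
  unfold EisFormal.deltaL EisFormal.etaL EisFormal.etaR Fermat.Agent.S28.Defs.deltaR
    ModularCurve.dedekindEtaUnit
  rw [map_pow, map_pow]

/-- The analytic `Δ` has `q`-expansion the formal `Δ = q ∏ (1 - qⁿ)²⁴`. -/
theorem hasQ_deltaL {K : Type*} [Field K] (ι : K →+* ℂ) :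
    HasQ ι (EisFormal.deltaL K) (fun τ : ℍ => Δ τ) := by
  intro τ
  have h := Fermat.Agent.S28.LExpForms.hasSum_deltaR τ
  have hfun : (fun n : ℤ => ι ((EisFormal.deltaL K).coeff n) * 𝕢 1 (τ : ℂ) ^ n) =
      fun n : ℤ => (Fermat.Agent.S28.Defs.deltaR ℂ).coeff n * 𝕢 1 (τ : ℂ) ^ n := by
    funext n
    rw [← deltaL_eq_deltaR, ← EisFormal.coeffMap_deltaL ι, coeffMap_coeff]
  rw [hfun]
  exact h

/-- `q ↦ q^d` on `q`-expansions is `τ ↦ d τ` on functions. -/
theorem hasQ_scale {K : Type*} [Field K] (ι : K →+* ℂ) (d : ℕ) [NeZero d]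
    {A : LaurentSeries K} {φ : ℍ → ℂ} (h : HasQ ι A φ) :
    HasQ ι (qExpand K d A) (fun τ => φ (scaleH d τ)) := by
  intro τ
  have h1 := h (scaleH d τ)
  rw [qParam_scaleH] at h1
  exact (Fermat.Agent.S24.Puiseux.hasSum_qExpand_iff ι d A (𝕢 1 τ) _).mpr h1

/-- `Δ` as a holomorphic function on `ℍ`. -/
def deltaH : HolH :=
  ⟨fun τ : ℍ => Δ τ, Fermat.Agent.Lib.Ramanujan.mdifferentiable_discriminant⟩

/-- `τ ↦ Δ(d τ)` as a holomorphic function on `ℍ`. -/
def deltaScaleH (d : ℕ) [NeZero d] : HolH :=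
  ⟨fun τ : ℍ => Δ (scaleH d τ),
    (hasQ_scale (RingHom.id ℂ) d (hasQ_deltaL (RingHom.id ℂ))).mdiff⟩

/-- `1 / Δ` as a holomorphic function on `ℍ`. -/
def deltaInvH : HolH :=
  ⟨fun τ : ℍ => (Δ τ)⁻¹, by
    have h := (mdifferentiable_const (c := (1 : ℂ)) (I := 𝓘(ℂ)) (I' := 𝓘(ℂ)) (M := ℍ)).div
      Fermat.Agent.Lib.Ramanujan.mdifferentiable_discriminant
      (fun z => ModularForm.discriminant_ne_zero z)
    have he : (fun τ : ℍ => (Δ τ)⁻¹) = (fun _ : ℍ => (1 : ℂ)) / (Δ : ℍ → ℂ) := by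
      funext τ
      simp
    show MDifferentiable 𝓘(ℂ) 𝓘(ℂ) (fun τ : ℍ => (Δ τ)⁻¹)
    rw [he]
    exact h⟩

/-- `τ ↦ 1 / Δ(d τ)` as a holomorphic function on `ℍ`. -/
def deltaScaleInvH (d : ℕ) [NeZero d] : HolH :=
  ⟨fun τ : ℍ => (Δ (scaleH d τ))⁻¹, by
    have h := (mdifferentiable_const (c := (1 : ℂ)) (I := 𝓘(ℂ)) (I' := 𝓘(ℂ)) (M := ℍ)).div
      (deltaScaleH d).2 (fun z => ModularForm.discriminant_ne_zero (scaleH d z))
    have he : (fun τ : ℍ => (Δ (scaleH d τ))⁻¹)
        = (fun _ : ℍ => (1 : ℂ)) / (fun τ : ℍ => Δ (scaleH d τ)) := by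
      funext τ
      simp
    show MDifferentiable 𝓘(ℂ) 𝓘(ℂ) (fun τ : ℍ => (Δ (scaleH d τ))⁻¹)
    rw [he]
    exact h⟩

theorem deltaH_mul_inv : deltaH * deltaInvH = 1 :=
  Subtype.ext (funext fun τ => mul_inv_cancel₀ (ModularForm.discriminant_ne_zero τ))

theorem deltaScaleH_mul_inv (d : ℕ) [NeZero d] : deltaScaleH d * deltaScaleInvH d = 1 :=
  Subtype.ext (funext fun τ => mul_inv_cancel₀ (ModularForm.discriminant_ne_zero (scaleH d τ)))

/-! ### The Eisenstein function is a unit at the finite places -/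

/-- The avatar identity: if `D = a / b` has `q`-expansion `Δ(q)/Δ(q^p)`, then
`θ a · Δ(pτ) = Δ(τ) · θ b`. -/
theorem theta_mul_deltaScaleH {M p : ℕ} [NeZero M] [NeZero p] (hp : 0 < p) {D : FN M}
    (hD : ((D : FN M) : LaurentSeries Kbar) = EisFormal.eisD Kbar p hp) {a b : A0 M}
    (hab : D * (b : FN M) = (a : FN M)) :
    theta iotaBar M a * deltaScaleH p = deltaH * theta iotaBar M b := by
  have hne : qExpand Kbar p (EisFormal.deltaL Kbar) ≠ 0 := by
    rw [← Fermat.Agent.S30.HeckeGood.expand_eq_qExpand p hp]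
    exact EisFormal.expand_deltaL_ne_zero p hp
  have hser : (((a : FN M) : FN M) : LaurentSeries Kbar) * qExpand Kbar p (EisFormal.deltaL Kbar)
      = EisFormal.deltaL Kbar * (((b : FN M) : FN M) : LaurentSeries Kbar) := by
    have h1 : (((a : FN M) : FN M) : LaurentSeries Kbar)
        = ((D : FN M) : LaurentSeries Kbar) * (((b : FN M) : FN M) : LaurentSeries Kbar) := by
      rw [← hab]
      rfl
    rw [h1, hD, EisFormal.eisD, Fermat.Agent.S30.HeckeGood.expand_eq_qExpand p hp]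
    field_simp
  apply Subtype.ext
  have h1 := (hasQ_theta iotaBar M a).mul (hasQ_scale iotaBar p (hasQ_deltaL iotaBar))
  have h2 := (hasQ_deltaL iotaBar).mul (hasQ_theta iotaBar M b)
  rw [hser] at h1
  exact h1.fun_unique h2

/-- **The Eisenstein function is a unit at every finite place.**  Any `D ∈ F_M` with
`q`-expansion `Δ(q)/Δ(q^p)` has order `0` at every place of `F_M / ℚ̄` where `j` is finite. -/
theorem ord_eisD_eq_zero (M p : ℕ) [NeZero M] (hp : 0 < p) (D : FN M)
    (hD : ((D : FN M) : LaurentSeries Kbar) = EisFormal.eisD Kbar p hp)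
    (v : Place Kbar (FN M)) (hv : 0 ≤ v.ord (jF M)) : v.ord D = 0 := by
  haveI : NeZero p := ⟨hp.ne'⟩
  obtain ⟨a, b, hb, hab⟩ := exists_mul_eq D
  have hb0 : b ≠ 0 := fun h => hb (by rw [h]; rfl)
  have hD0 : D ≠ 0 := by
    intro h0
    have h1 := EisFormal.eisD_ne_zero (K := Kbar) p hp
    rw [← hD, h0] at h1
    exact h1 rfl
  have ha : (a : FN M) ≠ 0 := by
    rw [← hab]
    exact mul_ne_zero hD0 hb
  have ha0 : a ≠ 0 := fun h => ha (by rw [h]; rfl)
  have hkey := theta_mul_deltaScaleH hp hD hab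
  -- `θ a = (Δ / Δ(p·)) · θ b`
  have h1 : theta iotaBar M a = (deltaH * deltaScaleInvH p) * theta iotaBar M b := by
    calc theta iotaBar M a
        = theta iotaBar M a * (deltaScaleH p * deltaScaleInvH p) := by
          rw [deltaScaleH_mul_inv, mul_one]
      _ = (theta iotaBar M a * deltaScaleH p) * deltaScaleInvH p := by ring
      _ = (deltaH * deltaScaleInvH p) * theta iotaBar M b := by rw [hkey]; ring
  -- `θ b = (Δ(p·) / Δ) · θ a`
  have h2 : theta iotaBar M b = (deltaInvH * deltaScaleH p) * theta iotaBar M a := by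
    calc theta iotaBar M b
        = (deltaH * deltaInvH) * theta iotaBar M b := by rw [deltaH_mul_inv, one_mul]
      _ = deltaInvH * (deltaH * theta iotaBar M b) := by ring
      _ = (deltaInvH * deltaScaleH p) * theta iotaBar M a := by rw [← hkey]; ring
  have hab' : D⁻¹ * (a : FN M) = (b : FN M) := by
    rw [← hab, ← mul_assoc, inv_mul_cancel₀ hD0, one_mul]
  have hpos := ord_nonneg_of_theta_mul hb0 hab h1 v hv
  have hneg := ord_nonneg_of_theta_mul ha0 hab' h2 v hv
  rw [v.ord_inv] at hneg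
  omega

/-- **Holomorphic avatar ⟹ integral over `ℚ̄[j]`.** -/
theorem isIntegral_of_theta_mul {N : ℕ} [NeZero N] {G : FN N} {a b : A0 N} (hb : b ≠ 0)
    (hab : G * (b : FN N) = (a : FN N)) {H : HolH}
    (hH : theta iotaBar N a = H * theta iotaBar N b) :
    IsIntegral (Algebra.adjoin Kbar ({jF N} : Set (FN N))) G := by
  haveI : Module.Finite Kbar⟮jF N⟯ (FN N) := finite_jF N
  exact Fermat.Agent.S37.Fn.RegInt.isIntegral_of_forall_ord_nonneg (jF N) (transcendental_jF N) G
    (fun P hP => ord_nonneg_of_theta_mul hb hab hH P hP)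

end Fermat.Agent.S44.L.EisUnit
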