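import Mathlib
import Fermat.Agent.S44.L.EisUnitAtU4
import Fermat.Agent.S44.L.CentreChartZero

/-!
# PROGRAM MR (S44), strand L, row FE.3: the `D̄`-forms in the binder shape of `Alt/RhoSeries`

`EisUnitAtU4.eis_dforms_u4` restated in the shape of the two binders `hDnode`, `hDsmooth` of the
`k`-level seam `Alt/RhoSeries.rhoForms_of_series` (node marker `RingHom.ker r₂ ≤ y` for the
second reduction `r₂ = CentreChartZero.rZero4` of the `u₄` chart, existential `p`-th power
factor `h'`), at `r = CentreChartU4.rInf4`, `t = U - V ^ q` (the `t₂` of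
`NodeC1Inst.node_u4_OE`):

* `eis_dnode_u4` : at a crossing point off the cusps, `∃ h', Loc.UnitAt r y D̄ (r t ^ (12 : ℤ) * h' ^ q)`;
* `eis_dsmooth_u4` : at a point of the `∞`-component only, off the cusps,
  `∃ h', Loc.UnitAt r y D̄ (h' ^ q)`;
* `eisBar_ne_zero` : `D̄ ≠ 0` (the binder `hDb0`).
-/

set_option autoImplicit false
set_option linter.unusedSectionVars false
set_option linter.unusedVariables false
set_option linter.style.haveILetI false
set_option linter.style.longLine false
set_option synthInstance.maxHeartbeats 400000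
set_option maxHeartbeats 1000000

open ModularCurve Polynomial IntermediateField

noncomputable section

namespace Fermat.Agent.S44.L.EisUnitAtU4Rho

open Fermat.Agent.S30 Fermat.Agent.S34 Fermat.Agent.S34.TwoPrimesGauss
open Fermat.Agent.S18.K1Defs Fermat.Agent.S18.K1Main
open Fermat.Agent.S34.TwoPrimesRank Fermat.Agent.S34.HauptU.Plug
open Fermat.Agent.S36.Haupt4 Fermat.Agent.S36.LevelQInstAlt
open Fermat.Agent.S44.Contract Fermat.Agent.S44.L.RedTransfer
open Fermat.Agent.S44.L.CentreChart Fermat.Agent.S44.L.CentreChartU4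
open Fermat.Agent.S44.L.CentreChartZero

local notation "Qb" => AlgebraicClosure ℚ

/-- **`D̄ ≠ 0`.** -/
theorem eisBar_ne_zero (M q : ℕ) [NeZero M] (A : ValuationSubring Qb) (Db : redField M A)
    (hDb : (Db : LaurentSeries (IsLocalRing.ResidueField A)) =
      Fermat.Agent.S44.L.EisFormal.deltaL (IsLocalRing.ResidueField A) *
        (Fermat.Agent.S44.L.EisFormal.deltaL (IsLocalRing.ResidueField A) ^ q)⁻¹) :
    Db ≠ 0 := by
  intro h
  have h1 : (Db : LaurentSeries (IsLocalRing.ResidueField A)) = 0 := by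
    rw [h]
    rfl
  rw [hDb] at h1
  exact mul_ne_zero Fermat.Agent.S44.L.EisFormal.deltaL_ne_zero
    (inv_ne_zero (pow_ne_zero q Fermat.Agent.S44.L.EisFormal.deltaL_ne_zero)) h1

variable (A : ValuationSubring Qb) (M q : ℕ) [NeZero M] [NeZero q]

/-- **The `D̄`-form at the crossing points of the `u₄` chart** (binder `hDnode` of
`Alt/RhoSeries.rhoForms_of_series`). -/
theorem eis_dnode_u4 (hq : q.Prime) (hodd : q ≠ 2) (hqM : ¬ q ∣ M) (h4 : 4 ∣ M)
    (hA : A.LiesOverPrime q) (K : IntermediateField ℚ Qb) [FiniteDimensional ℚ K]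
    [IsDiscreteValuationRing (OE A K)] (z : Qb) (hz : IsPrimitiveRoot z M) (hzK : z ∈ K)
    (h2 : IsUnit (2 : OE A K)) (π : OE A K) (hπ : Irreducible π)
    (e : OE A K) (he : IsUnit e) (hqe : ((q : ℕ) : OE A K) = π * e)
    [Fact q.Prime] (hred : HRed M q A K) (h3 : 3 < q)
    (Db : redField M A)
    (hDb : (Db : LaurentSeries (IsLocalRing.ResidueField A)) =
      Fermat.Agent.S44.L.EisFormal.deltaL (IsLocalRing.ResidueField A) *
        (Fermat.Agent.S44.L.EisFormal.deltaL (IsLocalRing.ResidueField A) ^ q)⁻¹) :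
    letI := algebraOL (OE A K) K (LE M K)
    letI := algebraOL (OE A K) K (LE (M * q) K)
    haveI := isScalarTower_OL (OE A K) K (LE M K)
    haveI := isScalarTower_OL (OE A K) K (LE (M * q) K)
    ∀ y : Ideal (Chart (OE A K) (alphaHom M q K (u4E M K h4))), y.IsMaximal →
      RingHom.ker (rInf4 M q A K hA hred π hπ h4) ≤ y →
      RingHom.ker (rZero4 M q A K hA hred π hπ h4 hq hqM) ≤ y →
      (∀ c, rInf4 M q A K hA hred π hπ h4 c = Fermat.Agent.S44.L.CentreU4.ub M A h4 → c ∉ y) →
      (∀ c, rInf4 M q A K hA hred π hπ h4 c = Fermat.Agent.S44.L.CentreU4.ub M A h4 + 16 →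
        c ∉ y) →
      ∃ h' : redField M A,
        Fermat.Agent.S44.L.Slope.Loc.UnitAt (rInf4 M q A K hA hred π hπ h4) y Db
          (rInf4 M q A K hA hred π hπ h4
            ((incl (alphaHom M q K) (alphaHom_algebraMap M q K) (u4E M K h4)
              (polyChart (u4E M K h4) X)) -
            (Fermat.Agent.S34.Modular.ChartZero.wChart (alphaHom M q K) (u4E M K h4)
              (wHom M q K hq hqM) (wHom_algebraMap M q K hq hqM) (wHom_wHom M q K hq hqM)
              (hwu_u4 M q K h2 hq hodd hqM h4)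
              (incl (alphaHom M q K) (alphaHom_algebraMap M q K) (u4E M K h4)
                (polyChart (u4E M K h4) X))) ^ q) ^ (12 : ℤ) * h' ^ q) := by
  letI := algebraOL (OE A K) K (LE M K)
  letI := algebraOL (OE A K) K (LE (M * q) K)
  haveI := isScalarTower_OL (OE A K) K (LE M K)
  haveI := isScalarTower_OL (OE A K) K (LE (M * q) K)
  intro y hy hker hker2 hu0 hu16
  exact ⟨1, (Fermat.Agent.S44.L.EisUnitAtU4.eis_dforms_u4 A M q hq hodd hqM h4 hA K z hz hzK h2
    π hπ e he hqe hred h3 Db hDb y hy hker hu0 hu16).2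
    (le_trans (le_of_eq (ker_rZero4 M q A K hA hred π hπ h4 hq hqM).symm) hker2)⟩

/-- **The `D̄`-form at the points of the `∞`-component only of the `u₄` chart**, off the cusps
(binder `hDsmooth` of `Alt/RhoSeries.rhoForms_of_series`). -/
theorem eis_dsmooth_u4 (hq : q.Prime) (hodd : q ≠ 2) (hqM : ¬ q ∣ M) (h4 : 4 ∣ M)
    (hA : A.LiesOverPrime q) (K : IntermediateField ℚ Qb) [FiniteDimensional ℚ K]
    [IsDiscreteValuationRing (OE A K)] (z : Qb) (hz : IsPrimitiveRoot z M) (hzK : z ∈ K)
    (h2 : IsUnit (2 : OE A K)) (π : OE A K) (hπ : Irreducible π)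
    (e : OE A K) (he : IsUnit e) (hqe : ((q : ℕ) : OE A K) = π * e)
    [Fact q.Prime] (hred : HRed M q A K) (h3 : 3 < q)
    (Db : redField M A)
    (hDb : (Db : LaurentSeries (IsLocalRing.ResidueField A)) =
      Fermat.Agent.S44.L.EisFormal.deltaL (IsLocalRing.ResidueField A) *
        (Fermat.Agent.S44.L.EisFormal.deltaL (IsLocalRing.ResidueField A) ^ q)⁻¹) :
    letI := algebraOL (OE A K) K (LE M K)
    letI := algebraOL (OE A K) K (LE (M * q) K)
    haveI := isScalarTower_OL (OE A K) K (LE M K)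
    haveI := isScalarTower_OL (OE A K) K (LE (M * q) K)
    ∀ y : Ideal (Chart (OE A K) (alphaHom M q K (u4E M K h4))), y.IsMaximal →
      RingHom.ker (rInf4 M q A K hA hred π hπ h4) ≤ y →
      ¬ RingHom.ker (rZero4 M q A K hA hred π hπ h4 hq hqM) ≤ y →
      (∀ c, rInf4 M q A K hA hred π hπ h4 c = Fermat.Agent.S44.L.CentreU4.ub M A h4 → c ∉ y) →
      (∀ c, rInf4 M q A K hA hred π hπ h4 c = Fermat.Agent.S44.L.CentreU4.ub M A h4 + 16 →
        c ∉ y) →
      ∃ h' : redField M A,
        Fermat.Agent.S44.L.Slope.Loc.UnitAt (rInf4 M q A K hA hred π hπ h4) y Db (h' ^ q) := by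
  letI := algebraOL (OE A K) K (LE M K)
  letI := algebraOL (OE A K) K (LE (M * q) K)
  haveI := isScalarTower_OL (OE A K) K (LE M K)
  haveI := isScalarTower_OL (OE A K) K (LE (M * q) K)
  intro y hy hker hker2 hu0 hu16
  exact ⟨1, (Fermat.Agent.S44.L.EisUnitAtU4.eis_dforms_u4 A M q hq hodd hqM h4 hA K z hz hzK h2
    π hπ e he hqe hred h3 Db hDb y hy hker hu0 hu16).1
    (fun h => hker2 (le_trans (le_of_eq (ker_rZero4 M q A K hA hred π hπ h4 hq hqM)) h))⟩

end Fermat.Agent.S44.L.EisUnitAtU4Rho
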