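import Mathlib
import Fermat.Agent.S36.Coord.Theta
import Fermat.Agent.S36.Coord.ThetaBridge
import Fermat.Agent.S44.L.EisFormal
import Fermat.Prelude.Def_ModularCurve_JqCoeff

/-!
# PROGRAM MR (S44), strand L: `Δ` as a six-fold differential of `j` (formal) — helper160

`θ = q d/dq` on Laurent series (`S36.Coord.theta`), `j = E₄³ / Δ` (Prelude `jqModC`),
`Δ = q ∏ (1 - qⁿ)²⁴` (`EisFormal.deltaL`).  From the landed formal Ramanujan identity
`(3 θE₄ · Δ - E₄ · θΔ)² = Δ² (E₄³ - 1728 Δ)` (`S36.Coord.ramanujan_formal`):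

* `theta_jq_sq`      : `(θ j)² = E₄ · j · (j - 1728)`;
* `theta_jq_pow_six` : `(θ j)⁶ = Δ · j⁴ · (j - 1728)³`
  (so `Δ (dτ)⁶` is the six-fold differential `(dj)⁶ / (j⁴ (j - 1728)³)`);
* `eisD_mul_eq`      : for `D = Δ(q) / Δ(q^p)` and `j_p = j(q^p)`:
  `D · (θ j_p)⁶ · j⁴ (j - 1728)³ = p⁶ · (θ j)⁶ · j_p⁴ (j_p - 1728)³`.

Valid over every commutative ring (resp. field); no analysis.  Consumer: `S44/L/Fricke.lean`
(the Fricke relation `w_p D = p¹² / D`).
-/

set_option autoImplicit false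

noncomputable section

open HahnSeries ModularCurve

namespace Fermat.Agent.S44.L.FrickeFormal

open Fermat.Agent.S30 Fermat.Agent.S44.L.EisFormal

local notation "θ" => Fermat.Agent.S36.Coord.theta

section Ring

variable (R : Type*) [CommRing R]

/-- The coefficient map `ℤ⟦X⟧ → R((q))`. -/
def phi : PowerSeries ℤ →+* LaurentSeries R :=
  (HahnSeries.ofPowerSeries ℤ R).comp (PowerSeries.map (Int.castRingHom R))

theorem phi_apply (a : PowerSeries ℤ) :
    phi R a = HahnSeries.ofPowerSeries ℤ R (a.map (Int.castRingHom R)) := rfl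

theorem phi_X : phi R PowerSeries.X = HahnSeries.single (1 : ℤ) (1 : R) := by
  rw [phi_apply, PowerSeries.map_X, HahnSeries.ofPowerSeries_X]

theorem map_derivative (a : PowerSeries ℤ) :
    PowerSeries.map (Int.castRingHom R) (PowerSeries.derivative ℤ a)
      = PowerSeries.derivative R (PowerSeries.map (Int.castRingHom R) a) := by
  ext n
  simp [PowerSeries.coeff_derivative]

/-- `θ` on the image of `ℤ⟦X⟧` is `X d/dX`. -/
theorem theta_phi (a : PowerSeries ℤ) :
    θ (phi R a) = phi R (Fermat.Agent.S36.Coord.vth a) := by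
  rw [phi_apply, Fermat.Agent.S36.Coord.theta_ofPowerSeries, Fermat.Agent.S36.Coord.vth,
    phi_apply]
  congr 1
  rw [map_mul, PowerSeries.map_X, map_derivative]

/-- `E₄` as a Laurent series over `R`. -/
def e4L : LaurentSeries R := phi R eisenstein4

theorem deltaL_eq : deltaL R = phi R Fermat.Agent.S36.Coord.Dz := by
  rw [Fermat.Agent.S36.Coord.Dz, map_mul, phi_X, dedekindEtaUnit, map_pow]
  rfl

theorem jqModC_eq : jqModC R = HahnSeries.single (-1 : ℤ) (1 : R) * phi R jNum := rfl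

theorem single_neg_one_mul_single_one :
    (HahnSeries.single (-1 : ℤ) (1 : R)) * HahnSeries.single (1 : ℤ) (1 : R) = 1 := by
  rw [HahnSeries.single_mul_single]
  simp

/-- `j · Δ = E₄³`. -/
theorem jq_mul_deltaL : jqModC R * deltaL R = e4L R ^ 3 := by
  have h2 : phi R dedekindEtaUnitInv * phi R dedekindEtaUnit = 1 := by
    rw [← map_mul, mul_comm, dedekindEtaUnit_mul_inv, map_one]
  have h3 := single_neg_one_mul_single_one R
  rw [deltaL_eq, Fermat.Agent.S36.Coord.Dz, map_mul, phi_X, jqModC_eq, jNum, map_mul, map_pow,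
    e4L]
  linear_combination (phi R eisenstein4 ^ 3 * phi R dedekindEtaUnitInv * phi R dedekindEtaUnit) * h3
    + phi R eisenstein4 ^ 3 * h2

/-- `Δ` is a unit of `R((q))`. -/
theorem isUnit_deltaL : IsUnit (deltaL R) := by
  have h2 : phi R dedekindEtaUnit * phi R dedekindEtaUnitInv = 1 := by
    rw [← map_mul, dedekindEtaUnit_mul_inv, map_one]
  have h3 := single_neg_one_mul_single_one R
  refine IsUnit.of_mul_eq_one (HahnSeries.single (-1 : ℤ) (1 : R) * phi R dedekindEtaUnitInv) ?_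
  rw [deltaL_eq, Fermat.Agent.S36.Coord.Dz, map_mul, phi_X]
  linear_combination (phi R dedekindEtaUnit * phi R dedekindEtaUnitInv) * h3 + h2

/-- The formal Ramanujan identity in `R((q))`. -/
theorem ramanujan_L :
    (3 * θ (e4L R) * deltaL R - e4L R * θ (deltaL R)) ^ 2
      = deltaL R ^ 2 * (e4L R ^ 3 - 1728 * deltaL R) := by
  have h := congrArg (phi R) Fermat.Agent.S36.Coord.ramanujan_formal
  simp only [map_pow, map_sub, map_mul, map_ofNat] at h
  rw [deltaL_eq, e4L, theta_phi, theta_phi]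
  exact h

/-- **`(θ j)² = E₄ · j · (j - 1728)`.** -/
theorem theta_jq_sq :
    θ (jqModC R) ^ 2 = e4L R * jqModC R * (jqModC R - 1728) := by
  have h1 := jq_mul_deltaL R
  have h2 : θ (jqModC R) * deltaL R + jqModC R * θ (deltaL R)
      = 3 * e4L R ^ 2 * θ (e4L R) := by
    have h := congrArg θ h1
    rw [Fermat.Agent.S36.Coord.theta_mul, Fermat.Agent.S36.Coord.theta_pow] at h
    rw [h]
    norm_num
  have h3 := ramanujan_L R
  have hA : θ (jqModC R) * deltaL R ^ 2
      = e4L R ^ 2 * (3 * θ (e4L R) * deltaL R - e4L R * θ (deltaL R)) := by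
    linear_combination deltaL R * h2 - θ (deltaL R) * h1
  have hB : θ (jqModC R) ^ 2 * deltaL R ^ 4
      = e4L R ^ 4 * (deltaL R ^ 2 * (e4L R ^ 3 - 1728 * deltaL R)) := by
    rw [← h3]
    linear_combination (θ (jqModC R) * deltaL R ^ 2
      + e4L R ^ 2 * (3 * θ (e4L R) * deltaL R - e4L R * θ (deltaL R))) * hA
  have hC : e4L R * jqModC R * (jqModC R - 1728) * deltaL R ^ 4
      = e4L R ^ 4 * (deltaL R ^ 2 * (e4L R ^ 3 - 1728 * deltaL R)) := by
    linear_combination (e4L R * deltaL R ^ 2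
      * (jqModC R * deltaL R + e4L R ^ 3 - 1728 * deltaL R)) * h1
  exact ((isUnit_deltaL R).pow 4).mul_left_injective (hB.trans hC.symm)

/-- **`(θ j)⁶ = Δ · j⁴ · (j - 1728)³`.** -/
theorem theta_jq_pow_six :
    θ (jqModC R) ^ 6 = deltaL R * jqModC R ^ 4 * (jqModC R - 1728) ^ 3 := by
  have h1 := jq_mul_deltaL R
  have hsq := theta_jq_sq R
  linear_combination ((θ (jqModC R) ^ 2) ^ 2
      + θ (jqModC R) ^ 2 * (e4L R * jqModC R * (jqModC R - 1728))
      + (e4L R * jqModC R * (jqModC R - 1728)) ^ 2) * hsq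
    - (jqModC R ^ 3 * (jqModC R - 1728) ^ 3) * h1

end Ring

section Field

variable (K : Type*) [Field K]

/-- **`D = Δ(q)/Δ(q^p)` through `j`, `j_p = j(q^p)` and `θ`**:
`D · (θ j_p)⁶ · j⁴ (j - 1728)³ = p⁶ · (θ j)⁶ · j_p⁴ (j_p - 1728)³`. -/
theorem eisD_mul_eq (p : ℕ) [NeZero p] (hp : 0 < p) :
    eisD K p hp * θ (qExpand K p (jqModC K)) ^ 6 * (jqModC K ^ 4 * (jqModC K - 1728) ^ 3)
      = (p : LaurentSeries K) ^ 6 * θ (jqModC K) ^ 6
          * (qExpand K p (jqModC K) ^ 4 * (qExpand K p (jqModC K) - 1728) ^ 3) := by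
  have h6 := theta_jq_pow_six K
  have hx := congrArg (qExpand K p) h6
  simp only [map_pow, map_mul, map_sub, map_ofNat] at hx
  have ht := Fermat.Agent.S36.Coord.theta_qExpand p (jqModC K)
  have hd : eisD K p hp * qExpand K p (deltaL K) = deltaL K := by
    rw [eisD, ← HeckeGood.expand_eq_qExpand p hp]
    exact div_mul_cancel₀ _ (expand_deltaL_ne_zero p hp)
  rw [ht, mul_pow, hx, h6]
  linear_combination ((p : LaurentSeries K) ^ 6 * qExpand K p (jqModC K) ^ 4
    * (qExpand K p (jqModC K) - 1728) ^ 3 * jqModC K ^ 4 * (jqModC K - 1728) ^ 3) * hd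

end Field

end Fermat.Agent.S44.L.FrickeFormal
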