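import Mathlib
import Fermat.Agent.S44.L.FrickeFormal
import Fermat.Agent.S24.DiffSpan
import Fermat.Agent.S28.Char0Gen
import Fermat.Prelude.Def_ModularCurve_X0ModL

/-!
# PROGRAM MR (S44), strand L: the Fricke relation `w(D) · D = p¹²` for an abstract swap,
by Kähler differentials — helper160

`D = Δ(q) / Δ(q^p)` (`EisFormal.eisD`).  For a field `L` with a `q`-expansion embedding
`σ : L → K((q))` (`K` of characteristic zero), a ring endomorphism `w` of `L` and `J : L` with
`σ J = j(q)`, `σ (w J) = j(q^p)`, `w (w J) = J`, and every `Dl : L` with `σ Dl = D`: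

  `w Dl * Dl = p ^ 12`     (`fricke_swap`; the binders are those of `FrickeSwap.fricke_swap_of`
                             without the hypothesis `FrickePrinciple p`).

No analysis and no modular forms of level `p`:

* `D_mem_span_of_isAlgebraic` : if `y` is algebraic over `k(x)` (characteristic zero) then
  `dy ∈ F · dx` in `Ω[F/k]`;
* `exists_lift` : `θ = q d/dq` lifts to `Ω[L/ℚ]` along any ring hom `L → K((q))`;
* `exists_rho`  : `θ(σ (w x)) = σ ρ · θ(σ x)` with `w ρ · ρ = 1` (`ρ = d(w x)/dx`; lift `θ`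
  along `σ` and along `σ ∘ w`);
* `isAlgebraic_swap` : `j(q^p)` is algebraic over `ℚ(j)` (`S28.SturmMF.dep_mfGraded`);
* `FrickeFormal.eisD_mul_eq` : `D · θ(j_p)⁶ · G(j) = p⁶ · θ(j)⁶ · G(j_p)`,
  `G(x) = x⁴ (x - 1728)³`, which is `(θ j)⁶ = Δ j⁴ (j - 1728)³` at `q` and at `q^p`.

Then `Dl · ρ⁶ · G(J) = p⁶ · G(w J)`; apply `w` and multiply.
-/

set_option autoImplicit false
set_option linter.style.haveILetI false

noncomputable section

open HahnSeries ModularCurve KaehlerDifferential IntermediateField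

namespace Fermat.Agent.S44.L.FrickeKaehler

open Fermat.Agent.S30 Fermat.Agent.S44.L.EisFormal Fermat.Agent.S44.L.FrickeFormal

local notation "θ" => Fermat.Agent.S36.Coord.theta

/-! ### Differentials of algebraic elements -/

/-- In characteristic zero, if `y` is algebraic over `k(x)` then `dy ∈ F · dx` in `Ω[F/k]`. -/
theorem D_mem_span_of_isAlgebraic {k F : Type*} [Field k] [CharZero k] [Field F] [Algebra k F]
    (x y : F) (hy : IsAlgebraic k⟮x⟯ y) :
    D k F y ∈ Submodule.span F {D k F x} := by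
  haveI hchar : CharZero k⟮x⟯ := charZero_of_injective_algebraMap (algebraMap k k⟮x⟯).injective
  have hint : IsIntegral k⟮x⟯ y := hy.isIntegral
  have h0 : Polynomial.aeval y (minpoly k⟮x⟯ y) = 0 := minpoly.aeval _ _
  have hsep : (minpoly k⟮x⟯ y).Separable := (minpoly.irreducible hint).separable
  have hne : Polynomial.aeval y (Polynomial.derivative (minpoly k⟮x⟯ y)) ≠ 0 :=
    hsep.aeval_derivative_ne_zero h0
  have key : ∀ Q : Polynomial k⟮x⟯,
      D k F (Polynomial.aeval y Q) - Polynomial.aeval y (Polynomial.derivative Q) • D k F y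
        ∈ Submodule.span F {D k F x} := by
    intro Q
    induction Q using Polynomial.induction_on' with
    | add a b ha hb =>
      have e : D k F (Polynomial.aeval y (a + b))
            - Polynomial.aeval y (Polynomial.derivative (a + b)) • D k F y
          = (D k F (Polynomial.aeval y a)
              - Polynomial.aeval y (Polynomial.derivative a) • D k F y)
            + (D k F (Polynomial.aeval y b)
              - Polynomial.aeval y (Polynomial.derivative b) • D k F y) := by
        rw [map_add, map_add, Polynomial.derivative_add, map_add, add_smul]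
        abel
      rw [e]
      exact Submodule.add_mem _ ha hb
    | monomial n a =>
      have e : D k F (Polynomial.aeval y (Polynomial.monomial n a))
            - Polynomial.aeval y (Polynomial.derivative (Polynomial.monomial n a)) • D k F y
          = y ^ n • D k F (a : F) := by
        rw [Polynomial.aeval_monomial, Polynomial.derivative_monomial, Polynomial.aeval_monomial,
          Derivation.leibniz, Derivation.leibniz_pow, map_mul, map_natCast,
          ← Nat.cast_smul_eq_nsmul F n, smul_smul, smul_smul, mul_assoc]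
        exact add_sub_cancel_left _ _
      rw [e]
      exact Submodule.smul_mem _ _ (Fermat.Agent.S24.DiffSpan.D_mem_span_of_mem_adjoin x a.2)
  have h1 := key (minpoly k⟮x⟯ y)
  rw [h0, map_zero, zero_sub] at h1
  have h2 : Polynomial.aeval y (Polynomial.derivative (minpoly k⟮x⟯ y)) • D k F y
      ∈ Submodule.span F {D k F x} := by
    have h := Submodule.neg_mem _ h1
    rwa [neg_neg] at h
  have h3 := Submodule.smul_mem _
    (Polynomial.aeval y (Polynomial.derivative (minpoly k⟮x⟯ y)))⁻¹ h2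
  rwa [smul_smul, inv_mul_cancel₀ hne, one_smul] at h3

/-! ### Lifting `θ` to Kähler differentials along a ring hom -/

/-- `θ ∘ s` factors through `Ω[L/ℚ]`, `s`-semilinearly, for every ring hom `s : L → K((q))`. -/
theorem exists_lift {K L : Type*} [Field K] [CharZero K] [Field L] [CharZero L]
    (s : L →+* LaurentSeries K) :
    ∃ Λ : Ω[L⁄ℚ] →+ LaurentSeries K,
      (∀ (c : L) (ω : Ω[L⁄ℚ]), Λ (c • ω) = s c * Λ ω) ∧
        ∀ y : L, Λ (D ℚ L y) = θ (s y) := by
  letI : Algebra L (LaurentSeries K) := s.toAlgebra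
  haveI : IsScalarTower ℚ L (LaurentSeries K) := ⟨fun c a m => by
    show s (c • a) * m = c • (s a * m)
    exact map_rat_smul ((AddMonoidHom.mulRight m).comp s.toAddMonoidHom) c a⟩
  let g : L →+ LaurentSeries K :=
    (AddMonoidHom.mk' (fun f : LaurentSeries K => θ f)
      Fermat.Agent.S36.Coord.theta_add).comp s.toAddMonoidHom
  let δ : Derivation ℚ L (LaurentSeries K) :=
    { toFun := fun y => θ (s y)
      map_add' := fun a b => by rw [map_add, Fermat.Agent.S36.Coord.theta_add]
      map_smul' := fun c a => map_rat_smul g c a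
      map_one_eq_zero' := by
        show θ (s 1) = 0
        rw [map_one, Fermat.Agent.S36.Coord.theta_one]
      leibniz' := fun a b => by
        show θ (s (a * b)) = s a * θ (s b) + s b * θ (s a)
        rw [map_mul, Fermat.Agent.S36.Coord.theta_mul]
        ring }
  refine ⟨δ.liftKaehlerDifferential.toAddMonoidHom, fun c ω => ?_, fun y => ?_⟩
  · show δ.liftKaehlerDifferential (c • ω) = s c * δ.liftKaehlerDifferential ω
    rw [map_smul]
    rfl
  · exact δ.liftKaehlerDifferential_comp_D y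

/-! ### The derivative of a swapped pair -/

/-- If `w (w x) = x` and `w x` is algebraic over `ℚ(x)`, then `θ(σ (w x)) = σ ρ · θ(σ x)` for
some `ρ ∈ L` with `w ρ · ρ = 1`. -/
theorem exists_rho {K L : Type*} [Field K] [CharZero K] [Field L] [CharZero L]
    (σ : L →+* LaurentSeries K) (w : L →+* L) (x : L)
    (halg : IsAlgebraic ℚ⟮x⟯ (w x)) (hww : w (w x) = x) (hθ : θ (σ x) ≠ 0) :
    ∃ ρ : L, θ (σ (w x)) = σ ρ * θ (σ x) ∧ w ρ * ρ = 1 := by
  have hmem := D_mem_span_of_isAlgebraic (k := ℚ) x (w x) halg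
  obtain ⟨ρ, hρ⟩ := Submodule.mem_span_singleton.mp hmem
  obtain ⟨L1, hL1, hL1D⟩ := exists_lift σ
  obtain ⟨L2, hL2, hL2D⟩ := exists_lift (σ.comp w)
  have e1 : θ (σ (w x)) = σ ρ * θ (σ x) := by
    have h := congrArg L1 hρ
    rw [hL1, hL1D, hL1D] at h
    exact h.symm
  have e2 : θ (σ x) = σ (w ρ) * θ (σ (w x)) := by
    have h := congrArg L2 hρ
    rw [hL2, hL2D, hL2D] at h
    simp only [RingHom.comp_apply, hww] at h
    exact h.symm
  refine ⟨ρ, e1, ?_⟩
  have h3 : (σ (w ρ * ρ) - 1) * θ (σ x) = 0 := by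
    rw [map_mul]
    linear_combination (-1 : LaurentSeries K) * e2 - σ (w ρ) * e1
  have h4 : σ (w ρ * ρ) = σ 1 := by
    rw [map_one]
    exact sub_eq_zero.mp ((mul_eq_zero.mp h3).resolve_right hθ)
  exact σ.injective h4

/-! ### Coefficients at `q⁻¹` -/

theorem coeff_jqModC_neg_one (K : Type*) [CommRing K] : (jqModC K).coeff (-1 : ℤ) = 1 := by
  have h := coeff_jqModC_pow_self K 1
  simpa using h

theorem coeff_ofNat_neg_one (K : Type*) [CommRing K] (n : ℕ) [n.AtLeastTwo] :
    (OfNat.ofNat n : LaurentSeries K).coeff (-1 : ℤ) = 0 := by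
  have h : (OfNat.ofNat n : LaurentSeries K) = HahnSeries.C (OfNat.ofNat n : K) :=
    (map_ofNat (HahnSeries.C (Γ := ℤ) (R := K)) n).symm
  rw [h, HahnSeries.C_apply, HahnSeries.coeff_single_of_ne (by norm_num)]

/-! ### The Fricke relation, given algebraicity -/

/-- The Fricke relation for an abstract swap, given that `w J` is algebraic over `ℚ(J)`. -/
theorem fricke_swap_of_isAlgebraic {p : ℕ} (hp : p.Prime) {K L : Type*} [Field K] [CharZero K]
    [Field L] [CharZero L] (σ : L →+* LaurentSeries K) (w : L →+* L) (J Dl : L)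
    (hJ : σ J = jqModC K) (hwJ : σ (w J) = Congr.expand p hp.pos (jqModC K))
    (hww : w (w J) = J) (hD : σ Dl = eisD K p hp.pos) (halg : IsAlgebraic ℚ⟮J⟯ (w J)) :
    w Dl * Dl = (p : L) ^ 12 := by
  haveI : NeZero p := ⟨hp.ne_zero⟩
  have hwJ' : σ (w J) = qExpand K p (jqModC K) := by
    rw [hwJ, HeckeGood.expand_eq_qExpand]
  have hθ : θ (σ J) ≠ 0 := by
    rw [hJ]
    intro h
    have h1 := congrArg (fun f : LaurentSeries K => f.coeff (-1 : ℤ)) h
    simp only [Fermat.Agent.S36.Coord.coeff_theta, coeff_jqModC_neg_one, HahnSeries.coeff_zero]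
      at h1
    norm_num at h1
  obtain ⟨ρ, hρ, hwρ⟩ := exists_rho σ w J halg hww hθ
  have key := eisD_mul_eq K p hp.pos
  rw [← hwJ', ← hJ, hρ] at key
  have E1' : σ (Dl * ρ ^ 6 * (J ^ 4 * (J - 1728) ^ 3))
      = σ ((p : L) ^ 6 * (w J ^ 4 * (w J - 1728) ^ 3)) := by
    simp only [map_mul, map_pow, map_sub, map_ofNat, map_natCast]
    rw [hD]
    apply mul_right_cancel₀ (pow_ne_zero 6 hθ)
    linear_combination key
  have E1 := σ.injective E1'
  have E2 := congrArg w E1
  simp only [map_mul, map_pow, map_sub, map_ofNat, map_natCast, hww] at E2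
  have hx0 : J ≠ 0 := by
    intro h
    have h1 := congrArg (fun f : L => (σ f).coeff (-1 : ℤ)) h
    simp only [hJ, coeff_jqModC_neg_one, map_zero, HahnSeries.coeff_zero] at h1
    exact one_ne_zero h1
  have hx1 : J - 1728 ≠ 0 := by
    intro h
    have h1 := congrArg (fun f : L => (σ f).coeff (-1 : ℤ)) h
    have h2 : (σ (J - 1728)).coeff (-1 : ℤ) = 1 := by
      rw [map_sub, map_ofNat, hJ, HahnSeries.coeff_sub, coeff_jqModC_neg_one,
        coeff_ofNat_neg_one, sub_zero]
    simp only [h2, map_zero, HahnSeries.coeff_zero] at h1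
    exact one_ne_zero h1
  have hG : J ^ 4 * (J - 1728) ^ 3 ≠ 0 := mul_ne_zero (pow_ne_zero 4 hx0) (pow_ne_zero 3 hx1)
  have hGy : w J ^ 4 * (w J - 1728) ^ 3 ≠ 0 := by
    have h := (map_ne_zero w).mpr hG
    simpa only [map_mul, map_pow, map_sub, map_ofNat] using h
  have hw6 : (w ρ) ^ 6 * ρ ^ 6 = 1 := by rw [← mul_pow, hwρ, one_pow]
  apply mul_right_cancel₀ (mul_ne_zero hG hGy)
  linear_combination
    (-(w Dl * Dl * (J ^ 4 * (J - 1728) ^ 3) * (w J ^ 4 * (w J - 1728) ^ 3))) * hw6
    + (w Dl * (w ρ) ^ 6 * (w J ^ 4 * (w J - 1728) ^ 3)) * E1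
    + ((p : L) ^ 6 * (w J ^ 4 * (w J - 1728) ^ 3)) * E2

/-! ### `j(q^p)` is algebraic over `ℚ(j)` -/

open Fermat.Agent.S28.SturmMF in
/-- `j(q^p)` is algebraic over `ℚ(j)`, read in any field `L` with a `q`-expansion embedding. -/
theorem isAlgebraic_swap (p : ℕ) [NeZero p] {K L : Type*} [Field K] [CharZero K] [Field L]
    [CharZero L] (σ : L →+* LaurentSeries K) (J J' : L)
    (hJ : σ J = jqModC K) (hJ' : σ J' = qExpand K p (jqModC K)) : IsAlgebraic ℚ⟮J⟯ J' := by
  classical
  obtain ⟨P, hP0, hP⟩ := dep_mfGraded p (fun i => qExpand ℚ p jq ^ (i : ℕ))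
    (fun i => pow_mem (qExpand_jq_mem p (dvd_refl p)) _)
  set φ : LaurentSeries ℚ →+* LaurentSeries K := coeffMap (algebraMap ℚ K) with hφ
  have hφj : φ jq = jqModC K := by
    rw [← jqModC_rat]
    exact coeffMap_jqModC (algebraMap ℚ K)
  have hφjp : φ (qExpand ℚ p jq) = qExpand K p (jqModC K) := by
    rw [hφ, coeffMap_qExpand, ← hφ, hφj]
  have T : ∀ Q : Polynomial ℚ, σ (Polynomial.aeval J Q) = φ (Polynomial.aeval jq Q) := by
    intro Q
    induction Q using Polynomial.induction_on' with
    | add a b ha hb => rw [map_add, map_add, map_add, map_add, ha, hb]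
    | monomial n a =>
      rw [Polynomial.aeval_monomial, Polynomial.aeval_monomial, map_mul, map_mul, map_pow,
        map_pow, hJ, hφj, eq_ratCast, eq_ratCast, map_ratCast, map_ratCast]
  have hrel : ∑ i, Polynomial.aeval J (P i) * J' ^ (i : ℕ) = 0 := by
    apply σ.injective
    rw [map_zero, map_sum, ← map_zero φ, ← hP, map_sum]
    refine Finset.sum_congr rfl fun i _ => ?_
    rw [map_mul, map_mul, map_pow, map_pow, T, hJ', hφjp]
  have hmem : ∀ Q : Polynomial ℚ, Polynomial.aeval J Q ∈ ℚ⟮J⟯ := by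
    intro Q
    rw [Polynomial.aeval_eq_sum_range]
    exact sum_mem fun i _ =>
      (ℚ⟮J⟯).smul_mem (pow_mem (IntermediateField.mem_adjoin_simple_self ℚ J) i)
  obtain ⟨i₀, hi₀⟩ : ∃ i, P i ≠ 0 := Function.ne_iff.mp hP0
  have hne : Polynomial.aeval J (P i₀) ≠ 0 := by
    intro h
    have h1 := congrArg σ h
    rw [T, map_zero] at h1
    exact Fermat.Agent.S28.Char0Gen.aeval_jq_ne_zero hi₀
      (φ.injective (h1.trans (map_zero φ).symm))
  refine ⟨∑ i : Fin ((CongruenceSubgroup.Gamma0 p).index + 1),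
    Polynomial.monomial (i : ℕ) (⟨Polynomial.aeval J (P i), hmem (P i)⟩ : ℚ⟮J⟯), ?_, ?_⟩
  · intro h
    have h1 := congrArg (fun Q : Polynomial ℚ⟮J⟯ => Q.coeff (i₀ : ℕ)) h
    simp only [Polynomial.finsetSum_coeff, Polynomial.coeff_monomial, Polynomial.coeff_zero]
      at h1
    rw [Finset.sum_eq_single i₀ (fun b _ hb => if_neg (fun h' => hb (Fin.ext h')))
      (fun h' => absurd (Finset.mem_univ _) h'), if_pos rfl] at h1
    exact hne (congrArg Subtype.val h1)
  · rw [map_sum, ← hrel]
    refine Finset.sum_congr rfl fun i _ => ?_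
    rw [Polynomial.aeval_monomial]
    rfl

/-! ### The Fricke relation -/

/-- **The Fricke relation for an abstract swap.**  `σ` is a `q`-expansion embedding of a field
`L`, `w` a ring endomorphism with `σ (w J) = j(q^p)` and `w (w J) = J`, where `σ J = j(q)`; then
`w D · D = p ^ 12` for every `D` with `σ D = Δ(q)/Δ(q^p)`. -/
theorem fricke_swap {p : ℕ} (hp : p.Prime) {K L : Type*} [Field K] [CharZero K] [Field L]
    (σ : L →+* LaurentSeries K) (w : L →+* L) (J Dl : L)
    (hJ : σ J = jqModC K) (hwJ : σ (w J) = Congr.expand p hp.pos (jqModC K))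
    (hww : w (w J) = J) (hD : σ Dl = eisD K p hp.pos) :
    w Dl * Dl = (p : L) ^ 12 := by
  haveI : NeZero p := ⟨hp.ne_zero⟩
  haveI : CharZero (LaurentSeries K) :=
    charZero_of_injective_ringHom (HahnSeries.C_injective (Γ := ℤ) (R := K))
  haveI : CharZero L := RingHom.charZero σ
  exact fricke_swap_of_isAlgebraic hp σ w J Dl hJ hwJ hww hD
    (isAlgebraic_swap p σ J (w J) hJ (by rw [hwJ, HeckeGood.expand_eq_qExpand]))

/-- The `q`-expansion of `w D`: `p¹² · D⁻¹`. -/
theorem sigma_swap {p : ℕ} (hp : p.Prime) {K L : Type*} [Field K] [CharZero K] [Field L]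
    (σ : L →+* LaurentSeries K) (w : L →+* L) (J Dl : L)
    (hJ : σ J = jqModC K) (hwJ : σ (w J) = Congr.expand p hp.pos (jqModC K))
    (hww : w (w J) = J) (hD : σ Dl = eisD K p hp.pos) :
    σ (w Dl) = (p : LaurentSeries K) ^ 12 * (eisD K p hp.pos)⁻¹ := by
  have h := congrArg σ (fricke_swap hp σ w J Dl hJ hwJ hww hD)
  rw [map_mul, map_pow, map_natCast, hD] at h
  rw [← h, mul_assoc, mul_inv_cancel₀ (eisD_ne_zero p hp.pos), mul_one]

end Fermat.Agent.S44.L.FrickeKaehler
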