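import Mathlib
import Fermat.Agent.S44.L.FrickeKaehler
import Fermat.Agent.S34.ToricSwap
import Fermat.Agent.S24.Modular.M3

/-!
# PROGRAM MR (S44), strand L: the Fricke relation for the Atkin–Lehner swap `wAL` — helper160

`w = S34.ToricSwap.wAL N p` on `Fb (N p)` (`p ∤ N` prime), `D = Δ(q)/Δ(q^p)`:

* `wAL_mul_self`  : `w D · D = p¹²`;
* `wAL_mul_self'` : the same with the constant read in `ℚ̄`;
* `coe_wAL`       : the `q`-expansion of `w D` is `p¹² · D⁻¹`.

Instance of `FrickeKaehler.fricke_swap` at `σ =` the inclusion `Fb (N p) ⊆ ℚ̄((q))`,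
`J = α j`, `w J = β j`.
-/

set_option autoImplicit false
set_option linter.style.haveILetI false

noncomputable section

open HahnSeries ModularCurve

namespace Fermat.Agent.S44.L.FrickeWAL

open Fermat.Agent.S30 Fermat.Agent.S30.E4 Fermat.Agent.S44.L.EisFormal
open Fermat.Agent.S24.Modular

local notation "Qb" => AlgebraicClosure ℚ

variable (N p : ℕ) [NeZero N] [NeZero p]

theorem coeffEmb_jq_eq : coeffEmb Qb jq = jqModC Qb := by
  rw [← jqModC_rat]
  exact coeffMap_jqModC (algebraMap ℚ Qb)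

/-- **The Fricke relation**: `w_p D · D = p¹²` for `D = Δ(q)/Δ(q^p)` in `Fb (N p)`, `p ∤ N`. -/
theorem wAL_mul_self (hp : p.Prime) (hpN : ¬ p ∣ N) (Dm : FN (N * p))
    (hD : (Dm : LaurentSeries Qb) = eisD Qb p hp.pos) :
    Fermat.Agent.S34.ToricSwap.wAL N p hp hpN Dm * Dm = (p : FN (N * p)) ^ 12 := by
  let ι : FN (N * p) →ₐ[Qb] LaurentSeries Qb := (modularFunctionFieldBar (N * p)).val
  have hJ : ι (heckeAlphaBar Qb N p (jF N)) = jqModC Qb := by
    show ((heckeAlphaBar Qb N p (jF N) : FN (N * p)) : LaurentSeries Qb) = _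
    rw [coe_heckeAlphaBar]
    exact coeffEmb_jq_eq
  have hx : Fermat.Agent.S34.ToricSwap.wAL N p hp hpN (heckeAlphaBar Qb N p (jF N))
      = heckeBetaBar Qb N p (jF N) := Fermat.Agent.S34.ToricSwap.wAL_alpha hp hpN (jF N)
  have hy : Fermat.Agent.S34.ToricSwap.wAL N p hp hpN (heckeBetaBar Qb N p (jF N))
      = heckeAlphaBar Qb N p (jF N) := Fermat.Agent.S34.ToricSwap.wAL_beta hp hpN (jF N)
  have hwJ : ι (Fermat.Agent.S34.ToricSwap.wAL N p hp hpN (heckeAlphaBar Qb N p (jF N)))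
      = Congr.expand p hp.pos (jqModC Qb) := by
    rw [hx, HeckeGood.expand_eq_qExpand]
    show ((heckeBetaBar Qb N p (jF N) : FN (N * p)) : LaurentSeries Qb) = _
    rw [coe_heckeBetaBar]
    exact congrArg (qExpand Qb p) coeffEmb_jq_eq
  exact Fermat.Agent.S44.L.FrickeKaehler.fricke_swap hp (ι : FN (N * p) →+* LaurentSeries Qb)
    ((Fermat.Agent.S34.ToricSwap.wAL N p hp hpN : FN (N * p) ≃ₐ[Qb] FN (N * p)) :
      FN (N * p) →+* FN (N * p))
    (heckeAlphaBar Qb N p (jF N)) Dm hJ hwJ (by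
      show Fermat.Agent.S34.ToricSwap.wAL N p hp hpN
        (Fermat.Agent.S34.ToricSwap.wAL N p hp hpN (heckeAlphaBar Qb N p (jF N))) = _
      rw [hx, hy]) hD

/-- The Fricke relation with the constant read in `ℚ̄`. -/
theorem wAL_mul_self' (hp : p.Prime) (hpN : ¬ p ∣ N) (Dm : FN (N * p))
    (hD : (Dm : LaurentSeries Qb) = eisD Qb p hp.pos) :
    Fermat.Agent.S34.ToricSwap.wAL N p hp hpN Dm * Dm
      = algebraMap Qb (FN (N * p)) ((p : Qb) ^ 12) := by
  rw [wAL_mul_self N p hp hpN Dm hD, map_pow, map_natCast]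

/-- The `q`-expansion of `w_p D`: `p¹² · D⁻¹`. -/
theorem coe_wAL (hp : p.Prime) (hpN : ¬ p ∣ N) (Dm : FN (N * p))
    (hD : (Dm : LaurentSeries Qb) = eisD Qb p hp.pos) :
    ((Fermat.Agent.S34.ToricSwap.wAL N p hp hpN Dm : FN (N * p)) : LaurentSeries Qb)
      = (p : LaurentSeries Qb) ^ 12 * (eisD Qb p hp.pos)⁻¹ := by
  let ι : FN (N * p) →ₐ[Qb] LaurentSeries Qb := (modularFunctionFieldBar (N * p)).val
  have h := congrArg ι (wAL_mul_self N p hp hpN Dm hD)
  rw [map_mul, map_pow, map_natCast] at h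
  have h1 : ι Dm = eisD Qb p hp.pos := hD
  rw [h1] at h
  show ι (Fermat.Agent.S34.ToricSwap.wAL N p hp hpN Dm) = _
  rw [← h, mul_assoc, mul_inv_cancel₀ (eisD_ne_zero p hp.pos), mul_one]

end Fermat.Agent.S44.L.FrickeWAL
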