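import Mathlib
import Fermat.Agent.S44.L.GaussBC

/-!
# MR.L: exact base change of chart rings along `O₀ → O₁` and the two Gauss primes

Continuation of `S44/L/GaussBC` (same binders).  When an element `a` of the chart ring over
`O₁` has chart coordinates, `a = ∑_{i<e} π^i β(c_i)` with `c_i` in the chart ring over `O₀`
(the exact base change `Chart O₁ = ⊕ π^i Chart O₀`):

* `piC_dvd_of_chart_coords` : if `ϖ ∣ c_0` then `π ∣ a`;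
* `redHom_eq_of_L_coords` : the reduction of `a` is the reduction of `c_0`;
* `piC_dvd_of_redHom_eq_zero` : transfer of `ker r ⊓ ker r' = (ϖ)` from the chart over `O₀` to
  `ker r₁ ⊓ ker r₁' = (π)` on such elements.
-/

set_option autoImplicit false
set_option linter.unusedSectionVars false
set_option linter.style.haveILetI false

noncomputable section

namespace Fermat.Agent.S44.L.GaussBCSat

open ModularCurve Polynomial
open Fermat.Agent.S30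
open Fermat.Agent.S34.TwoPrimesGauss
open Fermat.Agent.S44.L.GaussBC

variable {O₀ O₁ E₀ E₁ : Type*}
  [CommRing O₀] [IsDomain O₀] [IsDiscreteValuationRing O₀]
  [CommRing O₁] [IsDomain O₁] [IsDiscreteValuationRing O₁]
  [Field E₀] [Field E₁] [Algebra O₀ E₀] [FaithfulSMul O₀ E₀] [Algebra O₁ E₁] [FaithfulSMul O₁ E₁]
  {L₀ L₁ : Type*} [Field L₀] [Field L₁] [Algebra O₀ L₀] [Algebra O₁ L₁]
  (j : O₀ →+* O₁) [IsLocalHom j] (f : E₀ →+* E₁)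
  (hjf : ∀ r : O₀, f (algebraMap O₀ E₀ r) = algebraMap O₁ E₁ (j r))
  (ϖ : O₀) (hϖ : Irreducible ϖ) (π : O₁) (hπ : Irreducible π) (e : ℕ) (hdvd : π ^ e ∣ j ϖ)
  (σ₀ : L₀ →+* LaurentSeries E₀)
  (hσO₀ : ∀ r : O₀, σ₀ (algebraMap O₀ L₀ r) = HahnSeries.C (algebraMap O₀ E₀ r))
  (hσfrac₀ : ∀ x : L₀, σ₀ x ∈ GaussDVR.fracField O₀ E₀)
  (σ₁ : L₁ →+* LaurentSeries E₁)
  (hσO₁ : ∀ r : O₁, σ₁ (algebraMap O₁ L₁ r) = HahnSeries.C (algebraMap O₁ E₁ r))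
  (hσfrac₁ : ∀ x : L₁, σ₁ x ∈ GaussDVR.fracField O₁ E₁)
  (β : L₀ →+* L₁) (hβ : ∀ x : L₀, σ₁ (β x) = coeffMap f (σ₀ x))
  (u : L₀) (U : LaurentSeries O₀) (hσu : σ₀ u = GaussDVR.iota O₀ E₀ U)

include hσO₁ hβ in
/-- A decomposition in `L₁` gives the decomposition of the expansion. -/
theorem sigma_sum_of_L (x : L₁) (c : Fin e → L₀)
    (hc : x = ∑ i : Fin e, algebraMap O₁ L₁ π ^ (i : ℕ) * β (c i)) :
    σ₁ x = ∑ i : Fin e,
      HahnSeries.C (algebraMap O₁ E₁ π) ^ (i : ℕ) * coeffMap f (σ₀ (c i)) := by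
  rw [hc, map_sum]
  refine Finset.sum_congr rfl fun i _ => ?_
  rw [map_mul, map_pow, hσO₁, hβ]

include hjf hdvd hσO₀ hσO₁ hβ in
/-- If `a = ∑_{i<e} π^i β(c_i)` with chart coordinates and `ϖ ∣ c_0`, then `π ∣ a` in the chart
ring over `O₁`. -/
theorem piC_dvd_of_chart_coords (he : 0 < e) (a : Chart O₁ (β u)) (c : Fin e → Chart O₀ u)
    (hc : (a : L₁) = ∑ i : Fin e, algebraMap O₁ L₁ π ^ (i : ℕ) * β (c i : L₀))
    (h0 : piC u ϖ ∣ c ⟨0, he⟩) : piC (β u) π ∣ a := by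
  obtain ⟨c', hc'⟩ := h0
  obtain ⟨υ, hυ⟩ := hdvd
  have hmem : ∀ (r : O₁) (x : Chart O₀ u),
      algebraMap O₁ L₁ r * β (x : L₀) ∈ Chart O₁ (β u) := by
    intro r x
    have h1 : algebraMap O₁ L₁ r ∈ Chart O₁ (β u) := (piC (β u) r).2
    have h2 : β (x : L₀) ∈ Chart O₁ (β u) :=
      (inclBC j f hjf σ₀ hσO₀ σ₁ hσO₁ β hβ u x).2
    exact (Chart O₁ (β u)).mul_mem h1 h2
  have hz : algebraMap O₁ L₁ (π ^ (e - 1) * υ) * β (c' : L₀) +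
      ∑ i ∈ (Finset.univ : Finset (Fin e)).erase ⟨0, he⟩,
        algebraMap O₁ L₁ (π ^ ((i : ℕ) - 1)) * β (c i : L₀) ∈ Chart O₁ (β u) :=
    (Chart O₁ (β u)).add_mem (hmem _ c')
      ((Chart O₁ (β u)).sum_mem fun i _ => hmem _ (c i))
  refine ⟨⟨_, hz⟩, Subtype.ext ?_⟩
  show (a : L₁) = algebraMap O₁ L₁ π * (algebraMap O₁ L₁ (π ^ (e - 1) * υ) * β (c' : L₀) +
      ∑ i ∈ (Finset.univ : Finset (Fin e)).erase ⟨0, he⟩,
        algebraMap O₁ L₁ (π ^ ((i : ℕ) - 1)) * β (c i : L₀))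
  have hpe : π ^ e = π * π ^ (e - 1) := by
    rw [← pow_succ']
    congr 1
    omega
  have hjϖ : algebraMap O₁ L₁ (j ϖ) =
      algebraMap O₁ L₁ π * algebraMap O₁ L₁ (π ^ (e - 1) * υ) := by
    rw [hυ, hpe, mul_assoc]
    exact map_mul _ _ _
  have h00 : β ((c ⟨0, he⟩ : Chart O₀ u) : L₀) =
      algebraMap O₁ L₁ π * (algebraMap O₁ L₁ (π ^ (e - 1) * υ) * β (c' : L₀)) := by
    rw [hc']
    show β (algebraMap O₀ L₀ ϖ * (c' : L₀)) = _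
    rw [map_mul, beta_algebraMap j f hjf σ₀ hσO₀ σ₁ hσO₁ β hβ, hjϖ, mul_assoc]
  rw [hc, ← Finset.add_sum_erase Finset.univ _ (Finset.mem_univ (⟨0, he⟩ : Fin e)), mul_add,
    Finset.mul_sum]
  congr 1
  · show algebraMap O₁ L₁ π ^ 0 * β ((c ⟨0, he⟩ : Chart O₀ u) : L₀) = _
    rw [pow_zero, one_mul, h00]
  · refine Finset.sum_congr rfl fun i hi => ?_
    have hi0 : (i : ℕ) ≠ 0 := fun h => (Finset.mem_erase.mp hi).1 (Fin.ext h)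
    have hpi : algebraMap O₁ L₁ π ^ (i : ℕ) =
        algebraMap O₁ L₁ π * algebraMap O₁ L₁ (π ^ ((i : ℕ) - 1)) := by
      rw [map_pow, ← pow_succ']
      congr 1
      omega
    rw [hpi, mul_assoc]

/-- The reduction of `a = ∑_{i<e} π^i β(c_i)` (chart coordinates, decomposition in `L₁`) is the
reduction of `c_0`. -/
theorem redHom_eq_of_L_coords (he : 0 < e) (a : Chart O₁ (β u)) (c : Fin e → Chart O₀ u)
    (hc : (a : L₁) = ∑ i : Fin e, algebraMap O₁ L₁ π ^ (i : ℕ) * β (c i : L₀)) :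
    redHom σ₁ hσO₁ π hπ hσfrac₁ (β u) (coeffMap j U)
        (sigma_beta_u j f hjf σ₀ σ₁ β hβ u U hσu) a =
      resMap j (redHom σ₀ hσO₀ ϖ hϖ hσfrac₀ u U hσu (c ⟨0, he⟩)) :=
  redHom_eq_of_chart_coords j f hjf ϖ hϖ π hπ e σ₀ hσO₀ hσfrac₀ σ₁ hσO₁ hσfrac₁ β hβ u U hσu a c
    (sigma_sum_of_L f π e σ₀ σ₁ hσO₁ β hβ (a : L₁) (fun i => (c i : L₀)) hc) ⟨0, he⟩ rfl

include hdvd in
/-- **Transfer of saturation.**  If `ker r ⊓ ker r' = (ϖ)` on the chart ring over `O₀` (two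
reductions, attached to two expansions `σ₀`, `τ₀`), then an element of the chart ring over `O₁`
with chart coordinates that is killed by both reductions over `O₁` is divisible by `π`. -/
theorem piC_dvd_of_redHom_eq_zero (he : 0 < e)
    (τ₀ : L₀ →+* LaurentSeries E₀)
    (hτO₀ : ∀ r : O₀, τ₀ (algebraMap O₀ L₀ r) = HahnSeries.C (algebraMap O₀ E₀ r))
    (hτfrac₀ : ∀ x : L₀, τ₀ x ∈ GaussDVR.fracField O₀ E₀)
    (τ₁ : L₁ →+* LaurentSeries E₁)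
    (hτO₁ : ∀ r : O₁, τ₁ (algebraMap O₁ L₁ r) = HahnSeries.C (algebraMap O₁ E₁ r))
    (hτfrac₁ : ∀ x : L₁, τ₁ x ∈ GaussDVR.fracField O₁ E₁)
    (hβτ : ∀ x : L₀, τ₁ (β x) = coeffMap f (τ₀ x))
    (U' : LaurentSeries O₀) (hτu : τ₀ u = GaussDVR.iota O₀ E₀ U')
    (hsat : ∀ x : Chart O₀ u, redHom σ₀ hσO₀ ϖ hϖ hσfrac₀ u U hσu x = 0 →
      redHom τ₀ hτO₀ ϖ hϖ hτfrac₀ u U' hτu x = 0 → piC u ϖ ∣ x)
    (a : Chart O₁ (β u)) (c : Fin e → Chart O₀ u)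
    (hc : (a : L₁) = ∑ i : Fin e, algebraMap O₁ L₁ π ^ (i : ℕ) * β (c i : L₀))
    (h1 : redHom σ₁ hσO₁ π hπ hσfrac₁ (β u) (coeffMap j U)
      (sigma_beta_u j f hjf σ₀ σ₁ β hβ u U hσu) a = 0)
    (h2 : redHom τ₁ hτO₁ π hπ hτfrac₁ (β u) (coeffMap j U')
      (sigma_beta_u j f hjf τ₀ τ₁ β hβτ u U' hτu) a = 0) :
    piC (β u) π ∣ a := by
  have e1 := redHom_eq_of_L_coords j f hjf ϖ hϖ π hπ e σ₀ hσO₀ hσfrac₀ σ₁ hσO₁ hσfrac₁ β hβ u U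
    hσu he a c hc
  have e2 := redHom_eq_of_L_coords j f hjf ϖ hϖ π hπ e τ₀ hτO₀ hτfrac₀ τ₁ hτO₁ hτfrac₁ β hβτ u
    U' hτu he a c hc
  have z1 : redHom σ₀ hσO₀ ϖ hϖ hσfrac₀ u U hσu (c ⟨0, he⟩) = 0 :=
    resMap_injective j (by rw [← e1, h1, map_zero])
  have z2 : redHom τ₀ hτO₀ ϖ hϖ hτfrac₀ u U' hτu (c ⟨0, he⟩) = 0 :=
    resMap_injective j (by rw [← e2, h2, map_zero])
  exact piC_dvd_of_chart_coords j f hjf ϖ π e hdvd σ₀ hσO₀ σ₁ hσO₁ β hβ u he a c hc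
    (hsat _ z1 z2)

end Fermat.Agent.S44.L.GaussBCSat
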