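import Mathlib
import Fermat.Agent.S44.L.IotaCalc
import Fermat.Agent.S44.L.TopLemmas
import Fermat.Agent.S44.L.NormRed

/-!
# PROGRAM MR (S44), strand L: reductions of equivalent functions (helper84)

`IotaCalc.Sim Qb p x y` (`x = c · y · h ^ p`) seen through the reduction `Top.RedAt` at the
Gauss valuation.  Formal; for the exits of the SLOPE and NZ bricks: every statement about the
reduction `f` of `ι R` which is used there (`θ f = 0`, `p ∣ ord_w f`) depends only on the class
of `ι R` modulo constants and `p`-th powers.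

* `exists_redAt_of_sim` : if `x ~ y` and `y` reduces to `g`, then `x` reduces to `g · h̄ ^ p`.
* `eq_of_sim_redAt`     : reductions `f`, `g` of `x ~ y` satisfy `f = ē · (g · h̄ ^ p)`.
* `dlog_eq_of_sim`, `theta_zero_iff_of_sim` : `θ f / f = θ g / g`; `θ f = 0 ↔ θ g = 0`.
* `pDivAt_iff_of_sim`   : (given `Top.RedStatement`) `p ∣ ord_w f ↔ p ∣ ord_w g` at every
  valuation subring `w` of the reduced field of level `N'`.
-/

set_option autoImplicit false

open HahnSeries ModularCurve AlgebraicCurve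

namespace Fermat.Agent.S44.L.IotaRed

open Fermat.Agent.S30 Fermat.Agent.S30.Producer Fermat.Agent.S44.Contract
open Fermat.Agent.S44.L.Top Fermat.Agent.S44.L.IotaCalc Fermat.Agent.S44.L.ThetaLog
open Fermat.Agent.S36.QFormal

section Red

variable {M p : ℕ} {A : ValuationSubring Qb}

/-- If `x ~ y` and `y` reduces to `g`, then `x` reduces to `g · h̄ ^ p`. -/
theorem exists_redAt_of_sim [Fact p.Prime] (hA : A.LiesOverPrime p) {x y : FN M}
    (h : Sim Qb p x y) {g : LaurentSeries (IsLocalRing.ResidueField A)} (hy : RedAt M A y g) :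
    ∃ hb : LaurentSeries (IsLocalRing.ResidueField A), hb ≠ 0 ∧ RedAt M A x (g * hb ^ p) := by
  obtain ⟨c, k, hc, hk, rfl⟩ := h
  obtain ⟨kb, hkb⟩ := NormRed.exists_redAt A M p hA k hk
  exact ⟨kb, TopLemmas.RedAt.ne_zero hkb,
    TopLemmas.RedAt.mul (TopLemmas.RedAt.const_mul hc hy) (TopLemmas.RedAt.pow hkb p)⟩

/-- Reductions of equivalent functions differ by a constant and a `p`-th power. -/
theorem eq_of_sim_redAt [Fact p.Prime] (hA : A.LiesOverPrime p) {x y : FN M}
    (h : Sim Qb p x y) {f g : LaurentSeries (IsLocalRing.ResidueField A)}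
    (hx : RedAt M A x f) (hy : RedAt M A y g) :
    ∃ (e : IsLocalRing.ResidueField A) (hb : LaurentSeries (IsLocalRing.ResidueField A)),
      e ≠ 0 ∧ hb ≠ 0 ∧ f = HahnSeries.C e * (g * hb ^ p) := by
  obtain ⟨hb, hb0, hR⟩ := exists_redAt_of_sim hA h hy
  obtain ⟨e, he, hee⟩ := TopLemmas.RedAt.unique hx hR
  exact ⟨e, hb, he, hb0, hee⟩

/-- The logarithmic derivative of the reduction depends only on the class. -/
theorem dlog_eq_of_sim [Fact p.Prime] (hA : A.LiesOverPrime p) {x y : FN M}
    (h : Sim Qb p x y) {f g : LaurentSeries (IsLocalRing.ResidueField A)}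
    (hx : RedAt M A x f) (hy : RedAt M A y g) : dlog f = dlog g := by
  have := Congr.charP_residue A hA
  obtain ⟨e, hb, he, hb0, rfl⟩ := eq_of_sim_redAt hA h hx hy
  rw [dlog_C_mul he, dlog_mul (TopLemmas.RedAt.ne_zero hy) (pow_ne_zero p hb0),
    dlog_pow_char, add_zero]

/-- `θ f = 0` depends only on the class. -/
theorem theta_zero_iff_of_sim [Fact p.Prime] (hA : A.LiesOverPrime p) {x y : FN M}
    (h : Sim Qb p x y) {f g : LaurentSeries (IsLocalRing.ResidueField A)}
    (hx : RedAt M A x f) (hy : RedAt M A y g) :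
    (∀ n : ℤ, (n : IsLocalRing.ResidueField A) * f.coeff n = 0) ↔
      ∀ n : ℤ, (n : IsLocalRing.ResidueField A) * g.coeff n = 0 := by
  rw [← NormRed.theta_eq_zero_iff, ← NormRed.theta_eq_zero_iff]
  have hd := dlog_eq_of_sim hA h hx hy
  have hf0 := TopLemmas.RedAt.ne_zero hx
  have hg0 := TopLemmas.RedAt.ne_zero hy
  constructor
  · intro hθ
    have h0 : dlog f = 0 := by
      unfold dlog
      rw [hθ, zero_div]
    rw [← dlog_mul_self hg0, ← hd, h0, zero_mul]
  · intro hθ
    have h0 : dlog g = 0 := by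
      unfold dlog
      rw [hθ, zero_div]
    rw [← dlog_mul_self hf0, hd, h0, zero_mul]

end Red

/-- **`p ∣ ord_w` of the reduction depends only on the class** (at level `N' p`, reductions
in the reduced field of level `N'`). -/
theorem pDivAt_iff_of_sim (hred : RedStatement) {p N' : ℕ} [NeZero N'] [NeZero p]
    (hp : p.Prime) (h5 : 5 ≤ p) (hpN : ¬ p ∣ N') {A : ValuationSubring Qb}
    (hA : A.LiesOverPrime p) {x y : FN (N' * p)} (h : Sim Qb p x y) {f g : redField N' A}
    (hx : RedAt (N' * p) A x (f : LaurentSeries (IsLocalRing.ResidueField A)))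
    (hy : RedAt (N' * p) A y (g : LaurentSeries (IsLocalRing.ResidueField A)))
    (w : ValuationSubring (redField N' A)) : PDivAt p w f ↔ PDivAt p w g := by
  obtain ⟨c, k, hc, hk, rfl⟩ := h
  obtain ⟨kb, hkb⟩ := hred p N' hp h5 hpN A hA k hk
  have hkb0 : kb ≠ 0 := by
    rintro rfl
    exact TopLemmas.RedAt.ne_zero hkb rfl
  have hR : RedAt (N' * p) A (algebraMap Qb (FN (N' * p)) c * y * k ^ p)
      ((g * kb ^ p : redField N' A) : LaurentSeries (IsLocalRing.ResidueField A)) :=
    TopLemmas.RedAt.mul (TopLemmas.RedAt.const_mul hc hy) (TopLemmas.RedAt.pow hkb p)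
  rw [TopLemmas.RedAt.pDivAt_iff hp hA hx hR w]
  constructor
  · intro hgk
    have h1 := TopLemmas.PDivAt.mul hgk (TopLemmas.PDivAt.inv (TopLemmas.PDivAt.pow_self (p := p) (w := w) kb))
    rwa [mul_assoc, mul_inv_cancel₀ (pow_ne_zero p hkb0), mul_one] at h1
  · intro hg
    exact TopLemmas.PDivAt.mul hg (TopLemmas.PDivAt.pow_self kb)

end Fermat.Agent.S44.L.IotaRed
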