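import Mathlib
import Fermat.Agent.S44.L.Node
import Fermat.Agent.S44.L.Depth

/-!
# (L.N) Level-free adapter: chart-level data ⟹ the hypotheses of the node lemma

`C` a chart ring inside a function field `L`; `R` a regular node ring (`𝔪 = (s, t)`) with
fraction field `F`; `ψ : C → R`, `ι : L → F` compatible ring homomorphisms.

* `hhor_of_horiz`: the horizontal hypothesis in the `S36.HorizAdapter.Horiz` form on `C` gives
  the horizontal hypothesis `hhor` of `Node.node_lemma` / `Node.node_formula` on `R`.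
* `hbr_of_depthC`: `Depth.DepthC` at depth `≥ p` at a vertical prime `P` of `C` gives the branch
  hypothesis `hbr` of `Node.node_lemma` at a prime `s` of `R` with `ψ⁻¹ (s) ⊆ P`.
* `exists_const_mul_pow`: a constant of `Frac O` is an element of `O` times a `p`-th power.
* `node_constants_of_depthC`: the composition with `Node.node_lemma`: the constants of the two
  branches differ by a `p`-th power and a factor `1 + ϖ ^ p a`.
-/

namespace Fermat.Agent.S44.L.NodeAdapt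

open IsLocalRing
open Fermat.Agent.S44.L.Depth

section Transport

variable {C L R F : Type*} [CommRing C] [Field L] [Algebra C L]
  [CommRing R] [IsDomain R] [Field F] [Algebra R F]

omit [IsDomain R] in
/-- **Horizontal transport.**  The `Horiz` form on the chart `C` (at every prime `Q ∌ ϖ`, `k` is
an `m`-th power up to units at `Q`) gives the horizontal hypothesis of the node lemma on `R`. -/
theorem hhor_of_horiz (ψ : C →+* R) (ι : L →+* F)
    (hψι : ∀ c : C, ι (algebraMap C L c) = algebraMap R F (ψ c)) {m : ℕ} {ϖ : C} {k : L}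
    (hH : ∀ Q : Ideal C, Q.IsPrime → ϖ ∉ Q →
      ∃ (τ : L) (s b : C), τ ≠ 0 ∧ s ∉ Q ∧ b ∉ Q ∧
        k * algebraMap C L s = τ ^ m * algebraMap C L b) :
    ∀ g : R, Prime g → ¬ g ∣ ψ ϖ →
      ∃ (a b : R) (h : F), ¬ g ∣ a ∧ ¬ g ∣ b ∧
        algebraMap R F b * ι k = algebraMap R F a * h ^ m := by
  intro g hg hgϖ
  have hprime : (Ideal.span {g} : Ideal R).IsPrime :=
    (Ideal.span_singleton_prime hg.ne_zero).mpr hg
  have hQ : (Ideal.comap ψ (Ideal.span {g})).IsPrime := Ideal.comap_isPrime ψ _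
  have hmem : ∀ x : C, x ∈ Ideal.comap ψ (Ideal.span {g}) ↔ g ∣ ψ x := fun x => by
    rw [Ideal.mem_comap, Ideal.mem_span_singleton]
  obtain ⟨τ, s, b, -, hs, hb, e⟩ := hH _ hQ (fun h => hgϖ ((hmem ϖ).mp h))
  refine ⟨ψ b, ψ s, ι τ, fun h => hb ((hmem b).mpr h), fun h => hs ((hmem s).mpr h), ?_⟩
  have e' := congrArg ι e
  rw [map_mul, map_mul, map_pow, hψι, hψι] at e'
  rw [mul_comm, e', mul_comm]

omit [IsDomain R] in
/-- **Branch transport.**  Depth `≥ p` with the constant `c` at the vertical prime `P` of the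
chart gives the branch hypothesis of the node lemma at a prime `s` of `R` whose contraction
to the chart lies in `P`. -/
theorem hbr_of_depthC {E : Type*} [Field E] [Algebra E L] (ψ : C →+* R) (ι : L →+* F)
    (hψι : ∀ c : C, ι (algebraMap C L c) = algebraMap R F (ψ c)) {p d : ℕ} (hd : p ≤ d)
    {ϖ : C} {P : Ideal C} {c : E} {f : L} {s cR : R}
    (hs : ∀ x : C, x ∉ P → ¬ s ∣ ψ x) (hc : ι (algebraMap E L c) = algebraMap R F cR)
    (h : DepthC p ϖ P d c f) :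
    ∃ (g : F) (a b : R), ¬ s ∣ b ∧ algebraMap R F b * ι f =
      algebraMap R F cR * g ^ p * algebraMap R F (b + ψ ϖ ^ p * a) := by
  obtain ⟨g, y, -, hf, x, e, hx, hxe⟩ := h
  refine ⟨ι g, ψ (ϖ ^ (d - p) * e), ψ x, hs x hx, ?_⟩
  have e1 := congrArg ι hxe
  rw [map_mul, hψι, hψι] at e1
  have e2 : ψ x + ψ ϖ ^ p * ψ (ϖ ^ (d - p) * e) = ψ x + ψ (ϖ ^ d * e) := by
    rw [← map_pow, ← map_mul, ← mul_assoc, ← pow_add, Nat.add_sub_cancel' hd]
  rw [e2, hf, map_mul, map_mul, map_pow, map_add, map_one, hc, map_add, ← e1]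
  ring

end Transport

section Const

variable {O E : Type*} [CommRing O] [IsDomain O] [Field E] [Algebra O E] [IsFractionRing O E]

/-- A nonzero constant of `Frac O` is a nonzero element of `O` times a `p`-th power. -/
theorem exists_const_mul_pow {p : ℕ} (hp : p ≠ 0) {c : E} (hc : c ≠ 0) :
    ∃ (c₀ y : O), c₀ ≠ 0 ∧ y ≠ 0 ∧ c * algebraMap O E y ^ p = algebraMap O E c₀ := by
  have hinj := IsFractionRing.injective O E
  obtain ⟨x, y, hy, rfl⟩ := IsFractionRing.div_surjective O c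
  have hy0 : y ≠ 0 := nonZeroDivisors.ne_zero hy
  have hyE : algebraMap O E y ≠ 0 := (map_ne_zero_iff _ hinj).mpr hy0
  have hx0 : x ≠ 0 := by
    rintro rfl
    exact hc (by simp)
  obtain ⟨q, rfl⟩ : ∃ q, p = q + 1 := Nat.exists_eq_succ_of_ne_zero hp
  refine ⟨x * y ^ q, y, mul_ne_zero hx0 (pow_ne_zero _ hy0), hy0, ?_⟩
  rw [map_mul, map_pow, pow_succ]
  field_simp

end Const

section Main

variable {O : Type*} [CommRing O] [IsDomain O] [IsDiscreteValuationRing O]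
  {E : Type*} [Field E] [Algebra O E] [IsFractionRing O E]
  {C : Type*} [CommRing C] {L : Type*} [Field L] [Algebra C L] [Algebra E L]
  {R : Type*} [CommRing R] [IsDomain R] [IsLocalRing R] [IsNoetherianRing R] [Algebra O R]
  {F : Type*} [Field F] [Algebra R F] [IsFractionRing R F]

/-- **(L.N) from chart-level data.**  `O` a DVR with uniformiser `ϖ`, `ϖ ^ (p - 1) ∣ p`,
perfect residue field, `E = Frac O`; `C ⊆ L` a chart ring with two vertical primes `P₁`, `P₂`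
and `ϖC : C` the uniformiser; `R` a regular node ring over `O` (`𝔪 = (s, t)`, `s t ∼ ϖ`) with
`ψ : C → R`, `ι : L → Frac R` compatible, `ψ⁻¹ (s) ⊆ P₁`, `ψ⁻¹ (t) ⊆ P₂`.  If `f ∈ Lˣ` is
horizontal (`Horiz` form) and has depth `≥ p` at `P₁` with the constant `c₁` and at `P₂` with
the constant `c₂`, then `c₁ / c₂ ∈ (Eˣ) ^ p * (1 + ϖ ^ p O)`. -/
theorem node_constants_of_depthC (p : ℕ) (hp : p.Prime)
    (ϖ : O) (hϖ : Irreducible ϖ) (hpϖ : ϖ ^ (p - 1) ∣ (p : O))
    (hperf : ∀ a : O, ∃ b : O, ϖ ∣ a - b ^ p)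
    (s t : R) (hs : Prime s) (ht : Prime t) (hne : ¬ Associated s t)
    (hm : maximalIdeal R = Ideal.span {s, t})
    (hst : Associated (s * t) (algebraMap O R ϖ))
    (ψ : C →+* R) (ι : L →+* F)
    (hψι : ∀ c : C, ι (algebraMap C L c) = algebraMap R F (ψ c))
    (hιE : ∀ c : O, ι (algebraMap E L (algebraMap O E c)) = algebraMap R F (algebraMap O R c))
    (ϖC : C) (hϖC : ψ ϖC = algebraMap O R ϖ)
    (P₁ P₂ : Ideal C) (hP₁ : ∀ x : C, x ∉ P₁ → ¬ s ∣ ψ x) (hP₂ : ∀ x : C, x ∉ P₂ → ¬ t ∣ ψ x)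
    (f : L) (hf : f ≠ 0)
    (hH : ∀ Q : Ideal C, Q.IsPrime → ϖC ∉ Q →
      ∃ (τ : L) (x b : C), τ ≠ 0 ∧ x ∉ Q ∧ b ∉ Q ∧
        f * algebraMap C L x = τ ^ p * algebraMap C L b)
    (c₁ c₂ : E) (hc₁ : c₁ ≠ 0) (hc₂ : c₂ ≠ 0) {d : ℕ} (hd : p ≤ d)
    (h₁ : DepthC p ϖC P₁ d c₁ f) (h₂ : DepthC p ϖC P₂ d c₂ f) :
    ∃ x y a : O, x ≠ 0 ∧ y ≠ 0 ∧
      c₁ * algebraMap O E x ^ p
        = c₂ * algebraMap O E y ^ p * (1 + algebraMap O E ϖ ^ p * algebraMap O E a) := by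
  have hinj := IsFractionRing.injective O E
  obtain ⟨a₁, y₁, ha₁, hy₁, e₁⟩ := exists_const_mul_pow (O := O) hp.ne_zero hc₁
  obtain ⟨a₂, y₂, ha₂, hy₂, e₂⟩ := exists_const_mul_pow (O := O) hp.ne_zero hc₂
  have hy₁E : algebraMap O E y₁ ≠ 0 := (map_ne_zero_iff _ hinj).mpr hy₁
  have hy₂E : algebraMap O E y₂ ≠ 0 := (map_ne_zero_iff _ hinj).mpr hy₂
  have h₁' := h₁.const_mul_pow hy₁E
  have h₂' := h₂.const_mul_pow hy₂E
  rw [e₁] at h₁'
  rw [e₂] at h₂'
  have hhor := hhor_of_horiz ψ ι hψι hH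
  rw [hϖC] at hhor
  have hbr₁ := hbr_of_depthC ψ ι hψι hd hP₁ (hιE a₁) h₁'
  have hbr₂ := hbr_of_depthC ψ ι hψι hd hP₂ (hιE a₂) h₂'
  rw [hϖC] at hbr₁ hbr₂
  obtain ⟨x, y, a, hx, hy, e⟩ := Node.node_lemma p hp ϖ hϖ hpϖ hperf s t hs ht hne hm hst (ι f)
    ((map_ne_zero ι).mpr hf) hhor a₁ a₂ ha₁ ha₂ hbr₁ hbr₂
  refine ⟨x * y₁, y * y₂, a, mul_ne_zero hx hy₁, mul_ne_zero hy hy₂, ?_⟩
  have e' := congrArg (algebraMap O E) e
  simp only [map_mul, map_pow, map_add, map_one] at e'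
  rw [← e₁, ← e₂] at e'
  simp only [map_mul, mul_pow]
  linear_combination e'

end Main

end Fermat.Agent.S44.L.NodeAdapt
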