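import Mathlib
import Fermat.Agent.S44.L.Node
import Fermat.Agent.S44.L.CycloSeam
import Fermat.Agent.S44.L.CycloPerf
import Fermat.Agent.S44.L.CycloHom

/-!
# The node lemma at `O = A ∩ K(ζ)` (strand L of S44): the compiled seam

`A` is a valuation subring of `ℚ̄` over the prime `q`, `K` a number field fixed by the inertia
group of `A`, `ζ` a primitive `q`-th root of unity, `O = A ∩ K(ζ)`, `λ = ζ - 1`.

* `exists_ringHom_lam`: on a domain `R` with `(1 + s t)^q = 1`, `s t ≠ 0`, every ring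
  homomorphism `A ∩ K → R` extends to `φ : O → R` with `φ λ = s t`
  (`CycloHom.exists_ringHom_of_root` at `x = 1 + s t`);
* `node_lemma_cyclo`: `Node.node_lemma` instantiated at `O`, `ϖ = λ`, the `O`-algebra structure
  of `R` given by a ring homomorphism `φ` with `φ λ = s t` (all the hypotheses on `O` are
  discharged; the statement mentions only `φ`, `s`, `t`);
* `node_galois`: the Galois form of its conclusion (`CycloSeam.map_root_eq`): every `q`-th root
  of `c₁ / c₂` in `ℚ̄` is fixed by the elements of the inertia group of `A` that fix `ζ`.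
-/

set_option autoImplicit false

open scoped IntermediateField

noncomputable section

namespace Fermat.Agent.S44.L.NodeCyclo

local notation "Qb" => AlgebraicClosure ℚ

open Fermat.Agent.S18.K1Defs Fermat.Agent.S36.UnramBase Fermat.Agent.S30
open Fermat.Agent.S36.CycloBase

variable (A : ValuationSubring Qb) {q : ℕ} (hq : q.Prime) (hA : A.LiesOverPrime q)
  (K : IntermediateField ℚ Qb) [FiniteDimensional ℚ K]
  (hK : A.inertiaSubgroupIn ℚ ≤ K.fixingSubgroup) {ζ : Qb} (hζ : IsPrimitiveRoot ζ q)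

include hA hK in
/-- **The map `A ∩ K(ζ) → R` on a node cover**: if `(1 + s t)^q = 1` and `s t ≠ 0` in the
domain `R`, every ring homomorphism `φ₀ : A ∩ K → R` extends to `φ : A ∩ K(ζ) → R` with
`φ (ζ - 1) = s t`. -/
theorem exists_ringHom_lam {R : Type*} [CommRing R] [IsDomain R] (φ₀ : OE A K →+* R)
    (s t : R) (hst : (1 + s * t) ^ q = 1) (hst0 : s * t ≠ 0) :
    ∃ φ : OE A (cyclo K ζ) →+* R,
      (∀ c : OE A K, φ (inclOE A (le_cyclo K ζ) c) = φ₀ c) ∧
      φ (lam A hq K hζ) = s * t := by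
  obtain ⟨φ, h1, -, h3⟩ := CycloHom.exists_ringHom_of_root A hq hA K hK hζ φ₀ (1 + s * t) hst
    (fun h => hst0 (by simpa using h))
  exact ⟨φ, h1, by rw [h3]; ring⟩

variable {R : Type*} [CommRing R] [IsDomain R] [IsLocalRing R] [IsNoetherianRing R]
  {F : Type*} [Field F] [Algebra R F] [IsFractionRing R F]

include hA hK in
/-- **The node lemma at `O = A ∩ K(ζ)`, `ϖ = ζ - 1`.**  `R` a noetherian local domain with
maximal ideal `(s, t)`, `s`, `t` non-associated primes, `φ : O → R` a ring homomorphism with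
`φ (ζ - 1) = s t`, `F = Frac R`. -/
theorem node_lemma_cyclo (φ : OE A (cyclo K ζ) →+* R)
    (s t : R) (hs : Prime s) (ht : Prime t) (hne : ¬ Associated s t)
    (hm : IsLocalRing.maximalIdeal R = Ideal.span {s, t})
    (hφ : φ (lam A hq K hζ) = s * t)
    (f : F) (hf : f ≠ 0)
    (hhor : ∀ π : R, Prime π → ¬ π ∣ s * t →
      ∃ (a b : R) (h : F), ¬ π ∣ a ∧ ¬ π ∣ b ∧ algebraMap R F b * f = algebraMap R F a * h ^ q)
    (c₁ c₂ : OE A (cyclo K ζ)) (hc₁ : c₁ ≠ 0) (hc₂ : c₂ ≠ 0)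
    (hbr₁ : ∃ (g : F) (a b : R), ¬ s ∣ b ∧ algebraMap R F b * f =
      algebraMap R F (φ c₁) * g ^ q * algebraMap R F (b + (s * t) ^ q * a))
    (hbr₂ : ∃ (g : F) (a b : R), ¬ t ∣ b ∧ algebraMap R F b * f =
      algebraMap R F (φ c₂) * g ^ q * algebraMap R F (b + (s * t) ^ q * a)) :
    ∃ d e a : OE A (cyclo K ζ), d ≠ 0 ∧ e ≠ 0 ∧
      c₁ * d ^ q = c₂ * e ^ q * (1 + lam A hq K hζ ^ q * a) := by
  have : IsDiscreteValuationRing (OE A (cyclo K ζ)) :=
    GaussDescent.isDiscreteValuationRing_OE A (cyclo K ζ) hq hA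
  let _ : Algebra (OE A (cyclo K ζ)) R := φ.toAlgebra
  have halg : ∀ z : OE A (cyclo K ζ), algebraMap (OE A (cyclo K ζ)) R z = φ z := fun _ => rfl
  obtain ⟨w, hw, -⟩ := exists_unit_mul_lam_pow A hq hA K hK hζ
  refine Node.node_lemma (O := OE A (cyclo K ζ)) (R := R) (F := F) q hq (lam A hq K hζ)
    (irreducible_lam A hq hA K hK hζ) ⟨w, by rw [hw]; ring⟩
    (CycloPerf.exists_pow_sub_dvd_lam A hq hA K hK hζ) s t hs ht hne hm ?_ f hf ?_
    c₁ c₂ hc₁ hc₂ ?_ ?_
  · rw [halg, hφ]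
  · intro π hπ hπd
    rw [halg, hφ] at hπd
    exact hhor π hπ hπd
  · simpa only [halg, hφ] using hbr₁
  · simpa only [halg, hφ] using hbr₂

include hA hK in
/-- **The node lemma at `O = A ∩ K(ζ)`, Galois form.**  Under the hypotheses of
`node_lemma_cyclo`, every `q`-th root `β ∈ ℚ̄` of `c₁ / c₂` is fixed by every element of the
inertia group of `A` that fixes `ζ`. -/
theorem node_galois (φ : OE A (cyclo K ζ) →+* R)
    (s t : R) (hs : Prime s) (ht : Prime t) (hne : ¬ Associated s t)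
    (hm : IsLocalRing.maximalIdeal R = Ideal.span {s, t})
    (hφ : φ (lam A hq K hζ) = s * t)
    (f : F) (hf : f ≠ 0)
    (hhor : ∀ π : R, Prime π → ¬ π ∣ s * t →
      ∃ (a b : R) (h : F), ¬ π ∣ a ∧ ¬ π ∣ b ∧ algebraMap R F b * f = algebraMap R F a * h ^ q)
    (c₁ c₂ : OE A (cyclo K ζ)) (hc₁ : c₁ ≠ 0) (hc₂ : c₂ ≠ 0)
    (hbr₁ : ∃ (g : F) (a b : R), ¬ s ∣ b ∧ algebraMap R F b * f =
      algebraMap R F (φ c₁) * g ^ q * algebraMap R F (b + (s * t) ^ q * a))
    (hbr₂ : ∃ (g : F) (a b : R), ¬ t ∣ b ∧ algebraMap R F b * f =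
      algebraMap R F (φ c₂) * g ^ q * algebraMap R F (b + (s * t) ^ q * a))
    (β : Qb) (hβ : β ^ q * (((c₂ : cyclo K ζ)) : Qb) = (((c₁ : cyclo K ζ)) : Qb))
    (σ : Qb ≃ₐ[ℚ] Qb) (hσ : σ ∈ A.inertiaSubgroupIn ℚ) (hσζ : σ ζ = ζ) : σ β = β := by
  obtain ⟨d, e, a, hd, he, h⟩ := node_lemma_cyclo A hq hA K hK hζ φ s t hs ht hne hm hφ f hf
    hhor c₁ c₂ hc₁ hc₂ hbr₁ hbr₂
  exact CycloSeam.map_root_eq A hq hA hζ K hK c₁ c₂ d e a hc₂ hd he h β hβ σ hσ hσζ

end Fermat.Agent.S44.L.NodeCyclo
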