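import Mathlib
import Fermat.Agent.S44.L.NodeCover

/-!
# Program MR (S44), strand L, cover-free ALT for (L.SLOPE), brick (A1), file 1:
# the graded regular cover of the `A_{p-1}` point

Level-free commutative algebra (helper61), Mathlib + the landed `S44/L/NodeCover` (helper27:
the Eisenstein step `eis_*`) only.

Setting: `B` a noetherian local domain with `𝔪 = (t₁, t₂)`, `t₁`, `t₂` non-associated prime
elements (a regular two-dimensional local ring: the local ring of the level `M p` chart over the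
UNRAMIFIED base at a crossing point of the special fibre, `t₁ t₂ = p * unit`), `κ ∈ B[X]` of
degree `< p` with `κ(0)` a unit.  The ring `A = B[π]`, `π ^ p = t₁ t₂ κ(π)` (the local ring of the
chart over the RAMIFIED base `O[π]`, `π` Eisenstein) is normal but NOT regular (an `A_{p-1}` point).

`exists_graded_cover`: the ring `R = B[S, Y] / (S ^ p - t₂, Y ^ p - t₁ κ(S Y))` is a noetherian
local domain with `𝔪_R = (r, s)`, `r`, `s` non-associated primes (so `R` is regular, hence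
factorial by `LocalPrincipal.quot_ufm`), generated over `B` by `r`, `s`, with `s ^ p = t₂`,
`r ^ p = t₁ κ(r s)` (so `π := r s` satisfies `π ^ p = t₁ t₂ κ(π)` and `A ⊆ R`), and it carries
the `ℤ/p`-grading `deg s = 1`, `deg r = -1`, given as a COACTION: a ring homomorphism
`Φ : R → R[ℤ/p]` with `Φ b = b [0]`, `Φ r = r [-1]`, `Φ s = s [1]` (it exists because both
relations are homogeneous of degree `0`).  `A` is the degree-`0` part.

Consumer: `S44/L/NodeNF` (the node normal form `f = w π ^ m t₂ ^ j x ^ p`).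
-/

set_option autoImplicit false

open Polynomial

namespace Fermat.Agent.S44.L.NodeNF

open Fermat.Agent.S44.L.NodeCover

universe u v w

/-! ### The polynomial `c * θ(t X)` -/

/-- `c * θ(t X) = ∑_{j<n} (c θ_j t^j) X^j`. -/
noncomputable def scalePoly {B₁ : Type*} [CommRing B₁] (n : ℕ) (c : B₁) (θ : ℕ → B₁) (t : B₁) :
    B₁[X] :=
  ∑ j ∈ Finset.range n, C (c * θ j * t ^ j) * X ^ j

theorem scalePoly_natDegree_lt {B₁ : Type*} [CommRing B₁] {n : ℕ} (hn : n ≠ 0) (c : B₁)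
    (θ : ℕ → B₁) (t : B₁) : (scalePoly n c θ t).natDegree < n := by
  refine lt_of_le_of_lt (natDegree_sum_le_of_forall_le _ _ (n := n - 1) fun j hj => ?_)
    (by omega)
  have hj' := Finset.mem_range.mp hj
  exact (natDegree_C_mul_X_pow_le _ _).trans (by omega)

theorem scalePoly_eval₂ {B₁ S : Type*} [CommRing B₁] [CommRing S] (g : B₁ →+* S) (x : S) (n : ℕ)
    (c : B₁) (θ : ℕ → B₁) (t : B₁) :
    (scalePoly n c θ t).eval₂ g x = g c * ∑ j ∈ Finset.range n, g (θ j) * (g t * x) ^ j := by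
  rw [scalePoly, eval₂_finsetSum, Finset.mul_sum]
  refine Finset.sum_congr rfl fun j _ => ?_
  rw [eval₂_mul, eval₂_C, eval₂_pow, eval₂_X, map_mul, map_mul, map_pow, mul_pow]
  ring

theorem scalePoly_eval_zero {B₁ : Type*} [CommRing B₁] {n : ℕ} (hn : n ≠ 0) (c : B₁)
    (θ : ℕ → B₁) (t : B₁) : (scalePoly n c θ t).eval 0 = c * θ 0 := by
  obtain ⟨n', rfl⟩ := Nat.exists_eq_add_one_of_ne_zero hn
  rw [← eval₂_id, scalePoly_eval₂, Finset.sum_range_succ']
  have h0 : ∑ j ∈ Finset.range n', (RingHom.id B₁) (θ (j + 1)) * ((RingHom.id B₁) t * 0) ^ (j + 1)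
      = 0 := Finset.sum_eq_zero fun j _ => by
    rw [mul_zero, zero_pow (Nat.succ_ne_zero j), mul_zero]
  rw [h0, zero_add, pow_zero, mul_one, RingHom.id_apply, RingHom.id_apply]

theorem mk_eq_eval₂ {B₁ : Type*} [CommRing B₁] (f q : B₁[X]) :
    AdjoinRoot.mk f q = q.eval₂ (AdjoinRoot.of f) (AdjoinRoot.root f) := by
  rw [← AdjoinRoot.aeval_eq, aeval_def, AdjoinRoot.algebraMap_eq]


theorem eis_eval₂ {B₁ S : Type*} [CommRing B₁] [CommRing S] {h : B₁[X]} {π : B₁} {n : ℕ}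
    {k : B₁[X]} (hh : h = X ^ n + C π * k) (g : B₁ →+* S) (x : S) :
    h.eval₂ g x = x ^ n + g π * k.eval₂ g x := by
  subst hh
  rw [eval₂_add, eval₂_pow, eval₂_X, eval₂_mul, eval₂_C]

/-! ### The graded regular cover of the `A_{p-1}` point -/

section Cover

variable {B : Type u} [CommRing B] [IsDomain B] [IsLocalRing B] [IsNoetherianRing B]

/-- **The graded regular cover.**  Over a regular two-dimensional local ring `B`, `𝔪 = (t₁, t₂)`,
and `κ ∈ B[X]` of degree `< p` with `κ(0)` a unit, the ring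
`R = B[S, Y] / (S ^ p - t₂, Y ^ p - t₁ κ(S Y))` is a noetherian local domain with `𝔪_R = (r, s)`,
`r`, `s` non-associated primes, generated by `r`, `s` over `B`, and it carries the
`ℤ/p`-grading `deg s = 1`, `deg r = -1` (as a coaction `Φ : R → R[ℤ/p]`). -/
theorem exists_graded_cover (p : ℕ) (hp : p ≠ 0) (t₁ t₂ : B) (ht₁ : Prime t₁) (ht₂ : Prime t₂)
    (hne : ¬ Associated t₁ t₂) (hm : IsLocalRing.maximalIdeal B = Ideal.span {t₁, t₂})
    (κ : B[X]) (hκ : κ.natDegree < p) (hκ0 : IsUnit (κ.eval 0)) :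
    ∃ (R : Type u) (_ : CommRing R) (_ : IsDomain R) (_ : IsLocalRing R) (_ : IsNoetherianRing R)
      (_ : Algebra B R) (r s : R) (Φ : R →+* AddMonoidAlgebra R (ZMod p)),
      Function.Injective (algebraMap B R) ∧ Prime r ∧ Prime s ∧ ¬ Associated r s ∧
      IsLocalRing.maximalIdeal R = Ideal.span {r, s} ∧
      s ^ p = algebraMap B R t₂ ∧ r ^ p = algebraMap B R t₁ * aeval (r * s) κ ∧
      Algebra.adjoin B {r, s} = ⊤ ∧
      (∀ b : B, Φ (algebraMap B R b) = AddMonoidAlgebra.single 0 (algebraMap B R b)) ∧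
      Φ r = AddMonoidAlgebra.single (-1) r ∧ Φ s = AddMonoidAlgebra.single 1 s := by
  have h12 : ¬ t₁ ∣ t₂ := fun hd => hne (ht₁.associated_of_dvd ht₂ hd)
  have h21 : ¬ t₂ ∣ t₁ := fun hd => hne (ht₂.associated_of_dvd ht₁ hd).symm
  -- first step: adjoin `s₁` with `s₁ ^ p = t₂`
  obtain ⟨h₁, hh₁⟩ : ∃ h₁ : B[X], h₁ = X ^ p + C t₂ * (-1) := ⟨_, rfl⟩
  have hk₁ : (-1 : B[X]).natDegree < p := by
    rw [natDegree_neg, natDegree_one]
    exact Nat.pos_of_ne_zero hp
  have hk0₁ : IsUnit ((-1 : B[X]).eval 0) := by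
    rw [eval_neg, eval_one]
    exact isUnit_one.neg
  have hdom₁ : IsDomain (AdjoinRoot h₁) := eis_isDomain hh₁ hk₁ hp ht₂ hk0₁
  have hloc₁ : IsLocalRing (AdjoinRoot h₁) := eis_isLocalRing hh₁ hk₁ hp ht₂
  have hinj₁ := eis_of_injective hh₁ hk₁ hp
  have hs₁ : Prime (AdjoinRoot.root h₁) := eis_root_prime hh₁ hk₁ hp ht₂ hk0₁
  have hs₁pow : AdjoinRoot.root h₁ ^ p = AdjoinRoot.of h₁ t₂ := by
    rw [eis_root_pow hh₁, map_neg, map_one]
    ring
  have hdvd₁ : ∀ b : B, AdjoinRoot.root h₁ ∣ AdjoinRoot.of h₁ b → t₂ ∣ b :=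
    fun b hb => eis_dvd_of_root_dvd hh₁ hp hb
  have hm₁ : IsLocalRing.maximalIdeal (AdjoinRoot h₁)
      = Ideal.span {AdjoinRoot.root h₁, AdjoinRoot.of h₁ t₁} := by
    rw [eis_maximalIdeal hh₁ hk₁ hp ht₂, hm, Ideal.map_span, Set.image_pair]
    apply le_antisymm
    · refine sup_le (Ideal.span_le.mpr ?_) (Ideal.span_mono (by simp))
      rintro z (rfl | rfl)
      · exact Ideal.subset_span (by simp)
      · rw [← hs₁pow]
        exact Ideal.pow_mem_of_mem _ (Ideal.subset_span (by simp)) p (Nat.pos_of_ne_zero hp)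
    · refine Ideal.span_le.mpr ?_
      rintro z (rfl | rfl)
      · exact Ideal.mem_sup_right (Ideal.subset_span rfl)
      · exact Ideal.mem_sup_left (Ideal.subset_span (by simp))
  obtain ⟨hT₁, hT₁dvd⟩ := eis_of_prime_of_prime_mk hh₁ hk₁ hp hk0₁ ht₁
    (prime_mk_of_maximalIdeal_eq hm h12)
  -- second step: adjoin `r` with `r ^ p = t₁ κ(s₁ r)`
  obtain ⟨k₂, hk₂def⟩ : ∃ k₂ : (AdjoinRoot h₁)[X], k₂ = scalePoly p (-1)
      (fun j => AdjoinRoot.of h₁ (κ.coeff j)) (AdjoinRoot.root h₁) := ⟨_, rfl⟩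
  obtain ⟨h₂, hh₂⟩ : ∃ h₂ : (AdjoinRoot h₁)[X], h₂ = X ^ p + C (AdjoinRoot.of h₁ t₁) * k₂ :=
    ⟨_, rfl⟩
  have hk₂ : k₂.natDegree < p := hk₂def ▸ scalePoly_natDegree_lt hp _ _ _
  have hk0₂ : IsUnit (k₂.eval 0) := by
    rw [hk₂def, scalePoly_eval_zero hp, coeff_zero_eq_eval_zero]
    exact (isUnit_one.neg).mul (hκ0.map _)
  have hdom₂ : IsDomain (AdjoinRoot h₂) := eis_isDomain hh₂ hk₂ hp hT₁ hk0₂
  have hloc₂ : IsLocalRing (AdjoinRoot h₂) := eis_isLocalRing hh₂ hk₂ hp hT₁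
  have hinj₂ := eis_of_injective hh₂ hk₂ hp
  have hr : Prime (AdjoinRoot.root h₂) := eis_root_prime hh₂ hk₂ hp hT₁ hk0₂
  have hrass : Associated (AdjoinRoot.root h₂ ^ p) (AdjoinRoot.of h₂ (AdjoinRoot.of h₁ t₁)) :=
    eis_associated hh₂ hk₂ hT₁ hk0₂
  have hdvd₂ : ∀ b : AdjoinRoot h₁, AdjoinRoot.root h₂ ∣ AdjoinRoot.of h₂ b →
      AdjoinRoot.of h₁ t₁ ∣ b := fun b hb => eis_dvd_of_root_dvd hh₂ hp hb
  obtain ⟨hs, hsdvd⟩ := eis_of_prime_of_prime_mk hh₂ hk₂ hp hk0₂ hs₁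
    (prime_mk_of_maximalIdeal_eq hm₁ fun hd => h21 (hdvd₁ t₁ hd))
  have hspow : AdjoinRoot.of h₂ (AdjoinRoot.root h₁) ^ p
      = AdjoinRoot.of h₂ (AdjoinRoot.of h₁ t₂) := by
    rw [← map_pow, hs₁pow]
  have halg : ∀ b : B, algebraMap B (AdjoinRoot h₂) b
      = AdjoinRoot.of h₂ (AdjoinRoot.of h₁ b) := fun b => rfl
  have haev : aeval (AdjoinRoot.root h₂ * AdjoinRoot.of h₂ (AdjoinRoot.root h₁)) κ
      = ∑ j ∈ Finset.range p, AdjoinRoot.of h₂ (AdjoinRoot.of h₁ (κ.coeff j))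
        * (AdjoinRoot.of h₂ (AdjoinRoot.root h₁) * AdjoinRoot.root h₂) ^ j := by
    rw [aeval_eq_sum_range' hκ]
    refine Finset.sum_congr rfl fun j _ => ?_
    rw [Algebra.smul_def, halg, mul_comm (AdjoinRoot.root h₂)]
  have hrpow : AdjoinRoot.root h₂ ^ p = AdjoinRoot.of h₂ (AdjoinRoot.of h₁ t₁)
      * aeval (AdjoinRoot.root h₂ * AdjoinRoot.of h₂ (AdjoinRoot.root h₁)) κ := by
    rw [eis_root_pow hh₂, mk_eq_eval₂, hk₂def, scalePoly_eval₂, haev, map_neg, map_one]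
    ring
  -- the coaction
  have hp0 : p • (1 : ZMod p) = 0 := by
    rw [nsmul_eq_mul, mul_one, ZMod.natCast_self]
  obtain ⟨i₀, hi₀⟩ : ∃ i₀ : B →+* AddMonoidAlgebra (AdjoinRoot h₂) (ZMod p),
      ∀ b, i₀ b = AddMonoidAlgebra.single 0 (AdjoinRoot.of h₂ (AdjoinRoot.of h₁ b)) :=
    ⟨(AddMonoidAlgebra.singleZeroRingHom).comp (algebraMap B (AdjoinRoot h₂)), fun b => rfl⟩
  have e₁ : h₁.eval₂ i₀ (AddMonoidAlgebra.single 1 (AdjoinRoot.of h₂ (AdjoinRoot.root h₁))) = 0 := by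
    rw [eis_eval₂ hh₁, eval₂_neg, eval₂_one, AddMonoidAlgebra.single_pow, hp0, hspow, hi₀]
    ring
  obtain ⟨Φ₁, hΦ₁of, hΦ₁root⟩ : ∃ Φ₁ : AdjoinRoot h₁ →+* AddMonoidAlgebra (AdjoinRoot h₂) (ZMod p),
      (∀ b, Φ₁ (AdjoinRoot.of h₁ b) = AddMonoidAlgebra.single 0 (AdjoinRoot.of h₂ (AdjoinRoot.of h₁ b))) ∧
      Φ₁ (AdjoinRoot.root h₁) = AddMonoidAlgebra.single 1 (AdjoinRoot.of h₂ (AdjoinRoot.root h₁)) :=
    ⟨AdjoinRoot.lift i₀ _ e₁, fun b => by rw [AdjoinRoot.lift_of, hi₀], AdjoinRoot.lift_root _⟩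
  have hpm : p • (-1 : ZMod p) = 0 := by
    rw [smul_neg, hp0, neg_zero]
  have e₂ : h₂.eval₂ Φ₁ (AddMonoidAlgebra.single (-1) (AdjoinRoot.root h₂)) = 0 := by
    have hmul : ∀ j : ℕ, (Φ₁ (AdjoinRoot.root h₁)
        * AddMonoidAlgebra.single (-1) (AdjoinRoot.root h₂)) ^ j
        = AddMonoidAlgebra.single 0
          ((AdjoinRoot.of h₂ (AdjoinRoot.root h₁) * AdjoinRoot.root h₂) ^ j) := by
      intro j
      rw [hΦ₁root, AddMonoidAlgebra.single_mul_single, add_neg_cancel,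
        AddMonoidAlgebra.single_pow, smul_zero]
    rw [eis_eval₂ hh₂, hk₂def, scalePoly_eval₂,
      AddMonoidAlgebra.single_pow, hpm, hrpow, haev, hΦ₁of, map_neg, map_one]
    simp only [hmul, hΦ₁of, AddMonoidAlgebra.single_mul_single, add_zero]
    have hsum : ∀ F : ℕ → AdjoinRoot h₂,
        ∑ x ∈ Finset.range p, AddMonoidAlgebra.single (0 : ZMod p) (F x)
          = AddMonoidAlgebra.single 0 (∑ x ∈ Finset.range p, F x) := fun F =>
      (map_sum (AddMonoidAlgebra.singleZeroRingHom (R := AdjoinRoot h₂) (M := ZMod p)) F _).symm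
    rw [hsum, neg_one_mul, mul_neg, AddMonoidAlgebra.single_mul_single, add_zero, add_neg_cancel]
  -- generation
  have hgen₁ : ∀ a : AdjoinRoot h₁, AdjoinRoot.of h₂ a ∈ Algebra.adjoin B
      ({AdjoinRoot.root h₂, AdjoinRoot.of h₂ (AdjoinRoot.root h₁)} : Set (AdjoinRoot h₂)) := by
    intro a
    induction a using AdjoinRoot.induction_on with
    | ih g =>
      induction g using Polynomial.induction_on with
      | C b =>
        rw [AdjoinRoot.mk_C]
        exact Subalgebra.algebraMap_mem _ b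
      | add f g hf hg =>
        rw [map_add, map_add]
        exact add_mem hf hg
      | monomial n b ih =>
        rw [pow_succ, ← mul_assoc, map_mul, AdjoinRoot.mk_X, map_mul]
        exact mul_mem ih (Algebra.subset_adjoin (by simp))
  have hgen : Algebra.adjoin B
      ({AdjoinRoot.root h₂, AdjoinRoot.of h₂ (AdjoinRoot.root h₁)} : Set (AdjoinRoot h₂)) = ⊤ := by
    refine eq_top_iff.mpr fun y _ => ?_
    clear * - hgen₁
    induction y using AdjoinRoot.induction_on with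
    | ih g =>
      induction g using Polynomial.induction_on with
      | C a =>
        rw [AdjoinRoot.mk_C]
        exact hgen₁ a
      | add f g hf hg =>
        rw [map_add]
        exact add_mem hf hg
      | monomial n a ih =>
        rw [pow_succ, ← mul_assoc, map_mul, AdjoinRoot.mk_X]
        exact mul_mem ih (Algebra.subset_adjoin (by simp))
  refine ⟨AdjoinRoot h₂, inferInstance, hdom₂, hloc₂, inferInstance, inferInstance,
    AdjoinRoot.root h₂, AdjoinRoot.of h₂ (AdjoinRoot.root h₁),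
    AdjoinRoot.lift Φ₁ _ e₂, ?_, hr, hs, ?_, ?_, hspow, hrpow, hgen, ?_, ?_, ?_⟩
  · intro a b hab
    rw [halg, halg] at hab
    exact hinj₁ (hinj₂ hab)
  · intro hass
    have hst : AdjoinRoot.root h₂ ∣ AdjoinRoot.of h₂ (AdjoinRoot.of h₁ t₂) := by
      rw [← hspow]
      exact hass.dvd.trans (dvd_pow_self _ hp)
    exact h12 (hT₁dvd t₂ (hdvd₂ _ hst))
  · rw [eis_maximalIdeal hh₂ hk₂ hp hT₁, hm₁, Ideal.map_span, Set.image_pair]
    apply le_antisymm
    · refine sup_le (Ideal.span_le.mpr ?_) (Ideal.span_mono (by simp))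
      rintro z (rfl | rfl)
      · exact Ideal.subset_span (by simp)
      · have hd : AdjoinRoot.root h₂ ∣ AdjoinRoot.of h₂ (AdjoinRoot.of h₁ t₁) :=
          (dvd_pow_self _ hp).trans hrass.dvd
        exact Ideal.span_mono (by simp) (Ideal.mem_span_singleton.mpr hd)
    · refine Ideal.span_le.mpr ?_
      rintro z (rfl | rfl)
      · exact Ideal.mem_sup_right (Ideal.subset_span rfl)
      · exact Ideal.mem_sup_left (Ideal.subset_span (by simp))
  · intro b
    rw [halg, AdjoinRoot.lift_of, hΦ₁of]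
  · exact AdjoinRoot.lift_root _
  · rw [AdjoinRoot.lift_of, hΦ₁root]

end Cover

end Fermat.Agent.S44.L.NodeNF
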