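import Mathlib
import Fermat.Agent.S44.L.Node

/-!
# NNF, steps (d)–(e): the ideal `(H)` is homogeneous (level-free)

`R` a noetherian local domain with maximal ideal `(r, s)`, `r`, `s` prime (a regular node ring,
factorial); `A → R` an integral ring extension with `r s ∈ A`; `c d : R → R` (`d` in a finite
type) additive, `A`-linear, with `∑ d, c d y = y` (the homogeneous components of a grading whose
degree-zero part contains `A`).

If `f = u r ^ α s ^ β H ^ p` (`u` a unit, `H` prime to `r`, `s`) satisfies the horizontal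
hypothesis over `A` (`b f d₀ ^ p = a n ^ p` with `a b n d₀ ∈ A`, `a`, `b` prime to `g`, at every
prime `g ∤ r s` of `R`), then `H ∣ c d H` for all `d` and `c d H = z H` with `z` a unit for
some `d`: `H` is associated to one of its homogeneous components.

By-products: `dvd_of_forall_prime_pow_dvd` (divisibility in a factorial domain is tested on
prime powers), `pow_dvd_of_pow_mul_dvd_pow`, `exists_split` (splitting off the part supported on
a set of primes), `eq_maximalIdeal_of_lt` (dimension two), `exists_prime_dvd_mem`,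
`exists_dvd_not_dvd_of_not_over` (going-up).
-/

namespace Fermat.Agent.S44.L.NodeNFHom

open IsLocalRing
open Fermat.Agent.S44.L.LocalPrincipal Fermat.Agent.S44.L.Node

section UFD

variable {D : Type*} [CommRing D] [IsDomain D] [UniqueFactorizationMonoid D]

omit [IsDomain D] in
/-- Divisibility in a factorial domain is tested on prime powers. -/
theorem dvd_of_forall_prime_pow_dvd {a : D} (ha : a ≠ 0) {b : D}
    (h : ∀ g : D, Prime g → ∀ k : ℕ, g ^ k ∣ a → g ^ k ∣ b) : a ∣ b := by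
  have key : ∀ a : D, a ≠ 0 →
      ∀ b : D, (∀ g : D, Prime g → ∀ k : ℕ, g ^ k ∣ a → g ^ k ∣ b) → a ∣ b := by
    intro a
    refine UniqueFactorizationMonoid.induction_on_coprime
      (P := fun a => a ≠ 0 →
        ∀ b : D, (∀ g : D, Prime g → ∀ k : ℕ, g ^ k ∣ a → g ^ k ∣ b) → a ∣ b)
      a ?_ ?_ ?_ ?_
    · intro h0
      exact absurd rfl h0
    · intro x hx _ b _
      exact hx.dvd
    · intro g i hg _ b h
      exact h g hg i dvd_rfl
    · intro x y hxy hx hy hxy0 b h
      have hx0 := left_ne_zero_of_mul hxy0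
      have hy0 := right_ne_zero_of_mul hxy0
      exact hxy.mul_dvd (hx hx0 b fun g hg k hk => h g hg k (hk.mul_right y))
        (hy hy0 b fun g hg k hk => h g hg k (hk.mul_left x))
  exact key a ha b h

/-- `g ^ (k p) ∣ x ^ p` forces `g ^ k ∣ x` for a prime `g`. -/
theorem pow_dvd_of_pow_mul_dvd_pow {g : D} (hg : Prime g) {p : ℕ} (hp : p ≠ 0) {k : ℕ} {x : D}
    (h : g ^ (k * p) ∣ x ^ p) : g ^ k ∣ x := by
  rcases eq_or_ne x 0 with rfl | hx
  · exact dvd_zero _
  obtain ⟨n, a, ha, rfl⟩ := WfDvdMonoid.max_power_factor hx hg.irreducible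
  rcases le_or_gt k n with hkn | hkn
  · exact (pow_dvd_pow g hkn).mul_right a
  · exfalso
    apply ha
    have h1 : g ^ (n * p + 1) ∣ (g ^ n * a) ^ p := by
      refine (pow_dvd_pow g ?_).trans h
      have : (n + 1) * p ≤ k * p := Nat.mul_le_mul_right p hkn
      nlinarith [Nat.pos_of_ne_zero hp]
    rw [mul_pow, ← pow_mul, pow_succ] at h1
    exact hg.dvd_of_dvd_pow ((mul_dvd_mul_iff_left (pow_ne_zero _ hg.ne_zero)).mp h1)

/-- Splitting off the part of `n` supported on the primes satisfying `Pr`. -/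
theorem exists_split (Pr : D → Prop) (hPr : ∀ g g' : D, Associated g g' → Pr g → Pr g') {n : D}
    (hn : n ≠ 0) :
    ∃ G N : D, n = G * N ∧ (∀ g : D, Prime g → g ∣ G → Pr g) ∧
      ∀ g : D, Prime g → Pr g → ¬ g ∣ N := by
  refine UniqueFactorizationMonoid.induction_on_prime
    (P := fun n => n ≠ 0 → ∃ G N : D, n = G * N ∧ (∀ g : D, Prime g → g ∣ G → Pr g) ∧
      ∀ g : D, Prime g → Pr g → ¬ g ∣ N) n ?_ ?_ ?_ hn
  · intro h0
    exact absurd rfl h0
  · intro x hx _
    exact ⟨1, x, (one_mul x).symm, fun g hg hd => absurd (isUnit_of_dvd_one hd) hg.not_isUnit,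
      fun g hg _ hd => hg.not_isUnit (isUnit_of_dvd_unit hd hx)⟩
  · intro a q ha hq ih _
    obtain ⟨G, N, rfl, hG, hN⟩ := ih ha
    by_cases hPq : Pr q
    · refine ⟨q * G, N, (mul_assoc q G N).symm, fun g hg hd => ?_, hN⟩
      rcases hg.dvd_or_dvd hd with hd | hd
      · exact hPr q g (hg.associated_of_dvd hq hd).symm hPq
      · exact hG g hg hd
    · refine ⟨G, q * N, by ring, hG, fun g hg hPg hd => ?_⟩
      rcases hg.dvd_or_dvd hd with hd | hd
      · exact hPq (hPr g q (hg.associated_of_dvd hq hd) hPg)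
      · exact hN g hg hPg hd

omit [IsDomain D] in
/-- A prime ideal containing `a ≠ 0` contains a prime factor of `a`. -/
theorem exists_prime_dvd_mem {a : D} (ha : a ≠ 0) {I : Ideal D} (hI : I.IsPrime) (haI : a ∈ I) :
    ∃ g : D, Prime g ∧ g ∣ a ∧ g ∈ I := by
  refine UniqueFactorizationMonoid.induction_on_prime
    (P := fun a => a ≠ 0 → a ∈ I → ∃ g : D, Prime g ∧ g ∣ a ∧ g ∈ I) a ?_ ?_ ?_ ha haI
  · intro h0
    exact absurd rfl h0
  · intro x hx _ hxI
    exact absurd (I.eq_top_of_isUnit_mem hxI hx) hI.ne_top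
  · intro a q ha hq ih _ hqa
    rcases hI.mem_or_mem hqa with h | h
    · exact ⟨q, hq, dvd_mul_right q a, h⟩
    · obtain ⟨g, hg, hga, hgI⟩ := ih ha h
      exact ⟨g, hg, hga.mul_left q, hgI⟩

end UFD

section Dim

variable {R : Type*} [CommRing R] [IsDomain R] [IsLocalRing R] [IsNoetherianRing R]

/-- **Dimension two.**  In a noetherian local domain with maximal ideal `(r, s)`, a prime
strictly containing a nonzero prime is the maximal ideal. -/
theorem eq_maximalIdeal_of_lt {r s : R} (hm : maximalIdeal R = Ideal.span {r, s})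
    {𝔭 𝔓 : Ideal R} (h𝔭 : 𝔭.IsPrime) (h𝔓 : 𝔓.IsPrime) (h0 : 𝔭 ≠ ⊥) (hlt : 𝔭 < 𝔓) :
    𝔓 = maximalIdeal R := by
  by_contra hne
  have hle : 𝔓 ≤ maximalIdeal R := le_maximalIdeal h𝔓.ne_top
  have hlt' : 𝔓 < maximalIdeal R := lt_of_le_of_ne hle hne
  have hbot : (⊥ : Ideal R) < 𝔭 := bot_lt_iff_ne_bot.mpr h0
  have h1 := Ideal.height_strict_mono_of_isPrime_of_isPrime hbot
  have h2 := Ideal.height_strict_mono_of_isPrime_of_isPrime hlt
  have h3 := Ideal.height_strict_mono_of_isPrime_of_isPrime hlt'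
  have h4 : (maximalIdeal R).height ≤ 2 := by
    refine (Ideal.height_le_spanFinrank _ Ideal.IsPrime.ne_top').trans ?_
    rw [hm]
    have h5 : (Ideal.span ({r, s} : Set R)).spanFinrank ≤ ({r, s} : Set R).ncard :=
      Submodule.spanFinrank_span_le_ncard_of_finite (Set.toFinite _)
    have h6 : ({r, s} : Set R).ncard ≤ 2 := (Set.ncard_insert_le r {s}).trans (by simp)
    exact_mod_cast h5.trans h6
  have e1 : (1 : ℕ∞) ≤ 𝔭.height := by
    have h1' : (0 : ℕ∞) < 𝔭.height := lt_of_le_of_lt (by simp) h1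
    have := Order.add_one_le_of_lt h1'
    simpa using this
  have e2 : (2 : ℕ∞) ≤ 𝔓.height := by
    have := Order.add_one_le_of_lt (lt_of_le_of_lt e1 h2)
    have h12 : (1 : ℕ∞) + 1 = 2 := by norm_num
    rwa [h12] at this
  have e3 : (3 : ℕ∞) ≤ (maximalIdeal R).height := by
    have := Order.add_one_le_of_lt (lt_of_le_of_lt e2 h3)
    have h23 : (2 : ℕ∞) + 1 = 3 := by norm_num
    rwa [h23] at this
  have : (3 : ℕ∞) ≤ 2 := e3.trans h4
  exact absurd this (by norm_num)

end Dim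

section Main

variable {R : Type*} [CommRing R] [IsDomain R] [IsLocalRing R] [IsNoetherianRing R]
  {A : Type*} [CommRing A] [Algebra A R] [Algebra.IsIntegral A R]

/-- **Going-up.**  If no prime `g'` of `R` over the same prime of `A` as `g` divides `N ≠ 0`, then
`N` divides (the image of) an element of `A` prime to `g`. -/
theorem exists_dvd_not_dvd_of_not_over [UniqueFactorizationMonoid R] {r s : R}
    (hm : maximalIdeal R = Ideal.span {r, s}) (π : A) (hπ : algebraMap A R π = r * s)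
    {g : R} (hg : Prime g) (hgπ : ¬ g ∣ r * s) {N : R} (hN0 : N ≠ 0)
    (hN : ∀ g' : R, Prime g' → (∀ x : A, g' ∣ algebraMap A R x ↔ g ∣ algebraMap A R x) →
      ¬ g' ∣ N) :
    ∃ c : A, ¬ g ∣ algebraMap A R c ∧ N ∣ algebraMap A R c := by
  by_contra hcon
  have hcon' : ∀ c : A, N ∣ algebraMap A R c → g ∣ algebraMap A R c := fun c hc => by
    by_contra hgc
    exact hcon ⟨c, hgc, hc⟩
  have hgprime : (Ideal.span {g} : Ideal R).IsPrime :=
    (Ideal.span_singleton_prime hg.ne_zero).mpr hg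
  have hQ : (Ideal.comap (algebraMap A R) (Ideal.span {g})).IsPrime := Ideal.comap_isPrime _ _
  have hle : Ideal.comap (algebraMap A R) (Ideal.span {N})
      ≤ Ideal.comap (algebraMap A R) (Ideal.span {g}) := by
    intro c hc
    rw [Ideal.mem_comap, Ideal.mem_span_singleton] at hc ⊢
    exact hcon' c hc
  obtain ⟨𝔓, h𝔓N, h𝔓, h𝔓Q⟩ := Ideal.exists_ideal_over_prime_of_isIntegral
    (Ideal.comap (algebraMap A R) (Ideal.span {g})) (Ideal.span {N}) hle
  have hmem : ∀ x : A, algebraMap A R x ∈ 𝔓 ↔ g ∣ algebraMap A R x := fun x => by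
    rw [← Ideal.mem_comap, h𝔓Q, Ideal.mem_comap, Ideal.mem_span_singleton]
  have hN𝔓 : N ∈ 𝔓 := h𝔓N (Ideal.mem_span_singleton_self N)
  obtain ⟨g₁, hg₁, hg₁N, hg₁𝔓⟩ := exists_prime_dvd_mem hN0 h𝔓 hN𝔓
  have hg₁prime : (Ideal.span {g₁} : Ideal R).IsPrime :=
    (Ideal.span_singleton_prime hg₁.ne_zero).mpr hg₁
  have hle₁ : Ideal.span {g₁} ≤ 𝔓 := (Ideal.span_singleton_le_iff_mem _).mpr hg₁𝔓
  rcases eq_or_lt_of_le hle₁ with heq | hlt
  · refine hN g₁ hg₁ (fun x => ?_) hg₁N
    rw [← hmem x, ← heq, Ideal.mem_span_singleton]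
  · have h𝔓m := eq_maximalIdeal_of_lt hm hg₁prime h𝔓
      (by rw [Ne, Ideal.span_singleton_eq_bot]; exact hg₁.ne_zero) hlt
    apply hgπ
    rw [← hπ, ← hmem π, h𝔓m, hπ, hm]
    exact Ideal.mul_mem_right _ _ (Ideal.subset_span (Set.mem_insert r {s}))

/-- **NNF (d)–(e): `(H)` is homogeneous.**  See the file header. -/
theorem exists_isUnit_mul_eq_component {ι : Type*} [Fintype ι] (c : ι → R →+ R)
    (hlin : ∀ (d : ι) (a : A) (y : R), c d (algebraMap A R a * y) = algebraMap A R a * c d y)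
    (hsum : ∀ y : R, ∑ d, c d y = y)
    {r s : R} (hr : Prime r) (hs : Prime s) (hm : maximalIdeal R = Ideal.span {r, s})
    (π : A) (hπ : algebraMap A R π = r * s)
    {p : ℕ} (hp : p ≠ 0) {f H u : R} {α β : ℕ} (hH0 : H ≠ 0) (hrH : ¬ r ∣ H) (hsH : ¬ s ∣ H)
    (hu : IsUnit u) (hf : f = u * r ^ α * s ^ β * H ^ p)
    (hhor : ∀ g : R, Prime g → ¬ g ∣ r * s → ∃ a b n d₀ : A, algebraMap A R d₀ ≠ 0 ∧
      ¬ g ∣ algebraMap A R a ∧ ¬ g ∣ algebraMap A R b ∧
      algebraMap A R b * f * algebraMap A R d₀ ^ p = algebraMap A R a * algebraMap A R n ^ p) :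
    (∀ d : ι, H ∣ c d H) ∧ ∃ (d : ι) (z : R), IsUnit z ∧ c d H = z * H := by
  have : IsDomain (R ⧸ Ideal.span {s}) := isDomain_quot hs
  have hpid : IsPrincipalIdealRing (R ⧸ Ideal.span {s}) := by
    have hm' : maximalIdeal R = Ideal.span {s, r} := by rw [hm, Set.pair_comm]
    exact isPrincipalIdealRing_quot hs hm'
  have : UniqueFactorizationMonoid R := quot_ufm hs.ne_zero
  have hf0 : f ≠ 0 := by
    rw [hf]
    exact mul_ne_zero (mul_ne_zero (mul_ne_zero hu.ne_zero (pow_ne_zero _ hr.ne_zero))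
      (pow_ne_zero _ hs.ne_zero)) (pow_ne_zero _ hH0)
  -- homogeneity
  have key : ∀ e : ι, H ∣ c e H := by
    intro e
    refine dvd_of_forall_prime_pow_dvd hH0 fun g hg k hk => ?_
    rcases Nat.eq_zero_or_pos k with rfl | hkpos
    · simp
    have hgH : g ∣ H := (dvd_pow_self g hkpos.ne').trans hk
    have hgr : ¬ g ∣ r := fun hd => hrH ((hg.associated_of_dvd hr hd).symm.dvd.trans hgH)
    have hgs : ¬ g ∣ s := fun hd => hsH ((hg.associated_of_dvd hs hd).symm.dvd.trans hgH)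
    have hgπ : ¬ g ∣ r * s := fun hd => (hg.dvd_or_dvd hd).elim hgr hgs
    obtain ⟨a, b, n, d₀, hd₀, hga, hgb, hrel⟩ := hhor g hg hgπ
    have hb0 : algebraMap A R b ≠ 0 := fun h0 => hgb (h0 ▸ dvd_zero g)
    have ha0 : algebraMap A R a ≠ 0 := fun h0 => hga (h0 ▸ dvd_zero g)
    have hn0 : algebraMap A R n ≠ 0 := by
      intro h0
      rw [h0, zero_pow hp, mul_zero] at hrel
      exact mul_ne_zero (mul_ne_zero hb0 hf0) (pow_ne_zero _ hd₀) hrel
    -- the primes over the same prime of `A` as `g`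
    obtain ⟨G, N, hGN, hG, hN⟩ := exists_split
      (fun g' : R => ∀ x : A, g' ∣ algebraMap A R x ↔ g ∣ algebraMap A R x)
      (fun g₁ g₂ h12 h x => by rw [← h x]; exact ⟨fun hd => h12.dvd.trans hd,
        fun hd => h12.symm.dvd.trans hd⟩) hn0
    have hG0 : G ≠ 0 := left_ne_zero_of_mul (hGN ▸ hn0)
    have hN0 : N ≠ 0 := right_ne_zero_of_mul (hGN ▸ hn0)
    -- `G ∣ d₀ H`
    have hGd : G ∣ algebraMap A R d₀ * H := by
      refine dvd_of_forall_prime_pow_dvd hG0 fun g' hg' j hj => ?_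
      rcases Nat.eq_zero_or_pos j with rfl | hjpos
      · simp
      have hover := hG g' hg' ((dvd_pow_self g' hjpos.ne').trans hj)
      have hg'a : ¬ g' ∣ algebraMap A R a := fun hd => hga ((hover a).mp hd)
      have hg'b : ¬ g' ∣ algebraMap A R b := fun hd => hgb ((hover b).mp hd)
      have hg'π : ¬ g' ∣ r * s := fun hd => hgπ (by rw [← hπ] at hd ⊢; exact (hover π).mp hd)
      have hg'r : ¬ g' ∣ r := fun hd => hg'π (hd.mul_right s)
      have hg's : ¬ g' ∣ s := fun hd => hg'π (hd.mul_left r)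
      have hg'u : ¬ g' ∣ u := fun hd => hg'.not_isUnit (isUnit_of_dvd_unit hd hu)
      have h1 : g' ^ (j * p) ∣ algebraMap A R a * algebraMap A R n ^ p := by
        rw [pow_mul]
        exact ((pow_dvd_pow_of_dvd (hj.trans (Dvd.intro N hGN.symm)) p)).mul_left _
      rw [← hrel, hf] at h1
      have h2 : algebraMap A R b * (u * r ^ α * s ^ β * H ^ p) * algebraMap A R d₀ ^ p
          = (algebraMap A R b * u * r ^ α * s ^ β) * (algebraMap A R d₀ * H) ^ p := by ring
      rw [h2] at h1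
      have h3 : ¬ g' ∣ algebraMap A R b * u * r ^ α * s ^ β := fun hd =>
        (hg'.dvd_or_dvd hd).elim (fun hd => (hg'.dvd_or_dvd hd).elim
          (fun hd => (hg'.dvd_or_dvd hd).elim hg'b hg'u)
          (fun hd => hg'r (hg'.dvd_of_dvd_pow hd))) (fun hd => hg's (hg'.dvd_of_dvd_pow hd))
      exact pow_dvd_of_pow_mul_dvd_pow hg' hp (hg'.pow_dvd_of_dvd_mul_left _ h3 h1)
    -- `N ∣ c'` with `c' ∈ A` prime to `g`
    obtain ⟨c', hgc', hNc'⟩ := exists_dvd_not_dvd_of_not_over hm π hπ hg hgπ hN0 hN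
    -- `n ∣ d₀ c' H`, hence `n ∣ d₀ c' (c e H)`
    have hn1 : algebraMap A R n ∣ algebraMap A R (d₀ * c') * H := by
      rw [hGN, map_mul]
      have := mul_dvd_mul hGd hNc'
      refine this.trans (dvd_of_eq (by ring))
    obtain ⟨z, hz⟩ := hn1
    have hn2 : algebraMap A R n ∣ algebraMap A R (d₀ * c') * c e H := by
      refine ⟨c e z, ?_⟩
      rw [← hlin, hz, hlin]
    -- orders at `g`
    obtain ⟨m, d₀', hd₀', hd₀eq⟩ := WfDvdMonoid.max_power_factor hd₀ hg.irreducible
    have hgn : g ^ (k + m) ∣ algebraMap A R n := by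
      refine pow_dvd_of_pow_mul_dvd_pow hg hp ?_
      have h1 : g ^ ((k + m) * p) ∣ algebraMap A R b * f * algebraMap A R d₀ ^ p := by
        obtain ⟨H', rfl⟩ := hk
        rw [hf, hd₀eq]
        refine ⟨algebraMap A R b * u * r ^ α * s ^ β * H' ^ p * d₀' ^ p, ?_⟩
        rw [pow_mul]
        ring
      rw [hrel] at h1
      exact hg.pow_dvd_of_dvd_mul_left _ hga h1
    have h5 : g ^ (k + m) ∣ g ^ m * (d₀' * algebraMap A R c' * c e H) := by
      refine (hgn.trans hn2).trans (dvd_of_eq ?_)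
      rw [map_mul, hd₀eq]
      ring
    rw [pow_add, mul_comm (g ^ k) (g ^ m)] at h5
    have h6 : g ^ k ∣ d₀' * algebraMap A R c' * c e H :=
      (mul_dvd_mul_iff_left (pow_ne_zero m hg.ne_zero)).mp h5
    have h7 : ¬ g ∣ d₀' * algebraMap A R c' := fun hd => (hg.dvd_or_dvd hd).elim hd₀' hgc'
    exact hg.pow_dvd_of_dvd_mul_left _ h7 h6
  refine ⟨key, ?_⟩
  -- one of the cofactors is a unit
  choose zf hzf using key
  have hsumz : ∑ d, zf d = 1 := by
    have h1 : H * ∑ d, zf d = H * 1 := by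
      rw [Finset.mul_sum, mul_one]
      conv_rhs => rw [← hsum H]
      exact Finset.sum_congr rfl fun d _ => (hzf d).symm
    exact mul_left_cancel₀ hH0 h1
  by_contra hcon
  have hall : ∀ d : ι, zf d ∈ maximalIdeal R := by
    intro d
    rw [mem_maximalIdeal, mem_nonunits_iff]
    intro hunit
    exact hcon ⟨d, zf d, hunit, by rw [hzf d, mul_comm]⟩
  have h1 : (1 : R) ∈ maximalIdeal R := by
    rw [← hsumz]
    exact Ideal.sum_mem _ fun d _ => hall d
  exact (Ideal.ne_top_iff_one _).mp (IsLocalRing.maximalIdeal.isMaximal R).ne_top h1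

end Main

section Graded

variable {R : Type*} [CommRing R] [IsDomain R] [IsLocalRing R] [IsNoetherianRing R]
  {p : ℕ} [NeZero p] (c : ZMod p → R →+ R)

omit [IsDomain R] [IsLocalRing R] [IsNoetherianRing R] in
/-- In a `ZMod p`-grading given by its components `c d`, multiplication by a degree-zero element
commutes with the components. -/
theorem gr_mul_of_gr_zero (hidem : ∀ (d e : ZMod p) (y : R), c e (c d y) = if e = d then c d y else 0)
    (hmul : ∀ (d : ZMod p) (y z : R), c d (y * z) = ∑ e, c e y * c (d - e) z) {a : R}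
    (ha : c 0 a = a) (d : ZMod p) (y : R) : c d (a * y) = a * c d y := by
  rw [hmul, Finset.sum_eq_single 0]
  · rw [ha, sub_zero]
  · intro e _ he
    have h0 : c e a = 0 := by
      have h1 := hidem 0 e a
      rw [ha] at h1
      rw [h1, if_neg he]
    rw [h0, zero_mul]
  · intro h
    exact absurd (Finset.mem_univ _) h

/-- The degree-zero subring of a `ZMod p`-grading given by its components. -/
def degZero (hidem : ∀ (d e : ZMod p) (y : R), c e (c d y) = if e = d then c d y else 0)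
    (hmul : ∀ (d : ZMod p) (y z : R), c d (y * z) = ∑ e, c e y * c (d - e) z)
    (hone : c 0 1 = 1) : Subring R where
  carrier := {y | c 0 y = y}
  mul_mem' := fun {a b} ha hb => by
    have ha' : c 0 a = a := ha
    have hb' : c 0 b = b := hb
    show c 0 (a * b) = a * b
    rw [gr_mul_of_gr_zero c hidem hmul ha', hb']
  one_mem' := hone
  add_mem' := fun {a b} ha hb => by
    have ha' : c 0 a = a := ha
    have hb' : c 0 b = b := hb
    show c 0 (a + b) = a + b
    rw [map_add, ha', hb']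
  zero_mem' := map_zero _
  neg_mem' := fun {a} ha => by
    have ha' : c 0 a = a := ha
    show c 0 (-a) = -a
    rw [map_neg, ha']

omit [IsDomain R] [IsLocalRing R] [IsNoetherianRing R] in
theorem mem_degZero (hidem : ∀ (d e : ZMod p) (y : R), c e (c d y) = if e = d then c d y else 0)
    (hmul : ∀ (d : ZMod p) (y z : R), c d (y * z) = ∑ e, c e y * c (d - e) z)
    (hone : c 0 1 = 1) (y : R) : y ∈ degZero c hidem hmul hone ↔ c 0 y = y := Iff.rfl

/-- **NNF (d)–(e) for a graded node cover** (the block of `NodeNFCover.exists_graded_node_cover`):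
`f = u r ^ α s ^ β H ^ p` with the horizontal hypothesis over the degree-zero subring; then `H`
divides its homogeneous components and is associated to one of them. -/
theorem exists_isUnit_mul_eq_gr {B : Type*} [CommRing B] [Algebra B R] [Algebra.IsIntegral B R]
    (hB : ∀ b : B, c 0 (algebraMap B R b) = algebraMap B R b)
    (hsum : ∀ y : R, ∑ d, c d y = y)
    (hidem : ∀ (d e : ZMod p) (y : R), c e (c d y) = if e = d then c d y else 0)
    (hmul : ∀ (d : ZMod p) (y z : R), c d (y * z) = ∑ e, c e y * c (d - e) z)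
    {r s : R} (hr : Prime r) (hs : Prime s) (hm : maximalIdeal R = Ideal.span {r, s})
    (hπ : c 0 (r * s) = r * s)
    {f H u : R} {α β : ℕ} (hH0 : H ≠ 0) (hrH : ¬ r ∣ H) (hsH : ¬ s ∣ H)
    (hu : IsUnit u) (hf : f = u * r ^ α * s ^ β * H ^ p)
    (hhor : ∀ g : R, Prime g → ¬ g ∣ r * s → ∃ a b n d₀ : R, c 0 a = a ∧ c 0 b = b ∧ c 0 n = n ∧
      c 0 d₀ = d₀ ∧ d₀ ≠ 0 ∧ ¬ g ∣ a ∧ ¬ g ∣ b ∧ b * f * d₀ ^ p = a * n ^ p) :
    (∀ d : ZMod p, H ∣ c d H) ∧ ∃ (d : ZMod p) (z : R), IsUnit z ∧ c d H = z * H := by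
  have hone : c 0 1 = 1 := by simpa using hB 1
  obtain ⟨A₀, hA₀⟩ : ∃ A₀ : Subring R, ∀ y, y ∈ A₀ ↔ c 0 y = y :=
    ⟨degZero c hidem hmul hone, fun y => Iff.rfl⟩
  let _ : Algebra B A₀ :=
    ((algebraMap B R).codRestrict A₀ (fun b => (hA₀ _).mpr (hB b))).toAlgebra
  have : IsScalarTower B A₀ R := IsScalarTower.of_algebraMap_eq (fun _ => rfl)
  have : Algebra.IsIntegral A₀ R := Algebra.IsIntegral.tower_top (R := B)
  refine exists_isUnit_mul_eq_component (A := A₀) c
    (fun d a y => gr_mul_of_gr_zero c hidem hmul ((hA₀ _).mp a.2) d y) hsum hr hs hm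
    ⟨r * s, (hA₀ _).mpr hπ⟩ rfl (NeZero.ne p) hH0 hrH hsH hu hf ?_
  intro g hg hgπ
  obtain ⟨a, b, n, d₀, ha, hb, hn, hd, hd0, hga, hgb, hrel⟩ := hhor g hg hgπ
  exact ⟨⟨a, (hA₀ _).mpr ha⟩, ⟨b, (hA₀ _).mpr hb⟩, ⟨n, (hA₀ _).mpr hn⟩, ⟨d₀, (hA₀ _).mpr hd⟩,
    hd0, hga, hgb, hrel⟩

end Graded

end Fermat.Agent.S44.L.NodeNFHom
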