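import Mathlib

/-!
# PROGRAM MR (S44), strand L, brick (L.PUR): the two outer arrows of purity

Level-free, Mathlib only (helper151).  Purity in dimension two (`S44/L/Purity.lean`) runs
`free basis → discriminant a unit at every height-one prime → discriminant a unit → UNR`.
This file proves the last two arrows.

* `isUnit_of_forall_height_one` (K): in a Noetherian domain, a nonzero element lying in no
  prime ideal of height one is a unit (Krull's principal ideal theorem).
* `unr_of_isUnit_discr` (U): `R` local, `C` a finite free `R`-algebra whose discriminant is a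
  unit.  Then `C` is unramified over `R` at every maximal ideal `P`, in the elementwise form
  `∀ x ∈ P, ∃ s ∉ P, s * x ∈ 𝔪_R C`.

Auxiliary statements: `repr_mem_of_mem_map`, `mem_map_of_repr_mem` (coordinates of `I C`),
`trace_mem_of_pow_mem` (the trace of an element nilpotent modulo `𝔭 C` lies in `𝔭`),
`mem_map_of_pow_mem` (`C ⧸ 𝔭 C` is reduced when the discriminant is a unit),
`map_maximalIdeal_le` (`𝔪_R C ⊆ P`).
-/

set_option autoImplicit false

open Polynomial

namespace Fermat.Agent.S44.L.PurityUnr

/-! ### (K) unit at every height-one prime ⇒ unit -/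

/-- **(K)** In a Noetherian domain, a nonzero element that lies in no prime ideal of height one
is a unit. -/
theorem isUnit_of_forall_height_one {R : Type*} [CommRing R] [IsDomain R] [IsNoetherianRing R]
    {d : R} (hd : d ≠ 0) (h : ∀ q : Ideal R, q.IsPrime → q.height = 1 → d ∉ q) : IsUnit d := by
  by_contra hu
  have hne : Ideal.span {d} ≠ ⊤ := by
    rwa [Ne, Ideal.span_singleton_eq_top]
  obtain ⟨⟨q, hq⟩⟩ := Ideal.nonempty_minimalPrimes hne
  have hqp : q.IsPrime := hq.1.1
  have hdq : d ∈ q := hq.1.2 (Ideal.mem_span_singleton_self d)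
  have h1 : q.height ≤ 1 := Ideal.height_le_one_of_isPrincipal_of_mem_minimalPrimes _ q hq
  have h0 : q.height ≠ 0 := by
    intro h0
    rw [Ideal.height_eq_zero_iff, IsDomain.minimalPrimes_eq_singleton_bot,
      Set.mem_singleton_iff] at h0
    rw [h0] at hdq
    exact hd (by simpa using hdq)
  exact h q hqp (le_antisymm h1 (Order.one_le_iff_ne_zero.mpr h0)) hdq

/-! ### (U) unit discriminant ⇒ UNR -/

section Unr

variable {R C ι : Type*} [CommRing R] [CommRing C] [Algebra R C]

/-- The coordinates of an element of `I C` lie in `I`. -/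
theorem repr_mem_of_mem_map (b : Module.Basis ι R C) (I : Ideal R) {z : C}
    (hz : z ∈ I.map (algebraMap R C)) (i : ι) : b.repr z i ∈ I := by
  have hz' : z ∈ (I • (⊤ : Submodule R C)) := by
    rw [Ideal.smul_top_eq_map]
    exact hz
  refine Submodule.smul_induction_on hz' (fun a ha c _ => ?_) (fun x y hx hy => ?_)
  · rw [map_smul, Finsupp.smul_apply, smul_eq_mul]
    exact I.mul_mem_right _ ha
  · rw [map_add, Finsupp.add_apply]
    exact I.add_mem hx hy

/-- An element all of whose coordinates lie in `I` lies in `I C`. -/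
theorem mem_map_of_repr_mem [Fintype ι] (b : Module.Basis ι R C) (I : Ideal R) {z : C}
    (hz : ∀ i, b.repr z i ∈ I) : z ∈ I.map (algebraMap R C) := by
  rw [← b.sum_repr z]
  refine Ideal.sum_mem _ fun i _ => ?_
  rw [Algebra.smul_def]
  exact Ideal.mul_mem_right _ _ (Ideal.mem_map_of_mem _ (hz i))

/-- If `w` is nilpotent modulo `𝔭 C` (`𝔭` prime), its trace lies in `𝔭`. -/
theorem trace_mem_of_pow_mem [Fintype ι] [DecidableEq ι] (b : Module.Basis ι R C) (m : Ideal R) [m.IsPrime] {w : C} {N : ℕ}
    (hw : w ^ N ∈ m.map (algebraMap R C)) : Algebra.trace R C w ∈ m := by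
  rw [Algebra.trace_eq_matrix_trace b, ← Ideal.Quotient.eq_zero_iff_mem]
  have hnil : IsNilpotent ((Ideal.Quotient.mk m).mapMatrix (Algebra.leftMulMatrix b w)) := by
    refine ⟨N, ?_⟩
    rw [← map_pow, ← map_pow]
    ext i j
    rw [RingHom.mapMatrix_apply, Matrix.map_apply, Matrix.zero_apply,
      Algebra.leftMulMatrix_eq_repr_mul, Ideal.Quotient.eq_zero_iff_mem]
    exact repr_mem_of_mem_map b m (Ideal.mul_mem_right _ _ hw) i
  have h2 := (Matrix.isNilpotent_trace_of_isNilpotent hnil).eq_zero
  rw [← h2, RingHom.mapMatrix_apply, Matrix.trace, Matrix.trace, map_sum]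
  rfl

/-- **`C ⧸ 𝔭 C` is reduced** when the discriminant of a basis is a unit: `y ^ N ∈ 𝔭 C` implies
`y ∈ 𝔭 C`. -/
theorem mem_map_of_pow_mem [Fintype ι] [DecidableEq ι] (b : Module.Basis ι R C) (hd : IsUnit (Algebra.discr R b))
    (m : Ideal R) [m.IsPrime] {y : C} {N : ℕ} (hy : y ^ N ∈ m.map (algebraMap R C)) :
    y ∈ m.map (algebraMap R C) := by
  apply mem_map_of_repr_mem b m
  have hv : ∀ j, Algebra.trace R C (y * b j) ∈ m := fun j =>
    trace_mem_of_pow_mem b m (N := N) (by rw [mul_pow]; exact Ideal.mul_mem_right _ _ hy)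
  have hvT : ∀ j, Algebra.trace R C (y * b j)
      = Matrix.vecMul (fun i => b.repr y i) (Algebra.traceMatrix R b) j := by
    intro j
    conv_lhs => rw [← b.sum_repr y]
    rw [Finset.sum_mul, map_sum]
    simp only [Matrix.vecMul, dotProduct, Algebra.traceMatrix_apply, Algebra.traceForm_apply]
    refine Finset.sum_congr rfl fun i _ => ?_
    rw [smul_mul_assoc, map_smul, smul_eq_mul]
  have hadj : Matrix.vecMul (Matrix.vecMul (fun i => b.repr y i) (Algebra.traceMatrix R b))
      (Algebra.traceMatrix R b).adjugate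
        = (Algebra.traceMatrix R b).det • (fun i => b.repr y i) := by
    rw [Matrix.vecMul_vecMul, Matrix.mul_adjugate, Matrix.vecMul_smul, Matrix.vecMul_one]
  intro i
  have h1 : (Algebra.traceMatrix R b).det * b.repr y i ∈ m := by
    have h := congrFun hadj i
    rw [Pi.smul_apply, smul_eq_mul] at h
    rw [← h]
    simp only [Matrix.vecMul, dotProduct]
    refine Ideal.sum_mem _ fun j _ => Ideal.mul_mem_right _ _ ?_
    have h' := hvT j
    simp only [Matrix.vecMul, dotProduct] at h'
    rw [← h']
    exact hv j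
  obtain ⟨u, hu⟩ := hd
  rw [Algebra.discr_def] at hu
  have h3 : b.repr y i = ↑u⁻¹ * ((Algebra.traceMatrix R b).det * b.repr y i) := by
    rw [← hu, ← mul_assoc, Units.inv_mul, one_mul]
  rw [h3]
  exact Ideal.mul_mem_left _ _ h1

/-- `𝔪_R C ⊆ P` for every maximal ideal `P` of a finite `R`-algebra `C` (`R` local). -/
theorem map_maximalIdeal_le [IsLocalRing R] [Module.Finite R C] (P : Ideal C) [P.IsMaximal] :
    (IsLocalRing.maximalIdeal R).map (algebraMap R C) ≤ P := by
  rw [Ideal.map_le_iff_le_comap]
  have : (P.comap (algebraMap R C)).IsMaximal :=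
    Ideal.isMaximal_comap_of_isIntegral_of_isMaximal (R := R) P
  rw [IsLocalRing.eq_maximalIdeal this]

/-- **(U) Unit discriminant ⇒ unramified.**  `R` a local ring, `C` an `R`-algebra with a finite
basis `b` whose discriminant is a unit.  Then for every maximal ideal `P` of `C` and every
`x ∈ P` there is `s ∉ P` with `s * x ∈ 𝔪_R C`, i.e. `P C_P = 𝔪_R C_P`. -/
theorem unr_of_isUnit_discr [IsLocalRing R] [Fintype ι] [DecidableEq ι] (b : Module.Basis ι R C)
    (hd : IsUnit (Algebra.discr R b)) (P : Ideal C) [P.IsMaximal] {x : C} (hx : x ∈ P) :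
    ∃ s : C, s ∉ P ∧ s * x ∈ (IsLocalRing.maximalIdeal R).map (algebraMap R C) := by
  have hfin : Module.Finite R C := Module.Finite.of_basis b
  have hfree : Module.Free R C := Module.Free.of_basis b
  have hmP := map_maximalIdeal_le (R := R) P
  -- Cayley–Hamilton for multiplication by `x`
  have hχ0 : aeval x (Algebra.lmul R C x).charpoly = 0 := by
    have h := LinearMap.aeval_self_charpoly (Algebra.lmul R C x)
    rw [Polynomial.aeval_algHom_apply (Algebra.lmul R C) x] at h
    have h1 := congrArg (fun f : C →ₗ[R] C => f 1) h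
    simpa using h1
  have hmonic : (Algebra.lmul R C x).charpoly.Monic := LinearMap.charpoly_monic _
  generalize (Algebra.lmul R C x).charpoly = χ at hχ0 hmonic
  have h1m : (1 : R) ∉ IsLocalRing.maximalIdeal R := fun h =>
    (Ideal.ne_top_iff_one _).mp (IsLocalRing.maximalIdeal.isMaximal R).ne_top h
  -- the least index with a coefficient outside `𝔪`
  have hex : ∃ a, χ.coeff a ∉ IsLocalRing.maximalIdeal R :=
    ⟨χ.natDegree, by rw [hmonic.coeff_natDegree]; exact h1m⟩
  classical
  have ha : χ.coeff (Nat.find hex) ∉ IsLocalRing.maximalIdeal R := Nat.find_spec hex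
  have hlt : ∀ i < Nat.find hex, χ.coeff i ∈ IsLocalRing.maximalIdeal R :=
    fun i hi => not_not.mp (Nat.find_min hex hi)
  have hale : Nat.find hex ≤ χ.natDegree :=
    Nat.find_min' hex (by rw [hmonic.coeff_natDegree]; exact h1m)
  generalize Nat.find hex = a at ha hlt hale
  obtain ⟨u, hu⟩ : IsUnit (χ.coeff a) := by
    by_contra hnu
    exact ha ((IsLocalRing.mem_maximalIdeal _).mpr hnu)
  -- split the sum
  set e : C := ∑ i ∈ Finset.range (χ.natDegree + 1),
    (if a < i then χ.coeff i • x ^ (i - a - 1) else 0) with he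
  have hkey : χ.coeff a • x ^ a + x ^ (a + 1) * e
      ∈ (IsLocalRing.maximalIdeal R).map (algebraMap R C) := by
    have hsum : χ.coeff a • x ^ a + x ^ (a + 1) * e
        = - ∑ i ∈ Finset.range (χ.natDegree + 1),
            (χ.coeff i • x ^ i - (if i = a then χ.coeff a • x ^ a else 0)
              - x ^ (a + 1) * (if a < i then χ.coeff i • x ^ (i - a - 1) else 0)) := by
      rw [Finset.sum_sub_distrib, Finset.sum_sub_distrib, ← Polynomial.aeval_eq_sum_range, hχ0,
        Finset.sum_ite_eq' (Finset.range (χ.natDegree + 1)) a,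
        if_pos (Finset.mem_range.mpr (Nat.lt_succ_of_le hale)), ← Finset.mul_sum, ← he]
      ring
    rw [hsum]
    refine neg_mem (Ideal.sum_mem _ fun i _ => ?_)
    rcases lt_trichotomy i a with hi | hi | hi
    · rw [if_neg hi.ne, if_neg (not_lt.mpr hi.le), mul_zero, sub_zero, sub_zero,
        Algebra.smul_def]
      exact Ideal.mul_mem_right _ _ (Ideal.mem_map_of_mem _ (hlt i hi))
    · subst hi
      rw [if_pos rfl, if_neg (lt_irrefl _), mul_zero, sub_zero, sub_self]
      exact Ideal.zero_mem _
    · rw [if_neg hi.ne', if_pos hi, sub_zero, mul_smul_comm, ← pow_add,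
        show a + 1 + (i - a - 1) = i by omega, sub_self]
      exact Ideal.zero_mem _
  -- `x ^ a * s ∈ 𝔪 C` with `s = 1 + x * e₁`
  have hkey2 : x ^ a * (1 + x * ((↑u⁻¹ : R) • e))
      ∈ (IsLocalRing.maximalIdeal R).map (algebraMap R C) := by
    have h2 : x ^ a * (1 + x * ((↑u⁻¹ : R) • e))
        = algebraMap R C (↑u⁻¹ : R) * (χ.coeff a • x ^ a + x ^ (a + 1) * e) := by
      have hu' : algebraMap R C (↑u⁻¹ : R) * algebraMap R C (χ.coeff a) = 1 := by
        rw [← hu, ← map_mul, Units.inv_mul, map_one]
      rw [Algebra.smul_def, Algebra.smul_def]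
      linear_combination (-(x ^ a)) * hu'
    rw [h2]
    exact Ideal.mul_mem_left _ _ hkey
  refine ⟨1 + x * ((↑u⁻¹ : R) • e), fun hs => ?_, ?_⟩
  · have h1 : (1 : C) ∈ P := by
      have := P.sub_mem hs (P.mul_mem_right ((↑u⁻¹ : R) • e) hx)
      simpa using this
    exact (Ideal.ne_top_iff_one _).mp (Ideal.IsMaximal.ne_top inferInstance) h1
  · have : (IsLocalRing.maximalIdeal R).IsPrime := (IsLocalRing.maximalIdeal.isMaximal R).isPrime
    refine mem_map_of_pow_mem b hd _ (N := a + 1) ?_
    have h3 : ∀ s : C, (s * x) ^ (a + 1) = (x ^ a * s) * (x * s ^ a) := fun s => by ring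
    rw [h3]
    exact Ideal.mul_mem_right _ _ hkey2

end Unr

end Fermat.Agent.S44.L.PurityUnr
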