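import Mathlib
import Fermat.Agent.S44.L.Top
import Fermat.Agent.S44.L.RedTransfer
import Fermat.Agent.S18.K1Descent

/-!
# PROGRAM MR (S44), strand L, row (L.RED): `RedStatement` from the level-`M` residue field

`A` a valuation subring of `ℚ̄` over `p`, `E ⊆ ℚ̄` a number field with `O = A ∩ E` a discrete
valuation ring.

* `LevelMAt N' p A E` : the residue field of the Gauss valuation of level `N' p` at infinity
  is that of level `N'`, at `E`-level: the Gauss reduction of every Gauss-integral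
  `x ∈ LE (N' p) E` is a quotient of Gauss reductions of Gauss-integral elements of `LE N' E`.
* `redAt_of_levelM` : if `LevelMAt` holds for a cofinal family of number fields `E`, every
  nonzero `x ∈ FN (N' p)` has a reduction (`Top.RedAt`) lying in `Contract.redField N' A`.
* `redStatement_of_finset` : `Top.RedStatement` from `LevelMAt` for all number fields
  containing a finite set.
-/

set_option autoImplicit false
set_option linter.unusedSectionVars false
set_option linter.style.haveILetI false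

open ModularCurve HahnSeries

noncomputable section

namespace Fermat.Agent.S44.L.RedOf

open Fermat.Agent.S30 Fermat.Agent.S30.Producer Fermat.Agent.S18.K1Defs Fermat.Agent.S18.K1Top
open Fermat.Agent.S18.Wiring Fermat.Agent.S44.Contract Fermat.Agent.S44.L.RedTransfer

local notation "Qb" => AlgebraicClosure ℚ

/-- **The residue field of the Gauss valuation of level `N' p` at infinity is that of level
`N'`**, at `E`-level: the Gauss reduction of a Gauss-integral element of `LE (N' p) E` is a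
quotient of Gauss reductions of Gauss-integral elements of `LE N' E`. -/
def LevelMAt (N' p : ℕ) (A : ValuationSubring Qb) (E : IntermediateField ℚ Qb)
    [IsDiscreteValuationRing (OE A E)] : Prop :=
  ∀ x : LaurentSeries E, x ∈ LE (N' * p) E → ∀ hx : x ∈ GaussDVR.V (OE A E) E,
    ∃ (a b : LaurentSeries E) (ha : a ∈ GaussDVR.V (OE A E) E)
      (hb : b ∈ GaussDVR.V (OE A E) E), a ∈ LE N' E ∧ b ∈ LE N' E ∧
      GaussDVR.red (OE A E) E ⟨b, hb⟩ ≠ 0 ∧
      GaussDVR.red (OE A E) E ⟨x, hx⟩ * GaussDVR.red (OE A E) E ⟨b, hb⟩ =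
        GaussDVR.red (OE A E) E ⟨a, ha⟩

/-- **(L.RED) from the level-`M` residue field, cofinal form.**  If `LevelMAt N' p A E` holds
for number fields `E` containing any prescribed number field, then every nonzero function of
level `N' p` has a reduction in the reduced function field of level `N'`. -/
theorem redAt_of_levelM (p N' : ℕ) [NeZero N'] [NeZero p] (hp : p.Prime)
    (A : ValuationSubring Qb) (hA : A.LiesOverPrime p)
    (hcof : ∀ E₀ : IntermediateField ℚ Qb, FiniteDimensional ℚ E₀ →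
      ∃ (E : IntermediateField ℚ Qb) (_ : IsDiscreteValuationRing (OE A E)),
        E₀ ≤ E ∧ LevelMAt N' p A E)
    (x : FN (N' * p)) (hx : x ≠ 0) :
    ∃ f : redField N' A,
      Top.RedAt (N' * p) A x (f : LaurentSeries (IsLocalRing.ResidueField A)) := by
  haveI : Fact p.Prime := ⟨hp⟩
  obtain ⟨c, P, Q, hP, hQ, hc, hPr, hQr, hfc⟩ := E4.hasGaussNorm (N' * p) p A hA x hx
  have hfc' : (x : LaurentSeries Qb) * Congr.incl A Q = HahnSeries.C c * Congr.incl A P := by
    have h := congrArg (fun y : E4.Fb (N' * p) => (y : LaurentSeries Qb)) hfc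
    rw [Fermat.Agent.S18.Wiring.C_eq_algebraMap]
    exact h
  -- descend `P` and `Q`
  obtain ⟨E₁, hE₁, h1⟩ := exists_descent_int A (N' * p) P hP
  obtain ⟨E₂, hE₂, h2⟩ := exists_descent_int A (N' * p) Q hQ
  haveI := hE₁
  haveI := hE₂
  obtain ⟨E, hDVR, hle, hLM⟩ := hcof (E₁ ⊔ E₂) (IntermediateField.finiteDimensional_sup E₁ E₂)
  haveI := hDVR
  obtain ⟨a₀, ha₀L, ha₀P⟩ := h1 E (le_sup_left.trans hle)
  obtain ⟨b₀, hb₀L, hb₀Q⟩ := h2 E (le_sup_right.trans hle)
  have hρb : GaussDVR.rho (OE A E) b₀ ≠ 0 := by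
    intro h0
    apply hQr
    rw [← hb₀Q, ← kmap_rho, h0, map_zero]
  -- the quotient `z = a₀ / b₀` at `E`-level
  have hzL : GaussDVR.iota (OE A E) E a₀ / GaussDVR.iota (OE A E) E b₀ ∈ LE (N' * p) E :=
    (LE (N' * p) E).div_mem ha₀L hb₀L
  have hzV := GaussDVR.div_mem (OE A E) E a₀ b₀ hρb
  have hzred := GaussDVR.red_div (OE A E) E a₀ b₀ hρb
  obtain ⟨a, b, ha, hb, haL, hbL, hbne, hred⟩ := hLM _ hzL hzV
  have haS : kmap A E (GaussDVR.red (OE A E) E ⟨a, ha⟩) ∈ redSet N' A :=
    kmap_red_mem_redSet A E N' p hA a ha (coeffMap_mem_bar N' E haL)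
  have hbS : kmap A E (GaussDVR.red (OE A E) E ⟨b, hb⟩) ∈ redSet N' A :=
    kmap_red_mem_redSet A E N' p hA b hb (coeffMap_mem_bar N' E hbL)
  have hkb : kmap A E (GaussDVR.red (OE A E) E ⟨b, hb⟩) ≠ 0 :=
    fun h0 => hbne (kmap_injective A E (by rw [h0, map_zero]))
  refine ⟨⟨kmap A E (GaussDVR.red (OE A E) E ⟨a, ha⟩) /
      kmap A E (GaussDVR.red (OE A E) E ⟨b, hb⟩),
    (redField N' A).div_mem (Subfield.subset_closure haS) (Subfield.subset_closure hbS)⟩,
    c, P, Q, hc, hPr, hQr, hfc', ?_⟩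
  -- `kmap (red z) = red P / red Q`
  have h3 := congrArg (kmap A E) hred
  rw [map_mul, hzred, map_div₀, kmap_rho, kmap_rho, ha₀P, hb₀Q] at h3
  show kmap A E (GaussDVR.red (OE A E) E ⟨a, ha⟩) /
    kmap A E (GaussDVR.red (OE A E) E ⟨b, hb⟩) * Congr.red A Q = Congr.red A P
  rw [← h3]
  field_simp

/-- **(L.RED)** `Top.RedStatement` from the level-`M` residue field over all number fields
containing a finite set. -/
theorem redStatement_of_finset
    (h : ∀ (p N' : ℕ) [NeZero N'] [NeZero p], p.Prime → 5 ≤ p → ¬ p ∣ N' →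
      ∀ A : ValuationSubring Qb, A.LiesOverPrime p →
      ∃ S₀ : Finset Qb, ∀ (E : IntermediateField ℚ Qb) [FiniteDimensional ℚ E]
        [IsDiscreteValuationRing (OE A E)], (∀ s ∈ S₀, s ∈ E) → LevelMAt N' p A E) :
    Top.RedStatement := by
  intro p N' _ _ hp hp5 hpN A hA x hx
  classical
  obtain ⟨S₀, hS⟩ := h p N' hp hp5 hpN A hA
  refine redAt_of_levelM p N' hp A hA (fun E₀ hE₀ => ?_) x hx
  haveI := hE₀
  let E₃ : IntermediateField ℚ Qb := IntermediateField.adjoin ℚ (S₀ : Set Qb)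
  have hE₃ : FiniteDimensional ℚ E₃ :=
    IntermediateField.finiteDimensional_adjoin fun x _ =>
      ((AlgebraicClosure.isAlgebraic ℚ).isAlgebraic x).isIntegral
  haveI : FiniteDimensional ℚ (E₀ ⊔ E₃ : IntermediateField ℚ Qb) :=
    IntermediateField.finiteDimensional_sup E₀ E₃
  haveI : IsDiscreteValuationRing (OE A (E₀ ⊔ E₃)) :=
    Fermat.Agent.S18.K1Descent.dvrDescent A hp hA (E₀ ⊔ E₃)
  exact ⟨E₀ ⊔ E₃, inferInstance, le_sup_left,
    hS (E₀ ⊔ E₃) fun s hs =>
      (le_sup_right : E₃ ≤ E₀ ⊔ E₃) (IntermediateField.subset_adjoin ℚ _ hs)⟩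

end Fermat.Agent.S44.L.RedOf
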