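import Mathlib

/-!
# PROGRAM MR (S44), strand L, cover-free twin of SLOPE: the `ρ`-calculus (brick (A2))

Level-free, Mathlib only (MR RULING #3 (1)(A2), helper51).

Setting of the twin: `S` the valuation ring upstairs (over the ramified base `O[π]`),
`ι : S →+* L` its embedding in a field, `r : S →+* k` the reduction, `ϖ = π` the uniformiser,
and `D : S → k` a FIRST-ORDER DERIVATION:

  `D (x + y) = D x + D y`,  `D (x * y) = r x * D y + D x * r y`,  (`D ϖ = 1`).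

(`g = g₀ + g₁ π + ⋯ ↦ ḡ₁`.)  The derivation is taken through these bare hypotheses, so the file
plugs on any construction of it.

* `exists_firstOrder_of_coeff` : the derivation exists as soon as there is a coefficient ring
  `φ : V →+* S` with `S = φ V + ϖ S` and `ϖ ∣ φ a → ϖ² ∣ φ a` (no perfectness of residue fields);
  it kills `φ V` and `D (φ a + ϖ t) = r t`.
* `rho ι r ϖ D : L → k` : `ι ϖ ^ n * ι g ↦ D g / r g` (`r g ≠ 0`), the first-order invariant on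
  the whole fraction field; `rho_mul` (additive), `rho_unif` (kills `π`), `rho_pow_char` (kills
  `p`-th powers), `rho_unit`, `rho_inv`, `rho_zpow`.
* `rho_natCast_zpow_mul` : `ρ (p ^ n * u) = n • e₁`, `e₁ = D η / r η` for `p = η ϖ ^ p`
  ("`ρ = e₁ · v` on the unramified field").
* `D_eval₂`, `r_eval₂`, `rho_node` : for `w = ∑ wᵢ ϖ ^ i` with coefficients killed by `D`:
  `D w = r w₁`, `r w = r w₀`, and
  `ρ (w ϖ ^ m t ^ j x ^ p) = r w₁ / r w₀ + j • ρ t` (the node normal form).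
* `rho_first_order` : the same for `w = w₀ (1 + c ϖ) + ϖ² g`: `ρ (w ϖ ^ m t ^ j x ^ p) = r c + j • ρ t`.
* `IsDec ι r ϖ x` : `x = ϖ ^ n g` with `r g ≠ 0` (the nonzero elements of the fraction field of
  the valuation ring); all statements on `ρ` are elementwise in `IsDec`, so the ambient field `L`
  may be bigger than the fraction field (`isDec_of_mul_pow` = the shape of
  `GaussDVR.exists_unit_pow`).
-/

set_option autoImplicit false

noncomputable section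

namespace Fermat.Agent.S44.L.RhoCalc

open Polynomial

/-! ### First-order derivations: elementary calculus -/

section FirstOrder

variable {S k : Type*} [CommRing S] [CommRing k] (r : S →+* k) (D : S → k)

theorem D_zero (hadd : ∀ x y, D (x + y) = D x + D y) : D 0 = 0 := by
  have h := hadd 0 0
  rw [add_zero] at h
  exact left_eq_add.mp h

theorem D_neg (hadd : ∀ x y, D (x + y) = D x + D y) (x : S) : D (-x) = -D x := by
  have h := hadd x (-x)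
  rw [add_neg_cancel, D_zero D hadd] at h
  exact eq_neg_of_add_eq_zero_right h.symm

theorem D_sub (hadd : ∀ x y, D (x + y) = D x + D y) (x y : S) : D (x - y) = D x - D y := by
  rw [sub_eq_add_neg, hadd, D_neg D hadd, sub_eq_add_neg]

theorem D_one (hleib : ∀ x y, D (x * y) = r x * D y + D x * r y) : D 1 = 0 := by
  have h := hleib 1 1
  rw [mul_one, map_one, one_mul, mul_one] at h
  exact left_eq_add.mp h

theorem D_pow (hleib : ∀ x y, D (x * y) = r x * D y + D x * r y) (x : S) (n : ℕ) :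
    D (x ^ n) = (n : k) * r x ^ (n - 1) * D x := by
  induction n with
  | zero => simp [D_one r D hleib]
  | succ n ih =>
    rw [pow_succ, hleib, ih, map_pow]
    rcases n with _ | n
    · simp
    · simp only [Nat.add_sub_cancel, Nat.cast_add, Nat.cast_one]
      ring

/-- `D (ϖ * t) = r t` when `r ϖ = 0`, `D ϖ = 1`. -/
theorem D_unif_mul (hleib : ∀ x y, D (x * y) = r x * D y + D x * r y) {ϖ : S} (hϖ : r ϖ = 0)
    (hD : D ϖ = 1) (t : S) : D (ϖ * t) = r t := by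
  rw [hleib, hϖ, hD, zero_mul, zero_add, one_mul]

/-- `D` kills `ϖ ^ 2 S`. -/
theorem D_unif_sq_mul (hleib : ∀ x y, D (x * y) = r x * D y + D x * r y) {ϖ : S} (hϖ : r ϖ = 0)
    (t : S) : D (ϖ ^ 2 * t) = 0 := by
  rw [hleib, D_pow r D hleib, map_pow, hϖ]
  simp

/-- The reduction of `∑ wᵢ ϖ ^ i` is the reduction of `w₀`. -/
theorem r_eval₂ {B : Type*} [CommRing B] (φ : B →+* S) {ϖ : S} (hϖ : r ϖ = 0) (q : B[X]) :
    r (q.eval₂ φ ϖ) = r (φ (q.coeff 0)) := by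
  have h := Polynomial.divX_mul_X_add q
  calc r (q.eval₂ φ ϖ) = r ((q.divX * X + C (q.coeff 0)).eval₂ φ ϖ) := by rw [h]
    _ = r (q.divX.eval₂ φ ϖ * ϖ + φ (q.coeff 0)) := by
      rw [eval₂_add, eval₂_mul, eval₂_X, eval₂_C]
    _ = r (φ (q.coeff 0)) := by rw [map_add, map_mul, hϖ, mul_zero, zero_add]

/-- The derivative of `∑ wᵢ ϖ ^ i`, coefficients killed by `D`, is the reduction of `w₁`. -/
theorem D_eval₂ (hadd : ∀ x y, D (x + y) = D x + D y)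
    (hleib : ∀ x y, D (x * y) = r x * D y + D x * r y) {B : Type*} [CommRing B] (φ : B →+* S)
    (hφ : ∀ b, D (φ b) = 0) {ϖ : S} (hϖ : r ϖ = 0) (hD : D ϖ = 1) (q : B[X]) :
    D (q.eval₂ φ ϖ) = r (φ (q.coeff 1)) := by
  have h := Polynomial.divX_mul_X_add q
  calc D (q.eval₂ φ ϖ) = D ((q.divX * X + C (q.coeff 0)).eval₂ φ ϖ) := by rw [h]
    _ = D (ϖ * q.divX.eval₂ φ ϖ + φ (q.coeff 0)) := by
      rw [eval₂_add, eval₂_mul, eval₂_X, eval₂_C, mul_comm]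
    _ = r (q.divX.eval₂ φ ϖ) := by
      rw [hadd, hφ, add_zero, D_unif_mul r D hleib hϖ hD]
    _ = r (φ (q.coeff 1)) := by rw [r_eval₂ r φ hϖ, Polynomial.coeff_divX, zero_add]

/-- The reduction of the first-order normal form `w₀ (1 + c ϖ) + ϖ² g`. -/
theorem r_first_order {B : Type*} [CommRing B] (φ : B →+* S) {ϖ : S} (hϖ : r ϖ = 0)
    (w₀ c : B) (g : S) :
    r (φ w₀ * (1 + φ c * ϖ) + ϖ ^ 2 * g) = r (φ w₀) := by
  simp only [map_add, map_mul, map_pow, map_one, hϖ, mul_zero, add_zero, ne_eq,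
    OfNat.ofNat_ne_zero, not_false_eq_true, zero_pow, zero_mul, mul_one]

/-- The derivative of the first-order normal form `w₀ (1 + c ϖ) + ϖ² g` (`w₀`, `c` killed by
`D`) is `r w₀ * r c`. -/
theorem D_first_order (hadd : ∀ x y, D (x + y) = D x + D y)
    (hleib : ∀ x y, D (x * y) = r x * D y + D x * r y) {B : Type*} [CommRing B] (φ : B →+* S)
    (hφ : ∀ b, D (φ b) = 0) {ϖ : S} (hϖ : r ϖ = 0) (hD : D ϖ = 1) (w₀ c : B) (g : S) :
    D (φ w₀ * (1 + φ c * ϖ) + ϖ ^ 2 * g) = r (φ w₀) * r (φ c) := by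
  have h1 : D (1 + φ c * ϖ) = r (φ c) := by
    rw [hadd, D_one r D hleib, zero_add, mul_comm, D_unif_mul r D hleib hϖ hD]
  rw [hadd, D_unif_sq_mul r D hleib hϖ, add_zero, hleib, h1, hφ, zero_mul, add_zero]

end FirstOrder

/-! ### Existence from a coefficient ring -/

/-- **The first-order derivation of a coefficient ring.**  If `S = φ V + ϖ S` and
`ϖ ∣ φ a → ϖ ^ 2 ∣ φ a` on `V` (`ϖ` a non-zero-divisor, `r ϖ = 0`), then
`φ a + ϖ t ↦ r t` is a well defined first-order derivation `S → k`, killing `φ V`. -/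
theorem exists_firstOrder_of_coeff {V S k : Type*} [CommRing V] [CommRing S] [CommRing k]
    (φ : V →+* S) (r : S →+* k) (ϖ : S) (hreg : ∀ x, ϖ * x = 0 → x = 0) (hϖ : r ϖ = 0)
    (hres : ∀ s : S, ∃ a : V, ϖ ∣ s - φ a) (hsq : ∀ a : V, ϖ ∣ φ a → ϖ ^ 2 ∣ φ a) :
    ∃ D : S → k, (∀ x y, D (x + y) = D x + D y) ∧
      (∀ x y, D (x * y) = r x * D y + D x * r y) ∧ D ϖ = 1 ∧ (∀ a, D (φ a) = 0) ∧
      ∀ (a : V) (t : S), D (φ a + ϖ * t) = r t := by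
  classical
  -- a decomposition `s = φ (a s) + ϖ * t s`
  have hdec : ∀ s : S, ∃ (a : V) (t : S), s = φ a + ϖ * t := by
    intro s
    obtain ⟨a, t, ht⟩ := hres s
    exact ⟨a, t, by rw [← ht]; ring⟩
  choose a t hat using hdec
  -- the key well-definedness statement
  have key : ∀ (a₁ : V) (t₁ : S) (a₂ : V) (t₂ : S), φ a₁ + ϖ * t₁ = φ a₂ + ϖ * t₂ →
      r t₁ = r t₂ := by
    intro a₁ t₁ a₂ t₂ h
    have h1 : φ (a₁ - a₂) = ϖ * (t₂ - t₁) := by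
      rw [map_sub]; linear_combination h
    obtain ⟨z, hz⟩ := hsq (a₁ - a₂) ⟨_, h1⟩
    have h2 : ϖ * (t₂ - t₁ - ϖ * z) = 0 := by
      have : ϖ * (t₂ - t₁) = ϖ ^ 2 * z := by rw [← h1, hz]
      linear_combination this
    have h3 := hreg _ h2
    have h4 : t₂ = t₁ + ϖ * z := by linear_combination h3
    rw [h4, map_add, map_mul, hϖ, zero_mul, add_zero]
  have hform : ∀ (a₁ : V) (t₁ : S), r (t (φ a₁ + ϖ * t₁)) = r t₁ := by
    intro a₁ t₁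
    exact key _ _ _ _ (hat (φ a₁ + ϖ * t₁)).symm
  have hr : ∀ s : S, r s = r (φ (a s)) := by
    intro s
    conv_lhs => rw [hat s]
    rw [map_add, map_mul, hϖ, zero_mul, add_zero]
  refine ⟨fun s => r (t s), ?_, ?_, ?_, ?_, ?_⟩
  · intro x y
    have h : x + y = φ (a x + a y) + ϖ * (t x + t y) := by
      conv_lhs => rw [hat x, hat y]
      rw [map_add]; ring
    show r (t (x + y)) = r (t x) + r (t y)
    rw [h, hform, map_add]
  · intro x y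
    have h : x * y = φ (a x * a y) + ϖ * (φ (a x) * t y + t x * φ (a y) + ϖ * (t x * t y)) := by
      conv_lhs => rw [hat x, hat y]
      rw [map_mul]; ring
    show r (t (x * y)) = r x * r (t y) + r (t x) * r y
    rw [h, hform, hr x, hr y]
    simp only [map_add, map_mul, hϖ, zero_mul, add_zero]
  · show r (t ϖ) = 1
    have h : ϖ = φ 0 + ϖ * 1 := by rw [map_zero, zero_add, mul_one]
    rw [h, hform, map_one]
  · intro b
    show r (t (φ b)) = 0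
    have h : φ b = φ b + ϖ * 0 := by rw [mul_zero, add_zero]
    rw [h, hform, map_zero]
  · intro b s
    exact hform b s

/-! ### The invariant `ρ` on the fraction field -/

section Rho

variable {S L k : Type*} [CommRing S] [Field L] [Field k]

/-- `x` is DECOMPOSABLE: `x = ϖ ^ n g` with `g` a unit modulo `ϖ`.  (In a field `L` containing
the fraction field of the valuation ring `S`, these are the nonzero elements of that fraction
field.) -/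
def IsDec (ι : S →+* L) (r : S →+* k) (ϖ : S) (x : L) : Prop :=
  ∃ (n : ℤ) (g : S), r g ≠ 0 ∧ x = ι ϖ ^ n * ι g

/-- **The first-order invariant** `ρ (ϖ ^ n g) = D g / r g` (`g` with `r g ≠ 0`); `0` on
elements which are not decomposable. -/
def rho (ι : S →+* L) (r : S →+* k) (ϖ : S) (D : S → k) : L → k := fun x =>
  open Classical in
  if h : ∃ (n : ℤ) (g : S), r g ≠ 0 ∧ x = ι ϖ ^ n * ι g then
    D h.choose_spec.choose / r h.choose_spec.choose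
  else 0

variable (ι : S →+* L) (hι : Function.Injective ι) (r : S →+* k) (ϖ : S) (D : S → k)

/-! #### Decomposable elements -/

theorem isDec_unit (g : S) (hg : r g ≠ 0) : IsDec ι r ϖ (ι g) :=
  ⟨0, g, hg, by rw [zpow_zero, one_mul]⟩

theorem isDec_one : IsDec ι r ϖ 1 := by
  have h := isDec_unit ι r ϖ 1 (by rw [map_one]; exact one_ne_zero)
  rwa [map_one] at h

theorem isDec_unif : IsDec ι r ϖ (ι ϖ) :=
  ⟨1, 1, by rw [map_one]; exact one_ne_zero, by rw [zpow_one, map_one, mul_one]⟩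

theorem isDec_unif_inv : IsDec ι r ϖ (ι ϖ)⁻¹ :=
  ⟨-1, 1, by rw [map_one]; exact one_ne_zero, by rw [zpow_neg_one, map_one, mul_one]⟩

include hι in
theorem IsDec.ne_zero (hϖ0 : ϖ ≠ 0) {x : L} (hx : IsDec ι r ϖ x) : x ≠ 0 := by
  obtain ⟨n, g, hg, rfl⟩ := hx
  have hϖL : ι ϖ ≠ 0 := fun h0 => hϖ0 (hι (by rw [h0, map_zero]))
  have hgL : ι g ≠ 0 := fun h0 => hg (by rw [hι (h0.trans (map_zero ι).symm), map_zero])
  exact mul_ne_zero (zpow_ne_zero n hϖL) hgL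

include hι in
theorem IsDec.mul (hϖ0 : ϖ ≠ 0) {x y : L} (hx : IsDec ι r ϖ x) (hy : IsDec ι r ϖ y) :
    IsDec ι r ϖ (x * y) := by
  have hϖL : ι ϖ ≠ 0 := fun h0 => hϖ0 (hι (by rw [h0, map_zero]))
  obtain ⟨n, g, hg, rfl⟩ := hx
  obtain ⟨m, g', hg', rfl⟩ := hy
  refine ⟨n + m, g * g', by rw [map_mul]; exact mul_ne_zero hg hg', ?_⟩
  rw [zpow_add₀ hϖL, map_mul]; ring

include hι in
theorem IsDec.pow (hϖ0 : ϖ ≠ 0) {x : L} (hx : IsDec ι r ϖ x) (n : ℕ) :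
    IsDec ι r ϖ (x ^ n) := by
  induction n with
  | zero => rw [pow_zero]; exact isDec_one ι r ϖ
  | succ n ih => rw [pow_succ]; exact IsDec.mul ι hι r ϖ hϖ0 ih hx

/-- Inverses of decomposable elements are decomposable when the units modulo `ϖ` are units
(`S` local). -/
theorem IsDec.inv (hunit : ∀ g : S, r g ≠ 0 → ∃ g' : S, g * g' = 1) {x : L}
    (hx : IsDec ι r ϖ x) : IsDec ι r ϖ x⁻¹ := by
  obtain ⟨n, g, hg, rfl⟩ := hx
  obtain ⟨g', hg'⟩ := hunit g hg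
  have h1 : ι g * ι g' = 1 := by rw [← map_mul, hg', map_one]
  refine ⟨-n, g', ?_, ?_⟩
  · intro h0
    have : r g * r g' = 1 := by rw [← map_mul, hg', map_one]
    rw [h0, mul_zero] at this
    exact zero_ne_one this
  · rw [mul_inv, zpow_neg, eq_comm, inv_eq_of_mul_eq_one_right h1]

/-- The shape of `GaussDVR.exists_unit_pow`: `x ϖ ^ k = ϖ ^ i y` with `y` a unit modulo `ϖ`. -/
theorem isDec_of_mul_pow (hϖL : ι ϖ ≠ 0) {x : L} {i j : ℕ} {y : S} (hy : r y ≠ 0)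
    (h : x * ι ϖ ^ j = ι ϖ ^ i * ι y) : IsDec ι r ϖ x := by
  refine ⟨(i : ℤ) - j, y, hy, ?_⟩
  rw [zpow_sub₀ hϖL, zpow_natCast, zpow_natCast, div_mul_eq_mul_div, ← h,
    mul_div_cancel_right₀ _ (pow_ne_zero j hϖL)]

/-! #### The value of `ρ` -/

include hι in
/-- Uniqueness of the decomposition `x = ϖ ^ n g`, `r g ≠ 0`. -/
theorem decomp_unique (hϖ0 : ϖ ≠ 0) (hϖ : r ϖ = 0) {n m : ℤ} {g g' : S} (hg : r g ≠ 0)
    (hg' : r g' ≠ 0) (h : ι ϖ ^ n * ι g = ι ϖ ^ m * ι g') : g = g' := by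
  have hϖL : ι ϖ ≠ 0 := fun h0 => hϖ0 (hι (by rw [h0, map_zero]))
  -- the natural-number step
  have aux : ∀ (d : ℕ) (g₁ g₂ : S), r g₂ ≠ 0 → ι ϖ ^ d * ι g₁ = ι g₂ → g₁ = g₂ := by
    intro d g₁ g₂ h2 he
    rcases d with _ | d
    · rw [pow_zero, one_mul] at he
      exact hι he
    · exfalso
      apply h2
      have : g₂ = ϖ ^ (d + 1) * g₁ := hι (by rw [map_mul, map_pow, he])
      rw [this, map_mul, map_pow, hϖ, pow_succ, mul_zero, zero_mul]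
  rcases le_total m n with hmn | hnm
  · obtain ⟨d, hd⟩ := Int.eq_ofNat_of_zero_le (sub_nonneg.mpr hmn)
    have hn : n = m + d := by omega
    rw [hn, zpow_add₀ hϖL, mul_assoc] at h
    have h' := mul_left_cancel₀ (zpow_ne_zero m hϖL) h
    rw [zpow_natCast] at h'
    exact aux d g g' hg' h'
  · obtain ⟨d, hd⟩ := Int.eq_ofNat_of_zero_le (sub_nonneg.mpr hnm)
    have hm : m = n + d := by omega
    rw [hm, zpow_add₀ hϖL, mul_assoc] at h
    have h' := mul_left_cancel₀ (zpow_ne_zero n hϖL) h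
    rw [zpow_natCast] at h'
    exact (aux d g' g hg h'.symm).symm

include hι in
/-- The value of `ρ` on any decomposition. -/
theorem rho_eq (hϖ0 : ϖ ≠ 0) (hϖ : r ϖ = 0) (n : ℤ) (g : S) (hg : r g ≠ 0) :
    rho ι r ϖ D (ι ϖ ^ n * ι g) = D g / r g := by
  classical
  have hex : ∃ (n' : ℤ) (g' : S), r g' ≠ 0 ∧ ι ϖ ^ n * ι g = ι ϖ ^ n' * ι g' := ⟨n, g, hg, rfl⟩
  unfold rho
  rw [dif_pos hex]
  have h1 := hex.choose_spec.choose_spec
  have h2 : hex.choose_spec.choose = g :=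
    (decomp_unique ι hι r ϖ hϖ0 hϖ hg h1.1 h1.2).symm
  rw [h2]

include hι in
/-- `ρ` on units: `ρ g = D g / r g`. -/
theorem rho_unit (hϖ0 : ϖ ≠ 0) (hϖ : r ϖ = 0) (g : S) (hg : r g ≠ 0) :
    rho ι r ϖ D (ι g) = D g / r g := by
  have h := rho_eq ι hι r ϖ D hϖ0 hϖ 0 g hg
  rwa [zpow_zero, one_mul] at h

include hι in
/-- `ρ` kills the units killed by `D`. -/
theorem rho_of_D_eq_zero (hϖ0 : ϖ ≠ 0) (hϖ : r ϖ = 0) (g : S) (hg : r g ≠ 0) (hD : D g = 0) :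
    rho ι r ϖ D (ι g) = 0 := by
  rw [rho_unit ι hι r ϖ D hϖ0 hϖ g hg, hD, zero_div]

include hι in
/-- `ρ 1 = 0`. -/
theorem rho_one (hleib : ∀ x y, D (x * y) = r x * D y + D x * r y) (hϖ0 : ϖ ≠ 0)
    (hϖ : r ϖ = 0) : rho ι r ϖ D 1 = 0 := by
  have h := rho_unit ι hι r ϖ D hϖ0 hϖ 1 (by rw [map_one]; exact one_ne_zero)
  simp only [map_one] at h
  rw [h, D_one r D hleib, zero_div]

include hι in
/-- **`ρ` kills the uniformiser.** -/
theorem rho_unif (hleib : ∀ x y, D (x * y) = r x * D y + D x * r y) (hϖ0 : ϖ ≠ 0)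
    (hϖ : r ϖ = 0) : rho ι r ϖ D (ι ϖ) = 0 := by
  have h := rho_eq ι hι r ϖ D hϖ0 hϖ 1 1 (by rw [map_one]; exact one_ne_zero)
  simp only [zpow_one, map_one, mul_one] at h
  rw [h, D_one r D hleib, zero_div]

include hι in
/-- **`ρ` is additive** on decomposable elements. -/
theorem rho_mul (hleib : ∀ x y, D (x * y) = r x * D y + D x * r y) (hϖ0 : ϖ ≠ 0)
    (hϖ : r ϖ = 0) {x y : L} (hx : IsDec ι r ϖ x) (hy : IsDec ι r ϖ y) :
    rho ι r ϖ D (x * y) = rho ι r ϖ D x + rho ι r ϖ D y := by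
  have hϖL : ι ϖ ≠ 0 := fun h0 => hϖ0 (hι (by rw [h0, map_zero]))
  obtain ⟨n, g, hg, rfl⟩ := hx
  obtain ⟨m, g', hg', rfl⟩ := hy
  have hgg : r (g * g') ≠ 0 := by rw [map_mul]; exact mul_ne_zero hg hg'
  have h : ι ϖ ^ n * ι g * (ι ϖ ^ m * ι g') = ι ϖ ^ (n + m) * ι (g * g') := by
    rw [zpow_add₀ hϖL, map_mul]; ring
  rw [h, rho_eq ι hι r ϖ D hϖ0 hϖ _ _ hgg, rho_eq ι hι r ϖ D hϖ0 hϖ _ _ hg,
    rho_eq ι hι r ϖ D hϖ0 hϖ _ _ hg', hleib, map_mul, div_add_div _ _ hg hg']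
  ring

include hι in
theorem rho_inv (hleib : ∀ x y, D (x * y) = r x * D y + D x * r y) (hϖ0 : ϖ ≠ 0)
    (hϖ : r ϖ = 0) {x : L} (hx : IsDec ι r ϖ x) (hx' : IsDec ι r ϖ x⁻¹) :
    rho ι r ϖ D x⁻¹ = -rho ι r ϖ D x := by
  have h := rho_mul ι hι r ϖ D hleib hϖ0 hϖ hx hx'
  rw [mul_inv_cancel₀ (IsDec.ne_zero ι hι r ϖ hϖ0 hx), rho_one ι hι r ϖ D hleib hϖ0 hϖ] at h
  exact eq_neg_of_add_eq_zero_right h.symm

include hι in
theorem rho_pow (hleib : ∀ x y, D (x * y) = r x * D y + D x * r y) (hϖ0 : ϖ ≠ 0)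
    (hϖ : r ϖ = 0) {x : L} (hx : IsDec ι r ϖ x) (n : ℕ) :
    rho ι r ϖ D (x ^ n) = n • rho ι r ϖ D x := by
  induction n with
  | zero => rw [pow_zero, zero_smul, rho_one ι hι r ϖ D hleib hϖ0 hϖ]
  | succ n ih =>
    rw [pow_succ, rho_mul ι hι r ϖ D hleib hϖ0 hϖ (IsDec.pow ι hι r ϖ hϖ0 hx n) hx, ih,
      succ_nsmul]

include hι in
theorem rho_zpow (hleib : ∀ x y, D (x * y) = r x * D y + D x * r y) (hϖ0 : ϖ ≠ 0)
    (hϖ : r ϖ = 0) {x : L} (hx : IsDec ι r ϖ x) (hx' : IsDec ι r ϖ x⁻¹) (n : ℤ) :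
    rho ι r ϖ D (x ^ n) = n • rho ι r ϖ D x := by
  obtain ⟨n, rfl | rfl⟩ := n.eq_nat_or_neg
  · rw [zpow_natCast, natCast_zsmul]
    exact rho_pow ι hι r ϖ D hleib hϖ0 hϖ hx n
  · rw [zpow_neg, zpow_natCast, ← inv_pow, rho_pow ι hι r ϖ D hleib hϖ0 hϖ hx',
      rho_inv ι hι r ϖ D hleib hϖ0 hϖ hx hx', neg_zsmul, natCast_zsmul, smul_neg]

include hι in
theorem IsDec.zpow (hϖ0 : ϖ ≠ 0) {x : L} (hx : IsDec ι r ϖ x) (hx' : IsDec ι r ϖ x⁻¹)
    (n : ℤ) : IsDec ι r ϖ (x ^ n) := by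
  obtain ⟨n, rfl | rfl⟩ := n.eq_nat_or_neg
  · rw [zpow_natCast]; exact IsDec.pow ι hι r ϖ hϖ0 hx n
  · rw [zpow_neg, zpow_natCast, ← inv_pow]; exact IsDec.pow ι hι r ϖ hϖ0 hx' n

include hι in
/-- **`ρ` kills `p`-th powers** (`k` of characteristic `p`). -/
theorem rho_pow_char (hleib : ∀ x y, D (x * y) = r x * D y + D x * r y) (hϖ0 : ϖ ≠ 0)
    (hϖ : r ϖ = 0) (p : ℕ) [CharP k p] {x : L} (hx : IsDec ι r ϖ x) :
    rho ι r ϖ D (x ^ p) = 0 := by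
  rw [rho_pow ι hι r ϖ D hleib hϖ0 hϖ hx, nsmul_eq_mul, CharP.cast_eq_zero k p, zero_mul]

include hι in
/-- `p = η ϖ ^ p` is decomposable, and `ρ p = D η / r η =: e₁`. -/
theorem rho_natCast (hϖ0 : ϖ ≠ 0) (hϖ : r ϖ = 0) (p : ℕ) (η : S) (hη : r η ≠ 0)
    (hp : (p : S) = η * ϖ ^ p) :
    IsDec ι r ϖ (p : L) ∧ rho ι r ϖ D (p : L) = D η / r η := by
  have hpL : (p : L) = ι ϖ ^ (p : ℤ) * ι η := by
    have : (p : L) = ι (p : S) := by rw [map_natCast]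
    rw [this, hp, map_mul, map_pow, zpow_natCast, mul_comm]
  refine ⟨⟨p, η, hη, hpL⟩, ?_⟩
  rw [hpL, rho_eq ι hι r ϖ D hϖ0 hϖ _ _ hη]

include hι in
/-- **`ρ = e₁ · v` on the unramified field**: if `p = η ϖ ^ p` (`η` a unit modulo `ϖ`) and `u`
is a unit killed by `D`, then `ρ (p ^ n u) = n • e₁` with `e₁ = D η / r η = ρ p`. -/
theorem rho_natCast_zpow_mul (hleib : ∀ x y, D (x * y) = r x * D y + D x * r y) (hϖ0 : ϖ ≠ 0)
    (hϖ : r ϖ = 0) (p : ℕ) (η : S) (hη : r η ≠ 0) (hp : (p : S) = η * ϖ ^ p)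
    (hp' : IsDec ι r ϖ (p : L)⁻¹) (n : ℤ) (u : S) (hu : r u ≠ 0) (hDu : D u = 0) :
    rho ι r ϖ D ((p : L) ^ n * ι u) = n • (D η / r η) := by
  obtain ⟨hpd, hρp⟩ := rho_natCast ι hι r ϖ D hϖ0 hϖ p η hη hp
  rw [rho_mul ι hι r ϖ D hleib hϖ0 hϖ (IsDec.zpow ι hι r ϖ hϖ0 hpd hp' n)
      (isDec_unit ι r ϖ u hu),
    rho_zpow ι hι r ϖ D hleib hϖ0 hϖ hpd hp', hρp,
    rho_of_D_eq_zero ι hι r ϖ D hϖ0 hϖ u hu hDu, add_zero]

include hι in
/-- **Node evaluation.**  For `f = w ϖ ^ m t ^ j x ^ p` with `w = ∑ wᵢ ϖ ^ i` a unit whose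
coefficients are killed by `D`:  `ρ f = r w₁ / r w₀ + j • ρ t`. -/
theorem rho_node (hadd : ∀ x y, D (x + y) = D x + D y)
    (hleib : ∀ x y, D (x * y) = r x * D y + D x * r y) (hϖ0 : ϖ ≠ 0) (hϖ : r ϖ = 0)
    {B : Type*} [CommRing B] (φ : B →+* S) (hφ : ∀ b, D (φ b) = 0) (hD : D ϖ = 1)
    (p : ℕ) [CharP k p] (q : B[X]) (hq : r (φ (q.coeff 0)) ≠ 0) (m j : ℤ) {t x : L}
    (ht : IsDec ι r ϖ t) (ht' : IsDec ι r ϖ t⁻¹) (hx : IsDec ι r ϖ x) :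
    rho ι r ϖ D (ι (q.eval₂ φ ϖ) * ι ϖ ^ m * t ^ j * x ^ p)
      = r (φ (q.coeff 1)) / r (φ (q.coeff 0)) + j • rho ι r ϖ D t := by
  have hrw : r (q.eval₂ φ ϖ) ≠ 0 := by rw [r_eval₂ r φ hϖ]; exact hq
  have hw := isDec_unit ι r ϖ _ hrw
  have hπ := IsDec.zpow ι hι r ϖ hϖ0 (isDec_unif ι r ϖ) (isDec_unif_inv ι r ϖ) m
  have htj := IsDec.zpow ι hι r ϖ hϖ0 ht ht' j
  have hwπ := IsDec.mul ι hι r ϖ hϖ0 hw hπ
  rw [rho_mul ι hι r ϖ D hleib hϖ0 hϖ (IsDec.mul ι hι r ϖ hϖ0 hwπ htj)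
      (IsDec.pow ι hι r ϖ hϖ0 hx p),
    rho_mul ι hι r ϖ D hleib hϖ0 hϖ hwπ htj, rho_mul ι hι r ϖ D hleib hϖ0 hϖ hw hπ,
    rho_pow_char ι hι r ϖ D hleib hϖ0 hϖ p hx,
    rho_zpow ι hι r ϖ D hleib hϖ0 hϖ (isDec_unif ι r ϖ) (isDec_unif_inv ι r ϖ),
    rho_unif ι hι r ϖ D hleib hϖ0 hϖ, rho_zpow ι hι r ϖ D hleib hϖ0 hϖ ht ht',
    rho_unit ι hι r ϖ D hϖ0 hϖ _ hrw, D_eval₂ r D hadd hleib φ hφ hϖ hD, r_eval₂ r φ hϖ,
    smul_zero, add_zero, add_zero]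

include hι in
/-- **Node evaluation, first-order form** (the shape of `NodeNF.exists_eq_first_order`):
for `f = (w₀ (1 + c ϖ) + ϖ² g) ϖ ^ m t ^ j x ^ p` with `w₀`, `c` killed by `D`, `w₀` a unit:
`ρ f = r c + j • ρ t`. -/
theorem rho_first_order (hadd : ∀ x y, D (x + y) = D x + D y)
    (hleib : ∀ x y, D (x * y) = r x * D y + D x * r y) (hϖ0 : ϖ ≠ 0) (hϖ : r ϖ = 0)
    {B : Type*} [CommRing B] (φ : B →+* S) (hφ : ∀ b, D (φ b) = 0) (hD : D ϖ = 1)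
    (p : ℕ) [CharP k p] (w₀ c : B) (g : S) (hw₀ : r (φ w₀) ≠ 0) (m j : ℤ) {t x : L}
    (ht : IsDec ι r ϖ t) (ht' : IsDec ι r ϖ t⁻¹) (hx : IsDec ι r ϖ x) :
    rho ι r ϖ D (ι (φ w₀ * (1 + φ c * ϖ) + ϖ ^ 2 * g) * ι ϖ ^ m * t ^ j * x ^ p)
      = r (φ c) + j • rho ι r ϖ D t := by
  have hrw : r (φ w₀ * (1 + φ c * ϖ) + ϖ ^ 2 * g) ≠ 0 := by
    rw [r_first_order r φ hϖ]; exact hw₀
  have hw := isDec_unit ι r ϖ _ hrw
  have hπ := IsDec.zpow ι hι r ϖ hϖ0 (isDec_unif ι r ϖ) (isDec_unif_inv ι r ϖ) m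
  have htj := IsDec.zpow ι hι r ϖ hϖ0 ht ht' j
  have hwπ := IsDec.mul ι hι r ϖ hϖ0 hw hπ
  rw [rho_mul ι hι r ϖ D hleib hϖ0 hϖ (IsDec.mul ι hι r ϖ hϖ0 hwπ htj)
      (IsDec.pow ι hι r ϖ hϖ0 hx p),
    rho_mul ι hι r ϖ D hleib hϖ0 hϖ hwπ htj, rho_mul ι hι r ϖ D hleib hϖ0 hϖ hw hπ,
    rho_pow_char ι hι r ϖ D hleib hϖ0 hϖ p hx,
    rho_zpow ι hι r ϖ D hleib hϖ0 hϖ (isDec_unif ι r ϖ) (isDec_unif_inv ι r ϖ),
    rho_unif ι hι r ϖ D hleib hϖ0 hϖ, rho_zpow ι hι r ϖ D hleib hϖ0 hϖ ht ht',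
    rho_unit ι hι r ϖ D hϖ0 hϖ _ hrw, D_first_order r D hadd hleib φ hφ hϖ hD,
    r_first_order r φ hϖ, mul_div_cancel_left₀ _ hw₀, smul_zero, add_zero, add_zero]

end Rho

end Fermat.Agent.S44.L.RhoCalc
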