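/-
PROGRAM MR (S44), strand L — level-free leaf (L.SEPUNR) (helper109).

A root of a monic SEPARABLE polynomial over a discrete valuation ring generates an unramified
extension, in the vocabulary of valuation subrings:

`w` a valuation subring of `K` which is a DVR, `L = K(θ)` with `θ` a root of a monic `f ∈ w[X]`
that is separable over `w` (`IsCoprime f f'` in `w[X]`), `W` a valuation subring of `L` over `w`.
Then

* `e = 1`: every element of the maximal ideal of `W` is a multiple of an element of the maximal
  ideal of `w` (`unramified_of_separable`, first part);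
* the residue field of `W` is generated by the class of `θ` (second part), and equals the
  residue field of `w` as soon as `θ` is congruent to an element of `w` (`residue_trivial`).

Corollaries: Kummer extensions `z ^ p = u * h ^ p` with `u` and `p` units (`unramified_kummer`),
extensions by constants in characteristic zero (`unramified_of_subfield`), passage to an
intermediate field (`unramified_tower`), transitivity (`unramified_trans`), the forms with an
explicit uniformiser (`mem_of_unramified`, `valuation_le_uniformizer`), and: an unramified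
algebraic extension of a DVR is a DVR (`isDiscreteValuationRing_of_unramified`), so that the
statements can be iterated in towers.
-/
import Mathlib

set_option autoImplicit false

open Polynomial IsLocalRing

namespace Fermat.Agent.S44.L.SepUnr

variable {K L : Type*} [Field K] [Field L] [Algebra K L]

/-! ### Valuation subrings over one another -/

/-- `v x < 1` iff `x = 0` or `x⁻¹ ∉ A`. -/
theorem valuation_lt_one_iff_inv (A : ValuationSubring K) (x : K) :
    A.valuation x < 1 ↔ x = 0 ∨ x⁻¹ ∉ A := by
  rcases eq_or_ne x 0 with rfl | hx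
  · simp
  · have h0 : 0 < A.valuation x := zero_lt_iff.mpr ((Valuation.ne_zero_iff _).mpr hx)
    rw [← A.valuation_le_one_iff, map_inv₀, not_le, one_lt_inv₀ h0]
    constructor
    · intro h
      exact Or.inr h
    · rintro (h | h)
      · exact absurd h hx
      · exact h

section Over

variable (w : ValuationSubring K) (W : ValuationSubring L)

theorem map_mem_iff (hW : W.comap (algebraMap K L) = w) (y : K) :
    algebraMap K L y ∈ W ↔ y ∈ w := by
  rw [← hW, ValuationSubring.mem_comap]

theorem valuation_map_le_one_iff (hW : W.comap (algebraMap K L) = w) (y : K) :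
    W.valuation (algebraMap K L y) ≤ 1 ↔ w.valuation y ≤ 1 := by
  rw [ValuationSubring.valuation_le_one_iff, ValuationSubring.valuation_le_one_iff,
    map_mem_iff w W hW]

theorem valuation_map_lt_one_iff (hW : W.comap (algebraMap K L) = w) (y : K) :
    W.valuation (algebraMap K L y) < 1 ↔ w.valuation y < 1 := by
  rw [valuation_lt_one_iff_inv, valuation_lt_one_iff_inv, ← map_inv₀, map_mem_iff w W hW,
    map_eq_zero]

/-- Comparison of values of elements of `K` in `W` and in `w`. -/
theorem valuation_map_le_iff (hW : W.comap (algebraMap K L) = w) (x y : K) :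
    W.valuation (algebraMap K L x) ≤ W.valuation (algebraMap K L y) ↔
      w.valuation x ≤ w.valuation y := by
  rcases eq_or_ne y 0 with rfl | hy
  · simp
  · have hy' : algebraMap K L y ≠ 0 := (_root_.map_ne_zero _).mpr hy
    have h1 : W.valuation (algebraMap K L x) ≤ W.valuation (algebraMap K L y) ↔
        W.valuation (algebraMap K L (x / y)) ≤ 1 := by
      rw [map_div₀, map_div₀,
        div_le_one₀ (zero_lt_iff.mpr ((Valuation.ne_zero_iff _).mpr hy'))]
    have h2 : w.valuation x ≤ w.valuation y ↔ w.valuation (x / y) ≤ 1 := by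
      rw [map_div₀, div_le_one₀ (zero_lt_iff.mpr ((Valuation.ne_zero_iff _).mpr hy))]
    rw [h1, h2, valuation_map_le_one_iff w W hW]

/-- The inclusion of `w` in a valuation subring over it. -/
def incl (hW : W.comap (algebraMap K L) = w) : w →+* W where
  toFun a := ⟨algebraMap K L a, (map_mem_iff w W hW _).mpr a.2⟩
  map_one' := Subtype.ext (map_one _)
  map_mul' _ _ := Subtype.ext (map_mul _ _ _)
  map_zero' := Subtype.ext (map_zero _)
  map_add' _ _ := Subtype.ext (map_add _ _ _)

theorem incl_coe (hW : W.comap (algebraMap K L) = w) (a : w) :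
    ((incl w W hW a : W) : L) = algebraMap K L a := rfl

theorem isLocalHom_incl (hW : W.comap (algebraMap K L) = w) : IsLocalHom (incl w W hW) := by
  constructor
  intro a ha
  rw [ValuationSubring.valuation_eq_one_iff] at ha ⊢
  rcases w.valuation_lt_one_or_eq_one a with h | h
  · have h1 := (valuation_map_lt_one_iff w W hW a).mpr h
    rw [← incl_coe w W hW a, ha] at h1
    exact absurd h1 (lt_irrefl _)
  · exact h

end Over


/-! ### The main theorem -/

section Main

variable (w : ValuationSubring K) [IsDiscreteValuationRing w] (W : ValuationSubring L)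

/-- The technical core: with a uniformiser `ϖ` of `w`, every element of the maximal ideal of `W`
is divisible by `ϖ`, and every element of `W` is congruent to a polynomial in `θ`. -/
theorem core (hW : W.comap (algebraMap K L) = w) (f : Polynomial w) (hf : f.Monic)
    (hsep : f.Separable) (θ : L) (hθ : Polynomial.aeval θ (f.map w.subtype) = 0)
    (hgen : IntermediateField.adjoin K {θ} = ⊤) (ϖ : w) (hϖ : Irreducible ϖ) :
    (∀ x : L, W.valuation x < 1 → W.valuation x ≤ W.valuation (algebraMap K L ϖ)) ∧
    (∀ x ∈ W, ∃ g : Polynomial w,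
      W.valuation (x - Polynomial.aeval θ (g.map w.subtype)) < 1) := by
  classical
  -- the inclusion and the evaluation maps
  set φ : w →+* W := incl w W hW with hφ
  have : IsLocalHom φ := isLocalHom_incl w W hW
  have hfK : (f.map w.subtype).Monic := hf.map _
  have hθint : IsIntegral K θ := ⟨f.map w.subtype, hfK, hθ⟩
  -- `θ ∈ W`
  have hθW : θ ∈ W := by
    have h1 : IsIntegral W θ := by
      refine ⟨f.map φ, hf.map _, ?_⟩
      rw [eval₂_map]
      have h2 : (algebraMap W L).comp φ = (algebraMap K L).comp w.subtype := by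
        ext a
        rfl
      rw [h2, ← eval₂_map]
      exact hθ
    obtain ⟨y, hy⟩ := (IsIntegrallyClosed.isIntegral_iff (R := W) (K := L)).mp h1
    rw [← hy]
    exact y.2
  set θW : W := ⟨θ, hθW⟩ with hθWdef
  set ev : Polynomial w →+* L := eval₂RingHom ((algebraMap K L).comp w.subtype) θ with hevdef
  set evW : Polynomial w →+* W := eval₂RingHom φ θW with hevWdef
  have hev : ∀ g : Polynomial w, ((evW g : W) : L) = ev g := by
    intro g
    have h1 := hom_eval₂ g φ W.subtype θW
    exact h1
  have hevaeval : ∀ g : Polynomial w, Polynomial.aeval θ (g.map w.subtype) = ev g := by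
    intro g
    rw [aeval_def, eval₂_map]
    rfl
  have hevC : ∀ a : w, ev (C a) = algebraMap K L a := by
    intro a
    simp [hevdef]
  have hevf : ev f = 0 := by rw [← hevaeval]; exact hθ
  have hevWf : evW f = 0 := Subtype.ext (by rw [hev, hevf]; rfl)
  have hval_le : ∀ g : Polynomial w, W.valuation (ev g) ≤ 1 := by
    intro g
    rw [ValuationSubring.valuation_le_one_iff, ← hev]
    exact (evW g).2
  -- residue fields
  set ι : ResidueField w →+* ResidueField W := ResidueField.map φ with hι
  let _ : Algebra (ResidueField w) (ResidueField W) := ι.toAlgebra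
  set θbar : ResidueField W := residue W θW with hθbar
  have hres : ∀ g : Polynomial w,
      residue W (evW g) = Polynomial.aeval θbar (g.map (residue w)) := by
    intro g
    rw [aeval_def, eval₂_map]
    have h1 : (algebraMap (ResidueField w) (ResidueField W)).comp (residue w)
        = (residue W).comp φ := by
      ext a
      exact ResidueField.map_residue φ a
    rw [h1]
    exact hom_eval₂ g φ (residue W) θW
  have hres0 : ∀ g : Polynomial w, W.valuation (ev g) < 1 →
      Polynomial.aeval θbar (g.map (residue w)) = 0 := by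
    intro g hg
    rw [← hres, residue_eq_zero_iff, ValuationSubring.valuation_lt_one_iff, hev]
    exact hg
  -- the minimal polynomial of `θbar` and its complement in `fbar`
  have hfbar : Polynomial.aeval θbar (f.map (residue w)) = 0 := by
    rw [← hres, hevWf, map_zero]
  have hintbar : IsIntegral (ResidueField w) θbar := ⟨f.map (residue w), hf.map _, hfbar⟩
  obtain ⟨cbar, hcbar⟩ := minpoly.dvd (ResidueField w) θbar hfbar
  have hsepbar : (minpoly (ResidueField w) θbar * cbar).Separable := by
    rw [← hcbar]
    exact hsep.map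
  obtain ⟨abar, bbar, hab⟩ := hsepbar.isCoprime
  obtain ⟨h, hh⟩ := map_surjective (residue w) residue_surjective
    (minpoly (ResidueField w) θbar)
  obtain ⟨c, hc⟩ := map_surjective (residue w) residue_surjective cbar
  obtain ⟨b, hb⟩ := map_surjective (residue w) residue_surjective bbar
  -- polynomials vanishing modulo the maximal ideal are multiples of `ϖ`
  have hker : ∀ g : Polynomial w, g.map (residue w) = 0 → ∃ r : Polynomial w, g = C ϖ * r := by
    intro g hg
    have h1 : C ϖ ∣ g := by
      rw [C_dvd_iff_dvd_coeff]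
      intro i
      have h2 : residue w (g.coeff i) = 0 := by rw [← coeff_map, hg, coeff_zero]
      rw [residue_eq_zero_iff, hϖ.maximalIdeal_eq, Ideal.mem_span_singleton] at h2
      exact h2
    exact h1
  obtain ⟨r, hr⟩ := hker (f - h * c) (by
    rw [Polynomial.map_sub, Polynomial.map_mul, hh, hc, hcbar, sub_self])
  have e1 : ev h * ev c = -(algebraMap K L ϖ * ev r) := by
    have h1 := congrArg ev hr
    rw [map_sub, map_mul, map_mul, hevf, hevC] at h1
    linear_combination -h1
  -- `c(θ)` is a unit of `W`, with inverse `b(θ)` modulo the maximal ideal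
  have hbc : Polynomial.aeval θbar bbar * Polynomial.aeval θbar cbar = 1 := by
    have h1 := congrArg (Polynomial.aeval θbar) hab
    rw [map_add, map_mul, map_mul, minpoly.aeval, mul_zero, zero_add, map_one] at h1
    exact h1
  have hevc : W.valuation (ev c) = 1 := by
    rw [← hev, ← ValuationSubring.valuation_eq_one_iff, ← residue_ne_zero_iff_isUnit, hres, hc]
    intro h0
    rw [h0, mul_zero] at hbc
    exact zero_ne_one hbc
  have hevbc : W.valuation (ev b * ev c - 1) < 1 := by
    have h1 : residue W (evW b * evW c - 1) = 0 := by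
      rw [map_sub, map_mul, hres, hres, hb, hc, hbc, map_one, sub_self]
    rw [residue_eq_zero_iff, ValuationSubring.valuation_lt_one_iff] at h1
    have h2 : ((evW b * evW c - 1 : W) : L) = ev b * ev c - 1 := by
      push_cast
      rw [hev, hev]
    rw [h2] at h1
    exact h1
  -- the key step
  have hstep : ∀ g : Polynomial w, W.valuation (ev g) < 1 →
      ∃ g' : Polynomial w, ev c * ev g = algebraMap K L ϖ * ev g' := by
    intro g hg
    obtain ⟨qbar, hq⟩ := minpoly.dvd (ResidueField w) θbar (hres0 g hg)
    obtain ⟨q, rfl⟩ := map_surjective (residue w) residue_surjective qbar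
    obtain ⟨s, hs⟩ := hker (g - h * q) (by
      rw [Polynomial.map_sub, Polynomial.map_mul, hq, hh, sub_self])
    refine ⟨c * s - r * q, ?_⟩
    have e2 : ev g = ev h * ev q + algebraMap K L ϖ * ev s := by
      have h1 := congrArg ev hs
      rw [map_sub, map_mul, map_mul, hevC] at h1
      linear_combination h1
    rw [e2, map_sub, map_mul, map_mul]
    linear_combination (ev q) * e1
  -- the uniformiser
  have hϖw : w.valuation (ϖ : K) < 1 := by
    rcases w.valuation_lt_one_or_eq_one ϖ with h1 | h1
    · exact h1
    · exact absurd ((w.valuation_eq_one_iff ϖ).mpr h1) hϖ.not_isUnit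
  have hϖW : W.valuation (algebraMap K L ϖ) < 1 := (valuation_map_lt_one_iff w W hW _).mpr hϖw
  have hϖ0 : algebraMap K L (ϖ : K) ≠ 0 := by
    rw [_root_.map_ne_zero]
    intro h0
    exact hϖ.ne_zero (Subtype.ext h0)
  have hpow : ∀ n : ℕ, W.valuation (algebraMap K L ϖ) ^ n ≤ 1 := fun n =>
    pow_le_one₀ zero_le hϖW.le
  have hcancel : ∀ (n : ℕ) (g g' : Polynomial w) (x : L),
      x * algebraMap K L ϖ ^ (n + 1) = ev g → ev c * ev g = algebraMap K L ϖ * ev g' →
      (ev c * x) * algebraMap K L ϖ ^ n = ev g' := by
    intro n g g' x hx hg'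
    apply mul_left_cancel₀ hϖ0
    rw [← hg', ← hx]
    ring
  -- every element of `L` is `g(θ) / ϖ ^ n`
  have hrep : ∀ x : L, ∃ (n : ℕ) (g : Polynomial w), x * algebraMap K L ϖ ^ n = ev g := by
    intro x
    have hx : x ∈ (IntermediateField.adjoin K {θ}).toSubalgebra := by
      rw [hgen]
      trivial
    rw [IntermediateField.adjoin_simple_toSubalgebra_of_isAlgebraic hθint.isAlgebraic,
      Algebra.adjoin_singleton_eq_range_aeval] at hx
    obtain ⟨G, rfl⟩ := hx
    obtain ⟨d, hdM, hd⟩ := IsLocalization.integerNormalization_spec (nonZeroDivisors w) G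
    have hd0 : d ≠ 0 := nonZeroDivisors.ne_zero hdM
    obtain ⟨n, hn⟩ := IsDiscreteValuationRing.associated_pow_irreducible hd0 hϖ
    obtain ⟨u, hu⟩ := hn
    refine ⟨n, C (u : w) * IsLocalization.integerNormalization (nonZeroDivisors w) G, ?_⟩
    rw [map_mul, hevC, ← hevaeval]
    have h1 : (IsLocalization.integerNormalization (nonZeroDivisors w) G).map w.subtype
        = d • G := hd
    rw [h1]
    have h2 : Polynomial.aeval θ (d • G) = algebraMap K L (d : K) * Polynomial.aeval θ G := by
      rw [Algebra.smul_def, map_mul]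
      congr 1
      simp
    rw [h2, ← mul_assoc, ← map_mul]
    have h3 : ((u : w) : K) * (d : K) = (ϖ : K) ^ n := by
      have := congrArg (Subtype.val) hu
      push_cast at this
      rw [← this]
      ring
    rw [h3, map_pow]
    exact mul_comm _ _
  constructor
  · -- `e = 1`
    have hP : ∀ n : ℕ, ∀ (g : Polynomial w) (x : L), x * algebraMap K L ϖ ^ n = ev g →
        W.valuation x < 1 → W.valuation x ≤ W.valuation (algebraMap K L ϖ) := by
      intro n
      induction n with
      | zero =>
        intro g x hx hlt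
        rw [pow_zero, mul_one] at hx
        obtain ⟨g', hg'⟩ := hstep g (hx ▸ hlt)
        have h1 := congrArg W.valuation hg'
        rw [map_mul, map_mul, hevc, one_mul, ← hx] at h1
        rw [h1]
        exact mul_le_of_le_one_right' (hval_le g')
      | succ n ih =>
        intro g x hx hlt
        have hg : W.valuation (ev g) < 1 := by
          rw [← hx, map_mul, map_pow]
          exact lt_of_le_of_lt (mul_le_of_le_one_right' (hpow _)) hlt
        obtain ⟨g', hg'⟩ := hstep g hg
        have h1 := ih g' (ev c * x) (hcancel n g g' x hx hg')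
          (by rw [map_mul, hevc, one_mul]; exact hlt)
        rwa [map_mul, hevc, one_mul] at h1
    intro x hx
    obtain ⟨n, g, hg⟩ := hrep x
    exact hP n g x hg hx
  · -- the residue field
    have hR : ∀ n : ℕ, ∀ (g : Polynomial w) (x : L), x * algebraMap K L ϖ ^ n = ev g →
        W.valuation x ≤ 1 → ∃ G : Polynomial w, W.valuation (x - ev G) < 1 := by
      intro n
      induction n with
      | zero =>
        intro g x hx _
        rw [pow_zero, mul_one] at hx
        exact ⟨g, by rw [hx, sub_self, map_zero]; exact zero_lt_one⟩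
      | succ n ih =>
        intro g x hx hle
        have hg : W.valuation (ev g) < 1 := by
          rw [← hx, map_mul, map_pow, pow_succ, ← mul_assoc]
          exact lt_of_le_of_lt (mul_le_of_le_one_left' (mul_le_one' hle (hpow _))) hϖW
        obtain ⟨g', hg'⟩ := hstep g hg
        obtain ⟨G', hG'⟩ := ih g' (ev c * x) (hcancel n g g' x hx hg')
          (by rw [map_mul, hevc, one_mul]; exact hle)
        refine ⟨b * G', ?_⟩
        have h1 : x - ev (b * G') = -((ev b * ev c - 1) * x) + ev b * (ev c * x - ev G') := by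
          rw [map_mul]
          ring
        rw [h1]
        refine lt_of_le_of_lt (Valuation.map_add _ _ _) (max_lt ?_ ?_)
        · rw [Valuation.map_neg, map_mul]
          exact lt_of_le_of_lt (mul_le_of_le_one_right' hle) hevbc
        · rw [map_mul]
          exact lt_of_le_of_lt (mul_le_of_le_one_left' (hval_le b)) hG'
    intro x hx
    obtain ⟨n, g, hg⟩ := hrep x
    obtain ⟨G, hG⟩ := hR n g x hg ((W.valuation_le_one_iff x).mpr hx)
    exact ⟨G, by rw [hevaeval]; exact hG⟩

end Main

/-! ### Exported forms -/

section Exports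

variable (w : ValuationSubring K) [IsDiscreteValuationRing w] (W : ValuationSubring L)

/-- **(L.SEPUNR)** A root of a monic separable polynomial over a DVR generates an unramified
extension: for every valuation subring `W` of `L = K(θ)` over `w`, the maximal ideal of `W` is
generated by the maximal ideal of `w` (`e = 1`), and the residue field of `W` is generated by the
class of `θ`. -/
theorem unramified_of_separable (hW : W.comap (algebraMap K L) = w) (f : Polynomial w)
    (hf : f.Monic) (hsep : f.Separable) (θ : L)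
    (hθ : Polynomial.aeval θ (f.map w.subtype) = 0)
    (hgen : IntermediateField.adjoin K {θ} = ⊤) :
    (∀ x : L, W.valuation x < 1 →
      ∃ y : K, w.valuation y < 1 ∧ W.valuation x ≤ W.valuation (algebraMap K L y)) ∧
    (∀ x ∈ W, ∃ g : Polynomial w,
      W.valuation (x - Polynomial.aeval θ (g.map w.subtype)) < 1) := by
  obtain ⟨ϖ, hϖ⟩ := IsDiscreteValuationRing.exists_irreducible w
  obtain ⟨h1, h2⟩ := core w W hW f hf hsep θ hθ hgen ϖ hϖ
  refine ⟨fun x hx => ⟨(ϖ : K), ?_, h1 x hx⟩, h2⟩
  rcases w.valuation_lt_one_or_eq_one ϖ with h3 | h3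
  · exact h3
  · exact absurd ((w.valuation_eq_one_iff ϖ).mpr h3) hϖ.not_isUnit

/-- The form of `e = 1` with an explicit uniformiser: a non-unit of `W` is a multiple of `π`. -/
theorem mem_of_unramified (hW : W.comap (algebraMap K L) = w)
    (hE : ∀ x : L, W.valuation x < 1 →
      ∃ y : K, w.valuation y < 1 ∧ W.valuation x ≤ W.valuation (algebraMap K L y))
    (π : w) (hπ : Irreducible π) (x : L) (_hx : x ∈ W) (hx' : x⁻¹ ∉ W) :
    x * (algebraMap K L π)⁻¹ ∈ W := by
  have hπ0 : algebraMap K L (π : K) ≠ 0 := by
    rw [_root_.map_ne_zero]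
    intro h0
    exact hπ.ne_zero (Subtype.ext h0)
  obtain ⟨y, hy, hxy⟩ := hE x ((valuation_lt_one_iff_inv W x).mpr (Or.inr hx'))
  have hyπ : w.valuation y ≤ w.valuation (π : K) := by
    have hyw : y ∈ w := (w.valuation_le_one_iff y).mp hy.le
    have h1 : (⟨y, hyw⟩ : w) ∈ maximalIdeal w := by
      rw [ValuationSubring.valuation_lt_one_iff]
      exact hy
    rw [hπ.maximalIdeal_eq, Ideal.mem_span_singleton] at h1
    obtain ⟨a, ha⟩ := h1
    have h2 : y = (π : K) * (a : K) := congrArg Subtype.val ha
    rw [h2, map_mul]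
    exact mul_le_of_le_one_right' (w.valuation_le_one a)
  have h3 : W.valuation x ≤ W.valuation (algebraMap K L π) :=
    hxy.trans ((valuation_map_le_iff w W hW y π).mpr hyπ)
  rw [← ValuationSubring.valuation_le_one_iff, map_mul, map_inv₀, ← div_eq_mul_inv,
    div_le_one₀ (zero_lt_iff.mpr ((Valuation.ne_zero_iff _).mpr hπ0))]
  exact h3

omit [IsDiscreteValuationRing w] in
/-- If moreover `θ` is congruent to an element of `w` (for instance when the reduction of `f` is
a product of linear factors), the residue field of `W` is that of `w` (`f = 1`). -/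
theorem residue_trivial (hW : W.comap (algebraMap K L) = w) (θ : L)
    (hres : ∀ x ∈ W, ∃ g : Polynomial w,
      W.valuation (x - Polynomial.aeval θ (g.map w.subtype)) < 1)
    (a : K) (ha : a ∈ w) (hθa : W.valuation (θ - algebraMap K L a) < 1) (x : L) (hx : x ∈ W) :
    ∃ a' : K, a' ∈ w ∧ W.valuation (x - algebraMap K L a') < 1 := by
  obtain ⟨g, hg⟩ := hres x hx
  have hθW : θ ∈ W := by
    have h1 : θ = (θ - algebraMap K L a) + algebraMap K L a := by ring
    rw [h1]
    exact W.add_mem _ _ ((W.valuation_le_one_iff _).mp hθa.le) ((map_mem_iff w W hW a).mpr ha)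
  set φ : w →+* W := incl w W hW with hφ
  -- `g(θ) - g(a)` is a multiple of `θ - a` in `W`
  obtain ⟨t, ht⟩ := sub_dvd_eval_sub (⟨θ, hθW⟩ : W) (φ ⟨a, ha⟩) (g.map φ)
  have e1 : (((g.map φ).eval (⟨θ, hθW⟩ : W) : W) : L) = Polynomial.aeval θ (g.map w.subtype) := by
    rw [eval_map, aeval_def, eval₂_map]
    exact hom_eval₂ g φ W.subtype ⟨θ, hθW⟩
  have e2 : (((g.map φ).eval (φ ⟨a, ha⟩) : W) : L) = algebraMap K L ((g.eval ⟨a, ha⟩ : w) : K) := by
    rw [eval_map, eval₂_hom]
    rfl
  refine ⟨((g.eval ⟨a, ha⟩ : w) : K), (g.eval ⟨a, ha⟩ : w).2, ?_⟩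
  have e3 : x - algebraMap K L ((g.eval ⟨a, ha⟩ : w) : K)
      = (x - Polynomial.aeval θ (g.map w.subtype)) + (θ - algebraMap K L a) * (t : L) := by
    have h1 := congrArg (Subtype.val) ht
    push_cast at h1
    rw [e1, e2] at h1
    have h2 : ((φ ⟨a, ha⟩ : W) : L) = algebraMap K L a := rfl
    rw [h2] at h1
    linear_combination h1
  rw [e3]
  refine lt_of_le_of_lt (Valuation.map_add _ _ _) (max_lt hg ?_)
  rw [map_mul]
  exact lt_of_le_of_lt (mul_le_of_le_one_right' (W.valuation_le_one t)) hθa

omit [IsDiscreteValuationRing w] in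
/-- A root of `f` in the residue field of `W`: if `f ≡ ∏ (X - a i)` modulo the maximal ideal of
`w`, then `θ` is congruent to one of the `a i`. -/
theorem exists_near_root (hW : W.comap (algebraMap K L) = w) (f : Polynomial w) (θ : L)
    (hθW : θ ∈ W) (hθ : Polynomial.aeval θ (f.map w.subtype) = 0) {ι : Type*} (s : Finset ι)
    (a : ι → w) (hsplit : f.map (residue w) = ∏ i ∈ s, (X - C (residue w (a i)))) :
    ∃ i ∈ s, W.valuation (θ - algebraMap K L (a i)) < 1 := by
  classical
  set φ : w →+* W := incl w W hW with hφ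
  have h1 : (f.map ((residue W).comp φ)).eval (residue W ⟨θ, hθW⟩) = 0 := by
    rw [eval_map, ← hom_eval₂ f φ (residue W) ⟨θ, hθW⟩]
    have h2 : f.eval₂ φ (⟨θ, hθW⟩ : W) = 0 := by
      apply Subtype.ext
      have h3 := hom_eval₂ f φ W.subtype ⟨θ, hθW⟩
      rw [aeval_def, eval₂_map] at hθ
      exact h3.trans hθ
    rw [h2, map_zero]
  have h4 : f.map ((residue W).comp φ)
      = ∏ i ∈ s, (X - C (residue W (φ (a i)))) := by
    have h5 : IsLocalHom φ := isLocalHom_incl w W hW
    have h6 : (residue W).comp φ = (ResidueField.map φ).comp (residue w) := by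
      ext y
      exact (ResidueField.map_residue φ y).symm
    rw [h6, ← Polynomial.map_map, hsplit, Polynomial.map_prod]
    refine Finset.prod_congr rfl fun i _ => ?_
    rw [Polynomial.map_sub, map_X, map_C, ResidueField.map_residue]
  rw [h4, eval_prod, Finset.prod_eq_zero_iff] at h1
  obtain ⟨i, hi, h7⟩ := h1
  refine ⟨i, hi, ?_⟩
  rw [eval_sub, eval_X, eval_C, ← map_sub, residue_eq_zero_iff,
    ValuationSubring.valuation_lt_one_iff] at h7
  exact h7

end Exports

/-! ### Corollaries: Kummer extensions, constants, towers -/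

section Corollaries

variable (w : ValuationSubring K) [IsDiscreteValuationRing w] (W : ValuationSubring L)

/-- **Kummer extensions are unramified away from `p`.**  `L = K(z)`, `z ^ p = u * h ^ p` with
`u` and `p` units of the DVR `w`: every valuation subring of `L` over `w` has `e = 1`. -/
theorem unramified_kummer (hW : W.comap (algebraMap K L) = w) (p : ℕ) (hp0 : p ≠ 0)
    (u h : K) (hu : u ∈ w) (hu' : u⁻¹ ∈ w) (hu0 : u ≠ 0) (hh0 : h ≠ 0)
    (hp : (p : K)⁻¹ ∈ w) (hpK : (p : K) ≠ 0)
    (z : L) (hz : z ^ p = algebraMap K L (u * h ^ p))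
    (hgen : IntermediateField.adjoin K {z} = ⊤) :
    ∀ x : L, W.valuation x < 1 →
      ∃ y : K, w.valuation y < 1 ∧ W.valuation x ≤ W.valuation (algebraMap K L y) := by
  have hhL : algebraMap K L h ≠ 0 := (_root_.map_ne_zero _).mpr hh0
  -- the unit `u` and the unit `p` of `w`
  let uu : wˣ := ⟨⟨u, hu⟩, ⟨u⁻¹, hu'⟩, Subtype.ext (mul_inv_cancel₀ hu0),
    Subtype.ext (inv_mul_cancel₀ hu0)⟩
  have hpu : IsUnit ((p : ℕ) : w) := by
    refine IsUnit.of_mul_eq_one (⟨(p : K)⁻¹, hp⟩ : w) (Subtype.ext ?_)
    push_cast
    exact mul_inv_cancel₀ hpK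
  set θ : L := z * (algebraMap K L h)⁻¹ with hθdef
  have hθ : Polynomial.aeval θ ((X ^ p - C (uu : w) : Polynomial w).map w.subtype) = 0 := by
    rw [Polynomial.map_sub, Polynomial.map_pow, map_X, map_C, map_sub, map_pow, aeval_X, aeval_C,
      hθdef, mul_pow, hz, map_mul, map_pow, inv_pow]
    have h1 : algebraMap K L h ^ p ≠ 0 := pow_ne_zero _ hhL
    have h2 : (w.subtype (uu : w) : K) = u := rfl
    rw [h2]
    field_simp
    ring
  have hgen' : IntermediateField.adjoin K {θ} = ⊤ := by
    rw [eq_top_iff, ← hgen, IntermediateField.adjoin_simple_le_iff]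
    have h1 : z = θ * algebraMap K L h := by
      rw [hθdef, mul_assoc, inv_mul_cancel₀ hhL, mul_one]
    rw [h1]
    exact mul_mem (IntermediateField.mem_adjoin_simple_self K θ)
      (IntermediateField.algebraMap_mem _ h)
  exact (unramified_of_separable w W hW (X ^ p - C (uu : w)) (monic_X_pow_sub_C _ hp0)
    (separable_X_pow_sub_C_unit uu hpu) θ hθ hgen').1

/-- **Extensions by constants are unramified in characteristic zero.**  `k₀` a subfield of `K`
contained in the DVR `w`, `L = K(θ)` with `θ` a root of a nonzero polynomial over `k₀`: every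
valuation subring of `L` over `w` has `e = 1`. -/
theorem unramified_of_subfield [CharZero K] (hW : W.comap (algebraMap K L) = w)
    (k₀ : Subfield K) (hk₀ : ∀ a ∈ k₀, a ∈ w) (θ : L) (q : Polynomial k₀) (hq : q ≠ 0)
    (hθ : Polynomial.aeval θ (q.map k₀.subtype) = 0)
    (hgen : IntermediateField.adjoin K {θ} = ⊤) :
    ∀ x : L, W.valuation x < 1 →
      ∃ y : K, w.valuation y < 1 ∧ W.valuation x ≤ W.valuation (algebraMap K L y) := by
  classical
  -- `L` as a `k₀`-algebra
  let j : k₀ →+* L := (algebraMap K L).comp k₀.subtype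
  let _ : Algebra k₀ L := j.toAlgebra
  have hθq : Polynomial.aeval θ q = 0 := by
    rw [aeval_def, eval₂_map] at hθ
    exact hθ
  have hint : IsIntegral k₀ θ := (isAlgebraic_iff_isIntegral).mp ⟨q, hq, hθq⟩
  have hirr : Irreducible (minpoly k₀ θ) := minpoly.irreducible hint
  have hsep : (minpoly k₀ θ).Separable := hirr.separable
  -- the inclusion of `k₀` in `w`
  let i₀ : k₀ →+* w :=
    { toFun := fun a => ⟨(a : K), hk₀ _ a.2⟩
      map_one' := rfl
      map_mul' := fun _ _ => rfl
      map_zero' := rfl
      map_add' := fun _ _ => rfl }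
  have hθ' : Polynomial.aeval θ (((minpoly k₀ θ).map i₀).map w.subtype) = 0 := by
    rw [Polynomial.map_map, aeval_def, eval₂_map]
    exact minpoly.aeval k₀ θ
  exact (unramified_of_separable w W hW ((minpoly k₀ θ).map i₀) ((minpoly.monic hint).map _)
    hsep.map θ hθ' hgen).1

end Corollaries

section Tower

variable {L' : Type*} [Field L'] [Algebra K L'] [Algebra L L'] [IsScalarTower K L L']

/-- **`e = 1` passes to subextensions.** -/
theorem unramified_tower (w : ValuationSubring K) (W : ValuationSubring L)
    (W' : ValuationSubring L') (hW' : W'.comap (algebraMap L L') = W)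
    (hE : ∀ x : L', W'.valuation x < 1 →
      ∃ y : K, w.valuation y < 1 ∧ W'.valuation x ≤ W'.valuation (algebraMap K L' y)) :
    ∀ x : L, W.valuation x < 1 →
      ∃ y : K, w.valuation y < 1 ∧ W.valuation x ≤ W.valuation (algebraMap K L y) := by
  intro x hx
  obtain ⟨y, hy, hxy⟩ := hE (algebraMap L L' x) ((valuation_map_lt_one_iff W W' hW' x).mpr hx)
  refine ⟨y, hy, ?_⟩
  rw [IsScalarTower.algebraMap_apply K L L'] at hxy
  exact (valuation_map_le_iff W W' hW' x (algebraMap K L y)).mp hxy

/-- **`e = 1` is transitive.** -/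
theorem unramified_trans (w : ValuationSubring K) (W : ValuationSubring L)
    (W' : ValuationSubring L') (hW' : W'.comap (algebraMap L L') = W)
    (h1 : ∀ x : L, W.valuation x < 1 →
      ∃ y : K, w.valuation y < 1 ∧ W.valuation x ≤ W.valuation (algebraMap K L y))
    (h2 : ∀ x : L', W'.valuation x < 1 →
      ∃ y : L, W.valuation y < 1 ∧ W'.valuation x ≤ W'.valuation (algebraMap L L' y)) :
    ∀ x : L', W'.valuation x < 1 →
      ∃ y : K, w.valuation y < 1 ∧ W'.valuation x ≤ W'.valuation (algebraMap K L' y) := by
  intro x hx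
  obtain ⟨y₁, hy₁, hxy₁⟩ := h2 x hx
  obtain ⟨y, hy, hy₁y⟩ := h1 y₁ hy₁
  refine ⟨y, hy, hxy₁.trans ?_⟩
  rw [IsScalarTower.algebraMap_apply K L L']
  exact (valuation_map_le_iff W W' hW' y₁ (algebraMap K L y)).mpr hy₁y

end Tower

/-! ### An unramified extension of a DVR is a DVR -/

section DVR

variable (w : ValuationSubring K) [IsDiscreteValuationRing w] (W : ValuationSubring L)

/-- The form of `e = 1` with a uniformiser: every element of the maximal ideal of `W` has value
at most that of `ϖ`. -/
theorem valuation_le_uniformizer (hW : W.comap (algebraMap K L) = w)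
    (hE : ∀ x : L, W.valuation x < 1 →
      ∃ y : K, w.valuation y < 1 ∧ W.valuation x ≤ W.valuation (algebraMap K L y))
    (ϖ : w) (hϖ : Irreducible ϖ) (x : L) (hx : W.valuation x < 1) :
    W.valuation x ≤ W.valuation (algebraMap K L ϖ) := by
  obtain ⟨y, hy, hxy⟩ := hE x hx
  have hyw : y ∈ w := (w.valuation_le_one_iff y).mp hy.le
  have h1 : (⟨y, hyw⟩ : w) ∈ maximalIdeal w := by
    rw [ValuationSubring.valuation_lt_one_iff]
    exact hy
  rw [hϖ.maximalIdeal_eq, Ideal.mem_span_singleton] at h1
  obtain ⟨a, ha⟩ := h1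
  have h2 : y = (ϖ : K) * (a : K) := congrArg Subtype.val ha
  have h3 : w.valuation y ≤ w.valuation (ϖ : K) := by
    rw [h2, map_mul]
    exact mul_le_of_le_one_right' (w.valuation_le_one a)
  exact hxy.trans ((valuation_map_le_iff w W hW y ϖ).mpr h3)

omit [IsDiscreteValuationRing w] in
/-- In an algebraic extension, every nonzero element of `W` divides a nonzero element of `w`. -/
theorem exists_valuation_le (hW : W.comap (algebraMap K L) = w) (x : L) (hx : x ∈ W)
    (hx0 : x ≠ 0) (halg : IsAlgebraic K x) :
    ∃ a : w, a ≠ 0 ∧ W.valuation (algebraMap K L a) ≤ W.valuation x := by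
  classical
  have hint : IsIntegral K x := halg.isIntegral
  obtain ⟨d, hdM, hd⟩ := IsLocalization.integerNormalization_spec (nonZeroDivisors w)
    (minpoly K x)
  have hd0 : d ≠ 0 := nonZeroDivisors.ne_zero hdM
  set P : Polynomial w := IsLocalization.integerNormalization (nonZeroDivisors w) (minpoly K x)
    with hP
  have hd' : P.map w.subtype = d • minpoly K x := hd
  set φ : w →+* W := incl w W hW with hφ
  -- `P(x) = 0`
  have h0 : P.eval₂ φ (⟨x, hx⟩ : W) = 0 := by
    apply Subtype.ext
    have h1 := hom_eval₂ P φ W.subtype ⟨x, hx⟩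
    have h2 : Polynomial.aeval x (P.map w.subtype) = 0 := by
      rw [hd', Algebra.smul_def, map_mul, minpoly.aeval, mul_zero]
    rw [aeval_def, eval₂_map] at h2
    exact h1.trans h2
  -- split off the constant term
  have h3 : P.divX.eval₂ φ (⟨x, hx⟩ : W) * (⟨x, hx⟩ : W) + φ (P.coeff 0) = 0 := by
    conv_rhs => rw [← h0]
    conv_rhs => rw [← divX_mul_X_add P]
    rw [eval₂_add, eval₂_mul, eval₂_X, eval₂_C]
  refine ⟨P.coeff 0, ?_, ?_⟩
  · intro h4
    have h5 : ((P.coeff 0 : w) : K) = (d : K) * (minpoly K x).coeff 0 := by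
      have h6 := congrArg (fun Q : Polynomial K => Q.coeff 0) hd'
      simp only [coeff_map, coeff_smul] at h6
      rw [Algebra.smul_def] at h6
      exact h6
    rw [h4] at h5
    have h7 : (d : K) ≠ 0 := fun h => hd0 (Subtype.ext h)
    exact (mul_ne_zero h7 (minpoly.coeff_zero_ne_zero hint hx0)) h5.symm
  · have h8 : algebraMap K L (P.coeff 0 : w) = -((P.divX.eval₂ φ (⟨x, hx⟩ : W) : W) : L) * x := by
      have h9 := congrArg (Subtype.val) h3
      push_cast at h9
      have h10 : ((φ (P.coeff 0) : W) : L) = algebraMap K L (P.coeff 0 : w) := rfl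
      rw [h10] at h9
      linear_combination h9
    rw [h8, map_mul, Valuation.map_neg]
    exact mul_le_of_le_one_left' (W.valuation_le_one _)

/-- **An unramified algebraic extension of a DVR is a DVR.** -/
theorem isDiscreteValuationRing_of_unramified [Algebra.IsAlgebraic K L]
    (hW : W.comap (algebraMap K L) = w)
    (hE : ∀ x : L, W.valuation x < 1 →
      ∃ y : K, w.valuation y < 1 ∧ W.valuation x ≤ W.valuation (algebraMap K L y)) :
    IsDiscreteValuationRing W := by
  classical
  obtain ⟨ϖ, hϖ⟩ := IsDiscreteValuationRing.exists_irreducible w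
  have hle := valuation_le_uniformizer w W hW hE ϖ hϖ
  have hϖw : w.valuation (ϖ : K) < 1 := by
    rcases w.valuation_lt_one_or_eq_one ϖ with h1 | h1
    · exact h1
    · exact absurd ((w.valuation_eq_one_iff ϖ).mpr h1) hϖ.not_isUnit
  have hϖW : W.valuation (algebraMap K L ϖ) < 1 := (valuation_map_lt_one_iff w W hW _).mpr hϖw
  have hϖ0 : algebraMap K L (ϖ : K) ≠ 0 := by
    rw [_root_.map_ne_zero]
    intro h0
    exact hϖ.ne_zero (Subtype.ext h0)
  have hvϖ0 : W.valuation (algebraMap K L ϖ) ≠ 0 := (Valuation.ne_zero_iff _).mpr hϖ0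
  set pW : W := incl w W hW ϖ with hpW
  have hpWcoe : (pW : L) = algebraMap K L ϖ := rfl
  -- values of elements of `W` are powers of the value of `ϖ`
  have hpow : ∀ k : ℕ, ∀ x : L, W.valuation x ≤ 1 →
      W.valuation (algebraMap K L ϖ) ^ k ≤ W.valuation x →
      ∃ n : ℕ, W.valuation x = W.valuation (algebraMap K L ϖ) ^ n := by
    intro k
    induction k with
    | zero =>
      intro x hx1 hx2
      rw [pow_zero] at hx2
      exact ⟨0, by rw [pow_zero]; exact le_antisymm hx1 hx2⟩
    | succ k ih =>
      intro x hx1 hx2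
      rcases hx1.lt_or_eq with h | h
      · have h1 := hle x h
        obtain ⟨n, hn⟩ := ih (x * (algebraMap K L ϖ)⁻¹)
          (by
            rw [map_mul, map_inv₀, ← div_eq_mul_inv, div_le_one₀ (zero_lt_iff.mpr hvϖ0)]
            exact h1)
          (by
            rw [map_mul, map_inv₀, ← div_eq_mul_inv, le_div_iff₀ (zero_lt_iff.mpr hvϖ0),
              ← pow_succ]
            exact hx2)
        refine ⟨n + 1, ?_⟩
        rw [pow_succ, ← hn, map_mul, map_inv₀, inv_mul_cancel_right₀ hvϖ0]
      · exact ⟨0, by rw [pow_zero]; exact h⟩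
  -- the factorisation property
  have hfac : ∀ x : W, x ≠ 0 → ∃ n : ℕ, Associated (pW ^ n) x := by
    intro x hx0
    have hxL : (x : L) ≠ 0 := fun h => hx0 (Subtype.ext h)
    obtain ⟨a, ha0, hax⟩ := exists_valuation_le w W hW (x : L) x.2 hxL
      (Algebra.IsAlgebraic.isAlgebraic _)
    obtain ⟨m, hm⟩ := IsDiscreteValuationRing.associated_pow_irreducible ha0 hϖ
    obtain ⟨u, hu⟩ := hm
    have hva : W.valuation (algebraMap K L a) = W.valuation (algebraMap K L ϖ) ^ m := by
      have h1 : (a : K) * (u : w) = (ϖ : K) ^ m := by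
        have := congrArg (Subtype.val) hu
        push_cast at this
        exact this
      have h2 : W.valuation (algebraMap K L ((u : w) : K)) = 1 := by
        have h3 : IsUnit (incl w W hW (u : w)) := u.isUnit.map _
        exact (W.valuation_eq_one_iff _).mp h3
      have h4 := congrArg (fun t => W.valuation (algebraMap K L t)) h1
      simp only [map_mul, map_pow] at h4
      rw [h2, mul_one] at h4
      exact h4
    obtain ⟨n, hn⟩ := hpow m (x : L) (W.valuation_le_one x) (hva ▸ hax)
    refine ⟨n, ?_⟩
    have h5 : W.valuation ((x : L) * ((pW : L) ^ n)⁻¹) = 1 := by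
      rw [map_mul, map_inv₀, map_pow, hpWcoe, hn, mul_inv_cancel₀ (pow_ne_zero _ hvϖ0)]
    have h6 : (x : L) * ((pW : L) ^ n)⁻¹ ∈ W := (W.valuation_le_one_iff _).mp h5.le
    have h7 : IsUnit (⟨(x : L) * ((pW : L) ^ n)⁻¹, h6⟩ : W) :=
      (W.valuation_eq_one_iff _).mpr h5
    obtain ⟨v, hv⟩ := h7
    refine ⟨v, ?_⟩
    rw [hv]
    apply Subtype.ext
    push_cast
    rw [hpWcoe, mul_comm (x : L), ← mul_assoc, mul_inv_cancel₀ (pow_ne_zero _ hϖ0), one_mul]
  -- irreducibility of `pW`
  have hpWirr : Irreducible pW := by
    have hpWnu : ¬ IsUnit pW := by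
      rw [W.valuation_eq_one_iff, hpWcoe]
      exact hϖW.ne
    refine ⟨hpWnu, ?_⟩
    intro a b hab
    by_contra hcon
    push Not at hcon
    obtain ⟨ha, hb⟩ := hcon
    have ha1 : W.valuation (a : L) < 1 := by
      rcases W.valuation_lt_one_or_eq_one a with h | h
      · exact h
      · exact absurd ((W.valuation_eq_one_iff a).mpr h) ha
    have hb1 : W.valuation (b : L) < 1 := by
      rcases W.valuation_lt_one_or_eq_one b with h | h
      · exact h
      · exact absurd ((W.valuation_eq_one_iff b).mpr h) hb
    have h1 : W.valuation (algebraMap K L ϖ) = W.valuation (a : L) * W.valuation (b : L) := by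
      rw [← hpWcoe, hab]
      push_cast
      rw [map_mul]
    have h2 : W.valuation (a : L) * W.valuation (b : L)
        < W.valuation (algebraMap K L ϖ) := by
      calc W.valuation (a : L) * W.valuation (b : L)
          ≤ W.valuation (algebraMap K L ϖ) * W.valuation (b : L) :=
            mul_le_mul_left (hle _ ha1) _
        _ < W.valuation (algebraMap K L ϖ) * 1 :=
            mul_lt_mul_of_pos_left hb1 (zero_lt_iff.mpr hvϖ0)
        _ = W.valuation (algebraMap K L ϖ) := mul_one _
    rw [← h1] at h2
    exact lt_irrefl _ h2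
  exact IsDiscreteValuationRing.ofHasUnitMulPowIrreducibleFactorization
    ⟨pW, hpWirr, fun {x} hx => hfac x hx⟩

end DVR

end Fermat.Agent.S44.L.SepUnr
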