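import Mathlib
import Fermat.Agent.S44.L.SimLvl

/-!
# PROGRAM MR (S44), strand L: the NZ exits at the auxiliary level, raw equation form (helper197)

The exits `SimLvl.eq_zero_of_sim_one_lvl` / `SimLvl.not_sim_zpow_lvl` with the relation `Sim`
unfolded: a bare equation in `Fb M`, `M = 4 N' p`, whose constant `c` and factor `k` are NOT
assumed nonzero.

* `false_of_lvl_eq` : `ι R = c · k ^ p` at level `4 N' p` is absurd.
* `false_of_lvl_eq_zpow` : `ι R = c · (ι T) ^ n · k ^ p` at level `4 N' p` is absurd.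
-/

set_option autoImplicit false

open WeierstrassCurve WeierstrassCurve.Affine WeierstrassCurve.Affine.Point
open HahnSeries ModularCurve AlgebraicCurve

namespace Fermat.Agent.S44.L.SimLvl

open Fermat.Agent.S30 Fermat.Agent.S30.E4 Fermat.Agent.S30.Producer Fermat.Agent.S44.Contract
open Fermat.Agent.S44.L.Top Fermat.Agent.S44.L.IotaCalc
open Fermat.Agent.S37.LevelPull (lvl coe_lvl)

local notation "Qb" => AlgebraicClosure ℚ

variable {P : FreyPackage} {N' : ℕ} [NeZero N'] [NeZero P.p] {W : WeierstrassCurve ℤ}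
  {ι : (P.freyCurve⁄Qb).Point → FN (N' * P.p)} {M : ℕ} [NeZero M]
  {A : ValuationSubring Qb} {T R : (P.freyCurve⁄Qb).Point} {ζ b : Qb}

/-- **NZ exit, raw form with `⟨ι T⟩`.**  An equation `ι R = c · (ι T) ^ n · k ^ p` in the
function field of the auxiliary level `4 N' p` is absurd (`c`, `k` arbitrary). -/
theorem false_of_lvl_eq_zpow (hι : IsNewEmb P N' W ι) (hE : EShapeData P A T R ζ b)
    (hM : M = 4 * (N' * P.p)) (h : N' * P.p ∣ M) (n : ℤ) (c : Qb) (k : Fb M)
    (heq : lvl h (ι R) = algebraMap Qb (Fb M) c * lvl h (ι T) ^ n * k ^ P.p) : False := by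
  have hR : P.p • R = 0 := hE.2.1
  have hx : lvl h (ι R) ≠ 0 := (map_ne_zero (lvl h)).2 (hι.ne_zero R hR)
  exact not_sim_zpow_lvl hι hE hM h n (sim_of_eq_mul (NeZero.ne P.p) hx heq)

/-- **NZ exit, raw form.**  An equation `ι R = c · k ^ p` in the function field of the
auxiliary level `4 N' p` is absurd (`c`, `k` arbitrary). -/
theorem false_of_lvl_eq (hι : IsNewEmb P N' W ι) (hE : EShapeData P A T R ζ b)
    (hM : M = 4 * (N' * P.p)) (h : N' * P.p ∣ M) (c : Qb) (k : Fb M)
    (heq : lvl h (ι R) = algebraMap Qb (Fb M) c * k ^ P.p) : False := by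
  refine false_of_lvl_eq_zpow hι hE hM h 0 c k ?_
  rw [zpow_zero, mul_one]
  exact heq

end Fermat.Agent.S44.L.SimLvl
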