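import Mathlib

set_option autoImplicit false

open scoped Pointwise

namespace Fermat.Agent.S44.L.SplitDescent

section Count

variable {R C : Type*} [CommRing R] [CommRing C] [Algebra R C]

/-- In an extension `C / R` with `C ^ G = R`, `G` finite, a finite set of primes of `C` over the
same ideal `q` of `R` has at most `|G|` elements. -/
theorem card_le_card_of_isInvariant (G : Type*) [Group G] [Finite G] [MulSemiringAction G C]
    [SMulCommClass G R C] [Algebra.IsInvariant R C G] (q : Ideal R) (𝒬 : Finset (Ideal C))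
    (h𝒬 : ∀ Q ∈ 𝒬, Q.IsPrime ∧ Q.comap (algebraMap R C) = q) : 𝒬.card ≤ Nat.card G := by
  classical
  rcases 𝒬.eq_empty_or_nonempty with rfl | ⟨Q₀, hQ₀⟩
  · simp
  have hprime := (h𝒬 Q₀ hQ₀).1
  have hover : Q₀.LiesOver q := ⟨(h𝒬 Q₀ hQ₀).2.symm⟩
  have horb : MulAction.orbit G Q₀ = q.primesOver C :=
    Algebra.IsInvariant.orbit_eq_primesOver R C G q Q₀
  have hsub : ∀ Q ∈ 𝒬, ∃ g : G, g • Q₀ = Q := by
    intro Q hQ
    have hmem : Q ∈ q.primesOver C := ⟨(h𝒬 Q hQ).1, ⟨(h𝒬 Q hQ).2.symm⟩⟩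
    rw [← horb] at hmem
    exact hmem
  have := Fintype.ofFinite G
  calc 𝒬.card ≤ (Finset.univ.image (fun g : G => g • Q₀)).card := by
        refine Finset.card_le_card fun Q hQ => ?_
        obtain ⟨g, rfl⟩ := hsub Q hQ
        exact Finset.mem_image_of_mem _ (Finset.mem_univ g)
    _ ≤ Fintype.card G := Finset.card_image_le.trans (by simp)
    _ = Nat.card G := Nat.card_eq_fintype_card.symm

/-- In an extension `C / R` with `C ^ G = R` and `|G| = p` prime, the primes of `C` over a given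
ideal `q` of `R` (if there is one) are either a single one or exactly `p`. -/
theorem primesOver_eq_singleton_or_card_eq (G : Type*) [Group G] [Finite G]
    [MulSemiringAction G C] [SMulCommClass G R C] [Algebra.IsInvariant R C G] {p : ℕ}
    (hp : p.Prime) (hG : Nat.card G = p) (q : Ideal R) (Q : Ideal C) [Q.IsPrime]
    (hQ : Q.comap (algebraMap R C) = q) :
    q.primesOver C = {Q} ∨ ∃ 𝒬 : Finset (Ideal C), 𝒬.card = p ∧
      ∀ Q' ∈ 𝒬, Q'.IsPrime ∧ Q'.comap (algebraMap R C) = q := by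
  classical
  have hover : Q.LiesOver q := ⟨hQ.symm⟩
  have horb : MulAction.orbit G Q = q.primesOver C :=
    Algebra.IsInvariant.orbit_eq_primesOver R C G q Q
  have hdvd : (MulAction.orbit G Q).ncard ∣ p := by
    rw [← MulAction.index_stabilizer, ← hG]
    exact Subgroup.index_dvd_card _
  rcases (Nat.dvd_prime hp).mp hdvd with h1 | hpp
  · left
    obtain ⟨a, ha⟩ := Set.ncard_eq_one.mp h1
    have hQa : Q ∈ ({a} : Set (Ideal C)) := ha ▸ MulAction.mem_orbit_self Q
    rw [← horb, ha, Set.mem_singleton_iff.mp hQa]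
  · right
    have hfin : (MulAction.orbit G Q).Finite := Set.finite_range _
    refine ⟨hfin.toFinset, ?_, ?_⟩
    · rw [← Set.ncard_eq_toFinset_card _ hfin, hpp]
    · intro Q' hQ'
      have hmem : Q' ∈ q.primesOver C := horb ▸ (hfin.mem_toFinset.mp hQ')
      exact ⟨hmem.1, hmem.2.over.symm⟩

end Count

section Descent

variable {R C C₁ : Type*} [CommRing R] [CommRing C] [CommRing C₁] [Algebra R C] [Algebra C C₁]
  [Algebra R C₁] [IsScalarTower R C C₁]

/-- **Descent of total splitting.** `R ⊆ C ⊆ C₁` with `C ^ G = R`, `|G| = p` prime, and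
`C₁ ^ H = C`. If more than `|H|` primes of `C₁` lie over the ideal `q` of `R` (for instance `p`
of them, when `|H| < p`), then exactly `p` primes of `C` lie over `q`: there is a finite set of
`p` such primes. -/
theorem exists_primes_card_eq (G : Type*) [Group G] [Finite G] [MulSemiringAction G C]
    [SMulCommClass G R C] [Algebra.IsInvariant R C G] (H : Type*) [Group H] [Finite H]
    [MulSemiringAction H C₁] [SMulCommClass H C C₁] [Algebra.IsInvariant C C₁ H] {p : ℕ}
    (hp : p.Prime) (hG : Nat.card G = p) (q : Ideal R) (𝒬₁ : Finset (Ideal C₁))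
    (h𝒬₁ : ∀ Q ∈ 𝒬₁, Q.IsPrime ∧ Q.comap (algebraMap R C₁) = q)
    (hcard : Nat.card H < 𝒬₁.card) :
    ∃ 𝒬 : Finset (Ideal C), 𝒬.card = p ∧
      ∀ Q ∈ 𝒬, Q.IsPrime ∧ Q.comap (algebraMap R C) = q := by
  classical
  obtain ⟨Q₁, hQ₁⟩ := Finset.card_pos.mp (lt_of_le_of_lt (Nat.zero_le _) hcard)
  have hQ₁p := (h𝒬₁ Q₁ hQ₁).1
  have hcomap : ∀ Q' : Ideal C₁, (Q'.comap (algebraMap C C₁)).comap (algebraMap R C) =
      Q'.comap (algebraMap R C₁) := by
    intro Q'
    rw [Ideal.comap_comap, ← IsScalarTower.algebraMap_eq]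
  have hQp : (Q₁.comap (algebraMap C C₁)).IsPrime := Ideal.comap_isPrime _ _
  have hQq : (Q₁.comap (algebraMap C C₁)).comap (algebraMap R C) = q :=
    (hcomap Q₁).trans (h𝒬₁ Q₁ hQ₁).2
  rcases primesOver_eq_singleton_or_card_eq G hp hG q (Q₁.comap (algebraMap C C₁)) hQq with
    h1 | h2
  · exfalso
    refine absurd (card_le_card_of_isInvariant H (Q₁.comap (algebraMap C C₁)) 𝒬₁ ?_)
      (not_le.mpr hcard)
    intro Q' hQ'
    refine ⟨(h𝒬₁ Q' hQ').1, ?_⟩
    have := (h𝒬₁ Q' hQ').1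
    have hmem : Q'.comap (algebraMap C C₁) ∈ q.primesOver C :=
      ⟨Ideal.comap_isPrime _ _, ⟨((hcomap Q').trans (h𝒬₁ Q' hQ').2).symm⟩⟩
    rw [h1] at hmem
    exact hmem
  · exact h2

end Descent

section Galois

/-- **Descent of total splitting, Galois form.** `K ⊆ L ⊆ L₁` fields, `L / K` Galois of prime
degree `p`, `L₁ / L` finite Galois; `R` integrally closed with fraction field `K`, `C` the
integral closure of `R` in `L`, `C₁` the integral closure of `C` in `L₁`. If more than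
`[L₁ : L]` primes of `C₁` lie over the ideal `q` of `R`, then `p` primes of `C` lie over `q`. -/
theorem exists_primes_card_eq_of_isGalois (R K L C L₁ C₁ : Type*) [CommRing R] [CommRing C]
    [CommRing C₁] [Field K] [Field L] [Field L₁]
    [Algebra R K] [IsFractionRing R K] [Algebra C L] [IsFractionRing C L] [Algebra R C]
    [Algebra K L] [Algebra R L] [IsScalarTower R K L] [IsScalarTower R C L]
    [IsIntegrallyClosed R] [IsIntegralClosure C R L]
    [Algebra C₁ L₁] [IsFractionRing C₁ L₁] [Algebra C C₁] [Algebra L L₁] [Algebra C L₁]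
    [IsScalarTower C L L₁] [IsScalarTower C C₁ L₁] [IsIntegrallyClosed C]
    [IsIntegralClosure C₁ C L₁] [Algebra R C₁] [IsScalarTower R C C₁]
    [FiniteDimensional K L] [IsGalois K L] [FiniteDimensional L L₁] [IsGalois L L₁]
    {p : ℕ} (hp : p.Prime) (hdeg : Module.finrank K L = p) (q : Ideal R)
    (𝒬₁ : Finset (Ideal C₁)) (h𝒬₁ : ∀ Q ∈ 𝒬₁, Q.IsPrime ∧ Q.comap (algebraMap R C₁) = q)
    (hcard : Module.finrank L L₁ < 𝒬₁.card) :
    ∃ 𝒬 : Finset (Ideal C), 𝒬.card = p ∧
      ∀ Q ∈ 𝒬, Q.IsPrime ∧ Q.comap (algebraMap R C) = q := by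
  have hI : Algebra.IsInvariant R C (C ≃ₐ[R] C) := Algebra.isInvariant_of_isGalois' R K L C
  have hI₁ : Algebra.IsInvariant C C₁ (C₁ ≃ₐ[C] C₁) :=
    Algebra.isInvariant_of_isGalois' C L L₁ C₁
  have hfG : Finite (C ≃ₐ[R] C) := Finite.of_equiv _ (galRestrict R K L C).toEquiv
  have hfH : Finite (C₁ ≃ₐ[C] C₁) := Finite.of_equiv _ (galRestrict C L L₁ C₁).toEquiv
  have hG : Nat.card (C ≃ₐ[R] C) = p := by
    rw [← hdeg, ← IsGalois.card_aut_eq_finrank K L]
    exact Nat.card_congr (galRestrict R K L C).symm.toEquiv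
  have hH : Nat.card (C₁ ≃ₐ[C] C₁) = Module.finrank L L₁ := by
    rw [← IsGalois.card_aut_eq_finrank L L₁]
    exact Nat.card_congr (galRestrict C L L₁ C₁).symm.toEquiv
  exact exists_primes_card_eq (C ≃ₐ[R] C) (C₁ ≃ₐ[C] C₁) hp hG q 𝒬₁ h𝒬₁ (hH ▸ hcard)

end Galois

end Fermat.Agent.S44.L.SplitDescent
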