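import Mathlib

set_option autoImplicit false

open scoped Pointwise

namespace Fermat.Agent.S44.L.UnrDescent

section Core

variable {C C₁ : Type*} [CommRing C] [IsDomain C] [IsIntegrallyClosed C] [CommRing C₁]
  [Algebra C C₁]

/-- **Descent of unramifiedness (principal, elementwise form).** `C` an integrally closed domain,
`C₁ ⊇ C` with `C₁ ^ H = C`, `H` finite; `γ ≠ 0` in `C`, `Q` a prime of `C`. If `C₁` is
unramified over `γ` at every prime `Q₁` over `Q` (for every `x ∈ Q₁` there is `s ∉ Q₁` with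
`s * x ∈ γ C₁`), then `C` is unramified over `γ` at `Q`. -/
theorem exists_notMem_mul_mem_span (H : Type*) [Group H] [Finite H] [MulSemiringAction H C₁]
    [SMulCommClass H C C₁] [Algebra.IsInvariant C C₁ H]
    (hinj : Function.Injective (algebraMap C C₁)) {γ : C} (hγ : γ ≠ 0) (Q : Ideal C) [Q.IsPrime]
    (hU₁ : ∀ Q₁ : Ideal C₁, Q₁.IsPrime → Q₁.comap (algebraMap C C₁) = Q →
      ∀ x ∈ Q₁, ∃ s : C₁, s ∉ Q₁ ∧ s * x ∈ Ideal.span {algebraMap C C₁ γ})
    {x : C} (hx : x ∈ Q) : ∃ s : C, s ∉ Q ∧ s * x ∈ Ideal.span {γ} := by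
  classical
  have := Fintype.ofFinite H
  have hint : Algebra.IsIntegral C C₁ := Algebra.IsInvariant.isIntegral C C₁ H
  -- a prime over `Q`, and all of them
  obtain ⟨Q₀, hQ₀p, hQ₀⟩ : ∃ Q₀ : Ideal C₁, Q₀.IsPrime ∧ Q₀.comap (algebraMap C C₁) = Q := by
    obtain ⟨Q₀, -, h1, h2⟩ := Ideal.exists_ideal_over_prime_of_isIntegral Q (⊥ : Ideal C₁)
      (by
        intro y hy
        rw [Ideal.mem_comap, Ideal.mem_bot, map_eq_zero_iff _ hinj] at hy
        rw [hy]
        exact Q.zero_mem)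
    exact ⟨Q₀, h1, h2⟩
  have hover : ∀ h : H, (h • Q₀).comap (algebraMap C C₁) = Q := fun h =>
    (Ideal.under_smul C Q₀ h).trans hQ₀
  have hprime : ∀ h : H, (h • Q₀).IsPrime := fun h => hQ₀p.smul h
  -- the colon ideal and prime avoidance
  set x₁ : C₁ := algebraMap C C₁ x with hx₁
  set γ₁ : C₁ := algebraMap C C₁ γ with hγ₁
  let J : Ideal C₁ := (Ideal.span {γ₁} : Submodule C₁ C₁).colon {x₁}
  have hJ : ∀ s : C₁, s ∈ J ↔ s * x₁ ∈ Ideal.span {γ₁} := fun s => by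
    simp only [J, Submodule.mem_colon_singleton, smul_eq_mul]
  have hx₁mem : ∀ h : H, x₁ ∈ h • Q₀ := by
    intro h
    have : x ∈ (h • Q₀).comap (algebraMap C C₁) := (hover h).symm ▸ hx
    exact this
  obtain ⟨s₁, hs₁J, hs₁⟩ : ∃ s₁ ∈ J, ∀ h : H, s₁ ∉ h • Q₀ := by
    by_contra hcon
    replace hcon : ∀ s ∈ J, ∃ h : H, s ∈ h • Q₀ := by
      intro s hs
      by_contra hno
      exact hcon ⟨s, hs, fun h hh => hno ⟨h, hh⟩⟩
    have hsub : (J : Set C₁) ⊆ ⋃ h ∈ ((Finset.univ : Finset H) : Set H), ((h • Q₀ : Ideal C₁) : Set C₁) := by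
      intro s hs
      obtain ⟨h, hh⟩ := hcon s hs
      exact Set.mem_biUnion (Finset.mem_coe.mpr (Finset.mem_univ h)) hh
    obtain ⟨h, -, hle⟩ := (Ideal.subset_union_prime (1 : H) 1
      (fun i _ _ _ => hprime i)).mp hsub
    obtain ⟨s, hs, hsx⟩ := hU₁ (h • Q₀) (hprime h) (hover h) x₁ (hx₁mem h)
    exact hs (hle ((hJ s).mpr hsx))
  obtain ⟨c₁, hc₁⟩ := Ideal.mem_span_singleton'.mp ((hJ s₁).mp hs₁J)
  -- norms
  obtain ⟨n, hn⟩ := Algebra.IsInvariant.isInvariant (A := C) (∏ h : H, h • s₁)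
    (Finset.smul_prod_perm s₁)
  obtain ⟨m, hm⟩ := Algebra.IsInvariant.isInvariant (A := C) (∏ h : H, h • c₁)
    (Finset.smul_prod_perm c₁)
  have hnQ : n ∉ Q := by
    intro hnQ
    have h1 : (∏ h : H, h • s₁) ∈ Q₀ := by
      rw [← hn]
      have : n ∈ Q₀.comap (algebraMap C C₁) := hQ₀.symm ▸ hnQ
      exact this
    obtain ⟨h, -, hh⟩ := (hQ₀p.prod_mem_iff).mp h1
    exact hs₁ h⁻¹ (Ideal.mem_inv_pointwise_smul_iff.mpr hh)
  set d := Fintype.card H with hd
  have hd0 : 0 < d := Fintype.card_pos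
  have hrel : n * x ^ d = γ ^ d * m := by
    apply hinj
    rw [map_mul, map_mul, map_pow, map_pow, hn, hm, ← hx₁, ← hγ₁]
    have h2 : ∀ h : H, (h • s₁) * x₁ = γ₁ * (h • c₁) := by
      intro h
      have h3 : h • (c₁ * γ₁) = h • (s₁ * x₁) := by rw [hc₁]
      rw [smul_mul', smul_mul', hγ₁, hx₁, smul_algebraMap, smul_algebraMap] at h3
      rw [← hx₁, ← hγ₁] at h3
      rw [← h3, mul_comm]
    calc (∏ h : H, h • s₁) * x₁ ^ d = ∏ h : H, (h • s₁) * x₁ := by
          rw [Finset.prod_mul_distrib, Finset.prod_const, Finset.card_univ]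
      _ = ∏ h : H, γ₁ * (h • c₁) := Finset.prod_congr rfl fun h _ => h2 h
      _ = γ₁ ^ d * ∏ h : H, h • c₁ := by
          rw [Finset.prod_mul_distrib, Finset.prod_const, Finset.card_univ]
  -- `z := n x / γ` is integral over `C`
  let K := FractionRing C
  have hγK : algebraMap C K γ ≠ 0 := by
    rwa [Ne, map_eq_zero_iff _ (IsFractionRing.injective C K)]
  set z : K := algebraMap C K (n * x) / algebraMap C K γ with hz
  have hzd : z ^ d = algebraMap C K (n ^ (d - 1) * m) := by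
    rw [hz, div_pow, div_eq_iff (pow_ne_zero _ hγK), ← map_pow, ← map_pow, ← map_mul]
    congr 1
    calc (n * x) ^ d = n ^ (d - 1) * (n * x ^ d) := by
          rw [mul_pow, ← mul_assoc, ← pow_succ, Nat.sub_add_cancel hd0]
      _ = n ^ (d - 1) * m * γ ^ d := by rw [hrel]; ring
  have hzint : IsIntegral C z := by
    refine ⟨Polynomial.X ^ d - Polynomial.C (n ^ (d - 1) * m),
      Polynomial.monic_X_pow_sub_C _ hd0.ne', ?_⟩
    simp [hzd]
  obtain ⟨z', hz'⟩ := IsIntegrallyClosed.algebraMap_eq_of_integral hzint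
  refine ⟨n, hnQ, Ideal.mem_span_singleton'.mpr ⟨z', ?_⟩⟩
  apply IsFractionRing.injective C K
  rw [map_mul, hz', hz, div_mul_cancel₀ _ hγK]

end Core

section Shapes

variable {R C C₁ : Type*} [CommRing R] [CommRing C] [CommRing C₁] [Algebra R C] [Algebra C C₁]
  [Algebra R C₁] [IsScalarTower R C C₁]

theorem comap_comap_algebraMap (Q₁ : Ideal C₁) :
    (Q₁.comap (algebraMap C C₁)).comap (algebraMap R C) = Q₁.comap (algebraMap R C₁) := by
  rw [Ideal.comap_comap, ← IsScalarTower.algebraMap_eq]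

/-- Lying over for an integral injective extension, in the `comap` form used below. -/
theorem exists_prime_comap_eq [Algebra.IsIntegral C C₁]
    (hinj : Function.Injective (algebraMap C C₁)) (Q : Ideal C) [Q.IsPrime] :
    ∃ Q₁ : Ideal C₁, Q₁.IsPrime ∧ Q₁.comap (algebraMap C C₁) = Q := by
  obtain ⟨Q₀, -, h1, h2⟩ := Ideal.exists_ideal_over_prime_of_isIntegral Q (⊥ : Ideal C₁)
    (by
      intro y hy
      rw [Ideal.mem_comap, Ideal.mem_bot, map_eq_zero_iff _ hinj] at hy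
      rw [hy]
      exact Q.zero_mem)
  exact ⟨Q₀, h1, h2⟩

/-- **Descent of the unramifiedness hypothesis `hU` of `Purity` (C4)-(C6).** `R → C ⊆ C₁`,
`C` an integrally closed domain, `C₁ ^ H = C` with `H` finite, `g ∈ R` nonzero in `C`. If
`C₁` is unramified over `(g)` at every prime over `(g)`, then so is `C`. -/
theorem unr_descent [IsDomain C] [IsIntegrallyClosed C] (H : Type*) [Group H] [Finite H]
    [MulSemiringAction H C₁] [SMulCommClass H C C₁] [Algebra.IsInvariant C C₁ H]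
    (hinj : Function.Injective (algebraMap C C₁)) {g : R} (hg : algebraMap R C g ≠ 0)
    (hU₁ : ∀ Q₁ : Ideal C₁, Q₁.IsPrime → Q₁.comap (algebraMap R C₁) = Ideal.span {g} →
      ∀ x ∈ Q₁, ∃ s : C₁, s ∉ Q₁ ∧ s * x ∈ (Ideal.span {g}).map (algebraMap R C₁)) :
    ∀ Q : Ideal C, Q.IsPrime → Q.comap (algebraMap R C) = Ideal.span {g} →
      ∀ x ∈ Q, ∃ s : C, s ∉ Q ∧ s * x ∈ (Ideal.span {g}).map (algebraMap R C) := by
  intro Q hQ hQg x hx
  have h1 : (Ideal.span {g}).map (algebraMap R C) = Ideal.span {algebraMap R C g} := by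
    rw [Ideal.map_span, Set.image_singleton]
  have h2 : (Ideal.span {g}).map (algebraMap R C₁) =
      Ideal.span {algebraMap C C₁ (algebraMap R C g)} := by
    rw [Ideal.map_span, Set.image_singleton, ← IsScalarTower.algebraMap_apply]
  rw [h1]
  refine exists_notMem_mul_mem_span H hinj hg Q (fun Q₁ hQ₁ hQ₁Q y hy => ?_) hx
  rw [← h2]
  refine hU₁ Q₁ hQ₁ ?_ y hy
  rw [← comap_comap_algebraMap (R := R) (C := C), hQ₁Q, hQg]

/-- Descent of the hypothesis `htriv` of `DiscrLoc.not_dvd_discr_of_residue_trivial` (C5). -/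
theorem residue_trivial_descent [Algebra.IsIntegral C C₁]
    (hinj : Function.Injective (algebraMap C C₁)) {g : R}
    (htriv₁ : ∀ Q₁ : Ideal C₁, Q₁.IsPrime → Q₁.comap (algebraMap R C₁) = Ideal.span {g} →
      ∀ c : C₁, ∃ r σ : R, σ ∉ Ideal.span {g} ∧
        algebraMap R C₁ σ * c - algebraMap R C₁ r ∈ Q₁) :
    ∀ Q : Ideal C, Q.IsPrime → Q.comap (algebraMap R C) = Ideal.span {g} →
      ∀ c : C, ∃ r σ : R, σ ∉ Ideal.span {g} ∧ algebraMap R C σ * c - algebraMap R C r ∈ Q := by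
  intro Q hQ hQg c
  obtain ⟨Q₁, hQ₁, hQ₁Q⟩ := exists_prime_comap_eq hinj Q
  obtain ⟨r, σ, hσ, hmem⟩ := htriv₁ Q₁ hQ₁
    (by rw [← comap_comap_algebraMap (R := R) (C := C), hQ₁Q, hQg]) (algebraMap C C₁ c)
  refine ⟨r, σ, hσ, ?_⟩
  rw [← hQ₁Q, Ideal.mem_comap, map_sub, map_mul, ← IsScalarTower.algebraMap_apply,
    ← IsScalarTower.algebraMap_apply]
  exact hmem

/-- Descent of the hypothesis `hsep` of `DiscrLoc.not_dvd_discr_of_separable` (C6). -/
theorem separable_descent [Algebra.IsIntegral C C₁]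
    (hinj : Function.Injective (algebraMap C C₁)) {g : R}
    (hsep₁ : ∀ Q₁ : Ideal C₁, Q₁.IsPrime → Q₁.comap (algebraMap R C₁) = Ideal.span {g} →
      ∀ c : C₁, ∃ f : Polynomial R, Polynomial.aeval c f ∈ Q₁ ∧
        Polynomial.aeval c (Polynomial.derivative f) ∉ Q₁) :
    ∀ Q : Ideal C, Q.IsPrime → Q.comap (algebraMap R C) = Ideal.span {g} →
      ∀ c : C, ∃ f : Polynomial R, Polynomial.aeval c f ∈ Q ∧
        Polynomial.aeval c (Polynomial.derivative f) ∉ Q := by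
  intro Q hQ hQg c
  obtain ⟨Q₁, hQ₁, hQ₁Q⟩ := exists_prime_comap_eq hinj Q
  obtain ⟨f, hf, hf'⟩ := hsep₁ Q₁ hQ₁
    (by rw [← comap_comap_algebraMap (R := R) (C := C), hQ₁Q, hQg]) (algebraMap C C₁ c)
  have key : ∀ q : Polynomial R, Polynomial.aeval (algebraMap C C₁ c) q =
      algebraMap C C₁ (Polynomial.aeval c q) := fun q =>
    Polynomial.aeval_algebraMap_apply C₁ c q
  refine ⟨f, ?_, ?_⟩
  · rw [← hQ₁Q, Ideal.mem_comap, ← key]
    exact hf
  · rw [← hQ₁Q, Ideal.mem_comap, ← key]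
    exact hf'

end Shapes

section Trans

variable {R R₁ C₁ : Type*} [CommRing R] [CommRing R₁] [CommRing C₁] [Algebra R R₁]
  [Algebra R₁ C₁] [Algebra R C₁] [IsScalarTower R R₁ C₁]

/-- **Transitivity of unramifiedness** `R → R₁ → C₁`: if `R₁` is unramified over the ideal `I`
of `R` at the prime `P₁ = Q₁ ∩ R₁`, and `C₁` is unramified over `P₁` at `Q₁`, then `C₁` is
unramified over `I` at `Q₁`. -/
theorem unr_trans (I : Ideal R) (Q₁ : Ideal C₁) [Q₁.IsPrime]
    (h₁ : ∀ y ∈ Q₁.comap (algebraMap R₁ C₁), ∃ σ : R₁, σ ∉ Q₁.comap (algebraMap R₁ C₁) ∧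
      σ * y ∈ I.map (algebraMap R R₁))
    (h₂ : ∀ x ∈ Q₁, ∃ s : C₁, s ∉ Q₁ ∧
      s * x ∈ (Q₁.comap (algebraMap R₁ C₁)).map (algebraMap R₁ C₁))
    {x : C₁} (hx : x ∈ Q₁) : ∃ s : C₁, s ∉ Q₁ ∧ s * x ∈ I.map (algebraMap R C₁) := by
  obtain ⟨s, hs, hsx⟩ := h₂ x hx
  have hmap : I.map (algebraMap R C₁) = (I.map (algebraMap R R₁)).map (algebraMap R₁ C₁) := by
    rw [Ideal.map_map, ← IsScalarTower.algebraMap_eq]
  -- every element of `P₁ C₁` is killed into `I C₁` by some `σ ∉ Q₁`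
  have key : ∀ z ∈ (Q₁.comap (algebraMap R₁ C₁)).map (algebraMap R₁ C₁),
      ∃ t : C₁, t ∉ Q₁ ∧ t * z ∈ I.map (algebraMap R C₁) := by
    intro z hz
    refine Submodule.span_induction (p := fun z _ => ∃ t : C₁, t ∉ Q₁ ∧
      t * z ∈ I.map (algebraMap R C₁)) ?_ ?_ ?_ ?_ hz
    · rintro _ ⟨y, hy, rfl⟩
      obtain ⟨σ, hσ, hσy⟩ := h₁ y hy
      refine ⟨algebraMap R₁ C₁ σ, hσ, ?_⟩
      rw [hmap, ← map_mul]
      exact Ideal.mem_map_of_mem _ hσy
    · exact ⟨1, fun h => ‹Q₁.IsPrime›.ne_top ((Ideal.eq_top_iff_one _).mpr h), by simp⟩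
    · rintro a b - - ⟨t, ht, hta⟩ ⟨t', ht', htb⟩
      refine ⟨t * t', fun h => (‹Q₁.IsPrime›.mem_or_mem h).elim ht ht', ?_⟩
      have : t * t' * (a + b) = t' * (t * a) + t * (t' * b) := by ring
      rw [this]
      exact Ideal.add_mem _ (Ideal.mul_mem_left _ _ hta) (Ideal.mul_mem_left _ _ htb)
    · rintro a b - ⟨t, ht, htb⟩
      refine ⟨t, ht, ?_⟩
      have : t * (a • b) = a * (t * b) := by rw [smul_eq_mul]; ring
      rw [this]
      exact Ideal.mul_mem_left _ _ htb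
  obtain ⟨t, ht, htz⟩ := key _ hsx
  exact ⟨t * s, fun h => (‹Q₁.IsPrime›.mem_or_mem h).elim ht hs, by rw [mul_assoc]; exact htz⟩

end Trans

section Galois

/-- `unr_descent` in Galois form: `C` an integrally closed domain with fraction field `L`,
`L₁ / L` finite Galois, `C₁` the integral closure of `C` in `L₁`. -/
theorem unr_descent_of_isGalois {R : Type*} (C L C₁ L₁ : Type*) [CommRing R] [CommRing C]
    [IsDomain C] [IsIntegrallyClosed C] [CommRing C₁] [Field L] [Field L₁]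
    [Algebra R C] [Algebra C C₁] [Algebra R C₁] [IsScalarTower R C C₁]
    [Algebra C L] [IsFractionRing C L] [Algebra C₁ L₁] [IsFractionRing C₁ L₁]
    [Algebra L L₁] [Algebra C L₁] [IsScalarTower C L L₁] [IsScalarTower C C₁ L₁]
    [IsIntegralClosure C₁ C L₁] [FiniteDimensional L L₁] [IsGalois L L₁]
    {g : R} (hg : algebraMap R C g ≠ 0)
    (hU₁ : ∀ Q₁ : Ideal C₁, Q₁.IsPrime → Q₁.comap (algebraMap R C₁) = Ideal.span {g} →
      ∀ x ∈ Q₁, ∃ s : C₁, s ∉ Q₁ ∧ s * x ∈ (Ideal.span {g}).map (algebraMap R C₁)) :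
    ∀ Q : Ideal C, Q.IsPrime → Q.comap (algebraMap R C) = Ideal.span {g} →
      ∀ x ∈ Q, ∃ s : C, s ∉ Q ∧ s * x ∈ (Ideal.span {g}).map (algebraMap R C) := by
  have hI₁ : Algebra.IsInvariant C C₁ (C₁ ≃ₐ[C] C₁) :=
    Algebra.isInvariant_of_isGalois' C L L₁ C₁
  have hfH : Finite (C₁ ≃ₐ[C] C₁) := Finite.of_equiv _ (galRestrict C L L₁ C₁).toEquiv
  have hinj : Function.Injective (algebraMap C C₁) := by
    have h1 : Function.Injective (algebraMap C L₁) := by
      rw [IsScalarTower.algebraMap_eq C L L₁]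
      exact (algebraMap L L₁).injective.comp (IsFractionRing.injective C L)
    rw [IsScalarTower.algebraMap_eq C C₁ L₁] at h1
    exact Function.Injective.of_comp h1
  exact unr_descent (C₁ ≃ₐ[C] C₁) hinj hg hU₁

end Galois

end Fermat.Agent.S44.L.UnrDescent
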