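import Mathlib
import Fermat.Agent.S44.L.DiscrZero
import Fermat.Agent.S44.L.LocalPrincipal

/-!
# Program MR (S44), strand L: from valuations to ideals in codimension one

Level-free commutative algebra (helper196).  Imports Mathlib, `S44/L/DiscrZero` (helper209; it
imports `DiscrLoc`, `DiscrUnr`) and `S44/L/LocalPrincipal` (helper27).

Setting: `R` a domain with fraction field `K`, `g` a prime element of `R`, `w = R_(g)` as a
valuation subring of `K` (`hw`; e.g. `LocalPrincipal.primeValuationSubring K g hg`), `L` a field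
extension of `K`, `S` a domain with fraction field `L`, integral over `R` and integrally closed in
`L` (e.g. the integral closure of `R` in `L`).

The codimension-one inputs of the purity brick (`Purity`, `DiscrLoc`, `DiscrZero`) are in ideal
form on `S`:

* `hU    : ∀ Q prime of S over (g), ∀ x ∈ Q, ∃ s ∉ Q, s * x ∈ g S`            (`e = 1`),
* `htriv : ∀ Q prime of S over (g), ∀ c : S, ∃ r σ : R, σ ∉ (g) ∧ σ c - r ∈ Q`  (`f = 1`).

Here they are deduced from the same facts in valuation form, for all valuation subrings `W` of `L`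
with `W ∩ K = w`:

* `he : ∀ x, W.valuation x < 1 → ∃ y : K, w.valuation y < 1 ∧ W.valuation x ≤ W.valuation y`,
* `hf : ∀ x ∈ W, ∃ a ∈ w, W.valuation (x - a) < 1`

(`unr_of_valuation`, `residue_trivial_of_valuation`), with the one-call exits
`not_dvd_discr_of_valuation_charZero` (horizontal `g`) and `not_dvd_discr_of_valuation_split`
(vertical `g`) into `Purity.unr_integralClosure` / `UnrPur.node_integralClosure_of_basis`.

Proof.  Let `T = S_Q ⊆ L`; it is integrally closed in `L`.  If `x / g ∉ T` there is a valuation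
subring `V ⊇ T` of `L` with `x / g ∉ V` (Mathlib).  Then `g⁻¹ ∉ V`, so `V ∩ K = w`, and the centre
of `V` on `S` is a prime inside `Q` over `(g)`, hence equal to `Q` (incomparability).  So
`V.valuation x < 1`, and `he` gives `V.valuation x ≤ V.valuation g`, i.e. `x / g ∈ V`.
-/

set_option autoImplicit false
set_option linter.style.haveILetI false

namespace Fermat.Agent.S44.L.ValUnr

/-! ### The localisation at a prime inside the fraction field -/

section Core

variable (L : Type*) [Field L] {S : Type*} [CommRing S] [IsDomain S] [Algebra S L]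
  [IsFractionRing S L]

/-- The localisation `S_Q` as a subalgebra of the fraction field `L` of `S`. -/
noncomputable abbrev locSub (Q : Ideal S) [Q.IsPrime] : Subalgebra S L :=
  Localization.subalgebra.ofField L Q.primeCompl Q.primeCompl_le_nonZeroDivisors

theorem mem_locSub_iff (Q : Ideal S) [Q.IsPrime] {x : L} :
    x ∈ locSub L Q ↔ ∃ a s : S, s ∉ Q ∧ x * algebraMap S L s = algebraMap S L a := by
  have hinj : Function.Injective (algebraMap S L) := IsFractionRing.injective S L
  constructor
  · rintro ⟨a, s, hs, rfl⟩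
    have hs0 : algebraMap S L s ≠ 0 := by
      rw [Ne, map_eq_zero_iff _ hinj]
      rintro rfl
      exact hs (Ideal.zero_mem Q)
    exact ⟨a, s, hs, by rw [mul_assoc, inv_mul_cancel₀ hs0, mul_one]⟩
  · rintro ⟨a, s, hs, e⟩
    have hs0 : algebraMap S L s ≠ 0 := by
      rw [Ne, map_eq_zero_iff _ hinj]
      rintro rfl
      exact hs (Ideal.zero_mem Q)
    exact ⟨a, s, hs, by rw [← e, mul_assoc, mul_inv_cancel₀ hs0, mul_one]⟩

theorem isIntegrallyClosedIn_locSub [IsIntegrallyClosedIn S L] (Q : Ideal S) [Q.IsPrime] :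
    IsIntegrallyClosedIn (locSub L Q) L := by
  refine isIntegrallyClosedIn_iff.mpr ⟨FaithfulSMul.algebraMap_injective _ _, fun {x} hx => ?_⟩
  obtain ⟨m, hm⟩ := IsIntegral.exists_multiple_integral_of_isLocalization Q.primeCompl x hx
  obtain ⟨y, hy⟩ := (isIntegrallyClosedIn_iff.mp ‹IsIntegrallyClosedIn S L›).2 hm
  have hmem : x ∈ locSub L Q := by
    rw [mem_locSub_iff]
    exact ⟨y, m, m.2, by rw [hy, Submonoid.smul_def, Algebra.smul_def, mul_comm]⟩
  exact ⟨⟨x, hmem⟩, rfl⟩

end Core

/-! ### The bridge -/

section Bridge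

variable {R : Type*} [CommRing R] {K : Type*} [Field K] [Algebra R K]
  [IsFractionRing R K] {L : Type*} [Field L] [Algebra K L] [Algebra R L] [IsScalarTower R K L]
  {S : Type*} [CommRing S] [IsDomain S] [Algebra R S] [Algebra S L] [IsScalarTower R S L]
  [IsFractionRing S L] [Algebra.IsIntegral R S]

/-- A valuation subring of `L` containing `S_Q` in which `g` is not invertible lies over
`w = R_(g)` and is centred at `Q`. -/
theorem key {g : R} (hg : Prime g) (w : ValuationSubring K)
    (hw : ∀ x : K, x ∈ w ↔ ∃ a b : R, ¬ g ∣ b ∧ x * algebraMap R K b = algebraMap R K a)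
    (Q : Ideal S) [Q.IsPrime] (hQg : Q.comap (algebraMap R S) = Ideal.span {g})
    (V : ValuationSubring L) (hTV : ∀ x ∈ locSub L Q, x ∈ V)
    (hgV : (algebraMap R L g)⁻¹ ∉ V) :
    V.comap (algebraMap K L) = w ∧ (∀ s : S, algebraMap S L s ∈ V) ∧
      (∀ s : S, s ∈ Q → algebraMap S L s ∈ V.nonunits) ∧
      (∀ s : S, s ∉ Q → (algebraMap S L s)⁻¹ ∈ V) := by
  have hinj : Function.Injective (algebraMap S L) := IsFractionRing.injective S L
  have hRK : Function.Injective (algebraMap R K) := IsFractionRing.injective R K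
  have F1 : ∀ s : S, algebraMap S L s ∈ V := fun s =>
    hTV _ ((mem_locSub_iff L Q).mpr ⟨s, 1,
      (Ideal.ne_top_iff_one Q).mp (Ideal.IsPrime.ne_top inferInstance),
      by rw [map_one, mul_one]⟩)
  have F2 : ∀ s : S, s ∉ Q → (algebraMap S L s)⁻¹ ∈ V := fun s hs => by
    have hs0 : algebraMap S L s ≠ 0 := by
      rw [Ne, map_eq_zero_iff _ hinj]
      rintro rfl
      exact hs (Ideal.zero_mem Q)
    exact hTV _ ((mem_locSub_iff L Q).mpr ⟨1, s, hs, by rw [inv_mul_cancel₀ hs0, map_one]⟩)
  have hRQ : ∀ b : R, ¬ g ∣ b → algebraMap R S b ∉ Q := fun b hb hbQ => by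
    have h1 : b ∈ Q.comap (algebraMap R S) := hbQ
    rw [hQg, Ideal.mem_span_singleton] at h1
    exact hb h1
  have hRL : ∀ r : R, algebraMap R L r = algebraMap S L (algebraMap R S r) := fun r =>
    IsScalarTower.algebraMap_apply R S L r
  have hRL' : ∀ r : R, algebraMap R L r = algebraMap K L (algebraMap R K r) := fun r =>
    IsScalarTower.algebraMap_apply R K L r
  have hne : ∀ b : R, ¬ g ∣ b → algebraMap R K b ≠ 0 := fun b hb => by
    rw [Ne, map_eq_zero_iff _ hRK]
    rintro rfl
    exact hb (dvd_zero g)
  have F3 : ∀ y : K, y ∈ w → algebraMap K L y ∈ V := by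
    intro y hy
    obtain ⟨a, b, hb, e⟩ := (hw y).mp hy
    have hb0 : algebraMap R L b ≠ 0 := by
      rw [hRL', Ne, map_eq_zero]
      exact hne b hb
    have e' : algebraMap K L y = algebraMap R L a * (algebraMap R L b)⁻¹ := by
      rw [eq_mul_inv_iff_mul_eq₀ hb0, hRL' a, hRL' b, ← map_mul, e]
    rw [e', hRL a, hRL b]
    exact V.mul_mem _ _ (F1 _) (F2 _ (hRQ b hb))
  refine ⟨?_, F1, ?_, F2⟩
  · ext y
    rw [ValuationSubring.mem_comap]
    constructor
    · intro hyV
      rcases w.mem_or_inv_mem y with h | h
      · exact h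
      · by_cases hy0 : y = 0
        · rw [hy0]
          exact w.zero_mem
        obtain ⟨a, b, hb, e⟩ := (hw y⁻¹).mp h
        have hb0 := hne b hb
        by_cases hga : g ∣ a
        · exfalso
          obtain ⟨a₁, rfl⟩ := hga
          apply hgV
          have hgK : algebraMap R K g ≠ 0 := by
            rw [Ne, map_eq_zero_iff _ hRK]
            exact hg.ne_zero
          have e1 : y * algebraMap R K a₁ * (algebraMap R K b)⁻¹ * algebraMap R K g = 1 := by
            calc y * algebraMap R K a₁ * (algebraMap R K b)⁻¹ * algebraMap R K g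
                = y * algebraMap R K (g * a₁) * (algebraMap R K b)⁻¹ := by rw [map_mul]; ring
              _ = y * (y⁻¹ * algebraMap R K b) * (algebraMap R K b)⁻¹ := by rw [e]
              _ = 1 := by
                rw [← mul_assoc, mul_inv_cancel₀ hy0, one_mul, mul_inv_cancel₀ hb0]
          have e2 : (algebraMap R K g)⁻¹ = y * algebraMap R K a₁ * (algebraMap R K b)⁻¹ :=
            inv_eq_of_mul_eq_one_left e1
          rw [hRL' g, ← map_inv₀, e2, map_mul, map_mul, map_inv₀, ← hRL', ← hRL', hRL a₁, hRL b]
          exact V.mul_mem _ _ (V.mul_mem _ _ hyV (F1 _)) (F2 _ (hRQ b hb))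
        · refine (hw y).mpr ⟨b, a, hga, ?_⟩
          rw [← e, ← mul_assoc, mul_inv_cancel₀ hy0, one_mul]
    · exact F3 y
  · let ψ : S →+* V := (algebraMap S L).codRestrict V F1
    let I : Ideal S := (IsLocalRing.maximalIdeal V).comap ψ
    haveI : I.IsPrime := Ideal.comap_isPrime ψ _
    have hI : ∀ s : S, s ∈ I ↔ algebraMap S L s ∈ V.nonunits := fun s =>
      (ValuationSubring.coe_mem_nonunits_iff (A := V) (a := ψ s)).symm
    have hIQ : I ≤ Q := by
      intro s hs
      by_contra hsQ
      have h1 := F2 s hsQ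
      have h2 := (hI s).mp hs
      rw [ValuationSubring.mem_nonunits_iff_or] at h2
      rcases h2 with h2 | h2
      · exact hsQ (by rw [(map_eq_zero_iff _ hinj).mp h2]; exact Ideal.zero_mem Q)
      · exact h2 h1
    have hgI : algebraMap R S g ∈ I := by
      rw [hI, ← hRL, ValuationSubring.mem_nonunits_iff_or]
      exact Or.inr hgV
    have hIg : I.comap (algebraMap R S) = Ideal.span {g} := by
      apply le_antisymm
      · rw [← hQg]
        exact Ideal.comap_mono hIQ
      · rw [Ideal.span_singleton_le_iff_mem]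
        exact hgI
    have hIeq : I = Q := by
      by_contra hne'
      have hlt : I < Q := lt_of_le_of_ne hIQ hne'
      have h3 := Ideal.IsIntegral.comap_lt_comap (R := R) hlt
      rw [hIg, hQg] at h3
      exact lt_irrefl _ h3
    intro s hs
    rw [← hI, hIeq]
    exact hs

variable [IsIntegrallyClosedIn S L]

/-- **(V0)** Unramifiedness in valuation form (`e = 1` at every valuation subring of `L` over
`w = R_(g)`) gives unramifiedness in ideal form at every prime `Q` of `S` over `(g)`. -/
theorem unr_of_valuation {g : R} (hg : Prime g) (w : ValuationSubring K)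
    (hw : ∀ x : K, x ∈ w ↔ ∃ a b : R, ¬ g ∣ b ∧ x * algebraMap R K b = algebraMap R K a)
    (he : ∀ W : ValuationSubring L, W.comap (algebraMap K L) = w →
      ∀ x : L, W.valuation x < 1 →
        ∃ y : K, w.valuation y < 1 ∧ W.valuation x ≤ W.valuation (algebraMap K L y)) :
    ∀ Q : Ideal S, Q.IsPrime → Q.comap (algebraMap R S) = Ideal.span {g} →
      ∀ x ∈ Q, ∃ s : S, s ∉ Q ∧ s * x ∈ (Ideal.span {g}).map (algebraMap R S) := by
  intro Q hQ hQg x hx
  haveI := hQ
  have hinj : Function.Injective (algebraMap S L) := IsFractionRing.injective S L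
  have hRK : Function.Injective (algebraMap R K) := IsFractionRing.injective R K
  have hRL : ∀ r : R, algebraMap R L r = algebraMap S L (algebraMap R S r) := fun r =>
    IsScalarTower.algebraMap_apply R S L r
  have hRL' : ∀ r : R, algebraMap R L r = algebraMap K L (algebraMap R K r) := fun r =>
    IsScalarTower.algebraMap_apply R K L r
  have hg0 : algebraMap R L g ≠ 0 := by
    rw [hRL', Ne, map_eq_zero, map_eq_zero_iff _ hRK]
    exact hg.ne_zero
  by_cases hT : algebraMap S L x * (algebraMap R L g)⁻¹ ∈ locSub L Q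
  · obtain ⟨a, s, hs, e⟩ := (mem_locSub_iff L Q).mp hT
    refine ⟨s, hs, ?_⟩
    have h1 : s * x = algebraMap R S g * a := by
      apply hinj
      rw [map_mul, map_mul, ← hRL, ← e]
      field_simp
    rw [h1]
    exact Ideal.mul_mem_right _ _ (Ideal.mem_map_of_mem _ (Ideal.mem_span_singleton_self g))
  · exfalso
    haveI := isIntegrallyClosedIn_locSub L Q
    haveI : IsIntegrallyClosedIn (locSub L Q).toSubring L :=
      inferInstanceAs (IsIntegrallyClosedIn (locSub L Q) L)
    obtain ⟨V, hTV, hxV⟩ := Subring.exists_le_valuationSubring_of_isIntegrallyClosedIn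
      (R := (locSub L Q).toSubring) hT
    have hTV' : ∀ z ∈ locSub L Q, z ∈ V := fun z hz => hTV hz
    have hxS : algebraMap S L x ∈ V :=
      hTV' _ ((mem_locSub_iff L Q).mpr ⟨x, 1,
        (Ideal.ne_top_iff_one Q).mp (Ideal.IsPrime.ne_top inferInstance),
        by rw [map_one, mul_one]⟩)
    have hgV : (algebraMap R L g)⁻¹ ∉ V := fun h => hxV (V.mul_mem _ _ hxS h)
    obtain ⟨hcomap, F1, F5, F2⟩ := key hg w hw Q hQg V hTV' hgV
    obtain ⟨y, hy1, hy2⟩ := he V hcomap (algebraMap S L x) (F5 x hx)
    -- `y = g * c` with `c ∈ w`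
    have hyw : y ∈ w := (w.valuation_le_one_iff y).mp hy1.le
    obtain ⟨a, b, hb, e⟩ := (hw y).mp hyw
    have hb0 : algebraMap R K b ≠ 0 := by
      rw [Ne, map_eq_zero_iff _ hRK]
      rintro rfl
      exact hb (dvd_zero g)
    have hga : g ∣ a := by
      by_contra hga
      have hy1' : y ∈ w.nonunits := hy1
      rw [ValuationSubring.mem_nonunits_iff_or] at hy1'
      rcases hy1' with h0 | h0
      · apply hga
        rw [h0, zero_mul] at e
        rw [(map_eq_zero_iff _ hRK).mp e.symm]
        exact dvd_zero g
      · apply h0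
        have hy0 : y ≠ 0 := by
          rintro rfl
          rw [zero_mul] at e
          apply hga
          rw [(map_eq_zero_iff _ hRK).mp e.symm]
          exact dvd_zero g
        refine (hw y⁻¹).mpr ⟨b, a, hga, ?_⟩
        rw [← e, ← mul_assoc, inv_mul_cancel₀ hy0, one_mul]
    obtain ⟨a₁, rfl⟩ := hga
    have hyL : algebraMap K L y =
        algebraMap R L g * (algebraMap R L a₁ * (algebraMap R L b)⁻¹) := by
      have hbL : algebraMap R L b ≠ 0 := by
        rw [hRL', Ne, map_eq_zero]
        exact hb0
      rw [← mul_assoc, eq_mul_inv_iff_mul_eq₀ hbL, hRL' g, hRL' a₁, hRL' b, ← map_mul, ← map_mul,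
        e, map_mul]
    have hcV : algebraMap R L a₁ * (algebraMap R L b)⁻¹ ∈ V := by
      rw [hRL a₁, hRL b]
      refine V.mul_mem _ _ (F1 _) (F2 _ ?_)
      intro hbQ
      have h1 : b ∈ Q.comap (algebraMap R S) := hbQ
      rw [hQg, Ideal.mem_span_singleton] at h1
      exact hb h1
    have hle : V.valuation (algebraMap S L x) ≤ V.valuation (algebraMap R L g) := by
      refine hy2.trans ?_
      rw [hyL, map_mul]
      exact mul_le_of_le_one_right' ((V.valuation_le_one_iff _).mpr hcV)
    apply hxV
    rw [← V.valuation_le_one_iff, map_mul, map_inv₀]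
    exact mul_inv_le_one_of_le₀ hle zero_le

/-- **(V1)** Trivial residue extensions in valuation form (`f = 1` at every valuation subring of
`L` over `w = R_(g)`) give trivial residue extensions in ideal form at every prime `Q` of `S`
over `(g)`. -/
theorem residue_trivial_of_valuation {g : R} (hg : Prime g) (w : ValuationSubring K)
    (hw : ∀ x : K, x ∈ w ↔ ∃ a b : R, ¬ g ∣ b ∧ x * algebraMap R K b = algebraMap R K a)
    (hf : ∀ W : ValuationSubring L, W.comap (algebraMap K L) = w →
      ∀ x ∈ W, ∃ a ∈ w, W.valuation (x - algebraMap K L a) < 1) :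
    ∀ Q : Ideal S, Q.IsPrime → Q.comap (algebraMap R S) = Ideal.span {g} →
      ∀ c : S, ∃ r σ : R, σ ∉ Ideal.span {g} ∧
        algebraMap R S σ * c - algebraMap R S r ∈ Q := by
  intro Q hQ hQg c
  haveI := hQ
  have hinj : Function.Injective (algebraMap S L) := IsFractionRing.injective S L
  have hRK : Function.Injective (algebraMap R K) := IsFractionRing.injective R K
  have hRL : ∀ r : R, algebraMap R L r = algebraMap S L (algebraMap R S r) := fun r =>
    IsScalarTower.algebraMap_apply R S L r
  have hRL' : ∀ r : R, algebraMap R L r = algebraMap K L (algebraMap R K r) := fun r =>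
    IsScalarTower.algebraMap_apply R K L r
  have hgQ : algebraMap R S g ∈ Q := by
    have h1 : g ∈ Q.comap (algebraMap R S) := by
      rw [hQg]
      exact Ideal.mem_span_singleton_self g
    exact h1
  have hg0 : algebraMap R L g ≠ 0 := by
    rw [hRL', Ne, map_eq_zero, map_eq_zero_iff _ hRK]
    exact hg.ne_zero
  -- `g⁻¹ ∉ S_Q`
  have hT : (algebraMap R L g)⁻¹ ∉ locSub L Q := by
    intro h
    obtain ⟨a, s, hs, e⟩ := (mem_locSub_iff L Q).mp h
    apply hs
    have h1 : s = algebraMap R S g * a := by
      apply hinj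
      rw [map_mul, ← hRL, ← e]
      field_simp
    rw [h1]
    exact Ideal.mul_mem_right _ _ hgQ
  haveI := isIntegrallyClosedIn_locSub L Q
  haveI : IsIntegrallyClosedIn (locSub L Q).toSubring L :=
    inferInstanceAs (IsIntegrallyClosedIn (locSub L Q) L)
  obtain ⟨V, hTV, hgV⟩ := Subring.exists_le_valuationSubring_of_isIntegrallyClosedIn
    (R := (locSub L Q).toSubring) hT
  have hTV' : ∀ z ∈ locSub L Q, z ∈ V := fun z hz => hTV hz
  obtain ⟨hcomap, F1, F5, F2⟩ := key hg w hw Q hQg V hTV' hgV
  obtain ⟨a, haw, hav⟩ := hf V hcomap (algebraMap S L c) (F1 c)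
  obtain ⟨r, σ, hσ, e⟩ := (hw a).mp haw
  refine ⟨r, σ, fun h => hσ (Ideal.mem_span_singleton.mp h), ?_⟩
  by_contra hnQ
  have h1 := F2 _ hnQ
  have h2 : algebraMap S L (algebraMap R S σ * c - algebraMap R S r) ∈ V.nonunits := by
    have h3 : algebraMap S L (algebraMap R S σ * c - algebraMap R S r)
        = algebraMap R L σ * (algebraMap S L c - algebraMap K L a) := by
      rw [map_sub, map_mul, ← hRL, ← hRL, hRL' r, ← e, map_mul, ← hRL']
      ring
    rw [h3, ValuationSubring.mem_nonunits_iff, map_mul]
    refine lt_of_le_of_lt (mul_le_of_le_one_left' ?_) hav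
    rw [V.valuation_le_one_iff, hRL]
    exact F1 _
  rw [ValuationSubring.mem_nonunits_iff_or] at h2
  rcases h2 with h2 | h2
  · exact hnQ (by rw [(map_eq_zero_iff _ hinj).mp h2]; exact Ideal.zero_mem Q)
  · exact h2 h1

end Bridge

/-! ### One-call exits into the purity brick -/

section Exits

variable {R : Type*} [CommRing R] [IsDomain R] {K : Type*} [Field K] [Algebra R K]
  [IsFractionRing R K] {L : Type*} [Field L] [Algebra K L] [Algebra R L] [IsScalarTower R K L]
  [Algebra.IsAlgebraic K L] {ι : Type*} [Fintype ι] [DecidableEq ι]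

/-- `hw` for the valuation subring of a prime element of a factorial domain. -/
theorem hw_primeValuationSubring [UniqueFactorizationMonoid R] {g : R}
    (hg : Prime g) (x : K) :
    x ∈ LocalPrincipal.primeValuationSubring K g hg ↔
      ∃ a b : R, ¬ g ∣ b ∧ x * algebraMap R K b = algebraMap R K a :=
  Iff.rfl

/-- The integral closure of `R` in an algebraic extension `L` of `K = Frac R` has fraction
field `L`. -/
theorem isFractionRing_integralClosure {R : Type*} [CommRing R] [IsDomain R] (K : Type*)
    [Field K] [Algebra R K] [IsFractionRing R K] {L : Type*} [Field L] [Algebra K L]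
    [Algebra R L] [IsScalarTower R K L] [Algebra.IsAlgebraic K L] :
    IsFractionRing (integralClosure R L) L := by
  haveI : Algebra.IsAlgebraic R L :=
    IsFractionRing.comap_isAlgebraic_iff.mpr (inferInstance : Algebra.IsAlgebraic K L)
  refine integralClosure.isFractionRing_of_algebraic (fun x hx => ?_)
  rw [IsScalarTower.algebraMap_apply R K L, map_eq_zero] at hx
  exact (map_eq_zero_iff _ (IsFractionRing.injective R K)).mp hx

/-- **(V2)** Horizontal primes: `R ⧸ (g)` of characteristic zero and `e = 1` at every valuation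
subring of `L` over `w = R_(g)`.  Then `g` does not divide the discriminant of a basis of the
integral closure of `R` in `L`. -/
theorem not_dvd_discr_of_valuation_charZero {g : R} (hg : Prime g)
    [CharZero (R ⧸ Ideal.span {g})] (w : ValuationSubring K)
    (hw : ∀ x : K, x ∈ w ↔ ∃ a b : R, ¬ g ∣ b ∧ x * algebraMap R K b = algebraMap R K a)
    (he : ∀ W : ValuationSubring L, W.comap (algebraMap K L) = w →
      ∀ x : L, W.valuation x < 1 →
        ∃ y : K, w.valuation y < 1 ∧ W.valuation x ≤ W.valuation (algebraMap K L y))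
    (b : Module.Basis ι R (integralClosure R L)) : ¬ g ∣ Algebra.discr R b := by
  haveI : IsFractionRing (integralClosure R L) L := isFractionRing_integralClosure K
  exact DiscrZero.not_dvd_discr_of_charZero b hg (unr_of_valuation hg w hw he)

/-- **(V3)** Vertical primes: `e = 1` and `f = 1` at every valuation subring of `L` over
`w = R_(g)`.  Then `g` does not divide the discriminant of a basis of the integral closure of
`R` in `L`. -/
theorem not_dvd_discr_of_valuation_split {g : R} (hg : Prime g) (w : ValuationSubring K)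
    (hw : ∀ x : K, x ∈ w ↔ ∃ a b : R, ¬ g ∣ b ∧ x * algebraMap R K b = algebraMap R K a)
    (he : ∀ W : ValuationSubring L, W.comap (algebraMap K L) = w →
      ∀ x : L, W.valuation x < 1 →
        ∃ y : K, w.valuation y < 1 ∧ W.valuation x ≤ W.valuation (algebraMap K L y))
    (hf : ∀ W : ValuationSubring L, W.comap (algebraMap K L) = w →
      ∀ x ∈ W, ∃ a ∈ w, W.valuation (x - algebraMap K L a) < 1)
    (b : Module.Basis ι R (integralClosure R L)) : ¬ g ∣ Algebra.discr R b := by
  haveI : IsFractionRing (integralClosure R L) L := isFractionRing_integralClosure K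
  exact DiscrLoc.not_dvd_discr_of_residue_trivial b hg (unr_of_valuation hg w hw he)
    (residue_trivial_of_valuation hg w hw hf)

end Exits

end Fermat.Agent.S44.L.ValUnr
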